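/-
MP40 (row 38) — lead — [TOP-G], part 3: **Burnside in dimension 2 with an involution.**

`E` a 2-dimensional `k`-vector space (`char k ≠ 2`) with an irreducible linear action of a group `G`
containing an element `c` with an eigenbasis `P₊, P₋` for the eigenvalues `1, -1` (complex
conjugation).  Then the operators `ρE g` span `End_k E`.
-/
import Mathlib

set_option autoImplicit false
set_option linter.unusedSectionVars false
set_option linter.unusedVariables false

namespace Fermat.Agent.MP

section Burnside

variable {k : Type*} [Field k] {G : Type*} [Group G] {E : Type*} [AddCommGroup E] [Module k E]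
  (ρE : G →* Module.End k E)

/-- the elementary operator `b j ↦ b i`. -/
noncomputable def elemOp (b : Module.Basis (Fin 2) k E) (i j : Fin 2) : Module.End k E :=
  (b.coord j).smulRight (b i)

theorem elemOp_apply_basis (b : Module.Basis (Fin 2) k E) (i j l : Fin 2) :
    elemOp b i j (b l) = if l = j then b i else 0 := by
  rw [elemOp, LinearMap.smulRight_apply, Module.Basis.coord_apply, Module.Basis.repr_self]
  by_cases h : l = j
  · rw [if_pos h, h, Finsupp.single_eq_same, one_smul]
  · rw [if_neg h, Finsupp.single_eq_of_ne (Ne.symm h), zero_smul]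

/-- every endomorphism is a combination of the elementary operators. -/
theorem end_eq_sum_elemOp (b : Module.Basis (Fin 2) k E) (T : Module.End k E) :
    T = ∑ j : Fin 2, ∑ i : Fin 2, (b.repr (T (b j)) i) • elemOp b i j := by
  apply b.ext
  intro l
  rw [LinearMap.sum_apply]
  simp only [LinearMap.sum_apply, LinearMap.smul_apply, elemOp_apply_basis]
  rw [Finset.sum_eq_single l]
  · simp only [if_true]
    exact (b.sum_repr (T (b l))).symm
  · intro j _ hj
    apply Finset.sum_eq_zero
    intro i _
    rw [if_neg (Ne.symm hj), smul_zero]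
  · intro h
    exact absurd (Finset.mem_univ l) h

/-- **Burnside in dimension 2 with an involution.** -/
theorem span_range_eq_top_of_irreducible (h2 : (2 : k) ≠ 0) (b : Module.Basis (Fin 2) k E)
    (c : G) (hc0 : ρE c (b 0) = b 0) (hc1 : ρE c (b 1) = -b 1)
    (hirr : ∀ U : Submodule k E, (∀ g, ∀ u ∈ U, ρE g u ∈ U) → U = ⊥ ∨ U = ⊤) :
    Submodule.span k (Set.range ρE) = ⊤ := by
  classical
  -- the span is the subalgebra generated
  set B : Subalgebra k (Module.End k E) := Algebra.adjoin k (Set.range ρE) with hB
  have hBspan : Subalgebra.toSubmodule B = Submodule.span k (Set.range ρE) := by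
    rw [hB, Algebra.adjoin_eq_span]
    congr 1
    rw [← MonoidHom.coe_mrange, Submonoid.closure_eq]
  have hρB : ∀ g, ρE g ∈ B := fun g => Algebra.subset_adjoin ⟨g, rfl⟩
  -- the two projections
  set ep : Module.End k E := (2 : k)⁻¹ • (1 + ρE c) with hep
  set em : Module.End k E := (2 : k)⁻¹ • (1 - ρE c) with hem
  have hepB : ep ∈ B := B.smul_mem (B.add_mem B.one_mem (hρB c)) _
  have hemB : em ∈ B := B.smul_mem (B.sub_mem B.one_mem (hρB c)) _
  have hep0 : ep (b 0) = b 0 := by
    rw [hep, LinearMap.smul_apply, LinearMap.add_apply, Module.End.one_apply, hc0, ← two_smul k (b 0),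
      smul_smul, inv_mul_cancel₀ h2, one_smul]
  have hep1 : ep (b 1) = 0 := by
    rw [hep, LinearMap.smul_apply, LinearMap.add_apply, Module.End.one_apply, hc1, add_neg_cancel,
      smul_zero]
  have hem0 : em (b 0) = 0 := by
    rw [hem, LinearMap.smul_apply, LinearMap.sub_apply, Module.End.one_apply, hc0, sub_self,
      smul_zero]
  have hem1 : em (b 1) = b 1 := by
    rw [hem, LinearMap.smul_apply, LinearMap.sub_apply, Module.End.one_apply, hc1, sub_neg_eq_add,
      ← two_smul k (b 1), smul_smul, inv_mul_cancel₀ h2, one_smul]
  have hep_eq : ep = elemOp b 0 0 := by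
    apply b.ext
    intro l
    fin_cases l
    · simp only [Fin.zero_eta]; rw [hep0, elemOp_apply_basis]; simp
    · simp only [Fin.mk_one]; rw [hep1, elemOp_apply_basis]; simp
  have hem_eq : em = elemOp b 1 1 := by
    apply b.ext
    intro l
    fin_cases l
    · simp only [Fin.zero_eta]; rw [hem0, elemOp_apply_basis]; simp
    · simp only [Fin.mk_one]; rw [hem1, elemOp_apply_basis]; simp
  -- general fact: `ep`, `em` in coordinates
  have hep_app : ∀ Q : E, ep Q = (b.repr Q 0) • b 0 := by
    intro Q
    conv_lhs => rw [← b.sum_repr Q]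
    rw [Fin.sum_univ_two, map_add, map_smul, map_smul, hep0, hep1, smul_zero, add_zero]
  have hem_app : ∀ Q : E, em Q = (b.repr Q 1) • b 1 := by
    intro Q
    conv_lhs => rw [← b.sum_repr Q]
    rw [Fin.sum_univ_two, map_add, map_smul, map_smul, hem0, hem1, smul_zero, zero_add]
  -- the off-diagonal operators, from irreducibility
  have hoff : ∀ i j : Fin 2, i ≠ j → ∃ g : G, b.repr (ρE g (b j)) i ≠ 0 := by
    intro i j hij
    by_contra hcon
    simp only [not_exists, not_not] at hcon
    -- the line spanned by `b j` is stable
    have hstab : ∀ g, ∀ u ∈ Submodule.span k {b j}, ρE g u ∈ Submodule.span k {b j} := by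
      intro g u hu
      obtain ⟨t, rfl⟩ := Submodule.mem_span_singleton.mp hu
      rw [map_smul]
      refine Submodule.smul_mem _ _ ?_
      rw [Submodule.mem_span_singleton]
      refine ⟨b.repr (ρE g (b j)) j, ?_⟩
      conv_rhs => rw [← b.sum_repr (ρE g (b j))]
      have hl : ∀ l : Fin 2, l ≠ j → l = i := by
        intro l hl
        have h1 : l.val ≠ j.val := fun h => hl (Fin.ext h)
        have h2 : i.val ≠ j.val := fun h => hij (Fin.ext h)
        apply Fin.ext
        have := l.2
        have := i.2
        have := j.2
        omega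
      rw [Finset.sum_eq_single j]
      · intro l _ hlj
        rw [hl l hlj, hcon g, zero_smul]
      · intro h
        exact absurd (Finset.mem_univ j) h
    rcases hirr _ hstab with h | h
    · have : b j ∈ Submodule.span k {b j} := Submodule.mem_span_singleton_self _
      rw [h, Submodule.mem_bot] at this
      exact b.ne_zero j this
    · have hi : b i ∈ Submodule.span k {b j} := h ▸ Submodule.mem_top
      obtain ⟨t, ht⟩ := Submodule.mem_span_singleton.mp hi
      have h1 : b.repr (t • b j) i = b.repr (b i) i := by rw [ht]
      rw [map_smul, Finsupp.smul_apply, Module.Basis.repr_self, Module.Basis.repr_self,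
        Finsupp.single_eq_same, Finsupp.single_eq_of_ne hij, smul_eq_mul, mul_zero] at h1
      exact one_ne_zero h1.symm
  have h10 : elemOp b 1 0 ∈ B := by
    obtain ⟨g, hg⟩ := hoff 1 0 (by decide)
    have heq : elemOp b 1 0 = (b.repr (ρE g (b 0)) 1)⁻¹ • (em * ρE g * ep) := by
      apply b.ext
      intro l
      fin_cases l
      · simp only [Fin.zero_eta]
        rw [elemOp_apply_basis, if_pos rfl, LinearMap.smul_apply, Module.End.mul_apply,
          Module.End.mul_apply, hep0, hem_app, smul_smul, inv_mul_cancel₀ hg, one_smul]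
      · simp only [Fin.mk_one]
        rw [elemOp_apply_basis, if_neg (by decide), LinearMap.smul_apply, Module.End.mul_apply,
          Module.End.mul_apply, hep1, map_zero (ρE g), map_zero em, smul_zero]
    rw [heq]
    exact B.smul_mem (B.mul_mem (B.mul_mem hemB (hρB g)) hepB) _
  have h01 : elemOp b 0 1 ∈ B := by
    obtain ⟨g, hg⟩ := hoff 0 1 (by decide)
    have heq : elemOp b 0 1 = (b.repr (ρE g (b 1)) 0)⁻¹ • (ep * ρE g * em) := by
      apply b.ext
      intro l
      fin_cases l
      · simp only [Fin.zero_eta]
        rw [elemOp_apply_basis, if_neg (by decide), LinearMap.smul_apply, Module.End.mul_apply,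
          Module.End.mul_apply, hem0, map_zero (ρE g), map_zero ep, smul_zero]
      · simp only [Fin.mk_one]
        rw [elemOp_apply_basis, if_pos rfl, LinearMap.smul_apply, Module.End.mul_apply,
          Module.End.mul_apply, hem1, hep_app, smul_smul, inv_mul_cancel₀ hg, one_smul]
    rw [heq]
    exact B.smul_mem (B.mul_mem (B.mul_mem hepB (hρB g)) hemB) _
  have hall : ∀ i j : Fin 2, elemOp b i j ∈ B := by
    intro i j
    fin_cases i <;> fin_cases j
    · simp only [Fin.zero_eta]; rw [← hep_eq]; exact hepB
    · exact h01
    · exact h10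
    · simp only [Fin.mk_one]; rw [← hem_eq]; exact hemB
  rw [← hBspan, eq_top_iff]
  intro T _
  rw [end_eq_sum_elemOp b T]
  refine Submodule.sum_mem _ fun j _ => Submodule.sum_mem _ fun i _ => ?_
  exact Submodule.smul_mem _ _ (hall i j)

end Burnside

end Fermat.Agent.MP
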