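/-
MP40 (row 38) — lead — [TOP-G], part 1: **the Boston–Lenstra–Ribet lemma** (ring-theoretic form).

`A` a `k`-algebra (`char k ≠ 2`), `π : A → M₂(k)` a surjective algebra homomorphism, `𝒢` a
submonoid of units of `A` spanning `A` such that every `g ∈ 𝒢` satisfies its "characteristic
polynomial": `g² - tr(π g) g + det(π g) = 0`.  Then `π` is injective (so `A ≅ M₂(k)`).

Proof: `ι a := tr(π a) - a` is an anti-involution of `A` (anti-multiplicative on `𝒢` because
`g ι(g) = det(π g)`, hence everywhere by bilinearity); `a ι(a)` is `ι`-fixed, hence a scalar,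
namely `det(π a)`; so every `a ∈ A` satisfies `a² = tr(π a) a - det(π a)`.  For `x ∈ ker π` this
gives `x y + y x = tr(π y) x` for all `y`, and the matrix units finish.
-/
import Mathlib

set_option autoImplicit false
set_option linter.unusedSectionVars false
set_option linter.unusedVariables false

namespace Fermat.Agent.MP

open Matrix

section TwoByTwo

variable {k : Type*} [Field k]

/-- Cayley–Hamilton for `2 × 2` matrices, adjugate form. -/
theorem blr_mul_trace_sub (M : Matrix (Fin 2) (Fin 2) k) :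
    M * (M.trace • (1 : Matrix (Fin 2) (Fin 2) k) - M) = M.det • (1 : Matrix (Fin 2) (Fin 2) k) := by
  ext i j
  fin_cases i <;> fin_cases j <;>
    simp [Matrix.trace_fin_two, Matrix.det_fin_two, Matrix.mul_apply, Fin.sum_univ_two,
      Matrix.one_apply] <;> ring

theorem blr_trace_one : (1 : Matrix (Fin 2) (Fin 2) k).trace = 2 := by
  simp

/-- the matrix units -/
def blrE11 : Matrix (Fin 2) (Fin 2) k := !![1, 0; 0, 0]
/-- the matrix units -/
def blrE22 : Matrix (Fin 2) (Fin 2) k := !![0, 0; 0, 1]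
/-- the matrix units -/
def blrE12 : Matrix (Fin 2) (Fin 2) k := !![0, 1; 0, 0]
/-- the matrix units -/
def blrE21 : Matrix (Fin 2) (Fin 2) k := !![0, 0; 1, 0]

end TwoByTwo

section BLR

variable {k : Type*} [Field k] {A : Type*} [Ring A] [Algebra k A]
  (π : A →ₐ[k] Matrix (Fin 2) (Fin 2) k)

/-- `τ = tr ∘ π`. -/
def blrTr (a : A) : k := (π a).trace

/-- `ι a = τ a - a`. -/
def blrInv (a : A) : A := blrTr π a • (1 : A) - a

theorem blrTr_add (a b : A) : blrTr π (a + b) = blrTr π a + blrTr π b := by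
  simp [blrTr, Matrix.trace_add]

theorem blrTr_smul (c : k) (a : A) : blrTr π (c • a) = c * blrTr π a := by
  simp [blrTr, Matrix.trace_smul]

theorem blrTr_zero : blrTr π 0 = 0 := by simp [blrTr]

theorem blrTr_one : blrTr π 1 = 2 := by
  simp only [blrTr, map_one]
  exact blr_trace_one

theorem blrTr_neg (a : A) : blrTr π (-a) = -blrTr π a := by
  simp [blrTr, Matrix.trace_neg]

theorem blrTr_sub (a b : A) : blrTr π (a - b) = blrTr π a - blrTr π b := by
  simp [blrTr, Matrix.trace_sub]

theorem blrInv_add (a b : A) : blrInv π (a + b) = blrInv π a + blrInv π b := by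
  simp only [blrInv, blrTr_add, add_smul]
  abel

theorem blrInv_smul (c : k) (a : A) : blrInv π (c • a) = c • blrInv π a := by
  simp only [blrInv, blrTr_smul, smul_sub, mul_smul]

theorem blrInv_zero : blrInv π 0 = 0 := by simp [blrInv, blrTr_zero]

theorem blrTr_blrInv (a : A) : blrTr π (blrInv π a) = blrTr π a := by
  rw [blrInv, blrTr_sub, blrTr_smul, blrTr_one]
  ring

theorem blrInv_blrInv (a : A) : blrInv π (blrInv π a) = a := by
  rw [blrInv, blrTr_blrInv, blrInv]
  abel

theorem map_blrInv (a : A) :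
    π (blrInv π a) = (π a).trace • (1 : Matrix (Fin 2) (Fin 2) k) - π a := by
  simp [blrInv, blrTr]

variable (𝒢 : Submonoid A)

/-- `g ι(g) = det(π g)` from the quadratic relation. -/
theorem blr_mul_inv_of_rel {g : A}
    (hrel : g * g - (π g).trace • g + (π g).det • (1 : A) = 0) :
    g * blrInv π g = (π g).det • (1 : A) := by
  rw [blrInv, blrTr, mul_sub, mul_smul_comm, mul_one]
  have h : (π g).det • (1 : A) = (π g).trace • g - g * g := by
    rw [← sub_eq_zero]
    rw [← hrel]
    abel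
  rw [h]

theorem blr_inv_mul_of_rel {g : A}
    (hrel : g * g - (π g).trace • g + (π g).det • (1 : A) = 0) :
    blrInv π g * g = (π g).det • (1 : A) := by
  rw [blrInv, blrTr, sub_mul, smul_mul_assoc, one_mul]
  have h : (π g).det • (1 : A) = (π g).trace • g - g * g := by
    rw [← sub_eq_zero]
    rw [← hrel]
    abel
  rw [h]

/-- `ι` is anti-multiplicative on `𝒢`. -/
theorem blrInv_mul_of_mem
    (hunit : ∀ g ∈ 𝒢, IsUnit g)
    (hrel : ∀ g ∈ 𝒢, g * g - (π g).trace • g + (π g).det • (1 : A) = 0)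
    {g h : A} (hg : g ∈ 𝒢) (hh : h ∈ 𝒢) :
    blrInv π (g * h) = blrInv π h * blrInv π g := by
  have hgh : g * h ∈ 𝒢 := 𝒢.mul_mem hg hh
  have h1 := blr_inv_mul_of_rel π (hrel _ hgh)
  have h2 : blrInv π h * blrInv π g * (g * h) = (π (g * h)).det • (1 : A) := by
    rw [mul_assoc, ← mul_assoc (blrInv π g) g h, blr_inv_mul_of_rel π (hrel _ hg),
      smul_mul_assoc, one_mul, mul_smul_comm, blr_inv_mul_of_rel π (hrel _ hh), smul_smul,
      map_mul, Matrix.det_mul]
  have h3 : (blrInv π (g * h) - blrInv π h * blrInv π g) * (g * h) = 0 := by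
    rw [sub_mul, h1, h2, sub_self]
  have h4 := (hunit _ hgh).mul_left_eq_zero.mp h3
  exact sub_eq_zero.mp h4

/-- `ι` is an anti-automorphism. -/
theorem blrInv_mul
    (hspan : Submodule.span k (𝒢 : Set A) = ⊤)
    (hunit : ∀ g ∈ 𝒢, IsUnit g)
    (hrel : ∀ g ∈ 𝒢, g * g - (π g).trace • g + (π g).det • (1 : A) = 0)
    (a b : A) : blrInv π (a * b) = blrInv π b * blrInv π a := by
  have ha : a ∈ Submodule.span k (𝒢 : Set A) := hspan ▸ Submodule.mem_top
  have hb : b ∈ Submodule.span k (𝒢 : Set A) := hspan ▸ Submodule.mem_top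
  -- first for `b ∈ 𝒢`
  have key : ∀ h ∈ 𝒢, ∀ a : A, blrInv π (a * h) = blrInv π h * blrInv π a := by
    intro h hh a
    have ha : a ∈ Submodule.span k (𝒢 : Set A) := hspan ▸ Submodule.mem_top
    induction ha using Submodule.span_induction with
    | mem g hg => exact blrInv_mul_of_mem π 𝒢 hunit hrel hg hh
    | zero => rw [zero_mul, blrInv_zero, mul_zero]
    | add x y _ _ hx hy => rw [add_mul, blrInv_add, hx, hy, blrInv_add, mul_add]
    | smul c x _ hx => rw [smul_mul_assoc, blrInv_smul, hx, blrInv_smul, mul_smul_comm]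
  induction hb using Submodule.span_induction with
  | mem h hh => exact key h hh a
  | zero => rw [mul_zero, blrInv_zero, zero_mul]
  | add x y _ _ hx hy => rw [mul_add, blrInv_add, hx, hy, blrInv_add, add_mul]
  | smul c x _ hx => rw [mul_smul_comm, blrInv_smul, hx, blrInv_smul, smul_mul_assoc]

/-- **the generalised Cayley–Hamilton identity**: `a ι(a) = det(π a)` for every `a ∈ A`. -/
theorem blr_mul_inv (h2 : (2 : k) ≠ 0)
    (hspan : Submodule.span k (𝒢 : Set A) = ⊤)
    (hunit : ∀ g ∈ 𝒢, IsUnit g)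
    (hrel : ∀ g ∈ 𝒢, g * g - (π g).trace • g + (π g).det • (1 : A) = 0)
    (a : A) : a * blrInv π a = (π a).det • (1 : A) := by
  set s : A := a * blrInv π a with hs
  have hfix : blrInv π s = s := by
    rw [hs, blrInv_mul π 𝒢 hspan hunit hrel, blrInv_blrInv]
  -- `s` is a scalar
  have h3 : (2 : k) • s = blrTr π s • (1 : A) := by
    have : blrTr π s • (1 : A) - s = s := hfix
    rw [two_smul]
    rw [sub_eq_iff_eq_add] at this
    exact this.symm
  have h4 : s = ((2 : k)⁻¹ * blrTr π s) • (1 : A) := by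
    rw [mul_smul, ← h3, smul_smul, inv_mul_cancel₀ h2, one_smul]
  -- compute the scalar through `π`
  have h5 : π s = (π a).det • (1 : Matrix (Fin 2) (Fin 2) k) := by
    rw [hs, map_mul, map_blrInv, blr_mul_trace_sub]
  have h6 : π s = ((2 : k)⁻¹ * blrTr π s) • (1 : Matrix (Fin 2) (Fin 2) k) := by
    conv_lhs => rw [h4]
    rw [map_smul, map_one]
  have h7 : (2 : k)⁻¹ * blrTr π s = (π a).det := by
    have := congrFun (congrFun (h6.symm.trans h5) 0) 0
    simpa using this
  rw [h4, h7]

/-- for `x ∈ ker π`: `x y + y x = tr(π y) x`. -/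
theorem blr_anticomm (h2 : (2 : k) ≠ 0)
    (hspan : Submodule.span k (𝒢 : Set A) = ⊤)
    (hunit : ∀ g ∈ 𝒢, IsUnit g)
    (hrel : ∀ g ∈ 𝒢, g * g - (π g).trace • g + (π g).det • (1 : A) = 0)
    {x : A} (hx : π x = 0) (y : A) : x * y + y * x = blrTr π y • x := by
  have hxy : π (x * y) = 0 := by rw [map_mul, hx, zero_mul]
  have h1 : blrInv π (x * y) = -(x * y) := by
    rw [blrInv, blrTr, hxy, Matrix.trace_zero, zero_smul, zero_sub]
  have h3 : blrInv π x = -x := by
    rw [blrInv, blrTr, hx, Matrix.trace_zero, zero_smul, zero_sub]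
  have h4 := blrInv_mul π 𝒢 hspan hunit hrel x y
  rw [h1, h3, blrInv, sub_mul, smul_mul_assoc, one_mul, smul_neg, mul_neg] at h4
  -- h4 : -(x * y) = -(τ y • x) - -(y * x)
  have h5 : x * y = blrTr π y • x - y * x := by
    have := congrArg (fun t => -t) h4
    simp only [neg_neg, neg_sub] at this
    rw [this]
    abel
  rw [h5]
  abel

/-- the corner lemma: `e x e' = 0` for `x ∈ ker π`. -/
theorem blr_corner (h2 : (2 : k) ≠ 0)
    (hspan : Submodule.span k (𝒢 : Set A) = ⊤)
    (hunit : ∀ g ∈ 𝒢, IsUnit g)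
    (hrel : ∀ g ∈ 𝒢, g * g - (π g).trace • g + (π g).det • (1 : A) = 0)
    {e e' y₀ z₀ : A} (hee' : e * e' = 0) (he'e : e' * e = 0) (he : e * e = e)
    (he' : e' * e' = e')
    (hz : blrTr π (e' * z₀ * e) = 0)
    (hzy : π (e' * z₀ * e * (e * y₀ * e') - e') = 0)
    {x : A} (hx : π x = 0) : e * x * e' = 0 := by
  set x₁ : A := e * x * e' with hx₁
  have hπx₁ : π x₁ = 0 := by rw [hx₁, map_mul, map_mul, hx, mul_zero, zero_mul]
  set z : A := e' * z₀ * e with hzdef
  set y : A := e * y₀ * e' with hydef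
  -- `x₁ z = 0`
  have h1 := blr_anticomm π 𝒢 h2 hspan hunit hrel hπx₁ z
  rw [hz, zero_smul] at h1
  have hex₁ : e * x₁ = x₁ := by rw [hx₁, ← mul_assoc, ← mul_assoc, he]
  have hx₁e' : x₁ * e' = x₁ := by rw [hx₁, mul_assoc, he']
  have hez : e * z = 0 := by rw [hzdef, ← mul_assoc, ← mul_assoc, hee', zero_mul, zero_mul]
  have hx₁z : x₁ * z = 0 := by
    have h := congrArg (fun t => e * t) h1
    simp only [mul_add, mul_zero] at h
    rw [← mul_assoc e x₁ z, hex₁, ← mul_assoc e z x₁, hez, zero_mul, add_zero] at h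
    exact h
  -- `x₁ i = 0` with `i = z y - e'`
  set i : A := z * y - e' with hi
  have hτi : blrTr π i = 0 := by rw [blrTr, hzy, Matrix.trace_zero]
  have h3 := blr_anticomm π 𝒢 h2 hspan hunit hrel hπx₁ i
  rw [hτi, zero_smul] at h3
  have he'x₁ : e' * x₁ = 0 := by rw [hx₁, ← mul_assoc, ← mul_assoc, he'e, zero_mul, zero_mul]
  have hyx₁ : y * x₁ = 0 := by
    rw [hydef, mul_assoc, he'x₁, mul_zero]
  have hix₁ : i * x₁ = 0 := by
    rw [hi, sub_mul, mul_assoc z y x₁, hyx₁, mul_zero, he'x₁, sub_zero]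
  have hx₁i : x₁ * i = -x₁ := by
    rw [hi, mul_sub, ← mul_assoc x₁ z y, hx₁z, zero_mul, zero_sub, hx₁e']
  rw [hix₁, add_zero, hx₁i, neg_eq_zero] at h3
  exact h3

/-- **the Boston–Lenstra–Ribet lemma.** -/
theorem blr_injective (h2 : (2 : k) ≠ 0) (hπ : Function.Surjective π)
    (hspan : Submodule.span k (𝒢 : Set A) = ⊤)
    (hunit : ∀ g ∈ 𝒢, IsUnit g)
    (hrel : ∀ g ∈ 𝒢, g * g - (π g).trace • g + (π g).det • (1 : A) = 0) :
    Function.Injective π := by
  rw [injective_iff_map_eq_zero]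
  intro x hx
  obtain ⟨e, he⟩ := hπ blrE11
  obtain ⟨y₀, hy₀⟩ := hπ blrE12
  obtain ⟨z₀, hz₀⟩ := hπ blrE21
  -- `a * a = τ a • a - det • 1`
  have hCH : ∀ a : A, a * a = blrTr π a • a - (π a).det • (1 : A) := by
    intro a
    have := blr_mul_inv π 𝒢 h2 hspan hunit hrel a
    rw [blrInv, mul_sub, mul_smul_comm, mul_one] at this
    rw [← this]
    abel
  have hee : e * e = e := by
    rw [hCH e, blrTr, he]
    simp [blrE11, Matrix.trace_fin_two, Matrix.det_fin_two]
  set e' : A := 1 - e with he'def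
  have hee' : e * e' = 0 := by rw [he'def, mul_sub, mul_one, hee, sub_self]
  have he'e : e' * e = 0 := by rw [he'def, sub_mul, one_mul, hee, sub_self]
  have he'e' : e' * e' = e' := by
    rw [he'def, mul_sub, mul_one, sub_mul, one_mul, hee, sub_self, sub_zero]
  have hπe' : π e' = blrE22 := by
    rw [he'def, map_sub, map_one, he]
    ext i j
    fin_cases i <;> fin_cases j <;> simp [blrE11, blrE22]
  have hπz : π (e' * z₀ * e) = blrE21 := by
    rw [map_mul, map_mul, hπe', hz₀, he]
    ext i j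
    fin_cases i <;> fin_cases j <;> simp [blrE11, blrE22, blrE21, Matrix.mul_apply, Fin.sum_univ_two]
  have hπy : π (e * y₀ * e') = blrE12 := by
    rw [map_mul, map_mul, hπe', hy₀, he]
    ext i j
    fin_cases i <;> fin_cases j <;> simp [blrE11, blrE22, blrE12, Matrix.mul_apply, Fin.sum_univ_two]
  have hτz : blrTr π (e' * z₀ * e) = 0 := by
    rw [blrTr, hπz]
    simp [blrE21, Matrix.trace_fin_two]
  have hτy : blrTr π (e * y₀ * e') = 0 := by
    rw [blrTr, hπy]
    simp [blrE12, Matrix.trace_fin_two]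
  have hzy : π (e' * z₀ * e * (e * y₀ * e') - e') = 0 := by
    rw [map_sub, map_mul, hπz, hπy, hπe']
    ext i j
    fin_cases i <;> fin_cases j <;> simp [blrE22, blrE12, blrE21]
  have hyz : π (e * y₀ * e' * (e' * z₀ * e) - e) = 0 := by
    rw [map_sub, map_mul, hπz, hπy, he]
    ext i j
    fin_cases i <;> fin_cases j <;> simp [blrE11, blrE12, blrE21]
  have c1 : e * x * e' = 0 :=
    blr_corner π 𝒢 h2 hspan hunit hrel hee' he'e hee he'e' hτz hzy hx
  have c2 : e' * x * e = 0 :=
    blr_corner π 𝒢 h2 hspan hunit hrel he'e hee' he'e' hee hτy hyz hx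
  -- the diagonal corners
  have hτe : blrTr π e = 1 := by
    rw [blrTr, he]
    simp [blrE11, Matrix.trace_fin_two]
  have hτe' : blrTr π e' = 1 := by
    rw [blrTr, hπe']
    simp [blrE22, Matrix.trace_fin_two]
  have d1 : e * x * e = 0 := by
    have h := blr_anticomm π 𝒢 h2 hspan hunit hrel hx e
    rw [hτe, one_smul] at h
    have := congrArg (fun t => e * t) h
    simp only [mul_add] at this
    rw [← mul_assoc e e x, hee, ← mul_assoc] at this
    exact add_eq_right.mp this
  have d2 : e' * x * e' = 0 := by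
    have h := blr_anticomm π 𝒢 h2 hspan hunit hrel hx e'
    rw [hτe', one_smul] at h
    have := congrArg (fun t => e' * t) h
    simp only [mul_add] at this
    rw [← mul_assoc e' e' x, he'e', ← mul_assoc] at this
    exact add_eq_right.mp this
  have hsum : e + e' = 1 := by rw [he'def]; abel
  calc x = (e + e') * x * (e + e') := by rw [hsum, one_mul, mul_one]
    _ = e * x * e + e * x * e' + (e' * x * e + e' * x * e') := by
        rw [add_mul, add_mul, mul_add, mul_add]
    _ = 0 := by rw [c1, c2, d1, d2]; simp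

end BLR

end Fermat.Agent.MP
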