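/-
MP40 (row 38) — lead — [TOP-G], part 2: **from the Boston–Lenstra–Ribet lemma to an equivariant
embedding.**

`k` a field of characteristic `≠ 2`, `G` a group acting `k`-linearly on `E` (2-dimensional, the
operators `ρE g` span `End_k E`) and on `V ≠ 0`, such that every `g` satisfies on `V` the
characteristic polynomial of its action on `E`.  Then there is an injective `k`-linear
`G`-equivariant map `E → V`.

Steps: (a) the subalgebra `A ⊆ End E × End V` generated by the `(ρE g, ρV g)` projects
isomorphically to `End E` (BLR), so there is an algebra homomorphism `θ : End E → End V` with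
`θ (ρE g) = ρV g`; (b) for any unital algebra homomorphism `θ : End E → End V` with `V ≠ 0` there is a
nonzero (hence injective) `φ : E → V` with `φ (S P) = θ S (φ P)` (rank-one idempotents).
-/
import Mathlib
import Fermat.Agent.MP.TOPG_lead_BLR

set_option autoImplicit false
set_option linter.unusedSectionVars false
set_option linter.unusedVariables false

namespace Fermat.Agent.MP

open Matrix

section RankOne

variable {k : Type*} [Field k] {E V : Type*} [AddCommGroup E] [AddCommGroup V] [Module k E]
  [Module k V]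

/-- **(b)**: a unital algebra homomorphism `End E → End V` (`E` finite-dimensional, `V ≠ 0`) comes
with a nonzero semilinear vector: an injective `φ : E → V` with `φ (S P) = θ S (φ P)`. -/
theorem exists_injective_intertwining {ι : Type*} [Fintype ι] [DecidableEq ι] (b : Module.Basis ι k E)
    (θ : Module.End k E →ₐ[k] Module.End k V) [Nontrivial V] :
    ∃ φ : E →ₗ[k] V, Function.Injective φ ∧
      ∀ (S : Module.End k E) (P : E), φ (S P) = θ S (φ P) := by
  obtain ⟨v, hv⟩ := exists_ne (0 : V)
  -- `1 = ∑ᵢ bᵢ ⊗ bᵢ*`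
  have hid : (∑ i, (b.coord i).smulRight (b i) : Module.End k E) = 1 := by
    apply LinearMap.ext
    intro Q
    rw [LinearMap.sum_apply]
    simp only [LinearMap.smulRight_apply, Module.Basis.coord_apply, Module.End.one_apply]
    exact b.sum_repr Q
  have hsum : ∑ i, θ ((b.coord i).smulRight (b i)) v = v := by
    rw [← LinearMap.sum_apply, ← map_sum, hid, map_one, Module.End.one_apply]
  obtain ⟨i, hi⟩ : ∃ i, θ ((b.coord i).smulRight (b i)) v ≠ 0 := by
    by_contra hcon
    simp only [not_exists, not_not] at hcon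
    apply hv
    rw [← hsum]
    exact Finset.sum_eq_zero fun i _ => hcon i
  set lam : E →ₗ[k] k := b.coord i with hlam
  set P₀ : E := b i with hP₀
  have hlamP₀ : lam P₀ = 1 := by
    rw [hlam, hP₀, Module.Basis.coord_apply, Module.Basis.repr_self, Finsupp.single_eq_same]
  set w : V := θ (lam.smulRight P₀) v with hw
  -- composition of rank-one operators
  have hcomp : ∀ (S : Module.End k E) (P : E), S * lam.smulRight P = lam.smulRight (S P) := by
    intro S P
    apply LinearMap.ext
    intro Q
    simp [LinearMap.smulRight_apply]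
  have hidem : ∀ P : E, lam.smulRight P * lam.smulRight P₀ = lam.smulRight P := by
    intro P
    apply LinearMap.ext
    intro Q
    simp [LinearMap.smulRight_apply, hlamP₀]
  -- the map
  let φ : E →ₗ[k] V :=
    { toFun := fun P => θ (lam.smulRight P) w
      map_add' := fun P Q => by
        have : lam.smulRight (P + Q) = lam.smulRight P + lam.smulRight Q := by
          apply LinearMap.ext
          intro R
          simp [LinearMap.smulRight_apply]
        rw [this, map_add, LinearMap.add_apply]
      map_smul' := fun c P => by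
        have : lam.smulRight (c • P) = c • lam.smulRight P := by
          apply LinearMap.ext
          intro R
          rw [LinearMap.smulRight_apply, LinearMap.smul_apply, LinearMap.smulRight_apply,
            smul_comm]
        rw [this, map_smul, LinearMap.smul_apply, RingHom.id_apply] }
  have hφ : ∀ P, φ P = θ (lam.smulRight P) w := fun P => rfl
  have hφS : ∀ (S : Module.End k E) (P : E), φ (S P) = θ S (φ P) := by
    intro S P
    rw [hφ, hφ, ← hcomp, map_mul, Module.End.mul_apply]
  have hφP₀ : φ P₀ = w := by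
    rw [hφ, hw, ← Module.End.mul_apply, ← map_mul, hidem]
  refine ⟨φ, ?_, hφS⟩
  rw [injective_iff_map_eq_zero]
  intro P hP
  by_contra hP0
  -- a functional with value `1` at `P`
  obtain ⟨mu, hmu⟩ : ∃ mu : E →ₗ[k] k, mu P = 1 := by
    obtain ⟨g, hg⟩ := LinearMap.exists_leftInverse_of_injective _
      (LinearMap.ker_toSpanSingleton k hP0)
    refine ⟨g, ?_⟩
    have := LinearMap.congr_fun hg 1
    simpa using this
  have h1 : (mu.smulRight P₀) P = P₀ := by
    rw [LinearMap.smulRight_apply, hmu, one_smul]
  have h2 : φ P₀ = 0 := by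
    rw [← h1, hφS, hP, map_zero]
  rw [hφP₀] at h2
  exact hi h2

end RankOne

section Theta

variable {k : Type*} [Field k] {G : Type*} [Group G] {E V : Type*} [AddCommGroup E]
  [AddCommGroup V] [Module k E] [Module k V]
  (ρE : G →* Module.End k E) (ρV : G →* Module.End k V)

/-- the subalgebra of `End E × End V` generated by the pairs `(ρE g, ρV g)`. -/
def pairAlg : Subalgebra k (Module.End k E × Module.End k V) :=
  Algebra.adjoin k (Set.range (ρE.prod ρV))

/-- the group acting on the pair algebra. -/
def pairRep : G →* ↥(pairAlg ρE ρV) where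
  toFun g := ⟨ρE.prod ρV g, Algebra.subset_adjoin ⟨g, rfl⟩⟩
  map_one' := Subtype.ext (map_one (ρE.prod ρV))
  map_mul' a b := Subtype.ext (map_mul (ρE.prod ρV) a b)

theorem pairRep_coe (g : G) : ((pairRep ρE ρV g : ↥(pairAlg ρE ρV)) :
    Module.End k E × Module.End k V) = (ρE g, ρV g) := rfl

/-- the first projection. -/
def pairFst : ↥(pairAlg ρE ρV) →ₐ[k] Module.End k E :=
  (AlgHom.fst k (Module.End k E) (Module.End k V)).comp (pairAlg ρE ρV).val

/-- the second projection. -/
def pairSnd : ↥(pairAlg ρE ρV) →ₐ[k] Module.End k V :=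
  (AlgHom.snd k (Module.End k E) (Module.End k V)).comp (pairAlg ρE ρV).val

theorem pairFst_pairRep (g : G) : pairFst ρE ρV (pairRep ρE ρV g) = ρE g := rfl

theorem pairSnd_pairRep (g : G) : pairSnd ρE ρV (pairRep ρE ρV g) = ρV g := rfl

theorem span_mrange_pairRep :
    Submodule.span k ((MonoidHom.mrange (pairRep ρE ρV) : Submonoid ↥(pairAlg ρE ρV)) :
      Set ↥(pairAlg ρE ρV)) = ⊤ := by
  rw [eq_top_iff]
  rintro ⟨a, ha⟩ -
  have ha' : a ∈ Submodule.span k
      ((Submonoid.closure (Set.range (ρE.prod ρV)) : Submonoid _) : Set _) := by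
    rw [← Algebra.adjoin_eq_span]
    exact ha
  have hcl : Submonoid.closure (Set.range (ρE.prod ρV)) = MonoidHom.mrange (ρE.prod ρV) := by
    rw [← MonoidHom.coe_mrange, Submonoid.closure_eq]
  rw [hcl] at ha'
  -- induction on the span
  have key : ∀ x (hx : x ∈ Submodule.span k
      ((MonoidHom.mrange (ρE.prod ρV) : Submonoid _) : Set _)),
      ∃ hx' : x ∈ pairAlg ρE ρV, (⟨x, hx'⟩ : ↥(pairAlg ρE ρV)) ∈ Submodule.span k
        ((MonoidHom.mrange (pairRep ρE ρV) : Submonoid ↥(pairAlg ρE ρV)) :
          Set ↥(pairAlg ρE ρV)) := by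
    intro x hx
    induction hx using Submodule.span_induction with
    | mem y hy =>
      obtain ⟨g, rfl⟩ := hy
      exact ⟨Algebra.subset_adjoin ⟨g, rfl⟩, Submodule.subset_span ⟨g, rfl⟩⟩
    | zero => exact ⟨Subalgebra.zero_mem _, Submodule.zero_mem _⟩
    | add y z _ _ hy hz =>
      obtain ⟨hy', hy''⟩ := hy
      obtain ⟨hz', hz''⟩ := hz
      exact ⟨Subalgebra.add_mem _ hy' hz', Submodule.add_mem _ hy'' hz''⟩
    | smul c y _ hy =>
      obtain ⟨hy', hy''⟩ := hy
      exact ⟨Subalgebra.smul_mem _ hy' c, Submodule.smul_mem _ c hy''⟩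
  obtain ⟨_, h⟩ := key a ha'
  exact h

/-- Cayley–Hamilton in dimension `2`. -/
theorem end_sq_eq_of_basis (b : Module.Basis (Fin 2) k E) (f : Module.End k E) :
    f * f - (LinearMap.trace k E f) • f + (LinearMap.det f) • (1 : Module.End k E) = 0 := by
  apply (LinearMap.toMatrixAlgEquiv b).injective
  rw [map_zero, map_add, map_sub, map_mul, map_smul, map_smul, map_one]
  have h1 : LinearMap.toMatrixAlgEquiv b f = LinearMap.toMatrix b b f := rfl
  rw [h1, LinearMap.trace_eq_matrix_trace k b f, ← LinearMap.det_toMatrix b f]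
  set M := LinearMap.toMatrix b b f
  have h := blr_mul_trace_sub M
  rw [mul_sub, Matrix.mul_smul, mul_one] at h
  rw [← h]
  abel

variable [Nontrivial V]

/-- **(a)+(b): the equivariant embedding.** -/
theorem exists_equivariant_embedding (h2 : (2 : k) ≠ 0) (b : Module.Basis (Fin 2) k E)
    (hspanE : Submodule.span k (Set.range ρE) = ⊤)
    (hrelV : ∀ g, ρV g * ρV g - (LinearMap.trace k E (ρE g)) • ρV g +
      (LinearMap.det (ρE g)) • (1 : Module.End k V) = 0) :
    ∃ φ : E →ₗ[k] V, Function.Injective φ ∧ ∀ (g : G) (P : E), φ (ρE g P) = ρV g (φ P) := by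
  classical
  -- the projection to matrices
  set π : ↥(pairAlg ρE ρV) →ₐ[k] Matrix (Fin 2) (Fin 2) k :=
    (LinearMap.toMatrixAlgEquiv b).toAlgHom.comp (pairFst ρE ρV) with hπ
  have hπapp : ∀ a, π a = LinearMap.toMatrix b b (pairFst ρE ρV a) := fun a => rfl
  -- surjectivity of the first projection
  have hfst_surj : Function.Surjective (pairFst ρE ρV) := by
    intro T
    have hT : T ∈ Submodule.span k (Set.range ρE) := hspanE ▸ Submodule.mem_top
    induction hT using Submodule.span_induction with
    | mem y hy =>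
      obtain ⟨g, rfl⟩ := hy
      exact ⟨pairRep ρE ρV g, rfl⟩
    | zero => exact ⟨0, map_zero _⟩
    | add y z _ _ hy hz =>
      obtain ⟨y', rfl⟩ := hy
      obtain ⟨z', rfl⟩ := hz
      exact ⟨y' + z', map_add _ _ _⟩
    | smul c y _ hy =>
      obtain ⟨y', rfl⟩ := hy
      exact ⟨c • y', map_smul _ _ _⟩
  have hπ_surj : Function.Surjective π := by
    intro M
    obtain ⟨a, ha⟩ := hfst_surj ((LinearMap.toMatrixAlgEquiv b).symm M)
    refine ⟨a, ?_⟩
    show (LinearMap.toMatrixAlgEquiv b) (pairFst ρE ρV a) = M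
    rw [ha, AlgEquiv.apply_symm_apply]
  -- the relations
  have hrel : ∀ a ∈ MonoidHom.mrange (pairRep ρE ρV),
      a * a - (π a).trace • a + (π a).det • (1 : ↥(pairAlg ρE ρV)) = 0 := by
    rintro _ ⟨g, rfl⟩
    have htr : (π (pairRep ρE ρV g)).trace = LinearMap.trace k E (ρE g) := by
      rw [hπapp, pairFst_pairRep, ← LinearMap.trace_eq_matrix_trace k b]
    have hdet : (π (pairRep ρE ρV g)).det = LinearMap.det (ρE g) := by
      rw [hπapp, pairFst_pairRep, LinearMap.det_toMatrix b]
    rw [htr, hdet]
    apply Subtype.ext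
    apply Prod.ext
    · exact end_sq_eq_of_basis b (ρE g)
    · exact hrelV g
  have hunit : ∀ a ∈ MonoidHom.mrange (pairRep ρE ρV), IsUnit a := by
    rintro _ ⟨g, rfl⟩
    exact (Group.isUnit g).map (pairRep ρE ρV)
  have hπ_inj : Function.Injective π :=
    blr_injective π (MonoidHom.mrange (pairRep ρE ρV)) h2 hπ_surj (span_mrange_pairRep ρE ρV)
      hunit hrel
  have hfst_inj : Function.Injective (pairFst ρE ρV) := by
    intro x y hxy
    apply hπ_inj
    show (LinearMap.toMatrixAlgEquiv b) (pairFst ρE ρV x) =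
      (LinearMap.toMatrixAlgEquiv b) (pairFst ρE ρV y)
    rw [hxy]
  -- the homomorphism `θ`
  let eqv : ↥(pairAlg ρE ρV) ≃ₐ[k] Module.End k E :=
    AlgEquiv.ofBijective (pairFst ρE ρV) ⟨hfst_inj, hfst_surj⟩
  let θ : Module.End k E →ₐ[k] Module.End k V := (pairSnd ρE ρV).comp eqv.symm.toAlgHom
  have hθ : ∀ g, θ (ρE g) = ρV g := by
    intro g
    have h1 : eqv.symm (ρE g) = pairRep ρE ρV g := by
      rw [AlgEquiv.symm_apply_eq]
      rfl
    show pairSnd ρE ρV (eqv.symm (ρE g)) = ρV g
    rw [h1]
    rfl
  obtain ⟨φ, hφinj, hφ⟩ := exists_injective_intertwining b θ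
  exact ⟨φ, hφinj, fun g P => by rw [hφ, hθ]⟩

end Theta

end Fermat.Agent.MP
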