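/-
MP40 (row 38) — lead — [TOP-G], part 4: **from Frobenius elements to all group elements.**

* `pow_rel_of_rel`: if `F² − t F + d = 0` in a `k`-algebra then `(F^m)² − V_m(t,d) F^m + d^m = 0`
  (`V_m` the Lucas sequence `GR.luc`).
* `rel_of_frob`: `ρE`, `ρV` two `k`-linear representations of `G`, `E` of dimension 2.  If every `g`
  is conjugate to an element acting (on `E` and on `V`) as a power of some `φ` which satisfies on `V`
  the characteristic relation of `ρE φ`, then every `g` satisfies on `V` the characteristic relation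
  of `ρE g`.
-/
import Mathlib
import Fermat.Agent.GR.K9B_helper4_Pieces

set_option autoImplicit false
set_option linter.unusedSectionVars false
set_option linter.unusedVariables false

namespace Fermat.Agent.MP

open Fermat.Agent.GR

section Luc

variable {k : Type*} [CommRing k] {R : Type*} [Ring R] [Algebra k R]

/-- the "conjugate root" `t − F` and the Lucas sequence: `F^m + (t − F)^m = V_m(t, d)`. -/
theorem pow_add_conj_pow (F : R) (t d : k) (h : F * F - t • F + d • (1 : R) = 0) (m : ℕ) :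
    F ^ m + (t • (1 : R) - F) ^ m = luc t d m • (1 : R) := by
  set y : R := t • (1 : R) - F with hy
  have hFy : F * y = d • (1 : R) := by
    rw [hy, mul_sub, mul_smul_comm, mul_one]
    have : t • F - F * F = d • (1 : R) := by
      have h' := h
      rw [sub_add_eq_add_sub, sub_eq_zero] at h'
      rw [← h']
      abel
    exact this
  have hyF : y * F = d • (1 : R) := by
    rw [hy, sub_mul, smul_mul_assoc, one_mul]
    have : t • F - F * F = d • (1 : R) := by
      have h' := h
      rw [sub_add_eq_add_sub, sub_eq_zero] at h'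
      rw [← h']
      abel
    exact this
  have hsum : F + y = t • (1 : R) := by rw [hy]; abel
  induction m using Nat.strong_induction_on with
  | _ m ih =>
    match m with
    | 0 =>
      rw [pow_zero, pow_zero, luc_zero, ← one_add_one_eq_two, add_smul, one_smul]
    | 1 =>
      rw [pow_one, pow_one, luc_one]
      exact hsum
    | m + 2 =>
      have h1 := ih (m + 1) (by omega)
      have h0 := ih m (by omega)
      rw [luc_add_two, sub_smul, mul_smul, mul_smul, ← h1, ← h0]
      have e1 : F ^ (m + 2) = F * F ^ (m + 1) := pow_succ' F (m + 1)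
      have e2 : y ^ (m + 2) = y * y ^ (m + 1) := pow_succ' y (m + 1)
      have e3 : t • (F ^ (m + 1) + y ^ (m + 1)) = (F + y) * (F ^ (m + 1) + y ^ (m + 1)) := by
        rw [hsum, smul_mul_assoc, one_mul]
      have e4 : d • (F ^ m + y ^ m) = F * y ^ (m + 1) + y * F ^ (m + 1) := by
        rw [pow_succ' y m, pow_succ' F m, ← mul_assoc, ← mul_assoc, hFy, hyF, smul_mul_assoc,
          smul_mul_assoc, one_mul, one_mul, smul_add, add_comm]
      rw [e1, e2, e3, e4]
      noncomm_ring

/-- **powers of a root of `X² − tX + d` are roots of `X² − V_m X + d^m`.** -/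
theorem pow_rel_of_rel (F : R) (t d : k) (h : F * F - t • F + d • (1 : R) = 0) (m : ℕ) :
    F ^ m * F ^ m - luc t d m • F ^ m + (d ^ m) • (1 : R) = 0 := by
  set y : R := t • (1 : R) - F with hy
  have hyF : y * F = d • (1 : R) := by
    rw [hy, sub_mul, smul_mul_assoc, one_mul]
    have h' := h
    rw [sub_add_eq_add_sub, sub_eq_zero] at h'
    rw [← h']
    abel
  have hcomm : Commute y F := by
    rw [hy]
    have h0 : Commute (t • (1 : R)) F := by
      rw [Algebra.smul_def, mul_one]
      exact Algebra.commute_algebraMap_left t F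
    exact h0.sub_left (Commute.refl F)
  have hpow : y ^ m * F ^ m = (d ^ m) • (1 : R) := by
    rw [← hcomm.mul_pow, hyF, smul_pow, one_pow]
  have hl := pow_add_conj_pow F t d h m
  have e : luc t d m • F ^ m = (F ^ m + y ^ m) * F ^ m := by
    rw [hl, smul_mul_assoc, one_mul]
  rw [e, add_mul, hpow]
  abel

end Luc

section Rel

variable {k : Type*} [Field k] {G : Type*} [Group G] {E V : Type*} [AddCommGroup E]
  [AddCommGroup V] [Module k E] [Module k V] (ρE : G →* Module.End k E)
  (ρV : G →* Module.End k V)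

theorem trace_pow_eq_luc_of_basis (b : Module.Basis (Fin 2) k E) (f : Module.End k E) (m : ℕ) :
    LinearMap.trace k E (f ^ m) = luc (LinearMap.trace k E f) (LinearMap.det f) m := by
  rw [LinearMap.trace_eq_matrix_trace k b, ← LinearMap.toMatrix_pow, trace_pow_eq_luc_fin_two,
    ← LinearMap.trace_eq_matrix_trace k b, LinearMap.det_toMatrix b]

theorem trace_conj_rep (τ g : G) :
    LinearMap.trace k E (ρE (τ * g * τ⁻¹)) = LinearMap.trace k E (ρE g) := by
  have h1 : ρE (τ * g * τ⁻¹) = ρE (τ * g) * ρE τ⁻¹ := map_mul ρE _ _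
  have h2 : ρE τ⁻¹ * ρE (τ * g) = ρE g := by
    rw [← map_mul ρE, inv_mul_cancel_left]
  rw [h1, LinearMap.trace_mul_comm, h2]

theorem det_conj_rep (τ g : G) :
    LinearMap.det (ρE (τ * g * τ⁻¹)) = LinearMap.det (ρE g) := by
  rw [map_mul ρE, map_mul ρE, map_mul, map_mul, mul_comm (LinearMap.det (ρE τ)), mul_assoc,
    ← map_mul, ← map_mul ρE, mul_inv_cancel, map_one, map_one, mul_one]

/-- **from Frobenius elements to all elements.** -/
theorem rel_of_frob (b : Module.Basis (Fin 2) k E)
    (hfrob : ∀ g : G, ∃ (τ φ : G) (m : ℕ), ρE (τ * g * τ⁻¹) = ρE φ ^ m ∧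
      ρV (τ * g * τ⁻¹) = ρV φ ^ m ∧
      ρV φ * ρV φ - (LinearMap.trace k E (ρE φ)) • ρV φ +
        (LinearMap.det (ρE φ)) • (1 : Module.End k V) = 0) (g : G) :
    ρV g * ρV g - (LinearMap.trace k E (ρE g)) • ρV g +
      (LinearMap.det (ρE g)) • (1 : Module.End k V) = 0 := by
  obtain ⟨τ, φ, m, hE, hV, hrel⟩ := hfrob g
  have h1 := pow_rel_of_rel (ρV φ) _ _ hrel m
  have htr : LinearMap.trace k E (ρE g) =
      luc (LinearMap.trace k E (ρE φ)) (LinearMap.det (ρE φ)) m := by
    rw [← trace_conj_rep ρE τ g, hE, trace_pow_eq_luc_of_basis b]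
  have hdet : LinearMap.det (ρE g) = LinearMap.det (ρE φ) ^ m := by
    rw [← det_conj_rep ρE τ g, hE, map_pow]
  rw [← htr, ← hdet, ← hV] at h1
  -- conjugate back
  have hA : ρV τ⁻¹ * ρV τ = 1 := by rw [← map_mul, inv_mul_cancel, map_one]
  have hB : ρV τ * ρV τ⁻¹ = 1 := by rw [← map_mul, mul_inv_cancel, map_one]
  have hc : ρV (τ * g * τ⁻¹) = ρV τ * ρV g * ρV τ⁻¹ := by rw [map_mul, map_mul]
  have h2 : ρV τ * (ρV g * ρV g - (LinearMap.trace k E (ρE g)) • ρV g +
      (LinearMap.det (ρE g)) • (1 : Module.End k V)) * ρV τ⁻¹ = 0 := by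
    rw [← h1, hc]
    have e1 : ρV τ * ρV g * ρV τ⁻¹ * (ρV τ * ρV g * ρV τ⁻¹) = ρV τ * (ρV g * ρV g) * ρV τ⁻¹ := by
      calc ρV τ * ρV g * ρV τ⁻¹ * (ρV τ * ρV g * ρV τ⁻¹)
          = ρV τ * ρV g * (ρV τ⁻¹ * ρV τ) * ρV g * ρV τ⁻¹ := by noncomm_ring
        _ = ρV τ * (ρV g * ρV g) * ρV τ⁻¹ := by rw [hA]; noncomm_ring
    rw [e1, mul_add, mul_sub, add_mul, sub_mul, mul_smul_comm, smul_mul_assoc, mul_smul_comm,
      smul_mul_assoc, mul_one, hB]
  have h3 := congrArg (fun X => ρV τ⁻¹ * X * ρV τ) h2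
  simp only [mul_zero, zero_mul] at h3
  rw [← h3]
  calc ρV g * ρV g - (LinearMap.trace k E (ρE g)) • ρV g +
        (LinearMap.det (ρE g)) • (1 : Module.End k V)
      = (ρV τ⁻¹ * ρV τ) * (ρV g * ρV g - (LinearMap.trace k E (ρE g)) • ρV g +
        (LinearMap.det (ρE g)) • (1 : Module.End k V)) * (ρV τ⁻¹ * ρV τ) := by
        rw [hA, one_mul, mul_one]
    _ = _ := by noncomm_ring

end Rel

end Fermat.Agent.MP
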