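/-
MP40 (row 38) — lead — [TOP-G], part 5: **the abstract copy theorem.**

`G` a group acting additively on abelian groups `J`, `J'`; `p` an odd prime; `UE ≤ J` and `UV ≤ J'`
`G`-stable subgroups killed by `p`, `# UE = p²`, `UE` irreducible, `UV ≠ 0`; an element `c ∈ G` with
eigenvectors for `+1` and `-1` in `UE`; and every `g ∈ G` is conjugate to an element acting on `UE`
and on `UV` as a power of a "Frobenius" `φ` whose trace and determinant on `UE` are (the classes of)
integers `t`, `δ` with `φ² − t φ + δ = 0` on `UV`.  Then there is an injective `G`-equivariant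
additive map `UE → UV`.
-/
import Mathlib
import Fermat.Agent.MP.TOPG_lead_Emb
import Fermat.Agent.MP.TOPG_lead_Burnside
import Fermat.Agent.MP.TOPG_lead_Luc

set_option autoImplicit false
set_option linter.unusedSectionVars false
set_option linter.unusedVariables false
set_option linter.style.haveILetI false

namespace Fermat.Agent.MP

section SubRep

variable {G : Type*} [Group G] {J : Type*} [AddCommGroup J] [DistribMulAction G J]

/-- the action of `g` on a stable subgroup. -/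
def subAct (U : AddSubgroup J) (hG : ∀ (g : G), ∀ u ∈ U, g • u ∈ U) (g : G) : ↥U →+ ↥U where
  toFun u := ⟨g • u.1, hG g u.1 u.2⟩
  map_zero' := Subtype.ext (smul_zero g)
  map_add' x y := Subtype.ext (smul_add g x.1 y.1)

@[simp] theorem subAct_coe (U : AddSubgroup J) (hG : ∀ (g : G), ∀ u ∈ U, g • u ∈ U) (g : G)
    (u : ↥U) : ((subAct U hG g u : ↥U) : J) = g • u.1 := rfl

/-- the representation of `G` on a stable subgroup killed by `p`. -/
def subRep (p : ℕ) (U : AddSubgroup J) (hG : ∀ (g : G), ∀ u ∈ U, g • u ∈ U)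
    [Module (ZMod p) ↥U] : G →* Module.End (ZMod p) ↥U where
  toFun g := (subAct U hG g).toZModLinearMap p
  map_one' := LinearMap.ext fun u => Subtype.ext (one_smul G u.1)
  map_mul' g h := LinearMap.ext fun u => Subtype.ext (mul_smul g h u.1)

@[simp] theorem subRep_apply_coe (p : ℕ) (U : AddSubgroup J)
    (hG : ∀ (g : G), ∀ u ∈ U, g • u ∈ U) [Module (ZMod p) ↥U] (g : G) (u : ↥U) :
    ((subRep p U hG g u : ↥U) : J) = g • u.1 := rfl

end SubRep

section Copy

variable {G : Type*} [Group G] {J J' : Type*} [AddCommGroup J] [AddCommGroup J']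
  [DistribMulAction G J] [DistribMulAction G J'] {p : ℕ} [hp : Fact p.Prime]

/-- the abstract copy theorem, with the module structures as instance arguments. -/
theorem exists_equivariant_copy_core (hp2 : p ≠ 2)
    (UE : AddSubgroup J) (hGE : ∀ (g : G), ∀ u ∈ UE, g • u ∈ UE)
    [mE : Module (ZMod p) ↥UE]
    (hcard : Nat.card ↥UE = p ^ 2)
    (hirr : ∀ U' : AddSubgroup J, U' ≤ UE → (∀ (g : G), ∀ u ∈ U', g • u ∈ U') →
      U' = ⊥ ∨ U' = UE)
    (c : G) (Pp Pm : J) (hPp : Pp ∈ UE) (hPm : Pm ∈ UE) (hPp0 : Pp ≠ 0) (hPm0 : Pm ≠ 0)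
    (hcp : c • Pp = Pp) (hcm : c • Pm = -Pm)
    (UV : AddSubgroup J') (hGV : ∀ (g : G), ∀ v ∈ UV, g • v ∈ UV)
    [mV : Module (ZMod p) ↥UV]
    (hUV0 : ∃ v ∈ UV, v ≠ 0)
    (hfrob : ∀ g : G, ∃ (τ φ : G) (m : ℕ) (t δ : ℤ),
      (∀ u ∈ UE, (τ * g * τ⁻¹) • u = φ ^ m • u) ∧ (∀ v ∈ UV, (τ * g * τ⁻¹) • v = φ ^ m • v) ∧
      (∀ v ∈ UV, φ • φ • v - t • φ • v + δ • v = 0) ∧
      (∀ P ∈ UE, ∀ Q ∈ UE, (∀ x y : ℤ, x • P + y • Q = 0 → (p : ℤ) ∣ x ∧ (p : ℤ) ∣ y) →
        ∀ a b c d : ℤ, φ • P = a • P + c • Q → φ • Q = b • P + d • Q →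
          (p : ℤ) ∣ a + d - t ∧ (p : ℤ) ∣ a * d - b * c - δ)) :
    ∃ f : ↥UE →+ ↥UV, Function.Injective f ∧
      ∀ (g : G) (u : ↥UE), ((f ⟨g • u.1, hGE g u.1 u.2⟩ : ↥UV) : J') = g • (f u).1 := by
  classical
  have hpp : p.Prime := hp.out
  have h2 : (2 : ZMod p) ≠ 0 := by
    intro h
    have h' : ((2 : ℕ) : ZMod p) = 0 := by exact_mod_cast h
    rw [ZMod.natCast_eq_zero_iff] at h'
    exact hp2 ((Nat.prime_dvd_prime_iff_eq hpp Nat.prime_two).mp h')
  -- dimension 2
  haveI : Finite ↥UE := Nat.finite_of_card_ne_zero (by rw [hcard]; exact pow_ne_zero 2 hpp.ne_zero)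
  haveI : Module.Finite (ZMod p) ↥UE := Module.Finite.of_finite
  have hfr : Module.finrank (ZMod p) ↥UE = 2 := by
    have h1 : Nat.card ↥UE = Nat.card (ZMod p) ^ Module.finrank (ZMod p) ↥UE :=
      Module.natCard_eq_pow_finrank
    rw [hcard, Nat.card_zmod] at h1
    exact (Nat.pow_right_injective hpp.two_le h1).symm
  -- the representations
  set ρE : G →* Module.End (ZMod p) ↥UE := subRep p UE hGE with hρE
  set ρV : G →* Module.End (ZMod p) ↥UV := subRep p UV hGV with hρV
  -- the eigenbasis of `c`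
  set ep : ↥UE := ⟨Pp, hPp⟩ with hep
  set em : ↥UE := ⟨Pm, hPm⟩ with hem
  have hep0 : ep ≠ 0 := fun h => hPp0 (congrArg Subtype.val h)
  have hem0 : em ≠ 0 := fun h => hPm0 (congrArg Subtype.val h)
  have hcep : ρE c ep = ep := Subtype.ext hcp
  have hcem : ρE c em = -em := Subtype.ext hcm
  have hli : LinearIndependent (ZMod p) ![ep, em] := by
    rw [LinearIndependent.pair_iff]
    intro s t hst
    have h1 := congrArg (ρE c) hst
    rw [map_add, map_smul, map_smul, hcep, hcem, map_zero, smul_neg] at h1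
    have h3 : (2 * s) • ep = 0 := by
      have := congrArg₂ (· + ·) hst h1
      simp only [add_zero] at this
      rw [← this, mul_smul, two_smul]
      abel
    have hs : s = 0 := by
      rcases smul_eq_zero.mp h3 with h | h
      · exact (mul_eq_zero.mp h).resolve_left h2
      · exact absurd h hep0
    rw [hs, zero_smul, zero_add] at hst
    rcases smul_eq_zero.mp hst with h | h
    · exact ⟨hs, h⟩
    · exact absurd h hem0
  set b : Module.Basis (Fin 2) (ZMod p) ↥UE :=
    basisOfLinearIndependentOfCardEqFinrank hli (by rw [hfr]; rfl) with hb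
  have hb0 : b 0 = ep := by
    rw [hb, coe_basisOfLinearIndependentOfCardEqFinrank]
    rfl
  have hb1 : b 1 = em := by
    rw [hb, coe_basisOfLinearIndependentOfCardEqFinrank]
    rfl
  -- irreducibility
  have hirr' : ∀ U : Submodule (ZMod p) ↥UE, (∀ g, ∀ u ∈ U, ρE g u ∈ U) → U = ⊥ ∨ U = ⊤ := by
    intro U hU
    rcases hirr (U.toAddSubgroup.map UE.subtype)
      (by
        rintro _ ⟨u, _, rfl⟩
        exact u.2)
      (by
        rintro g _ ⟨u, hu, rfl⟩
        exact ⟨ρE g u, hU g u hu, rfl⟩) with h | h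
    · left
      rw [Submodule.eq_bot_iff]
      intro u hu
      have h1 : (u : J) ∈ U.toAddSubgroup.map UE.subtype := ⟨u, hu, rfl⟩
      rw [h, AddSubgroup.mem_bot] at h1
      exact Subtype.ext h1
    · right
      rw [Submodule.eq_top_iff']
      intro u
      have h1 : (u : J) ∈ U.toAddSubgroup.map UE.subtype := by
        rw [h]
        exact u.2
      obtain ⟨u', hu', hu''⟩ := h1
      have : u' = u := Subtype.ext hu''
      rw [← this]
      exact hu'
  have hspanE : Submodule.span (ZMod p) (Set.range ρE) = ⊤ :=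
    span_range_eq_top_of_irreducible ρE h2 b c (by rw [hb0]; exact hcep)
      (by rw [hb1]; exact hcem) hirr'
  -- the relations
  have hrelV : ∀ g, ρV g * ρV g - (LinearMap.trace (ZMod p) ↥UE (ρE g)) • ρV g +
      (LinearMap.det (ρE g)) • (1 : Module.End (ZMod p) ↥UV) = 0 := by
    refine rel_of_frob ρE ρV b ?_
    intro g
    obtain ⟨τ, φ, m, t, δ, hE, hV, hrel, htd⟩ := hfrob g
    refine ⟨τ, φ, m, ?_, ?_, ?_⟩
    · rw [← map_pow]
      apply LinearMap.ext
      intro u
      apply Subtype.ext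
      exact hE u.1 u.2
    · rw [← map_pow]
      apply LinearMap.ext
      intro v
      apply Subtype.ext
      exact hV v.1 v.2
    · -- trace and determinant of `ρE φ`
      set M : Matrix (Fin 2) (Fin 2) (ZMod p) := LinearMap.toMatrix b b (ρE φ) with hM
      have hcol : ∀ j : Fin 2, ρE φ (b j) = M 0 j • b 0 + M 1 j • b 1 := by
        intro j
        have h1 := (b.sum_repr (ρE φ (b j))).symm
        rw [Fin.sum_univ_two] at h1
        rw [hM, LinearMap.toMatrix_apply, LinearMap.toMatrix_apply]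
        exact h1
      have hcolJ : ∀ j : Fin 2, φ • (b j).1 =
          ((M 0 j).cast : ℤ) • (b 0).1 + ((M 1 j).cast : ℤ) • (b 1).1 := by
        intro j
        have h1 := congrArg Subtype.val (hcol j)
        rw [subRep_apply_coe] at h1
        rw [h1]
        have e0 : M 0 j • b 0 = ((M 0 j).cast : ℤ) • b 0 := by
          rw [← Int.cast_smul_eq_zsmul (ZMod p), ZMod.intCast_zmod_cast]
        have e1 : M 1 j • b 1 = ((M 1 j).cast : ℤ) • b 1 := by
          rw [← Int.cast_smul_eq_zsmul (ZMod p), ZMod.intCast_zmod_cast]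
        rw [e0, e1]
        rfl
      have hind : ∀ x y : ℤ, x • (b 0).1 + y • (b 1).1 = 0 → (p : ℤ) ∣ x ∧ (p : ℤ) ∣ y := by
        intro x y hxy
        have h1 : (x : ZMod p) • b 0 + (y : ZMod p) • b 1 = 0 := by
          rw [Int.cast_smul_eq_zsmul, Int.cast_smul_eq_zsmul]
          exact Subtype.ext hxy
        have h3 := LinearIndependent.pair_iff.mp
          (by
            have := b.linearIndependent
            have e : (b : Fin 2 → ↥UE) = ![b 0, b 1] := by
              funext i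
              fin_cases i <;> rfl
            rw [e] at this
            exact this) _ _ h1
        exact ⟨(ZMod.intCast_zmod_eq_zero_iff_dvd x p).mp h3.1,
          (ZMod.intCast_zmod_eq_zero_iff_dvd y p).mp h3.2⟩
      obtain ⟨ht, hd⟩ := htd (b 0).1 (b 0).2 (b 1).1 (b 1).2 hind _ _ _ _ (hcolJ 0) (hcolJ 1)
      have htr : LinearMap.trace (ZMod p) ↥UE (ρE φ) = (t : ZMod p) := by
        rw [LinearMap.trace_eq_matrix_trace (ZMod p) b, ← hM, Matrix.trace_fin_two]
        have := (ZMod.intCast_zmod_eq_zero_iff_dvd _ p).mpr ht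
        push_cast at this
        exact sub_eq_zero.mp this
      have hdet : LinearMap.det (ρE φ) = (δ : ZMod p) := by
        rw [← LinearMap.det_toMatrix b, ← hM, Matrix.det_fin_two]
        have := (ZMod.intCast_zmod_eq_zero_iff_dvd _ p).mpr hd
        push_cast at this
        exact sub_eq_zero.mp this
      rw [htr, hdet]
      apply LinearMap.ext
      intro v
      apply Subtype.ext
      have h1 := hrel v.1 v.2
      rw [LinearMap.zero_apply, LinearMap.add_apply, LinearMap.sub_apply, LinearMap.smul_apply,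
        LinearMap.smul_apply, Module.End.mul_apply, Module.End.one_apply,
        Int.cast_smul_eq_zsmul, Int.cast_smul_eq_zsmul]
      exact h1
  -- the embedding
  haveI : Nontrivial ↥UV := by
    obtain ⟨v, hv, hv0⟩ := hUV0
    exact ⟨⟨⟨v, hv⟩, 0, fun h => hv0 (congrArg Subtype.val h)⟩⟩
  obtain ⟨f, hf, hfg⟩ := exists_equivariant_embedding ρE ρV h2 b hspanE hrelV
  refine ⟨f.toAddMonoidHom, hf, fun g u => ?_⟩
  have := congrArg Subtype.val (hfg g u)
  exact this

/-- **the abstract copy theorem.** -/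
theorem exists_equivariant_copy (hp2 : p ≠ 2)
    (UE : AddSubgroup J) (hUE : ∀ u ∈ UE, p • u = 0) (hGE : ∀ (g : G), ∀ u ∈ UE, g • u ∈ UE)
    (hcard : Nat.card ↥UE = p ^ 2)
    (hirr : ∀ U' : AddSubgroup J, U' ≤ UE → (∀ (g : G), ∀ u ∈ U', g • u ∈ U') →
      U' = ⊥ ∨ U' = UE)
    (c : G) (Pp Pm : J) (hPp : Pp ∈ UE) (hPm : Pm ∈ UE) (hPp0 : Pp ≠ 0) (hPm0 : Pm ≠ 0)
    (hcp : c • Pp = Pp) (hcm : c • Pm = -Pm)
    (UV : AddSubgroup J') (hUV : ∀ v ∈ UV, p • v = 0) (hGV : ∀ (g : G), ∀ v ∈ UV, g • v ∈ UV)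
    (hUV0 : ∃ v ∈ UV, v ≠ 0)
    (hfrob : ∀ g : G, ∃ (τ φ : G) (m : ℕ) (t δ : ℤ),
      (∀ u ∈ UE, (τ * g * τ⁻¹) • u = φ ^ m • u) ∧ (∀ v ∈ UV, (τ * g * τ⁻¹) • v = φ ^ m • v) ∧
      (∀ v ∈ UV, φ • φ • v - t • φ • v + δ • v = 0) ∧
      (∀ P ∈ UE, ∀ Q ∈ UE, (∀ x y : ℤ, x • P + y • Q = 0 → (p : ℤ) ∣ x ∧ (p : ℤ) ∣ y) →
        ∀ a b c d : ℤ, φ • P = a • P + c • Q → φ • Q = b • P + d • Q →
          (p : ℤ) ∣ a + d - t ∧ (p : ℤ) ∣ a * d - b * c - δ)) :
    ∃ f : ↥UE →+ ↥UV, Function.Injective f ∧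
      ∀ (g : G) (u : ↥UE), ((f ⟨g • u.1, hGE g u.1 u.2⟩ : ↥UV) : J') = g • (f u).1 :=
  @exists_equivariant_copy_core G _ J J' _ _ _ _ p hp hp2 UE hGE
    (AddCommGroup.zmodModule (fun x => Subtype.ext (hUE x.1 x.2))) hcard hirr c Pp Pm hPp hPm
    hPp0 hPm0 hcp hcm UV hGV (AddCommGroup.zmodModule (fun x => Subtype.ext (hUV x.1 x.2)))
    hUV0 hfrob

end Copy

end Fermat.Agent.MP
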