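/-
MP40 (row 38: S44 / S40, level lowering at `p`) — helper8 (architect) — **[IFACE]: the contract
between the algebraic top ([TOP-G], [TOP-L]) and the geometry ([PL], [HECKE-R], [ROLD])**, in the
style of `NP/KEY_helper2_Iface` (`KeyNewAt`): pure statements about `JZero _`, the Galois action,
the degeneracy pushforwards, the Hecke operators and cusp forms; no models, no charts.

* `ResOccurs M' p S a` : the eigensystem `a` (modulo a prime above `p`) occurs at level `M'`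
  outside the set of primes `S`: a normalised eigenform `g` of level `Γ₀(M')` and a maximal ideal
  `𝔪 ∋ p` of `ℤ̄` with `a_ℓ(g) ≡ a ℓ mod 𝔪` for all primes `ℓ ∉ S`.  This is the shape of the
  conclusions of S40 (`IsResiduallyModularOfLevel`) and S44 (`ModularRepOfLevel`).
* `PeuAt M' p A x` : **(peu)** for the class `x`: every `τ` in the inertia group at `A` which fixes
  `μ_p` and moves `x` moves an `A`-integral element `r` of the field of definition of `x` by at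
  least `|ζ_p - 1|`.  (For `x` in a copy of `E[p]`: [ECPEU] good reduction, [ECPEU-MULT]
  multiplicative reduction with `p ∣ v_p(Δ)`.)
* `KeyPeuAt M' p A` : **(KEY-PEU)**: a `p`-torsion class `x` of `J₀(M' p)` which is `p`-new, a
  non-Eisenstein eigenvector of the `T_ℓ` (`ℓ ∉ S`) and satisfies (peu) is either of multiplicative
  type for the inertia group at `A` (`σ x = ε̄(σ) x`), or its eigensystem occurs at level `M'`.
-/
import Mathlib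
import Fermat.Agent.NP.KEY_helper2_Iface
import Fermat.Prelude.Def_FLTPrelim_ModularRep

set_option autoImplicit false
set_option linter.unusedSectionVars false
set_option linter.unusedVariables false

open AlgebraicCurve ModularCurve

namespace Fermat.Agent.MP

open Fermat.Agent.S35 Fermat.Agent.NP

/-- `Ω = AlgebraicClosure ℚ`. -/
local notation "Ω" => AlgebraicClosure ℚ

/-- the absolute Galois group. -/
local notation "GQ" => (AlgebraicClosure ℚ ≃ₐ[ℚ] AlgebraicClosure ℚ)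

/-- **the eigensystem `a` occurs residually (above `p`) at level `M'`, outside `S`.** -/
def ResOccurs (M' p : ℕ) (S : Set ℕ) (a : ℕ → ℤ) : Prop :=
  ∃ (g : CuspForm (CongruenceSubgroup.Gamma0 M') 2) (𝔪 : Ideal (integralClosure ℤ ℂ)),
    g.IsNormalizedEigenform ∧ 𝔪.IsMaximal ∧ (p : integralClosure ℤ ℂ) ∈ 𝔪 ∧
    ∀ ℓ : ℕ, ℓ.Prime → ℓ ∉ S →
      ∃ b : integralClosure ℤ ℂ, (b : ℂ) = ModularFormClass.qCoeff g ℓ ∧
        b - ((a ℓ : ℤ) : integralClosure ℤ ℂ) ∈ 𝔪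

theorem ResOccurs.mono {M' p : ℕ} {S T : Set ℕ} {a : ℕ → ℤ} (h : ResOccurs M' p S a)
    (hST : S ⊆ T) : ResOccurs M' p T a := by
  obtain ⟨g, 𝔪, hg, hm, hp, h⟩ := h
  exact ⟨g, 𝔪, hg, hm, hp, fun ℓ hℓ hℓT => h ℓ hℓ fun hS => hℓT (hST hS)⟩

theorem ResOccurs.congr {M' p : ℕ} {S : Set ℕ} {a b : ℕ → ℤ} (h : ResOccurs M' p S a)
    (hab : ∀ ℓ : ℕ, ℓ.Prime → ℓ ∉ S → a ℓ = b ℓ) : ResOccurs M' p S b := by
  obtain ⟨g, 𝔪, hg, hm, hp, h⟩ := h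
  refine ⟨g, 𝔪, hg, hm, hp, fun ℓ hℓ hℓS => ?_⟩
  obtain ⟨c, hc, hc'⟩ := h ℓ hℓ hℓS
  exact ⟨c, hc, by rw [← hab ℓ hℓ hℓS]; exact hc'⟩

/-- the set of primes excluded in `IsResiduallyModularOfLevel`. -/
def badSet (W : WeierstrassCurve ℤ) (p M : ℕ) : Set ℕ :=
  {ℓ | ¬ W.IsGoodPrimeFor ℓ ∨ ℓ ∣ M ∨ ℓ = p}

/-- `ResOccurs` is the Prelude's `IsResiduallyModularOfLevel`. -/
theorem isResiduallyModularOfLevel_iff (W : WeierstrassCurve ℤ) (p M : ℕ) :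
    W.IsResiduallyModularOfLevel p M ↔
      ResOccurs M p (badSet W p M) (fun ℓ => W.apOfModel ℓ) := by
  constructor
  · rintro ⟨f, 𝔪, hf, hm, hp, h⟩
    refine ⟨f, 𝔪, hf, hm, hp, fun ℓ hℓ hℓS => ?_⟩
    have hℓS' : ¬ (¬ W.IsGoodPrimeFor ℓ ∨ ℓ ∣ M ∨ ℓ = p) := hℓS
    rw [not_or, not_or, not_not] at hℓS'
    exact h ℓ hℓ hℓS'.1 hℓS'.2.1 hℓS'.2.2
  · rintro ⟨f, 𝔪, hf, hm, hp, h⟩
    refine ⟨f, 𝔪, hf, hm, hp, fun ℓ hℓ hgood hℓM hℓp => h ℓ hℓ ?_⟩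
    show ¬ (¬ W.IsGoodPrimeFor ℓ ∨ ℓ ∣ M ∨ ℓ = p)
    rw [not_or, not_or, not_not]
    exact ⟨hgood, hℓM, hℓp⟩

/-- **(peu) for the class `x`** at the place `A`. -/
def PeuAt (M' p : ℕ) [NeZero (M' * p)] (A : ValuationSubring Ω) (x : JZero (M' * p)) : Prop :=
  ∀ τ ∈ A.inertiaSubgroupIn ℚ, CycAct p τ 1 → τ • x ≠ x →
    ∃ r : Ω, r ∈ A ∧ (∀ σ : GQ, σ • x = x → σ r = r) ∧ τ r - r ≠ 0 ∧
      ∃ ζ : Ω, IsPrimitiveRoot ζ p ∧ (ζ - 1) / (τ r - r) ∈ A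

/-- **(KEY-PEU)** at one place `A ∣ p`. -/
def KeyPeuAt (M' p : ℕ) [NeZero M'] [NeZero p] [NeZero (M' * p)] (A : ValuationSubring Ω) :
    Prop :=
  ∀ (S : Set ℕ) (a : ℕ → ℤ), (∀ ℓ : ℕ, ℓ.Prime → ℓ ∣ M' * p → ℓ ∈ S) →
    (∃ ℓ : ℕ, ℓ.Prime ∧ ℓ ∉ S ∧ ¬ (a ℓ ≡ (ℓ : ℤ) + 1 [ZMOD (p : ℤ)])) →
    ∀ x : JZero (M' * p), p • x = 0 → degPushAlpha M' p x = 0 → degPushBeta M' p x = 0 →
      (∀ (ℓ : ℕ) (hℓ : ℓ.Prime), ℓ ∉ S → heckeOperatorBar (M' * p) ⟨ℓ, hℓ⟩ x = a ℓ • x) →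
      PeuAt M' p A x →
      (∀ σ ∈ A.inertiaSubgroupIn ℚ, ∀ c : ℕ, CycAct p σ c → σ • x = c • x) ∨
        ResOccurs M' p S a

/-- **(KEY-PEU)** at all places above `p`. -/
def KeyPeu (M' p : ℕ) [NeZero M'] [NeZero p] [NeZero (M' * p)] : Prop :=
  ∀ A : ValuationSubring Ω, A.LiesOverPrime p → KeyPeuAt M' p A

/-- **the geometric input of MP40, all levels, all primes `p ≥ p₀`** (`p₀ = 5` for S44,
`p₀ = 3` for S40). -/
def KeyPeuFrom (p₀ : ℕ) : Prop :=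
  ∀ (M' p : ℕ) [NeZero M'] [NeZero p] [NeZero (M' * p)], p.Prime → p₀ ≤ p → ¬ p ∣ M' →
    KeyPeu M' p

theorem KeyPeuFrom.mono {p₀ p₁ : ℕ} (h : KeyPeuFrom p₀) (h01 : p₀ ≤ p₁) : KeyPeuFrom p₁ :=
  fun M' p _ _ _ hp hp1 hpM => h M' p hp (h01.trans hp1) hpM

end Fermat.Agent.MP
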