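/-
MP40 (row 38: S44 / S40) — lead — **[TOP-G], the interface**: the statement produced by the global
part of the top (packages (G1)–(G3) of finding 410, in the lattice form of the lead's journal):

from a normalised eigenform of level `M' p` (`p ∤ M'`) congruent to the curve `W` (an integral
model of `E`, `E[p]` irreducible, `p` odd), EITHER the eigensystem already occurs at level `M'`
(`ResOccurs`, the `p`-old branch, decided on the lattice `H¹_par(Γ₀(M' p), ℤ)`), OR there is an
injective Galois-equivariant additive map `φ : E[p](ℚ̄) → J₀(M' p)(ℚ̄)` whose image is killed by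
both degeneracy pushforwards to level `M'` and on which `T_ℓ` acts by `a_ℓ(W)` for all good
`ℓ ∤ M' p`.

`TopGStatement` is consumed by [TOP-L] (`KeyPeuAt` on `x = φ Q`, (peu) from [ECPEU]/[ECPEU-MULT],
determinant) and proved in `MP/TOPG_lead_*.lean`.
-/
import Mathlib
import Fermat.Agent.MP.IFACE_helper8_Defs
import Fermat.Agent.GR.TATE_lead_Seq
import Fermat.Prelude.Def_FLTPrelim_GaloisRep

set_option autoImplicit false
set_option linter.unusedSectionVars false
set_option linter.unusedVariables false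

open AlgebraicCurve ModularCurve WeierstrassCurve WeierstrassCurve.Affine
open WeierstrassCurve.Affine.Point

open scoped WeierstrassCurve.Affine

namespace Fermat.Agent.MP

open Fermat.Agent.S35 Fermat.Agent.NP Fermat.Agent.GR

/-- `Ω = AlgebraicClosure ℚ`. -/
local notation "Ω" => AlgebraicClosure ℚ

/-- the absolute Galois group. -/
local notation "GQ" => (AlgebraicClosure ℚ ≃ₐ[ℚ] AlgebraicClosure ℚ)

/-- the Galois action preserves the `n`-torsion of `E(ℚ̄)`. -/
theorem smul_mem_torsionNat_point (E : WeierstrassCurve ℚ) (n : ℕ) (σ : GQ)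
    {Q : (E.toAffine⁄Ω).Point} (hQ : Q ∈ torsionNat (E.toAffine⁄Ω).Point n) :
    σ • Q ∈ torsionNat (E.toAffine⁄Ω).Point n := by
  rw [mem_torsionNat] at hQ ⊢
  have h := map_nsmul (DistribSMul.toAddMonoidHom (E.toAffine⁄Ω).Point σ) n Q
  rw [hQ, _root_.map_zero] at h
  exact h.symm

/-- **a `p`-new Galois-equivariant copy of `E[p]` in `J₀(M' p)`** on which the good Hecke operators
act through the traces of Frobenius of the model `W`. -/
structure NewCopy (E : WeierstrassCurve ℚ) (W : WeierstrassCurve ℤ) (M' p : ℕ) [NeZero M']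
    [NeZero p] [NeZero (M' * p)] where
  /-- the embedding -/
  φ : ↥(torsionNat (E.toAffine⁄Ω).Point p) →+ JZero (M' * p)
  inj : Function.Injective φ
  gal : ∀ (σ : GQ) (Q : ↥(torsionNat (E.toAffine⁄Ω).Point p)),
    φ ⟨σ • Q.1, smul_mem_torsionNat_point E p σ Q.2⟩ = σ • φ Q
  alpha : ∀ Q, degPushAlpha M' p (φ Q) = 0
  beta : ∀ Q, degPushBeta M' p (φ Q) = 0
  hecke : ∀ (ℓ : ℕ) (hℓ : ℓ.Prime), ℓ ∉ badSet W p (M' * p) →
    ∀ Q, heckeOperatorBar (M' * p) ⟨ℓ, hℓ⟩ (φ Q) = W.apOfModel ℓ • φ Q

/-- **[TOP-G]**: the `p`-old branch or a `p`-new copy of `E[p]`. -/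
def TopGStatement : Prop :=
  ∀ (E : WeierstrassCurve ℚ) [E.IsElliptic] {W : WeierstrassCurve ℤ} (_hW : W.IsIntegralModelOf E)
    {M' p : ℕ} [NeZero M'] [NeZero p] [NeZero (M' * p)], p.Prime → p ≠ 2 → ¬ p ∣ M' →
    GaloisRepIsIrreducible (K := Ω) ℚ E p →
    W.IsResiduallyModularOfLevel p (M' * p) →
      ResOccurs M' p (badSet W p (M' * p)) (fun ℓ => W.apOfModel ℓ) ∨
        Nonempty (NewCopy E W M' p)

end Fermat.Agent.MP
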