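/-
MP40 (row 38) — lead — [TOP-G], part 6: **the Galois instantiation of the abstract copy theorem.**

`W` an integral model of `E/ℚ`, `p` odd, `E[p]` irreducible, `V ≤ J₀(N)(ℚ̄)` a non-zero Galois
stable subgroup killed by `p` on which `T_ℓ` acts by `a_ℓ(W)` for the primes `ℓ ∉ badSet W p N`.
Then there is an injective Galois-equivariant additive map `E[p](ℚ̄) → V`:
Frobenius density on a finite level (`GR.exists_frobenius_pow_conj`), Eichler–Shimura on the
`p`-power torsion of `J₀(N)` (`StageIData.frobenius_quadratic`), trace and determinant of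
Frobenius on `E[p]` (`S52x.trace_det_frobenius_mod`), complex conjugation
(`S52x.det_mod_eq_cyclotomic`), and `exists_equivariant_copy`.
-/
import Mathlib
import Fermat.Agent.MP.TOPG_lead_AbsCopy
import Fermat.Agent.MP.TOPG_lead_Iface
import Fermat.Agent.LR.NONEIS_helper3_Main
import Fermat.Agent.S52x.DET_helper3_Mod
import Fermat.Agent.GR.K9B_helper4_Pieces
import Fermat.Agent.GR.ASM_helper8_Done
import Fermat.Agent.TW.Odd_helper1
import Fermat.Agent.S58.ECTATE_helper7_Abs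
import Fermat.Agent.S58.ECTATE_helper9_Asm

set_option autoImplicit false
set_option linter.unusedSectionVars false
set_option linter.unusedVariables false
set_option linter.style.haveILetI false

open AlgebraicCurve ModularCurve WeierstrassCurve WeierstrassCurve.Affine
open WeierstrassCurve.Affine.Point

open scoped WeierstrassCurve.Affine

namespace Fermat.Agent.MP

open Fermat.Agent.S35 Fermat.Agent.NP Fermat.Agent.GR Fermat.Agent.S58 Fermat.Agent.S52x
  Fermat.Agent.LR.NonEis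

/-- `Ω = AlgebraicClosure ℚ`. -/
local notation "Ω" => AlgebraicClosure ℚ

/-- the absolute Galois group. -/
local notation "GQ" => (AlgebraicClosure ℚ ≃ₐ[ℚ] AlgebraicClosure ℚ)

section Conj

variable (W : WeierstrassCurve ℤ) {p : ℕ} [hp : Fact p.Prime]

theorem card_torsionNat_point (hΔ : W.Δ ≠ 0) (hp2 : p ≠ 2) :
    Nat.card ↥(torsionNat (W⁄Ω).Point p) = p ^ 2 :=
  Fermat.Agent.EC.card_torsion_eq (baseChange_Δ_ne_zero W hΔ) hp.out hp2

theorem complexConjugation_smul_smul (P : (W⁄Ω).Point) :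
    complexConjugation • complexConjugation • P = P := by
  rw [← mul_smul, complexConjugation_mul_self, one_smul]

/-- **complex conjugation has the eigenvalues `+1` and `-1` on `E[p]`.** -/
theorem exists_conj_eigenvectors (hΔ : W.Δ ≠ 0) (hp2 : p ≠ 2) :
    ∃ Pp Pm : (W⁄Ω).Point, p • Pp = 0 ∧ p • Pm = 0 ∧ Pp ≠ 0 ∧ Pm ≠ 0 ∧
      complexConjugation • Pp = Pp ∧ complexConjugation • Pm = -Pm := by
  have hpp : p.Prime := hp.out
  obtain ⟨u, v, hu, hv, hind, -⟩ := exists_basis_torsion_prime (J := (W⁄Ω).Point) p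
    (card_torsionNat_point W hΔ hp2)
  have hcyc : ∀ μ : Ω, μ ^ p = 1 → complexConjugation μ = μ ^ (p - 1) := fun μ hμ =>
    Fermat.Agent.TW.Odd.complexConjugation_eq_pow hpp.pos hμ
  have hno : ¬ (p : ℤ) ∣ 2 - (p : ℤ) := by
    intro h
    have h2 : (p : ℤ) ∣ 2 := by
      have := dvd_add h (dvd_refl (p : ℤ))
      simpa using this
    have h3 : p ∣ 2 := by exact_mod_cast h2
    exact hp2 ((Nat.prime_dvd_prime_iff_eq hpp Nat.prime_two).mp h3)
  have hcast : (((p - 1 : ℕ) : ℕ) : ℤ) = (p : ℤ) - 1 := by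
    rw [Nat.cast_sub hpp.one_le]
    simp
  -- a `+1` eigenvector
  have h1 : ∃ P : (W⁄Ω).Point, p • P = 0 ∧ P + complexConjugation • P ≠ 0 := by
    by_contra hcon
    simp only [not_exists, not_and, not_not] at hcon
    have hu' : complexConjugation • u = (-1 : ℤ) • u + (0 : ℤ) • v := by
      rw [zero_zsmul, add_zero, neg_smul, one_smul]
      exact (neg_eq_of_add_eq_zero_right (hcon u hu)).symm
    have hv' : complexConjugation • v = (0 : ℤ) • u + (-1 : ℤ) • v := by
      rw [zero_zsmul, zero_add, neg_smul, one_smul]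
      exact (neg_eq_of_add_eq_zero_right (hcon v hv)).symm
    have := det_mod_eq_cyclotomic W hΔ hp2 u v hu hv hind complexConjugation (-1) 0 0 (-1) hu' hv'
      (p - 1) hcyc
    rw [hcast] at this
    apply hno
    have e : (-1 : ℤ) * -1 - 0 * 0 - ((p : ℤ) - 1) = 2 - (p : ℤ) := by ring
    rw [← e]
    exact this
  -- a `-1` eigenvector
  have h2 : ∃ P : (W⁄Ω).Point, p • P = 0 ∧ P - complexConjugation • P ≠ 0 := by
    by_contra hcon
    simp only [not_exists, not_and, not_not] at hcon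
    have hu' : complexConjugation • u = (1 : ℤ) • u + (0 : ℤ) • v := by
      rw [zero_zsmul, add_zero, one_smul]
      exact (sub_eq_zero.mp (hcon u hu)).symm
    have hv' : complexConjugation • v = (0 : ℤ) • u + (1 : ℤ) • v := by
      rw [zero_zsmul, zero_add, one_smul]
      exact (sub_eq_zero.mp (hcon v hv)).symm
    have := det_mod_eq_cyclotomic W hΔ hp2 u v hu hv hind complexConjugation 1 0 0 1 hu' hv'
      (p - 1) hcyc
    rw [hcast] at this
    apply hno
    have e : (1 : ℤ) * 1 - 0 * 0 - ((p : ℤ) - 1) = 2 - (p : ℤ) := by ring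
    rw [← e]
    exact this
  obtain ⟨P, hP, hP0⟩ := h1
  obtain ⟨Q, hQ, hQ0⟩ := h2
  have hcP : p • (complexConjugation • P) = 0 := nsmul_smul_eq_zero complexConjugation hP
  have hcQ : p • (complexConjugation • Q) = 0 := nsmul_smul_eq_zero complexConjugation hQ
  refine ⟨P + complexConjugation • P, Q - complexConjugation • Q, ?_, ?_, hP0, hQ0, ?_, ?_⟩
  · rw [nsmul_add, hP, hcP, add_zero]
  · rw [nsmul_sub, hQ, hcQ, sub_zero]
  · calc complexConjugation • (P + complexConjugation • P)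
        = complexConjugation • P + complexConjugation • complexConjugation • P :=
          smul_add (M := GQ) (A := (W⁄Ω).Point) complexConjugation P _
      _ = complexConjugation • P + P := by rw [complexConjugation_smul_smul]
      _ = P + complexConjugation • P := add_comm _ _
  · calc complexConjugation • (Q - complexConjugation • Q)
        = complexConjugation • Q - complexConjugation • complexConjugation • Q :=
          smul_sub (M := GQ) (A := (W⁄Ω).Point) complexConjugation Q _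
      _ = complexConjugation • Q - Q := by rw [complexConjugation_smul_smul]
      _ = -(Q - complexConjugation • Q) := (neg_sub _ _).symm

end Conj

section Transport

variable (E : WeierstrassCurve ℚ) [E.IsElliptic] {W : WeierstrassCurve ℤ}

theorem exists_addEquiv_of_eq (E₁ E₂ : WeierstrassCurve ℚ) (h : E₁ = E₂) :
    ∃ e : (E₁.toAffine⁄Ω).Point ≃+ (E₂.toAffine⁄Ω).Point,
      ∀ (σ : GQ) (P : (E₁.toAffine⁄Ω).Point), e (σ • P) = σ • e P := by
  subst h
  exact ⟨AddEquiv.refl _, fun _ _ => rfl⟩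

/-- the Galois-equivariant identification of the points of `E` with those of an integral model. -/
theorem exists_equivariant_addEquiv_model (hW : W.IsIntegralModelOf E) :
    ∃ e : (E.toAffine⁄Ω).Point ≃+ (W.toAffine⁄Ω).Point,
      ∀ (σ : GQ) (P : (E.toAffine⁄Ω).Point), e (σ • P) = σ • e P := by
  obtain ⟨C, hC⟩ := hW
  obtain ⟨e2, he2⟩ := exists_addEquiv_of_eq (C • E) (W.map (Int.castRingHom ℚ)) hC
  refine ⟨((Fermat.Agent.Tate.vcPtBaseChange E C Ω).symm.trans e2).trans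
    (pointCongr (baseChange_map_castRingHom W)), fun σ P => ?_⟩
  have h1 : (Fermat.Agent.Tate.vcPtBaseChange E C Ω).symm (σ • P) =
      σ • (Fermat.Agent.Tate.vcPtBaseChange E C Ω).symm P := by
    apply (Fermat.Agent.Tate.vcPtBaseChange E C Ω).injective
    rw [AddEquiv.apply_symm_apply, ← Fermat.Agent.Tate.smul_vcPtBaseChange,
      AddEquiv.apply_symm_apply]
  show pointCongr (baseChange_map_castRingHom W)
    (e2 ((Fermat.Agent.Tate.vcPtBaseChange E C Ω).symm (σ • P))) = _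
  rw [h1, he2, smul_pointCongr_castRingHom]
  rfl

end Transport

section Fix

variable {J : Type*} [AddCommGroup J] [DistribMulAction GQ J]

/-- a finite set of points with finite fields of definition has a common one. -/
theorem exists_fixingField_of_finite (U : AddSubgroup J) [Finite ↥U]
    (hfix : ∀ x ∈ U, ∃ L : IntermediateField ℚ Ω, FiniteDimensional ℚ L ∧
      ∀ σ : GQ, (∀ a ∈ L, σ a = a) → σ • x = x) :
    ∃ L : IntermediateField ℚ Ω, FiniteDimensional ℚ L ∧
      ∀ σ : GQ, (∀ a ∈ L, σ a = a) → ∀ x ∈ U, σ • x = x := by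
  choose L hLfin hL using hfix
  haveI : ∀ x : ↥U, FiniteDimensional ℚ ↥(L x.1 x.2) := fun x => hLfin x.1 x.2
  refine ⟨⨆ x : ↥U, L x.1 x.2, IntermediateField.finiteDimensional_iSup_of_finite, ?_⟩
  intro σ hσ x hx
  refine hL x hx σ fun a ha => hσ a ?_
  exact (le_iSup (fun x : ↥U => L x.1 x.2) ⟨x, hx⟩) ha

end Fix

section Main

variable (E : WeierstrassCurve ℚ) [E.IsElliptic] {W : WeierstrassCurve ℤ}

/-- **the copy of `E[p]` (points of the integral model) in a Hecke-eigen Galois-stable subgroup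
of `J₀(N)[p]`.** -/
theorem exists_copy_of_eigen_model (hW : W.IsIntegralModelOf E) {N p : ℕ} [NeZero N]
    (hp : p.Prime) (hp2 : p ≠ 2) (hirr : GaloisRepIsIrreducible (K := Ω) ℚ E p)
    (V : AddSubgroup (JZero N)) (hVp : ∀ v ∈ V, p • v = 0)
    (hVG : ∀ σ : GQ, ∀ v ∈ V, σ • v ∈ V) (hV0 : ∃ v ∈ V, v ≠ 0)
    (hVT : ∀ (ℓ : ℕ) (hℓ : ℓ.Prime), ℓ ∉ badSet W p N →
      ∀ v ∈ V, heckeOperatorBar N ⟨ℓ, hℓ⟩ v = W.apOfModel ℓ • v) :
    ∃ f : ↥(torsionNat (W.toAffine⁄Ω).Point p) →+ JZero N, Function.Injective f ∧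
      (∀ (σ : GQ) (Q : ↥(torsionNat (W.toAffine⁄Ω).Point p)),
        f ⟨σ • Q.1, nsmul_smul_eq_zero σ Q.2⟩ = σ • f Q) ∧ ∀ Q, f Q ∈ V := by
  classical
  haveI : Fact p.Prime := ⟨hp⟩
  have hΔ : W.Δ ≠ 0 := Δ_ne_zero_of_isIntegralModelOf E hW
  set I := stageIData N p with hI
  -- the `E`-side subgroup
  set UE : AddSubgroup (W.toAffine⁄Ω).Point := torsionNat (W.toAffine⁄Ω).Point p with hUEdef
  have hUE : ∀ u ∈ UE, p • u = 0 := fun u hu => hu
  have hGE : ∀ (g : GQ), ∀ u ∈ UE, g • u ∈ UE := fun g u hu => nsmul_smul_eq_zero g hu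
  have hcard : Nat.card ↥UE = p ^ 2 := card_torsionNat_point W hΔ hp2
  have habs := absIrr_of_isIntegralModelOf E hW p hirr
  have hirr' : ∀ U' : AddSubgroup (W.toAffine⁄Ω).Point, U' ≤ UE →
      (∀ (g : GQ), ∀ u ∈ U', g • u ∈ U') → U' = ⊥ ∨ U' = UE := by
    intro U' hle hst
    rcases habs.2 U' (fun u hu => hle hu) hst with h | h
    · left
      rw [AddSubgroup.eq_bot_iff_forall]
      exact h
    · right
      exact le_antisymm hle (fun P hP => h P hP)
  obtain ⟨Pp, Pm, hPp, hPm, hPp0, hPm0, hcp, hcm⟩ := exists_conj_eigenvectors W hΔ hp2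
  -- finiteness and the field of definition
  haveI : Finite ↥UE := Nat.finite_of_card_ne_zero (by rw [hcard]; exact pow_ne_zero 2 hp.ne_zero)
  haveI hfinJ : Finite ↥(torsionNat (JZero N) (p ^ 1)) := I.D.finite_torsion 1
  haveI : Finite ↥V := by
    refine Finite.of_injective (fun v : ↥V => (⟨v.1, by
      show p ^ 1 • v.1 = 0
      rw [pow_one]
      exact hVp v.1 v.2⟩ : ↥(torsionNat (JZero N) (p ^ 1)))) ?_
    intro a b hab
    have h1 := congrArg (fun z : ↥(torsionNat (JZero N) (p ^ 1)) => (z : JZero N)) hab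
    exact Subtype.ext h1
  obtain ⟨LE, hLEfin, hLE⟩ := exists_fixingField_of_finite UE
    (fun x _ => asm58_exists_fixingField W x)
  obtain ⟨LV, hLVfin, hLV⟩ := exists_fixingField_of_finite V (fun x _ => I.fix x)
  haveI := hLEfin
  haveI := hLVfin
  set L : IntermediateField ℚ Ω := LE ⊔ LV with hL
  haveI : FiniteDimensional ℚ ↥L := IntermediateField.finiteDimensional_sup LE LV
  -- the bad primes
  set T : Finset ℕ := insert p (W.Δ.natAbs.primeFactors ∪ N.primeFactors) with hT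
  have hTgood : ∀ ℓ : ℕ, ℓ.Prime → ℓ ∉ T → ℓ ≠ p ∧ W.IsGoodPrimeFor ℓ ∧ ¬ ℓ ∣ N := by
    intro ℓ hℓ hℓT
    rw [hT, Finset.mem_insert, not_or, Finset.mem_union, not_or] at hℓT
    refine ⟨hℓT.1, fun hdvd => hℓT.2.1 ?_, fun hdvd => hℓT.2.2 ?_⟩
    · rw [Nat.mem_primeFactors]
      exact ⟨hℓ, Int.natCast_dvd.mp hdvd, Int.natAbs_ne_zero.mpr hΔ⟩
    · rw [Nat.mem_primeFactors]
      exact ⟨hℓ, hdvd, NeZero.ne N⟩
  -- the Frobenius hypothesis
  have hfrob : ∀ g : GQ, ∃ (τ φ : GQ) (m : ℕ) (t δ : ℤ),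
      (∀ u ∈ UE, (τ * g * τ⁻¹) • u = φ ^ m • u) ∧ (∀ v ∈ V, (τ * g * τ⁻¹) • v = φ ^ m • v) ∧
      (∀ v ∈ V, φ • φ • v - t • φ • v + δ • v = 0) ∧
      (∀ P ∈ UE, ∀ Q ∈ UE, (∀ x y : ℤ, x • P + y • Q = 0 → (p : ℤ) ∣ x ∧ (p : ℤ) ∣ y) →
        ∀ a b c d : ℤ, φ • P = a • P + c • Q → φ • Q = b • P + d • Q →
          (p : ℤ) ∣ a + d - t ∧ (p : ℤ) ∣ a * d - b * c - δ) := by
    intro g
    obtain ⟨ℓ, hℓ, hℓT, A, hA, φ, hφ, m, τ, hτ⟩ := exists_frobenius_pow_conj T L g
    obtain ⟨hℓp, hgood, hℓN⟩ := hTgood ℓ hℓ hℓT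
    have hℓNp : ¬ ℓ ∣ N * p := by
      intro h
      rcases (Nat.Prime.dvd_mul hℓ).mp h with h | h
      · exact hℓN h
      · exact hℓp ((Nat.prime_dvd_prime_iff_eq hℓ hp).mp h)
    have hℓbad : ℓ ∉ badSet W p N := by
      show ¬ (¬ W.IsGoodPrimeFor ℓ ∨ ℓ ∣ N ∨ ℓ = p)
      rw [not_or, not_or, not_not]
      exact ⟨hgood, hℓN, hℓp⟩
    -- the element fixing `L`
    set ν : GQ := (φ ^ m)⁻¹ * (τ * g * τ⁻¹) with hν
    have hνL : ∀ a ∈ L, ν a = a := by
      intro a ha
      rw [hν, AlgEquiv.mul_apply, hτ a ha, ← AlgEquiv.mul_apply, inv_mul_cancel,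
        AlgEquiv.one_apply]
    have hdecomp : τ * g * τ⁻¹ = φ ^ m * ν := by rw [hν, mul_inv_cancel_left]
    refine ⟨τ, φ, m, W.apOfModel ℓ, (ℓ : ℤ), ?_, ?_, ?_, ?_⟩
    · intro u hu
      rw [hdecomp, mul_smul, hLE ν (fun a ha => hνL a (le_sup_left (a := LE) (b := LV) ha)) u hu]
    · intro v hv
      rw [hdecomp, mul_smul, hLV ν (fun a ha => hνL a (le_sup_right (a := LE) (b := LV) ha)) v hv]
    · intro v hv
      have h1 := I.frobenius_quadratic hℓ hℓNp hA hφ (x := v) ⟨1, by rw [pow_one]; exact hVp v hv⟩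
      rw [I.hT' ⟨ℓ, hℓ⟩ hℓN, hVT ℓ hℓ hℓbad _ (hVG φ v hv)] at h1
      rw [natCast_zsmul]
      exact h1
    · intro P hP Q hQ hind a b c d hσP hσQ
      exact trace_det_frobenius_mod W hΔ hp2 P Q hP hQ hind hℓ hℓp hgood A hA φ hφ a b c d hσP hσQ
  obtain ⟨f, hf, hfg⟩ := exists_equivariant_copy (G := GQ) hp2 UE hUE hGE hcard hirr'
    complexConjugation Pp Pm hPp hPm hPp0 hPm0 hcp hcm V hVp hVG hV0 hfrob
  refine ⟨V.subtype.comp f, ?_, ?_, ?_⟩
  · intro a b hab
    exact hf (Subtype.ext hab)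
  · intro σ Q
    exact hfg σ Q
  · intro Q
    exact (f Q).2

end Main

end Fermat.Agent.MP
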