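/-
MP40 — [KEYFQ-RESINF], helper8: **the two sheets of the level fields `F_M(K) → F_{Mq}(K)` over a
possibly ramified base, without a Frobenius lift.**

`R` a discrete valuation ring with fraction field `K ⊇ ℚ`, `q ∈ π R`, `q ∤ M`.  The Kronecker
congruence `A j ≡ (B j) ^ q` on `W_0` comes from the congruence `j(x^q) ≡ j(x)^q` of the series `j`
itself, and helper7's `host_two_sheet` gives: every element of `W_∞` (resp. `W_0`) of `F_{Mq}(K)`
is congruent to `A a` (resp. `B a`), `a ∈ V_M`, and `π` is a uniformizer of both sheets.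
-/
import Mathlib
import Fermat.Agent.S35.NORMF_helper8_Gen
import Fermat.Agent.SS.HOSTINT_helper6_Main
import Fermat.Agent.S35.XPORT_helper7_Main

set_option autoImplicit false
set_option linter.unusedSectionVars false
set_option linter.style.haveILetI false
set_option synthInstance.maxHeartbeats 200000

open ModularCurve Fermat.Agent.Igusa Fermat.Agent.JA Fermat.Agent.SS Fermat.Agent.X0N
  Fermat.Agent.S35

namespace Fermat.Agent.MP

section Main

variable {R : Type*} [CommRing R] [IsDomain R] [IsDiscreteValuationRing R]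
  {K : Type*} [Field K] [Algebra R K] [IsFractionRing R K] [Algebra ℚ K]
  (ι : K →+* ℂ) {M q : ℕ} [NeZero M] [NeZero q] [NeZero (M * q)] {x y : ℤ}
  (h : (q : ℤ) * x + M * y = 1) (hq : q.Prime)

local notation "kR" => IsLocalRing.ResidueField R

include hq in
/-- the Kronecker congruence `B j ≡ (A j) ^ q` along `W_∞`, from the series `j` itself. -/
theorem keyFq_kron_j_inf {π : R} (hπ : Irreducible π) (hqπ : (q : R) ∈ Ideal.span {π}) :
    (keyFqWinf R K (M * q)).valuation
      (keyFqB K M q (jGen K M) - keyFqA K M q (jGen K M) ^ q) < 1 := by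
  haveI : CharP kR q := charP_residueField_of_mem_span hπ hq hqπ
  haveI : ExpChar kR q := ExpChar.prime hq
  obtain ⟨hmem, hred⟩ := (isPrimeSeries_jqNModC R K 1).kronecker_gaussRed q
  have hJc : ((jGen K M : ↥(keyFq K M)) : LaurentSeries K) = jqNModC K 1 := by
    rw [jqNModC, qExpand_one_apply]
    exact coeffEmb_jq_eq_jqModC K
  have hcoe : ((keyFqB K M q (jGen K M) - keyFqA K M q (jGen K M) ^ q :
      ↥(keyFq K (M * q))) : LaurentSeries K) =
      qExpand K q (jqNModC K 1) - jqNModC K 1 ^ q := by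
    show ((keyFqB K M q (jGen K M) : ↥(keyFq K (M * q))) : LaurentSeries K) -
      ((keyFqA K M q (jGen K M) : ↥(keyFq K (M * q))) : LaurentSeries K) ^ q = _
    rw [coe_keyFqB, coe_keyFqA, hJc]
  unfold keyFqWinf
  rw [gaussValSub_valuation_lt_one_iff]
  refine ⟨by rw [hcoe]; exact hmem, ?_⟩
  have e : (⟨((keyFqB K M q (jGen K M) - keyFqA K M q (jGen K M) ^ q :
      ↥(keyFq K (M * q))) : LaurentSeries K), by rw [hcoe]; exact hmem⟩ : gaussInt R K) =
      ⟨qExpand K q (jqNModC K 1) - jqNModC K 1 ^ q, hmem⟩ := Subtype.ext hcoe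
  rw [e]
  exact hred

/-- the Kronecker congruence `A j ≡ (B j) ^ q` along `W_0`. -/
theorem keyFq_kron_j_zero {π : R} (hπ : Irreducible π) (hqπ : (q : R) ∈ Ideal.span {π}) :
    (keyFqW0 R K ι h hq).valuation
      (keyFqA K M q (jGen K M) - keyFqB K M q (jGen K M) ^ q) < 1 := by
  rw [keyFqW0_valuation_lt_one_iff, map_sub, map_pow, atkinLehnerN_keyFqA, atkinLehnerN_keyFqB]
  exact keyFq_kron_j_inf hq hπ hqπ

set_option maxHeartbeats 1600000 in
/-- **the two sheets of `F_{Mq}(K)`**, ramified base allowed, no Frobenius lift. -/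
theorem keyFq_two_sheet (hqM : ¬ q ∣ M) {π : R} (hπ : Irreducible π)
    (hqπ : (q : R) ∈ Ideal.span {π}) :
    keyFqWinf R K (M * q) ≠ keyFqW0 R K ι h hq ∧
    (∀ V : ValuationSubring ↥(keyFq K (M * q)),
      V.comap (keyFqA K M q : ↥(keyFq K M) →+* ↥(keyFq K (M * q))) = keyFqWinf R K M →
        V = keyFqWinf R K (M * q) ∨ V = keyFqW0 R K ι h hq) ∧
    (∀ V : ValuationSubring ↥(keyFq K (M * q)),
      V.comap (keyFqB K M q : ↥(keyFq K M) →+* ↥(keyFq K (M * q))) = keyFqWinf R K M →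
        V = keyFqWinf R K (M * q) ∨ V = keyFqW0 R K ι h hq) ∧
    (∀ f : ↥(keyFq K (M * q)), (keyFqWinf R K (M * q)).valuation f < 1 →
      f * (algebraMap R ↥(keyFq K (M * q)) π)⁻¹ ∈ keyFqWinf R K (M * q)) ∧
    (∀ f : ↥(keyFq K (M * q)), (keyFqW0 R K ι h hq).valuation f < 1 →
      f * (algebraMap R ↥(keyFq K (M * q)) π)⁻¹ ∈ keyFqW0 R K ι h hq) ∧
    (∀ f ∈ keyFqWinf R K (M * q), ∃ a ∈ keyFqWinf R K M,
      (keyFqWinf R K (M * q)).valuation (f - keyFqA K M q a) < 1) ∧
    (∀ f ∈ keyFqW0 R K ι h hq, ∃ a ∈ keyFqWinf R K M,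
      (keyFqW0 R K ι h hq).valuation (f - keyFqB K M q a) < 1) := by
  classical
  haveI : CharZero K := algebraRat.charZero K
  haveI : CharP kR q := charP_residueField_of_mem_span hπ hq hqπ
  have hchar : (q : kR) = 0 := CharP.cast_eq_zero kR q
  have hEM : keyFq K M ≤ gaussField R K := laurentBaseChange_full_le_gaussField R K M
  have hEN : keyFq K (M * q) ≤ gaussField R K := laurentBaseChange_full_le_gaussField R K (M * q)
  have hle : keyFq K M ≤ keyFq K (M * q) := keyFq_le_of_dvd K (dvd_mul_right M q)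
  have hB : ∀ f ∈ keyFq K M, qExpand K q f ∈ keyFq K (M * q) :=
    fun _ hf => qExpand_mem_keyFq K (by rw [mul_comm]) hf
  have cA0 := keyFqW0_comap_keyFqA (R := R) ι h hq
  have cB0 := keyFqW0_comap_keyFqB (R := R) ι h hq
  -- the coordinate `j`
  have hJc : ((jGen K M : ↥(keyFq K M)) : LaurentSeries K) = jqModC K :=
    coeffEmb_jq_eq_jqModC K
  have hJ : ((jGen K M : ↥(keyFq K M)) : LaurentSeries K) ∈ gaussInt R K := by
    rw [hJc]; exact jqModC_mem_gaussInt R K
  have hJred : gaussRed R K ⟨((jGen K M : ↥(keyFq K M)) : LaurentSeries K), hJ⟩ = jqModC kR := by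
    have e : (⟨((jGen K M : ↥(keyFq K M)) : LaurentSeries K), hJ⟩ : gaussInt R K) =
        ⟨jqModC K, jqModC_mem_gaussInt R K⟩ := Subtype.ext hJc
    rw [e, gaussRed_jqModC]
  have hJo : (gaussRed R K ⟨((jGen K M : ↥(keyFq K M)) : LaurentSeries K), hJ⟩).order =
      -((1 : ℕ) : ℤ) := by
    rw [hJred]
    have := order_jqNModC_field kR 1
    rwa [jqNModC, qExpand_one_apply] at this
  have hJ0 : gaussRed R K ⟨((jGen K M : ↥(keyFq K M)) : LaurentSeries K), hJ⟩ ≠ 0 := by
    intro h0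
    rw [h0, HahnSeries.order_zero] at hJo
    simp at hJo
  have hkron : (keyFqW0 R K ι h hq).valuation
      (hostA (keyFq K M) (keyFq K (M * q)) hle (jGen K M) -
        hostB (keyFq K M) (keyFq K (M * q)) q hB (jGen K M) ^ q) < 1 :=
    keyFq_kron_j_zero ι h hq hπ hqπ
  -- degrees
  obtain ⟨hfinA, hdegA⟩ := deg2_finrank_keyFq ι hq hqM hle
  obtain ⟨hfinB, hdegB⟩ := keyFq_finrank_along_keyFqB ι hq hqM
  exact host_two_sheet (R := R) (keyFq K M)
    (keyFq K (M * q)) hle q hB hEM hEN hq hchar hπ 1 (Nat.coprime_one_left q) (jGen K M) hJ hJo hJ0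
    hfinA hdegA.le hfinB hdegB.le (keyFqW0 R K ι h hq) cA0 cB0 hkron

include ι h hq in
/-- **[KEYFQ-RESINF]**: along `W_∞`, every integral function of level `M q` is congruent to a
function of level `M`. -/
theorem keyFq_res_inf (hqM : ¬ q ∣ M) {π : R} (hπ : Irreducible π)
    (hqπ : (q : R) ∈ Ideal.span {π}) :
    ∀ f ∈ keyFqWinf R K (M * q), ∃ a ∈ keyFqWinf R K M,
      (keyFqWinf R K (M * q)).valuation (f - keyFqA K M q a) < 1 :=
  (keyFq_two_sheet ι h hq hqM hπ hqπ).2.2.2.2.2.1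

/-- along `W_0`, every integral function of level `M q` is congruent to a `B`-image. -/
theorem keyFq_res_zero (hqM : ¬ q ∣ M) {π : R} (hπ : Irreducible π)
    (hqπ : (q : R) ∈ Ideal.span {π}) :
    ∀ f ∈ keyFqW0 R K ι h hq, ∃ a ∈ keyFqWinf R K M,
      (keyFqW0 R K ι h hq).valuation (f - keyFqB K M q a) < 1 :=
  (keyFq_two_sheet ι h hq hqM hπ hqπ).2.2.2.2.2.2

include ι h hq in
/-- `π` is a uniformizer of `W_∞`. -/
theorem keyFq_unif_inf (hqM : ¬ q ∣ M) {π : R} (hπ : Irreducible π)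
    (hqπ : (q : R) ∈ Ideal.span {π}) :
    ∀ f : ↥(keyFq K (M * q)), (keyFqWinf R K (M * q)).valuation f < 1 →
      f * (algebraMap R ↥(keyFq K (M * q)) π)⁻¹ ∈ keyFqWinf R K (M * q) :=
  (keyFq_two_sheet ι h hq hqM hπ hqπ).2.2.2.1

/-- `π` is a uniformizer of `W_0`. -/
theorem keyFq_unif_zero (hqM : ¬ q ∣ M) {π : R} (hπ : Irreducible π)
    (hqπ : (q : R) ∈ Ideal.span {π}) :
    ∀ f : ↥(keyFq K (M * q)), (keyFqW0 R K ι h hq).valuation f < 1 →
      f * (algebraMap R ↥(keyFq K (M * q)) π)⁻¹ ∈ keyFqW0 R K ι h hq :=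
  (keyFq_two_sheet ι h hq hqM hπ hqπ).2.2.2.2.1

end Main

section Host

variable (R : Type*) [CommRing R] [IsDomain R] [IsDiscreteValuationRing R] [CharZero R]
  (K : Type*) [Field K] [Algebra R K] [IsFractionRing R K] [Algebra ℚ K] [Algebra K ℂ]
  {M q : ℕ} [NeZero M] [NeZero q] [NeZero (M * q)] {x y : ℤ}

/-- the inclusion of hosts preserves the maximal ideal of `W_∞`. -/
theorem legWinf_val_legHostA_lt_one_iff (h2 : IsUnit (2 : R)) (z : ↥(legE K M)) :
    (legWinf R K h2 (M * q)).valuation (legHostA K M q z) < 1 ↔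
      (legWinf R K h2 M).valuation z < 1 := by
  unfold legWinf
  rw [gaussValSub_valuation_lt_one_iff, gaussValSub_valuation_lt_one_iff]
  constructor
  · rintro ⟨hm, h0⟩
    have hm' : ((z : ↥(legE K M)) : LaurentSeries K) ∈ gaussInt R K := by
      rw [← coe_legHostA K M q z]; exact hm
    refine ⟨hm', ?_⟩
    have e : (⟨((z : ↥(legE K M)) : LaurentSeries K), hm'⟩ : gaussInt R K) =
        ⟨((legHostA K M q z : ↥(legE K (M * q))) : LaurentSeries K), hm⟩ :=
      Subtype.ext (coe_legHostA K M q z).symm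
    rw [e]
    exact h0
  · rintro ⟨hm, h0⟩
    have hm' : ((legHostA K M q z : ↥(legE K (M * q))) : LaurentSeries K) ∈ gaussInt R K := by
      rw [coe_legHostA K M q z]; exact hm
    refine ⟨hm', ?_⟩
    have e : (⟨((legHostA K M q z : ↥(legE K (M * q))) : LaurentSeries K), hm'⟩ : gaussInt R K) =
        ⟨((z : ↥(legE K M)) : LaurentSeries K), hm⟩ :=
      Subtype.ext (coe_legHostA K M q z)
    rw [e]
    exact h0


/-- **[KEYFQ-RESINF] on the Legendre host**: a function of level `M q`, normalised by a constant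
to a unit of `W_∞`, is congruent along `W_∞` to `A (w₀)` for a function `w₀` of level `M`, a unit
of `V_M`. -/
theorem exists_keyFq_resInf_host (h2 : IsUnit (2 : R)) (h : (q : ℤ) * x + M * y = 1)
    (hq : q.Prime) (hqM : ¬ q ∣ M) {π : R} (hπ : Irreducible π) (hqπ : (q : R) ∈ Ideal.span {π})
    (f₀ : ↥(keyFq K (M * q))) (c : K)
    (hf : (legWinf R K h2 (M * q)).valuation
      (fullToLegE K (M * q) f₀ * algebraMap K ↥(legE K (M * q)) c) = 1) :
    ∃ w₀ : ↥(keyFq K M), (legWinf R K h2 M).valuation (fullToLegE K M w₀) = 1 ∧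
      (legWinf R K h2 (M * q)).valuation
        (fullToLegE K (M * q) f₀ * algebraMap K ↥(legE K (M * q)) c -
          legHostA K M q (fullToLegE K M w₀)) < 1 := by
  have hff : fullToLegE K (M * q) (f₀ * algebraMap K ↥(keyFq K (M * q)) c) =
      fullToLegE K (M * q) f₀ * algebraMap K ↥(legE K (M * q)) c := by
    rw [map_mul, AlgHom.commutes]
  have cN := xport_legWinf_comap R K h2 (M * q)
  have cM := xport_legWinf_comap R K h2 M
  have hfW : (f₀ * algebraMap K ↥(keyFq K (M * q)) c) ∈ keyFqWinf R K (M * q) := by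
    rw [← cN]
    show fullToLegE K (M * q) (f₀ * algebraMap K ↥(keyFq K (M * q)) c) ∈ legWinf R K h2 (M * q)
    rw [hff]
    exact (ValuationSubring.valuation_le_one_iff _ _).mp hf.le
  obtain ⟨a, ha, hlt⟩ := keyFq_res_inf (R := R) (algebraMap K ℂ) h hq hqM hπ hqπ
    (f₀ * algebraMap K ↥(keyFq K (M * q)) c) hfW
  have hlt' : (legWinf R K h2 (M * q)).valuation
      (fullToLegE K (M * q) f₀ * algebraMap K ↥(legE K (M * q)) c -
        legHostA K M q (fullToLegE K M a)) < 1 := by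
    have h1 := (comap_val_lt_one_iff
      ((fullToLegE K (M * q) : ↥(keyFq K (M * q)) →ₐ[K] ↥(legE K (M * q))) :
        ↥(keyFq K (M * q)) →+* ↥(legE K (M * q))) cN
        (f₀ * algebraMap K ↥(keyFq K (M * q)) c - keyFqA K M q a)).mpr hlt
    rw [RingHom.coe_coe, map_sub, hff, xport_fullToLegE_keyFqA] at h1
    exact h1
  refine ⟨a, ?_, hlt'⟩
  have hale : (legWinf R K h2 M).valuation (fullToLegE K M a) ≤ 1 := by
    rw [ValuationSubring.valuation_le_one_iff]
    exact (comap_mem_iff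
      ((fullToLegE K M : ↥(keyFq K M) →ₐ[K] ↥(legE K M)) : ↥(keyFq K M) →+* ↥(legE K M))
      cM a).mpr ha
  refine le_antisymm hale (not_lt.mp fun hlt1 => ?_)
  have h3 := (legWinf_val_legHostA_lt_one_iff R K (q := q) h2 (fullToLegE K M a)).mpr hlt1
  have h4 : (legWinf R K h2 (M * q)).valuation
      (fullToLegE K (M * q) f₀ * algebraMap K ↥(legE K (M * q)) c) < 1 := by
    have e : fullToLegE K (M * q) f₀ * algebraMap K ↥(legE K (M * q)) c =
        (fullToLegE K (M * q) f₀ * algebraMap K ↥(legE K (M * q)) c -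
          legHostA K M q (fullToLegE K M a)) + legHostA K M q (fullToLegE K M a) :=
      (sub_add_cancel _ _).symm
    rw [e]
    exact lt_of_le_of_lt (Valuation.map_add _ _ _) (max_lt hlt' h3)
  rw [hf] at h4
  exact lt_irrefl _ h4

end Host

end Fermat.Agent.MP
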