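/-
MP40 (row 38: S44 / S40) — helper4 — **[KEYPEU-DESC], interface: the base statement `LegPeuBaseP₀`**
(candidate literal, in the currency of `NP/BASEP_helper2_Iface` and of the outputs of the descent
`MP/DESC_helper4_*`).

`K'` a base at `p` (not normal over `ℚ`), stable under the inertia group `I_A`; `R' = A ∩ K'`;
`ζ ∈ R'` a primitive `p`-th root of unity, `ζ - 1 = u ϖ ^ m` with `1 ≤ m ≤ p`;
EITHER every `τ ∈ I_A` fixing `ζ` fixes `K'` pointwise, OR there is `τ ∈ I_A` fixing `ζ` whose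
restriction `s` to `K'` satisfies `s ^ p = 1` and (peu): `ζ - 1 = (s r - r) d` with `r, d ∈ R'`,
`s r ≠ r`;
`f₀ ∈ F_{Mp}(K')` monic with all orders on the Legendre host divisible by `p`, both degeneracy
norms constants times `p`-th powers, and the Hecke relations `T_ℓ f₀ = c f₀ ^ (a ℓ) u ^ p` for all `ℓ ∉ S`, one of
them non-Eisenstein.  Then either `f₀` is of multiplicative type for `I_A` (Kummer form over `K'`)
or the eigensystem `a` occurs residually at level `M`.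
-/
import Mathlib
import Fermat.Agent.NP.BASEP_helper2_Iface
import Fermat.Agent.NP.BASEP_helper2_Deg
import Fermat.Agent.NP.BASEP_helper2_TopField
import Fermat.Agent.MP.IFACE_helper8_Defs

set_option autoImplicit false
set_option linter.unusedSectionVars false
set_option linter.unusedVariables false
set_option linter.style.haveILetI false

open HahnSeries IntermediateField AlgebraicCurve ModularCurve IsLocalRing

namespace Fermat.Agent.MP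

open Fermat.Agent.JA Fermat.Agent.FF Fermat.Agent.SS Fermat.Agent.S35 Fermat.Agent.NP

/-- `Ω = AlgebraicClosure ℚ`. -/
local notation "Ω" => AlgebraicClosure ℚ

/-- the absolute Galois group. -/
local notation "GQ" => (AlgebraicClosure ℚ ≃ₐ[ℚ] AlgebraicClosure ℚ)

/-- **the wild alternative over the base**: either the elements of the inertia group fixing `ζ`
fix `K'` pointwise, or one of them restricts to an automorphism `s` of `K'` with `s ^ p = 1` and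
(peu). -/
def PeuBaseAlt (p : ℕ) (A : ValuationSubring Ω) (K' : IntermediateField ℚ Ω)
    (hstab : ∀ σ ∈ A.inertiaSubgroupIn ℚ, ∀ z ∈ K', σ z ∈ K') (ζ : ↥(baseRing A K')) : Prop :=
  (∀ τ ∈ A.inertiaSubgroupIn ℚ, τ (((ζ : ↥K')) : Ω) = (((ζ : ↥K')) : Ω) → ∀ z ∈ K', τ z = z) ∨
  ∃ (τ : GQ) (hτ : τ ∈ A.inertiaSubgroupIn ℚ), τ (((ζ : ↥K')) : Ω) = (((ζ : ↥K')) : Ω) ∧
    (resStable K' τ (hstab τ hτ) (hstab τ⁻¹ (inv_mem hτ))) ^ p = 1 ∧
    ∃ r d : ↥(baseRing A K'),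
      resStable K' τ (hstab τ hτ) (hstab τ⁻¹ (inv_mem hτ)) (r : ↥K') ≠ (r : ↥K') ∧
      (ζ : ↥K') - 1 =
        (resStable K' τ (hstab τ hτ) (hstab τ⁻¹ (inv_mem hτ)) (r : ↥K') - (r : ↥K')) * (d : ↥K')

/-- **the Hecke relations over the base**, at the level of `F_N(K)`. -/
def HeckeRelK (K : Type*) [Field K] [Algebra ℚ K] (N p : ℕ) [NeZero N] (S : Set ℕ) (a : ℕ → ℤ)
    (f₀ : ↥(keyFq K N)) : Prop :=
  ∀ (ℓ : ℕ) (hℓ : ℓ.Prime), ℓ ∉ S →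
    haveI : NeZero ℓ := ⟨hℓ.ne_zero⟩
    haveI : NeZero (N * ℓ) := ⟨Nat.mul_ne_zero (NeZero.ne N) hℓ.ne_zero⟩
    ∃ (c : K) (u : ↥(keyFq K N)), c ≠ 0 ∧ u ≠ 0 ∧
      heckeFunK K N ℓ f₀ = algebraMap K ↥(keyFq K N) c * f₀ ^ (a ℓ) * u ^ p

/-- **the base statement of (KEY-PEU)** (level `M p`, a base `K'` stable under the inertia group,
wild ramification index at most `p`). -/
def LegPeuBaseP₀ (p₀ : ℕ) : Prop :=
  ∀ (M : ℕ) [NeZero M] (p : ℕ) [NeZero p] [NeZero (M * p)], p.Prime → p₀ ≤ p → ¬ p ∣ M →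
  ∀ (A : ValuationSubring Ω), A.LiesOverPrime p →
  ∀ (K' : IntermediateField ℚ Ω), IsBase p K' →
  ∀ (hstab : ∀ σ ∈ A.inertiaSubgroupIn ℚ, ∀ z ∈ K', σ z ∈ K'),
  ∀ (ζ : ↥(baseRing A K')), IsPrimitiveRoot ζ p →
  (∀ ϖ : ↥(baseRing A K'), Irreducible ϖ →
    ∃ (m : ℕ) (u : (↥(baseRing A K'))ˣ), 0 < m ∧ m ≤ p ∧ ζ - 1 = u * ϖ ^ m) →
  PeuBaseAlt p A K' hstab ζ →
  ∀ (S : Set ℕ) (a : ℕ → ℤ), (∀ ℓ : ℕ, ℓ.Prime → ℓ ∣ M * p → ℓ ∈ S) →
    (∃ ℓ : ℕ, ℓ.Prime ∧ ℓ ∉ S ∧ ¬ (a ℓ ≡ (ℓ : ℤ) + 1 [ZMOD (p : ℤ)])) →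
  ∀ f₀ : ↥(keyFq ↥K' (M * p)), f₀ ≠ 0 →
    ((f₀ : ↥(keyFq ↥K' (M * p))) : LaurentSeries ↥K').leadingCoeff = 1 →
    (∀ P : Place ↥K' ↥(legE ↥K' (M * p)), (p : ℤ) ∣ P.ord (fullToLegE ↥K' (M * p) f₀)) →
    (∃ (c : ↥K') (h : ↥(keyFq ↥K' M)), c ≠ 0 ∧ h ≠ 0 ∧
      (letI := (keyFqA ↥K' M p).toRingHom.toAlgebra; Algebra.norm ↥(keyFq ↥K' M) f₀) =
        algebraMap ↥K' ↥(keyFq ↥K' M) c * h ^ p) →
    (∃ (c : ↥K') (h : ↥(keyFq ↥K' M)), c ≠ 0 ∧ h ≠ 0 ∧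
      (letI := (keyFqB ↥K' M p).toRingHom.toAlgebra; Algebra.norm ↥(keyFq ↥K' M) f₀) =
        algebraMap ↥K' ↥(keyFq ↥K' M) c * h ^ p) →
    HeckeRelK ↥K' (M * p) p S a f₀ →
    (∀ (σ : GQ) (hσ : σ ∈ A.inertiaSubgroupIn ℚ) (c : ℕ), CycAct p σ c →
      IsConstMulPow (K := ↥K') p
        (legGalois ↥K' (M * p) (resStable K' σ (hstab σ hσ) (hstab σ⁻¹ (inv_mem hσ))) •
          fullToLegE ↥K' (M * p) f₀ / fullToLegE ↥K' (M * p) f₀ ^ c)) ∨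
      ResOccurs M p S a

end Fermat.Agent.MP
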