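/-
MP40 (row 38: S44 / S40) — lead — **[KEYPEU-BASE], the literals** (after helper4's split, msg 1768):

* `LegPeuHyp`   : the hypothesis package over the small base `K' ≤ K₁` (`K₁` a Galois base over
  which the support is rational, `K'` with (h1), the wild element `s` with (peu), the function
  `f₀ ∈ F_{Mp}(K')` with `div ∈ p Div`, both degeneracy norms in `K'ˣ · (F_M ˣ)ᵖ`, the Hecke
  relations `T_ℓ f₀ = c f₀ ^ (a ℓ) u ^ p` for all `ℓ ∉ S`, one of them non-Eisenstein with `ℓ ≠ 2`);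
* `LegPeuOrdP`  : **(C) [ORD]**: under `LegPeuHyp`, if `f₀ ϖ ^ (-a∞) ≡ A (w₀)` along `W_∞`
  (`w₀ ∈ F_M(K')`), then the reduction of `w₀` has all orders divisible by `p` on the special
  fibre (output of C3 + C4 + C5);
* `LegPeuInfP`  : **(2a)**: under `LegPeuHyp`, either `f₀` has depth `≥ 1` along `W_∞` (over
  `K'`), or the eigensystem occurs residually at level `M`;
* `LegPeuDeepP` : **(2b)**: over a Galois base `K₁ ∋ ζ_p` (the frame of `NP.LegNewBaseP`), depth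
  `≥ 1` along `W_∞` + norms + one non-Eisenstein Hecke relation give the Kummer form for the whole
  inertia group.
-/
import Mathlib
import Fermat.Agent.MP.KPBASE_helper4_Iface
import Fermat.Agent.NP.HOSTP_helper5_Kum
import Fermat.Agent.FG.EDEF_helper6_Leg
import Fermat.Agent.JA.BCDEG_helper7

set_option autoImplicit false
set_option linter.unusedSectionVars false
set_option linter.unusedVariables false
set_option linter.style.haveILetI false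

open HahnSeries IntermediateField AlgebraicCurve ModularCurve IsLocalRing

namespace Fermat.Agent.MP

open Fermat.Agent.JA Fermat.Agent.FF Fermat.Agent.SS Fermat.Agent.S35 Fermat.Agent.NP
  Fermat.Agent.FG

/-- `Ω = AlgebraicClosure ℚ`. -/
local notation "Ω" => AlgebraicClosure ℚ

/-- the absolute Galois group. -/
local notation "GQ" => (AlgebraicClosure ℚ ≃ₐ[ℚ] AlgebraicClosure ℚ)

/-- **the hypothesis package of (KEY-PEU) over the small base `K' ≤ K₁`.** -/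
structure LegPeuHyp (p M : ℕ) [NeZero M] [NeZero p] [NeZero (M * p)] (A : ValuationSubring Ω)
    (K₁ : IntermediateField ℚ Ω) [Normal ℚ ↥K₁] (K' : IntermediateField ℚ Ω)
    (ζ : ↥(baseRing A K')) (s : ↥K' ≃ₐ[ℚ] ↥K') (S : Set ℕ) (a : ℕ → ℤ)
    (f₀ : ↥(keyFq ↥K' (M * p))) : Prop where
  /-- `K₁` is a Galois base. -/
  galBase : IsGalBase p K₁
  /-- `K'` is a base. -/
  base : IsBase p K'
  le : K' ≤ K₁
  /-- (h1): the automorphisms fixing `K'` preserve `A ∩ K₁`. -/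
  h1 : ∀ σ : GQ, (∀ c ∈ K', σ c = c) → ∀ c ∈ K₁, (c ∈ A ↔ σ c ∈ A)
  zeta : IsPrimitiveRoot ζ p
  /-- `s` is of inertia type. -/
  s_inertia : ∀ r : ↥(baseRing A K'), ∃ r' : ↥(baseRing A K'),
    s (r : ↥K') = (r' : ↥K') ∧ r' - r ∈ maximalIdeal ↥(baseRing A K')
  s_zeta : s ((ζ : ↥(baseRing A K')) : ↥K') = ((ζ : ↥(baseRing A K')) : ↥K')
  s_pow : s ^ p = 1
  /-- (peu). -/
  peu : s = 1 ∨ ∃ r d : ↥(baseRing A K'), s (r : ↥K') ≠ (r : ↥K') ∧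
    ((ζ : ↥(baseRing A K')) : ↥K') - 1 = (s (r : ↥K') - (r : ↥K')) * (d : ↥K')
  /-- the wild ramification index is at most `p`. -/
  wild : ∀ ϖ : ↥(baseRing A K'), Irreducible ϖ →
    ∃ (m : ℕ) (u : (↥(baseRing A K'))ˣ), 0 < m ∧ m ≤ p ∧ (s = 1 → m = 1) ∧ ζ - 1 = u * ϖ ^ m
  bad : ∀ ℓ : ℕ, ℓ.Prime → ℓ ∣ M * p → ℓ ∈ S
  nonEis : ∃ ℓ : ℕ, ℓ.Prime ∧ ℓ ∉ S ∧ ℓ ≠ 2 ∧ ¬ (a ℓ ≡ (ℓ : ℤ) + 1 [ZMOD (p : ℤ)])
  ne_zero : f₀ ≠ 0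
  monic : ((f₀ : ↥(keyFq ↥K' (M * p))) : LaurentSeries ↥K').leadingCoeff = 1
  ord : ∀ P : Place ↥K' ↥(legE ↥K' (M * p)), (p : ℤ) ∣ P.ord (fullToLegE ↥K' (M * p) f₀)
  /-- the support is rational over `K₁`. -/
  rat : ∃ F₁ : ↥(keyFq ↥K₁ (M * p)), keyFqBC (M * p) K₁ F₁ = keyFqBC (M * p) K' f₀ ∧
    LegOrdCond K₁ (M * p) p (fullToLegE ↥K₁ (M * p) F₁)
  normA : ∃ (c : ↥K') (h : ↥(keyFq ↥K' M)), c ≠ 0 ∧ h ≠ 0 ∧
    (letI := (keyFqA ↥K' M p).toRingHom.toAlgebra; Algebra.norm ↥(keyFq ↥K' M) f₀) =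
      algebraMap ↥K' ↥(keyFq ↥K' M) c * h ^ p
  normB : ∃ (c : ↥K') (h : ↥(keyFq ↥K' M)), c ≠ 0 ∧ h ≠ 0 ∧
    (letI := (keyFqB ↥K' M p).toRingHom.toAlgebra; Algebra.norm ↥(keyFq ↥K' M) f₀) =
      algebraMap ↥K' ↥(keyFq ↥K' M) c * h ^ p
  hecke : HeckeRelK ↥K' (M * p) p S a f₀

/-- **(C) [ORD]**: the reduction of `f₀ ϖ ^ (-a∞)` along `W_∞` has all orders divisible by `p`. -/
def LegPeuOrdP (p₀ : ℕ) : Prop :=
  ∀ (M : ℕ) [NeZero M] (p : ℕ) [NeZero p] [NeZero (M * p)] [Fact p.Prime] (hp2 : p ≠ 2),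
    p₀ ≤ p → ¬ p ∣ M →
  ∀ (A : ValuationSubring Ω) (hA : A.LiesOverPrime p)
    (K₁ : IntermediateField ℚ Ω) [Normal ℚ ↥K₁] (K' : IntermediateField ℚ Ω)
    [IsDiscreteValuationRing ↥(baseRing A K')]
    (ζ : ↥(baseRing A K')) (s : ↥K' ≃ₐ[ℚ] ↥K') (S : Set ℕ) (a : ℕ → ℤ)
    (f₀ : ↥(keyFq ↥K' (M * p))), LegPeuHyp p M A K₁ K' ζ s S a f₀ →
  ∀ (ϖ : ↥(baseRing A K')), Irreducible ϖ → ∀ (h2 : IsUnit (2 : ↥(baseRing A K'))) (ainf : ℤ)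
    (w₀ : ↥(keyFq ↥K' M)),
    (legWinf ↥(baseRing A K') ↥K' h2 M).valuation (fullToLegE ↥K' M w₀) = 1 →
    (legWinf ↥(baseRing A K') ↥K' h2 (M * p)).valuation
      (fullToLegE ↥K' (M * p) f₀ *
        (algebraMap ↥(baseRing A K') ↥(legE ↥K' (M * p)) ϖ ^ ainf)⁻¹ -
        legHostA ↥K' M p (fullToLegE ↥K' M w₀)) < 1 →
  ∀ (hW : fullToLegE Ω M (keyFqBC M K' w₀) ∈ legWE hA M hp2)
    (Q : Place (ResidueField ↥A) (legEt hA M hp2)),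
    (p : ℤ) ∣ Q.ord (legρ hA M hp2 ⟨fullToLegE Ω M (keyFqBC M K' w₀), hW⟩)

/-- **(2a)**: the dichotomy along `W_∞` over the small base. -/
def LegPeuInfP (p₀ : ℕ) : Prop :=
  ∀ (M : ℕ) [NeZero M] (p : ℕ) [NeZero p] [NeZero (M * p)] [Fact p.Prime] (hp2 : p ≠ 2),
    p₀ ≤ p → ¬ p ∣ M →
  ∀ (A : ValuationSubring Ω) (hA : A.LiesOverPrime p)
    (K₁ : IntermediateField ℚ Ω) [Normal ℚ ↥K₁] (K' : IntermediateField ℚ Ω)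
    [IsDiscreteValuationRing ↥(baseRing A K')]
    (ζ : ↥(baseRing A K')) (s : ↥K' ≃ₐ[ℚ] ↥K') (S : Set ℕ) (a : ℕ → ℤ)
    (f₀ : ↥(keyFq ↥K' (M * p))), LegPeuHyp p M A K₁ K' ζ s S a f₀ →
  (∃ (ϖ : ↥(baseRing A K')) (h2 : IsUnit (2 : ↥(baseRing A K'))) (c : ↥K'),
      Irreducible ϖ ∧ c ≠ 0 ∧
      ValDepth ϖ p (legWinf ↥(baseRing A K') ↥K' h2 (M * p)) 1
        (fullToLegE ↥K' (M * p) f₀) c) ∨
    ResOccurs M p S a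

/-- **(2b)**: from depth `≥ 1` along `W_∞` to the Kummer form, over a Galois base. -/
def LegPeuDeepP (p₀ : ℕ) : Prop :=
  ∀ (M : ℕ) [NeZero M] (p : ℕ) [NeZero p] [NeZero (M * p)] [Fact p.Prime] (hp2 : p ≠ 2),
    p₀ ≤ p → ¬ p ∣ M →
  ∀ (A : ValuationSubring Ω) (hA : A.LiesOverPrime p)
    (K₁ : IntermediateField ℚ Ω) [Normal ℚ ↥K₁] [IsDiscreteValuationRing ↥(baseRing A K₁)],
    IsGalBase p K₁ → (∃ ζ : ↥K₁, IsPrimitiveRoot ζ p) →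
  ∀ (S : Set ℕ) (a : ℕ → ℤ), (∀ ℓ : ℕ, ℓ.Prime → ℓ ∣ M * p → ℓ ∈ S) →
    (∃ ℓ : ℕ, ℓ.Prime ∧ ℓ ∉ S ∧ ℓ ≠ 2 ∧ ¬ (a ℓ ≡ (ℓ : ℤ) + 1 [ZMOD (p : ℤ)])) →
  ∀ f₀ : ↥(keyFq ↥K₁ (M * p)), f₀ ≠ 0 →
    LegOrdCond K₁ (M * p) p (fullToLegE ↥K₁ (M * p) f₀) →
    (∃ (c : ↥K₁) (h : ↥(keyFq ↥K₁ M)), c ≠ 0 ∧ h ≠ 0 ∧
      (letI := (keyFqA ↥K₁ M p).toRingHom.toAlgebra; Algebra.norm ↥(keyFq ↥K₁ M) f₀) =
        algebraMap ↥K₁ ↥(keyFq ↥K₁ M) c * h ^ p) →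
    (∃ (c : ↥K₁) (h : ↥(keyFq ↥K₁ M)), c ≠ 0 ∧ h ≠ 0 ∧
      (letI := (keyFqB ↥K₁ M p).toRingHom.toAlgebra; Algebra.norm ↥(keyFq ↥K₁ M) f₀) =
        algebraMap ↥K₁ ↥(keyFq ↥K₁ M) c * h ^ p) →
    HeckeRelK ↥K₁ (M * p) p S a f₀ →
    (∃ (ϖ : ↥(baseRing A K₁)) (h2 : IsUnit (2 : ↥(baseRing A K₁))) (c : ↥K₁),
      Irreducible ϖ ∧ c ≠ 0 ∧
      ValDepth ϖ p (legWinf ↥(baseRing A K₁) ↥K₁ h2 (M * p)) 1
        (fullToLegE ↥K₁ (M * p) f₀) c) →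
  ∀ σ ∈ A.inertiaSubgroupIn ℚ, ∀ a' : ℕ, CycAct p σ a' →
    IsConstMulPow (K := ↥K₁) p
      (legGalois ↥K₁ (M * p) (resGal K₁ σ) • fullToLegE ↥K₁ (M * p) f₀ /
        fullToLegE ↥K₁ (M * p) f₀ ^ a')

end Fermat.Agent.MP
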