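/-
MP40 (row 38: S44) — lead — **[KEYPEU-BASE], part 1: abstract lemmas on an `SSModel` with norm data**
(`SS.SSModel`, `NP.SSNormData`, in the `ValDepth` language of `NP/HOSTP_helper7_ThmA`).

* `SSModel.exists_unit_form` : unit normal form of `ValDepth` for a unit of a sheet;
* `SSModel.normB_red` : the norm along `B` modulo the maximal ideal (S35 `norm_reduction_two_ext_hom`
  with the data of `SSNormData`): `f ≡ B b₁` on `W_0`, `f ^ p ≡ B b₂` on `W_∞` ⇒ `N_B f ≡ b₁ b₂`;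
* `SSModel.valDepth_one_zero_of_inf` : a unit of both sheets, of depth `≥ 1` along `W_∞`, whose norm
  along `B` is a constant times a `p`-th power, has depth `≥ 1` along `W_0`;
* `SSModel.valDepth_all_of_inf` : with both norms and `p ∣ b - a`: all depths along both sheets.
-/
import Mathlib
import Fermat.Agent.NP.HOSTP_helper7_ThmA
import Fermat.Agent.S35.NORMRED_helper9_Host
import Fermat.Agent.NP.NEWBASE_helper7_Sat

set_option autoImplicit false
set_option linter.unusedSectionVars false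
set_option linter.unusedVariables false
set_option linter.style.haveILetI false

open IsLocalRing

namespace Fermat.Agent.MP

open Fermat.Agent.SS Fermat.Agent.JA Fermat.Agent.NP Fermat.Agent.S35

section Val

variable {E : Type*} [Field E] (W : ValuationSubring E)

theorem kp_val_sub_lt_trans {x y z : E} (h1 : W.valuation (x - y) < 1)
    (h2 : W.valuation (y - z) < 1) : W.valuation (x - z) < 1 := by
  have e : x - z = (x - y) + (y - z) := by ring
  rw [e]
  exact lt_of_le_of_lt (W.valuation.map_add _ _) (max_lt h1 h2)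

theorem kp_val_sub_comm {x y : E} (h : W.valuation (x - y) < 1) : W.valuation (y - x) < 1 := by
  rwa [Valuation.map_sub_swap]

theorem kp_val_mul_lt_of_mem {c x : E} (hc : c ∈ W) (h : W.valuation x < 1) :
    W.valuation (c * x) < 1 := by
  rw [map_mul]
  have h1 : W.valuation c ≤ 1 := (ValuationSubring.valuation_le_one_iff _ _).mpr hc
  calc W.valuation c * W.valuation x ≤ 1 * W.valuation x := mul_le_mul_left h1 _
    _ = W.valuation x := one_mul _
    _ < 1 := h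

theorem kp_val_mul_sub_lt {c x y : E} (hc : c ∈ W) (h : W.valuation (x - y) < 1) :
    W.valuation (c * x - c * y) < 1 := by
  rw [← mul_sub]
  exact kp_val_mul_lt_of_mem W hc h

theorem kp_val_pow_sub_pow_lt {x y : E} (hx : x ∈ W) (hy : y ∈ W) (h : W.valuation (x - y) < 1)
    (n : ℕ) : W.valuation (x ^ n - y ^ n) < 1 := by
  have e := (Commute.all x y).geom_sum₂_mul n
  rw [← e]
  refine kp_val_mul_lt_of_mem W ?_ h
  exact W.toSubring.sum_mem fun i _ => W.mul_mem _ _ (pow_mem hx _) (pow_mem hy _)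

theorem kp_val_eq_one_of_sub_lt {x y : E} (hx : W.valuation x = 1) (h : W.valuation (x - y) < 1) :
    W.valuation y = 1 := by
  have e : y = x + (y - x) := by ring
  rw [e, W.valuation.map_add_eq_of_lt_left (by rw [hx]; exact kp_val_sub_comm W h), hx]

theorem kp_mem_of_val_eq_one {x : E} (hx : W.valuation x = 1) : x ∈ W :=
  (ValuationSubring.valuation_le_one_iff _ _).mp hx.le

theorem kp_comap_val_eq_one_iff {F : Type*} [Field F] (ι : F →+* E) {O : ValuationSubring F}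
    (h : W.comap ι = O) (a : F) : W.valuation (ι a) = 1 ↔ O.valuation a = 1 := by
  have h1 := comap_val_lt_one_iff ι h a
  have h2 := comap_mem_iff ι h a
  rw [← ValuationSubring.valuation_le_one_iff, ← ValuationSubring.valuation_le_one_iff] at h2
  constructor
  · intro e
    exact le_antisymm (h2.mp e.le) (not_lt.mp fun hlt => absurd (h1.mpr hlt) (by rw [e]; exact lt_irrefl _))
  · intro e
    exact le_antisymm (h2.mpr e.le) (not_lt.mp fun hlt => absurd (h1.mp hlt) (by rw [e]; exact lt_irrefl _))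

end Val

section Abs

variable {R : Type*} [CommRing R] [IsDomain R] [IsDiscreteValuationRing R] [CharZero R]
  {K₁ : Type*} [Field K₁] [Algebra R K₁] [IsFractionRing R K₁]
  {KM : Type*} [Field KM] [Algebra K₁ KM] [Algebra R KM] [IsScalarTower R K₁ KM]
  {EM : Type*} [Field EM] [Algebra KM EM] [Algebra K₁ EM] [IsScalarTower K₁ KM EM] [Algebra R EM]
  [IsScalarTower R KM EM]
  {KN : Type*} [Field KN] [Algebra K₁ KN] [Algebra R KN] [IsScalarTower R K₁ KN]
  {EN : Type*} [Field EN] [Algebra KN EN] [Algebra K₁ EN] [IsScalarTower K₁ KN EN] [Algebra R EN]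
  [IsScalarTower R KN EN] [FiniteDimensional KN EN]
  {π : R} {p n : ℕ} {S : Finset R} {t : KM} {jM : EM} {j : KN} {A B : EM →+* EN}
  {VM : ValuationSubring EM} {Winf W0 : ValuationSubring EN}
  [IsAlgClosed (IsLocalRing.ResidueField R)]

/-- **the norm along `B` modulo the maximal ideal.** -/
theorem SSModel.normB_red (h : SSModel K₁ π p n S t jM j A B VM Winf W0)
    {NA NB : EN →* EM} (D : SSNormData p A B VM Winf W0 NA NB) {f : EN}
    (hfi : f ∈ Winf) (hfz : f ∈ W0) {b₁ b₂ : EM}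
    (hc₁ : W0.valuation (f - B b₁) < 1) (hc₂ : Winf.valuation (f ^ p - B b₂) < 1) :
    NB f ∈ VM ∧ VM.valuation (NB f - b₁ * b₂) < 1 := by
  haveI := SSModel.isDiscreteValuationRing_VM h
  have hCZ : CharZero EM := charZero_of_injective_algebraMap (SSModel_injective_algebraMap_R h)
  have hsep : letI := B.toAlgebra; Algebra.IsSeparable EM EN := by
    letI := B.toAlgebra
    haveI := D.finB
    exact Algebra.IsAlgebraic.isSeparable_of_perfectField
  obtain ⟨b, hb, hind⟩ := D.indB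
  have hchar : VM.valuation ((p : ℕ) : EM) < 1 := SSModel_val_natCast_lt_one h
  have key := norm_reduction_two_ext_hom B VM D.finB hsep h.comap_B_zero h.comap_B_inf
    h.two.ne.symm h.q_prime hchar (le_of_eq D.degB) b hb hind hfz hfi hc₁ hc₂
  rw [D.normB]
  exact key

/-- the value of a unit of `R` along a sheet. -/
theorem SSModel.val_algebraMap_unit_inf (h : SSModel K₁ π p n S t jM j A B VM Winf W0) (r : Rˣ) :
    Winf.valuation (algebraMap R EN (r : R)) = 1 := by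
  have h1 : algebraMap R EN (r : R) ∈ Winf := by
    have h2 := h.two.gauss_inf.1 (Polynomial.C (r : R))
    rw [Polynomial.aeval_C] at h2
    have h3 : algebraMap KN EN (algebraMap R KN (r : R)) ∈ Winf := h2
    rwa [← IsScalarTower.algebraMap_apply R KN EN] at h3
  have h1' : algebraMap R EN ((r⁻¹ : Rˣ) : R) ∈ Winf := by
    have h2 := h.two.gauss_inf.1 (Polynomial.C ((r⁻¹ : Rˣ) : R))
    rw [Polynomial.aeval_C] at h2
    have h3 : algebraMap KN EN (algebraMap R KN ((r⁻¹ : Rˣ) : R)) ∈ Winf := h2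
    rwa [← IsScalarTower.algebraMap_apply R KN EN] at h3
  have hmul : algebraMap R EN (r : R) * algebraMap R EN ((r⁻¹ : Rˣ) : R) = 1 := by
    rw [← map_mul, ← Units.val_mul, mul_inv_cancel, Units.val_one, map_one]
  have hne : algebraMap R EN (r : R) ≠ 0 := left_ne_zero_of_mul_eq_one hmul
  refine valuation_eq_one_of_mem_of_inv_mem hne h1 ?_
  rw [eq_inv_of_mul_eq_one_right hmul] at h1'
  exact h1'

omit [IsAlgClosed (IsLocalRing.ResidueField R)] in
theorem SSModel.val_pi_lt_one_inf (h : SSModel K₁ π p n S t jM j A B VM Winf W0) :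
    Winf.valuation (algebraMap R EN π) < 1 := by
  rw [TwoExt.val_lt_one_iff_inv_not_mem Winf (SSModel_pi_ne_zero h)]
  exact SSModel_pi_inv_notMem_inf h

omit [IsAlgClosed (IsLocalRing.ResidueField R)] in
theorem SSModel.val_pi_lt_one_zero (h : SSModel K₁ π p n S t jM j A B VM Winf W0) :
    W0.valuation (algebraMap R EN π) < 1 := by
  rw [TwoExt.val_lt_one_iff_inv_not_mem W0 (SSModel_pi_ne_zero h)]
  intro hmem
  apply h.two.gauss_zero.2.1
  show algebraMap KN EN (algebraMap R KN π)⁻¹ ∈ W0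
  rwa [map_inv₀, ← IsScalarTower.algebraMap_apply R KN EN]

omit [IsAlgClosed (IsLocalRing.ResidueField R)] in
theorem SSModel.algebraMap_R_mem_inf (h : SSModel K₁ π p n S t jM j A B VM Winf W0) (r : R) :
    algebraMap R EN r ∈ Winf := by
  have h2 := h.two.gauss_inf.1 (Polynomial.C r)
  rw [Polynomial.aeval_C] at h2
  have h3 : algebraMap KN EN (algebraMap R KN r) ∈ Winf := h2
  rwa [← IsScalarTower.algebraMap_apply R KN EN] at h3

omit [IsAlgClosed (IsLocalRing.ResidueField R)] in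
theorem SSModel.algebraMap_R_mem_zero (h : SSModel K₁ π p n S t jM j A B VM Winf W0) (r : R) :
    algebraMap R EN r ∈ W0 := by
  have h2 := h.two.gauss_zero.1 (Polynomial.C r)
  rw [Polynomial.aeval_C] at h2
  have h3 : algebraMap KN EN (algebraMap R KN r) ∈ W0 := h2
  rwa [← IsScalarTower.algebraMap_apply R KN EN] at h3

/-- **depth `≥ 1` passes from `W_∞` to `W_0`** for a unit of both sheets whose norm along `B` is a
constant times a `p`-th power. -/
theorem SSModel.valDepth_one_zero_of_inf (h : SSModel K₁ π p n S t jM j A B VM Winf W0)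
    {e₁ : ℕ} (he₁ : 0 < e₁) {ε : Rˣ} (hpe : (p : R) = ε * π ^ e₁)
    {NA NB : EN →* EM} (D : SSNormData p A B VM Winf W0 NA NB) {f : EN}
    (hfi : Winf.valuation f = 1) (hfz : W0.valuation f = 1)
    (h1i : ∃ c : K₁, c ≠ 0 ∧ ValDepth π p Winf 1 f c)
    (hNB : ∃ (u : K₁) (g : EM), u ≠ 0 ∧ g ≠ 0 ∧ NB f = algebraMap K₁ EM u * g ^ p) :
    ∃ c : K₁, c ≠ 0 ∧ ValDepth π p W0 1 f c := by
  have hπ := h.geo.irreducible
  have hp := h.q_prime
  have hπi := SSModel.val_pi_lt_one_inf h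
  have hπz := SSModel.val_pi_lt_one_zero h
  have hπ0 := SSModel_pi_ne_zero h
  haveI := SSModel.isDiscreteValuationRing_VM h
  -- unit normal form along `W_∞`
  have bi : (SSModel.sheetInf hp he₁ hpe h hπ).DepthGE f 1 :=
    (hostDepthBase_depthGE_iff hπ hp he₁ hpe (SSModel.sheetInf hp he₁ hpe h hπ) Winf rfl).mpr h1i
  obtain ⟨c, γ, s, hc, hγ, hs, e⟩ :=
    bi.exists_unit_rep le_rfl ((isUnitIn_toSubring_iff Winf).mpr hfi)
  have hs' : s ∈ Winf := hs
  have hγv : Winf.valuation γ = 1 := (isUnitIn_toSubring_iff Winf).mp hγ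
  have hγW : γ ∈ Winf := kp_mem_of_val_eq_one Winf hγv
  obtain ⟨r, rfl⟩ : ∃ r : R, algebraMap R EN r = c := hc.1
  obtain ⟨r', hr'⟩ : ∃ r' : R, algebraMap R EN r' = (algebraMap R EN r)⁻¹ := hc.2.1
  have hr0 : algebraMap R EN r ≠ 0 := hc.2.2
  have hrW : algebraMap R EN r ∈ Winf := SSModel.algebraMap_R_mem_inf h r
  rw [hostDepthBase_π, pow_one] at e
  -- `γ ≡ A g₀`
  obtain ⟨g₀, hg₀, hvg₀⟩ := h.res_inf γ hγW
  have hAg₀W : A g₀ ∈ Winf := (comap_mem_iff A h.comap_A_inf g₀).mpr hg₀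
  have hAg₀v : Winf.valuation (A g₀) = 1 := kp_val_eq_one_of_sub_lt Winf hγv hvg₀
  have hg₀v : VM.valuation g₀ = 1 := (kp_comap_val_eq_one_iff Winf A h.comap_A_inf g₀).mp hAg₀v
  have hpow : Winf.valuation (γ ^ p - A g₀ ^ p) < 1 := kp_val_pow_sub_pow_lt Winf hγW hAg₀W hvg₀ p
  -- `f ≡ A a₁`, `a₁ = r g₀ ^ p`
  set a₁ : EM := algebraMap R EM r * g₀ ^ p with ha₁
  have hAa₁ : A a₁ = algebraMap R EN r * A g₀ ^ p := by
    rw [ha₁, map_mul, map_pow, h.A_algebraMap]
  have hfa₁ : Winf.valuation (f - A a₁) < 1 := by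
    have e1 : f - A a₁ = algebraMap R EN r * (γ ^ p - A g₀ ^ p) +
        algebraMap R EN r * γ ^ p * s * algebraMap R EN π := by
      rw [hAa₁, e]; ring
    rw [e1]
    refine lt_of_le_of_lt (Winf.valuation.map_add _ _) (max_lt ?_ ?_)
    · exact kp_val_mul_lt_of_mem Winf hrW hpow
    · exact kp_val_mul_lt_of_mem Winf
        (Winf.mul_mem _ _ (Winf.mul_mem _ _ hrW (pow_mem hγW p)) hs') hπi
  have hfW : f ∈ Winf := kp_mem_of_val_eq_one Winf hfi
  have hfW0 : f ∈ W0 := kp_mem_of_val_eq_one W0 hfz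
  have hAa₁W : A a₁ ∈ Winf := by
    rw [hAa₁]; exact Winf.mul_mem _ _ hrW (pow_mem hAg₀W p)
  -- Kronecker: `B z ≡ A (g₀ ^ p)`
  obtain ⟨z, hz, hkz⟩ := D.kron_surj g₀ hg₀
  have hBzW : B z ∈ Winf := (comap_mem_iff B h.comap_B_inf z).mpr hz
  have hBzv : Winf.valuation (B z) = 1 := by
    have h1 : Winf.valuation (A (g₀ ^ p)) = 1 := by rw [map_pow, map_pow, hAg₀v, one_pow]
    exact kp_val_eq_one_of_sub_lt Winf h1 (kp_val_sub_comm Winf hkz)
  have hzv : VM.valuation z = 1 := (kp_comap_val_eq_one_iff Winf B h.comap_B_inf z).mp hBzv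
  set b₂ : EM := algebraMap R EM (r ^ p) * z ^ p with hb₂
  have hBb₂ : B b₂ = algebraMap R EN r ^ p * B z ^ p := by
    rw [hb₂, map_mul, h.B_algebraMap, map_pow, map_pow]
  have hfb₂ : Winf.valuation (f ^ p - B b₂) < 1 := by
    refine kp_val_sub_lt_trans Winf (kp_val_pow_sub_pow_lt Winf hfW hAa₁W hfa₁ p) ?_
    have e2 : A a₁ ^ p - B b₂ = algebraMap R EN r ^ p * ((A (g₀ ^ p)) ^ p - B z ^ p) := by
      rw [hAa₁, hBb₂, map_pow]; ring
    rw [e2]
    refine kp_val_mul_lt_of_mem Winf (pow_mem hrW p) ?_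
    exact kp_val_pow_sub_pow_lt Winf ((comap_mem_iff A h.comap_A_inf _).mpr (pow_mem hg₀ p)) hBzW
      (kp_val_sub_comm Winf hkz) p
  -- `f ≡ B b₁` on `W_0`
  obtain ⟨b₁, hb₁, hvb₁⟩ := h.res_zero f hfW0
  have hBb₁v : W0.valuation (B b₁) = 1 := kp_val_eq_one_of_sub_lt W0 hfz hvb₁
  have hb₁v : VM.valuation b₁ = 1 := (kp_comap_val_eq_one_iff W0 B h.comap_B_zero b₁).mp hBb₁v
  -- the norm
  obtain ⟨hNmem, hNv⟩ := SSModel.normB_red h D hfW hfW0 hvb₁ hfb₂
  -- units of `R`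
  have hrr' : algebraMap R EM r * algebraMap R EM r' = 1 := by
    have h1 : algebraMap R EN (r * r') = 1 := by
      rw [map_mul, hr', mul_inv_cancel₀ hr0]
    have h2 : r * r' = 1 := by
      have hinj : Function.Injective (algebraMap R EN) := by
        intro x y hxy
        have := SSModel_injective_algebraMap_R h
        apply this
        have hx := h.A_algebraMap x
        have hy := h.A_algebraMap y
        exact A.injective (by rw [hx, hy, hxy])
      exact hinj (by rw [h1, map_one])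
    rw [← map_mul, h2, map_one]
  have hrMv : VM.valuation (algebraMap R EM r) = 1 := by
    have h1 : algebraMap R EM r ∈ VM := SSModel_algebraMap_R_mem h r
    have h2 : algebraMap R EM r' ∈ VM := SSModel_algebraMap_R_mem h r'
    have hne : algebraMap R EM r ≠ 0 := left_ne_zero_of_mul_eq_one hrr'
    refine valuation_eq_one_of_mem_of_inv_mem hne h1 ?_
    rw [eq_inv_of_mul_eq_one_right hrr'] at h2
    exact h2
  have hb₂v : VM.valuation b₂ = 1 := by
    rw [hb₂, map_mul, map_pow, map_pow, map_pow, hrMv, hzv, one_pow, one_mul]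
  have hNfv : VM.valuation (NB f) = 1 := by
    have h1 : VM.valuation (b₁ * b₂) = 1 := by rw [map_mul, hb₁v, hb₂v, one_mul]
    exact kp_val_eq_one_of_sub_lt VM h1 (kp_val_sub_comm VM hNv)
  -- normal form of the norm
  obtain ⟨u, G, hu, hG, eN⟩ := hNB
  have hU : IsUnitIn (GeoHyps.sheetM hp he₁ hpe h.geo VM h.gauss_M).W (NB f) :=
    (isUnitIn_toSubring_iff VM).mpr hNfv
  obtain ⟨c', G₁, hc', hG₁, e'⟩ := (GeoHyps.sheetM hp he₁ hpe h.geo VM h.gauss_M).exists_unit_rep'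
    (c := algebraMap K₁ EM u) ⟨u, rfl⟩ ((map_ne_zero _).mpr hu) hG hU eN.symm
  obtain ⟨r₂, rfl⟩ : ∃ r₂ : R, algebraMap R EM r₂ = c' := hc'.1
  have hG₁v : VM.valuation G₁ = 1 := (isUnitIn_toSubring_iff VM).mp hG₁
  have hz0 : z ≠ 0 := by
    rintro rfl
    rw [map_zero] at hzv
    exact zero_ne_one hzv
  -- `b₁ ≡ r₃ g₃ ^ p`
  set g₃ : EM := G₁ * z⁻¹ with hg₃
  set r₃ : R := r₂ * r' ^ p with hr₃
  have hg₃v : VM.valuation g₃ = 1 := by rw [hg₃, map_mul, map_inv₀, hG₁v, hzv, inv_one, one_mul]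
  have hkey : NB f = (algebraMap R EM r₃ * g₃ ^ p) * b₂ := by
    rw [← e', hr₃, hg₃, hb₂, map_mul, map_pow, map_pow, mul_pow, inv_pow]
    have hzp : z ^ p ≠ 0 := pow_ne_zero p hz0
    have hrp : (algebraMap R EM r * algebraMap R EM r') ^ p = 1 := by rw [hrr', one_pow]
    rw [mul_pow] at hrp
    field_simp
    linear_combination (algebraMap R EM r₂ * G₁ ^ p) * hrp.symm
  have hb₁' : VM.valuation (b₁ - algebraMap R EM r₃ * g₃ ^ p) < 1 := by
    have e3 : NB f - b₁ * b₂ = -((b₁ - algebraMap R EM r₃ * g₃ ^ p) * b₂) := by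
      rw [hkey]; ring
    rw [e3, Valuation.map_neg, map_mul, hb₂v, mul_one] at hNv
    exact hNv
  -- back to `W_0`
  have hBb₁' : W0.valuation (B b₁ - B (algebraMap R EM r₃ * g₃ ^ p)) < 1 := by
    rw [← map_sub]
    exact (comap_val_lt_one_iff B h.comap_B_zero _).mpr hb₁'
  have hfin : W0.valuation (f - algebraMap R EN r₃ * B g₃ ^ p) < 1 := by
    have := kp_val_sub_lt_trans W0 hvb₁ hBb₁'
    rwa [map_mul, map_pow, h.B_algebraMap] at this
  set y : EN := algebraMap R EN r₃ * B g₃ ^ p with hy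
  have hyv : W0.valuation y = 1 := kp_val_eq_one_of_sub_lt W0 hfz hfin
  have hy0 : y ≠ 0 := by
    intro h0
    rw [h0, map_zero] at hyv
    exact zero_ne_one hyv
  have hr₃0 : r₃ ≠ 0 := by
    rintro h0
    apply hy0
    rw [hy, h0, map_zero, zero_mul]
  have hBg₃0 : B g₃ ≠ 0 := by
    intro h0
    apply hy0
    rw [hy, h0, zero_pow hp.ne_zero, mul_zero]
  refine ⟨algebraMap R K₁ r₃, ?_, B g₃, hBg₃0, (f * y⁻¹ - 1) * (algebraMap R EN π)⁻¹, ?_, ?_⟩
  · rw [Ne, map_eq_zero_iff _ (IsFractionRing.injective R K₁)]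
    exact hr₃0
  · apply h.two.e_zero
    have e4 : f * y⁻¹ - 1 = (f - y) * y⁻¹ := by field_simp
    rw [e4, map_mul, map_inv₀, hyv, inv_one, mul_one]
    exact hfin
  · rw [← algebraMap_R_eq_K₁ (K₁ := K₁) KN (EM := EN), ← hy, pow_one]
    field_simp
    ring

/-- **Case 1 of (KEY-PEU) at a base**: orders along the two sheets congruent modulo `p`, depth
`≥ 1` along `W_∞` only, both norms constants times `p`-th powers ⇒ all depths along both sheets. -/
theorem SSModel.valDepth_all_of_inf (h : SSModel K₁ π p n S t jM j A B VM Winf W0)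
    {e₁ : ℕ} (he₁ : 0 < e₁) {ε : Rˣ} (hpe : (p : R) = ε * π ^ e₁) {NA NB : EN →* EM}
    (D : SSNormData p A B VM Winf W0 NA NB) {f : EN} {a b : ℤ}
    (hfa : Winf.valuation (f * (algebraMap R EN π ^ a)⁻¹) = 1)
    (hfb : W0.valuation (f * (algebraMap R EN π ^ b)⁻¹) = 1) (hab : (p : ℤ) ∣ b - a)
    (h1i : ∃ c : K₁, c ≠ 0 ∧ ValDepth π p Winf 1 f c)
    (hNA : ∃ (u : K₁) (g : EM), u ≠ 0 ∧ g ≠ 0 ∧ NA f = algebraMap K₁ EM u * g ^ p)
    (hNB : ∃ (u : K₁) (g : EM), u ≠ 0 ∧ g ≠ 0 ∧ NB f = algebraMap K₁ EM u * g ^ p) (N : ℕ) :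
    (∃ c : K₁, c ≠ 0 ∧ ValDepth π p Winf N f c) ∧ (∃ c : K₁, c ≠ 0 ∧ ValDepth π p W0 N f c) := by
  obtain ⟨g, hg, hgi, hgz⟩ := SSModel.exists_unit_normalisation h D hfa hfb hab
  have hπR : (algebraMap R K₁ π) ≠ 0 := by
    intro h0
    apply SSModel_pi_ne_zero h
    rw [algebraMap_R_eq_K₁ (K₁ := K₁) KN (EM := EN), h0, map_zero]
  set d : K₁ := algebraMap R K₁ π ^ a with hd
  have hd0 : d ≠ 0 := zpow_ne_zero a hπR
  have hdE : algebraMap K₁ EN d = algebraMap R EN π ^ a := by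
    rw [hd, map_zpow₀, ← algebraMap_R_eq_K₁ (K₁ := K₁) KN (EM := EN)]
  rw [← hdE] at hgi hgz
  set T := SSModel.twoLevel h he₁ hpe D with hT
  have hNBc : ∀ c : K₁, NB (algebraMap K₁ EN c) = algebraMap K₁ EM (c ^ (p + 1)) := by
    intro c
    have := T.NB_B (algebraMap K₁ EM c)
    rw [map_pow]
    rw [← this]
    show NB (algebraMap K₁ EN c) = NB (B (algebraMap K₁ EM c))
    rw [SSModel_B_algebraMap_K₁ h]
  have hNB' : ∃ (u : K₁) (g' : EM), u ≠ 0 ∧ g' ≠ 0 ∧
      NB (f * (algebraMap K₁ EN d * g ^ p)⁻¹) = algebraMap K₁ EM u * g' ^ p := by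
    obtain ⟨u, g', hu, hg', e⟩ := hNB
    have hx0 : algebraMap K₁ EN d * g ^ p ≠ 0 :=
      mul_ne_zero ((map_ne_zero _).mpr hd0) (pow_ne_zero p hg)
    have hinv : NB (algebraMap K₁ EN d * g ^ p)⁻¹ = (NB (algebraMap K₁ EN d * g ^ p))⁻¹ := by
      apply eq_inv_of_mul_eq_one_left
      rw [← map_mul, inv_mul_cancel₀ hx0, map_one]
    refine ⟨u / d ^ (p + 1), g' * (NB g)⁻¹, div_ne_zero hu (pow_ne_zero _ hd0),
      mul_ne_zero hg' (inv_ne_zero (T.NB_ne_zero hg)), ?_⟩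
    rw [map_mul, hinv, map_mul, map_pow, hNBc, e, map_div₀, mul_pow, inv_pow]
    have h1 : algebraMap K₁ EM (d ^ (p + 1)) ≠ 0 := (map_ne_zero _).mpr (pow_ne_zero _ hd0)
    have h2 : NB g ^ p ≠ 0 := pow_ne_zero p (T.NB_ne_zero hg)
    field_simp
  have h1i' : ∃ c : K₁, c ≠ 0 ∧ ValDepth π p Winf 1 (f * (algebraMap K₁ EN d * g ^ p)⁻¹) c := by
    obtain ⟨c, hc, hv⟩ := h1i
    exact ⟨c / d, div_ne_zero hc hd0, hv.mul_inv_const_pow hd0 hg⟩
  obtain ⟨c, hc, hv⟩ := SSModel.valDepth_one_zero_of_inf h he₁ hpe D hgi hgz h1i' hNB'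
  have h1z : ∃ c : K₁, c ≠ 0 ∧ ValDepth π p W0 1 f c :=
    ⟨c * d, mul_ne_zero hc hd0, ValDepth.of_mul_inv_const_pow hd0 hg hv⟩
  obtain ⟨_, _, _, _, _, _, hN⟩ := SSModel.thmA_p' h he₁ hpe D hfa hfb hab h1i h1z hNA hNB
  exact ⟨(hN N).2.2.1, (hN N).2.2.2⟩

/-- **the depth of `σ f / f`** for an automorphism `σ` of the model (constants preserved,
`π ↦ unit · π`, trivial on the residue fields of both sheets, compatible with `A` and `B`) and `f`
with both norms constants times `p`-th powers: all depths along both sheets. -/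
theorem SSModel.valDepth_all_aut_div (h : SSModel K₁ π p n S t jM j A B VM Winf W0)
    {e₁ : ℕ} (he₁ : 0 < e₁) {ε : Rˣ} (hpe : (p : R) = ε * π ^ e₁) {NA NB : EN →* EM}
    (D : SSNormData p A B VM Winf W0 NA NB) (σN : EN ≃+* EN) (σM : EM ≃+* EM)
    (hσA : ∀ x, σN (A x) = A (σM x)) (hσB : ∀ x, σN (B x) = B (σM x))
    (hσKM : ∀ c : K₁, ∃ c' : K₁, σM (algebraMap K₁ EM c) = algebraMap K₁ EM c')
    (hσKN : ∀ c : K₁, ∃ c' : K₁, σN (algebraMap K₁ EN c) = algebraMap K₁ EN c')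
    (hσπ : ∃ c₀ : Rˣ, σN (algebraMap R EN π) = algebraMap R EN ((c₀ : R) * π))
    (hσi : ∀ y ∈ Winf, Winf.valuation (σN y - y) < 1)
    (hσz : ∀ y ∈ W0, W0.valuation (σN y - y) < 1)
    {f : EN} (hf : f ≠ 0)
    (hNA : ∃ (u : K₁) (g : EM), u ≠ 0 ∧ g ≠ 0 ∧ NA f = algebraMap K₁ EM u * g ^ p)
    (hNB : ∃ (u : K₁) (g : EM), u ≠ 0 ∧ g ≠ 0 ∧ NB f = algebraMap K₁ EM u * g ^ p) (N : ℕ) :
    (∃ c : K₁, c ≠ 0 ∧ ValDepth π p Winf N (σN f / f) c) ∧
      (∃ c : K₁, c ≠ 0 ∧ ValDepth π p W0 N (σN f / f) c) := by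
  have hσf : σN f ≠ 0 := (map_ne_zero σN).mpr hf
  have hg0 : σN f / f ≠ 0 := div_ne_zero hσf hf
  let G : Set (EN →+* EN) := {(σN : EN →+* EN)}
  have hG : ∀ σ ∈ G, (∀ c : K₁, ∃ c' : K₁, σ (algebraMap K₁ EN c) = algebraMap K₁ EN c') ∧
      (∃ c₀ : Rˣ, σ (algebraMap R EN π) = algebraMap R EN ((c₀ : R) * π)) ∧
      (∀ y ∈ Winf, Winf.valuation (σ y - y) < 1) ∧ (∀ y ∈ W0, W0.valuation (σ y - y) < 1) := by
    intro σ hσ
    rw [Set.mem_singleton_iff] at hσ
    subst hσ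
    exact ⟨hσKN, hσπ, hσi, hσz⟩
  have hu : Units.mk0 (σN f / f) hg0 ∈ Subgroup.closure
      {u : ENˣ | ∃ (g : ENˣ) (σ : EN →+* EN), σ ∈ G ∧ (u : EN) = σ (g : EN) / (g : EN)} :=
    Subgroup.subset_closure ⟨Units.mk0 f hf, (σN : EN →+* EN), Set.mem_singleton _, rfl⟩
  have e : (σN f / f) ^ p ^ 0 = algebraMap K₁ EN 1 * (Units.mk0 (σN f / f) hg0 : ENˣ) := by
    rw [pow_zero, pow_one, map_one, one_mul, Units.val_mk0]
  obtain ⟨a', hfa, hfb, h1i, h1z⟩ := SSModel.split_levelN h he₁ hpe G hG hg0 one_ne_zero hu e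
  -- the norms
  have hnorm : ∀ (ι : EM →+* EN) (N' : EN →* EM),
      (∀ x, N' x = (letI := ι.toAlgebra; Algebra.norm EM x)) → (∀ x, σN (ι x) = ι (σM x)) →
      (∀ x : EN, x ≠ 0 → N' x ≠ 0) →
      (∃ (u : K₁) (g : EM), u ≠ 0 ∧ g ≠ 0 ∧ N' f = algebraMap K₁ EM u * g ^ p) →
      ∃ (u : K₁) (g : EM), u ≠ 0 ∧ g ≠ 0 ∧ N' (σN f / f) = algebraMap K₁ EM u * g ^ p := by
    rintro ι N' hN' hσι hN'0 ⟨u, g, hu, hg, eN⟩
    obtain ⟨u', hu'⟩ := hσKM u
    have hu'0 : u' ≠ 0 := by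
      rintro rfl
      rw [map_zero] at hu'
      exact (map_ne_zero (algebraMap K₁ EM)).mpr hu ((map_eq_zero σM).mp hu')
    have heq : N' (σN f) = σM (N' f) := by
      rw [hN', hN']
      exact normred_norm_equivariant ι σM σN hσι f
    have hinv : N' f⁻¹ = (N' f)⁻¹ := by
      apply eq_inv_of_mul_eq_one_left
      rw [← map_mul, inv_mul_cancel₀ hf, map_one]
    refine ⟨u' / u, σM g / g, div_ne_zero hu'0 hu, div_ne_zero ((map_ne_zero σM).mpr hg) hg, ?_⟩
    rw [div_eq_mul_inv, map_mul, hinv, heq, eN, map_mul, map_pow, hu', map_div₀, div_pow]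
    have h1 : algebraMap K₁ EM u ≠ 0 := (map_ne_zero _).mpr hu
    have h2 : g ^ p ≠ 0 := pow_ne_zero p hg
    field_simp
  set T := SSModel.twoLevel h he₁ hpe D with hT
  have hNA' := hnorm A NA D.normA hσA (fun x hx => T.NA_ne_zero hx) hNA
  have hNB' := hnorm B NB D.normB hσB (fun x hx => T.NB_ne_zero hx) hNB
  obtain ⟨_, _, _, _, _, _, hN⟩ := SSModel.thmA_p' h he₁ hpe D hfa hfb
    (by rw [sub_self]; exact dvd_zero _) h1i h1z hNA' hNB'
  exact ⟨(hN N).2.2.1, (hN N).2.2.2⟩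

end Abs

end Fermat.Agent.MP
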