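/-
MP40 (S44/S40) — helper3 — [RQ4-Q]: **the formal Hecke eigen-relation for logarithmic derivatives
of `q`-series.**

Pure Laurent-series algebra over a field `k` (any characteristic):

* `dlogθ f = θ f / f`, `θ = q d/dq` (`eulerD`), with the usual rules (`dlogθ_mul`, `dlogθ_prod`,
  `dlogθ_zpow`, `dlogθ_twist`, `dlogθ_qExpand`, `dlogθ_pow_char`);
* `coeff_dlogθ_of_norm_shape`: if `G(q^ℓ) = ∏_{b < ℓ} Y(ζ^b q) · Y(q^{ℓ²})` (the shape of the
  `q`-expansion of a Hecke norm, `JA/ES1_helper2_Norm`), `ζ^ℓ = 1`, `ℓ ≠ 0` in `k`, then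
  `coeff n (θG/G) = coeff (nℓ) (θY/Y) + [ℓ ∣ n] ℓ · coeff (n/ℓ) (θY/Y)`;
* `exists_powerSeries_dlogθ`: for `Y ≠ 0`, `θY/Y` is a power series with constant term `ord Y`
  (`coeff_dlogθ_of_neg`, `coeff_dlogθ_zero`);
* `eigen_of_norm_shape` (`eigen_powerSeries_of_norm_shape` in power-series form): if moreover `G = c · Y^a · u^p` with `char k = p`, then the coefficients
  `b n` of `θY/Y` satisfy `b (nℓ) + [ℓ ∣ n] ℓ · b (n/ℓ) = a · b n` — the hypothesis `hE` of
  `resOccurs_of_formal_eigen` (`MP/RQ5_helper4_Formal`).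
-/
import Mathlib
import Fermat.Agent.S36.REG1_lead_Theta
import Fermat.Agent.Igusa.A_helper2_Twist

set_option autoImplicit false
set_option linter.unusedSectionVars false

namespace Fermat.Agent.MP.RQ4Q

open ModularCurve Fermat.Agent.S36 Fermat.Agent.Igusa

noncomputable section

variable {k : Type*} [Field k]

/-- the logarithmic Euler derivative `θ f / f`. -/
def dlogθ (f : LaurentSeries k) : LaurentSeries k := eulerD k f / f

theorem dlogθ_def (f : LaurentSeries k) : dlogθ f = eulerD k f / f := rfl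

@[simp] theorem dlogθ_zero : dlogθ (0 : LaurentSeries k) = 0 := by
  rw [dlogθ_def, div_zero]

@[simp] theorem dlogθ_one : dlogθ (1 : LaurentSeries k) = 0 := by
  rw [dlogθ_def, Derivation.map_one_eq_zero, zero_div]

theorem dlogθ_mul {f g : LaurentSeries k} (hf : f ≠ 0) (hg : g ≠ 0) :
    dlogθ (f * g) = dlogθ f + dlogθ g := by
  rw [dlogθ_def, dlogθ_def, dlogθ_def, Derivation.leibniz, smul_eq_mul, smul_eq_mul]
  field_simp
  ring

theorem dlogθ_C {c : k} : dlogθ (HahnSeries.C c : LaurentSeries k) = 0 := by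
  rw [dlogθ_def, eulerD_apply, eulerFun_C, zero_div]

theorem dlogθ_inv (f : LaurentSeries k) : dlogθ f⁻¹ = - dlogθ f := by
  rcases eq_or_ne f 0 with rfl | hf
  · simp
  have h := dlogθ_mul hf (inv_ne_zero hf)
  rw [mul_inv_cancel₀ hf, dlogθ_one] at h
  exact eq_neg_of_add_eq_zero_right h.symm

theorem dlogθ_prod {ι : Type*} (s : Finset ι) (f : ι → LaurentSeries k)
    (hf : ∀ i ∈ s, f i ≠ 0) : dlogθ (∏ i ∈ s, f i) = ∑ i ∈ s, dlogθ (f i) := by
  classical
  induction s using Finset.induction_on with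
  | empty => simp
  | insert i s hi ih =>
    rw [Finset.prod_insert hi, Finset.sum_insert hi,
      dlogθ_mul (hf i (Finset.mem_insert_self i s))
        (Finset.prod_ne_zero_iff.mpr fun j hj => hf j (Finset.mem_insert_of_mem hj)),
      ih fun j hj => hf j (Finset.mem_insert_of_mem hj)]

theorem dlogθ_pow (f : LaurentSeries k) (n : ℕ) :
    dlogθ (f ^ n) = (n : LaurentSeries k) * dlogθ f := by
  rcases eq_or_ne f 0 with rfl | hf
  · rcases eq_or_ne n 0 with rfl | hn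
    · simp
    · rw [zero_pow hn, dlogθ_zero, mul_zero]
  induction n with
  | zero => simp
  | succ n ih =>
    rw [pow_succ, dlogθ_mul (pow_ne_zero n hf) hf, ih]
    push_cast
    ring

theorem dlogθ_zpow (f : LaurentSeries k) (n : ℤ) :
    dlogθ (f ^ n) = (n : LaurentSeries k) * dlogθ f := by
  obtain ⟨m, rfl | rfl⟩ := n.eq_nat_or_neg
  · rw [zpow_natCast, dlogθ_pow, Int.cast_natCast]
  · rw [zpow_neg, zpow_natCast, dlogθ_inv, dlogθ_pow, Int.cast_neg, Int.cast_natCast, neg_mul]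

/-- in characteristic `p`, `p`-th powers have zero logarithmic derivative. -/
theorem dlogθ_pow_char (p : ℕ) [CharP k p] (u : LaurentSeries k) : dlogθ (u ^ p) = 0 := by
  rw [dlogθ_pow]
  have h : (p : LaurentSeries k) = HahnSeries.C ((p : ℕ) : k) := by rw [map_natCast]
  rw [h, CharP.cast_eq_zero, map_zero, zero_mul]

theorem eulerD_twist (ξ : kˣ) (f : LaurentSeries k) :
    eulerD k (twist ξ f) = twist ξ (eulerD k f) := by
  ext n
  rw [eulerD_coeff, twist_coeff, twist_coeff, eulerD_coeff]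
  ring

theorem dlogθ_twist (ξ : kˣ) (f : LaurentSeries k) :
    dlogθ (twist ξ f) = twist ξ (dlogθ f) := by
  rw [dlogθ_def, dlogθ_def, eulerD_twist, map_div₀]

theorem dlogθ_qExpand (N : ℕ) [NeZero N] (f : LaurentSeries k) :
    dlogθ (qExpand k N f) = (N : LaurentSeries k) * qExpand k N (dlogθ f) := by
  rw [dlogθ_def, dlogθ_def, eulerD_qExpand, map_div₀, mul_div_assoc]

theorem eulerD_single (m : ℤ) (c : k) :
    eulerD k (HahnSeries.single m c : LaurentSeries k) = HahnSeries.single m ((m : k) * c) := by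
  ext n
  rw [eulerD_coeff]
  rcases eq_or_ne n m with rfl | h
  · rw [HahnSeries.coeff_single_same, HahnSeries.coeff_single_same]
  · rw [HahnSeries.coeff_single_of_ne h, HahnSeries.coeff_single_of_ne h, mul_zero]

theorem dlogθ_single_one (m : ℤ) :
    dlogθ (HahnSeries.single m (1 : k) : LaurentSeries k) = HahnSeries.C (m : k) := by
  have h0 : (HahnSeries.single m (1 : k) : LaurentSeries k) ≠ 0 :=
    HahnSeries.single_ne_zero one_ne_zero
  rw [dlogθ_def, eulerD_single, div_eq_iff h0, HahnSeries.C_mul_eq_smul]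
  ext n
  rw [HahnSeries.coeff_smul, smul_eq_mul]
  rcases eq_or_ne n m with rfl | h
  · rw [HahnSeries.coeff_single_same, HahnSeries.coeff_single_same]
  · rw [HahnSeries.coeff_single_of_ne h, HahnSeries.coeff_single_of_ne h, mul_zero]

/-- `θ` on power series. -/
theorem eulerD_ofPowerSeries (P : PowerSeries k) :
    eulerD k (HahnSeries.ofPowerSeries ℤ k P) =
      HahnSeries.ofPowerSeries ℤ k (PowerSeries.mk fun n => (n : k) * PowerSeries.coeff n P) := by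
  ext n
  rw [eulerD_coeff]
  rcases lt_or_ge n 0 with hn | hn
  · rw [PowerSeries.coeff_coe, PowerSeries.coeff_coe, if_pos hn, if_pos hn, mul_zero]
  · obtain ⟨m, rfl⟩ := Int.eq_ofNat_of_zero_le hn
    rw [HahnSeries.ofPowerSeries_apply_coeff, HahnSeries.ofPowerSeries_apply_coeff,
      PowerSeries.coeff_mk, Int.cast_natCast]

/-- **the logarithmic derivative of a non-zero Laurent series is a power series, with constant
term the order.** -/
theorem exists_powerSeries_dlogθ {Y : LaurentSeries k} (hY : Y ≠ 0) :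
    ∃ P : PowerSeries k, dlogθ Y = HahnSeries.ofPowerSeries ℤ k P ∧
      PowerSeries.constantCoeff P = (Y.order : k) := by
  set P₀ := LaurentSeries.powerSeriesPart Y with hP₀
  have hYeq : HahnSeries.single Y.order (1 : k) * HahnSeries.ofPowerSeries ℤ k P₀ = Y :=
    LaurentSeries.single_order_mul_powerSeriesPart Y
  have hc : PowerSeries.constantCoeff P₀ ≠ 0 := by
    rw [← PowerSeries.coeff_zero_eq_constantCoeff_apply, hP₀, LaurentSeries.powerSeriesPart_coeff]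
    rw [Nat.cast_zero, add_zero]
    exact fun h0 => hY (HahnSeries.coeff_order_eq_zero.mp h0)
  have hs : (HahnSeries.single Y.order (1 : k) : LaurentSeries k) ≠ 0 :=
    HahnSeries.single_ne_zero one_ne_zero
  have hP₀0 : HahnSeries.ofPowerSeries ℤ k P₀ ≠ 0 := by
    intro h0
    rw [h0, mul_zero] at hYeq
    exact hY hYeq.symm
  set Q : PowerSeries k := PowerSeries.mk fun n => (n : k) * PowerSeries.coeff n P₀ with hQ
  refine ⟨PowerSeries.C (Y.order : k) + Q * P₀⁻¹, ?_, ?_⟩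
  · have hinv : HahnSeries.ofPowerSeries ℤ k P₀ * HahnSeries.ofPowerSeries ℤ k P₀⁻¹ = 1 := by
      rw [← map_mul, PowerSeries.mul_inv_cancel _ hc, map_one]
    conv_lhs => rw [← hYeq]
    rw [dlogθ_mul hs hP₀0, dlogθ_single_one, map_add, map_mul, HahnSeries.ofPowerSeries_C]
    congr 1
    rw [dlogθ_def, eulerD_ofPowerSeries, div_eq_iff hP₀0, mul_assoc,
      mul_comm (HahnSeries.ofPowerSeries ℤ k P₀⁻¹), hinv, mul_one]
  · rw [map_add, map_mul, PowerSeries.constantCoeff_C]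
    have : PowerSeries.constantCoeff Q = 0 := by
      rw [← PowerSeries.coeff_zero_eq_constantCoeff_apply, hQ, PowerSeries.coeff_mk]
      simp
    rw [this, zero_mul, add_zero]

theorem coeff_dlogθ_of_neg {Y : LaurentSeries k} {n : ℤ} (hn : n < 0) :
    (dlogθ Y).coeff n = 0 := by
  rcases eq_or_ne Y 0 with rfl | hY
  · simp
  obtain ⟨P, hP, -⟩ := exists_powerSeries_dlogθ hY
  rw [hP, PowerSeries.coeff_coe, if_pos hn]

theorem coeff_dlogθ_zero {Y : LaurentSeries k} (hY : Y ≠ 0) :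
    (dlogθ Y).coeff 0 = (Y.order : k) := by
  obtain ⟨P, hP, h0⟩ := exists_powerSeries_dlogθ hY
  rw [hP, ← h0, ← PowerSeries.coeff_zero_eq_constantCoeff_apply]
  exact HahnSeries.ofPowerSeries_apply_coeff P 0

theorem coeff_natCast_mul (N : ℕ) (f : LaurentSeries k) (n : ℤ) :
    ((N : LaurentSeries k) * f).coeff n = (N : k) * f.coeff n := by
  have h : (N : LaurentSeries k) = HahnSeries.C ((N : ℕ) : k) := by rw [map_natCast]
  rw [h, HahnSeries.C_mul_eq_smul, HahnSeries.coeff_smul, smul_eq_mul]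

theorem coeff_intCast_mul (N : ℤ) (f : LaurentSeries k) (n : ℤ) :
    ((N : LaurentSeries k) * f).coeff n = (N : k) * f.coeff n := by
  have h : (N : LaurentSeries k) = HahnSeries.C ((N : ℤ) : k) := by rw [map_intCast]
  rw [h, HahnSeries.C_mul_eq_smul, HahnSeries.coeff_smul, smul_eq_mul]

/-- **[RQ4-Q], the `U_ℓ + ℓ V_ℓ` formula for logarithmic derivatives**: if
`G(q^ℓ) = ∏_{b < ℓ} Y(ζ^b q) · Y(q^{ℓ²})` with `ζ^ℓ = 1` and `ℓ` invertible in `k`, then
`coeff n (θG/G) = coeff (nℓ) (θY/Y) + [ℓ ∣ n] ℓ · coeff (n/ℓ) (θY/Y)`. -/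
theorem coeff_dlogθ_of_norm_shape {ℓ : ℕ} [NeZero ℓ] (hℓ : (ℓ : k) ≠ 0) (ζ : kˣ)
    (hζ : ζ ^ ℓ = 1) {G Y : LaurentSeries k} (hY : Y ≠ 0)
    (h : qExpand k ℓ G = (∏ b ∈ Finset.range ℓ, twist (ζ ^ b) Y) * qExpand k (ℓ * ℓ) Y)
    (n : ℤ) :
    (dlogθ G).coeff n = (dlogθ Y).coeff (n * ℓ) +
      if (ℓ : ℤ) ∣ n then (ℓ : k) * (dlogθ Y).coeff (n / ℓ) else 0 := by
  have htw : ∀ b ∈ Finset.range ℓ, twist (ζ ^ b) Y ≠ 0 := fun b _ =>
    (map_ne_zero_iff _ (twist (ζ ^ b)).injective).mpr hY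
  have hq : qExpand k (ℓ * ℓ) Y ≠ 0 :=
    (map_ne_zero_iff _ (qExpand_injective (R := k) (ℓ * ℓ))).mpr hY
  have h1 := congrArg dlogθ h
  rw [dlogθ_qExpand, dlogθ_mul (Finset.prod_ne_zero_iff.mpr htw) hq, dlogθ_prod _ _ htw,
    dlogθ_qExpand] at h1
  have h2 := congrArg (fun F : LaurentSeries k => F.coeff ((ℓ : ℤ) * n)) h1
  rw [coeff_natCast_mul, qExpand_coeff_mul, HahnSeries.coeff_add, HahnSeries.coeff_sum,
    coeff_natCast_mul] at h2
  have h3 : ∀ b ∈ Finset.range ℓ, (dlogθ (twist (ζ ^ b) Y)).coeff ((ℓ : ℤ) * n) =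
      (dlogθ Y).coeff (n * ℓ) := by
    intro b _
    rw [dlogθ_twist, twist_coeff, mul_comm (ℓ : ℤ) n]
    have : ((ζ ^ b) ^ (n * (ℓ : ℤ)) : kˣ) = 1 := by
      rw [mul_comm, zpow_mul, zpow_natCast, ← pow_mul, mul_comm b ℓ, pow_mul, hζ, one_pow,
        one_zpow]
    rw [this, Units.val_one, one_mul]
  rw [Finset.sum_congr rfl h3, Finset.sum_const, Finset.card_range, nsmul_eq_mul] at h2
  by_cases hn : (ℓ : ℤ) ∣ n
  · rw [if_pos hn]
    obtain ⟨m, rfl⟩ := hn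
    have hℓ0 : (ℓ : ℤ) ≠ 0 := by exact_mod_cast NeZero.ne ℓ
    rw [show (ℓ : ℤ) * ((ℓ : ℤ) * m) = ((ℓ * ℓ : ℕ) : ℤ) * m by push_cast; ring,
      qExpand_coeff_mul] at h2
    rw [Int.mul_ediv_cancel_left _ hℓ0]
    apply mul_left_cancel₀ hℓ
    rw [h2]
    push_cast
    ring
  · rw [if_neg hn, add_zero]
    have hnd : ¬ ((ℓ * ℓ : ℕ) : ℤ) ∣ (ℓ : ℤ) * n := by
      have hℓ0 : (ℓ : ℤ) ≠ 0 := by exact_mod_cast NeZero.ne ℓ
      push_cast
      intro hd
      exact hn ((mul_dvd_mul_iff_left hℓ0).mp hd)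
    rw [qExpand_coeff_of_not_dvd _ _ hnd, mul_zero, add_zero] at h2
    exact mul_left_cancel₀ hℓ h2

/-- **[RQ4-Q]**: the formal eigen-relation.  If `G(q^ℓ) = ∏_{b < ℓ} Y(ζ^b q) · Y(q^{ℓ²})` and
`G = c · Y^a · u^p` in characteristic `p`, then the coefficients `b n` of `θY/Y` satisfy
`b (nℓ) + [ℓ ∣ n] ℓ · b (n/ℓ) = a · b n`. -/
theorem eigen_of_norm_shape (p : ℕ) [CharP k p] {ℓ : ℕ} [NeZero ℓ] (hℓ : (ℓ : k) ≠ 0) (ζ : kˣ)
    (hζ : ζ ^ ℓ = 1) {G Y u : LaurentSeries k} (hY : Y ≠ 0) (hu : u ≠ 0) {c : k} (hc : c ≠ 0)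
    (a : ℤ)
    (h : qExpand k ℓ G = (∏ b ∈ Finset.range ℓ, twist (ζ ^ b) Y) * qExpand k (ℓ * ℓ) Y)
    (hG : G = HahnSeries.C c * Y ^ a * u ^ p) (n : ℕ) :
    (dlogθ Y).coeff ((n * ℓ : ℕ) : ℤ) +
      (if ℓ ∣ n then (ℓ : k) * (dlogθ Y).coeff ((n / ℓ : ℕ) : ℤ) else 0) =
      (a : k) * (dlogθ Y).coeff (n : ℤ) := by
  have h1 := coeff_dlogθ_of_norm_shape hℓ ζ hζ hY h (n : ℤ)
  have hC : (HahnSeries.C c : LaurentSeries k) ≠ 0 :=
    (map_ne_zero_iff _ HahnSeries.C_injective).mpr hc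
  have h2 : dlogθ G = (a : LaurentSeries k) * dlogθ Y := by
    rw [hG, dlogθ_mul (mul_ne_zero hC (zpow_ne_zero a hY)) (pow_ne_zero p hu),
      dlogθ_mul hC (zpow_ne_zero a hY), dlogθ_C, dlogθ_zpow, dlogθ_pow_char, zero_add, add_zero]
  rw [h2, coeff_intCast_mul] at h1
  rw [h1]
  push_cast
  congr 1
  by_cases hn : ℓ ∣ n
  · rw [if_pos hn, if_pos (Int.natCast_dvd_natCast.mpr hn)]
  · rw [if_neg hn, if_neg (fun hd => hn (Int.natCast_dvd_natCast.mp hd))]

/-- **[RQ4-Q]**, power-series form (the literal `hE` of `resOccurs_of_mem_span_redSeries`). -/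
theorem eigen_powerSeries_of_norm_shape (p : ℕ) [CharP k p] {ℓ : ℕ} [NeZero ℓ] (hℓ : (ℓ : k) ≠ 0)
    (ζ : kˣ) (hζ : ζ ^ ℓ = 1) {G Y u : LaurentSeries k} (hY : Y ≠ 0) (hu : u ≠ 0) {c : k}
    (hc : c ≠ 0) (a : ℤ)
    (h : qExpand k ℓ G = (∏ b ∈ Finset.range ℓ, twist (ζ ^ b) Y) * qExpand k (ℓ * ℓ) Y)
    (hG : G = HahnSeries.C c * Y ^ a * u ^ p) {β : PowerSeries k}
    (hβ : dlogθ Y = HahnSeries.ofPowerSeries ℤ k β) (n : ℕ) :
    PowerSeries.coeff (n * ℓ) β +
      (if ℓ ∣ n then (ℓ : k) * PowerSeries.coeff (n / ℓ) β else 0) =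
      (a : k) * PowerSeries.coeff n β := by
  have h1 := eigen_of_norm_shape p hℓ ζ hζ hY hu hc a h hG n
  rw [hβ, HahnSeries.ofPowerSeries_apply_coeff, HahnSeries.ofPowerSeries_apply_coeff,
    HahnSeries.ofPowerSeries_apply_coeff] at h1
  exact h1

end

end Fermat.Agent.MP.RQ4Q
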