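/-
MP40 (S44/S40) — helper3 — [RQ4-Q], part 2: **reduction of the Hecke norm shape modulo the Gauss
valuation, and the resulting formal eigen-relation in the residue field.**

`R` a discrete valuation ring with fraction field `L` and residue field `k`, `𝒲 = gaussInt R L`
the Gauss valuation ring of `L((q))`, `gaussRed : 𝒲 → k((q))`.

* `gaussRed_zpow`: `gaussRed (Y ^ a) = gaussRed Y ^ a` for a unit `Y` of `𝒲`, `a : ℤ`;
* `norm_shape_gaussRed`: the identity `G(q^ℓ) = ∏_{b<ℓ} Y(ζ^b q) · Y(q^{ℓ²})` (`ζ ∈ Rˣ`) in `L((q))`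
  between elements of `𝒲` reduces to the same identity in `k((q))`;
* `eigen_of_norm_shape_gauss`: with `G = c · Y^a · u^p`, `c ∈ Rˣ`, `Y`, `u` units of `𝒲`,
  `char k = p`, `ℓ ≠ 0` in `k`: the coefficients `b n` of `θȲ/Ȳ` satisfy
  `b (nℓ) + [ℓ ∣ n] ℓ · b (n/ℓ) = a · b n` (the `hE` of `resOccurs_of_formal_eigen`).
-/
import Mathlib
import Fermat.Agent.MP.RQ4Q_helper3_Formal
import Fermat.Agent.Igusa.V_helper5_Funct

set_option autoImplicit false
set_option linter.unusedSectionVars false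

namespace Fermat.Agent.MP.RQ4Q

open ModularCurve Fermat.Agent.S36 Fermat.Agent.Igusa IsLocalRing

noncomputable section

variable {R : Type*} [CommRing R] [IsDomain R] [IsDiscreteValuationRing R]
  {L : Type*} [Field L] [Algebra R L] [IsFractionRing R L]

/-- the reduction of the inverse of a unit of the Gauss ring. -/
theorem gaussRed_inv {Y : LaurentSeries L} (hY : Y ∈ gaussInt R L)
    (hY' : gaussRed R L ⟨Y, hY⟩ ≠ 0) :
    gaussRed R L ⟨Y⁻¹, inv_mem_gaussInt_of_gaussRed_ne_zero ⟨Y, hY⟩ hY'⟩ =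
      (gaussRed R L ⟨Y, hY⟩)⁻¹ := by
  have hY0 : Y ≠ 0 := by
    rintro rfl
    exact hY' (map_zero (gaussRed R L))
  have h1 : (⟨Y, hY⟩ : gaussInt R L) *
      ⟨Y⁻¹, inv_mem_gaussInt_of_gaussRed_ne_zero ⟨Y, hY⟩ hY'⟩ = 1 :=
    Subtype.ext (mul_inv_cancel₀ hY0)
  have h2 := congrArg (gaussRed R L) h1
  rw [map_mul, map_one] at h2
  exact eq_inv_of_mul_eq_one_right h2

theorem zpow_mem_gaussInt {Y : LaurentSeries L} (hY : Y ∈ gaussInt R L)
    (hY' : gaussRed R L ⟨Y, hY⟩ ≠ 0) (a : ℤ) : Y ^ a ∈ gaussInt R L := by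
  obtain ⟨m, rfl | rfl⟩ := a.eq_nat_or_neg
  · rw [zpow_natCast]
    exact (gaussInt R L).pow_mem hY m
  · rw [zpow_neg, zpow_natCast, ← inv_pow]
    exact (gaussInt R L).pow_mem (inv_mem_gaussInt_of_gaussRed_ne_zero ⟨Y, hY⟩ hY') m

/-- `gaussRed (Y ^ a) = gaussRed Y ^ a` for a unit `Y` of the Gauss ring. -/
theorem gaussRed_zpow {Y : LaurentSeries L} (hY : Y ∈ gaussInt R L)
    (hY' : gaussRed R L ⟨Y, hY⟩ ≠ 0) (a : ℤ) :
    gaussRed R L ⟨Y ^ a, zpow_mem_gaussInt hY hY' a⟩ = gaussRed R L ⟨Y, hY⟩ ^ a := by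
  obtain ⟨m, rfl | rfl⟩ := a.eq_nat_or_neg
  · have h1 : (⟨Y ^ (m : ℤ), zpow_mem_gaussInt hY hY' m⟩ : gaussInt R L) = ⟨Y, hY⟩ ^ m :=
      Subtype.ext (by
        show Y ^ (m : ℤ) = Y ^ m
        exact zpow_natCast Y m)
    rw [h1, map_pow, zpow_natCast]
  · have h1 : (⟨Y ^ (-(m : ℤ)), zpow_mem_gaussInt hY hY' (-(m : ℤ))⟩ : gaussInt R L) =
        ⟨Y⁻¹, inv_mem_gaussInt_of_gaussRed_ne_zero ⟨Y, hY⟩ hY'⟩ ^ m :=
      Subtype.ext (by
        show Y ^ (-(m : ℤ)) = Y⁻¹ ^ m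
        rw [zpow_neg, zpow_natCast, ← inv_pow])
    rw [h1, map_pow, gaussRed_inv hY hY', zpow_neg, zpow_natCast, inv_pow]

theorem twist_pow_mem_gaussInt (ζ : Rˣ) (b : ℕ) {Y : LaurentSeries L} (hY : Y ∈ gaussInt R L) :
    twist (Units.map (algebraMap R L : R →* L) ζ ^ b) Y ∈ gaussInt R L := by
  rw [← map_pow]
  exact gaussInt_twist_mem (ζ ^ b) hY

theorem gaussRed_twist_pow (ζ : Rˣ) (b : ℕ) {Y : LaurentSeries L} (hY : Y ∈ gaussInt R L) :
    gaussRed R L ⟨twist (Units.map (algebraMap R L : R →* L) ζ ^ b) Y,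
        twist_pow_mem_gaussInt ζ b hY⟩ =
      twist (Units.map (residue R : R →* ResidueField R) ζ ^ b) (gaussRed R L ⟨Y, hY⟩) := by
  have h := gaussRed_twist (L := L) (ζ ^ b) hY
  rw [← map_pow (Units.map (residue R : R →* ResidueField R)), ← h]
  congr 1
  apply Subtype.ext
  show twist (Units.map (algebraMap R L : R →* L) ζ ^ b) Y = _
  rw [← map_pow]

/-- **the Hecke norm shape reduces modulo the Gauss valuation.** -/
theorem norm_shape_gaussRed {ℓ : ℕ} [NeZero ℓ] (ζ : Rˣ) {G Y : LaurentSeries L}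
    (hG : G ∈ gaussInt R L) (hY : Y ∈ gaussInt R L)
    (h : qExpand L ℓ G = (∏ b ∈ Finset.range ℓ,
      twist (Units.map (algebraMap R L : R →* L) ζ ^ b) Y) * qExpand L (ℓ * ℓ) Y) :
    qExpand (ResidueField R) ℓ (gaussRed R L ⟨G, hG⟩) =
      (∏ b ∈ Finset.range ℓ, twist (Units.map (residue R : R →* ResidueField R) ζ ^ b)
        (gaussRed R L ⟨Y, hY⟩)) * qExpand (ResidueField R) (ℓ * ℓ) (gaussRed R L ⟨Y, hY⟩) := by
  have e1 : gaussRed R L ⟨qExpand L ℓ G, (gaussHomQExpand R L ℓ).map_mem_gaussInt hG⟩ =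
      qExpand (ResidueField R) ℓ (gaussRed R L ⟨G, hG⟩) :=
    (gaussHomQExpand R L ℓ).gaussRed_map hG
  have e2 : gaussRed R L ⟨qExpand L (ℓ * ℓ) Y,
      (gaussHomQExpand R L (ℓ * ℓ)).map_mem_gaussInt hY⟩ =
      qExpand (ResidueField R) (ℓ * ℓ) (gaussRed R L ⟨Y, hY⟩) :=
    (gaussHomQExpand R L (ℓ * ℓ)).gaussRed_map hY
  have e3 : (⟨qExpand L ℓ G, (gaussHomQExpand R L ℓ).map_mem_gaussInt hG⟩ : gaussInt R L) =
      (∏ b ∈ Finset.range ℓ, (⟨twist (Units.map (algebraMap R L : R →* L) ζ ^ b) Y,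
        twist_pow_mem_gaussInt ζ b hY⟩ : gaussInt R L)) *
      ⟨qExpand L (ℓ * ℓ) Y, (gaussHomQExpand R L (ℓ * ℓ)).map_mem_gaussInt hY⟩ := by
    apply Subtype.ext
    rw [Subring.coe_mul, SubmonoidClass.coe_finsetProd]
    exact h
  rw [← e1, e3, map_mul, map_prod, e2]
  congr 1
  exact Finset.prod_congr rfl fun b _ => gaussRed_twist_pow ζ b hY

/-- **[RQ4-Q], Gauss form**: a Hecke relation `G = c · Y^a · u^p` between units of the Gauss ring,
with `G` of the norm shape, gives the formal eigen-relation for the coefficients of `θȲ/Ȳ` in the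
residue field. -/
theorem eigen_of_norm_shape_gauss (p : ℕ) [CharP (ResidueField R) p] {ℓ : ℕ} [NeZero ℓ]
    (hℓ : (ℓ : ResidueField R) ≠ 0) (ζ : Rˣ) (hζ : ζ ^ ℓ = 1) {G Y u : LaurentSeries L}
    (hY : Y ∈ gaussInt R L) (hY' : gaussRed R L ⟨Y, hY⟩ ≠ 0)
    (hu : u ∈ gaussInt R L) (hu' : gaussRed R L ⟨u, hu⟩ ≠ 0) (c : Rˣ) (a : ℤ)
    (h : qExpand L ℓ G = (∏ b ∈ Finset.range ℓ,
      twist (Units.map (algebraMap R L : R →* L) ζ ^ b) Y) * qExpand L (ℓ * ℓ) Y)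
    (hG : G = HahnSeries.C (algebraMap R L c) * Y ^ a * u ^ p) (n : ℕ) :
    (dlogθ (gaussRed R L ⟨Y, hY⟩)).coeff ((n * ℓ : ℕ) : ℤ) +
      (if ℓ ∣ n then (ℓ : ResidueField R) *
        (dlogθ (gaussRed R L ⟨Y, hY⟩)).coeff ((n / ℓ : ℕ) : ℤ) else 0) =
      (a : ResidueField R) * (dlogθ (gaussRed R L ⟨Y, hY⟩)).coeff (n : ℤ) := by
  have hGm : G ∈ gaussInt R L := by
    rw [hG]
    exact (gaussInt R L).mul_mem ((gaussInt R L).mul_mem (C_algebraMap_mem_gaussInt (c : R))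
      (zpow_mem_gaussInt hY hY' a)) ((gaussInt R L).pow_mem hu p)
  have hGred : gaussRed R L ⟨G, hGm⟩ = HahnSeries.C (residue R (c : R)) *
      gaussRed R L ⟨Y, hY⟩ ^ a * gaussRed R L ⟨u, hu⟩ ^ p := by
    have h1 : (⟨G, hGm⟩ : gaussInt R L) = ⟨HahnSeries.C (algebraMap R L c),
        C_algebraMap_mem_gaussInt (c : R)⟩ * ⟨Y ^ a, zpow_mem_gaussInt hY hY' a⟩ *
          ⟨u, hu⟩ ^ p := Subtype.ext hG
    have h2 : gaussRed R L ⟨HahnSeries.C (algebraMap R L c),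
        C_algebraMap_mem_gaussInt (c : R)⟩ = HahnSeries.C (residue R (c : R)) := by
      have h3 := gaussRed_emb R L (HahnSeries.C (c : R))
      rw [red_C] at h3
      rw [← h3]
      congr 1
      exact Subtype.ext (emb_C R L (c : R)).symm
    rw [h1, map_mul, map_mul, map_pow, h2, gaussRed_zpow hY hY' a]
  have hc : residue R (c : R) ≠ 0 := by
    intro h0
    have : IsUnit (residue R (c : R)) := c.isUnit.map (residue R)
    exact this.ne_zero h0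
  have hζ' : (Units.map (residue R : R →* ResidueField R) ζ) ^ ℓ = 1 := by
    rw [← map_pow, hζ, map_one]
  exact eigen_of_norm_shape p hℓ _ hζ' hY' hu' hc a (norm_shape_gaussRed ζ hGm hY h) hGred n

/-- **[RQ4-Q], Gauss form**, power-series version (the literal `hE` of
`resOccurs_of_mem_span_redSeries`). -/
theorem eigen_powerSeries_of_norm_shape_gauss (p : ℕ) [CharP (ResidueField R) p] {ℓ : ℕ}
    [NeZero ℓ] (hℓ : (ℓ : ResidueField R) ≠ 0) (ζ : Rˣ) (hζ : ζ ^ ℓ = 1)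
    {G Y u : LaurentSeries L}
    (hY : Y ∈ gaussInt R L) (hY' : gaussRed R L ⟨Y, hY⟩ ≠ 0)
    (hu : u ∈ gaussInt R L) (hu' : gaussRed R L ⟨u, hu⟩ ≠ 0) (c : Rˣ) (a : ℤ)
    (h : qExpand L ℓ G = (∏ b ∈ Finset.range ℓ,
      twist (Units.map (algebraMap R L : R →* L) ζ ^ b) Y) * qExpand L (ℓ * ℓ) Y)
    (hG : G = HahnSeries.C (algebraMap R L c) * Y ^ a * u ^ p)
    {β : PowerSeries (ResidueField R)}
    (hβ : dlogθ (gaussRed R L ⟨Y, hY⟩) = HahnSeries.ofPowerSeries ℤ (ResidueField R) β) (n : ℕ) :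
    PowerSeries.coeff (n * ℓ) β +
      (if ℓ ∣ n then (ℓ : ResidueField R) * PowerSeries.coeff (n / ℓ) β else 0) =
      (a : ResidueField R) * PowerSeries.coeff n β := by
  have h1 := eigen_of_norm_shape_gauss p hℓ ζ hζ hY hY' hu hu' c a h hG n
  rw [hβ, HahnSeries.ofPowerSeries_apply_coeff, HahnSeries.ofPowerSeries_apply_coeff,
    HahnSeries.ofPowerSeries_apply_coeff] at h1
  exact h1

end

end Fermat.Agent.MP.RQ4Q
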