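/-
MP40 (row 38: S44 / S40) — lead — **[KEYPEU-BASE], part 2: `LegPeuInfP` (2a)**: the dichotomy along
`W_∞` over the small base `K'`.

`f₀ ∈ F_{Mp}(K')`; `f₁ = f₀ ϖ ^ (-a∞)` a unit of the Gauss valuation; `w₀ ∈ F_M(K')` with
`f₁ ≡ A w₀` (residue degree one along `A`, at the level of the function fields of `X₀`).  Let
`fb ∈ Ẽ` be the reduction of `w₀` on the Legendre host.
* **Case 1** `fb = g ^ p`: `g` lifts to `V_M(K')` (`FG.legPsi_surjective`), so `w₀ ≡ b ^ p` and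
  `f₀ = ϖ ^ a∞ (A b) ^ p (1 + ϖ s)`: depth `≥ 1` along `W_∞`.
* **Case 2** `fb` is not a `p`-th power: helper8's `resOccurs_of_dlog_host_q`, with `hord` from
  `LegPeuOrdP` and the formal eigen-relations `hE` from the Hecke relations over `K'`
  (`Rq4HostP`, helper3) reduced modulo the Gauss valuation.
-/
import Mathlib
import Fermat.Agent.MP.KPBASE_lead_Defs
import Fermat.Agent.MP.KPBASE_lead_Norm
import Fermat.Agent.MP.ROLDQ_helper8_HostQ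
import Fermat.Agent.MP.RQ4Q_helper3_Red
import Fermat.Agent.FG.EDEF_helper6_PsiBij
import Fermat.Agent.FG.EDEF_helper6_Desc
import Fermat.Agent.NP.NEWBASE_helper7_Main
import Fermat.Agent.S35.XPORT_helper7_Main

set_option autoImplicit false
set_option linter.unusedSectionVars false
set_option linter.unusedVariables false
set_option linter.style.haveILetI false
set_option synthInstance.maxHeartbeats 400000

open HahnSeries IntermediateField AlgebraicCurve ModularCurve IsLocalRing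

namespace Fermat.Agent.MP

open Fermat.Agent.JA Fermat.Agent.FF Fermat.Agent.SS Fermat.Agent.S35 Fermat.Agent.NP
  Fermat.Agent.FG Fermat.Agent.Igusa Fermat.Agent.S36

open scoped Fermat.Agent.JA.Host

/-- `Ω = AlgebraicClosure ℚ`. -/
local notation "Ω" => AlgebraicClosure ℚ

/-! ### the two inputs still to be supplied -/

/-- **[KEYFQ-RESINF]** (helper8): residue degree one along `A` on the sheet `∞`, at the level of
the function fields of `X₀(M p) → X₀(M)` over a (possibly ramified) base. -/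
def KeyFqResInfP : Prop :=
  ∀ (M : ℕ) [NeZero M] (p : ℕ) [NeZero p] [NeZero (M * p)] [Fact p.Prime], ¬ p ∣ M →
  ∀ (A : ValuationSubring Ω), A.LiesOverPrime p →
  ∀ (K' : IntermediateField ℚ Ω) [IsDiscreteValuationRing ↥(baseRing A K')], IsBase p K' →
  ∀ f ∈ keyFqWinf ↥(baseRing A K') ↥K' (M * p), ∃ a ∈ keyFqWinf ↥(baseRing A K') ↥K' M,
    (keyFqWinf ↥(baseRing A K') ↥K' (M * p)).valuation (f - keyFqA ↥K' M p a) < 1

/-- **[RQ4-HOST]** (helper3): a Hecke relation `T_ℓ f₀ = c f₀ ^ a u ^ p` over a base gives the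
formal eigen-relation for the coefficients of `θ Ȳ / Ȳ`, `Ȳ` the reduction of the Gauss-unit part
of `f₀`. -/
def Rq4HostP : Prop :=
  ∀ (p : ℕ) [Fact p.Prime] (A : ValuationSubring Ω), A.LiesOverPrime p →
  ∀ (K' : IntermediateField ℚ Ω) [IsDiscreteValuationRing ↥(baseRing A K')], IsBase p K' →
  ∀ (N : ℕ) [NeZero N] (ℓ : ℕ) (hℓ : ℓ.Prime), ℓ ≠ p → ¬ ℓ ∣ N →
  haveI : NeZero ℓ := ⟨hℓ.ne_zero⟩
  haveI : NeZero (N * ℓ) := ⟨Nat.mul_ne_zero (NeZero.ne N) hℓ.ne_zero⟩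
  ∀ (f₀ u : ↥(keyFq ↥K' N)) (c : ↥K') (a : ℤ), f₀ ≠ 0 → u ≠ 0 → c ≠ 0 →
    heckeFunK ↥K' N ℓ f₀ = algebraMap ↥K' ↥(keyFq ↥K' N) c * f₀ ^ a * u ^ p →
  ∀ (d : ↥K') (Y₁ : LaurentSeries ↥K'), d ≠ 0 →
    ((f₀ : ↥(keyFq ↥K' N)) : LaurentSeries ↥K') = HahnSeries.C d * Y₁ →
  ∀ (hY : Y₁ ∈ gaussInt ↥(baseRing A K') ↥K'),
    gaussRed ↥(baseRing A K') ↥K' ⟨Y₁, hY⟩ ≠ 0 →
  ∀ n : ℕ,
    (RQ4Q.dlogθ (gaussRed ↥(baseRing A K') ↥K' ⟨Y₁, hY⟩)).coeff ((n * ℓ : ℕ) : ℤ) +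
      (if ℓ ∣ n then (ℓ : ResidueField ↥(baseRing A K')) *
        (RQ4Q.dlogθ (gaussRed ↥(baseRing A K') ↥K' ⟨Y₁, hY⟩)).coeff ((n / ℓ : ℕ) : ℤ) else 0) =
      (a : ResidueField ↥(baseRing A K')) *
        (RQ4Q.dlogθ (gaussRed ↥(baseRing A K') ↥K' ⟨Y₁, hY⟩)).coeff (n : ℤ)

section CaseOne

variable {p : ℕ} [Fact p.Prime] {A : ValuationSubring Ω} (hA : A.LiesOverPrime p)
  (M : ℕ) [NeZero M] {K' : IntermediateField ℚ Ω}

set_option maxHeartbeats 1600000 in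
include hA in
/-- **Case 1**: if the reduction of `w ∈ V_M` is a `p`-th power in `Ẽ`, then `w` is congruent to a
`p`-th power of `V_M`. -/
theorem exists_pow_approx_of_legρ_eq_pow (hpM : ¬ p ∣ M) (hK' : IsBase p K') (hp2 : p ≠ 2)
    [IsDiscreteValuationRing ↥(baseRing A K')] (h2 : IsUnit (2 : ↥(baseRing A K')))
    (w : ↥(legE ↥K' M)) (hw : w ∈ legWinf ↥(baseRing A K') ↥K' h2 M)
    (hW : legBC M K' w ∈ legWE hA M hp2) (g : legEt hA M hp2)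
    (hg : legρ hA M hp2 ⟨legBC M K' w, hW⟩ = g ^ p) :
    ∃ b ∈ legWinf ↥(baseRing A K') ↥K' h2 M,
      (legWinf ↥(baseRing A K') ↥K' h2 M).valuation (w - b ^ p) < 1 := by
  classical
  haveI : CharZero ↥(baseRing A K') := charZero_valuationSubring_of_algebraRat _
  obtain ⟨ϖ, hϖ⟩ := IsDiscreteValuationRing.exists_irreducible ↥(baseRing A K')
  have hgeo := geoHyps_legE_baseRing hA M hpM hK' hp2 hϖ
  obtain ⟨𝒢t, h𝒢t⟩ := exists_isGaussAt ϖ hϖ _ hgeo.transcendental hgeo.adjoin_eq_top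
  haveI : IsLocalRing ↥(legW₁ M 𝒢t) := hgeo.isLocalRing 𝒢t h𝒢t
  obtain ⟨y, rfl⟩ := legPsi_surjective hA M hpM hK' hp2 hϖ 𝒢t h𝒢t g
  obtain ⟨b, rfl⟩ := residue_surjective y
  have hint : ∀ x : ↥(legE ↥K' M), IsIntegral ↥𝒢t x ↔ x ∈ legWinf ↥(baseRing A K') ↥K' h2 M :=
    fun x => isIntegral_legE_iff_mem_gaussInt hA M hpM hK' hp2 hϖ 𝒢t h𝒢t x
  have hwint : IsIntegral ↥𝒢t w := (hint w).2 hw
  have e1 := legPsi_residue_mk hA M hpM hK' hp2 hϖ 𝒢t h𝒢t ⟨w, hwint⟩ hW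
  obtain ⟨bE, hbE⟩ : ∃ bE : ↥(legE ↥K' M), bE = (b : ↥(legE ↥K' M)) := ⟨_, rfl⟩
  have hbint : IsIntegral ↥𝒢t bE := hbE ▸ b.2
  have hbV : bE ∈ legWinf ↥(baseRing A K') ↥K' h2 M := (hint _).1 hbint
  have hbW : legBC M K' bE ∈ legWE hA M hp2 := (legBC_mem_legWE_iff hA M K' hp2 bE).2 hbV
  have e_b : legPsi hA M hpM hK' hp2 hϖ 𝒢t h𝒢t (residue _ b) =
      legρ hA M hp2 ⟨legBC M K' bE, hbW⟩ := by
    subst hbE
    exact legPsi_residue_mk hA M hpM hK' hp2 hϖ 𝒢t h𝒢t b hbW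
  have hbpint : IsIntegral ↥𝒢t (bE ^ p) := hbint.pow p
  have hbpW : legBC M K' (bE ^ p) ∈ legWE hA M hp2 := by
    rw [map_pow]
    exact pow_mem hbW p
  have e_bp := legPsi_residue_mk hA M hpM hK' hp2 hϖ 𝒢t h𝒢t ⟨bE ^ p, hbpint⟩ hbpW
  have e_pow : legρ hA M hp2 ⟨legBC M K' (bE ^ p), hbpW⟩ =
      legρ hA M hp2 ⟨legBC M K' bE, hbW⟩ ^ p := by
    rw [← map_pow]
    congr 1
    exact Subtype.ext (map_pow _ _ _)
  have hg' : legPsi hA M hpM hK' hp2 hϖ 𝒢t h𝒢t (residue _ (⟨w, hwint⟩ : ↥(legW₁ M 𝒢t))) =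
      legPsi hA M hpM hK' hp2 hϖ 𝒢t h𝒢t (residue _ (⟨bE ^ p, hbpint⟩ : ↥(legW₁ M 𝒢t))) :=
    e1.trans (hg.trans ((congrArg (fun z => z ^ p) e_b).trans (e_pow.symm.trans e_bp.symm)))
  have e2 := legPsi_injective hA M hpM hK' hp2 hϖ 𝒢t h𝒢t hg'
  have e3 : ((⟨w, hwint⟩ : ↥(legW₁ M 𝒢t)) - ⟨bE ^ p, hbpint⟩) ∈ maximalIdeal ↥(legW₁ M 𝒢t) :=
    Ideal.Quotient.eq.1 e2
  refine ⟨bE, hbV, ?_⟩
  by_contra hge
  rw [not_lt] at hge
  obtain ⟨z, hz⟩ : ∃ z : ↥(legE ↥K' M), z = w - bE ^ p := ⟨_, rfl⟩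
  rw [← hz] at hge
  have hzmem : z ∈ legWinf ↥(baseRing A K') ↥K' h2 M := by
    rw [hz]
    exact sub_mem hw (pow_mem hbV p)
  have hz1 : (legWinf ↥(baseRing A K') ↥K' h2 M).valuation z = 1 :=
    le_antisymm ((ValuationSubring.valuation_le_one_iff _ _).2 hzmem) hge
  have hz0 : z ≠ 0 := by
    rintro h0
    rw [h0, map_zero] at hz1
    exact zero_ne_one hz1
  have hzinv : z⁻¹ ∈ legWinf ↥(baseRing A K') ↥K' h2 M := by
    rw [← ValuationSubring.valuation_le_one_iff, map_inv₀, hz1, inv_one]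
  have hzi : IsIntegral ↥𝒢t z⁻¹ := (hint _).2 hzinv
  have hunit : IsUnit ((⟨w, hwint⟩ : ↥(legW₁ M 𝒢t)) - ⟨bE ^ p, hbpint⟩) := by
    refine IsUnit.of_mul_eq_one ⟨z⁻¹, hzi⟩ (Subtype.ext ?_)
    show (w - bE ^ p) * z⁻¹ = 1
    rw [← hz]
    exact mul_inv_cancel₀ hz0
  exact (mem_maximalIdeal _).1 e3 hunit

end CaseOne

section Dlog

variable (A : ValuationSubring Ω) (K' : IntermediateField ℚ Ω)
  [IsDiscreteValuationRing ↥(baseRing A K')]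

/-- the coefficients of `θ F̄ / F̄` for the reduction over `Ω` and over the base. -/
theorem coeff_dlog_fracRed_coeffMap {x₁ : LaurentSeries ↥K'}
    (hx : x₁ ∈ gaussInt ↥(baseRing A K') ↥K') (n : ℤ) :
    (eulerD (ResidueField ↥A)
        (fracRed A ⟨coeffMap (algebraMap ↥K' Ω) x₁, coeffMap_mem_fracInt_of_mem_gaussInt hx⟩) /
      fracRed A ⟨coeffMap (algebraMap ↥K' Ω) x₁,
        coeffMap_mem_fracInt_of_mem_gaussInt hx⟩).coeff n =
    baseResidueMap A K'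
      ((RQ4Q.dlogθ (gaussRed ↥(baseRing A K') ↥K' ⟨x₁, hx⟩)).coeff n) := by
  rw [fracRed_coeffMap_of_mem_gaussInt hx, eulerD_coeffMap, ← map_div₀, coeffMap_coeff]
  rfl

end Dlog

section Main

set_option maxHeartbeats 6400000 in
/-- **(2a)**: the dichotomy along `W_∞` over the small base, from (C) [ORD], [KEYFQ-RESINF] and
[RQ4-HOST]. -/
theorem legPeuInfP_of (p₀ : ℕ) (hp₀ : 4 ≤ p₀) (HO : LegPeuOrdP p₀) (HR : KeyFqResInfP)
    (HQ : Rq4HostP) : LegPeuInfP p₀ := by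
  intro M _ p _ _ _ hp2 hp₀p hpM A hA K₁ _ K' _ ζ s S a f₀ H
  classical
  have hp : p.Prime := Fact.out
  have hp3 : p ≠ 3 := by omega
  haveI : CharZero ↥(baseRing A K') := charZero_valuationSubring_of_algebraRat _
  obtain ⟨ϖ, hϖ⟩ := IsDiscreteValuationRing.exists_irreducible ↥(baseRing A K')
  have h2 : IsUnit (2 : ↥(baseRing A K')) := isUnit_ofNat_baseRing hA K' Nat.prime_two hp2
  obtain ⟨x, y, hbez⟩ := exists_bezout_of_prime_of_not_dvd hp hpM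
  letI := baseToComplex K'
  haveI : IsAlgClosed (ResidueField ↥(baseRing A K')) := H.base.isAlgClosed_residueField hA
  have hpϖ := natCast_mem_span_uniformizer_baseRing hA K' hϖ
  have hmodel : SSModelLeg ↥(baseRing A K') ↥K' ϖ h2 hbez hp hp2 :=
    ssModelLeg ↥(baseRing A K') ↥K' hϖ h2 hbez hp hp2 hpϖ
      (geoHyps_legE_baseRing hA M hpM H.base hp2 hϖ)
  haveI : FiniteDimensional ↥(↥K')⟮jqNModC ↥K' 2⟯ ↥(legE ↥K' (M * p)) :=
    finite_legE_adjoin_j ↥K' (M * p)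
  have h' := SSModelLeg.ssModel ↥(baseRing A K') ↥K' hmodel
  -- `p = ε ϖ ^ e₁`
  have hp0 : ((p : ℕ) : ↥(baseRing A K')) ≠ 0 := Nat.cast_ne_zero.mpr hp.ne_zero
  obtain ⟨e₁, ε, hpe⟩ := IsDiscreteValuationRing.eq_unit_mul_pow_irreducible hp0 hϖ
  have he₁ : 0 < e₁ := by
    rcases Nat.eq_zero_or_pos e₁ with h0 | h0
    · exfalso
      rw [h0, pow_zero, mul_one] at hpe
      have hu : IsUnit ((p : ℕ) : ↥(baseRing A K')) := hpe ▸ Units.isUnit _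
      obtain ⟨z, hz⟩ := Ideal.mem_span_singleton.mp hpϖ
      rw [hz] at hu
      exact hϖ.not_isUnit (isUnit_of_mul_isUnit_left hu)
    · exact h0
  -- the function on the host and its order along `W_∞`
  have hf : fullToLegE ↥K' (M * p) f₀ ≠ 0 := (map_ne_zero (fullToLegE ↥K' (M * p))).mpr H.ne_zero
  obtain ⟨ainf, hfa⟩ := SSModel.exists_zpow_val_eq_one_inf h' he₁ hpe hf
  have hRN : ∀ r : ↥(baseRing A K'), algebraMap ↥(baseRing A K') ↥(legE ↥K' (M * p)) r =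
      algebraMap ↥K' ↥(legE ↥K' (M * p)) (algebraMap ↥(baseRing A K') ↥K' r) :=
    fun r => IsScalarTower.algebraMap_apply ↥(baseRing A K') ↥K' ↥(legE ↥K' (M * p)) r
  have hϖK : algebraMap ↥(baseRing A K') ↥K' ϖ ≠ 0 := by
    rw [Ne, map_eq_zero_iff _ (IsFractionRing.injective ↥(baseRing A K') ↥K')]
    exact hϖ.ne_zero
  obtain ⟨d, hd⟩ : ∃ d : ↥K', d = algebraMap ↥(baseRing A K') ↥K' ϖ ^ ainf := ⟨_, rfl⟩
  have hd0 : d ≠ 0 := hd ▸ zpow_ne_zero ainf hϖK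
  have hdE : algebraMap ↥K' ↥(legE ↥K' (M * p)) d =
      algebraMap ↥(baseRing A K') ↥(legE ↥K' (M * p)) ϖ ^ ainf := by
    rw [hd, map_zpow₀, ← hRN]
  -- the Gauss unit at the level of `F_{Mp}`
  obtain ⟨f₁, hf₁⟩ : ∃ f₁ : ↥(keyFq ↥K' (M * p)),
      f₁ = f₀ * (algebraMap ↥K' ↥(keyFq ↥K' (M * p)) d)⁻¹ := ⟨_, rfl⟩
  have hf₁E : fullToLegE ↥K' (M * p) f₁ = fullToLegE ↥K' (M * p) f₀ *
      (algebraMap ↥(baseRing A K') ↥(legE ↥K' (M * p)) ϖ ^ ainf)⁻¹ := by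
    rw [hf₁, map_mul, map_inv₀, AlgHom.commutes, hdE]
  have hf₁v : (keyFqWinf ↥(baseRing A K') ↥K' (M * p)).valuation f₁ = 1 := by
    have h1 := kp_comap_val_eq_one_iff (legWinf ↥(baseRing A K') ↥K' h2 (M * p))
      (fullToLegE ↥K' (M * p) : ↥(keyFq ↥K' (M * p)) →+* ↥(legE ↥K' (M * p)))
      (xport_legWinf_comap ↥(baseRing A K') ↥K' h2 (M * p)) f₁
    refine h1.mp ?_
    show (legWinf ↥(baseRing A K') ↥K' h2 (M * p)).valuation (fullToLegE ↥K' (M * p) f₁) = 1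
    rw [hf₁E]
    exact hfa
  have hf₁mem : f₁ ∈ keyFqWinf ↥(baseRing A K') ↥K' (M * p) := kp_mem_of_val_eq_one _ hf₁v
  obtain ⟨w₀, hw₀, hres⟩ := HR M p hpM A hA K' H.base f₁ hf₁mem
  -- on the host
  have hresE : (legWinf ↥(baseRing A K') ↥K' h2 (M * p)).valuation
      (fullToLegE ↥K' (M * p) f₀ *
        (algebraMap ↥(baseRing A K') ↥(legE ↥K' (M * p)) ϖ ^ ainf)⁻¹ -
        legHostA ↥K' M p (fullToLegE ↥K' M w₀)) < 1 := by
    have h1 := (comap_val_lt_one_iff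
      (fullToLegE ↥K' (M * p) : ↥(keyFq ↥K' (M * p)) →+* ↥(legE ↥K' (M * p)))
      (xport_legWinf_comap ↥(baseRing A K') ↥K' h2 (M * p)) (f₁ - keyFqA ↥K' M p w₀)).mpr hres
    have h2' : (fullToLegE ↥K' (M * p) : ↥(keyFq ↥K' (M * p)) →+* ↥(legE ↥K' (M * p)))
        (f₁ - keyFqA ↥K' M p w₀) = fullToLegE ↥K' (M * p) f₀ *
        (algebraMap ↥(baseRing A K') ↥(legE ↥K' (M * p)) ϖ ^ ainf)⁻¹ -
        legHostA ↥K' M p (fullToLegE ↥K' M w₀) := by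
      show fullToLegE ↥K' (M * p) (f₁ - keyFqA ↥K' M p w₀) = _
      rw [map_sub, hf₁E, xport_fullToLegE_keyFqA]
    rwa [h2'] at h1
  have hAWv : (legWinf ↥(baseRing A K') ↥K' h2 (M * p)).valuation
      (legHostA ↥K' M p (fullToLegE ↥K' M w₀)) = 1 := kp_val_eq_one_of_sub_lt _ hfa hresE
  have hWv : (legWinf ↥(baseRing A K') ↥K' h2 M).valuation (fullToLegE ↥K' M w₀) = 1 :=
    (kp_comap_val_eq_one_iff (legWinf ↥(baseRing A K') ↥K' h2 (M * p))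
      (legHostA ↥K' M p : ↥(legE ↥K' M) →+* ↥(legE ↥K' (M * p))) h'.comap_A_inf
      (fullToLegE ↥K' M w₀)).mp hAWv
  have hWmem : fullToLegE ↥K' M w₀ ∈ legWinf ↥(baseRing A K') ↥K' h2 M :=
    kp_mem_of_val_eq_one _ hWv
  have hBC : legBC M K' (fullToLegE ↥K' M w₀) = fullToLegE Ω M (keyFqBC M K' w₀) :=
    bcdeg_legBC_fullToLegE M K' w₀
  have hWE' : legBC M K' (fullToLegE ↥K' M w₀) ∈ legWE hA M hp2 :=
    (legBC_mem_legWE_iff hA M K' hp2 _).2 hWmem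
  have hWE : fullToLegE Ω M (keyFqBC M K' w₀) ∈ legWE hA M hp2 := hBC ▸ hWE'
  by_cases hcase : ∃ g : legEt hA M hp2,
      legρ hA M hp2 ⟨fullToLegE Ω M (keyFqBC M K' w₀), hWE⟩ = g ^ p
  · -- Case 1
    left
    obtain ⟨g, hg⟩ := hcase
    have hg' : legρ hA M hp2 ⟨legBC M K' (fullToLegE ↥K' M w₀), hWE'⟩ = g ^ p := by
      rw [← hg]
      congr 1
      exact Subtype.ext hBC
    obtain ⟨b, hb, hbv⟩ := exists_pow_approx_of_legρ_eq_pow hA M hpM H.base hp2 h2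
      (fullToLegE ↥K' M w₀) hWmem hWE' g hg'
    have hAb : (legWinf ↥(baseRing A K') ↥K' h2 (M * p)).valuation
        (legHostA ↥K' M p (fullToLegE ↥K' M w₀) - legHostA ↥K' M p b ^ p) < 1 := by
      have h1 := (comap_val_lt_one_iff
        (legHostA ↥K' M p : ↥(legE ↥K' M) →+* ↥(legE ↥K' (M * p))) h'.comap_A_inf
        (fullToLegE ↥K' M w₀ - b ^ p)).mpr hbv
      have h2' : (legHostA ↥K' M p : ↥(legE ↥K' M) →+* ↥(legE ↥K' (M * p)))
          (fullToLegE ↥K' M w₀ - b ^ p) =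
          legHostA ↥K' M p (fullToLegE ↥K' M w₀) - legHostA ↥K' M p b ^ p := by
        show legHostA ↥K' M p (fullToLegE ↥K' M w₀ - b ^ p) = _
        rw [map_sub, map_pow]
      rwa [h2'] at h1
    have hfin := kp_val_sub_lt_trans _ hresE hAb
    obtain ⟨P, hP⟩ : ∃ P : ↥(legE ↥K' (M * p)),
        P = algebraMap ↥(baseRing A K') ↥(legE ↥K' (M * p)) ϖ ^ ainf := ⟨_, rfl⟩
    have hπ0 : algebraMap ↥(baseRing A K') ↥(legE ↥K' (M * p)) ϖ ≠ 0 := SSModel_pi_ne_zero h'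
    have hP0 : P ≠ 0 := hP ▸ zpow_ne_zero ainf hπ0
    rw [← hP] at hfin hfa hdE
    obtain ⟨yy, hyy⟩ : ∃ yy : ↥(legE ↥K' (M * p)), yy = legHostA ↥K' M p b ^ p := ⟨_, rfl⟩
    rw [← hyy] at hfin
    have hyv : (legWinf ↥(baseRing A K') ↥K' h2 (M * p)).valuation yy = 1 :=
      kp_val_eq_one_of_sub_lt _ hfa hfin
    have hy0 : yy ≠ 0 := by
      intro h0
      rw [h0, map_zero] at hyv
      exact zero_ne_one hyv
    have hAb0 : legHostA ↥K' M p b ≠ 0 := by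
      intro h0
      apply hy0
      rw [hyy, h0, zero_pow hp.ne_zero]
    refine ⟨ϖ, h2, d, hϖ, hd0, legHostA ↥K' M p b, hAb0,
      (fullToLegE ↥K' (M * p) f₀ * P⁻¹ * yy⁻¹ - 1) *
        (algebraMap ↥(baseRing A K') ↥(legE ↥K' (M * p)) ϖ)⁻¹, ?_, ?_⟩
    · apply h'.two.e_inf
      have e4 : fullToLegE ↥K' (M * p) f₀ * P⁻¹ * yy⁻¹ - 1 =
          (fullToLegE ↥K' (M * p) f₀ * P⁻¹ - yy) * yy⁻¹ := by
        field_simp
      rw [e4, map_mul, map_inv₀, hyv, inv_one, mul_one]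
      exact hfin
    · rw [hdE, ← hyy, pow_one]
      field_simp
      ring
  · -- Case 2
    right
    have hw₀g : ((w₀ : ↥(keyFq ↥K' M)) : LaurentSeries ↥K') ∈ gaussInt ↥(baseRing A K') ↥K' := hw₀
    have hq : ((keyFqBC M K' w₀ : ↥(keyFq Ω M)) : LaurentSeries Ω) ∈ fracInt A :=
      coeffMap_mem_fracInt_of_mem_gaussInt hw₀g
    refine resOccurs_of_dlog_host_q M hA hpM hp2 hp3 S a
      (fun ℓ hℓ hℓM => H.bad ℓ hℓ (dvd_mul_of_dvd_left hℓM p)) (keyFqBC M K' w₀) hq hcase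
      (fun Q => HO M p hp2 hp₀p hpM A hA K₁ K' ζ s S a f₀ H ϖ hϖ h2 ainf w₀ hWv hresE hWE Q)
      (fun n => (eulerD (ResidueField ↥A)
        (fracRed A ⟨((keyFqBC M K' w₀ : ↥(keyFq Ω M)) : LaurentSeries Ω), hq⟩) /
        fracRed A ⟨((keyFqBC M K' w₀ : ↥(keyFq Ω M)) : LaurentSeries Ω), hq⟩).coeff (n : ℤ))
      (fun n => rfl) ?_
    intro ℓ hℓ hℓS n
    have hℓMp : ¬ ℓ ∣ M * p := fun h => hℓS (H.bad ℓ hℓ h)
    have hℓp : ℓ ≠ p := by
      rintro rfl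
      exact hℓMp (dvd_mul_left _ _)
    obtain ⟨c, u, hc, hu, hrel⟩ := H.hecke ℓ hℓ hℓS
    -- the Gauss unit as a series
    have hY : ((f₁ : ↥(keyFq ↥K' (M * p))) : LaurentSeries ↥K') ∈
        gaussInt ↥(baseRing A K') ↥K' := hf₁mem
    have hfY : ((f₀ : ↥(keyFq ↥K' (M * p))) : LaurentSeries ↥K') =
        HahnSeries.C d * ((f₁ : ↥(keyFq ↥K' (M * p))) : LaurentSeries ↥K') := by
      have hD0 : algebraMap ↥K' ↥(keyFq ↥K' (M * p)) d ≠ 0 := (map_ne_zero _).mpr hd0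
      have e1 : f₀ = algebraMap ↥K' ↥(keyFq ↥K' (M * p)) d * f₁ := by
        rw [hf₁]
        field_simp
      have e2 := congrArg (fun z : ↥(keyFq ↥K' (M * p)) => (z : LaurentSeries ↥K')) e1
      simp only [IntermediateField.coe_mul] at e2
      rw [e2, IntermediateField.coe_algebraMap_apply, algebraMap_laurent_eq_C]
    have hredeq : gaussRed ↥(baseRing A K') ↥K'
        ⟨((f₁ : ↥(keyFq ↥K' (M * p))) : LaurentSeries ↥K'), hY⟩ =
        gaussRed ↥(baseRing A K') ↥K' ⟨((w₀ : ↥(keyFq ↥K' M)) : LaurentSeries ↥K'), hw₀g⟩ := by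
      obtain ⟨hmem, hred0⟩ := (gaussValSub_valuation_lt_one_iff _ _ _).1 hres
      have e1 : (⟨_, hmem⟩ : gaussInt ↥(baseRing A K') ↥K') =
          ⟨((f₁ : ↥(keyFq ↥K' (M * p))) : LaurentSeries ↥K'), hY⟩ -
            ⟨((w₀ : ↥(keyFq ↥K' M)) : LaurentSeries ↥K'), hw₀g⟩ := by
        apply Subtype.ext
        show ((f₁ - keyFqA ↥K' M p w₀ : ↥(keyFq ↥K' (M * p))) : LaurentSeries ↥K') = _
        have e0 : ((f₁ - keyFqA ↥K' M p w₀ : ↥(keyFq ↥K' (M * p))) : LaurentSeries ↥K') =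
            (f₁ : LaurentSeries ↥K') - ((keyFqA ↥K' M p w₀ : ↥(keyFq ↥K' (M * p))) :
              LaurentSeries ↥K') := rfl
        rw [e0, coe_keyFqA]
        rfl
      rw [e1, map_sub, sub_eq_zero] at hred0
      exact hred0
    have hY' : gaussRed ↥(baseRing A K') ↥K'
        ⟨((f₁ : ↥(keyFq ↥K' (M * p))) : LaurentSeries ↥K'), hY⟩ ≠ 0 := by
      intro h0
      have hlt : (keyFqWinf ↥(baseRing A K') ↥K' (M * p)).valuation f₁ < 1 :=
        (gaussValSub_valuation_lt_one_iff _ _ _).2 ⟨hY, h0⟩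
      rw [hf₁v] at hlt
      exact lt_irrefl _ hlt
    have key := HQ p A hA K' H.base (M * p) ℓ hℓ hℓp hℓMp f₀ u c (a ℓ) H.ne_zero hu hc hrel d
      _ hd0 hfY hY hY' n
    rw [hredeq] at key
    have key' := congrArg (baseResidueMap A K') key
    rw [map_add, map_mul, map_intCast, apply_ite (baseResidueMap A K'), map_mul, map_natCast,
      map_zero] at key'
    have hb : ∀ m : ℤ, (eulerD (ResidueField ↥A)
        (fracRed A ⟨((keyFqBC M K' w₀ : ↥(keyFq Ω M)) : LaurentSeries Ω), hq⟩) /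
        fracRed A ⟨((keyFqBC M K' w₀ : ↥(keyFq Ω M)) : LaurentSeries Ω), hq⟩).coeff m =
        baseResidueMap A K' ((RQ4Q.dlogθ (gaussRed ↥(baseRing A K') ↥K'
          ⟨((w₀ : ↥(keyFq ↥K' M)) : LaurentSeries ↥K'), hw₀g⟩)).coeff m) :=
      fun m => coeff_dlog_fracRed_coeffMap A K' hw₀g m
    show (eulerD (ResidueField ↥A)
        (fracRed A ⟨((keyFqBC M K' w₀ : ↥(keyFq Ω M)) : LaurentSeries Ω), hq⟩) /
        fracRed A ⟨((keyFqBC M K' w₀ : ↥(keyFq Ω M)) : LaurentSeries Ω), hq⟩).coeff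
          ((n * ℓ : ℕ) : ℤ) +
      (if ℓ ∣ n then (ℓ : ResidueField ↥A) * (eulerD (ResidueField ↥A)
        (fracRed A ⟨((keyFqBC M K' w₀ : ↥(keyFq Ω M)) : LaurentSeries Ω), hq⟩) /
        fracRed A ⟨((keyFqBC M K' w₀ : ↥(keyFq Ω M)) : LaurentSeries Ω), hq⟩).coeff
          ((n / ℓ : ℕ) : ℤ) else 0) =
      (a ℓ : ResidueField ↥A) * (eulerD (ResidueField ↥A)
        (fracRed A ⟨((keyFqBC M K' w₀ : ↥(keyFq Ω M)) : LaurentSeries Ω), hq⟩) /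
        fracRed A ⟨((keyFqBC M K' w₀ : ↥(keyFq Ω M)) : LaurentSeries Ω), hq⟩).coeff (n : ℤ)
    rw [hb, hb, hb]
    exact key'

end Main

end Fermat.Agent.MP
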