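/-
MP40 — [KEYFQ-RESINF], helper8: the input `KeyFqResInfP` of lead's (2a) `legPeuInfP_of`.
-/
import Mathlib
import Fermat.Agent.MP.KEYFQ_helper8_ResInf
import Fermat.Agent.MP.KPBASE_lead_Inf

set_option autoImplicit false
set_option linter.unusedSectionVars false
set_option linter.unusedVariables false
set_option linter.style.haveILetI false
set_option synthInstance.maxHeartbeats 400000

open HahnSeries IntermediateField AlgebraicCurve ModularCurve IsLocalRing

namespace Fermat.Agent.MP

open Fermat.Agent.JA Fermat.Agent.FF Fermat.Agent.SS Fermat.Agent.S35 Fermat.Agent.NP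
  Fermat.Agent.FG Fermat.Agent.Igusa Fermat.Agent.S36

/-- `Ω = AlgebraicClosure ℚ`. -/
local notation "Ω" => AlgebraicClosure ℚ

/-- **[KEYFQ-RESINF]**: residue degree one along `A` on the sheet `∞` of the level fields, over
every base. -/
theorem keyFqResInfP : KeyFqResInfP := by
  intro M _ p _ _ _ hpM A hA K' _ hK' f hf
  have hp : p.Prime := Fact.out
  obtain ⟨ϖ, hϖ⟩ := IsDiscreteValuationRing.exists_irreducible ↥(baseRing A K')
  obtain ⟨x, y, hbez⟩ := exists_bezout_of_prime_of_not_dvd hp hpM
  letI := baseToComplex K'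
  have hpϖ := natCast_mem_span_uniformizer_baseRing hA K' hϖ
  exact keyFq_res_inf (algebraMap ↥K' ℂ) hbez hp hpM hϖ hpϖ f hf

end Fermat.Agent.MP
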