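/-
MP40 — helper6 — [RHECKE-Ω] (Ω1)+(Ω2): the two degeneracy maps `legHostA Ω M ℓ`, `legHostB Ω M ℓ`
between the Legendre hosts over `Ω` are compatible with the coefficientwise Gauss valuation
subrings `legWE` (residue characteristic `p`), and induce `k`-algebra maps
`legEtA legEtB : legEt hA M hp2 →ₐ[k] legEt hA (M*ℓ) hp2` on the reduced function fields.
-/
import Mathlib
import Fermat.Agent.FG.EDEF_helper6_PsiBij
import Fermat.Agent.MP.RQ4Q_helper3_Frac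
import Fermat.Agent.SS.HOSTB_helper8_HostB

set_option autoImplicit false
set_option linter.unusedSectionVars false
set_option linter.style.haveILetI false
set_option synthInstance.maxHeartbeats 400000

open HahnSeries IntermediateField ModularCurve IsLocalRing

namespace Fermat.Agent.MP

open Fermat.Agent.JA Fermat.Agent.Igusa Fermat.Agent.SS Fermat.Agent.FG Fermat.Agent.S36

/-- `Ω = AlgebraicClosure ℚ`. -/
local notation "Ω" => AlgebraicClosure ℚ

noncomputable section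

/-! ### abstract: the map induced on residue fields by a field map with `W'.comap φ = W` -/

section Abs

variable {E E' : Type*} [Field E] [Field E'] (W : ValuationSubring E) (W' : ValuationSubring E')
  (φ : E →+* E') (hφ : W'.comap φ = W)

/-- the restriction `W → W'` of a field map with `W'.comap φ = W`. -/
def valSubRestrict : ↥W →+* ↥W' :=
  (φ.comp W.subtype).codRestrict W'.toSubring (fun x => by
    have : (x : E) ∈ W'.comap φ := by rw [hφ]; exact x.2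
    exact this)

@[simp] theorem coe_valSubRestrict (x : ↥W) :
    ((valSubRestrict W W' φ hφ x : ↥W') : E') = φ (x : E) := rfl

instance isLocalHom_valSubRestrict : IsLocalHom (valSubRestrict W W' φ hφ) := by
  constructor
  intro x hx
  by_cases hx0 : (x : E) = 0
  · exfalso
    have h0 : valSubRestrict W W' φ hφ x = 0 := by
      apply Subtype.ext
      rw [coe_valSubRestrict, hx0, map_zero]
      rfl
    rw [h0] at hx
    exact not_isUnit_zero hx
  · have h1 : W'.valuation (φ (x : E)) = 1 :=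
      (ValuationSubring.valuation_eq_one_iff W' _).mp hx
    have h2 : (φ (x : E))⁻¹ ∈ W' := by
      rw [← ValuationSubring.valuation_le_one_iff, map_inv₀, h1, inv_one]
    have h3 : (x : E)⁻¹ ∈ W :=
      (SetLike.ext_iff.mp hφ ((x : E)⁻¹)).mp (by
        show φ ((x : E)⁻¹) ∈ W'
        rwa [map_inv₀])
    refine ⟨⟨x, ⟨(x : E)⁻¹, h3⟩, ?_, ?_⟩, rfl⟩
    · exact Subtype.ext (mul_inv_cancel₀ hx0)
    · exact Subtype.ext (inv_mul_cancel₀ hx0)

/-- **the induced map of residue fields.** -/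
def valSubResMap : ResidueField ↥W →+* ResidueField ↥W' :=
  ResidueField.map (valSubRestrict W W' φ hφ)

theorem valSubResMap_residue (x : ↥W) :
    valSubResMap W W' φ hφ (residue ↥W x) = residue ↥W' (valSubRestrict W W' φ hφ x) :=
  ResidueField.map_residue _ x

theorem valSubResMap_residue_mk (x : E) (hx : x ∈ W) (hx' : φ x ∈ W') :
    valSubResMap W W' φ hφ (residue ↥W ⟨x, hx⟩) = residue ↥W' ⟨φ x, hx'⟩ :=
  valSubResMap_residue W W' φ hφ ⟨x, hx⟩

end Abs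

/-! ### `qExpand` reflects `fracInt` on a valuation ring -/

section Frac

variable {K : Type*} [Field K] {A : ValuationSubring K}

theorem mem_fracInt_of_qExpand_mem (m : ℕ) [NeZero m] {x : LaurentSeries K}
    (hx : x ∈ fracInt A ∨ x⁻¹ ∈ fracInt A) (h : qExpand K m x ∈ fracInt A) : x ∈ fracInt A := by
  rcases hx with hx | hx
  · exact hx
  by_contra hcon
  have hx0 : x ≠ 0 := by
    rintro rfl
    exact hcon (Subring.zero_mem _)
  have hred : fracRed A ⟨x⁻¹, hx⟩ = 0 := by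
    by_contra hne
    have := RQ4Q.fracRed_inv hx hne
    exact hcon (by simpa using inv_mem_fracInt_of_fracRed_ne_zero ⟨x⁻¹, hx⟩ hne)
  have h1 : fracRed A ⟨qExpand K m x⁻¹, RQ4Q.qExpand_mem_fracInt m hx⟩ = 0 := by
    rw [RQ4Q.fracRed_qExpand m hx, hred, map_zero]
  have hmul : (⟨qExpand K m x, h⟩ : fracInt A) * ⟨qExpand K m x⁻¹, RQ4Q.qExpand_mem_fracInt m hx⟩
      = 1 := by
    apply Subtype.ext
    show qExpand K m x * qExpand K m x⁻¹ = 1
    rw [← map_mul, mul_inv_cancel₀ hx0, map_one]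
  have := congrArg (fracRed A) hmul
  rw [map_mul, h1, mul_zero, map_one] at this
  exact zero_ne_one this

end Frac

/-! ### (Ω1): the comaps -/

section Host

variable {p : ℕ} [Fact p.Prime] {A : ValuationSubring Ω} (hA : A.LiesOverPrime p)
  (M : ℕ) [NeZero M] (hp2 : p ≠ 2) (ℓ : ℕ) [NeZero ℓ] [NeZero (M * ℓ)]

theorem coe_legHostA_Ω (x : ↥(legE Ω M)) :
    ((legHostA Ω M ℓ x : ↥(legE Ω (M * ℓ))) : LaurentSeries Ω) = x :=
  IntermediateField.coe_inclusion _ x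

theorem coe_legHostA_toRingHom_Ω (x : ↥(legE Ω M)) :
    (((legHostA Ω M ℓ).toRingHom x : ↥(legE Ω (M * ℓ))) : LaurentSeries Ω) = x :=
  IntermediateField.coe_inclusion _ x

/-- **(Ω1-A)** -/
theorem legWE_comap_legHostA :
    (legWE hA (M * ℓ) hp2).comap (legHostA Ω M ℓ).toRingHom = legWE hA M hp2 := by
  ext x
  rw [ValuationSubring.mem_comap, mem_legWE_iff, mem_legWE_iff, coe_legHostA_toRingHom_Ω]

/-- **(Ω1-B)** -/
theorem legWE_comap_legHostB (hℓ : ℓ.Prime) (hℓ2 : ℓ ≠ 2) :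
    (legWE hA (M * ℓ) hp2).comap (legHostB Ω M ℓ hℓ hℓ2).toRingHom = legWE hA M hp2 := by
  ext x
  rw [ValuationSubring.mem_comap, mem_legWE_iff, mem_legWE_iff]
  show qExpand Ω ℓ (x : LaurentSeries Ω) ∈ fracInt A ↔ _
  constructor
  · intro h
    refine mem_fracInt_of_qExpand_mem ℓ ?_ h
    have := legE_mem_fracInt_or_inv_mem hA M hp2 x
    exact this
  · exact fun h => RQ4Q.qExpand_mem_fracInt ℓ h

theorem legHostA_mem_legWE {x : ↥(legE Ω M)} (hx : x ∈ legWE hA M hp2) :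
    legHostA Ω M ℓ x ∈ legWE hA (M * ℓ) hp2 :=
  (mem_legWE_iff hA (M * ℓ) hp2 _).2 (by
    rw [coe_legHostA_Ω]
    exact (mem_legWE_iff hA M hp2 x).1 hx)

theorem legHostB_mem_legWE (hℓ : ℓ.Prime) (hℓ2 : ℓ ≠ 2) {x : ↥(legE Ω M)}
    (hx : x ∈ legWE hA M hp2) : legHostB Ω M ℓ hℓ hℓ2 x ∈ legWE hA (M * ℓ) hp2 :=
  (mem_legWE_iff hA (M * ℓ) hp2 _).2
    (RQ4Q.qExpand_mem_fracInt ℓ ((mem_legWE_iff hA M hp2 x).1 hx))

/-! ### (Ω2): the induced maps on the reduced function fields -/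

/-- `k`-linearity of an induced map. -/
theorem legEt_commutes_aux (φ : ↥(legE Ω M) →ₐ[Ω] ↥(legE Ω (M * ℓ)))
    (hφ : (legWE hA (M * ℓ) hp2).comap φ.toRingHom = legWE hA M hp2) (c : ResidueField ↥A) :
    valSubResMap (legWE hA M hp2) (legWE hA (M * ℓ) hp2) φ.toRingHom hφ
      (algebraMap (ResidueField ↥A) (legEt hA M hp2) c) =
      algebraMap (ResidueField ↥A) (legEt hA (M * ℓ) hp2) c := by
  obtain ⟨a, rfl⟩ := residue_surjective c
  have h1 : algebraMap Ω ↥(legE Ω M) (a : Ω) ∈ legWE hA M hp2 :=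
    (algebraMap_mem_legWE_iff hA M hp2 _).2 a.2
  have h2 : algebraMap Ω ↥(legE Ω (M * ℓ)) (a : Ω) ∈ legWE hA (M * ℓ) hp2 :=
    (algebraMap_mem_legWE_iff hA (M * ℓ) hp2 _).2 a.2
  rw [← legρ_algebraMap hA M hp2 a h1, ← legρ_algebraMap hA (M * ℓ) hp2 a h2]
  have h3 : φ.toRingHom (algebraMap Ω ↥(legE Ω M) (a : Ω)) ∈ legWE hA (M * ℓ) hp2 := by
    show φ (algebraMap Ω ↥(legE Ω M) (a : Ω)) ∈ _
    rw [φ.commutes]; exact h2
  have := valSubResMap_residue_mk (legWE hA M hp2) (legWE hA (M * ℓ) hp2) φ.toRingHom hφ _ h1 h3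
  refine this.trans ?_
  show residue _ _ = residue _ _
  congr 1
  apply Subtype.ext
  exact φ.commutes _

/-- **(Ω2-A) the reduction of `legHostA Ω M ℓ`.** -/
def legEtA : legEt hA M hp2 →ₐ[ResidueField ↥A] legEt hA (M * ℓ) hp2 :=
  { valSubResMap (legWE hA M hp2) (legWE hA (M * ℓ) hp2) (legHostA Ω M ℓ).toRingHom
      (legWE_comap_legHostA hA M hp2 ℓ) with
    commutes' := legEt_commutes_aux hA M hp2 ℓ (legHostA Ω M ℓ) (legWE_comap_legHostA hA M hp2 ℓ) }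

/-- **(Ω2-B) the reduction of `legHostB Ω M ℓ`.** -/
def legEtB (hℓ : ℓ.Prime) (hℓ2 : ℓ ≠ 2) :
    legEt hA M hp2 →ₐ[ResidueField ↥A] legEt hA (M * ℓ) hp2 :=
  { valSubResMap (legWE hA M hp2) (legWE hA (M * ℓ) hp2) (legHostB Ω M ℓ hℓ hℓ2).toRingHom
      (legWE_comap_legHostB hA M hp2 ℓ hℓ hℓ2) with
    commutes' := legEt_commutes_aux hA M hp2 ℓ (legHostB Ω M ℓ hℓ hℓ2)
      (legWE_comap_legHostB hA M hp2 ℓ hℓ hℓ2) }

theorem legEtA_legρ (x : ↥(legE Ω M)) (hx : x ∈ legWE hA M hp2)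
    (hx' : legHostA Ω M ℓ x ∈ legWE hA (M * ℓ) hp2) :
    legEtA hA M hp2 ℓ (legρ hA M hp2 ⟨x, hx⟩) = legρ hA (M * ℓ) hp2 ⟨legHostA Ω M ℓ x, hx'⟩ :=
  valSubResMap_residue_mk (legWE hA M hp2) (legWE hA (M * ℓ) hp2) (legHostA Ω M ℓ).toRingHom
    (legWE_comap_legHostA hA M hp2 ℓ) x hx hx'

theorem legEtB_legρ (hℓ : ℓ.Prime) (hℓ2 : ℓ ≠ 2) (x : ↥(legE Ω M)) (hx : x ∈ legWE hA M hp2)
    (hx' : legHostB Ω M ℓ hℓ hℓ2 x ∈ legWE hA (M * ℓ) hp2) :
    legEtB hA M hp2 ℓ hℓ hℓ2 (legρ hA M hp2 ⟨x, hx⟩) =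
      legρ hA (M * ℓ) hp2 ⟨legHostB Ω M ℓ hℓ hℓ2 x, hx'⟩ :=
  valSubResMap_residue_mk (legWE hA M hp2) (legWE hA (M * ℓ) hp2)
    (legHostB Ω M ℓ hℓ hℓ2).toRingHom (legWE_comap_legHostB hA M hp2 ℓ hℓ hℓ2) x hx hx'

/-- on the series: `legEtA` is the identity. -/
theorem legEtEmb_legEtA (z : legEt hA M hp2) :
    legEtEmb hA (M * ℓ) hp2 (legEtA hA M hp2 ℓ z) = legEtEmb hA M hp2 z := by
  obtain ⟨⟨x, hx⟩, rfl⟩ := legρ_surjective hA M hp2 z
  rw [legEtA_legρ hA M hp2 ℓ x hx (legHostA_mem_legWE hA M hp2 ℓ hx), legEtEmb_legρ,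
    legEtEmb_legρ]
  exact congrArg (fracRed A) (Subtype.ext (coe_legHostA_Ω M ℓ x))

/-- on the series: `legEtB` is `f(x) ↦ f(x^ℓ)`. -/
theorem legEtEmb_legEtB (hℓ : ℓ.Prime) (hℓ2 : ℓ ≠ 2) (z : legEt hA M hp2) :
    legEtEmb hA (M * ℓ) hp2 (legEtB hA M hp2 ℓ hℓ hℓ2 z) =
      qExpand (ResidueField ↥A) ℓ (legEtEmb hA M hp2 z) := by
  obtain ⟨⟨x, hx⟩, rfl⟩ := legρ_surjective hA M hp2 z
  rw [legEtB_legρ hA M hp2 ℓ hℓ hℓ2 x hx (legHostB_mem_legWE hA M hp2 ℓ hℓ hℓ2 hx),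
    legEtEmb_legρ, legEtEmb_legρ]
  exact RQ4Q.fracRed_qExpand ℓ hx

end Host

end

end Fermat.Agent.MP
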