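/-
MP40 — helper6 — [RHECKE-Ω] (Ω3): the reduction `legEtA : legEt hA M hp2 → legEt hA (M*ℓ) hp2` of the
degeneracy map `legHostA Ω M ℓ` is finite separable of degree `ℓ + 1` (`p ∤ M ℓ`, `ℓ ∤ M` odd
prime); and the char-0 degree `[legE Ω (M ℓ) : legE Ω M] = ℓ + 1` over `Ω` itself.
-/
import Mathlib
import Fermat.Agent.MP.HECKERO_helper6_Comap
import Fermat.Agent.NP.BASEP_helper2_DegGen

set_option autoImplicit false
set_option linter.unusedSectionVars false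
set_option linter.style.haveILetI false
set_option synthInstance.maxHeartbeats 400000

open HahnSeries IntermediateField ModularCurve IsLocalRing

namespace Fermat.Agent.MP

open Fermat.Agent.JA Fermat.Agent.Igusa Fermat.Agent.SS Fermat.Agent.FG Fermat.Agent.S36
  Fermat.Agent.NP Fermat.Agent.FF

open scoped Fermat.Agent.JA.Host

/-- `Ω = AlgebraicClosure ℚ`. -/
local notation "Ω" => AlgebraicClosure ℚ

noncomputable section

/-! ### abstract: degrees along a `k`-algebra map, through a coordinate -/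

section AbsDeg

variable {k E E' : Type*} [Field k] [Field E] [Field E'] [Algebra k E] [Algebra k E']
  (α : E →ₐ[k] E') (t : E)

/-- `k(t) ≃ k(α t)`. -/
def adjoinSimpleMapEquiv : ↥k⟮t⟯ ≃ₐ[k] ↥k⟮α t⟯ :=
  (IntermediateField.equivMap k⟮t⟯ α).trans (IntermediateField.equivOfEq (by
    rw [IntermediateField.adjoin_map, Set.image_singleton]))

theorem coe_adjoinSimpleMapEquiv (x : ↥k⟮t⟯) :
    ((adjoinSimpleMapEquiv α t x : ↥k⟮α t⟯) : E') = α (x : E) := rfl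

theorem algebraMap_comp_adjoinSimpleMapEquiv_symm :
    letI := α.toRingHom.toAlgebra
    (algebraMap ↥k⟮t⟯ E').comp
      (((adjoinSimpleMapEquiv α t).symm : ↥k⟮α t⟯ ≃+* ↥k⟮t⟯) : ↥k⟮α t⟯ →+* ↥k⟮t⟯) =
      ((RingEquiv.refl E' : E' ≃+* E') : E' →+* E').comp (algebraMap ↥k⟮α t⟯ E') := by
  letI i1 : Algebra E E' := α.toRingHom.toAlgebra
  ext c
  obtain ⟨d, rfl⟩ := (adjoinSimpleMapEquiv α t).surjective c
  simp only [RingHom.coe_comp, Function.comp_apply, RingHom.coe_coe]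
  rw [AlgEquiv.coe_ringEquiv, AlgEquiv.symm_apply_apply]
  rfl

theorem finrank_adjoin_mul_finrank_along {t' : E'} (ht' : α t = t') :
    Module.finrank ↥k⟮t⟯ E * (letI := α.toRingHom.toAlgebra; Module.finrank E E') =
      Module.finrank ↥k⟮t'⟯ E' := by
  subst ht'
  letI i1 : Algebra E E' := α.toRingHom.toAlgebra
  rw [Module.finrank_mul_finrank ↥k⟮t⟯ E E']
  refine Algebra.finrank_eq_of_equiv_equiv
    (adjoinSimpleMapEquiv α t : ↥k⟮t⟯ ≃+* ↥k⟮α t⟯) (RingEquiv.refl E') ?_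
  ext c
  rfl

theorem finite_along_of_adjoin {t' : E'} (ht' : α t = t') [Module.Finite ↥k⟮t'⟯ E'] :
    letI := α.toRingHom.toAlgebra
    Module.Finite E E' := by
  subst ht'
  letI i1 : Algebra E E' := α.toRingHom.toAlgebra
  haveI : Module.Finite ↥k⟮t⟯ E' :=
    Module.Finite.of_equiv_equiv (A₁ := ↥k⟮α t⟯) (B₁ := E') (A₂ := ↥k⟮t⟯) (B₂ := E')
      ((adjoinSimpleMapEquiv α t).symm : ↥k⟮α t⟯ ≃+* ↥k⟮t⟯) (RingEquiv.refl E')
      (algebraMap_comp_adjoinSimpleMapEquiv_symm α t)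
  exact Module.Finite.of_restrictScalars_finite ↥k⟮t⟯ E E'

theorem isSeparable_along_of_adjoin {t' : E'} (ht' : α t = t')
    [Algebra.IsSeparable ↥k⟮t'⟯ E'] :
    letI := α.toRingHom.toAlgebra
    Algebra.IsSeparable E E' := by
  subst ht'
  letI i1 : Algebra E E' := α.toRingHom.toAlgebra
  haveI hsep : Algebra.IsSeparable ↥k⟮t⟯ E' :=
    Algebra.IsSeparable.of_equiv_equiv (A₁ := ↥k⟮α t⟯) (B₁ := E') (A₂ := ↥k⟮t⟯) (B₂ := E')
      ((adjoinSimpleMapEquiv α t).symm : ↥k⟮α t⟯ ≃+* ↥k⟮t⟯) (RingEquiv.refl E')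
      (algebraMap_comp_adjoinSimpleMapEquiv_symm α t)
  exact Algebra.isSeparable_tower_top_of_isSeparable ↥k⟮t⟯ E E'

end AbsDeg

/-! ### the char-0 tower `K(t) ≤ legE K M ≤ legE K (M ℓ)` -/

section Char0

variable (K : Type*) [Field K] [Algebra ℚ K] (M ℓ : ℕ) [NeZero M] [NeZero ℓ] [NeZero (M * ℓ)]

theorem finrank_legT_mul_finrank_legHostA :
    Module.finrank ↥K⟮legT K⟯ ↥(legE K M) *
      (letI := (legHostA K M ℓ).toRingHom.toAlgebra;
        Module.finrank ↥(legE K M) ↥(legE K (M * ℓ))) =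
      Module.finrank ↥K⟮legT K⟯ ↥(legE K (M * ℓ)) := by
  letI i1 : Algebra ↥(legE K M) ↥(legE K (M * ℓ)) := (legHostA K M ℓ).toRingHom.toAlgebra
  haveI : IsScalarTower ↥K⟮legT K⟯ ↥(legE K M) ↥(legE K (M * ℓ)) :=
    IsScalarTower.of_algebraMap_eq fun x => by
      apply Subtype.ext
      show _ = ((legHostA K M ℓ (algebraMap ↥K⟮legT K⟯ ↥(legE K M) x) : ↥(legE K (M * ℓ))) :
        LaurentSeries K)
      rw [legHostA, IntermediateField.coe_inclusion, Host.coe_algebraMap, Host.coe_algebraMap]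
  exact Module.finrank_mul_finrank ↥K⟮legT K⟯ ↥(legE K M) ↥(legE K (M * ℓ))

end Char0

section Degrees

variable (M ℓ : ℕ) [NeZero M] [NeZero ℓ] [NeZero (M * ℓ)]

/-- **the degree of the Legendre coordinate is multiplied by `ℓ + 1`.** -/
theorem legCoordBar_degree_mul (hℓ : ℓ.Prime) (hℓ2 : ℓ ≠ 2) (hℓM : ¬ ℓ ∣ M) :
    (legCoordBar (M * ℓ)).degree = (legCoordBar M).degree * (ℓ + 1) := by
  have h := finrank_legT_mul_finrank_legHostA ↥(⊥ : IntermediateField ℚ Ω) M ℓ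
  rw [finrank_legHostA_base M ℓ hℓ hℓ2 hℓM ⊥, finrank_legE_adjoin_legT_base M ⊥,
    finrank_legE_adjoin_legT_base (M * ℓ) ⊥] at h
  exact h.symm

theorem legCoordBar_degree_ne_zero (N : ℕ) [NeZero N] : (legCoordBar N).degree ≠ 0 := by
  rw [legCoordBar_degree]
  letI : Algebra Ω ℂ := ((IsAlgClosed.lift : Ω →ₐ[ℚ] ℂ) : Ω →+* ℂ).toAlgebra
  haveI := finite_legE Ω N
  exact (Module.finrank_pos).ne'

/-- **`[legE Ω (M ℓ) : legE Ω M] = ℓ + 1` over `Ω` itself.** -/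
theorem finrank_legHostA_Omega (hℓ : ℓ.Prime) (hℓ2 : ℓ ≠ 2) (hℓM : ¬ ℓ ∣ M) :
    letI := (legHostA Ω M ℓ).toRingHom.toAlgebra
    Module.finrank ↥(legE Ω M) ↥(legE Ω (M * ℓ)) = ℓ + 1 := by
  have h := finrank_legT_mul_finrank_legHostA Ω M ℓ
  rw [← legCoordBar_degree, ← legCoordBar_degree, legCoordBar_degree_mul M ℓ hℓ hℓ2 hℓM] at h
  exact Nat.eq_of_mul_eq_mul_left (Nat.pos_of_ne_zero (legCoordBar_degree_ne_zero M)) h

end Degrees

/-! ### (Ω3) -/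

section Red

variable {p : ℕ} [Fact p.Prime] {A : ValuationSubring Ω} (hA : A.LiesOverPrime p)
  (M : ℕ) [NeZero M] (hp2 : p ≠ 2) (ℓ : ℕ) [NeZero ℓ] [NeZero (M * ℓ)]

theorem legHostA_legCoordBar_x :
    legHostA Ω M ℓ (legCoordBar M).x = (legCoordBar (M * ℓ)).x := by
  apply Subtype.ext
  rw [coe_legHostA_Ω, coe_legCoordBar_x, coe_legCoordBar_x]

/-- `ᾱ t̄ = t̄`. -/
theorem legEtA_legTb : legEtA hA M hp2 ℓ (legTb hA M hp2) = legTb hA (M * ℓ) hp2 := by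
  unfold legTb
  rw [legEtA_legρ hA M hp2 ℓ _ _
    (legHostA_mem_legWE hA M hp2 ℓ (legCoordBar_x_mem_legWE hA M hp2))]
  exact congrArg (legρ hA (M * ℓ) hp2) (Subtype.ext (legHostA_legCoordBar_x M ℓ))

variable (hℓ : ℓ.Prime) (hℓ2 : ℓ ≠ 2) (hℓM : ¬ ℓ ∣ M) (hpMℓ : ¬ p ∣ M * ℓ)

include hℓ hℓ2 hℓM hpMℓ in
/-- **(Ω3) the degree.** -/
theorem finrank_legEtA :
    (letI := (legEtA hA M hp2 ℓ).toRingHom.toAlgebra;
      Module.finrank (legEt hA M hp2) (legEt hA (M * ℓ) hp2)) = ℓ + 1 := by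
  have hpM : ¬ p ∣ M := fun h => hpMℓ (dvd_mul_of_dvd_left h ℓ)
  have h := finrank_adjoin_mul_finrank_along (legEtA hA M hp2 ℓ) (legTb hA M hp2)
    (legEtA_legTb hA M hp2 ℓ)
  rw [(legEt_facts hA M hpM hp2).2.2.2, (legEt_facts hA (M * ℓ) hpMℓ hp2).2.2.2,
    legCoordBar_degree_mul M ℓ hℓ hℓ2 hℓM] at h
  exact Nat.eq_of_mul_eq_mul_left (Nat.pos_of_ne_zero (legCoordBar_degree_ne_zero M)) h

include hpMℓ in
/-- **(Ω3) finiteness.** -/
theorem finite_legEtA :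
    letI := (legEtA hA M hp2 ℓ).toRingHom.toAlgebra
    Module.Finite (legEt hA M hp2) (legEt hA (M * ℓ) hp2) := by
  haveI := (legEt_facts hA (M * ℓ) hpMℓ hp2).2.1
  exact finite_along_of_adjoin (legEtA hA M hp2 ℓ) (legTb hA M hp2) (legEtA_legTb hA M hp2 ℓ)

include hpMℓ in
/-- **(Ω3) separability.** -/
theorem isSeparable_legEtA :
    letI := (legEtA hA M hp2 ℓ).toRingHom.toAlgebra
    Algebra.IsSeparable (legEt hA M hp2) (legEt hA (M * ℓ) hp2) := by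
  haveI := (legEt_facts hA (M * ℓ) hpMℓ hp2).2.2.1
  exact isSeparable_along_of_adjoin (legEtA hA M hp2 ℓ) (legTb hA M hp2)
    (legEtA_legTb hA M hp2 ℓ)

end Red

end

end Fermat.Agent.MP
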