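import Mathlib
import Fermat.Agent.X0N.S24_helper7_Generic

/-!
# Project MP40 — [HECKE-U] helper6, part 1: `F_N = k(j, j_N)`

For every field `ℚ ⊆ k ⊆ ℂ` the function field `F_N = k(j(q^d) : d ∣ N)` of `X₀(N)` is generated
over `k(j)` by `j_N = j(q^N)`:

* `linearIndependent_pow_jNGen` : `1, j_N, …, j_N^(ψ(N)-1)` are linearly independent over `k(j)`;
* `span_pow_jNGen_eq_top` : they span `F_N` over `k(j)`;
* `subfield_eq_top_of_jGen_jNGen_mem` : a subfield of `F_N` containing `k`, `j`, `j_N` is `F_N`.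
-/

set_option autoImplicit false
set_option linter.unusedSectionVars false
set_option linter.unusedVariables false
set_option linter.style.haveILetI false

open AlgebraicCurve ModularCurve IntermediateField

namespace Fermat.Agent.MP

open Fermat.Agent.X0N

section Prim

variable (k : Type*) [Field k] [Algebra ℚ k] (N : ℕ) [NeZero N]

/-- `j_N = j(q^N)` as an element of the function field of `X₀(N)` over `k`. -/
noncomputable def jNGen : ↥(laurentBaseChange k (modularFunctionFieldFull N)) :=
  ⟨coeffEmb k (jqN N), coeffEmb_mem_laurentBaseChange k (jqN_mem_full N)⟩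

@[simp] theorem coe_jNGen :
    ((jNGen k N : ↥(laurentBaseChange k (modularFunctionFieldFull N))) : LaurentSeries k) =
      coeffEmb k (jqN N) := rfl

variable [Algebra k ℂ] [IsScalarTower ℚ k ℂ]

/-- `1, j_N, …, j_N^(ψ(N)-1)` are linearly independent over `k(j)`. -/
theorem linearIndependent_pow_jNGen :
    LinearIndependent k⟮jGen k N⟯ (fun i : Fin (dedekindPsi N) => jNGen k N ^ (i : ℕ)) := by
  have hφ := isLinDisjHom_iota (k := k) (L := ℂ)
  have hlb := linearIndependent_pow_jqN N
  rw [index_Gamma0 N] at hlb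
  have e : iota k ℂ (coeffEmb k jq) = coeffEmb ℂ jq := iota_coeffEmb jq
  have e' : iota k ℂ (coeffEmb k (jqN N)) = coeffEmb ℂ (jqN N) := iota_coeffEmb (jqN N)
  have h1 : LinearIndependent k⟮(coeffEmb k jq : LaurentSeries k)⟯
      (fun i : Fin (dedekindPsi N) => (coeffEmb k (jqN N) : LaurentSeries k) ^ (i : ℕ)) := by
    apply hφ.linearIndependent_of_map
    change LinearIndependent ℂ⟮iota k ℂ (coeffEmb k jq)⟯
      (fun i : Fin (dedekindPsi N) => iota k ℂ ((coeffEmb k (jqN N)) ^ (i : ℕ)))
    simp only [map_pow]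
    rw [e, e']
    exact hlb
  rw [linearIndependent_typed_iff]
  have h2 : (fun i : Fin (dedekindPsi N) =>
      (((jNGen k N ^ (i : ℕ) : ↥(laurentBaseChange k (modularFunctionFieldFull N))) :
        LaurentSeries k))) =
      fun i : Fin (dedekindPsi N) => (coeffEmb k (jqN N) : LaurentSeries k) ^ (i : ℕ) := by
    funext i
    simp
  rw [h2]
  exact h1

/-- `1, j_N, …, j_N^(ψ(N)-1)` span `F_N` over `k(j)`. -/
theorem span_pow_jNGen_eq_top :
    Submodule.span k⟮jGen k N⟯
      (Set.range (fun i : Fin (dedekindPsi N) => jNGen k N ^ (i : ℕ))) = ⊤ := by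
  obtain ⟨hfin, hdeg⟩ := finrank_laurentBaseChange_full_eq k N
  haveI := hfin
  refine (linearIndependent_pow_jNGen k N).span_eq_top_of_card_eq_finrank' ?_
  rw [Fintype.card_fin, hdeg]

/-- a subfield of `F_N` containing `k`, `j` and `j_N` is `F_N`. -/
theorem subfield_eq_top_of_jGen_jNGen_mem
    (G : Subfield ↥(laurentBaseChange k (modularFunctionFieldFull N)))
    (hk : ∀ c : k, algebraMap k ↥(laurentBaseChange k (modularFunctionFieldFull N)) c ∈ G)
    (hj : jGen k N ∈ G) (hjN : jNGen k N ∈ G) : G = ⊤ := by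
  rw [eq_top_iff]
  intro z _
  -- `k(j) ⊆ G`
  let G' : IntermediateField k ↥(laurentBaseChange k (modularFunctionFieldFull N)) :=
    { G with algebraMap_mem' := hk }
  have hle : k⟮jGen k N⟯ ≤ G' := by
    rw [adjoin_simple_le_iff]
    exact hj
  have hz : z ∈ Submodule.span k⟮jGen k N⟯
      (Set.range (fun i : Fin (dedekindPsi N) => jNGen k N ^ (i : ℕ))) := by
    rw [span_pow_jNGen_eq_top]; trivial
  refine Submodule.span_induction (p := fun z _ => z ∈ G) ?_ ?_ ?_ ?_ hz
  · rintro _ ⟨i, rfl⟩
    exact G.pow_mem hjN _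
  · exact G.zero_mem
  · intro a b _ _ ha hb
    exact G.add_mem ha hb
  · intro a b _ hb
    rw [IntermediateField.smul_def, smul_eq_mul]
    exact G.mul_mem (hle a.2) hb

end Prim

end Fermat.Agent.MP
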