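import Mathlib
import Fermat.Agent.MP.HECKEU_helper6_Prim
import Fermat.Agent.GR.ANORM_helper5_Fricke
import Fermat.Agent.S35.NORMBC_helper8
import Fermat.Agent.SS.HOSTB_helper8_HostB
import Fermat.Agent.SS.BASE_helper1_Leg
import Fermat.Agent.JA.ES_helper4_Main

/-!
# Project MP40 — [HECKE-U] helper6, part 2: norms along `α_ℓ` in squares of level fields

`levelDil k d h : F_M → F_N` (`f(q) ↦ f(q^d)`, `d M ∣ N`).  For a prime `ℓ ∤ N` the square
`F_M ⊂ F_{Mℓ}`, `F_N ⊂ F_{Nℓ}` (inclusions `α_ℓ`), connected by `levelDil d`, has equal degrees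
`ℓ + 1`; the norms commute as soon as `F_{Nℓ}` is spanned over `F_N` by the image of `F_{Mℓ}`:

* `normAlong_levelDil` : the abstract statement;
* `span_range_levelDil_self` : the span condition for `d = p`, `N = M p` (from `F = k(j, j_N)`);
* `span_range_levelDil_one` : the span condition for `d = 1`, `M ∣ N` (Atkin–Lehner `W_ℓ` and
  `F = k(j, j_N)`).
-/

set_option autoImplicit false
set_option linter.unusedSectionVars false
set_option linter.unusedVariables false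
set_option linter.style.haveILetI false

open AlgebraicCurve ModularCurve IntermediateField

namespace Fermat.Agent.MP

open Fermat.Agent.X0N Fermat.Agent.JA Fermat.Agent.SS Fermat.Agent.S35

section Dil

variable (k : Type*) [Field k] [Algebra ℚ k]

/-- the dilation `f(q) ↦ f(q^d)` between level fields, `d M ∣ N`. -/
noncomputable def levelDil (d : ℕ) [NeZero d] {M N : ℕ} [NeZero M] [NeZero N] (h : d * M ∣ N) :
    ↥(keyFq k M) →ₐ[k] ↥(keyFq k N) :=
  dilateAlgHom k d (keyFq k M) (keyFq k N) (fun _ hf => qExpand_mem_keyFq k h hf)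

@[simp] theorem coe_levelDil (d : ℕ) [NeZero d] {M N : ℕ} [NeZero M] [NeZero N] (h : d * M ∣ N)
    (f : ↥(keyFq k M)) :
    ((levelDil k d h f : ↥(keyFq k N)) : LaurentSeries k) = qExpand k d (f : LaurentSeries k) :=
  rfl

theorem levelDil_heckeAlphaBar (d : ℕ) [NeZero d] {M N : ℕ} [NeZero M] [NeZero N] (ℓ : ℕ)
    [NeZero ℓ] [NeZero (M * ℓ)] [NeZero (N * ℓ)] (h : d * M ∣ N) (h' : d * (M * ℓ) ∣ N * ℓ)
    (a : ↥(keyFq k M)) :
    levelDil k d h' (heckeAlphaBar k M ℓ a) = heckeAlphaBar k N ℓ (levelDil k d h a) := by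
  apply Subtype.ext
  rw [coe_levelDil, coe_heckeAlphaBar, coe_heckeAlphaBar, coe_levelDil]

end Dil

section Square

variable (k : Type*) [Field k] [Algebra ℚ k] [Algebra k ℂ] [IsScalarTower ℚ k ℂ]

theorem finrank_heckeAlphaBar_of_not_dvd (N ℓ : ℕ) [NeZero N] [NeZero ℓ] [NeZero (N * ℓ)]
    (hℓ : ℓ.Prime) (hℓN : ¬ ℓ ∣ N) :
    letI := algebraAlong (heckeAlphaBar k N ℓ)
    Module.finrank ↥(keyFq k N) ↥(keyFq k (N * ℓ)) = ℓ + 1 := by
  have h := finrankAlong_heckeAlphaBar (k := k) N ℓ hℓ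
  rw [if_neg hℓN] at h
  exact h

/-- **norms along `α_ℓ` commute with the dilations**, under the span condition. -/
theorem normAlong_levelDil (d : ℕ) [NeZero d] {M N : ℕ} [NeZero M] [NeZero N] (ℓ : ℕ)
    [NeZero ℓ] [NeZero (M * ℓ)] [NeZero (N * ℓ)] (hℓ : ℓ.Prime) (hℓN : ¬ ℓ ∣ N)
    (h : d * M ∣ N) (h' : d * (M * ℓ) ∣ N * ℓ)
    (hspan : letI := algebraAlong (heckeAlphaBar k N ℓ)
      Submodule.span ↥(keyFq k N) (Set.range (levelDil k d h')) = ⊤)
    (x : ↥(keyFq k (M * ℓ))) :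
    normAlong (heckeAlphaBar k N ℓ) (levelDil k d h' x) =
      levelDil k d h (normAlong (heckeAlphaBar k M ℓ) x) := by
  letI a1 := algebraAlong (heckeAlphaBar k M ℓ)
  letI a2 := algebraAlong (heckeAlphaBar k N ℓ)
  have hℓM : ¬ ℓ ∣ M := fun hd => hℓN (dvd_trans hd (dvd_trans (dvd_mul_left M d) h))
  have hd1 : Module.finrank ↥(keyFq k M) ↥(keyFq k (M * ℓ)) = ℓ + 1 :=
    finrank_heckeAlphaBar_of_not_dvd k M ℓ hℓ hℓM
  have hd2 : Module.finrank ↥(keyFq k N) ↥(keyFq k (N * ℓ)) = ℓ + 1 :=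
    finrank_heckeAlphaBar_of_not_dvd k N ℓ hℓ hℓN
  haveI : FiniteDimensional ↥(keyFq k M) ↥(keyFq k (M * ℓ)) :=
    Module.finite_of_finrank_pos (by rw [hd1]; omega)
  haveI : FiniteDimensional ↥(keyFq k N) ↥(keyFq k (N * ℓ)) :=
    Module.finite_of_finrank_pos (by rw [hd2]; omega)
  exact (norm_map_of_finrank_eq (levelDil k d h).toRingHom (levelDil k d h').toRingHom
    (fun a => levelDil_heckeAlphaBar k d ℓ h h' a) (hd1.trans hd2.symm) hspan x).symm

/-- `k(j) ⊆ α_ℓ(F_N)` inside `F_{Nℓ}`. -/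
theorem mem_range_heckeAlphaBar_of_mem_adjoin_jGen (N ℓ : ℕ) [NeZero N] [NeZero ℓ]
    [NeZero (N * ℓ)] {a : ↥(keyFq k (N * ℓ))} (ha : a ∈ k⟮jGen k (N * ℓ)⟯) :
    ∃ a' : ↥(keyFq k N), heckeAlphaBar k N ℓ a' = a := by
  have hle : k⟮jGen k (N * ℓ)⟯ ≤ (heckeAlphaBar k N ℓ).fieldRange := by
    rw [adjoin_simple_le_iff]
    exact ⟨jGen k N, heckeAlphaBar_jGen (k := k) (N := N) (ℓ := ℓ)⟩
  exact hle ha

/-- **the span condition for `d = p`, `N = M p`.** -/
theorem span_range_levelDil_self (p : ℕ) [NeZero p] (M : ℕ) [NeZero M] [NeZero (M * p)] (ℓ : ℕ)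
    [NeZero ℓ] [NeZero (M * ℓ)] [NeZero (M * p * ℓ)] (h' : p * (M * ℓ) ∣ M * p * ℓ) :
    letI := algebraAlong (heckeAlphaBar k (M * p) ℓ)
    Submodule.span ↥(keyFq k (M * p)) (Set.range (levelDil k p h')) = ⊤ := by
  letI a2 := algebraAlong (heckeAlphaBar k (M * p) ℓ)
  rw [eq_top_iff]
  intro z _
  have hz : z ∈ Submodule.span k⟮jGen k (M * p * ℓ)⟯
      (Set.range (fun i : Fin (dedekindPsi (M * p * ℓ)) => jNGen k (M * p * ℓ) ^ (i : ℕ))) := by
    rw [span_pow_jNGen_eq_top]; trivial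
  refine Submodule.span_induction
    (p := fun z _ => z ∈ Submodule.span ↥(keyFq k (M * p)) (Set.range (levelDil k p h')))
    ?_ ?_ ?_ ?_ hz
  · rintro _ ⟨i, rfl⟩
    refine Submodule.subset_span ⟨jNGen k (M * ℓ) ^ (i : ℕ), ?_⟩
    rw [map_pow]
    congr 1
    apply Subtype.ext
    rw [coe_levelDil, coe_jNGen, coe_jNGen, jqN, jqN, coeffEmb_qExpand, coeffEmb_qExpand,
      qExpand_qExpand' p (M * ℓ) (M * p * ℓ) (by ring)]
  · exact Submodule.zero_mem _
  · intro a b _ _ ha hb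
    exact Submodule.add_mem _ ha hb
  · intro a b _ hb
    obtain ⟨a', ha'⟩ := mem_range_heckeAlphaBar_of_mem_adjoin_jGen k (M * p) ℓ a.2
    have e : a • b = a' • b := by
      rw [IntermediateField.smul_def, smul_eq_mul, Algebra.smul_def, ← ha']
      rfl
    rw [e]
    exact Submodule.smul_mem _ _ hb

end Square

end Fermat.Agent.MP
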