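import Mathlib
import Fermat.Agent.MP.HECKEU_helper6_Square

/-!
# Project MP40 — [HECKE-U] helper6, part 3: `F_{Nℓ} = F_N · F_{Mℓ}` for `M ∣ N`, `ℓ ∤ N`

The span condition of `normAlong_levelDil` for `d = 1` (inclusions): `F_{Nℓ}` is spanned over
`α_ℓ(F_N)` by `F_{Mℓ}`.  Proof: the field `H = F_N(F_{Mℓ})` contains `j_ℓ = β_ℓ(j)`, so its image
under the Atkin–Lehner involution `W_ℓ` contains `W_ℓ(j_ℓ) = j` and `W_ℓ(α_ℓ j_N) = β_ℓ j_N = j_{Nℓ}`,
which generate `F_{Nℓ}`.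
-/

set_option autoImplicit false
set_option linter.unusedSectionVars false
set_option linter.unusedVariables false
set_option linter.style.haveILetI false

open AlgebraicCurve ModularCurve IntermediateField

namespace Fermat.Agent.MP

open Fermat.Agent.X0N Fermat.Agent.JA Fermat.Agent.SS Fermat.Agent.S35

section AL

variable (k : Type*) [Field k] [Algebra ℚ k] [Algebra k ℂ] [IsScalarTower ℚ k ℂ]

omit [Algebra k ℂ] [IsScalarTower ℚ k ℂ] in
theorem heckeBetaBar_jNGen (N ℓ : ℕ) [NeZero N] [NeZero ℓ] [NeZero (N * ℓ)] :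
    heckeBetaBar k N ℓ (jNGen k N) = jNGen k (N * ℓ) := by
  apply Subtype.ext
  rw [coe_heckeBetaBar, coe_jNGen, coe_jNGen, jqN, jqN, coeffEmb_qExpand, coeffEmb_qExpand,
    qExpand_qExpand' ℓ N (N * ℓ) (mul_comm N ℓ)]

omit [Algebra k ℂ] [IsScalarTower ℚ k ℂ] in
theorem levelDil_one_heckeBetaBar_jGen {M N : ℕ} [NeZero M] [NeZero N] (ℓ : ℕ) [NeZero ℓ]
    [NeZero (M * ℓ)] [NeZero (N * ℓ)] (h' : 1 * (M * ℓ) ∣ N * ℓ) :
    levelDil k 1 h' (heckeBetaBar k M ℓ (jGen k M)) = heckeBetaBar k N ℓ (jGen k N) := by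
  apply Subtype.ext
  rw [coe_levelDil, coe_heckeBetaBar, coe_heckeBetaBar, qExpand_one_apply]
  rfl

/-- **the span condition for `d = 1`, `M ∣ N`.** -/
theorem span_range_levelDil_one {M N : ℕ} [NeZero M] [NeZero N] (ℓ : ℕ) [NeZero ℓ]
    [NeZero (M * ℓ)] [NeZero (N * ℓ)] (hℓ : ℓ.Prime) (hℓN : ¬ ℓ ∣ N)
    (h' : 1 * (M * ℓ) ∣ N * ℓ) :
    letI := algebraAlong (heckeAlphaBar k N ℓ)
    Submodule.span ↥(keyFq k N) (Set.range (levelDil k 1 h')) = ⊤ := by
  letI a2 := algebraAlong (heckeAlphaBar k N ℓ)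
  have hd2 : Module.finrank ↥(keyFq k N) ↥(keyFq k (N * ℓ)) = ℓ + 1 :=
    finrank_heckeAlphaBar_of_not_dvd k N ℓ hℓ hℓN
  haveI : FiniteDimensional ↥(keyFq k N) ↥(keyFq k (N * ℓ)) :=
    Module.finite_of_finrank_pos (by rw [hd2]; omega)
  obtain ⟨x, y, hbez⟩ := exists_bezout_of_prime_of_not_dvd hℓ hℓN
  set W := atkinLehnerN (algebraMap k ℂ) hbez hℓ with hW
  set φ := levelDil k 1 h' with hφ
  set S : Subalgebra ↥(keyFq k N) ↥(keyFq k (N * ℓ)) := Algebra.adjoin _ (Set.range φ) with hSdef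
  -- `S` as a submodule is the span
  have hS : Subalgebra.toSubmodule S = Submodule.span ↥(keyFq k N) (Set.range φ) := by
    rw [hSdef, Algebra.adjoin_eq_span]
    congr 1
    have h1 := Submonoid.closure_eq (MonoidHom.mrange (φ : ↥(keyFq k (M * ℓ)) →* ↥(keyFq k (N * ℓ))))
    have h2 : ((MonoidHom.mrange (φ : ↥(keyFq k (M * ℓ)) →* ↥(keyFq k (N * ℓ))) :
        Submonoid ↥(keyFq k (N * ℓ))) : Set ↥(keyFq k (N * ℓ))) = Set.range φ := by
      ext z
      simp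
    rw [← h2, h1]
  -- `S` is a subfield
  let H : Subfield ↥(keyFq k (N * ℓ)) :=
    { S.toSubring with
      inv_mem' := fun z hz =>
        Subalgebra.inv_mem_of_algebraic (A := S) (x := ⟨z, hz⟩)
          (Algebra.IsAlgebraic.isAlgebraic (R := ↥(keyFq k N)) z) }
  have hmemH : ∀ z, z ∈ H ↔ z ∈ S := fun z => Iff.rfl
  have hα : ∀ a : ↥(keyFq k N), heckeAlphaBar k N ℓ a ∈ H := fun a => S.algebraMap_mem a
  have hφH : ∀ b : ↥(keyFq k (M * ℓ)), φ b ∈ H := fun b => Algebra.subset_adjoin ⟨b, rfl⟩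
  have hH : H = ⊤ := by
    have hmap : H.map W = ⊤ := by
      refine subfield_eq_top_of_jGen_jNGen_mem k (N * ℓ) (H.map W) ?_ ?_ ?_
      · intro c
        refine ⟨algebraMap k _ c, ?_, atkinLehnerN_algebraMap (algebraMap k ℂ) hbez hℓ c⟩
        have : algebraMap k ↥(keyFq k (N * ℓ)) c = heckeAlphaBar k N ℓ (algebraMap k _ c) :=
          ((heckeAlphaBar k N ℓ).commutes c).symm
        rw [this]
        exact hα _
      · refine ⟨heckeBetaBar k N ℓ (jGen k N), ?_, ?_⟩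
        · rw [← levelDil_one_heckeBetaBar_jGen k ℓ h']
          exact hφH _
        · rw [hW, atkinLehnerN_beta]
          exact heckeAlphaBar_jGen (k := k) (N := N) (ℓ := ℓ)
      · refine ⟨heckeAlphaBar k N ℓ (jNGen k N), hα _, ?_⟩
        rw [hW, atkinLehnerN_alpha]
        exact heckeBetaBar_jNGen k N ℓ
    rw [eq_top_iff]
    intro z _
    have hz : W z ∈ H.map W := by rw [hmap]; trivial
    obtain ⟨y', hy', hyz⟩ := hz
    have := (atkinLehnerN_bijective (algebraMap k ℂ) hbez hℓ).1 hyz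
    rw [← this]
    exact hy'
  rw [← hS, eq_top_iff]
  intro z _
  have hz : z ∈ H := by rw [hH]; trivial
  exact hz

end AL

end Fermat.Agent.MP
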