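import Mathlib
import Fermat.Agent.MP.HECKEU_helper6_Prim
import Fermat.Agent.SS.UNIT_helper6_Place
import Fermat.Agent.JA.CHARTADJ_helper7
import Fermat.Agent.JA.ES_helper4_Main
import Fermat.Agent.GR.ANORM_helper5_Fricke
import Fermat.Agent.JA.G1_helper5_Modular

/-!
# Project MP40 — [HECKE-U] helper6, part 4: the norm of `Δ(ℓτ)/Δ(τ)` to level one is a constant

* `adjoin_jGen_one_eq_top` : `F_1 = k(j)`;
* `exists_eq_algebraMap_of_isIntegral_inv` : an element of `F_1 = k(j)` which is integral over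
  `k[j]` together with its inverse is a nonzero constant;
* `exists_normAlong_deltaRatio_one` : `N_{F_ℓ/F_1}(Δ(ℓτ)/Δ(τ)) ∈ kˣ`.
-/

set_option autoImplicit false
set_option linter.unusedSectionVars false
set_option linter.unusedVariables false
set_option linter.style.haveILetI false
set_option synthInstance.maxHeartbeats 400000

open AlgebraicCurve ModularCurve IntermediateField Polynomial

namespace Fermat.Agent.MP

open Fermat.Agent.X0N Fermat.Agent.JA Fermat.Agent.SS

section LevelOne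

variable (k : Type*) [Field k] [Algebra ℚ k]

theorem divisorExpansions_one_eq : divisorExpansions 1 = {jq} := by
  ext x
  constructor
  · rintro ⟨d, hd0, hd, rfl⟩
    have h1 : d = 1 := Nat.dvd_one.mp hd
    subst h1
    rw [qExpand_one_apply]
    rfl
  · rintro rfl
    exact ⟨1, inferInstance, dvd_rfl, (qExpand_one_apply _).symm⟩

/-- the function field of level one is `k(j)`. -/
theorem adjoin_jGen_one_eq_top : IntermediateField.adjoin k {jGen k 1} = ⊤ := by
  rw [eq_top_iff]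
  intro z _
  have e : laurentBaseChange k (modularFunctionFieldFull 1) = k⟮coeffEmb k jq⟯ := by
    show laurentBaseChange k (IntermediateField.adjoin ℚ (divisorExpansions 1)) = _
    rw [laurentBaseChange_adjoin, divisorExpansions_one_eq, Set.image_singleton]
  have hz : (z : LaurentSeries k) ∈ k⟮coeffEmb k jq⟯ := by
    rw [← e]; exact z.2
  have hlift : ∀ r : ↥(laurentBaseChange k (modularFunctionFieldFull 1)),
      r ∈ k⟮jGen k 1⟯ ↔ (r : LaurentSeries k) ∈ k⟮((jGen k 1 :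
        ↥(laurentBaseChange k (modularFunctionFieldFull 1))) : LaurentSeries k)⟯ := by
    intro r
    rw [← IntermediateField.lift_adjoin_simple, IntermediateField.mem_lift]
  exact (hlift z).mpr hz

end LevelOne

section Const

variable (k : Type*) [Field k] [Algebra ℚ k] [Algebra k ℂ] [IsScalarTower ℚ k ℂ]

set_option maxHeartbeats 800000 in
/-- an element of `F_1 = k(j)` which is integral over `k[j]` together with its inverse is a
nonzero constant. -/
theorem exists_eq_algebraMap_of_isIntegral_inv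
    {z : ↥(laurentBaseChange k (modularFunctionFieldFull 1))}
    (hz : IsIntegral ↥(Algebra.adjoin k {jGen k 1}) z)
    (hz' : IsIntegral ↥(Algebra.adjoin k {jGen k 1}) z⁻¹) (hz0 : z ≠ 0) :
    ∃ c : k, c ≠ 0 ∧ z = algebraMap k _ c := by
  have ht : Transcendental k (jGen k 1) := (jCoordK k 1).trans
  have hK := adjoin_jGen_one_eq_top k
  haveI : IsScalarTower k k ↥(laurentBaseChange k (modularFunctionFieldFull 1)) :=
    IsScalarTower.of_algebraMap_eq (fun x => rfl)
  haveI : IsFractionRing ↥(Algebra.adjoin k {jGen k 1})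
      ↥(laurentBaseChange k (modularFunctionFieldFull 1)) :=
    isFractionRing_adjoin (R := k) (K₁ := k) (jGen k 1) hK
  haveI : IsIntegrallyClosed ↥(Algebra.adjoin k {jGen k 1}) :=
    isIntegrallyClosed_adjoin (R := k) (K₁ := k) (jGen k 1) ht
  obtain ⟨a, ha⟩ := IsIntegrallyClosed.isIntegral_iff.mp hz
  obtain ⟨b, hb⟩ := IsIntegrallyClosed.isIntegral_iff.mp hz'
  have hab : a * b = 1 := by
    apply Subtype.ext
    have h1 : ((a * b : ↥(Algebra.adjoin k {jGen k 1})) :
        ↥(laurentBaseChange k (modularFunctionFieldFull 1))) = z * z⁻¹ := by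
      have h0 : ((a * b : ↥(Algebra.adjoin k {jGen k 1})) :
          ↥(laurentBaseChange k (modularFunctionFieldFull 1))) =
          algebraMap ↥(Algebra.adjoin k {jGen k 1}) _ a *
            algebraMap ↥(Algebra.adjoin k {jGen k 1}) _ b := rfl
      rw [h0, ha, hb]
    rw [h1, mul_inv_cancel₀ hz0]
    rfl
  set e := adjoinPolyEquiv (R := k) (K₁ := k) (jGen k 1) ht with he
  have hu : IsUnit (e.symm a) := by
    refine IsUnit.of_mul_eq_one (e.symm b) ?_
    rw [← map_mul, hab, map_one]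
  obtain ⟨r, hr, hrC⟩ := Polynomial.isUnit_iff.mp hu
  refine ⟨r, hr.ne_zero, ?_⟩
  have h2 : a = e (C r) := by rw [hrC, AlgEquiv.apply_symm_apply]
  rw [← ha, h2]
  have h3 : e (C r) = algebraMap k ↥(Algebra.adjoin k {jGen k 1}) r := by
    rw [← Polynomial.algebraMap_eq, AlgEquiv.commutes]
  rw [h3]
  rfl

set_option maxHeartbeats 1600000 in
/-- integrality over `k[j] ⊆ F_{1ℓ}` is integrality over `k[j] ⊆ F_1` acting through `α_ℓ`. -/
theorem isIntegral_adjoin_jGen_one_of_isIntegral (ℓ : ℕ) [NeZero ℓ] [NeZero (1 * ℓ)]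
    {x : ↥(laurentBaseChange k (modularFunctionFieldFull (1 * ℓ)))}
    (hx : IsIntegral ↥(Algebra.adjoin k {jGen k (1 * ℓ)}) x) :
    letI := algebraAlong (heckeAlphaBar k 1 ℓ)
    IsIntegral ↥(Algebra.adjoin k {jGen k 1}) x := by
  letI a1 := algebraAlong (heckeAlphaBar k 1 ℓ)
  have h1 : (Algebra.adjoin k {jGen k 1}).map (heckeAlphaBar k 1 ℓ) =
      Algebra.adjoin k {jGen k (1 * ℓ)} := by
    rw [AlgHom.map_adjoin, Set.image_singleton, heckeAlphaBar_jGen]
  have hmap : ∀ r : ↥(Algebra.adjoin k {jGen k 1}),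
      ((heckeAlphaBar k 1 ℓ).comp (Algebra.adjoin k {jGen k 1}).val) r ∈
        Algebra.adjoin k {jGen k (1 * ℓ)} := by
    intro r
    rw [← h1]
    exact ⟨r, r.2, rfl⟩
  let ψ : ↥(Algebra.adjoin k {jGen k 1}) →ₐ[k] ↥(Algebra.adjoin k {jGen k (1 * ℓ)}) :=
    ((heckeAlphaBar k 1 ℓ).comp (Algebra.adjoin k {jGen k 1}).val).codRestrict _ hmap
  have hsurj : Function.Surjective ψ := by
    rintro ⟨s, hs⟩
    rw [← h1] at hs
    obtain ⟨r, hr, rfl⟩ := hs
    exact ⟨⟨r, hr⟩, Subtype.ext rfl⟩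
  letI aS : Algebra ↥(Algebra.adjoin k {jGen k 1}) ↥(Algebra.adjoin k {jGen k (1 * ℓ)}) :=
    ψ.toRingHom.toAlgebra
  haveI : IsScalarTower ↥(Algebra.adjoin k {jGen k 1}) ↥(Algebra.adjoin k {jGen k (1 * ℓ)})
      ↥(laurentBaseChange k (modularFunctionFieldFull (1 * ℓ))) :=
    IsScalarTower.of_algebraMap_eq (fun r => rfl)
  haveI : Algebra.IsIntegral ↥(Algebra.adjoin k {jGen k 1})
      ↥(Algebra.adjoin k {jGen k (1 * ℓ)}) := Algebra.isIntegral_of_surjective hsurj
  exact isIntegral_trans x hx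

set_option maxHeartbeats 1600000 in
/-- **the norm of `Δ(ℓτ)/Δ(τ)` from `F_ℓ` to `F_1 = k(j)` is a nonzero constant.** -/
theorem exists_normAlong_deltaRatio_one (ℓ : ℕ) [NeZero ℓ] [NeZero (1 * ℓ)] (hℓ : ℓ.Prime) :
    ∃ c : k, c ≠ 0 ∧
      normAlong (heckeAlphaBar k 1 ℓ)
        (deltaRatio ℓ 1 k (1 * ℓ) (Dvd.intro_left 1 rfl) (one_dvd _)) = algebraMap k _ c := by
  haveI : CharZero k := algebraRat.charZero k
  letI : Algebra (AlgebraicClosure k) ℂ :=
    ((IsAlgClosed.lift : AlgebraicClosure k →ₐ[k] ℂ) : AlgebraicClosure k →+* ℂ).toAlgebra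
  haveI : IsScalarTower ℚ k (AlgebraicClosure k) :=
    IsScalarTower.of_algebraMap_eq fun r => by
      simp only [eq_ratCast, map_ratCast]
  haveI : IsScalarTower ℚ (AlgebraicClosure k) ℂ :=
    IsScalarTower.of_algebraMap_eq fun r => by
      simp only [eq_ratCast, map_ratCast]
  letI a1 := algebraAlong (heckeAlphaBar k 1 ℓ)
  have hℓ1 : ¬ ℓ ∣ 1 := fun h => hℓ.one_lt.ne' (Nat.dvd_one.mp h)
  have hd1 : Module.finrank ↥(laurentBaseChange k (modularFunctionFieldFull 1))
      ↥(laurentBaseChange k (modularFunctionFieldFull (1 * ℓ))) = ℓ + 1 := by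
    have h := finrankAlong_heckeAlphaBar (k := k) 1 ℓ hℓ
    rw [if_neg hℓ1] at h
    exact h
  haveI : FiniteDimensional ↥(laurentBaseChange k (modularFunctionFieldFull 1))
      ↥(laurentBaseChange k (modularFunctionFieldFull (1 * ℓ))) :=
    Module.finite_of_finrank_pos (by rw [hd1]; omega)
  have hD : IsIntegral ↥(Algebra.adjoin k {jGen k (1 * ℓ)})
      (deltaRatio ℓ 1 k (1 * ℓ) (Dvd.intro_left 1 rfl) (one_dvd _)) :=
    isIntegral_deltaRatio ℓ 1 (AlgebraicClosure k) _ _
  have hD' : IsIntegral ↥(Algebra.adjoin k {jGen k (1 * ℓ)})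
      (deltaRatio ℓ 1 k (1 * ℓ) (Dvd.intro_left 1 rfl) (one_dvd _))⁻¹ := by
    rw [deltaRatio_inv]
    exact isIntegral_deltaRatio 1 ℓ (AlgebraicClosure k) _ _
  have k1 : IsIntegral ↥(Algebra.adjoin k {jGen k 1})
      (deltaRatio ℓ 1 k (1 * ℓ) (Dvd.intro_left 1 rfl) (one_dvd _)) :=
    isIntegral_adjoin_jGen_one_of_isIntegral k ℓ hD
  have k2 : IsIntegral ↥(Algebra.adjoin k {jGen k 1})
      (deltaRatio ℓ 1 k (1 * ℓ) (Dvd.intro_left 1 rfl) (one_dvd _))⁻¹ :=
    isIntegral_adjoin_jGen_one_of_isIntegral k ℓ hD'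
  have h1 := Algebra.isIntegral_norm ↥(laurentBaseChange k (modularFunctionFieldFull 1)) k1
  have h2 := Algebra.isIntegral_norm ↥(laurentBaseChange k (modularFunctionFieldFull 1)) k2
  have hinv : Algebra.norm ↥(laurentBaseChange k (modularFunctionFieldFull 1))
      (deltaRatio ℓ 1 k (1 * ℓ) (Dvd.intro_left 1 rfl) (one_dvd _))⁻¹ =
      (Algebra.norm ↥(laurentBaseChange k (modularFunctionFieldFull 1))
        (deltaRatio ℓ 1 k (1 * ℓ) (Dvd.intro_left 1 rfl) (one_dvd _)))⁻¹ := by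
    apply eq_inv_of_mul_eq_one_right
    rw [← map_mul, mul_inv_cancel₀ (deltaRatio_ne_zero ℓ 1 k (1 * ℓ) _ _), map_one]
  rw [hinv] at h2
  have hne : Algebra.norm ↥(laurentBaseChange k (modularFunctionFieldFull 1))
      (deltaRatio ℓ 1 k (1 * ℓ) (Dvd.intro_left 1 rfl) (one_dvd _)) ≠ 0 :=
    Algebra.norm_ne_zero_iff.mpr (deltaRatio_ne_zero ℓ 1 k (1 * ℓ) _ _)
  exact exists_eq_algebraMap_of_isIntegral_inv k h1 h2 hne

end Const

end Fermat.Agent.MP
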