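import Mathlib
import Fermat.Agent.MP.HECKEU_helper6_AL
import Fermat.Agent.MP.HECKEU_helper6_Const
import Fermat.Agent.SS.UNIT_helper6_Fricke
import Fermat.Agent.SS.UNIT_helper6_Gauss
import Fermat.Agent.NP.BASEP_helper2_DegGen

/-!
# Project MP40 — [HECKE-U] helper6: `T_ℓ U = U ^ (ℓ + 1)` for the modular unit `U = Δ(τ)/Δ(pτ)`

For a field `ℚ ⊆ k ⊆ ℂ`, `p ∣ N` and a prime `ℓ ∤ N`, the (multiplicative) Hecke operator
`T_ℓ = N_{α_ℓ} ∘ β_ℓ` of the function field of `X₀(N)` over `k` satisfies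

  `T_ℓ U = U ^ (ℓ + 1)`,   `U = modUnit k N p = Δ(τ)/Δ(pτ)`.

Proof: `β_ℓ U = Δ(ℓτ)/Δ(pℓτ) = D · α_ℓ U · D'⁻¹`, `D = Δ(ℓτ)/Δ(τ)`, `D' = Δ(pℓτ)/Δ(pτ)`; the norm of
`D` comes from level one, where it is a constant `c₀` (a unit of `k[j]`), and `D'` is the dilation
by `p` of `D` at the level `(N/p)ℓ`, so its norm is `c₀` too.

* `exists_normAlong_deltaRatio` : the constant `c₀` and the norm of `D` at every level;
* `heckeFunK_modUnit` : the statement at the level `M p`;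
* `heckeFunK_modUnit_of_dvd` : the statement at a level `N` with `p ∣ N`;
* `legHeckeP_fullToLegE_modUnit` : the statement on the Legendre host over a subfield of `ℚ̄`.
-/

set_option autoImplicit false
set_option linter.unusedSectionVars false
set_option linter.unusedVariables false
set_option linter.style.haveILetI false
set_option synthInstance.maxHeartbeats 400000

open AlgebraicCurve ModularCurve IntermediateField

namespace Fermat.Agent.MP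

open Fermat.Agent.X0N Fermat.Agent.JA Fermat.Agent.SS Fermat.Agent.S35 Fermat.Agent.NP

section Series

theorem deltaSeriesN_congr {a b : ℕ} [NeZero a] [NeZero b] (h : a = b) :
    deltaSeriesN a = deltaSeriesN b := by
  subst h
  rfl

/-- `Δ(ℓτ)/Δ(ℓpτ) = Δ(ℓτ)/Δ(τ) · Δ(τ)/Δ(pτ) · (Δ(pℓτ)/Δ(pτ))⁻¹`. -/
theorem deltaRatioSeries_decomp (p ℓ : ℕ) [NeZero p] [NeZero ℓ] [NeZero (ℓ * 1)] [NeZero (ℓ * p)]
    [NeZero (p * ℓ)] [NeZero (p * 1)] :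
    deltaRatioSeries (ℓ * 1) (ℓ * p) =
      deltaRatioSeries ℓ 1 * deltaRatioSeries 1 p * (deltaRatioSeries (p * ℓ) (p * 1))⁻¹ := by
  have e1 : deltaSeriesN (ℓ * 1) = deltaSeriesN ℓ := deltaSeriesN_congr (mul_one ℓ)
  have e2 : deltaSeriesN (ℓ * p) = deltaSeriesN (p * ℓ) := deltaSeriesN_congr (mul_comm ℓ p)
  have e3 : deltaSeriesN (p * 1) = deltaSeriesN p := deltaSeriesN_congr (mul_one p)
  have h1 := deltaSeriesN_ne_zero ℓ
  have h2 := deltaSeriesN_ne_zero p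
  have h3 := deltaSeriesN_ne_zero (p * ℓ)
  have h4 := deltaSeriesN_ne_zero 1
  simp only [deltaRatioSeries, e1, e2, e3]
  field_simp

end Series

section Main

variable (k : Type*) [Field k] [Algebra ℚ k] [Algebra k ℂ] [IsScalarTower ℚ k ℂ]

/-- **the norm of `D = Δ(ℓτ)/Δ(τ)` along `α_ℓ` is the same nonzero constant at every level
`N` prime to `ℓ`.** -/
theorem exists_normAlong_deltaRatio (ℓ : ℕ) [NeZero ℓ] (hℓ : ℓ.Prime) :
    ∃ c : k, c ≠ 0 ∧ ∀ (N : ℕ) [NeZero N] [NeZero (N * ℓ)], ¬ ℓ ∣ N →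
      normAlong (heckeAlphaBar k N ℓ)
        (deltaRatio ℓ 1 k (N * ℓ) (Dvd.intro_left N rfl) (one_dvd _)) = algebraMap k _ c := by
  haveI : NeZero (1 * ℓ) := ⟨by rw [one_mul]; exact NeZero.ne ℓ⟩
  obtain ⟨c, hc, hc1⟩ := exists_normAlong_deltaRatio_one k ℓ hℓ
  refine ⟨c, hc, ?_⟩
  intro N _ _ hℓN
  have h : 1 * 1 ∣ N := by rw [one_mul]; exact one_dvd N
  have h' : 1 * (1 * ℓ) ∣ N * ℓ := by rw [one_mul, one_mul]; exact dvd_mul_left ℓ N
  have hspan := span_range_levelDil_one k ℓ hℓ hℓN h'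
  have key := normAlong_levelDil k 1 ℓ hℓ hℓN h h' hspan
    (deltaRatio ℓ 1 k (1 * ℓ) (Dvd.intro_left 1 rfl) (one_dvd _))
  have e1 : levelDil k 1 h' (deltaRatio ℓ 1 k (1 * ℓ) (Dvd.intro_left 1 rfl) (one_dvd _)) =
      deltaRatio ℓ 1 k (N * ℓ) (Dvd.intro_left N rfl) (one_dvd _) := by
    apply Subtype.ext
    rw [coe_levelDil, coe_deltaRatio, coe_deltaRatio, qExpand_one_apply]
  rw [e1, hc1, AlgHom.commutes] at key
  exact key

/-- the norm of `D' = Δ(pℓτ)/Δ(pτ)` at the level `M p`. -/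
theorem normAlong_deltaRatio_dil {c : k}
    (ℓ : ℕ) [NeZero ℓ] (hℓ : ℓ.Prime)
    (hc : ∀ (N : ℕ) [NeZero N] [NeZero (N * ℓ)], ¬ ℓ ∣ N →
      normAlong (heckeAlphaBar k N ℓ)
        (deltaRatio ℓ 1 k (N * ℓ) (Dvd.intro_left N rfl) (one_dvd _)) = algebraMap k _ c)
    (M p : ℕ) [NeZero M] [NeZero p] [NeZero (M * p)] [NeZero (M * ℓ)] [NeZero (M * p * ℓ)]
    [NeZero (p * ℓ)] [NeZero (p * 1)] (hℓN : ¬ ℓ ∣ M * p)
    (h1 : p * ℓ ∣ M * p * ℓ) (h2 : p * 1 ∣ M * p * ℓ) :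
    normAlong (heckeAlphaBar k (M * p) ℓ) (deltaRatio (p * ℓ) (p * 1) k (M * p * ℓ) h1 h2) =
      algebraMap k _ c := by
  have hℓM : ¬ ℓ ∣ M := fun hd => hℓN (dvd_mul_of_dvd_left hd p)
  have h : p * M ∣ M * p := by rw [mul_comm]
  have h' : p * (M * ℓ) ∣ M * p * ℓ := by
    have : p * (M * ℓ) = M * p * ℓ := by ring
    rw [this]
  have hspan := span_range_levelDil_self k p M ℓ h'
  have key := normAlong_levelDil k p ℓ hℓ hℓN h h' hspan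
    (deltaRatio ℓ 1 k (M * ℓ) (Dvd.intro_left M rfl) (one_dvd _))
  have e1 : levelDil k p h' (deltaRatio ℓ 1 k (M * ℓ) (Dvd.intro_left M rfl) (one_dvd _)) =
      deltaRatio (p * ℓ) (p * 1) k (M * p * ℓ) h1 h2 := by
    apply Subtype.ext
    rw [coe_levelDil, coe_deltaRatio, coe_deltaRatio, qExpand_coeffEmb_deltaRatioSeries]
  rw [e1, hc M hℓM, AlgHom.commutes] at key
  exact key

set_option maxHeartbeats 800000 in
/-- **[HECKE-U]** `T_ℓ U = U ^ (ℓ + 1)` for the modular unit `U = Δ(τ)/Δ(pτ)` of level `M p`,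
`ℓ ∤ M p` prime. -/
theorem heckeFunK_modUnit (M p ℓ : ℕ) [NeZero M] [NeZero p] [NeZero ℓ] [NeZero (M * p)]
    [NeZero (M * p * ℓ)] (hℓ : ℓ.Prime) (hℓN : ¬ ℓ ∣ M * p) :
    heckeFunK k (M * p) ℓ (modUnit k (M * p) p (Dvd.intro_left M rfl)) =
      modUnit k (M * p) p (Dvd.intro_left M rfl) ^ (ℓ + 1) := by
  haveI : NeZero (M * ℓ) := ⟨mul_ne_zero (NeZero.ne M) (NeZero.ne ℓ)⟩
  haveI : NeZero (p * ℓ) := ⟨mul_ne_zero (NeZero.ne p) (NeZero.ne ℓ)⟩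
  haveI : NeZero (p * 1) := ⟨mul_ne_zero (NeZero.ne p) one_ne_zero⟩
  haveI : NeZero (ℓ * 1) := ⟨mul_ne_zero (NeZero.ne ℓ) one_ne_zero⟩
  haveI : NeZero (ℓ * p) := ⟨mul_ne_zero (NeZero.ne ℓ) (NeZero.ne p)⟩
  obtain ⟨c, hc0, hc⟩ := exists_normAlong_deltaRatio k ℓ hℓ
  have h1 : p * ℓ ∣ M * p * ℓ := ⟨M, by ring⟩
  have h2 : p * 1 ∣ M * p * ℓ := ⟨M * ℓ, by ring⟩
  have hD := hc (M * p) hℓN
  have hD' := normAlong_deltaRatio_dil k ℓ hℓ hc M p hℓN h1 h2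
  -- the decomposition of `β_ℓ U`
  have hβ : heckeBetaBar k (M * p) ℓ (modUnit k (M * p) p (Dvd.intro_left M rfl)) =
      deltaRatio ℓ 1 k (M * p * ℓ) (Dvd.intro_left (M * p) rfl) (one_dvd _) *
        heckeAlphaBar k (M * p) ℓ (modUnit k (M * p) p (Dvd.intro_left M rfl)) *
        (deltaRatio (p * ℓ) (p * 1) k (M * p * ℓ) h1 h2)⁻¹ := by
    rw [modUnit, heckeBetaBar_deltaRatio, heckeAlphaBar_deltaRatio]
    apply Subtype.ext
    push_cast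
    rw [coe_deltaRatio, coe_deltaRatio, coe_deltaRatio, coe_deltaRatio, deltaRatioSeries_decomp p ℓ,
      map_mul, map_mul, map_inv₀]
  -- norms
  letI a2 := algebraAlong (heckeAlphaBar k (M * p) ℓ)
  have hd2 : Module.finrank ↥(keyFq k (M * p)) ↥(keyFq k (M * p * ℓ)) = ℓ + 1 :=
    finrank_heckeAlphaBar_of_not_dvd k (M * p) ℓ hℓ hℓN
  have hα : Algebra.norm ↥(keyFq k (M * p))
      (heckeAlphaBar k (M * p) ℓ (modUnit k (M * p) p (Dvd.intro_left M rfl))) =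
      modUnit k (M * p) p (Dvd.intro_left M rfl) ^ (ℓ + 1) := by
    have := Algebra.norm_algebraMap (S := ↥(keyFq k (M * p * ℓ)))
      (modUnit k (M * p) p (Dvd.intro_left M rfl))
    rw [hd2] at this
    exact this
  have hD2 : Algebra.norm ↥(keyFq k (M * p))
      (deltaRatio ℓ 1 k (M * p * ℓ) (Dvd.intro_left (M * p) rfl) (one_dvd _)) =
      algebraMap k _ c := hD
  have hD'2 : Algebra.norm ↥(keyFq k (M * p))
      (deltaRatio (p * ℓ) (p * 1) k (M * p * ℓ) h1 h2) = algebraMap k _ c := hD'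
  have hinv : Algebra.norm ↥(keyFq k (M * p))
      (deltaRatio (p * ℓ) (p * 1) k (M * p * ℓ) h1 h2)⁻¹ = (algebraMap k _ c)⁻¹ := by
    apply eq_inv_of_mul_eq_one_right
    rw [← hD'2, ← map_mul, mul_inv_cancel₀ (deltaRatio_ne_zero _ _ k _ _ _), map_one]
  have hcne : algebraMap k ↥(keyFq k (M * p)) c ≠ 0 := (_root_.map_ne_zero _).mpr hc0
  show Algebra.norm ↥(keyFq k (M * p))
    (heckeBetaBar k (M * p) ℓ (modUnit k (M * p) p (Dvd.intro_left M rfl))) = _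
  rw [hβ, map_mul, map_mul, hα, hD2, hinv]
  field_simp

/-- **[HECKE-U]** at a level `N` with `p ∣ N`. -/
theorem heckeFunK_modUnit_of_dvd (N p ℓ : ℕ) [NeZero N] [NeZero p] [NeZero ℓ] [NeZero (N * ℓ)]
    (hp : p ∣ N) (hℓ : ℓ.Prime) (hℓN : ¬ ℓ ∣ N) :
    heckeFunK k N ℓ (modUnit k N p hp) = modUnit k N p hp ^ (ℓ + 1) := by
  obtain ⟨M, rfl⟩ : ∃ M, N = M * p := by
    obtain ⟨M, hM⟩ := hp
    exact ⟨M, by rw [hM, mul_comm]⟩
  haveI : NeZero M := ⟨fun h0 => NeZero.ne (M * p) (by rw [h0, zero_mul])⟩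
  exact heckeFunK_modUnit k M p ℓ hℓ hℓN

end Main

section Host

/-- `Ω = AlgebraicClosure ℚ`. -/
local notation "Ω" => AlgebraicClosure ℚ

/-- **[HECKE-U] on the Legendre host**, over every subfield of `ℚ̄`. -/
theorem legHeckeP_fullToLegE_modUnit (M p ℓ : ℕ) [NeZero M] [NeZero p] [NeZero ℓ] [NeZero (M * p)]
    [NeZero (M * p * ℓ)] (hℓ : ℓ.Prime) (hℓ2 : ℓ ≠ 2) (hℓN : ¬ ℓ ∣ M * p)
    (K₁ : IntermediateField ℚ Ω) :
    legHeckeP ↥K₁ (M * p) ℓ hℓ hℓ2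
        (fullToLegE ↥K₁ (M * p) (modUnit ↥K₁ (M * p) p (Dvd.intro_left M rfl))) =
      fullToLegE ↥K₁ (M * p) (modUnit ↥K₁ (M * p) p (Dvd.intro_left M rfl)) ^ (ℓ + 1) := by
  letI := baseToComplex K₁
  rw [legHeckeP_fullToLegE_base (M * p) ℓ hℓ hℓ2 hℓN K₁, heckeFunK_modUnit ↥K₁ M p ℓ hℓ hℓN,
    map_pow]

end Host

end Fermat.Agent.MP
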