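/-
MP40 (row 38: S44 / S40) — helper4 — **[KEYPEU-DEEP], the primed Theorem B**: the copies of
`NP.isKummerOnChart_of_place_of_depth`, `NP.SSModel.kummer_inertia_pow_p` and
`NP.kummer_base_p_of_ssModel` in which `g` is a unit along `W_∞` but only
`g π ^ (-p j)` is a unit along `W_0` (`j : ℤ`).  The engine `NP.kummer_inertia_pow_p_of_model`
only uses `IsKummerOnChart`, whose clause `zero` allows the twist by `π ^ (p j)`.
-/
import Mathlib
import Fermat.Agent.NP.BASEP_helper5_Gen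

set_option autoImplicit false
set_option linter.unusedSectionVars false
set_option linter.unusedVariables false
set_option linter.style.haveILetI false

open HahnSeries IntermediateField AlgebraicCurve ModularCurve Fermat.Agent.Igusa

namespace Fermat.Agent.MP

open Fermat.Agent.JA Fermat.Agent.FF Fermat.Agent.SS Fermat.Agent.NP

/-- `Ω = AlgebraicClosure ℚ`. -/
local notation "Ω" => AlgebraicClosure ℚ

/-- the absolute Galois group. -/
local notation "GQ" => (AlgebraicClosure ℚ ≃ₐ[ℚ] AlgebraicClosure ℚ)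

section Place

variable {R : Type*} [CommRing R] [IsDomain R] [IsDiscreteValuationRing R]
  [CharZero R] {K₁ : Type*} [Field K₁] [Algebra R K₁]
  [IsFractionRing R K₁] {K : Type*} [Field K] [Algebra K₁ K] [Algebra R K] [IsScalarTower R K₁ K]
  {F : Type*} [Field F] [Algebra K F] [Algebra K₁ F] [IsScalarTower K₁ K F] [Algebra R F]
  [IsScalarTower R K F] [FiniteDimensional K F]

/-- **`IsKummerOnChart … p g` from the places, the depth along `𝔭∞`, `g` a unit along `𝔭∞` and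
`g π ^ (-p j)` a unit along `𝔭0`.** -/
theorem isKummerOnChart_of_place_of_depth'
    (t : K) (ht : Transcendental K₁ t) (hK : IntermediateField.adjoin K₁ {t} = ⊤)
    {π : R} (hπ : Irreducible π) {p : ℕ} (hp : p.Prime) {e₁ : ℕ} (he₁ : 0 < e₁) {ε : Rˣ}
    (hpe : (p : R) = ε * π ^ e₁) (hAC : ResAlgClosed π)
    {𝔭inf 𝔭0 : Ideal ↥(chartOne R F t)} (hmod : IsModelChart F π 𝔭inf 𝔭0)
    {g : F} (hg : g ≠ 0)
    (hord : ∀ P : Place K₁ F, P.ord g = 0 ∨ (IsRationalPlace P ∧ (p : ℤ) ∣ P.ord g))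
    (huinf : IsUnitAtPrime 𝔭inf g) (jz : ℤ)
    (hu0 : IsUnitAtPrime 𝔭0
      (g * (algebraMap ↥(chartOne R F t) F (algebraMap R ↥(chartOne R F t) π) ^
        ((p : ℤ) * jz))⁻¹))
    {c : K₁} (hc : c ≠ 0) {N : ℕ} (hN : 1 ≤ N)
    (hd : ChartDepth (chartOne R F t) π p 𝔭inf N g (algebraMap K₁ F c)) :
    IsKummerOnChart π 𝔭inf 𝔭0 p g := by
  haveI : IsScalarTower R K₁ F := isScalarTower_base_const R K₁ K F
  haveI : IsIntegrallyClosed ↥(chartOne R F t) := isIntegrallyClosed_chartOne (K₁ := K₁) t hK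
  haveI : IsNoetherianRing ↥(chartOne R F t) := isNoetherianRing_chartOne (K₁ := K₁) t ht hK
  haveI : IsFractionRing ↥(chartOne R F t) F := isFractionRing_chartOne (K₁ := K₁) t hK
  haveI := hmod.isPrime_inf
  refine ⟨?_, ?_, ⟨jz, hu0⟩⟩
  · intro 𝔪 h𝔪 hπ𝔪 𝔮 h𝔮 hht hπ𝔮 hle
    haveI := h𝔪
    haveI := h𝔮
    exact isKummerAtPrime_of_place (K₁ := K₁) hπ 𝔪 hπ𝔪 𝔮 hht hπ𝔮 hle hg (fun P _ _ => hord P)
  · exact exists_pow_datum_of_chartDepth (K₁ := K₁) hπ hp he₁ hpe hAC 𝔭inf hmod.mem_inf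
      (IsModelChart.hloc_inf hmod) huinf hc hN hd

end Place

section Model

variable {R : Type*} [CommRing R] [IsDomain R] [IsDiscreteValuationRing R] [CharZero R]
  {K₁ : Type*} [Field K₁] [Algebra R K₁] [IsFractionRing R K₁]
  {KM : Type*} [Field KM] [Algebra K₁ KM] [Algebra R KM] [IsScalarTower R K₁ KM]
  {EM : Type*} [Field EM] [Algebra KM EM] [Algebra K₁ EM] [IsScalarTower K₁ KM EM] [Algebra R EM]
  [IsScalarTower R KM EM]
  {KN : Type*} [Field KN] [Algebra K₁ KN] [Algebra R KN] [IsScalarTower R K₁ KN]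
  {EN : Type*} [Field EN] [Algebra KN EN] [Algebra K₁ EN] [IsScalarTower K₁ KN EN] [Algebra R EN]
  [IsScalarTower R KN EN] [FiniteDimensional KN EN]
  {π : R} {q n : ℕ} {S : Finset R} {t : KM} {jM : EM} {j : KN} {A B : EM →+* EN}
  {VM : ValuationSubring EM} {Winf W0 : ValuationSubring EN}

/-- **Theorem B on an `SSModel`, primed**: `g` a unit along `W_∞`, `g π ^ (-p j)` a unit along
`W_0`. -/
theorem SSModel.kummer_inertia_pow_p' [IsAlgClosed (IsLocalRing.ResidueField R)]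
    (h : SSModel K₁ π q n S t jM j A B VM Winf W0) (hπ : Irreducible π)
    (hjint : IsIntegral ↥(Algebra.adjoin R {B jM}) (A jM))
    {p : ℕ} (hp : p.Prime) {e₁ : ℕ} (he₁ : 0 < e₁) {ε : Rˣ} (hpe : (p : R) = ε * π ^ e₁)
    (ζ : R) (hζ : IsPrimitiveRoot ζ p)
    (a : ℕ) (σ : EN →+* EN) (hσ : SSModelAut π j Winf W0 σ)
    (hσζ : σ (algebraMap R EN ζ) = algebraMap R EN ζ ^ a)
    (hσK : ∀ c : K₁, ∃ c' : K₁, σ (algebraMap K₁ EN c) = algebraMap K₁ EN c')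
    (g : EN) (hg : g ≠ 0)
    (hord : ∀ P : Place K₁ EN, P.ord g = 0 ∨ (IsRationalPlace P ∧ (p : ℤ) ∣ P.ord g))
    (hginf : Winf.valuation g = 1) (jz : ℤ)
    (hg0 : W0.valuation (g * (algebraMap R EN π ^ ((p : ℤ) * jz))⁻¹) = 1)
    {N : ℕ} (hN : e₁ * p < N * (p - 1)) (cinf c0 : K₁) (hcinf : cinf ≠ 0) (hc0 : c0 ≠ 0)
    (hdinf : ValDepth π p Winf N g cinf) (hd0 : ValDepth π p W0 N g c0) :
    ∃ (c : K₁) (u : EN), c ≠ 0 ∧ σ g / g ^ a = algebraMap K₁ EN c * u ^ p := by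
  have hu := h.j_transcendental
  have hK := h.j_adjoin
  have hu' := transcendental_inv_of_transcendental hu
  have hK' := adjoin_inv_eq_top hK
  have h2 : IsTwoSheet π j⁻¹ Winf W0 := h.two.inv hπ
  have hmod₁ := h.isModelChart_one hπ
  have hmod₂ := h.isModelChart_two hπ hjint h2
  have hAC : ResAlgClosed π := resAlgClosed_of_isAlgClosed hπ
  haveI : IsScalarTower R K₁ EN := isScalarTower_base_const R K₁ KN EN
  haveI : IsNoetherianRing ↥(chartOne R EN j) := isNoetherianRing_chartOne (K₁ := K₁) j hu hK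
  haveI : IsFractionRing ↥(chartOne R EN j) EN := isFractionRing_chartOne (K₁ := K₁) j hK
  haveI : IsNoetherianRing ↥(chartOne R EN j⁻¹) :=
    isNoetherianRing_chartOne (K₁ := K₁) j⁻¹ hu' hK'
  haveI : IsFractionRing ↥(chartOne R EN j⁻¹) EN := isFractionRing_chartOne (K₁ := K₁) j⁻¹ hK'
  have hN1 : 1 ≤ N := by
    rcases Nat.eq_zero_or_pos N with h0 | h0
    · rw [h0, zero_mul] at hN
      exact absurd hN (Nat.not_lt_zero _)
    · exact h0
  -- the four (chart, sheet) pairs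
  have hd₁i := chartDepth_of_valDepth (K₁ := K₁) (B := chartOne R EN j)
    (𝔭 := sheetIdeal j Winf h.two.chart_le_inf) Winf (fun b => h.two.chart_le_inf b b.2)
    (fun b => mem_sheetIdeal_iff j Winf h.two.chart_le_inf b) hmod₁.mem_inf
    (IsModelChart.hloc_inf hmod₁) hcinf hdinf
  have hd₁z := chartDepth_of_valDepth (K₁ := K₁) (B := chartOne R EN j)
    (𝔭 := sheetIdeal j W0 h.two.chart_le_zero) W0 (fun b => h.two.chart_le_zero b b.2)
    (fun b => mem_sheetIdeal_iff j W0 h.two.chart_le_zero b) hmod₁.mem_zero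
    (IsModelChart.hloc_zero hmod₁) hc0 hd0
  have hd₂i := chartDepth_of_valDepth (K₁ := K₁) (B := chartOne R EN j⁻¹)
    (𝔭 := sheetIdeal j⁻¹ Winf h2.chart_le_inf) Winf (fun b => h2.chart_le_inf b b.2)
    (fun b => mem_sheetIdeal_iff j⁻¹ Winf h2.chart_le_inf b) hmod₂.mem_inf
    (IsModelChart.hloc_inf hmod₂) hcinf hdinf
  have hd₂z := chartDepth_of_valDepth (K₁ := K₁) (B := chartOne R EN j⁻¹)
    (𝔭 := sheetIdeal j⁻¹ W0 h2.chart_le_zero) W0 (fun b => h2.chart_le_zero b b.2)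
    (fun b => mem_sheetIdeal_iff j⁻¹ W0 h2.chart_le_zero b) hmod₂.mem_zero
    (IsModelChart.hloc_zero hmod₂) hc0 hd0
  have hu₁i := isUnitAtPrime_of_valuationSubring_eq_one (B := chartOne R EN j)
    (𝔭 := sheetIdeal j Winf h.two.chart_le_inf) Winf (fun b => h.two.chart_le_inf b b.2)
    (fun b => mem_sheetIdeal_iff j Winf h.two.chart_le_inf b) hmod₁.mem_inf
    (IsModelChart.hloc_inf hmod₁) hginf
  have hu₁z := isUnitAtPrime_of_valuationSubring_eq_one (B := chartOne R EN j)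
    (𝔭 := sheetIdeal j W0 h.two.chart_le_zero) W0 (fun b => h.two.chart_le_zero b b.2)
    (fun b => mem_sheetIdeal_iff j W0 h.two.chart_le_zero b) hmod₁.mem_zero
    (IsModelChart.hloc_zero hmod₁) hg0
  have hu₂i := isUnitAtPrime_of_valuationSubring_eq_one (B := chartOne R EN j⁻¹)
    (𝔭 := sheetIdeal j⁻¹ Winf h2.chart_le_inf) Winf (fun b => h2.chart_le_inf b b.2)
    (fun b => mem_sheetIdeal_iff j⁻¹ Winf h2.chart_le_inf b) hmod₂.mem_inf
    (IsModelChart.hloc_inf hmod₂) hginf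
  have hu₂z := isUnitAtPrime_of_valuationSubring_eq_one (B := chartOne R EN j⁻¹)
    (𝔭 := sheetIdeal j⁻¹ W0 h2.chart_le_zero) W0 (fun b => h2.chart_le_zero b b.2)
    (fun b => mem_sheetIdeal_iff j⁻¹ W0 h2.chart_le_zero b) hmod₂.mem_zero
    (IsModelChart.hloc_zero hmod₂) hg0
  have hk₁ := isKummerOnChart_of_place_of_depth' (K₁ := K₁) j hu hK hπ hp he₁ hpe hAC hmod₁ hg
    hord hu₁i jz hu₁z hcinf hN1 hd₁i
  have hk₂ := isKummerOnChart_of_place_of_depth' (K₁ := K₁) j⁻¹ hu' hK' hπ hp he₁ hpe hAC hmod₂ hg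
    hord hu₂i jz hu₂z hcinf hN1 hd₂i
  exact kummer_inertia_pow_p_of_model (K₁ := K₁) j hu hK π hπ hp he₁ hpe ζ hζ h.const hmod₁ hmod₂
    a σ (hσ.exists_eq_add_mul_one h.two hπ hu hK) (hσ.exists_eq_add_mul_two h2 hπ hu' hK')
    hσζ hσK g hg hk₁ hk₂ hN cinf c0 cinf c0 hcinf hc0 hcinf hc0 hd₁i hd₁z hd₂i hd₂z

end Model

section Gen

variable {q : ℕ} [hq : Fact q.Prime] [NeZero q] {A : ValuationSubring Ω}
  {K₁ : IntermediateField ℚ Ω} [Normal ℚ ↥K₁]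
  [IsDiscreteValuationRing ↥(baseRing A K₁)] [CharZero ↥(baseRing A K₁)]
  [IsFractionRing ↥(baseRing A K₁) ↥K₁]
  {EMf ENf : IntermediateField ↥K₁ (LaurentSeries ↥K₁)}
  {KM : Type*} [Field KM] [Algebra ↥K₁ KM] [Algebra ↥(baseRing A K₁) KM]
  [IsScalarTower ↥(baseRing A K₁) ↥K₁ KM]
  [Algebra KM ↥EMf] [IsScalarTower ↥K₁ KM ↥EMf] [Algebra ↥(baseRing A K₁) ↥EMf]
  [IsScalarTower ↥(baseRing A K₁) KM ↥EMf]
  {KN : Type*} [Field KN] [Algebra ↥K₁ KN] [Algebra ↥(baseRing A K₁) KN]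
  [IsScalarTower ↥(baseRing A K₁) ↥K₁ KN]
  [Algebra KN ↥ENf] [IsScalarTower ↥K₁ KN ↥ENf] [Algebra ↥(baseRing A K₁) ↥ENf]
  [IsScalarTower ↥(baseRing A K₁) KN ↥ENf] [FiniteDimensional KN ↥ENf]

set_option maxHeartbeats 1600000 in
/-- **Theorem B at a base, generic form, primed**: `g` a unit along `W_∞`, `g ϖ ^ (-q j)` a unit
along `W_0`. -/
theorem kummer_base_p_of_ssModel' (hA : A.LiesOverPrime q) (hK₁ : IsBase q K₁)
    (hEM : CoeffStable EMf) (hEN : CoeffStable ENf)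
    (hMle : EMf ≤ gaussField ↥(baseRing A K₁) ↥K₁) (hNle : ENf ≤ gaussField ↥(baseRing A K₁) ↥K₁)
    {ϖ : ↥(baseRing A K₁)} (hϖ : Irreducible ϖ) {n : ℕ} {S : Finset ↥(baseRing A K₁)} {t : KM}
    {jM : ↥EMf} {j : KN} {Ad Bd : ↥EMf →+* ↥ENf} {VM : ValuationSubring ↥EMf}
    {Winf W0 : ValuationSubring ↥ENf}
    (h : SSModel ↥K₁ ϖ q n S t jM j Ad Bd VM Winf W0)
    (hVM : VM = gaussValSub ↥(baseRing A K₁) ↥K₁ EMf hMle)
    (hWinf : Winf = gaussValSub ↥(baseRing A K₁) ↥K₁ ENf hNle)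
    (hB : ∀ f : ↥EMf, ((Bd f : ↥ENf) : LaurentSeries ↥K₁) = qExpand ↥K₁ q (f : LaurentSeries ↥K₁))
    (hj : ∀ τ : ↥K₁ ≃ₐ[ℚ] ↥K₁, coeffRingAut hEN τ (algebraMap KN ↥ENf j) = algebraMap KN ↥ENf j)
    (hR : ∀ r : ↥(baseRing A K₁), algebraMap ↥(baseRing A K₁) ↥ENf r =
      algebraMap ↥K₁ ↥ENf (algebraMap ↥(baseRing A K₁) ↥K₁ r))
    (hjint : IsIntegral ↥(Algebra.adjoin ↥(baseRing A K₁) {Bd jM}) (Ad jM))
    {e₁ : ℕ} (he₁ : 0 < e₁) {ε : (↥(baseRing A K₁))ˣ}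
    (hpe : ((q : ℕ) : ↥(baseRing A K₁)) = ε * ϖ ^ e₁)
    (ζ : ↥(baseRing A K₁)) (hζ : IsPrimitiveRoot ζ q)
    {σ : GQ} (hσ : σ ∈ A.inertiaSubgroupIn ℚ) (a : ℕ) (hσa : ∀ z : Ω, z ^ q = 1 → σ z = z ^ a)
    (g : ↥ENf) (hg : g ≠ 0)
    (hord : ∀ P : Place ↥K₁ ↥ENf, P.ord g = 0 ∨ (IsRationalPlace P ∧ (q : ℤ) ∣ P.ord g))
    (hginf : Winf.valuation g = 1) (jz : ℤ)
    (hg0 : W0.valuation (g * (algebraMap ↥(baseRing A K₁) ↥ENf ϖ ^ ((q : ℤ) * jz))⁻¹) = 1)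
    {N : ℕ} (hN : e₁ * q < N * (q - 1)) (cinf c0 : ↥K₁) (hcinf : cinf ≠ 0) (hc0 : c0 ≠ 0)
    (hdinf : ValDepth ϖ q Winf N g cinf) (hd0 : ValDepth ϖ q W0 N g c0) :
    ∃ (c : ↥K₁) (u : ↥ENf), c ≠ 0 ∧
      coeffGalois hEN (resGal K₁ σ) • g / g ^ a = algebraMap ↥K₁ ↥ENf c * u ^ q := by
  subst hVM hWinf
  haveI := hK₁.isAlgClosed_residueField hA
  set σN : ↥ENf ≃+* ↥ENf := coeffRingAut hEN (resGal K₁ σ) with hσN
  have haut := ssModelAut_coeffRingAut hEM hEN hMle hNle hϖ h hB hj hR hσ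
  -- the action on `ζ`
  have hσζ : (σN : ↥ENf →+* ↥ENf) (algebraMap ↥(baseRing A K₁) ↥ENf ζ) =
      algebraMap ↥(baseRing A K₁) ↥ENf ζ ^ a := by
    have h1 : baseRingAut (K₁ := K₁) hσ ζ = ζ ^ a := by
      apply Subtype.ext
      apply Subtype.ext
      rw [coe_coe_baseRingAut]
      have hz : (((ζ : ↥(baseRing A K₁)) : ↥K₁) : Ω) ^ q = 1 := by
        have := hζ.pow_eq_one
        have h2 := congrArg (fun x : ↥(baseRing A K₁) => (((x : ↥K₁)) : Ω)) this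
        simpa using h2
      rw [hσa _ hz]
      simp
    rw [hR, ← map_pow]
    show coeffRingAut hEN (resGal K₁ σ) _ = _
    rw [coeffRingAut_algebraMap_baseRing hEN hσ ζ, h1, map_pow]
  have hσK : ∀ c : ↥K₁, ∃ c' : ↥K₁, (σN : ↥ENf →+* ↥ENf) (algebraMap ↥K₁ ↥ENf c) =
      algebraMap ↥K₁ ↥ENf c' := by
    intro c
    exact ⟨resGal K₁ σ c, coeffRingAut_algebraMap hEN (resGal K₁ σ) c⟩
  have hq := hq.out
  exact SSModel.kummer_inertia_pow_p' h hϖ hjint hq he₁ hpe ζ hζ a (σN : ↥ENf →+* ↥ENf) haut hσζ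
    hσK g hg hord hginf jz hg0 hN cinf c0 hcinf hc0 hdinf hd0

end Gen

end Fermat.Agent.MP
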