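/-
MP40 (row 38: S44 / S40) — helper2 — **[KEYPEU-DEEP] (2b): `LegPeuDeepP` from the `B`-side norm
compatibility and the `δ`-argument [DELTA]**.

Frame of `NP.legNewBaseP_of_normB`: over a Galois base `K₁ ∋ ζ_p`, `f = fullToLegE f₀` with rational
support, both degeneracy norms constants times `p`-th powers, one non-Eisenstein Hecke relation and
depth `≥ 1` along `W_∞`.  Then:
(i) `f = ϖ ^ a∞ · (unit of W_∞) = ϖ ^ a0 · (unit of W_0)`;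
(ii) `p ∣ a0 - a∞` by [DELTA];
(iii) all depths along both sheets (lead's `SSModel.valDepth_all_of_inf`);
(iv) Theorem B, primed (helper4's `kummer_base_p_of_ssModel'`) for `f / ϖ ^ a∞`;
(v) the tail of `legNewBaseP_of_normB`.
-/
import Mathlib
import Fermat.Agent.MP.KPBASE_lead_Defs
import Fermat.Agent.MP.KPBASE_lead_Norm
import Fermat.Agent.MP.KPDEEP_helper4_ThmB
import Fermat.Agent.NP.NEWBASE_helper7_Main
import Fermat.Agent.NP.BASEP_helper2_DegGen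

set_option autoImplicit false
set_option linter.unusedSectionVars false
set_option linter.unusedVariables false
set_option linter.style.haveILetI false
set_option synthInstance.maxHeartbeats 400000

open HahnSeries IntermediateField AlgebraicCurve ModularCurve IsLocalRing

namespace Fermat.Agent.MP

open Fermat.Agent.JA Fermat.Agent.FF Fermat.Agent.SS Fermat.Agent.S35 Fermat.Agent.Igusa
  Fermat.Agent.NP

open scoped Fermat.Agent.JA.Host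

/-- `Ω = AlgebraicClosure ℚ`. -/
local notation "Ω" => AlgebraicClosure ℚ

/-- the absolute Galois group. -/
local notation "GQ" => (AlgebraicClosure ℚ ≃ₐ[ℚ] AlgebraicClosure ℚ)

/-- **[DELTA], literal form**: a non-Eisenstein Hecke relation on the host forces the orders along
the two sheets to be congruent modulo `p`. -/
def LegDeltaLit : Prop :=
  ∀ (M : ℕ) [NeZero M] (p : ℕ) [NeZero p] [NeZero (M * p)] [Fact p.Prime] (hp : p.Prime)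
    (hp2 : p ≠ 2), ¬ p ∣ M →
  ∀ (A : ValuationSubring Ω) (hA : A.LiesOverPrime p) (K' : IntermediateField ℚ Ω)
    [IsDiscreteValuationRing ↥(baseRing A K')], IsBase p K' →
  ∀ (ϖ : ↥(baseRing A K')), Irreducible ϖ → ∀ (h2 : IsUnit (2 : ↥(baseRing A K'))) {x y : ℤ}
    (hbez : (p : ℤ) * x + M * y = 1) (ℓ : ℕ) [NeZero ℓ] [NeZero (M * p * ℓ)] (hℓ : ℓ.Prime)
    (hℓ2 : ℓ ≠ 2), ¬ ℓ ∣ M * p → ∀ (a : ℤ), ¬ a ≡ (ℓ : ℤ) + 1 [ZMOD (p : ℤ)] →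
  ∀ f : ↥(legE ↥K' (M * p)), f ≠ 0 →
    (∃ (c : ↥K') (u : ↥(legE ↥K' (M * p))), c ≠ 0 ∧ u ≠ 0 ∧
      legHeckeP ↥K' (M * p) ℓ hℓ hℓ2 f = algebraMap ↥K' ↥(legE ↥K' (M * p)) c * f ^ a * u ^ p) →
  ∀ ainf a0 : ℤ,
    (legWinf ↥(baseRing A K') ↥K' h2 (M * p)).valuation
      (f * (algebraMap ↥(baseRing A K') ↥(legE ↥K' (M * p)) ϖ ^ ainf)⁻¹) = 1 →
    (letI := baseToComplex K'; legW0 ↥(baseRing A K') ↥K' hbez hp).valuation
      (f * (algebraMap ↥(baseRing A K') ↥(legE ↥K' (M * p)) ϖ ^ a0)⁻¹) = 1 →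
    (p : ℤ) ∣ a0 - ainf

set_option maxHeartbeats 6400000 in
/-- **(2b)** from the `B`-side norm compatibility and [DELTA]. -/
theorem legPeuDeepP_of_lit (p₀ : ℕ) (HB : LegNormBCompat) (HD : LegDeltaLit) :
    LegPeuDeepP p₀ := by
  intro M _ p _ _ _ hp2 hp0 hpM A hA K₁ _ _ hK₁ hζex S a hS hnE f₀ hf₀ hord hNA hNB hHecke
    hdepth σ hσ a' ha'
  have hp : p.Prime := Fact.out
  obtain ⟨ζ₀, hζ₀⟩ := hζex
  classical
  haveI : CharZero ↥(baseRing A K₁) := charZero_valuationSubring_of_algebraRat _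
  obtain ⟨ϖ, h2, c1, hϖ, hc1, hd1⟩ := hdepth
  obtain ⟨x, y, hbez⟩ := exists_bezout_of_prime_of_not_dvd hp hpM
  letI := baseToComplex K₁
  haveI : IsAlgClosed (ResidueField ↥(baseRing A K₁)) := hK₁.isBase.isAlgClosed_residueField hA
  have hpϖ := natCast_mem_span_uniformizer_baseRing hA K₁ hϖ
  have hmodel : SSModelLeg ↥(baseRing A K₁) ↥K₁ ϖ h2 hbez hp hp2 :=
    ssModelLeg ↥(baseRing A K₁) ↥K₁ hϖ h2 hbez hp hp2 hpϖ
      (geoHyps_legE_baseRing hA M hpM hK₁.isBase hp2 hϖ)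
  haveI : FiniteDimensional ↥(↥K₁)⟮jqNModC ↥K₁ 2⟯ ↥(legE ↥K₁ (M * p)) :=
    finite_legE_adjoin_j ↥K₁ (M * p)
  have h' := SSModelLeg.ssModel ↥(baseRing A K₁) ↥K₁ hmodel
  have D := legSSNormData ↥(baseRing A K₁) ↥K₁ hϖ hmodel
  -- `p = ε ϖ ^ e₁`
  have hp0' : ((p : ℕ) : ↥(baseRing A K₁)) ≠ 0 := Nat.cast_ne_zero.mpr hp.ne_zero
  obtain ⟨e₁, ε, hpe⟩ := IsDiscreteValuationRing.eq_unit_mul_pow_irreducible hp0' hϖ
  have he₁ : 0 < e₁ := by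
    rcases Nat.eq_zero_or_pos e₁ with h0 | h0
    · exfalso
      rw [h0, pow_zero, mul_one] at hpe
      have hu : IsUnit ((p : ℕ) : ↥(baseRing A K₁)) := hpe ▸ Units.isUnit _
      obtain ⟨z, hz⟩ := Ideal.mem_span_singleton.mp hpϖ
      rw [hz] at hu
      exact hϖ.not_isUnit (isUnit_of_mul_isUnit_left hu)
    · exact h0
  -- notation
  set f : ↥(legE ↥K₁ (M * p)) := fullToLegE ↥K₁ (M * p) f₀ with hfdef
  have hf : f ≠ 0 := (_root_.map_ne_zero (fullToLegE ↥K₁ (M * p))).mpr hf₀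
  have hEN := coeffStable_legE ↥K₁ (M * p)
  have hEM := coeffStable_legE ↥K₁ M
  have hMle := legE_le_gaussField ↥(baseRing A K₁) ↥K₁ h2 M
  have hNle := legE_le_gaussField ↥(baseRing A K₁) ↥K₁ h2 (M * p)
  have hBq : ∀ g : ↥(legE ↥K₁ M), ((legHostB ↥K₁ M p hp hp2 g : ↥(legE ↥K₁ (M * p))) :
      LaurentSeries ↥K₁) = qExpand ↥K₁ p (g : LaurentSeries ↥K₁) :=
    fun g => coe_legHostB ↥K₁ M p hp hp2 g
  have hjfix : ∀ τ : ↥K₁ ≃ₐ[ℚ] ↥K₁, coeffRingAut hEN τ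
      (algebraMap ↥(↥K₁)⟮jqNModC ↥K₁ 2⟯ ↥(legE ↥K₁ (M * p))
        (AdjoinSimple.gen ↥K₁ (jqNModC ↥K₁ 2))) =
      algebraMap ↥(↥K₁)⟮jqNModC ↥K₁ 2⟯ ↥(legE ↥K₁ (M * p))
        (AdjoinSimple.gen ↥K₁ (jqNModC ↥K₁ 2)) :=
    fun τ => Subtype.ext (coeffMap_jqNModC (τ : ↥K₁ →+* ↥K₁) 2)
  have hRN : ∀ r : ↥(baseRing A K₁), algebraMap ↥(baseRing A K₁) ↥(legE ↥K₁ (M * p)) r =
      algebraMap ↥K₁ ↥(legE ↥K₁ (M * p)) (algebraMap ↥(baseRing A K₁) ↥K₁ r) :=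
    fun r => IsScalarTower.algebraMap_apply ↥(baseRing A K₁) ↥K₁ ↥(legE ↥K₁ (M * p)) r
  -- (i) the orders along the two sheets
  obtain ⟨ainf, hfa⟩ := SSModel.exists_zpow_val_eq_one_inf h' he₁ hpe hf
  obtain ⟨a0, hfb⟩ := SSModel.exists_zpow_val_eq_one_zero h' he₁ hpe hf
  -- (ii) [DELTA]
  obtain ⟨ℓ, hℓ, hℓS, hℓ2, hnEℓ⟩ := hnE
  have hℓMp : ¬ ℓ ∣ M * p := fun h => hℓS (hS ℓ hℓ h)
  haveI : NeZero ℓ := ⟨hℓ.ne_zero⟩
  haveI : NeZero (M * p * ℓ) := ⟨Nat.mul_ne_zero (NeZero.ne (M * p)) hℓ.ne_zero⟩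
  obtain ⟨cH, uH, hcH, huH, hrel⟩ := hHecke ℓ hℓ hℓS
  have hhost : legHeckeP ↥K₁ (M * p) ℓ hℓ hℓ2 f =
      algebraMap ↥K₁ ↥(legE ↥K₁ (M * p)) cH * f ^ (a ℓ) * fullToLegE ↥K₁ (M * p) uH ^ p := by
    rw [hfdef, legHeckeP_fullToLegE_base (M * p) ℓ hℓ hℓ2 hℓMp K₁ f₀, hrel, map_mul, map_mul,
      map_zpow₀, map_pow, AlgHom.commutes]
  have hab : (p : ℤ) ∣ a0 - ainf :=
    HD M p hp hp2 hpM A hA K₁ hK₁.isBase ϖ hϖ h2 hbez ℓ hℓ hℓ2 hℓMp (a ℓ) hnEℓ f hf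
      ⟨cH, fullToLegE ↥K₁ (M * p) uH, hcH,
        (_root_.map_ne_zero (fullToLegE ↥K₁ (M * p))).mpr huH, hhost⟩ ainf a0 hfa hfb
  -- (iii) the norms and all depths
  have hNA' : ∃ (u : ↥K₁) (g : ↥(legE ↥K₁ M)), u ≠ 0 ∧ g ≠ 0 ∧
      legHostNormA ↥K₁ M p f = algebraMap ↥K₁ ↥(legE ↥K₁ M) u * g ^ p := by
    obtain ⟨cA, hAf, hcA, hhA, ehA⟩ := hNA
    refine ⟨cA, fullToLegE ↥K₁ M hAf, hcA,
      (_root_.map_ne_zero (fullToLegE ↥K₁ M)).mpr hhA, ?_⟩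
    have hcompat : legHostNormA ↥K₁ M p f =
        fullToLegE ↥K₁ M (algebraMap ↥K₁ ↥(keyFq ↥K₁ M) cA * hAf ^ p) := by
      rw [← ehA]
      exact legHostNorm_fullToLegE ↥K₁ M p hp hpM D.degA f₀
    rw [hcompat, map_mul, map_pow, AlgHom.commutes]
  have hNB' : ∃ (u : ↥K₁) (g : ↥(legE ↥K₁ M)), u ≠ 0 ∧ g ≠ 0 ∧
      legHostNormB ↥K₁ M p hp hp2 f = algebraMap ↥K₁ ↥(legE ↥K₁ M) u * g ^ p := by
    obtain ⟨cB, hBf, hcB, hhB, ehB⟩ := hNB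
    refine ⟨cB, fullToLegE ↥K₁ M hBf, hcB,
      (_root_.map_ne_zero (fullToLegE ↥K₁ M)).mpr hhB, ?_⟩
    have hcompat : legHostNormB ↥K₁ M p hp hp2 f =
        fullToLegE ↥K₁ M (algebraMap ↥K₁ ↥(keyFq ↥K₁ M) cB * hBf ^ p) := by
      rw [← ehB]
      exact HB M p hp hp2 hpM K₁ f₀
    rw [hcompat, map_mul, map_pow, AlgHom.commutes]
  have hall := SSModel.valDepth_all_of_inf h' he₁ hpe D hfa hfb hab ⟨c1, hc1, hd1⟩ hNA' hNB'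
  -- (iv) the unit `f₁ = f / ϖ ^ ainf` of `W_∞`
  have hϖK : algebraMap ↥(baseRing A K₁) ↥K₁ ϖ ≠ 0 := by
    rw [Ne, map_eq_zero_iff _ (IsFractionRing.injective ↥(baseRing A K₁) ↥K₁)]
    exact hϖ.ne_zero
  have hϖE : algebraMap ↥(baseRing A K₁) ↥(legE ↥K₁ (M * p)) ϖ ≠ 0 := by
    rw [hRN]
    exact (_root_.map_ne_zero _).mpr hϖK
  set d : ↥K₁ := algebraMap ↥(baseRing A K₁) ↥K₁ ϖ ^ ainf with hd
  have hd0 : d ≠ 0 := zpow_ne_zero ainf hϖK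
  have hdE : algebraMap ↥K₁ ↥(legE ↥K₁ (M * p)) d =
      algebraMap ↥(baseRing A K₁) ↥(legE ↥K₁ (M * p)) ϖ ^ ainf := by
    rw [hd, map_zpow₀, ← hRN]
  have hD0 : algebraMap ↥K₁ ↥(legE ↥K₁ (M * p)) d ≠ 0 := (_root_.map_ne_zero _).mpr hd0
  set f₁ : ↥(legE ↥K₁ (M * p)) := f * (algebraMap ↥K₁ ↥(legE ↥K₁ (M * p)) d)⁻¹ with hf₁def
  have hff₁ : f = algebraMap ↥K₁ ↥(legE ↥K₁ (M * p)) d * f₁ := by
    rw [hf₁def]
    field_simp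
  have hf₁ : f₁ ≠ 0 := mul_ne_zero hf (inv_ne_zero hD0)
  have hf₁i : (legWinf ↥(baseRing A K₁) ↥K₁ h2 (M * p)).valuation f₁ = 1 := by
    rw [hf₁def, hdE]; exact hfa
  obtain ⟨jz, hjz⟩ := hab
  have hf₁z : (legW0 ↥(baseRing A K₁) ↥K₁ hbez hp).valuation
      (f₁ * (algebraMap ↥(baseRing A K₁) ↥(legE ↥K₁ (M * p)) ϖ ^ ((p : ℤ) * jz))⁻¹) = 1 := by
    have e : f₁ * (algebraMap ↥(baseRing A K₁) ↥(legE ↥K₁ (M * p)) ϖ ^ ((p : ℤ) * jz))⁻¹ =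
        f * (algebraMap ↥(baseRing A K₁) ↥(legE ↥K₁ (M * p)) ϖ ^ a0)⁻¹ := by
      have ha0 : a0 = ainf + (p : ℤ) * jz := by rw [← hjz]; ring
      rw [hf₁def, hdE, ha0, zpow_add₀ hϖE, mul_inv, mul_assoc]
    rw [e]
    exact hfb
  have hord₁ : ∀ P : Place ↥K₁ ↥(legE ↥K₁ (M * p)),
      P.ord f₁ = 0 ∨ (IsRationalPlace P ∧ (p : ℤ) ∣ P.ord f₁) := by
    intro P
    have e1 : P.ord f = P.ord f₁ := by
      rw [hff₁, P.ord_mul hD0 hf₁, place_ord_algebraMap_eq_zero P hd0, zero_add]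
    rw [← e1]
    exact hord P
  have hNlt : e₁ * p < (e₁ * p + 1) * (p - 1) := by
    have hp1 : 1 ≤ p - 1 := Nat.sub_pos_of_lt hp.one_lt
    calc e₁ * p < e₁ * p + 1 := Nat.lt_succ_self _
      _ = (e₁ * p + 1) * 1 := (mul_one _).symm
      _ ≤ (e₁ * p + 1) * (p - 1) := Nat.mul_le_mul_left _ hp1
  obtain ⟨ci, hci, hdi⟩ := (hall (e₁ * p + 1)).1
  obtain ⟨cz, hcz, hdz⟩ := (hall (e₁ * p + 1)).2
  have hdi₁ : ValDepth ϖ p (legWinf ↥(baseRing A K₁) ↥K₁ h2 (M * p)) (e₁ * p + 1) f₁ (ci / d) := by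
    rw [← valDepth_const_mul_iff hd0, ← hff₁, mul_div_cancel₀ _ hd0]
    exact hdi
  have hdz₁ : ValDepth ϖ p (legW0 ↥(baseRing A K₁) ↥K₁ hbez hp) (e₁ * p + 1) f₁ (cz / d) := by
    rw [← valDepth_const_mul_iff hd0, ← hff₁, mul_div_cancel₀ _ hd0]
    exact hdz
  -- `ζ` in the base ring
  have hmem : ζ₀ ∈ baseRing A K₁ := by
    rw [mem_baseRing_iff]
    have h1 : (A.valuation (ζ₀ : Ω)) ^ p = 1 := by
      rw [← map_pow]
      have : ((ζ₀ : Ω)) ^ p = 1 := by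
        have := congrArg (fun z : ↥K₁ => (z : Ω)) hζ₀.pow_eq_one
        exact this
      rw [this, map_one]
    exact le_of_eq (eq_one_of_pow_eq_one' hp.ne_zero h1)
  have hζ : IsPrimitiveRoot (⟨ζ₀, hmem⟩ : ↥(baseRing A K₁)) p :=
    IsPrimitiveRoot.of_map_of_injective (f := (baseRing A K₁).subtype) hζ₀ Subtype.val_injective
  -- Theorem B, primed
  obtain ⟨cK, uK, hcK, eK⟩ := kummer_base_p_of_ssModel' hA hK₁.isBase hEM hEN hMle hNle hϖ h'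
    rfl rfl hBq hjfix hRN (SSModelLeg.jint ↥(baseRing A K₁) ↥K₁ hϖ hmodel) he₁ hpe _ hζ hσ a' ha'
    f₁ hf₁ hord₁ hf₁i jz hf₁z hNlt (ci / d) (cz / d) (div_ne_zero hci hd0) (div_ne_zero hcz hd0)
    hdi₁ hdz₁
  -- conclusion
  have hsd0 : resGal K₁ σ d ≠ 0 := (_root_.map_ne_zero _).mpr hd0
  refine ⟨resGal K₁ σ d / d ^ a' * cK, uK,
    mul_ne_zero (div_ne_zero hsd0 (pow_ne_zero a' hd0)) hcK, ?_⟩
  have e1 : legGalois ↥K₁ (M * p) (resGal K₁ σ) • f =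
      algebraMap ↥K₁ ↥(legE ↥K₁ (M * p)) (resGal K₁ σ d) *
        (coeffGalois hEN (resGal K₁ σ) • f₁) := by
    show coeffRingAut hEN (resGal K₁ σ) f = _ * coeffRingAut hEN (resGal K₁ σ) f₁
    conv_lhs => rw [hff₁]
    rw [map_mul, coeffRingAut_algebraMap]
  rw [map_mul, map_div₀, map_pow]
  exact newBase_final_algebra hD0 hf₁ hff₁ e1 eK

end Fermat.Agent.MP
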