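import Mathlib
import Fermat.Agent.NP.BRIDGE_helper5_Loc
import Fermat.Agent.SS.VERT_helper4

/-!
# Project MP40 — C5 [DICT] helper1, abstract part: the composite valuation ring

`W` a valuation subring of a field `E`, `ι : W → F` a ring homomorphism to a field `F` which kills
the maximal ideal of `W` (so `ι` is the reduction map followed by an embedding of the residue
field), `O` a valuation subring of `F`.

* `compValOf W ι hker O` : the composite valuation subring `{x ∈ W | ι x ∈ O}` of `E`;
* `valuation_compValOf_lt_one_iff`, `valuation_compValOf_eq_one_iff` : its maximal ideal and units;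
* `chartOne_le_of_mem` : a valuation subring containing the constants and the coordinate contains
  the chart;
* `locSub_sheetIdeal_le` : the local ring of a chart at the centre of a valuation subring is
  contained in the valuation subring; `isUnitIn_of_locSub_sheetIdeal`;
* `sheetIdeal_le_sheetIdeal_compValOf` : the centre of the composite contains the centre of `W`;
* `sheetIdeal_isMaximal_of_res` : the centre is maximal as soon as the constants fill the residue
  field;
* `exists_valuation_eq_one_of_isUnitIn_locSub` : a unit of the local ring of the chart at the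
  centre of the composite reduces to a unit of `O`.
-/

set_option autoImplicit false
set_option linter.unusedSectionVars false
set_option linter.unusedVariables false

namespace Fermat.Agent.MP

open Fermat.Agent.NP Fermat.Agent.SS Fermat.Agent.JA

section Comp

variable {E : Type*} [Field E] {F : Type*} [Field F]
  (W : ValuationSubring E) (ι : ↥W →+* F)
  (hker : ∀ x : ↥W, W.valuation (x : E) < 1 → ι x = 0) (O : ValuationSubring F)

/-- **the composite valuation subring** `{x ∈ W | ι x ∈ O}`. -/
def compValOf : ValuationSubring E where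
  carrier := {x | ∃ h : x ∈ W, ι ⟨x, h⟩ ∈ O}
  mul_mem' := by
    rintro x y ⟨hx, hx'⟩ ⟨hy, hy'⟩
    refine ⟨W.mul_mem _ _ hx hy, ?_⟩
    have : (⟨x * y, W.mul_mem _ _ hx hy⟩ : ↥W) = ⟨x, hx⟩ * ⟨y, hy⟩ := rfl
    rw [this, map_mul]
    exact O.mul_mem _ _ hx' hy'
  one_mem' := by
    refine ⟨W.one_mem, ?_⟩
    have : (⟨1, W.one_mem⟩ : ↥W) = 1 := rfl
    rw [this, map_one]
    exact O.one_mem
  add_mem' := by
    rintro x y ⟨hx, hx'⟩ ⟨hy, hy'⟩
    refine ⟨W.add_mem _ _ hx hy, ?_⟩
    have : (⟨x + y, W.add_mem _ _ hx hy⟩ : ↥W) = ⟨x, hx⟩ + ⟨y, hy⟩ := rfl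
    rw [this, map_add]
    exact O.add_mem _ _ hx' hy'
  zero_mem' := by
    refine ⟨W.zero_mem, ?_⟩
    have : (⟨0, W.zero_mem⟩ : ↥W) = 0 := rfl
    rw [this, map_zero]
    exact O.zero_mem
  neg_mem' := by
    rintro x ⟨hx, hx'⟩
    refine ⟨W.neg_mem _ hx, ?_⟩
    have : (⟨-x, W.neg_mem _ hx⟩ : ↥W) = -⟨x, hx⟩ := rfl
    rw [this, map_neg]
    exact O.neg_mem _ hx'
  mem_or_inv_mem' := by
    intro x
    by_cases hx : x ∈ W
    · by_cases hv : W.valuation x < 1
      · left
        refine ⟨hx, ?_⟩
        rw [hker ⟨x, hx⟩ hv]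
        exact O.zero_mem
      · have h1 : W.valuation x = 1 :=
          le_antisymm ((ValuationSubring.valuation_le_one_iff _ _).mpr hx) (not_lt.mp hv)
        have hx0 : x ≠ 0 := by
          intro h0
          rw [h0, map_zero] at h1
          exact zero_ne_one h1
        have hxi : x⁻¹ ∈ W := by
          rw [← ValuationSubring.valuation_le_one_iff, map_inv₀, h1, inv_one]
        have hmul : ι ⟨x, hx⟩ * ι ⟨x⁻¹, hxi⟩ = 1 := by
          rw [← map_mul]
          have : (⟨x, hx⟩ : ↥W) * ⟨x⁻¹, hxi⟩ = 1 := Subtype.ext (mul_inv_cancel₀ hx0)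
          rw [this, map_one]
        rcases O.mem_or_inv_mem (ι ⟨x, hx⟩) with h | h
        · exact Or.inl ⟨hx, h⟩
        · right
          refine ⟨hxi, ?_⟩
          rw [eq_inv_of_mul_eq_one_right hmul]
          exact h
    · right
      have hxi : x⁻¹ ∈ W := (W.mem_or_inv_mem x).resolve_left hx
      refine ⟨hxi, ?_⟩
      have hv : W.valuation x⁻¹ < 1 := by
        rw [map_inv₀]
        have h1 : 1 < W.valuation x := by
          rw [← not_le, ValuationSubring.valuation_le_one_iff]; exact hx
        exact inv_lt_one_of_one_lt₀ h1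
      rw [hker ⟨x⁻¹, hxi⟩ hv]
      exact O.zero_mem

theorem mem_compValOf {x : E} : x ∈ compValOf W ι hker O ↔ ∃ h : x ∈ W, ι ⟨x, h⟩ ∈ O := Iff.rfl

theorem compValOf_le : compValOf W ι hker O ≤ W := fun _ hx => hx.1

theorem mem_of_mem_compValOf {x : E} (hx : x ∈ compValOf W ι hker O) : x ∈ W := hx.1

theorem map_mem_of_mem_compValOf {x : E} (hx : x ∈ compValOf W ι hker O) : ι ⟨x, hx.1⟩ ∈ O := hx.2

include hker in
/-- the kernel of `ι` is exactly the maximal ideal of `W`. -/
theorem map_eq_zero_iff_of_hker (x : ↥W) : ι x = 0 ↔ W.valuation (x : E) < 1 := by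
  refine ⟨fun h0 => ?_, hker x⟩
  by_contra hv
  have h1 : W.valuation (x : E) = 1 :=
    le_antisymm ((ValuationSubring.valuation_le_one_iff _ _).mpr x.2) (not_lt.mp hv)
  have hu : IsUnit x := (ValuationSubring.valuation_eq_one_iff W x).mpr h1
  have := hu.map ι
  rw [h0] at this
  exact not_isUnit_zero this

/-- the maximal ideal of the composite. -/
theorem valuation_compValOf_lt_one_iff {x : E} :
    (compValOf W ι hker O).valuation x < 1 ↔
      ∃ h : x ∈ W, O.valuation (ι ⟨x, h⟩) < 1 := by
  constructor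
  · intro hlt
    have hx : x ∈ compValOf W ι hker O :=
      (ValuationSubring.valuation_le_one_iff _ _).mp hlt.le
    refine ⟨hx.1, ?_⟩
    by_contra hnot
    have h1 : O.valuation (ι ⟨x, hx.1⟩) = 1 :=
      le_antisymm ((ValuationSubring.valuation_le_one_iff _ _).mpr hx.2) (not_lt.mp hnot)
    have hne : ι ⟨x, hx.1⟩ ≠ 0 := by
      intro h0
      rw [h0, map_zero] at h1
      exact zero_ne_one h1
    have hvW : ¬ W.valuation x < 1 := fun h => hne (hker ⟨x, hx.1⟩ h)
    have h1W : W.valuation x = 1 :=
      le_antisymm ((ValuationSubring.valuation_le_one_iff _ _).mpr hx.1) (not_lt.mp hvW)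
    have hx0 : x ≠ 0 := by
      intro h0
      rw [h0, map_zero] at h1W
      exact zero_ne_one h1W
    have hxi : x⁻¹ ∈ W := by
      rw [← ValuationSubring.valuation_le_one_iff, map_inv₀, h1W, inv_one]
    have hmul : ι ⟨x, hx.1⟩ * ι ⟨x⁻¹, hxi⟩ = 1 := by
      rw [← map_mul]
      have : (⟨x, hx.1⟩ : ↥W) * ⟨x⁻¹, hxi⟩ = 1 := Subtype.ext (mul_inv_cancel₀ hx0)
      rw [this, map_one]
    have hinvO : ι ⟨x⁻¹, hxi⟩ ∈ O := by
      rw [eq_inv_of_mul_eq_one_right hmul, ← ValuationSubring.valuation_le_one_iff, map_inv₀,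
        h1, inv_one]
    have hxic : x⁻¹ ∈ compValOf W ι hker O := ⟨hxi, hinvO⟩
    have h2 : (compValOf W ι hker O).valuation x⁻¹ ≤ 1 :=
      (ValuationSubring.valuation_le_one_iff _ _).mpr hxic
    rw [map_inv₀] at h2
    have h3 : (compValOf W ι hker O).valuation x ≠ 0 := (Valuation.ne_zero_iff _).mpr hx0
    rw [inv_le_one₀ (zero_lt_iff.mpr h3)] at h2
    exact absurd hlt (not_lt.mpr h2)
  · rintro ⟨hx, hlt⟩
    by_cases hx0 : x = 0
    · rw [hx0, map_zero]; exact zero_lt_one
    have hxc : x ∈ compValOf W ι hker O :=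
      ⟨hx, (ValuationSubring.valuation_le_one_iff _ _).mp hlt.le⟩
    refine lt_of_le_of_ne ((ValuationSubring.valuation_le_one_iff _ _).mpr hxc) ?_
    intro h1
    have hxi : x⁻¹ ∈ compValOf W ι hker O := by
      rw [← ValuationSubring.valuation_le_one_iff, map_inv₀, h1, inv_one]
    have hmul : ι ⟨x, hx⟩ * ι ⟨x⁻¹, hxi.1⟩ = 1 := by
      rw [← map_mul]
      have : (⟨x, hx⟩ : ↥W) * ⟨x⁻¹, hxi.1⟩ = 1 := Subtype.ext (mul_inv_cancel₀ hx0)
      rw [this, map_one]
    have h2 : O.valuation (ι ⟨x, hx⟩) * O.valuation (ι ⟨x⁻¹, hxi.1⟩) = 1 := by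
      rw [← map_mul, hmul, map_one]
    have h3 : O.valuation (ι ⟨x⁻¹, hxi.1⟩) ≤ 1 :=
      (ValuationSubring.valuation_le_one_iff _ _).mpr hxi.2
    have h4 : O.valuation (ι ⟨x, hx⟩) * O.valuation (ι ⟨x⁻¹, hxi.1⟩) < 1 := by
      calc O.valuation (ι ⟨x, hx⟩) * O.valuation (ι ⟨x⁻¹, hxi.1⟩)
          ≤ O.valuation (ι ⟨x, hx⟩) * 1 := mul_le_mul' le_rfl h3
        _ = O.valuation (ι ⟨x, hx⟩) := mul_one _
        _ < 1 := hlt
    exact absurd h2 (ne_of_lt h4)

/-- the units of the composite. -/
theorem valuation_compValOf_eq_one_iff {x : E} :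
    (compValOf W ι hker O).valuation x = 1 ↔
      ∃ h : x ∈ W, O.valuation (ι ⟨x, h⟩) = 1 := by
  constructor
  · intro h1
    have hx : x ∈ compValOf W ι hker O :=
      (ValuationSubring.valuation_le_one_iff _ _).mp h1.le
    refine ⟨hx.1, le_antisymm ((ValuationSubring.valuation_le_one_iff _ _).mpr hx.2) ?_⟩
    by_contra hnot
    have hlt : O.valuation (ι ⟨x, hx.1⟩) < 1 := not_le.mp hnot
    have := (valuation_compValOf_lt_one_iff W ι hker O).mpr ⟨hx.1, hlt⟩
    rw [h1] at this
    exact lt_irrefl _ this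
  · rintro ⟨hx, h1⟩
    have hxc : x ∈ compValOf W ι hker O :=
      ⟨hx, (ValuationSubring.valuation_le_one_iff _ _).mp h1.le⟩
    refine le_antisymm ((ValuationSubring.valuation_le_one_iff _ _).mpr hxc) ?_
    by_contra hnot
    obtain ⟨hx', hlt⟩ := (valuation_compValOf_lt_one_iff W ι hker O).mp (not_le.mp hnot)
    rw [h1] at hlt
    exact lt_irrefl _ hlt

/-- the maximal ideal of `W` is contained in the maximal ideal of the composite. -/
theorem valuation_compValOf_lt_one_of_lt {x : E} (hx : W.valuation x < 1) :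
    (compValOf W ι hker O).valuation x < 1 := by
  have hxW : x ∈ W := (ValuationSubring.valuation_le_one_iff _ _).mp hx.le
  refine (valuation_compValOf_lt_one_iff W ι hker O).mpr ⟨hxW, ?_⟩
  rw [hker ⟨x, hxW⟩ hx, map_zero]
  exact zero_lt_one

/-- units of the composite: subring form. -/
theorem isUnitIn_compValOf_iff {x : E} :
    IsUnitIn (compValOf W ι hker O).toSubring x ↔ ∃ h : x ∈ W, O.valuation (ι ⟨x, h⟩) = 1 := by
  rw [← valuation_compValOf_eq_one_iff W ι hker O]
  constructor
  · rintro ⟨h1, h2, hx0'⟩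
    have h3 : (compValOf W ι hker O).valuation x ≤ 1 :=
      (ValuationSubring.valuation_le_one_iff _ _).mpr h1
    have h4 : (compValOf W ι hker O).valuation x⁻¹ ≤ 1 :=
      (ValuationSubring.valuation_le_one_iff _ _).mpr h2
    have hx0 : x ≠ 0 := hx0'
    rw [map_inv₀] at h4
    have h5 : (compValOf W ι hker O).valuation x ≠ 0 := (Valuation.ne_zero_iff _).mpr hx0
    rw [inv_le_one₀ (zero_lt_iff.mpr h5)] at h4
    exact le_antisymm h3 h4
  · intro h1
    have hx0 : x ≠ 0 := by
      intro h0
      rw [h0, map_zero] at h1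
      exact zero_ne_one h1
    refine ⟨(ValuationSubring.valuation_le_one_iff _ _).mp h1.le, ?_, hx0⟩
    show x⁻¹ ∈ compValOf W ι hker O
    rw [← ValuationSubring.valuation_le_one_iff, map_inv₀, h1, inv_one]

end Comp

section Chart

variable {R : Type*} [CommRing R] {K : Type*} [Field K] [Algebra R K]
  {E : Type*} [Field E] [Algebra K E] [Algebra R E] [IsScalarTower R K E]

/-- a valuation subring containing the constants and the coordinate contains the chart. -/
theorem chartOne_le_of_mem (u : K) (V : ValuationSubring E)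
    (hR : ∀ r : R, algebraMap R E r ∈ V) (hu : algebraMap K E u ∈ V) :
    ∀ b ∈ chartOne R E u, b ∈ V := by
  intro b hb
  rw [mem_chartOne_iff] at hb
  rw [← ValuationSubring.valuation_le_one_iff]
  refine val_le_one_of_isIntegral V.valuation (fun a => ?_) hb
  rw [ValuationSubring.valuation_le_one_iff]
  obtain ⟨a, ha⟩ := a
  induction ha using Algebra.adjoin_induction with
  | mem x hx =>
    rw [Set.mem_singleton_iff] at hx
    subst hx
    exact hu
  | algebraMap r =>
    have : algebraMap ↥(Algebra.adjoin R {u}) E ⟨algebraMap R K r, Subalgebra.algebraMap_mem _ r⟩ =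
        algebraMap R E r := by
      rw [IsScalarTower.algebraMap_apply R K E]; rfl
    rw [this]
    exact hR r
  | add x y hx hy hx' hy' =>
    have : algebraMap ↥(Algebra.adjoin R {u}) E ⟨x + y, Subalgebra.add_mem _ hx hy⟩ =
        algebraMap ↥(Algebra.adjoin R {u}) E ⟨x, hx⟩ +
          algebraMap ↥(Algebra.adjoin R {u}) E ⟨y, hy⟩ := by
      rw [← map_add]; rfl
    rw [this]
    exact V.add_mem _ _ hx' hy'
  | mul x y hx hy hx' hy' =>
    have : algebraMap ↥(Algebra.adjoin R {u}) E ⟨x * y, Subalgebra.mul_mem _ hx hy⟩ =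
        algebraMap ↥(Algebra.adjoin R {u}) E ⟨x, hx⟩ *
          algebraMap ↥(Algebra.adjoin R {u}) E ⟨y, hy⟩ := by
      rw [← map_mul]; rfl
    rw [this]
    exact V.mul_mem _ _ hx' hy'

variable [IsDomain R] [IsDiscreteValuationRing R] [CharZero R] [FiniteDimensional K E]
  {u : K} (V : ValuationSubring E) (hV : ∀ b ∈ chartOne R E u, b ∈ V)

/-- the local ring of the chart at the centre of a valuation subring lies in the valuation
subring. -/
theorem locSub_sheetIdeal_le :
    locSub (chartOne R E u) (sheetIdeal u V hV) ≤ V.toSubring := by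
  rintro x ⟨a, s, hs, hx⟩
  have hs1 : V.valuation (s : E) = 1 := by
    rw [mem_sheetIdeal_iff, not_lt] at hs
    exact le_antisymm ((ValuationSubring.valuation_le_one_iff _ _).mpr (hV _ s.2)) hs
  have hs0 : (s : E) ≠ 0 := by
    intro h0
    rw [h0, map_zero] at hs1
    exact zero_ne_one hs1
  have hxe : x = (a : E) * (s : E)⁻¹ := by
    rw [← hx, mul_assoc, mul_inv_cancel₀ hs0, mul_one]
  show x ∈ V
  rw [← ValuationSubring.valuation_le_one_iff, hxe, map_mul, map_inv₀, hs1, inv_one, mul_one]
  exact (ValuationSubring.valuation_le_one_iff _ _).mpr (hV _ a.2)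

/-- units of the local ring of the chart at the centre are units of the valuation subring. -/
theorem valuation_eq_one_of_isUnitIn_locSub {x : E}
    (hx : IsUnitIn (locSub (chartOne R E u) (sheetIdeal u V hV)) x) : V.valuation x = 1 := by
  have h1 : x ∈ V := locSub_sheetIdeal_le V hV hx.1
  have h2 : x⁻¹ ∈ V := locSub_sheetIdeal_le V hV hx.2.1
  have h3 : V.valuation x ≤ 1 := (ValuationSubring.valuation_le_one_iff _ _).mpr h1
  have h4 : V.valuation x⁻¹ ≤ 1 := (ValuationSubring.valuation_le_one_iff _ _).mpr h2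
  rw [map_inv₀] at h4
  have h5 : V.valuation x ≠ 0 := (Valuation.ne_zero_iff _).mpr hx.2.2
  rw [inv_le_one₀ (zero_lt_iff.mpr h5)] at h4
  exact le_antisymm h3 h4

/-- the centre is maximal as soon as the constants fill the residue field and the structure map
`R → V` is local. -/
theorem sheetIdeal_isMaximal_of_res
    (hres : ∀ b ∈ chartOne R E u, ∃ r : R, V.valuation (b - algebraMap R E r) < 1)
    (hloc : ∀ r : R, V.valuation (algebraMap R E r) = 1 → IsUnit r) :
    (sheetIdeal u V hV).IsMaximal := by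
  rw [Ideal.isMaximal_iff]
  refine ⟨?_, ?_⟩
  · rw [mem_sheetIdeal_iff]
    push_cast
    rw [map_one]
    exact lt_irrefl _
  · intro J b hle hb hbJ
    obtain ⟨r, hr⟩ := hres (b : E) b.2
    set m : ↥(chartOne R E u) := b - algebraMap R ↥(chartOne R E u) r with hm
    have hmE : (m : E) = (b : E) - algebraMap R E r := by
      rw [hm]; push_cast; rfl
    have hmmem : m ∈ sheetIdeal u V hV := by
      rw [mem_sheetIdeal_iff, hmE]; exact hr
    have hrJ : algebraMap R ↥(chartOne R E u) r ∈ J := by
      have : algebraMap R ↥(chartOne R E u) r = b - m := by rw [hm]; ring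
      rw [this]
      exact J.sub_mem hbJ (hle hmmem)
    have hr1 : V.valuation (algebraMap R E r) = 1 := by
      have hb1 : V.valuation (b : E) = 1 := by
        rw [mem_sheetIdeal_iff, not_lt] at hb
        exact le_antisymm ((ValuationSubring.valuation_le_one_iff _ _).mpr (hV _ b.2)) hb
      have : algebraMap R E r = (b : E) - ((b : E) - algebraMap R E r) := by ring
      rw [this]
      by_contra hne
      have h2 : V.valuation ((b : E) - ((b : E) - algebraMap R E r)) ≤ 1 := by
        refine le_trans (Valuation.map_sub _ _ _) (max_le hb1.le hr.le)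
      have h3 : V.valuation ((b : E) - ((b : E) - algebraMap R E r)) < 1 :=
        lt_of_le_of_ne h2 hne
      have h4 : V.valuation (b : E) < 1 := by
        have : (b : E) = ((b : E) - ((b : E) - algebraMap R E r)) +
            ((b : E) - algebraMap R E r) := by ring
        rw [this]
        exact lt_of_le_of_lt (Valuation.map_add _ _ _) (max_lt h3 hr)
      rw [hb1] at h4
      exact lt_irrefl _ h4
    have hu : IsUnit (algebraMap R ↥(chartOne R E u) r) := (hloc r hr1).map _
    exact (Ideal.eq_top_of_isUnit_mem J hrJ hu ▸ Submodule.mem_top)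

end Chart

section CompChart

variable {R : Type*} [CommRing R] [IsDomain R] [IsDiscreteValuationRing R] [CharZero R]
  {K : Type*} [Field K] [Algebra R K]
  {E : Type*} [Field E] [Algebra K E] [Algebra R E] [IsScalarTower R K E] [FiniteDimensional K E]
  {F : Type*} [Field F]
  (W : ValuationSubring E) (ι : ↥W →+* F)
  (hker : ∀ x : ↥W, W.valuation (x : E) < 1 → ι x = 0) (O : ValuationSubring F)
  {u : K} (hB : ∀ b ∈ chartOne R E u, b ∈ compValOf W ι hker O)

/-- the centre of the composite on the chart contains the centre of `W`. -/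
theorem sheetIdeal_le_sheetIdeal_compValOf :
    sheetIdeal u W (fun b hb => (hB b hb).1) ≤ sheetIdeal u (compValOf W ι hker O) hB := by
  intro b hb
  rw [mem_sheetIdeal_iff] at hb ⊢
  exact valuation_compValOf_lt_one_of_lt W ι hker O hb

/-- **a unit of the local ring of the chart at the centre of the composite reduces to a unit of
`O`**. -/
theorem exists_valuation_eq_one_of_isUnitIn_locSub {x : E}
    (hx : IsUnitIn (locSub (chartOne R E u) (sheetIdeal u (compValOf W ι hker O) hB)) x) :
    ∃ h : x ∈ W, O.valuation (ι ⟨x, h⟩) = 1 :=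
  (valuation_compValOf_eq_one_iff W ι hker O).mp
    (valuation_eq_one_of_isUnitIn_locSub (compValOf W ι hker O) hB hx)

end CompChart

end Fermat.Agent.MP
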