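import Mathlib
import Fermat.Agent.NP.BRIDGE_helper5_Pt
import Fermat.Agent.MW.NADIC_helper6_Node

/-!
# Project MP40 — C4 [PL-HOST] helper9: the currency of the node statements

* `IsNodeFact K₁ O p X f k` : `f = c · X ^ k · v · G ^ p` with `c ∈ K₁ˣ`, `v ∈ Oˣ`, `G ≠ 0`
  (`O` the local ring of the model at a node, `X` a node coordinate);
* `ChartNode u Winf W0 hinf h0` : the nodes of the chart `u` of a two-sheeted model = the maximal
  ideals of `chartOne R EN u` which contain both sheet ideals.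

On the hosts: `O = locSub (chartOne R EN j) 𝔪` (as a set this is `locRing (chartOne R EN j) 𝔪`),
`X` any node coordinate in normal form (`Fermat.Agent.MW.NAdic.IsNodeCoord`).
-/

set_option autoImplicit false
set_option linter.unusedSectionVars false

namespace Fermat.Agent.MP

open Fermat.Agent.NP Fermat.Agent.SS

/-- **the factorisation of a function at a node**: `f = c · X ^ k · v · G ^ p`, `c` a non-zero
constant, `v` a unit of the local ring `O`, `G ≠ 0`. -/
def IsNodeFact (K₁ : Type*) [Field K₁] {E : Type*} [Field E] [Algebra K₁ E] (O : Subring E)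
    (p : ℕ) (X f : E) (k : ℤ) : Prop :=
  ∃ (c : K₁) (v G : E), c ≠ 0 ∧ G ≠ 0 ∧ IsUnitIn O v ∧
    f = algebraMap K₁ E c * X ^ k * v * G ^ p

section Node

variable {R : Type*} [CommRing R] {KN : Type*} [Field KN] [Algebra R KN]
  {EN : Type*} [Field EN] [Algebra KN EN] [Algebra R EN] [IsScalarTower R KN EN]

/-- **the nodes of the chart `u`** of a two-sheeted model: the maximal ideals of the chart which
contain both sheet ideals. -/
def ChartNode (u : KN) (Winf W0 : ValuationSubring EN)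
    (hinf : ∀ b ∈ chartOne R EN u, b ∈ Winf) (h0 : ∀ b ∈ chartOne R EN u, b ∈ W0) : Type _ :=
  {𝔪 : Ideal ↥(chartOne R EN u) // 𝔪.IsMaximal ∧ sheetIdeal u Winf hinf ≤ 𝔪 ∧
    sheetIdeal u W0 h0 ≤ 𝔪}

namespace ChartNode

variable {u : KN} {Winf W0 : ValuationSubring EN}
  {hinf : ∀ b ∈ chartOne R EN u, b ∈ Winf} {h0 : ∀ b ∈ chartOne R EN u, b ∈ W0}

instance isMaximal (n : ChartNode u Winf W0 hinf h0) : n.1.IsMaximal := n.2.1

instance isPrime (n : ChartNode u Winf W0 hinf h0) : n.1.IsPrime := n.2.1.isPrime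

theorem inf_le (n : ChartNode u Winf W0 hinf h0) : sheetIdeal u Winf hinf ≤ n.1 := n.2.2.1

theorem zero_le (n : ChartNode u Winf W0 hinf h0) : sheetIdeal u W0 h0 ≤ n.1 := n.2.2.2

end ChartNode

end Node

theorem IsNodeFact.ne_zero {K₁ : Type*} [Field K₁] {E : Type*} [Field E] [Algebra K₁ E]
    {O : Subring E} {p : ℕ} {X f : E} {k : ℤ} (h : IsNodeFact K₁ O p X f k) (hX : X ≠ 0) :
    f ≠ 0 := by
  obtain ⟨c, v, G, hc, hG, hv, rfl⟩ := h
  exact mul_ne_zero (mul_ne_zero (mul_ne_zero ((map_ne_zero _).2 hc) (zpow_ne_zero _ hX)) hv.2.2)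
    (pow_ne_zero _ hG)

end Fermat.Agent.MP
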