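import Mathlib
import Fermat.Agent.MP.DICT_helper1_Comp
import Fermat.Agent.MP.PLHOST_helper9_Defs
import Fermat.Agent.FF.PlaceBasic

/-!
# Project MP40 — C5 [DICT] helper1, abstract part 2: orders of reductions

`W` a valuation subring of `E` with "uniformizer" `π` (every non-zero element of `E` is a power of
`π` times a unit of `W`), `ι : W → F` the reduction map into a function field `F/k`, `Q` a place of
`F/k`.

* `exists_centre_compValOf` : **the centre of `Q` on a chart** `chartOne R E u` (`ū` regular at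
  `Q`): a maximal ideal `𝔪` of the chart, containing the sheet ideal of `W`, such that the units
  of the local ring of the chart at `𝔪` reduce to units at `Q`;
* `RedOrd W π ι Q g n` : `n = ord_Q (ι (g π ^ (-a)))`, `a` the `W`-adic order of `g`;
  multiplicativity, uniqueness, constants, units of the local ring at the centre;
* `RedOrd.dvd_of_isNodeFact` : `f = c X ^ k v G ^ p` at the centre ⇒ `ord f ≡ k · ord X (mod p)`;
  `RedOrd.of_unit_mul_zpow` : `U = w X ^ K` ⇒ `ord U = K · ord X`.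
-/

set_option autoImplicit false
set_option linter.unusedSectionVars false
set_option linter.unusedVariables false

open AlgebraicCurve

namespace Fermat.Agent.MP

open Fermat.Agent.NP Fermat.Agent.SS Fermat.Agent.JA Fermat.Agent.FF

section Centre

variable {R : Type*} [CommRing R] [IsDomain R] [IsDiscreteValuationRing R] [CharZero R]
  {K : Type*} [Field K] [Algebra R K]
  {E : Type*} [Field E] [Algebra K E] [Algebra R E] [IsScalarTower R K E] [FiniteDimensional K E]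
  {F : Type*} [Field F]
  (W : ValuationSubring E) (ι : ↥W →+* F) (O : ValuationSubring F) (u : K)

/-- **the centre on the chart `u` of the composite of `W` and `O`**: if the constants and the
coordinate reduce into `O`, the constants fill the residue field of `O`, and `R → W` is local, then
there is a maximal ideal `𝔪` of the chart containing the sheet ideal of `W`, cut out by
`O.valuation (ι b) < 1`, such that the units of the local ring of the chart at `𝔪` reduce to units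
of `O`. -/
theorem exists_centre_compValOf (hker : ∀ x : ↥W, W.valuation (x : E) < 1 → ι x = 0)
    (hRW : ∀ r : R, algebraMap R E r ∈ W)
    (hιR : ∀ r : R, ι ⟨algebraMap R E r, hRW r⟩ ∈ O)
    (huW : algebraMap K E u ∈ W) (hιu : ι ⟨algebraMap K E u, huW⟩ ∈ O)
    (hres : ∀ y ∈ O, ∃ r : R, O.valuation (y - ι ⟨algebraMap R E r, hRW r⟩) < 1)
    (hloc : ∀ r : R, W.valuation (algebraMap R E r) = 1 → IsUnit r) :
    ∃ (hW : ∀ b ∈ chartOne R E u, b ∈ W) (𝔪 : Ideal ↥(chartOne R E u)) (_ : 𝔪.IsMaximal),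
      sheetIdeal u W hW ≤ 𝔪 ∧
      (∀ b : ↥(chartOne R E u), b ∈ 𝔪 ↔ O.valuation (ι ⟨(b : E), hW _ b.2⟩) < 1) ∧
      ∀ x : E, IsUnitIn (locSub (chartOne R E u) 𝔪) x →
        ∃ h : x ∈ W, O.valuation (ι ⟨x, h⟩) = 1 := by
  have hB : ∀ b ∈ chartOne R E u, b ∈ compValOf W ι hker O :=
    chartOne_le_of_mem u (compValOf W ι hker O) (fun r => ⟨hRW r, hιR r⟩) ⟨huW, hιu⟩
  have hmax : (sheetIdeal u (compValOf W ι hker O) hB).IsMaximal := by
    refine sheetIdeal_isMaximal_of_res (compValOf W ι hker O) hB ?_ ?_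
    · intro b hb
      obtain ⟨r, hr⟩ := hres _ (hB b hb).2
      refine ⟨r, ?_⟩
      rw [valuation_compValOf_lt_one_iff]
      refine ⟨sub_mem (hB b hb).1 (hRW r), ?_⟩
      have : (⟨b - algebraMap R E r, sub_mem (hB b hb).1 (hRW r)⟩ : ↥W) =
          ⟨b, (hB b hb).1⟩ - ⟨algebraMap R E r, hRW r⟩ := rfl
      rw [this, map_sub]
      exact hr
    · intro r hr
      obtain ⟨h, h1⟩ := (valuation_compValOf_eq_one_iff W ι hker O).mp hr
      apply hloc
      refine le_antisymm ((ValuationSubring.valuation_le_one_iff _ _).mpr h) ?_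
      by_contra hnot
      have h0 := hker ⟨algebraMap R E r, h⟩ (not_le.mp hnot)
      rw [h0, map_zero] at h1
      exact zero_ne_one h1
  refine ⟨fun b hb => (hB b hb).1, sheetIdeal u (compValOf W ι hker O) hB, hmax,
    sheetIdeal_le_sheetIdeal_compValOf W ι hker O hB, ?_, ?_⟩
  · intro b
    rw [mem_sheetIdeal_iff, valuation_compValOf_lt_one_iff]
    exact ⟨fun ⟨_, h⟩ => h, fun h => ⟨_, h⟩⟩
  · intro x hx
    exact exists_valuation_eq_one_of_isUnitIn_locSub W ι hker O hB hx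

end Centre

section RedOrd

variable {k : Type*} [Field k] {E : Type*} [Field E] {F : Type*} [Field F] [Algebra k F]
  (W : ValuationSubring E) (π : E) (ι : ↥W →+* F) (Q : Place k F)

/-- `n` is the order at `Q` of the reduction of `g · π ^ (-a)`, `a` the `W`-adic order of `g`. -/
def RedOrd (g : E) (n : ℤ) : Prop :=
  ∃ (a : ℤ) (h : g * (π ^ a)⁻¹ ∈ W),
    W.valuation (g * (π ^ a)⁻¹) = 1 ∧ Q.ord (ι ⟨g * (π ^ a)⁻¹, h⟩) = n

variable {W π ι Q}

theorem map_ne_zero_of_valuation_eq_one {x : E} (hx : x ∈ W) (h1 : W.valuation x = 1) :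
    ι ⟨x, hx⟩ ≠ 0 := by
  have hu : IsUnit (⟨x, hx⟩ : ↥W) := (ValuationSubring.valuation_eq_one_iff W _).mpr h1
  exact (hu.map ι).ne_zero

theorem RedOrd.ne_zero {g : E} {n : ℤ} (h : RedOrd W π ι Q g n) : g ≠ 0 := by
  obtain ⟨a, hm, h1, -⟩ := h
  intro h0
  rw [h0, zero_mul, map_zero] at h1
  exact zero_ne_one h1

theorem RedOrd.mul (hπ : π ≠ 0) {g g' : E} {n n' : ℤ} (h : RedOrd W π ι Q g n)
    (h' : RedOrd W π ι Q g' n') : RedOrd W π ι Q (g * g') (n + n') := by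
  obtain ⟨a, hm, h1, hn⟩ := h
  obtain ⟨a', hm', h1', hn'⟩ := h'
  have he : g * g' * (π ^ (a + a'))⁻¹ = g * (π ^ a)⁻¹ * (g' * (π ^ a')⁻¹) := by
    rw [zpow_add₀ hπ, mul_inv]; ring
  refine ⟨a + a', by rw [he]; exact W.mul_mem _ _ hm hm', by rw [he, map_mul, h1, h1', one_mul], ?_⟩
  have : (⟨g * g' * (π ^ (a + a'))⁻¹, by rw [he]; exact W.mul_mem _ _ hm hm'⟩ : ↥W) =
      ⟨g * (π ^ a)⁻¹, hm⟩ * ⟨g' * (π ^ a')⁻¹, hm'⟩ := Subtype.ext he
  rw [this, map_mul, Q.ord_mul (map_ne_zero_of_valuation_eq_one hm h1)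
    (map_ne_zero_of_valuation_eq_one hm' h1'), hn, hn']

theorem RedOrd.inv (hπ : π ≠ 0) {g : E} {n : ℤ} (h : RedOrd W π ι Q g n) :
    RedOrd W π ι Q g⁻¹ (-n) := by
  obtain ⟨a, hm, h1, hn⟩ := h
  have he : g⁻¹ * (π ^ (-a))⁻¹ = (g * (π ^ a)⁻¹)⁻¹ := by
    rw [zpow_neg, mul_inv]
  have hm' : g⁻¹ * (π ^ (-a))⁻¹ ∈ W := by
    rw [he, ← ValuationSubring.valuation_le_one_iff, map_inv₀, h1, inv_one]
  refine ⟨-a, hm', by rw [he, map_inv₀, h1, inv_one], ?_⟩
  have hmul : ι ⟨g * (π ^ a)⁻¹, hm⟩ * ι ⟨g⁻¹ * (π ^ (-a))⁻¹, hm'⟩ = 1 := by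
    rw [← map_mul]
    have : (⟨g * (π ^ a)⁻¹, hm⟩ : ↥W) * ⟨g⁻¹ * (π ^ (-a))⁻¹, hm'⟩ = 1 := by
      apply Subtype.ext
      show g * (π ^ a)⁻¹ * (g⁻¹ * (π ^ (-a))⁻¹) = 1
      rw [he]
      refine mul_inv_cancel₀ ?_
      intro h0
      rw [h0, map_zero] at h1
      exact zero_ne_one h1
    rw [this, map_one]
  rw [eq_inv_of_mul_eq_one_right hmul, Q.ord_inv, hn]

theorem RedOrd.one : RedOrd W π ι Q 1 0 := by
  refine ⟨0, by rw [zpow_zero, inv_one, mul_one]; exact W.one_mem, by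
    rw [zpow_zero, inv_one, mul_one, map_one], ?_⟩
  have : (⟨1 * (π ^ (0 : ℤ))⁻¹, by rw [zpow_zero, inv_one, mul_one]; exact W.one_mem⟩ : ↥W) = 1 := by
    apply Subtype.ext
    show 1 * (π ^ (0 : ℤ))⁻¹ = 1
    rw [zpow_zero, inv_one, mul_one]
  rw [this, map_one, Q.ord_one]

theorem RedOrd.pow (hπ : π ≠ 0) {g : E} {n : ℤ} (h : RedOrd W π ι Q g n) (m : ℕ) :
    RedOrd W π ι Q (g ^ m) (m * n) := by
  induction m with
  | zero => rw [pow_zero, Nat.cast_zero, zero_mul]; exact RedOrd.one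
  | succ m ih =>
    rw [pow_succ, Nat.cast_succ, add_mul, one_mul]
    exact ih.mul hπ h

theorem RedOrd.zpow (hπ : π ≠ 0) {g : E} {n : ℤ} (h : RedOrd W π ι Q g n) (m : ℤ) :
    RedOrd W π ι Q (g ^ m) (m * n) := by
  obtain ⟨d, rfl | rfl⟩ := m.eq_nat_or_neg
  · rw [zpow_natCast]; exact h.pow hπ d
  · rw [zpow_neg, zpow_natCast, neg_mul]; exact (h.pow hπ d).inv hπ

/-- the power of `π`. -/
theorem RedOrd.pi_zpow (hπ : π ≠ 0) (a : ℤ) : RedOrd W π ι Q (π ^ a) 0 := by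
  have he : π ^ a * (π ^ a)⁻¹ = 1 := mul_inv_cancel₀ (zpow_ne_zero _ hπ)
  refine ⟨a, by rw [he]; exact W.one_mem, by rw [he, map_one], ?_⟩
  have : (⟨π ^ a * (π ^ a)⁻¹, by rw [he]; exact W.one_mem⟩ : ↥W) = 1 := Subtype.ext he
  rw [this, map_one, Q.ord_one]

/-- units of `W`. -/
theorem RedOrd.of_valuation_eq_one {x : E} (hx : x ∈ W) (h1 : W.valuation x = 1) :
    RedOrd W π ι Q x (Q.ord (ι ⟨x, hx⟩)) := by
  have he : x * (π ^ (0 : ℤ))⁻¹ = x := by rw [zpow_zero, inv_one, mul_one]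
  refine ⟨0, by rw [he]; exact hx, by rw [he]; exact h1, ?_⟩
  have : (⟨x * (π ^ (0 : ℤ))⁻¹, by rw [he]; exact hx⟩ : ↥W) = ⟨x, hx⟩ := Subtype.ext he
  rw [this]

/-- elements reducing to units of `Q`. -/
theorem RedOrd.of_valuation_eq_one' {x : E} (hx : x ∈ W)
    (h1 : Q.toValuationSubring.valuation (ι ⟨x, hx⟩) = 1)
    (hker : ∀ x : ↥W, W.valuation (x : E) < 1 → ι x = 0) :
    RedOrd W π ι Q x 0 := by
  have hne : ι ⟨x, hx⟩ ≠ 0 := by
    intro h0
    rw [h0, map_zero] at h1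
    exact zero_ne_one h1
  have h1W : W.valuation x = 1 := by
    refine le_antisymm ((ValuationSubring.valuation_le_one_iff _ _).mpr hx) ?_
    by_contra hnot
    exact hne (hker ⟨x, hx⟩ (not_le.mp hnot))
  have h2 := RedOrd.of_valuation_eq_one (π := π) (ι := ι) (Q := Q) hx h1W
  have h3 : Q.ord (ι ⟨x, hx⟩) = 0 := by
    have hm : ι ⟨x, hx⟩ ∈ Q.toValuationSubring :=
      (ValuationSubring.valuation_le_one_iff _ _).mp h1.le
    have hm' : (ι ⟨x, hx⟩)⁻¹ ∈ Q.toValuationSubring := by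
      rw [← ValuationSubring.valuation_le_one_iff, map_inv₀, h1, inv_one]
    have h4 := PlaceAux.ord_nonneg_of_mem Q hm
    have h5 := PlaceAux.ord_nonneg_of_mem Q hm'
    rw [Q.ord_inv] at h5
    omega
  rwa [h3] at h2

/-- uniqueness. -/
theorem RedOrd.unique (hπ : π ≠ 0) (hπ1 : W.valuation π < 1) {g : E} {n n' : ℤ}
    (h : RedOrd W π ι Q g n) (h' : RedOrd W π ι Q g n') : n = n' := by
  have hg := h.ne_zero
  obtain ⟨a, hm, h1, hn⟩ := h
  obtain ⟨a', hm', h1', hn'⟩ := h'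
  have hv0 : W.valuation π ≠ 0 := (Valuation.ne_zero_iff _).mpr hπ
  have e1 : W.valuation g = W.valuation π ^ a := by
    rw [map_mul, map_inv₀, map_zpow₀] at h1
    exact (mul_inv_eq_one₀ (zpow_ne_zero _ hv0)).mp h1
  have e2 : W.valuation g = W.valuation π ^ a' := by
    rw [map_mul, map_inv₀, map_zpow₀] at h1'
    exact (mul_inv_eq_one₀ (zpow_ne_zero _ hv0)).mp h1'
  have haa : a = a' := by
    have h3 : W.valuation π ^ a = W.valuation π ^ a' := e1.symm.trans e2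
    by_contra hne
    rcases lt_or_gt_of_ne hne with hlt | hlt
    · have := zpow_lt_zpow_right_of_lt_one₀ (zero_lt_iff.mpr hv0) hπ1 hlt
      rw [h3] at this
      exact lt_irrefl _ this
    · have := zpow_lt_zpow_right_of_lt_one₀ (zero_lt_iff.mpr hv0) hπ1 hlt
      rw [h3] at this
      exact lt_irrefl _ this
  subst haa
  rw [← hn, ← hn']

end RedOrd

section NodeFact

variable {k : Type*} [Field k] {K₁ : Type*} [Field K₁] {E : Type*} [Field E] [Algebra K₁ E]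
  {F : Type*} [Field F] [Algebra k F]
  {W : ValuationSubring E} {π : E} {ι : ↥W →+* F} {Q : Place k F}

/-- **the order of a function factorised at the centre**: `f = c X ^ k v G ^ p` with `c` a
constant, `v` a unit of the local ring `O` at the centre ⇒ `ord f ≡ k · ord X (mod p)`. -/
theorem RedOrd.dvd_of_isNodeFact (hπ : π ≠ 0) (hπ1 : W.valuation π < 1)
    (hex : ∀ g : E, g ≠ 0 → ∃ n, RedOrd W π ι Q g n)
    (hconst : ∀ c : K₁, c ≠ 0 → RedOrd W π ι Q (algebraMap K₁ E c) 0)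
    {O : Subring E} (hunit : ∀ v : E, IsUnitIn O v → RedOrd W π ι Q v 0)
    {p : ℕ} {X f : E} {kk : ℤ} (h : IsNodeFact K₁ O p X f kk) {x n : ℤ}
    (hX : RedOrd W π ι Q X x) (hf : RedOrd W π ι Q f n) : (p : ℤ) ∣ n - kk * x := by
  obtain ⟨c, v, G, hc, hG, hv, rfl⟩ := h
  obtain ⟨m, hm⟩ := hex G hG
  have h1 : RedOrd W π ι Q (algebraMap K₁ E c * X ^ kk * v * G ^ p) (0 + kk * x + 0 + p * m) :=
    (((hconst c hc).mul hπ (hX.zpow hπ kk)).mul hπ (hunit v hv)).mul hπ (hm.pow hπ p)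
  have h2 := RedOrd.unique hπ hπ1 hf h1
  rw [h2]
  exact ⟨m, by ring⟩

/-- `U = w X ^ K` with `w` a unit of the local ring at the centre ⇒ `ord U = K · ord X`. -/
theorem RedOrd.of_unit_mul_zpow (hπ : π ≠ 0)
    {O : Subring E} (hunit : ∀ v : E, IsUnitIn O v → RedOrd W π ι Q v 0)
    {X U w : E} {KK : ℤ} (hw : IsUnitIn O w) (hU : U = w * X ^ KK) {x : ℤ}
    (hX : RedOrd W π ι Q X x) : RedOrd W π ι Q U (KK * x) := by
  have h1 := (hunit w hw).mul hπ (hX.zpow hπ KK)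
  rw [zero_add] at h1
  rw [hU]
  exact h1

/-- smooth centres: `f = c v G ^ p` ⇒ `p ∣ ord f`. -/
theorem RedOrd.dvd_of_smooth_fact (hπ : π ≠ 0) (hπ1 : W.valuation π < 1)
    (hex : ∀ g : E, g ≠ 0 → ∃ n, RedOrd W π ι Q g n)
    (hconst : ∀ c : K₁, c ≠ 0 → RedOrd W π ι Q (algebraMap K₁ E c) 0)
    {O : Subring E} (hunit : ∀ v : E, IsUnitIn O v → RedOrd W π ι Q v 0)
    {p : ℕ} {f : E} (h : ∃ (c : K₁) (v G : E), c ≠ 0 ∧ G ≠ 0 ∧ IsUnitIn O v ∧
      f = algebraMap K₁ E c * v * G ^ p) {n : ℤ} (hf : RedOrd W π ι Q f n) : (p : ℤ) ∣ n := by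
  obtain ⟨c, v, G, hc, hG, hv, rfl⟩ := h
  obtain ⟨m, hm⟩ := hex G hG
  have h1 : RedOrd W π ι Q (algebraMap K₁ E c * v * G ^ p) (0 + 0 + p * m) :=
    ((hconst c hc).mul hπ (hunit v hv)).mul hπ (hm.pow hπ p)
  have h2 := RedOrd.unique hπ hπ1 hf h1
  rw [h2]
  exact ⟨m, by ring⟩

end NodeFact

end Fermat.Agent.MP
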