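import Mathlib
import Fermat.Agent.NP.BRIDGE_helper5_Pt
import Fermat.Agent.SS.REG_helper8_Node
import Fermat.Agent.JA.REDA_helper1_Chart
import Fermat.Agent.SS.MODLOC_helper5_Core

/-!
# Project MP40 — C4 [PL-HOST] helper6, [LOC]: the localisation `B_𝔪` versus the subring
`locSub B 𝔪 ⊂ F`

`B : Subalgebra R F` a chart with fraction field `F`, `𝔪` a prime of `B`; the abstract localisation
`Localization.AtPrime 𝔪` (currency of `IsNodePair`, `IsNodeCoord`) embeds into `F` with image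
`locSub B 𝔪` (currency of `LocalPt`, `PiDvd`, `IsUnitIn`).

* `algebraMap_loc_mem_locSub`, `exists_loc_eq_of_mem_locSub` : the image is `locSub B 𝔪`;
* `mk'_mem_map_loc_iff` : `a / s ∈ 𝔭 B_𝔪 ↔ a ∈ 𝔭` for a prime `𝔭 ≤ 𝔪`;
* `piDvd_loc_iff_mem_map` : `z ∈ 𝔭 B_𝔪 ↔ π ∣ z` in `B_𝔭` when `𝔭` is locally generated by `π`;
* `isUnitIn_loc_of_notMem_map`, `isUnitIn_loc_of_isUnit`;
* `IsNodePair.exists_eq_unit_mul_add` : a uniformizer of the branch `0` lying on the branch `∞` is a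
  unit times `y` modulo `π`.
-/

set_option autoImplicit false
set_option linter.unusedSectionVars false
set_option linter.unusedVariables false
set_option linter.style.haveILetI false

namespace Fermat.Agent.MP

open Fermat.Agent.NP Fermat.Agent.SS Fermat.Agent.JA

section Loc

attribute [local instance] locAlgebra

variable {R : Type*} [CommRing R] {F : Type*} [Field F] [Algebra R F]
  {B : Subalgebra R F} [IsFractionRing ↥B F] {𝔪 : Ideal ↥B} [h𝔪 : 𝔪.IsPrime]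

/-- the image of `a / s`. -/
theorem algebraMap_loc_mk' (a : ↥B) (s : 𝔪.primeCompl) :
    algebraMap (Localization.AtPrime 𝔪) F (IsLocalization.mk' (Localization.AtPrime 𝔪) a s) =
      (a : F) * ((s : ↥B) : F)⁻¹ :=
  locAlgebra_mk' 𝔪 a s

theorem coe_ne_zero_of_notMem {s : ↥B} (hs : s ∉ 𝔪) : ((s : ↥B) : F) ≠ 0 := by
  intro h0
  apply hs
  have : s = 0 := Subtype.ext h0
  rw [this]
  exact 𝔪.zero_mem

/-- the image of the localisation lies in `locSub B 𝔪`. -/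
theorem algebraMap_loc_mem_locSub (z : Localization.AtPrime 𝔪) :
    algebraMap (Localization.AtPrime 𝔪) F z ∈ locSub B 𝔪 := by
  obtain ⟨a, s, rfl⟩ := IsLocalization.exists_mk'_eq 𝔪.primeCompl z
  rw [algebraMap_loc_mk']
  refine ⟨a, s.1, s.2, ?_⟩
  rw [mul_assoc, inv_mul_cancel₀ (coe_ne_zero_of_notMem s.2), mul_one]

/-- every element of `locSub B 𝔪` is the image of an element of the localisation. -/
theorem exists_loc_eq_of_mem_locSub {e : F} (he : e ∈ locSub B 𝔪) :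
    ∃ z : Localization.AtPrime 𝔪, algebraMap (Localization.AtPrime 𝔪) F z = e := by
  obtain ⟨a, s, hs, has⟩ := he
  refine ⟨IsLocalization.mk' (Localization.AtPrime 𝔪) a (⟨s, hs⟩ : 𝔪.primeCompl), ?_⟩
  rw [algebraMap_loc_mk']
  show (a : F) * ((s : ↥B) : F)⁻¹ = e
  rw [← has, mul_assoc, mul_inv_cancel₀ (coe_ne_zero_of_notMem hs), mul_one]

/-- the embedding of the localisation is injective. -/
theorem algebraMap_loc_injective :
    Function.Injective (algebraMap (Localization.AtPrime 𝔪) F) := by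
  haveI := locAlgebra_isFractionRing (E := F) 𝔪
  exact IsFractionRing.injective (Localization.AtPrime 𝔪) F

/-- `a / s ∈ 𝔭 B_𝔪 ↔ a ∈ 𝔭` for a prime `𝔭 ≤ 𝔪`. -/
theorem mk'_mem_map_loc_iff {𝔭 : Ideal ↥B} [h𝔭 : 𝔭.IsPrime] (hle : 𝔭 ≤ 𝔪) (a : ↥B)
    (s : 𝔪.primeCompl) :
    IsLocalization.mk' (Localization.AtPrime 𝔪) a s ∈
      𝔭.map (algebraMap ↥B (Localization.AtPrime 𝔪)) ↔ a ∈ 𝔭 := by
  rw [IsLocalization.mk'_mem_map_algebraMap_iff 𝔪.primeCompl]
  constructor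
  · rintro ⟨s', hs', h⟩
    rcases h𝔭.mem_or_mem h with h1 | h1
    · exact absurd (hle h1) hs'
    · exact h1
  · intro ha
    exact ⟨1, Submonoid.one_mem _, by rw [one_mul]; exact ha⟩

/-- `z ∈ 𝔭 B_𝔪 ↔ π ∣ z` in `B_𝔭`, when `𝔭 ≤ 𝔪` is locally generated by `π`. -/
theorem piDvd_loc_iff_mem_map {π : R} {𝔭 : Ideal ↥B} [h𝔭 : 𝔭.IsPrime] (hle : 𝔭 ≤ 𝔪)
    (hπ𝔭 : algebraMap R ↥B π ∈ 𝔭)
    (hloc : ∀ z ∈ 𝔭, ∃ s : ↥B, s ∉ 𝔭 ∧ algebraMap R ↥B π ∣ s * z)
    (z : Localization.AtPrime 𝔪) :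
    PiDvd (algebraMap R F π) (locSub B 𝔭) 1 (algebraMap (Localization.AtPrime 𝔪) F z) ↔
      z ∈ 𝔭.map (algebraMap ↥B (Localization.AtPrime 𝔪)) := by
  obtain ⟨a, s, rfl⟩ := IsLocalization.exists_mk'_eq 𝔪.primeCompl z
  rw [mk'_mem_map_loc_iff hle, algebraMap_loc_mk']
  have hs : (s : ↥B) ∉ 𝔭 := fun h => s.2 (hle h)
  have hx : (a : F) * ((s : ↥B) : F)⁻¹ * ((s : ↥B) : F) = (a : F) := by
    rw [mul_assoc, inv_mul_cancel₀ (coe_ne_zero_of_notMem s.2), mul_one]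
  exact piDvd_one_locSub_iff hπ𝔭 hloc hs hx

/-- an element of `B_𝔪` outside `𝔭 B_𝔪` is a unit of `B_𝔭`. -/
theorem isUnitIn_loc_of_notMem_map {𝔭 : Ideal ↥B} [h𝔭 : 𝔭.IsPrime] (hle : 𝔭 ≤ 𝔪)
    {z : Localization.AtPrime 𝔪} (hz : z ∉ 𝔭.map (algebraMap ↥B (Localization.AtPrime 𝔪))) :
    IsUnitIn (locSub B 𝔭) (algebraMap (Localization.AtPrime 𝔪) F z) := by
  obtain ⟨a, s, rfl⟩ := IsLocalization.exists_mk'_eq 𝔪.primeCompl z
  rw [mk'_mem_map_loc_iff hle] at hz
  rw [algebraMap_loc_mk']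
  have hs : (s : ↥B) ∉ 𝔭 := fun h => s.2 (hle h)
  refine isUnitIn_locSub_iff.2 ⟨a, s, hz, hs, ?_⟩
  rw [mul_assoc, inv_mul_cancel₀ (coe_ne_zero_of_notMem s.2), mul_one]

/-- a unit of `B_𝔪` is a unit of `locSub B 𝔪`. -/
theorem isUnitIn_loc_of_isUnit {z : Localization.AtPrime 𝔪} (hz : IsUnit z) :
    IsUnitIn (locSub B 𝔪) (algebraMap (Localization.AtPrime 𝔪) F z) := by
  obtain ⟨u, rfl⟩ := hz
  have h1 : algebraMap (Localization.AtPrime 𝔪) F (u : Localization.AtPrime 𝔪) *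
      algebraMap (Localization.AtPrime 𝔪) F ((u⁻¹ : (Localization.AtPrime 𝔪)ˣ) :
        Localization.AtPrime 𝔪) = 1 := by
    rw [← map_mul, Units.mul_inv, map_one]
  have h0 : algebraMap (Localization.AtPrime 𝔪) F (u : Localization.AtPrime 𝔪) ≠ 0 := by
    intro h
    rw [h, zero_mul] at h1
    exact zero_ne_one h1
  refine ⟨algebraMap_loc_mem_locSub _, ?_, h0⟩
  rw [inv_eq_of_mul_eq_one_right h1]
  exact algebraMap_loc_mem_locSub _

end Loc

section Pair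

variable {O : Type*} [CommRing O] [IsLocalRing O] {π : O} {P0 Pinf : Ideal O} {x y : O}

/-- **a uniformizer of the branch `0` lying on the branch `∞` is a unit times `y` modulo `π`.** -/
theorem IsNodePair.exists_eq_unit_mul_add (h : IsNodePair P0 Pinf x y) [hP0 : P0.IsPrime]
    [hPinf : Pinf.IsPrime] (hπ0 : π ∈ P0) (hπinf : π ∈ Pinf)
    (hinf : P0 ⊓ Pinf ≤ Ideal.span {π}) {y₀ : O} (hy₀ : y₀ ∈ Pinf)
    (hgen : ∃ a u : O, IsUnit u ∧ u * y - a * y₀ ∈ P0) :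
    ∃ a b : O, IsUnit a ∧ y₀ = a * y + π * b := by
  have hmem : y₀ ∈ Ideal.span {y, π} := by
    rw [← h.Pinf_eq hπinf hinf]
    exact hy₀
  obtain ⟨a, b, hab⟩ := Ideal.mem_span_pair.mp hmem
  refine ⟨a, b, ?_, by rw [← hab]; ring⟩
  obtain ⟨a', u, hu, hrel⟩ := hgen
  -- `y (u - a' a) ∈ P0`
  have h1 : y * (u - a' * a) ∈ P0 := by
    have e : y * (u - a' * a) = (u * y - a' * y₀) + a' * b * π := by
      rw [← hab]; ring
    rw [e]
    exact P0.add_mem hrel (P0.mul_mem_left _ hπ0)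
  have h2 : u - a' * a ∈ P0 := (hP0.mem_or_mem h1).resolve_left h.y_notMem
  have h3 : u - a' * a ∈ IsLocalRing.maximalIdeal O := IsLocalRing.le_maximalIdeal hP0.ne_top h2
  -- `a' a` is a unit
  have h4 : IsUnit (a' * a) := by
    by_contra hnu
    have h5 : a' * a ∈ IsLocalRing.maximalIdeal O := (IsLocalRing.mem_maximalIdeal _).mpr hnu
    have h6 : u ∈ IsLocalRing.maximalIdeal O := by
      have : u = (u - a' * a) + a' * a := by ring
      rw [this]
      exact Ideal.add_mem _ h3 h5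
    exact (IsLocalRing.mem_maximalIdeal _).mp h6 hu
  exact isUnit_of_mul_isUnit_right h4

end Pair

section Branch

variable {B : Type*} [CommRing B] {𝔭 𝔪 : Ideal B} [h𝔪 : 𝔪.IsPrime]

/-- a branch uniformizer generates the maximal ideal of `B_𝔪` modulo `𝔭 B_𝔪`, up to a unit. -/
theorem IsBranchUniformizer.exists_unit_mul_sub_mem_map {y₀ : B}
    (hbr : IsBranchUniformizer 𝔭 𝔪 y₀) {y : Localization.AtPrime 𝔪}
    (hy : y ∈ IsLocalRing.maximalIdeal (Localization.AtPrime 𝔪)) :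
    ∃ a u : Localization.AtPrime 𝔪, IsUnit u ∧
      u * y - a * algebraMap B (Localization.AtPrime 𝔪) y₀ ∈
        𝔭.map (algebraMap B (Localization.AtPrime 𝔪)) := by
  obtain ⟨w, σ, rfl⟩ := IsLocalization.exists_mk'_eq 𝔪.primeCompl y
  have hw : w ∈ 𝔪 :=
    (IsLocalization.AtPrime.mk'_mem_maximal_iff (Localization.AtPrime 𝔪) 𝔪 w σ).mp hy
  obtain ⟨a', s, hs, hrel⟩ := hbr.gen w hw
  refine ⟨algebraMap B (Localization.AtPrime 𝔪) a',
    algebraMap B (Localization.AtPrime 𝔪) s * algebraMap B (Localization.AtPrime 𝔪) (σ : B),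
    ?_, ?_⟩
  · exact (IsLocalization.map_units (Localization.AtPrime 𝔪) (⟨s, hs⟩ : 𝔪.primeCompl)).mul
      (IsLocalization.map_units (Localization.AtPrime 𝔪) σ)
  · have h1 : IsLocalization.mk' (Localization.AtPrime 𝔪) w σ *
        algebraMap B (Localization.AtPrime 𝔪) (σ : B) = algebraMap B (Localization.AtPrime 𝔪) w :=
      IsLocalization.mk'_spec _ w σ
    have e : algebraMap B (Localization.AtPrime 𝔪) s *
        algebraMap B (Localization.AtPrime 𝔪) (σ : B) *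
          IsLocalization.mk' (Localization.AtPrime 𝔪) w σ -
        algebraMap B (Localization.AtPrime 𝔪) a' * algebraMap B (Localization.AtPrime 𝔪) y₀ =
        algebraMap B (Localization.AtPrime 𝔪) (s * w - a' * y₀) := by
      rw [map_sub, map_mul, map_mul, ← h1]
      ring
    rw [e]
    exact Ideal.mem_map_of_mem _ hrel

end Branch

end Fermat.Agent.MP
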