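import Mathlib
import Fermat.Agent.MP.PLHOST_helper9_Defs
import Fermat.Agent.NP.HOSTP_helper5_Sheets
import Fermat.Agent.NP.HOSTP_helper5_Kum
import Fermat.Agent.NP.SMOOTHQ_helper5_Fact
import Fermat.Agent.SS.GSIGMA_helper5_Abs

/-!
# Project MP40 — C4 [PL-HOST] helper9: the smooth closed points of a model chart

For a chart `chartOne R EN u` of a two-sheeted model (`IsTwoSheet π u Winf W0`, `IsModelChart`):

* `exists_smoothPt` : the `LocalPt` of a closed point lying on exactly one component, with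
  prescribed sheet;
* `map_mem_locSub_of_ringHom` : stability of the local rings under a ring endomorphism which is
  the identity modulo the sheet ideal;
* `exists_fact_smooth` : the factorisation `f = c · v · G ^ p`, `v` a unit of the local ring, from
  `p ∣ ord_P f` at all places.
-/

set_option autoImplicit false
set_option linter.unusedSectionVars false
set_option linter.unusedVariables false
set_option linter.style.haveILetI false

open AlgebraicCurve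

namespace Fermat.Agent.MP

open Fermat.Agent.NP Fermat.Agent.SS Fermat.Agent.JA Fermat.Agent.FF

section Abstract

variable {R : Type*} [CommRing R] [IsDomain R] [IsDiscreteValuationRing R]
  {K₁ : Type*} [Field K₁] [Algebra R K₁] [IsFractionRing R K₁]
  {F : Type*} [Field F] [Algebra K₁ F] [Algebra R F] [IsScalarTower R K₁ F]
  {B : Subalgebra R F} [IsNoetherianRing ↥B] [IsFractionRing ↥B F]
  {π : R} (hπ : Irreducible π) {p : ℕ} (hp : p.Prime) {e₁ : ℕ} (he₁ : 0 < e₁) {ε : Rˣ}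
  (hpe : (p : R) = ε * π ^ e₁) (hAC : ResAlgClosed π)

/-- **the `LocalPt` of a closed point on exactly one component, with prescribed sheet.** -/
theorem exists_smoothPt {𝔭 𝔭' : Ideal ↥B} [h𝔭 : 𝔭.IsPrime] (hπ𝔭 : algebraMap R ↥B π ∈ 𝔭)
    (hinf : 𝔭 ⊓ 𝔭' ≤ Ideal.span {algebraMap R ↥B π})
    (𝔪 : Ideal ↥B) [h𝔪 : 𝔪.IsMaximal] (hle : 𝔭 ≤ 𝔪) (hnle : ¬ 𝔭' ≤ 𝔪)
    {z : ↥B} (hz : IsBranchUniformizer 𝔭 𝔪 z)
    (hres : ∀ b : ↥B, ∃ a : R, b - algebraMap R ↥B a ∈ 𝔪)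
    (S : Sheet (chartDepthBase (K₁ := K₁) (F := F) hπ hp he₁ hpe hAC)) (hS : S.W = locSub B 𝔭) :
    ∃ L : LocalPt (chartDepthBase (K₁ := K₁) (F := F) hπ hp he₁ hpe hAC) Unit,
      L.R' = locSub B 𝔪 ∧ ∀ k, L.sheet k = S := by
  obtain ⟨b', hb'0, hb'𝔪⟩ := Set.not_subset.mp hnle
  have hk1 : ∀ a ∈ 𝔭, ∃ b : ↥B, b ∉ 𝔪 ∧ algebraMap R ↥B π ∣ b * a := by
    intro a ha
    refine ⟨b', hb'𝔪, Ideal.mem_span_singleton.1 (hinf ⟨?_, ?_⟩)⟩
    · exact 𝔭.mul_mem_left _ ha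
    · exact 𝔭'.mul_mem_right _ hb'0
  refine ⟨chartLocalPtSmooth (K₁ := K₁) (F := F) hπ hp he₁ hpe hAC 𝔭 𝔪 hle hπ𝔭 hk1 hz hres,
    rfl, fun k => Sheet.ext' ?_⟩
  rw [hS]
  rfl

end Abstract

section Stable

variable {R : Type*} [CommRing R] {F : Type*} [Field F] [Algebra R F]

/-- **stability of a local ring of the chart under a ring endomorphism** mapping the chart into
itself and the complement of `𝔪` into itself. -/
theorem map_mem_locSub_of_ringHom (B : Subalgebra R F) (𝔪 : Ideal ↥B) [h𝔪 : 𝔪.IsPrime]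
    (τ : F →+* F) (hτB : ∀ b ∈ B, τ b ∈ B)
    (hτ𝔪 : ∀ b : ↥B, b ∉ 𝔪 → (⟨τ (b : F), hτB _ b.2⟩ : ↥B) ∉ 𝔪)
    {x : F} (hx : x ∈ locSub B 𝔪) : τ x ∈ locSub B 𝔪 := by
  obtain ⟨a, s, hs, hxs⟩ := hx
  refine ⟨⟨τ (a : F), hτB _ a.2⟩, ⟨τ (s : F), hτB _ s.2⟩, hτ𝔪 s hs, ?_⟩
  show τ x * τ (s : F) = τ (a : F)
  rw [← map_mul, hxs]

end Stable

section Fact

variable {R : Type*} [CommRing R] [IsDomain R] [IsDiscreteValuationRing R]
  [CharZero R] {K₁ : Type*} [Field K₁] [Algebra R K₁]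
  [IsFractionRing R K₁] {K : Type*} [Field K] [Algebra K₁ K] [Algebra R K] [IsScalarTower R K₁ K]
  {F : Type*} [Field F] [Algebra K F] [Algebra K₁ F] [IsScalarTower K₁ K F] [Algebra R F]
  [IsScalarTower R K F] [FiniteDimensional K F]

/-- **the factorisation at a smooth closed point**: a function which is a unit along the component
`𝔭` and whose orders at all places are divisible by `m` is `γ ^ m ·` unit of the local ring. -/
theorem exists_fact_smooth_of_place (t : K) (ht : Transcendental K₁ t)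
    (hK : IntermediateField.adjoin K₁ {t} = ⊤) {π : R} (hπ : Irreducible π)
    {𝔭 𝔭' : Ideal ↥(chartOne R F t)} [h𝔭 : 𝔭.IsPrime]
    (hπ𝔭 : algebraMap R ↥(chartOne R F t) π ∈ 𝔭)
    (hinf : 𝔭 ⊓ 𝔭' ≤ Ideal.span {algebraMap R ↥(chartOne R F t) π})
    (𝔪 : Ideal ↥(chartOne R F t)) [h𝔪 : 𝔪.IsMaximal] (hle : 𝔭 ≤ 𝔪) (hnle : ¬ 𝔭' ≤ 𝔪)
    {z : ↥(chartOne R F t)} (hz : IsBranchUniformizer 𝔭 𝔪 z)
    {m : ℕ} (hm : m ≠ 0) {g : F} (hg : g ≠ 0) (hord : ∀ P : Place K₁ F, (m : ℤ) ∣ P.ord g)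
    (hgu : IsUnitAtPrime 𝔭 g) :
    ∃ γ : F, γ ≠ 0 ∧ IsUnitIn (locSub (chartOne R F t) 𝔪) (g * (γ ^ m)⁻¹) := by
  haveI : IsScalarTower R K₁ F := isScalarTower_base_const R K₁ K F
  haveI : IsIntegrallyClosed ↥(chartOne R F t) := isIntegrallyClosed_chartOne (K₁ := K₁) t hK
  haveI : IsNoetherianRing ↥(chartOne R F t) := isNoetherianRing_chartOne (K₁ := K₁) t ht hK
  haveI : IsFractionRing ↥(chartOne R F t) F := isFractionRing_chartOne (K₁ := K₁) t hK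
  have hS : 𝔪.primeCompl ≤ nonZeroDivisors ↥(chartOne R F t) := by
    intro s hs
    exact mem_nonZeroDivisors_of_ne_zero (fun h0 => hs (h0 ▸ 𝔪.zero_mem))
  haveI : IsIntegrallyClosed (Localization.AtPrime 𝔪) :=
    isIntegrallyClosed_of_isLocalization (Localization.AtPrime 𝔪) 𝔪.primeCompl hS
  have hunits : ∀ s : 𝔪.primeCompl, IsUnit (algebraMap ↥(chartOne R F t) F s) := fun s =>
    Localization.map_isUnit_of_le F 𝔪.primeCompl hS s
  letI : Algebra (Localization.AtPrime 𝔪) F :=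
    (IsLocalization.lift (M := 𝔪.primeCompl) (S := Localization.AtPrime 𝔪) hunits).toAlgebra
  haveI : IsScalarTower ↥(chartOne R F t) (Localization.AtPrime 𝔪) F :=
    IsScalarTower.of_algebraMap_eq (fun b => (IsLocalization.lift_eq hunits b).symm)
  haveI : IsFractionRing (Localization.AtPrime 𝔪) F :=
    IsFractionRing.isFractionRing_of_isDomain_of_isLocalization 𝔪.primeCompl
      (Localization.AtPrime 𝔪) F
  have hπne : algebraMap R ↥(chartOne R F t) π ≠ 0 := by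
    intro h0
    have h1 : algebraMap R F π = 0 := by
      have : ((algebraMap R ↥(chartOne R F t) π : ↥(chartOne R F t)) : F) = 0 := by rw [h0]; rfl
      exact this
    exact hπ.ne_zero (algebraMap_injective_base K₁ F (by rw [h1, map_zero]))
  obtain ⟨γ, hγ, r, s, hr, hs, hrs⟩ := exists_kummer_at_smoothQ (R := Localization.AtPrime 𝔪) 𝔪
    hπne (𝔭 := 𝔭) (𝔭' := 𝔭') hπ𝔭 hinf hle hnle hz hm hg
    (fun 𝔮 h𝔮 hht hπ𝔮 _ => by
      haveI := h𝔮
      exact isKummerAtPrimeQ_of_place (K₁ := K₁) hπ 𝔮 hht hπ𝔮 (fun P _ _ => hord P))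
    0 (by simpa using hgu)
  exact ⟨γ, hγ, isUnitIn_locSub_iff.2 ⟨r, s, hr, hs, hrs⟩⟩

/-- the factorisation at a smooth closed point of the component `𝔭` (other component `𝔭'`) of a
chart: `f = c · v · G ^ m`, `c` a constant, `v` a unit of the local ring. -/
theorem exists_fact_smooth_of_component (t : K) (ht : Transcendental K₁ t)
    (hK : IntermediateField.adjoin K₁ {t} = ⊤) {π : R} (hπ : Irreducible π)
    {𝔭 𝔭' : Ideal ↥(chartOne R F t)} [h𝔭 : 𝔭.IsPrime]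
    (hπ𝔭 : algebraMap R ↥(chartOne R F t) π ∈ 𝔭)
    (hinf : 𝔭 ⊓ 𝔭' ≤ Ideal.span {algebraMap R ↥(chartOne R F t) π})
    (hloc : ∀ z ∈ 𝔭, ∃ s : ↥(chartOne R F t), s ∉ 𝔭 ∧ algebraMap R ↥(chartOne R F t) π ∣ s * z)
    (𝔪 : Ideal ↥(chartOne R F t)) [h𝔪 : 𝔪.IsMaximal] (hle : 𝔭 ≤ 𝔪) (hnle : ¬ 𝔭' ≤ 𝔪)
    {z : ↥(chartOne R F t)} (hz : IsBranchUniformizer 𝔭 𝔪 z)
    {m : ℕ} (hm : m ≠ 0) {f : F} (hf : f ≠ 0) (hord : ∀ P : Place K₁ F, (m : ℤ) ∣ P.ord f) :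
    ∃ (c : K₁) (v G : F), c ≠ 0 ∧ G ≠ 0 ∧ IsUnitIn (locSub (chartOne R F t) 𝔪) v ∧
      f = algebraMap K₁ F c * v * G ^ m := by
  haveI : IsScalarTower R K₁ F := isScalarTower_base_const R K₁ K F
  haveI : IsNoetherianRing ↥(chartOne R F t) := isNoetherianRing_chartOne (K₁ := K₁) t ht hK
  haveI : IsFractionRing ↥(chartOne R F t) F := isFractionRing_chartOne (K₁ := K₁) t hK
  obtain ⟨a, w, hw, hw', rfl⟩ := unif_locSub hπ𝔭 hloc hf
  have hπK : algebraMap R K₁ π ≠ 0 := by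
    rw [Ne, map_eq_zero_iff _ (IsFractionRing.injective R K₁)]
    exact hπ.ne_zero
  have hπF : algebraMap R F π = algebraMap K₁ F (algebraMap R K₁ π) :=
    IsScalarTower.algebraMap_apply R K₁ F π
  have hπF0 : algebraMap R F π ≠ 0 := by
    rw [hπF, Ne, map_eq_zero]
    exact hπK
  have hw0 : w ≠ 0 := right_ne_zero_of_mul hf
  have hwu : IsUnitAtPrime 𝔭 w := by
    obtain ⟨r, s, hr, hs, hrs⟩ := isUnitIn_locSub_iff.1 ⟨hw, hw', hw0⟩
    exact ⟨r, s, hr, hs, hrs⟩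
  have hordw : ∀ P : Place K₁ F, (m : ℤ) ∣ P.ord w := by
    intro P
    have h1 := hord P
    rw [P.ord_mul (zpow_ne_zero _ hπF0) hw0, P.ord_zpow, hπF,
      Fermat.Agent.FF.Gal.ord_algebraMap P hπK, mul_zero, zero_add] at h1
    exact h1
  obtain ⟨γ, hγ, hv⟩ := exists_fact_smooth_of_place (K₁ := K₁) t ht hK hπ hπ𝔭 hinf 𝔪 hle hnle hz hm
    hw0 hordw hwu
  refine ⟨algebraMap R K₁ π ^ a, w * (γ ^ m)⁻¹, γ, zpow_ne_zero _ hπK, hγ, hv, ?_⟩
  rw [map_zpow₀, ← hπF]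
  have hγm : γ ^ m ≠ 0 := pow_ne_zero _ hγ
  field_simp

/-- **the factorisations at the smooth closed points of a model chart**, from `m ∣ ord_P f` at all
places (no rationality). -/
theorem IsModelChart.exists_fact_smooth (t : K) (ht : Transcendental K₁ t)
    (hK : IntermediateField.adjoin K₁ {t} = ⊤) {π : R} (hπ : Irreducible π)
    {𝔭inf 𝔭0 : Ideal ↥(chartOne R F t)} (hmod : IsModelChart F π 𝔭inf 𝔭0)
    {m : ℕ} (hm : m ≠ 0) {f : F} (hf : f ≠ 0) (hord : ∀ P : Place K₁ F, (m : ℤ) ∣ P.ord f)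
    (𝔪 : Ideal ↥(chartOne R F t)) [h𝔪 : 𝔪.IsMaximal] :
    (𝔭inf ≤ 𝔪 → ¬ 𝔭0 ≤ 𝔪 → ∃ (c : K₁) (v G : F), c ≠ 0 ∧ G ≠ 0 ∧
      IsUnitIn (locSub (chartOne R F t) 𝔪) v ∧ f = algebraMap K₁ F c * v * G ^ m) ∧
    (𝔭0 ≤ 𝔪 → ¬ 𝔭inf ≤ 𝔪 → ∃ (c : K₁) (v G : F), c ≠ 0 ∧ G ≠ 0 ∧
      IsUnitIn (locSub (chartOne R F t) 𝔪) v ∧ f = algebraMap K₁ F c * v * G ^ m) := by
  haveI : IsScalarTower R K₁ F := isScalarTower_base_const R K₁ K F
  haveI : IsNoetherianRing ↥(chartOne R F t) := isNoetherianRing_chartOne (K₁ := K₁) t ht hK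
  haveI : IsFractionRing ↥(chartOne R F t) F := isFractionRing_chartOne (K₁ := K₁) t hK
  haveI := hmod.isPrime_inf
  haveI := hmod.isPrime_zero
  constructor
  · intro hinf h0
    obtain ⟨z, hz⟩ := hmod.branch_inf 𝔪 h𝔪 (hinf hmod.mem_inf) hinf h0
    exact exists_fact_smooth_of_component (K₁ := K₁) t ht hK hπ hmod.mem_inf hmod.inf_le
      (IsModelChart.hloc_inf hmod) 𝔪 hinf h0 hz hm hf hord
  · intro h0 hinf
    obtain ⟨z, hz⟩ := hmod.branch_zero 𝔪 h𝔪 (h0 hmod.mem_zero) h0 hinf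
    exact exists_fact_smooth_of_component (K₁ := K₁) t ht hK hπ hmod.mem_zero
      (by rw [inf_comm]; exact hmod.inf_le) (IsModelChart.hloc_zero hmod) 𝔪 h0 hinf hz hm hf hord

end Fact

section Model

variable {R : Type*} [CommRing R] [IsDomain R] [IsDiscreteValuationRing R] [CharZero R]
  {K₁ : Type*} [Field K₁] [Algebra R K₁] [IsFractionRing R K₁]
  {KM : Type*} [Field KM] [Algebra K₁ KM] [Algebra R KM] [IsScalarTower R K₁ KM]
  {EM : Type*} [Field EM] [Algebra KM EM] [Algebra K₁ EM] [IsScalarTower K₁ KM EM] [Algebra R EM]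
  [IsScalarTower R KM EM]
  {KN : Type*} [Field KN] [Algebra K₁ KN] [Algebra R KN] [IsScalarTower R K₁ KN]
  {EN : Type*} [Field EN] [Algebra KN EN] [Algebra K₁ EN] [IsScalarTower K₁ KN EN] [Algebra R EN]
  [IsScalarTower R KN EN] [FiniteDimensional KN EN]
  {π : R} {q n : ℕ} {S : Finset R} {t : KM} {jM : EM} {j : KN} {A B : EM →+* EN}
  {VM : ValuationSubring EM} {Winf W0 : ValuationSubring EN}
  [IsAlgClosed (IsLocalRing.ResidueField R)]

/-- **the factorisations at the smooth closed points of the chart `j` of an `SSModel`.** -/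
theorem SSModel.exists_fact_smooth_one (h : SSModel K₁ π q n S t jM j A B VM Winf W0)
    (hπ : Irreducible π) {m : ℕ} (hm : m ≠ 0) {f : EN} (hf : f ≠ 0)
    (hord : ∀ P : Place K₁ EN, (m : ℤ) ∣ P.ord f)
    (𝔪 : Ideal ↥(chartOne R EN j)) [h𝔪 : 𝔪.IsMaximal] :
    (sheetIdeal j Winf h.two.chart_le_inf ≤ 𝔪 → ¬ sheetIdeal j W0 h.two.chart_le_zero ≤ 𝔪 →
      ∃ (c : K₁) (v G : EN), c ≠ 0 ∧ G ≠ 0 ∧ IsUnitIn (locSub (chartOne R EN j) 𝔪) v ∧
        f = algebraMap K₁ EN c * v * G ^ m) ∧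
    (sheetIdeal j W0 h.two.chart_le_zero ≤ 𝔪 → ¬ sheetIdeal j Winf h.two.chart_le_inf ≤ 𝔪 →
      ∃ (c : K₁) (v G : EN), c ≠ 0 ∧ G ≠ 0 ∧ IsUnitIn (locSub (chartOne R EN j) 𝔪) v ∧
        f = algebraMap K₁ EN c * v * G ^ m) :=
  IsModelChart.exists_fact_smooth (K₁ := K₁) j h.j_transcendental h.j_adjoin hπ
    (h.isModelChart_one hπ) hm hf hord 𝔪

/-- **the factorisations at the smooth closed points of the chart `j⁻¹` of an `SSModel`.** -/
theorem SSModel.exists_fact_smooth_two (h : SSModel K₁ π q n S t jM j A B VM Winf W0)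
    (hπ : Irreducible π) (hjint : IsIntegral ↥(Algebra.adjoin R {B jM}) (A jM))
    {m : ℕ} (hm : m ≠ 0) {f : EN} (hf : f ≠ 0)
    (hord : ∀ P : Place K₁ EN, (m : ℤ) ∣ P.ord f)
    (𝔪 : Ideal ↥(chartOne R EN j⁻¹)) [h𝔪 : 𝔪.IsMaximal] :
    (sheetIdeal j⁻¹ Winf (h.two.inv hπ).chart_le_inf ≤ 𝔪 →
      ¬ sheetIdeal j⁻¹ W0 (h.two.inv hπ).chart_le_zero ≤ 𝔪 →
      ∃ (c : K₁) (v G : EN), c ≠ 0 ∧ G ≠ 0 ∧ IsUnitIn (locSub (chartOne R EN j⁻¹) 𝔪) v ∧
        f = algebraMap K₁ EN c * v * G ^ m) ∧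
    (sheetIdeal j⁻¹ W0 (h.two.inv hπ).chart_le_zero ≤ 𝔪 →
      ¬ sheetIdeal j⁻¹ Winf (h.two.inv hπ).chart_le_inf ≤ 𝔪 →
      ∃ (c : K₁) (v G : EN), c ≠ 0 ∧ G ≠ 0 ∧ IsUnitIn (locSub (chartOne R EN j⁻¹) 𝔪) v ∧
        f = algebraMap K₁ EN c * v * G ^ m) :=
  IsModelChart.exists_fact_smooth (K₁ := K₁) j⁻¹
    (transcendental_inv_of_transcendental h.j_transcendental) (adjoin_inv_eq_top h.j_adjoin) hπ
    (h.isModelChart_two hπ hjint (h.two.inv hπ)) hm hf hord 𝔪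

end Model

end Fermat.Agent.MP
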