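import Mathlib
import Fermat.Agent.MP.DICT_helper1_RedOrd
import Fermat.Agent.MP.PLHOST_helper9_Smooth
import Fermat.Agent.MP.PLHOST_helper6_NodeS
import Fermat.Agent.NP.HOSTP_helper7_ThmA
import Fermat.Agent.SS.EXPORT_helper4_Two

/-!
# Project MP40 — C5 [DICT] helper1: the dictionary on an `SSModel`

`h : SSModel K₁ π p n S t jM j A B VM Winf W0`, `ι : Winf → F̄` a reduction map into a function field
`F̄ / k` (`hker`, constants reduce to constants through a surjection `res : R → k`), `Q` a rational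
place of `F̄ / k`.

* `exists_fact_smooth_of_place_centred`, `SSModel.exists_fact_smooth_one_centred` : the smooth
  factorisation with the divisibility hypothesis only at the places centred at the point;
* `SSModel.redOrd_exists`, `SSModel.redOrd_const` : the order `RedOrd` exists for every non-zero
  function, and vanishes on the constants;
* `SSModel.exists_centre_one` / `SSModel.exists_centre_two` : the centre of `Q` on the chart `j`
  (`ι j` regular at `Q`) resp. `j⁻¹` (`ι j` has a pole at `Q`);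
* `SSModel.redOrd_dict_one` : **the dictionary at the non-cuspidal places**: either `p ∣ ω_Q(f)`
  and `p ∣ ω_Q(U)` (smooth centre), or the centre is a node `nd` and `p ∣ ω_Q(f) - k nd · x`,
  `ω_Q(U) = K nd · x`;
* `SSModel.redOrd_dict_two` : `p ∣ ω_Q(f)` at the cuspidal places.
-/

set_option autoImplicit false
set_option linter.unusedSectionVars false
set_option linter.unusedVariables false
set_option linter.style.haveILetI false

open AlgebraicCurve IsLocalRing

namespace Fermat.Agent.MP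

open Fermat.Agent.NP Fermat.Agent.SS Fermat.Agent.JA Fermat.Agent.FF Fermat.Agent.MW
  Fermat.Agent.MW.NAdic

section Fact

variable {R : Type*} [CommRing R] [IsDomain R] [IsDiscreteValuationRing R]
  [CharZero R] {K₁ : Type*} [Field K₁] [Algebra R K₁]
  [IsFractionRing R K₁] {K : Type*} [Field K] [Algebra K₁ K] [Algebra R K] [IsScalarTower R K₁ K]
  {F : Type*} [Field F] [Algebra K F] [Algebra K₁ F] [IsScalarTower K₁ K F] [Algebra R F]
  [IsScalarTower R K F] [FiniteDimensional K F]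

/-- **the factorisation at a smooth closed point, local form**: a function which is a unit along
the component `𝔭` and whose orders at the places centred at `𝔪` are divisible by `m` is
`γ ^ m ·` unit of the local ring. -/
theorem exists_fact_smooth_of_place_centred (t : K) (ht : Transcendental K₁ t)
    (hK : IntermediateField.adjoin K₁ {t} = ⊤) {π : R} (hπ : Irreducible π)
    {𝔭 𝔭' : Ideal ↥(chartOne R F t)} [h𝔭 : 𝔭.IsPrime]
    (hπ𝔭 : algebraMap R ↥(chartOne R F t) π ∈ 𝔭)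
    (hinf : 𝔭 ⊓ 𝔭' ≤ Ideal.span {algebraMap R ↥(chartOne R F t) π})
    (𝔪 : Ideal ↥(chartOne R F t)) [h𝔪 : 𝔪.IsMaximal] (hle : 𝔭 ≤ 𝔪) (hnle : ¬ 𝔭' ≤ 𝔪)
    {z : ↥(chartOne R F t)} (hz : IsBranchUniformizer 𝔭 𝔪 z)
    {m : ℕ} (hm : m ≠ 0) {g : F} (hg : g ≠ 0)
    (hord : ∀ (P : Place K₁ F)
      (hO : ∀ x : ↥(chartOne R F t), algebraMap ↥(chartOne R F t) F x ∈ P.toValuationSubring),
      centreIdeal P hO ≤ 𝔪 → (m : ℤ) ∣ P.ord g)
    (hgu : IsUnitAtPrime 𝔭 g) :
    ∃ γ : F, γ ≠ 0 ∧ IsUnitIn (locSub (chartOne R F t) 𝔪) (g * (γ ^ m)⁻¹) := by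
  haveI : IsScalarTower R K₁ F := isScalarTower_base_const R K₁ K F
  haveI : IsIntegrallyClosed ↥(chartOne R F t) := isIntegrallyClosed_chartOne (K₁ := K₁) t hK
  haveI : IsNoetherianRing ↥(chartOne R F t) := isNoetherianRing_chartOne (K₁ := K₁) t ht hK
  haveI : IsFractionRing ↥(chartOne R F t) F := isFractionRing_chartOne (K₁ := K₁) t hK
  have hS : 𝔪.primeCompl ≤ nonZeroDivisors ↥(chartOne R F t) := by
    intro s hs
    exact mem_nonZeroDivisors_of_ne_zero (fun h0 => hs (h0 ▸ 𝔪.zero_mem))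
  haveI : IsIntegrallyClosed (Localization.AtPrime 𝔪) :=
    isIntegrallyClosed_of_isLocalization (Localization.AtPrime 𝔪) 𝔪.primeCompl hS
  have hunits : ∀ s : 𝔪.primeCompl, IsUnit (algebraMap ↥(chartOne R F t) F s) := fun s =>
    Localization.map_isUnit_of_le F 𝔪.primeCompl hS s
  letI : Algebra (Localization.AtPrime 𝔪) F :=
    (IsLocalization.lift (M := 𝔪.primeCompl) (S := Localization.AtPrime 𝔪) hunits).toAlgebra
  haveI : IsScalarTower ↥(chartOne R F t) (Localization.AtPrime 𝔪) F :=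
    IsScalarTower.of_algebraMap_eq (fun b => (IsLocalization.lift_eq hunits b).symm)
  haveI : IsFractionRing (Localization.AtPrime 𝔪) F :=
    IsFractionRing.isFractionRing_of_isDomain_of_isLocalization 𝔪.primeCompl
      (Localization.AtPrime 𝔪) F
  have hπne : algebraMap R ↥(chartOne R F t) π ≠ 0 := by
    intro h0
    have h1 : algebraMap R F π = 0 := by
      have : ((algebraMap R ↥(chartOne R F t) π : ↥(chartOne R F t)) : F) = 0 := by rw [h0]; rfl
      exact this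
    exact hπ.ne_zero (algebraMap_injective_base K₁ F (by rw [h1, map_zero]))
  obtain ⟨γ, hγ, r, s, hr, hs, hrs⟩ := exists_kummer_at_smoothQ (R := Localization.AtPrime 𝔪) 𝔪
    hπne (𝔭 := 𝔭) (𝔭' := 𝔭') hπ𝔭 hinf hle hnle hz hm hg
    (fun 𝔮 h𝔮 hht hπ𝔮 h𝔮𝔪 => by
      haveI := h𝔮
      exact isKummerAtPrimeQ_of_place (K₁ := K₁) hπ 𝔮 hht hπ𝔮
        (fun P hO hP => hord P hO (hP ▸ h𝔮𝔪)))
    0 (by simpa using hgu)
  exact ⟨γ, hγ, isUnitIn_locSub_iff.2 ⟨r, s, hr, hs, hrs⟩⟩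

end Fact

section PlaceAux'

variable {k : Type*} [Field k] {F : Type*} [Field F] [Algebra k F]

theorem valuation_algebraMap_eq_one_of_ne_zero (Q : Place k F) {c : k} (hc : c ≠ 0) :
    Q.toValuationSubring.valuation (algebraMap k F c) = 1 := by
  have h1 : Q.toValuationSubring.valuation (algebraMap k F c) ≤ 1 :=
    (ValuationSubring.valuation_le_one_iff _ _).mpr (Q.algebraMap_mem' c)
  have h2 : Q.toValuationSubring.valuation (algebraMap k F c⁻¹) ≤ 1 :=
    (ValuationSubring.valuation_le_one_iff _ _).mpr (Q.algebraMap_mem' c⁻¹)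
  rw [map_inv₀, map_inv₀] at h2
  have h3 : Q.toValuationSubring.valuation (algebraMap k F c) ≠ 0 :=
    (Valuation.ne_zero_iff _).mpr ((map_ne_zero _).mpr hc)
  rw [inv_le_one₀ (zero_lt_iff.mpr h3)] at h2
  exact le_antisymm h1 h2

end PlaceAux'

section Model

variable {R : Type*} [CommRing R] [IsDomain R] [IsDiscreteValuationRing R] [CharZero R]
  {K₁ : Type*} [Field K₁] [Algebra R K₁] [IsFractionRing R K₁]
  {KM : Type*} [Field KM] [Algebra K₁ KM] [Algebra R KM] [IsScalarTower R K₁ KM]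
  {EM : Type*} [Field EM] [Algebra KM EM] [Algebra K₁ EM] [IsScalarTower K₁ KM EM] [Algebra R EM]
  [IsScalarTower R KM EM]
  {KN : Type*} [Field KN] [Algebra K₁ KN] [Algebra R KN] [IsScalarTower R K₁ KN]
  {EN : Type*} [Field EN] [Algebra KN EN] [Algebra K₁ EN] [IsScalarTower K₁ KN EN] [Algebra R EN]
  [IsScalarTower R KN EN] [FiniteDimensional KN EN]
  {π : R} {q n : ℕ} {S : Finset R} {t : KM} {jM : EM} {j : KN} {A B : EM →+* EN}
  {VM : ValuationSubring EM} {Winf W0 : ValuationSubring EN}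
  [IsAlgClosed (IsLocalRing.ResidueField R)]

/-- **the smooth factorisation on the sheet `∞` of the chart `j`, local form.** -/
theorem SSModel.exists_fact_smooth_one_centred (h : SSModel K₁ π q n S t jM j A B VM Winf W0)
    (hπ : Irreducible π) {m : ℕ} (hm : m ≠ 0) {g : EN} (hg : g ≠ 0)
    (hgu : Winf.valuation g = 1)
    (𝔪 : Ideal ↥(chartOne R EN j)) [h𝔪 : 𝔪.IsMaximal]
    (hinf : sheetIdeal j Winf h.two.chart_le_inf ≤ 𝔪)
    (h0 : ¬ sheetIdeal j W0 h.two.chart_le_zero ≤ 𝔪)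
    (hord : ∀ (P : Place K₁ EN)
      (hO : ∀ x : ↥(chartOne R EN j), algebraMap ↥(chartOne R EN j) EN x ∈ P.toValuationSubring),
      centreIdeal P hO ≤ 𝔪 → (m : ℤ) ∣ P.ord g) :
    ∃ γ : EN, γ ≠ 0 ∧ IsUnitIn (locSub (chartOne R EN j) 𝔪) (g * (γ ^ m)⁻¹) := by
  have hmod := h.isModelChart_one hπ
  haveI := hmod.isPrime_inf
  haveI : IsFractionRing ↥(chartOne R EN j) EN := isFractionRing_chartOne (K₁ := K₁) j h.j_adjoin
  obtain ⟨z, hz⟩ := hmod.branch_inf 𝔪 h𝔪 (hinf hmod.mem_inf) hinf h0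
  have hgm : g ∈ Winf := (ValuationSubring.valuation_le_one_iff _ _).mp hgu.le
  have hgm' : g⁻¹ ∈ Winf := by
    rw [← ValuationSubring.valuation_le_one_iff, map_inv₀, hgu, inv_one]
  exact exists_fact_smooth_of_place_centred (K₁ := K₁) j h.j_transcendental h.j_adjoin hπ
    hmod.mem_inf hmod.inf_le 𝔪 hinf h0 hz hm hg hord
    (isUnitAtPrime_sheetIdeal_of_isGaussAt hπ h.j_transcendental h.j_adjoin h.two.gauss_inf hg
      hgm hgm')

/-- **the node unit at a smooth point of the sheet `∞` of the chart `j`**: a unit of the local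
ring up to an `m`-th power (any `m ≠ 0`). -/
theorem SSModel.nodeUnit_smooth_one (h : SSModel K₁ π q n S t jM j A B VM Winf W0)
    (hπ : Irreducible π) {U : EN} {c : ℕ} (hU : NodeUnit K₁ π (A jM) U c Winf W0)
    {m : ℕ} (hm : m ≠ 0)
    (𝔪 : Ideal ↥(chartOne R EN j)) [h𝔪 : 𝔪.IsMaximal]
    (hinf : sheetIdeal j Winf h.two.chart_le_inf ≤ 𝔪)
    (h0 : ¬ sheetIdeal j W0 h.two.chart_le_zero ≤ 𝔪) :
    ∃ γ : EN, γ ≠ 0 ∧ IsUnitIn (locSub (chartOne R EN j) 𝔪) (U * (γ ^ m)⁻¹) := by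
  refine SSModel.exists_fact_smooth_one_centred h hπ hm hU.ne_zero
    (valuation_eq_one_of_mem_of_inv_mem hU.ne_zero hU.mem_inf hU.inv_mem_inf) 𝔪 hinf h0 ?_
  intro P hO _
  have hJ : A jM ∈ P.toValuationSubring := by
    rw [h.A_j]
    exact hO ⟨algebraMap KN EN j, algebraMap_coord_mem_chartOne j⟩
  rw [hU.ord_eq_zero P hJ]
  exact dvd_zero _

/-- the uniformizer has valuation `< 1` along the sheet `∞`. -/
theorem SSModel.valuation_pi_inf_lt_one (h : SSModel K₁ π q n S t jM j A B VM Winf W0)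
    (hπ : Irreducible π) : Winf.valuation (algebraMap R EN π) < 1 := by
  have h1 := IsTwoSheet.pi_mem_inf (K₁ := K₁) h.two hπ
  rw [mem_sheetIdeal_iff] at h1
  exact h1

/-- the structure map `R → Winf` is local. -/
theorem SSModel.isUnit_of_valuation_inf_eq_one (h : SSModel K₁ π q n S t jM j A B VM Winf W0)
    (hπ : Irreducible π) {r : R} (hr : Winf.valuation (algebraMap R EN r) = 1) : IsUnit r := by
  by_contra hnu
  have hmem : r ∈ IsLocalRing.maximalIdeal R := (IsLocalRing.mem_maximalIdeal r).mpr hnu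
  rw [hπ.maximalIdeal_eq, Ideal.mem_span_singleton] at hmem
  obtain ⟨s, rfl⟩ := hmem
  rw [map_mul, map_mul] at hr
  have h1 := SSModel.valuation_pi_inf_lt_one h hπ
  have h2 : Winf.valuation (algebraMap R EN s) ≤ 1 :=
    (ValuationSubring.valuation_le_one_iff _ _).mpr
      (h.two.chart_le_inf _ (Subalgebra.algebraMap_mem _ s))
  have h3 : Winf.valuation (algebraMap R EN π) * Winf.valuation (algebraMap R EN s) < 1 := by
    calc Winf.valuation (algebraMap R EN π) * Winf.valuation (algebraMap R EN s)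
        ≤ Winf.valuation (algebraMap R EN π) * 1 := mul_le_mul' le_rfl h2
      _ = Winf.valuation (algebraMap R EN π) := mul_one _
      _ < 1 := h1
  rw [hr] at h3
  exact lt_irrefl _ h3

end Model

section Dict

variable {R : Type*} [CommRing R] [IsDomain R] [IsDiscreteValuationRing R] [CharZero R]
  {K₁ : Type*} [Field K₁] [Algebra R K₁] [IsFractionRing R K₁]
  {KM : Type*} [Field KM] [Algebra K₁ KM] [Algebra R KM] [IsScalarTower R K₁ KM]
  {EM : Type*} [Field EM] [Algebra KM EM] [Algebra K₁ EM] [IsScalarTower K₁ KM EM] [Algebra R EM]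
  [IsScalarTower R KM EM]
  {KN : Type*} [Field KN] [Algebra K₁ KN] [Algebra R KN] [IsScalarTower R K₁ KN]
  {EN : Type*} [Field EN] [Algebra KN EN] [Algebra K₁ EN] [IsScalarTower K₁ KN EN] [Algebra R EN]
  [IsScalarTower R KN EN] [FiniteDimensional KN EN]
  {π : R} {q n : ℕ} {S : Finset R} {t : KM} {jM : EM} {j : KN} {A B : EM →+* EN}
  {VM : ValuationSubring EM} {Winf W0 : ValuationSubring EN}
  [IsAlgClosed (IsLocalRing.ResidueField R)]
  {k : Type*} [Field k] {F : Type*} [Field F] [Algebra k F]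
  {ι : ↥Winf →+* F}

/-- the order of the reduction exists for every non-zero function. -/
theorem SSModel.redOrd_exists (h : SSModel K₁ π q n S t jM j A B VM Winf W0)
    {e₁ : ℕ} (he₁ : 0 < e₁) {ε : Rˣ} (hpe : (q : R) = ε * π ^ e₁) (Q : Place k F)
    {g : EN} (hg : g ≠ 0) : ∃ m : ℤ, RedOrd Winf (algebraMap R EN π) ι Q g m := by
  obtain ⟨a, ha⟩ := SSModel.exists_zpow_val_eq_one_inf h he₁ hpe hg
  exact ⟨_, a, (ValuationSubring.valuation_le_one_iff _ _).mp ha.le, ha, rfl⟩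

/-- the constants have order zero. -/
theorem SSModel.redOrd_const (h : SSModel K₁ π q n S t jM j A B VM Winf W0)
    (hπ : Irreducible π) (hker : ∀ x : ↥Winf, Winf.valuation (x : EN) < 1 → ι x = 0)
    (res : R →+* k)
    (hιR : ∀ (r : R) (hr : algebraMap R EN r ∈ Winf),
      ι ⟨algebraMap R EN r, hr⟩ = algebraMap k F (res r))
    (Q : Place k F) {c : K₁} (hc : c ≠ 0) :
    RedOrd Winf (algebraMap R EN π) ι Q (algebraMap K₁ EN c) 0 := by
  haveI : IsScalarTower R K₁ EN := isScalarTower_base_const R K₁ KN EN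
  obtain ⟨m, u, rfl⟩ := exists_zpow_mul_unit_base K₁ hπ hc
  have e : algebraMap K₁ EN (algebraMap R K₁ π ^ m * algebraMap R K₁ (u : R)) =
      algebraMap R EN π ^ m * algebraMap R EN (u : R) := by
    rw [map_mul, map_zpow₀, ← IsScalarTower.algebraMap_apply, ← IsScalarTower.algebraMap_apply]
  rw [e]
  have hπ0 : algebraMap R EN π ≠ 0 := algebraMap_pi_ne_zero (K₁ := K₁) (K := KN) hπ
  have hu : algebraMap R EN (u : R) ∈ Winf :=
    h.two.chart_le_inf _ (Subalgebra.algebraMap_mem _ _)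
  have h1 := RedOrd.pi_zpow (W := Winf) (ι := ι) (Q := Q) hπ0 m
  have hresu : res (u : R) ≠ 0 := (u.isUnit.map res).ne_zero
  have h2 : RedOrd Winf (algebraMap R EN π) ι Q (algebraMap R EN (u : R)) 0 :=
    RedOrd.of_valuation_eq_one' hu
      (by rw [hιR]; exact valuation_algebraMap_eq_one_of_ne_zero Q hresu) hker
  have h3 := h1.mul hπ0 h2
  rwa [add_zero] at h3

/-- **the centre of a rational place of the reduction on a chart**: `u` any coordinate whose
reduction is regular at `Q`. -/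
theorem SSModel.exists_centre_chart (h : SSModel K₁ π q n S t jM j A B VM Winf W0)
    (hπ : Irreducible π) (hker : ∀ x : ↥Winf, Winf.valuation (x : EN) < 1 → ι x = 0)
    (res : R →+* k) (hres : Function.Surjective res)
    (hιR : ∀ (r : R) (hr : algebraMap R EN r ∈ Winf),
      ι ⟨algebraMap R EN r, hr⟩ = algebraMap k F (res r))
    (Q : Place k F)
    (hQ : ∀ y ∈ Q.toValuationSubring, ∃ c : k,
      Q.toValuationSubring.valuation (y - algebraMap k F c) < 1)
    (u : KN) (huW : algebraMap KN EN u ∈ Winf)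
    (hιu : ι ⟨algebraMap KN EN u, huW⟩ ∈ Q.toValuationSubring) :
    ∃ (hW : ∀ b ∈ chartOne R EN u, b ∈ Winf) (𝔪 : Ideal ↥(chartOne R EN u)) (_ : 𝔪.IsMaximal),
      sheetIdeal u Winf hW ≤ 𝔪 ∧
      (∀ b : ↥(chartOne R EN u), b ∈ 𝔪 ↔
        Q.toValuationSubring.valuation (ι ⟨(b : EN), hW _ b.2⟩) < 1) ∧
      ∀ x : EN, IsUnitIn (locSub (chartOne R EN u) 𝔪) x →
        RedOrd Winf (algebraMap R EN π) ι Q x 0 := by
  have hRW : ∀ r : R, algebraMap R EN r ∈ Winf := fun r =>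
    h.two.chart_le_inf _ (Subalgebra.algebraMap_mem _ r)
  obtain ⟨hW, 𝔪, hmax, hle, hmem, hunit⟩ := exists_centre_compValOf Winf ι Q.toValuationSubring u
    hker hRW (fun r => by rw [hιR]; exact Q.algebraMap_mem' _) huW hιu
    (fun y hy => by
      obtain ⟨c, hc⟩ := hQ y hy
      obtain ⟨r, rfl⟩ := hres c
      exact ⟨r, by rw [hιR]; exact hc⟩)
    (fun r hr => SSModel.isUnit_of_valuation_inf_eq_one h hπ hr)
  refine ⟨hW, 𝔪, hmax, hle, hmem, fun x hx => ?_⟩
  obtain ⟨hxW, hx1⟩ := hunit x hx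
  exact RedOrd.of_valuation_eq_one' hxW hx1 hker

/-- **the dictionary at the non-cuspidal places** (`ι j` regular at `Q`): either the centre of `Q`
on the chart `j` is a smooth point of the sheet `∞` and `p ∣ ω_Q(f)`, `p ∣ ω_Q(U)`, or it is a node
`nd` and `p ∣ ω_Q(f) - k nd · x`, `ω_Q(U) = K nd · x` with `x = ω_Q(X nd)`. -/
theorem SSModel.redOrd_dict_one (h : SSModel K₁ π q n S t jM j A B VM Winf W0)
    (hπ : Irreducible π) {e₁ : ℕ} (he₁ : 0 < e₁) {ε : Rˣ} (hpe : (q : R) = ε * π ^ e₁)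
    (hker : ∀ x : ↥Winf, Winf.valuation (x : EN) < 1 → ι x = 0)
    (res : R →+* k) (hres : Function.Surjective res)
    (hιR : ∀ (r : R) (hr : algebraMap R EN r ∈ Winf),
      ι ⟨algebraMap R EN r, hr⟩ = algebraMap k F (res r))
    (Q : Place k F)
    (hQ : ∀ y ∈ Q.toValuationSubring, ∃ c : k,
      Q.toValuationSubring.valuation (y - algebraMap k F c) < 1)
    (hjW : algebraMap KN EN j ∈ Winf)
    (hιj : ι ⟨algebraMap KN EN j, hjW⟩ ∈ Q.toValuationSubring)
    {f : EN} (hf : f ≠ 0) (hord : ∀ P : Place K₁ EN, (q : ℤ) ∣ P.ord f)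
    {U : EN} {c : ℕ} (hU : NodeUnit K₁ π (A jM) U c Winf W0)
    (hcinf : ∀ b ∈ chartOne R EN j, b ∈ Winf) (hc0 : ∀ b ∈ chartOne R EN j, b ∈ W0)
    (X : ChartNode j Winf W0 hcinf hc0 → EN) (kk KK : ChartNode j Winf W0 hcinf hc0 → ℤ)
    (hXu : ∀ nd, IsUnitIn Winf.toSubring (X nd))
    (hfact : ∀ nd, IsNodeFact K₁ (locSub (chartOne R EN j) nd.1) q (X nd) f (kk nd))
    (hUfact : ∀ nd, ∃ w : EN, IsUnitIn (locSub (chartOne R EN j) nd.1) w ∧ U = w * X nd ^ KK nd)
    {nf nU : ℤ} (hnf : RedOrd Winf (algebraMap R EN π) ι Q f nf)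
    (hnU : RedOrd Winf (algebraMap R EN π) ι Q U nU) :
    ((q : ℤ) ∣ nf ∧ (q : ℤ) ∣ nU) ∨
      ∃ (nd : ChartNode j Winf W0 hcinf hc0) (x : ℤ),
        RedOrd Winf (algebraMap R EN π) ι Q (X nd) x ∧
        (q : ℤ) ∣ nf - kk nd * x ∧ nU = KK nd * x := by
  have hπ0 : algebraMap R EN π ≠ 0 := algebraMap_pi_ne_zero (K₁ := K₁) (K := KN) hπ
  have hπ1 := SSModel.valuation_pi_inf_lt_one h hπ
  have hex : ∀ g : EN, g ≠ 0 → ∃ m, RedOrd Winf (algebraMap R EN π) ι Q g m :=
    fun g hg => SSModel.redOrd_exists h he₁ hpe Q hg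
  have hconst : ∀ c : K₁, c ≠ 0 → RedOrd Winf (algebraMap R EN π) ι Q (algebraMap K₁ EN c) 0 :=
    fun c hc => SSModel.redOrd_const h hπ hker res hιR Q hc
  obtain ⟨hW, 𝔪, hmax, hle, hmem, hunit⟩ :=
    SSModel.exists_centre_chart h hπ hker res hres hιR Q hQ j hjW hιj
  haveI := hmax
  by_cases h0 : sheetIdeal j W0 hc0 ≤ 𝔪
  · right
    let nd : ChartNode j Winf W0 hcinf hc0 := ⟨𝔪, hmax, hle, h0⟩
    have hXW : X nd ∈ Winf := (hXu nd).1
    have hX1 : Winf.valuation (X nd) = 1 :=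
      valuation_eq_one_of_mem_of_inv_mem (hXu nd).2.2 (hXu nd).1 (hXu nd).2.1
    have hX : RedOrd Winf (algebraMap R EN π) ι Q (X nd) (Q.ord (ι ⟨X nd, hXW⟩)) :=
      RedOrd.of_valuation_eq_one hXW hX1
    refine ⟨nd, _, hX, ?_, ?_⟩
    · exact RedOrd.dvd_of_isNodeFact hπ0 hπ1 hex hconst (O := locSub (chartOne R EN j) 𝔪) hunit
        (hfact nd) hX hnf
    · obtain ⟨w, hw, hUw⟩ := hUfact nd
      exact RedOrd.unique hπ0 hπ1 hnU
        (RedOrd.of_unit_mul_zpow hπ0 (O := locSub (chartOne R EN j) 𝔪) hunit hw hUw hX)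
  · left
    have hq0 : q ≠ 0 := h.q_prime.ne_zero
    constructor
    · exact RedOrd.dvd_of_smooth_fact hπ0 hπ1 hex hconst (O := locSub (chartOne R EN j) 𝔪) hunit
        ((SSModel.exists_fact_smooth_one h hπ hq0 hf hord 𝔪).1 hle h0) hnf
    · obtain ⟨γ, hγ, hv⟩ := SSModel.nodeUnit_smooth_one h hπ hU hq0 𝔪 hle h0
      refine RedOrd.dvd_of_smooth_fact (K₁ := K₁) hπ0 hπ1 hex hconst
        (O := locSub (chartOne R EN j) 𝔪) hunit ⟨1, U * (γ ^ q)⁻¹, γ, one_ne_zero, hγ, hv, ?_⟩ hnU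
      rw [map_one, one_mul, mul_assoc, inv_mul_cancel₀ (pow_ne_zero _ hγ), mul_one]

/-- **the dictionary at the cuspidal places** (`ι j` has a pole at `Q`): `p ∣ ω_Q(f)`. -/
theorem SSModel.redOrd_dict_two (h : SSModel K₁ π q n S t jM j A B VM Winf W0)
    (hπ : Irreducible π) {e₁ : ℕ} (he₁ : 0 < e₁) {ε : Rˣ} (hpe : (q : R) = ε * π ^ e₁)
    (hjint : IsIntegral ↥(Algebra.adjoin R {B jM}) (A jM))
    (hker : ∀ x : ↥Winf, Winf.valuation (x : EN) < 1 → ι x = 0)
    (res : R →+* k) (hres : Function.Surjective res)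
    (hιR : ∀ (r : R) (hr : algebraMap R EN r ∈ Winf),
      ι ⟨algebraMap R EN r, hr⟩ = algebraMap k F (res r))
    (Q : Place k F)
    (hQ : ∀ y ∈ Q.toValuationSubring, ∃ c : k,
      Q.toValuationSubring.valuation (y - algebraMap k F c) < 1)
    (hjW : algebraMap KN EN j ∈ Winf)
    (hιj : ι ⟨algebraMap KN EN j, hjW⟩ ∉ Q.toValuationSubring)
    {f : EN} (hf : f ≠ 0) (hord : ∀ P : Place K₁ EN, (q : ℤ) ∣ P.ord f)
    {nf : ℤ} (hnf : RedOrd Winf (algebraMap R EN π) ι Q f nf) : (q : ℤ) ∣ nf := by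
  have hπ0 : algebraMap R EN π ≠ 0 := algebraMap_pi_ne_zero (K₁ := K₁) (K := KN) hπ
  have hπ1 := SSModel.valuation_pi_inf_lt_one h hπ
  have hex : ∀ g : EN, g ≠ 0 → ∃ m, RedOrd Winf (algebraMap R EN π) ι Q g m :=
    fun g hg => SSModel.redOrd_exists h he₁ hpe Q hg
  have hconst : ∀ c : K₁, c ≠ 0 → RedOrd Winf (algebraMap R EN π) ι Q (algebraMap K₁ EN c) 0 :=
    fun c hc => SSModel.redOrd_const h hπ hker res hιR Q hc
  have h2 := h.two.inv hπ
  have hjiW : algebraMap KN EN j⁻¹ ∈ Winf :=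
    h2.chart_le_inf _ (algebraMap_coord_mem_chartOne j⁻¹)
  -- the reduction of `j⁻¹` is the inverse of the reduction of `j`
  have hmul : ι ⟨algebraMap KN EN j, hjW⟩ * ι ⟨algebraMap KN EN j⁻¹, hjiW⟩ = 1 := by
    rw [← map_mul]
    have hj0 : algebraMap KN EN j ≠ 0 := by
      intro h0
      apply hιj
      have : (⟨algebraMap KN EN j, hjW⟩ : ↥Winf) = 0 := Subtype.ext h0
      rw [this, map_zero]
      exact Q.toValuationSubring.zero_mem
    have : (⟨algebraMap KN EN j, hjW⟩ : ↥Winf) * ⟨algebraMap KN EN j⁻¹, hjiW⟩ = 1 := by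
      apply Subtype.ext
      show algebraMap KN EN j * algebraMap KN EN j⁻¹ = 1
      rw [map_inv₀, mul_inv_cancel₀ hj0]
    rw [this, map_one]
  have hιji : ι ⟨algebraMap KN EN j⁻¹, hjiW⟩ = (ι ⟨algebraMap KN EN j, hjW⟩)⁻¹ :=
    eq_inv_of_mul_eq_one_right hmul
  have hιjim : ι ⟨algebraMap KN EN j⁻¹, hjiW⟩ ∈ Q.toValuationSubring := by
    rw [hιji]
    exact (Q.toValuationSubring.mem_or_inv_mem _).resolve_left hιj
  have hιjilt : Q.toValuationSubring.valuation (ι ⟨algebraMap KN EN j⁻¹, hjiW⟩) < 1 := by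
    rw [hιji, map_inv₀]
    have h1 : 1 < Q.toValuationSubring.valuation (ι ⟨algebraMap KN EN j, hjW⟩) := by
      rw [← not_le, ValuationSubring.valuation_le_one_iff]; exact hιj
    exact inv_lt_one_of_one_lt₀ h1
  obtain ⟨hW, 𝔪, hmax, hle, hmem, hunit⟩ :=
    SSModel.exists_centre_chart h hπ hker res hres hιR Q hQ j⁻¹ hjiW hιjim
  haveI := hmax
  haveI := hmax.isPrime
  have hcusp : (⟨algebraMap KN EN j⁻¹, algebraMap_coord_mem_chartOne j⁻¹⟩ :
      ↥(chartOne R EN j⁻¹)) ∈ 𝔪 := (hmem _).mpr hιjilt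
  have h0 : ¬ sheetIdeal j⁻¹ W0 h2.chart_le_zero ≤ 𝔪 := fun h0 =>
    h.not_crossing_of_cusp hπ h2 𝔪 hcusp hle h0
  exact RedOrd.dvd_of_smooth_fact hπ0 hπ1 hex hconst (O := locSub (chartOne R EN j⁻¹) 𝔪) hunit
    ((SSModel.exists_fact_smooth_two h hπ hjint h.q_prime.ne_zero hf hord 𝔪).1 hle h0) hnf

end Dict

end Fermat.Agent.MP
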