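/-
MP40 (S44/S40) — helper3 — [ELIM], abstract form: **the Eisenstein elimination on a function
field.**

`κ` a function field over `k` (Prelude `Place`), `good` a set of places (the non-cuspidal ones),
`T : κ →* κ` (the reduced Hecke operator `N_ᾱ ∘ β̄`) with the property [PDIV]
(`p ∣ ord_Q z` at all good `Q` ⇒ `p ∣ ord_Q (T z)` at all good `Q`), `F`, `U ∈ κˣ` with
`T F = c · F^a · u^p`, `T U = c' · U^b`, `p ∤ a - b`, and local data `x k K : Place → ℤ` with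
`ord_Q F ≡ k_Q x_Q`, `ord_Q U ≡ K_Q x_Q (mod p)`, `p ∣ k_Q K_{Q'} - k_{Q'} K_Q`.
Then at every good place `Q`: `p ∣ k_Q · K_Q · x_Q`; in particular `p ∣ ord_Q F` or `p ∣ K_Q`.
-/
import Mathlib
import Fermat.Agent.FF.PlaceBasic

set_option autoImplicit false
set_option linter.unusedSectionVars false

open AlgebraicCurve

namespace Fermat.Agent.MP

open Fermat.Agent.FF

variable {k κ : Type*} [Field k] [Field κ] [Algebra k κ]

/-- a monoid endomorphism of a field preserves non-vanishing. -/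
theorem monoidHom_ne_zero (T : κ →* κ) {x : κ} (hx : x ≠ 0) : T x ≠ 0 := by
  intro h0
  have h1 : T x * T x⁻¹ = 1 := by rw [← map_mul, mul_inv_cancel₀ hx, map_one]
  rw [h0, zero_mul] at h1
  exact zero_ne_one h1

/-- a monoid endomorphism of a field commutes with integral powers of non-zero elements. -/
theorem monoidHom_zpow (T : κ →* κ) {x : κ} (hx : x ≠ 0) (n : ℤ) : T (x ^ n) = T x ^ n := by
  have hinv : T x⁻¹ = (T x)⁻¹ := by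
    apply eq_inv_of_mul_eq_one_left
    rw [← map_mul, inv_mul_cancel₀ hx, map_one]
  obtain ⟨m, rfl | rfl⟩ := n.eq_nat_or_neg
  · rw [zpow_natCast, zpow_natCast, map_pow]
  · rw [zpow_neg, zpow_neg, zpow_natCast, zpow_natCast, ← inv_pow, map_pow, hinv, inv_pow]

/-- **[ELIM], abstract form.** -/
theorem elim_dvd_mul_mul (p : ℕ) (hp : p.Prime) (good : Place k κ → Prop) (T : κ →* κ)
    (hpdiv : ∀ z : κ, z ≠ 0 → (∀ Q, good Q → (p : ℤ) ∣ Q.ord z) →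
      ∀ Q, good Q → (p : ℤ) ∣ Q.ord (T z))
    {F U : κ} (hF : F ≠ 0) (hU : U ≠ 0) (a b : ℤ) (hab : ¬ (p : ℤ) ∣ a - b)
    (hTF : ∃ (c : k) (u : κ), c ≠ 0 ∧ u ≠ 0 ∧ T F = algebraMap k κ c * F ^ a * u ^ p)
    (hTU : ∃ c : k, c ≠ 0 ∧ T U = algebraMap k κ c * U ^ b)
    (x kk KK : Place k κ → ℤ)
    (hordF : ∀ Q, good Q → (p : ℤ) ∣ Q.ord F - kk Q * x Q)
    (hordU : ∀ Q, good Q → (p : ℤ) ∣ Q.ord U - KK Q * x Q)
    (hprop : ∀ Q Q', good Q → good Q' → (p : ℤ) ∣ kk Q * KK Q' - kk Q' * KK Q)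
    (Q₀ : Place k κ) (hQ₀ : good Q₀) : (p : ℤ) ∣ kk Q₀ * KK Q₀ * x Q₀ := by
  obtain ⟨c, u, hc, hu, hTF⟩ := hTF
  obtain ⟨c', hc', hTU⟩ := hTU
  set k₀ := kk Q₀ with hk₀
  set K₀ := KK Q₀ with hK₀
  -- the auxiliary function
  set h : κ := F ^ K₀ * U ^ (-k₀) with hh
  have hFK : F ^ K₀ ≠ 0 := zpow_ne_zero _ hF
  have hUk : U ^ (-k₀) ≠ 0 := zpow_ne_zero _ hU
  have hh0 : h ≠ 0 := mul_ne_zero hFK hUk
  have hordh : ∀ Q : Place k κ, Q.ord h = K₀ * Q.ord F - k₀ * Q.ord U := by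
    intro Q
    rw [hh, Q.ord_mul hFK hUk, Q.ord_zpow, Q.ord_zpow]
    ring
  have h1 : ∀ Q : Place k κ, good Q → (p : ℤ) ∣ Q.ord h := by
    intro Q hQ
    obtain ⟨r, hr⟩ := hordF Q hQ
    obtain ⟨s, hs⟩ := hordU Q hQ
    obtain ⟨t, ht⟩ := hprop Q Q₀ hQ hQ₀
    refine ⟨K₀ * r - k₀ * s + x Q * t, ?_⟩
    rw [hordh Q]
    have e1 : Q.ord F = kk Q * x Q + (p : ℤ) * r := by linarith
    have e2 : Q.ord U = KK Q * x Q + (p : ℤ) * s := by linarith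
    rw [e1, e2]
    have e3 : kk Q * K₀ - k₀ * KK Q = (p : ℤ) * t := ht
    linear_combination x Q * e3
  have h2 := hpdiv h hh0 h1 Q₀ hQ₀
  -- the order of `T h` at `Q₀`
  have hTh : T h = (algebraMap k κ c * F ^ a * u ^ p) ^ K₀ *
      (algebraMap k κ c' * U ^ b) ^ (-k₀) := by
    rw [hh, map_mul, monoidHom_zpow T hF, monoidHom_zpow T hU, hTF, hTU]
  have hcne : algebraMap k κ c ≠ 0 := (map_ne_zero_iff _ (algebraMap k κ).injective).mpr hc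
  have hc'ne : algebraMap k κ c' ≠ 0 := (map_ne_zero_iff _ (algebraMap k κ).injective).mpr hc'
  have hFa : F ^ a ≠ 0 := zpow_ne_zero _ hF
  have hup : u ^ p ≠ 0 := pow_ne_zero _ hu
  have hUb : U ^ b ≠ 0 := zpow_ne_zero _ hU
  have hA : algebraMap k κ c * F ^ a * u ^ p ≠ 0 := mul_ne_zero (mul_ne_zero hcne hFa) hup
  have hB : algebraMap k κ c' * U ^ b ≠ 0 := mul_ne_zero hc'ne hUb
  have hordTh : Q₀.ord (T h) =
      K₀ * (a * Q₀.ord F + (p : ℤ) * Q₀.ord u) - k₀ * (b * Q₀.ord U) := by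
    rw [hTh, Q₀.ord_mul (zpow_ne_zero _ hA) (zpow_ne_zero _ hB), Q₀.ord_zpow, Q₀.ord_zpow,
      Q₀.ord_mul (mul_ne_zero hcne hFa) hup, Q₀.ord_mul hcne hFa, Q₀.ord_mul hc'ne hUb,
      PlaceAux.ord_algebraMap, PlaceAux.ord_algebraMap, Q₀.ord_zpow, Q₀.ord_zpow,
      PlaceAux.ord_pow]
    ring
  obtain ⟨r, hr⟩ := hordF Q₀ hQ₀
  obtain ⟨s, hs⟩ := hordU Q₀ hQ₀
  obtain ⟨t, ht⟩ := h2
  have e1 : Q₀.ord F = k₀ * x Q₀ + (p : ℤ) * r := by linarith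
  have e2 : Q₀.ord U = K₀ * x Q₀ + (p : ℤ) * s := by linarith
  have hkey : (p : ℤ) ∣ (a - b) * (k₀ * K₀ * x Q₀) := by
    refine ⟨t - K₀ * a * r - K₀ * Q₀.ord u + k₀ * b * s, ?_⟩
    have e3 : K₀ * (a * Q₀.ord F + (p : ℤ) * Q₀.ord u) - k₀ * (b * Q₀.ord U) = (p : ℤ) * t := by
      rw [← hordTh, ht]
    rw [e1, e2] at e3
    linear_combination e3
  have hpp : Prime (p : ℤ) := Nat.prime_iff_prime_int.mp hp
  rcases hpp.dvd_or_dvd hkey with h3 | h3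
  · exact absurd h3 hab
  · exact h3

/-- **[ELIM], consequence**: at every good place, `p ∣ ord_Q F` or `p ∣ K_Q`. -/
theorem elim_dvd_ord_or_dvd (p : ℕ) (hp : p.Prime) (good : Place k κ → Prop) (T : κ →* κ)
    (hpdiv : ∀ z : κ, z ≠ 0 → (∀ Q, good Q → (p : ℤ) ∣ Q.ord z) →
      ∀ Q, good Q → (p : ℤ) ∣ Q.ord (T z))
    {F U : κ} (hF : F ≠ 0) (hU : U ≠ 0) (a b : ℤ) (hab : ¬ (p : ℤ) ∣ a - b)
    (hTF : ∃ (c : k) (u : κ), c ≠ 0 ∧ u ≠ 0 ∧ T F = algebraMap k κ c * F ^ a * u ^ p)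
    (hTU : ∃ c : k, c ≠ 0 ∧ T U = algebraMap k κ c * U ^ b)
    (x kk KK : Place k κ → ℤ)
    (hordF : ∀ Q, good Q → (p : ℤ) ∣ Q.ord F - kk Q * x Q)
    (hordU : ∀ Q, good Q → (p : ℤ) ∣ Q.ord U - KK Q * x Q)
    (hprop : ∀ Q Q', good Q → good Q' → (p : ℤ) ∣ kk Q * KK Q' - kk Q' * KK Q)
    (Q₀ : Place k κ) (hQ₀ : good Q₀) : (p : ℤ) ∣ Q₀.ord F ∨ (p : ℤ) ∣ KK Q₀ := by
  have h := elim_dvd_mul_mul p hp good T hpdiv hF hU a b hab hTF hTU x kk KK hordF hordU hprop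
    Q₀ hQ₀
  have hpp : Prime (p : ℤ) := Nat.prime_iff_prime_int.mp hp
  have e : kk Q₀ * KK Q₀ * x Q₀ = KK Q₀ * (kk Q₀ * x Q₀) := by ring
  rw [e] at h
  rcases hpp.dvd_or_dvd h with h1 | h1
  · exact Or.inr h1
  · left
    have h2 := hordF Q₀ hQ₀
    have e2 : Q₀.ord F = (Q₀.ord F - kk Q₀ * x Q₀) + kk Q₀ * x Q₀ := by ring
    rw [e2]
    exact dvd_add h2 h1

end Fermat.Agent.MP
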