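import Mathlib
import Fermat.Agent.MP.DICT_helper1_Host
import Fermat.Agent.MP.ELIM_helper3_Abs

/-!
# Project MP40 — C5 [DICT] helper1: the reduction map of the sheet `∞` and the dictionary in
relational form

* `exists_ringHom_of_res` : for `A : EM → EN`, valuation subrings `VM`, `W` with `W.comap A = VM`
  and residue degree one (`∀ x ∈ W, ∃ a ∈ VM, x ≡ A a`), every ring hom `ρ : VM → F` killing the
  maximal ideal extends uniquely to `ι : W → F` (killing the maximal ideal) with `ι x = ρ a` as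
  soon as `x ≡ A a`;
* `SSModel.dict_one_rel`, `SSModel.dict_two_rel` : **the dictionary in relational form** — no
  reduction map on `Winf`, only `ρ : VM → F̄`, and functions linked by congruences
  `f π ^ (-a∞) ≡ A x₀`, `U ≡ A U₀` along `Winf` (the currency of `ThreeHyps.hecke_rel_residue` and
  `elim_dvd_ord_or_dvd`).
-/

set_option autoImplicit false
set_option linter.unusedSectionVars false
set_option linter.unusedVariables false
set_option linter.style.haveILetI false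

open AlgebraicCurve IsLocalRing

namespace Fermat.Agent.MP

open Fermat.Agent.NP Fermat.Agent.SS Fermat.Agent.JA Fermat.Agent.FF Fermat.Agent.MW
  Fermat.Agent.MW.NAdic

section Iota

variable {EM : Type*} [Field EM] {EN : Type*} [Field EN] {F : Type*} [Field F]
  (A : EM →+* EN) (VM : ValuationSubring EM) (W : ValuationSubring EN)

/-- the maximal ideals correspond under `W.comap A = VM`. -/
theorem valuation_lt_one_of_comap (hcomap : W.comap A = VM) {y : EM}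
    (hy : W.valuation (A y) < 1) : VM.valuation y < 1 := by
  have hyW : A y ∈ W := (ValuationSubring.valuation_le_one_iff _ _).mp hy.le
  have hyV : y ∈ VM := by rw [← hcomap]; exact hyW
  refine lt_of_le_of_ne ((ValuationSubring.valuation_le_one_iff _ _).mpr hyV) ?_
  intro h1
  have hy0 : y ≠ 0 := by
    intro h0
    rw [h0, map_zero] at h1
    exact zero_ne_one h1
  have hyi : y⁻¹ ∈ VM := by
    rw [← ValuationSubring.valuation_le_one_iff, map_inv₀, h1, inv_one]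
  have hyiW : A y⁻¹ ∈ W := by
    have : y⁻¹ ∈ W.comap A := by rw [hcomap]; exact hyi
    exact this
  have h2 : W.valuation (A y⁻¹) ≤ 1 := (ValuationSubring.valuation_le_one_iff _ _).mpr hyiW
  rw [map_inv₀, map_inv₀] at h2
  have h3 : W.valuation (A y) ≠ 0 := (Valuation.ne_zero_iff _).mpr ((map_ne_zero A).mpr hy0)
  rw [inv_le_one₀ (zero_lt_iff.mpr h3)] at h2
  exact absurd hy (not_lt.mpr h2)

theorem map_mem_of_comap (hcomap : W.comap A = VM) {y : EM} (hy : y ∈ VM) : A y ∈ W := by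
  have : y ∈ W.comap A := by rw [hcomap]; exact hy
  exact this

theorem valuation_map_lt_one_of_comap (hcomap : W.comap A = VM) {y : EM}
    (hy : VM.valuation y < 1) : W.valuation (A y) < 1 := by
  have hyV : y ∈ VM := (ValuationSubring.valuation_le_one_iff _ _).mp hy.le
  have hyW : A y ∈ W := map_mem_of_comap A VM W hcomap hyV
  refine lt_of_le_of_ne ((ValuationSubring.valuation_le_one_iff _ _).mpr hyW) ?_
  intro h1
  have hy0 : A y ≠ 0 := by
    intro h0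
    rw [h0, map_zero] at h1
    exact zero_ne_one h1
  have hyi : (A y)⁻¹ ∈ W := by
    rw [← ValuationSubring.valuation_le_one_iff, map_inv₀, h1, inv_one]
  rw [← map_inv₀] at hyi
  have hyiV : y⁻¹ ∈ VM := by
    have : y⁻¹ ∈ W.comap A := hyi
    rwa [hcomap] at this
  have h2 : VM.valuation y⁻¹ ≤ 1 := (ValuationSubring.valuation_le_one_iff _ _).mpr hyiV
  rw [map_inv₀] at h2
  have hy0' : y ≠ 0 := fun h0 => hy0 (by rw [h0, map_zero])
  have h3 : VM.valuation y ≠ 0 := (Valuation.ne_zero_iff _).mpr hy0'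
  rw [inv_le_one₀ (zero_lt_iff.mpr h3)] at h2
  exact absurd hy (not_lt.mpr h2)

/-- **the reduction map of a sheet of residue degree one.** -/
theorem exists_ringHom_of_res (hcomap : W.comap A = VM)
    (hres : ∀ x ∈ W, ∃ a ∈ VM, W.valuation (x - A a) < 1)
    (ρ : ↥VM →+* F) (hρ : ∀ x : ↥VM, VM.valuation (x : EM) < 1 → ρ x = 0) :
    ∃ ι : ↥W →+* F, (∀ x : ↥W, W.valuation (x : EN) < 1 → ι x = 0) ∧
      ∀ (x : ↥W) (a : ↥VM), W.valuation ((x : EN) - A (a : EM)) < 1 → ι x = ρ a := by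
  classical
  choose a ha hax using hres
  -- the key uniqueness statement
  have hkey : ∀ (x : ↥W) (b : ↥VM), W.valuation ((x : EN) - A (b : EM)) < 1 →
      ρ ⟨a x x.2, ha x x.2⟩ = ρ b := by
    intro x b hb
    have h1 : W.valuation (A (a x x.2 - (b : EM))) < 1 := by
      have e : A (a x x.2 - (b : EM)) = ((x : EN) - A (b : EM)) - ((x : EN) - A (a x x.2)) := by
        rw [map_sub]; ring
      rw [e]
      exact lt_of_le_of_lt (Valuation.map_sub _ _ _) (max_lt hb (hax x x.2))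
    have h2 := valuation_lt_one_of_comap A VM W hcomap h1
    have h3 : ρ (⟨a x x.2, ha x x.2⟩ - b) = 0 := hρ _ h2
    rw [map_sub, sub_eq_zero] at h3
    exact h3
  have hAW : ∀ b : ↥VM, A (b : EM) ∈ W := fun b => map_mem_of_comap A VM W hcomap b.2
  refine ⟨{ toFun := fun x => ρ ⟨a x x.2, ha x x.2⟩
            map_one' := ?_
            map_mul' := ?_
            map_zero' := ?_
            map_add' := ?_ }, ?_, ?_⟩
  · rw [hkey 1 1 (by
      show W.valuation ((1 : EN) - A (1 : EM)) < 1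
      rw [map_one, sub_self, map_zero]; exact zero_lt_one), map_one]
  · intro x y
    rw [← map_mul]
    refine hkey (x * y) (⟨a x x.2, ha x x.2⟩ * ⟨a y y.2, ha y y.2⟩) ?_
    show W.valuation ((x : EN) * (y : EN) - A (a x x.2 * a y y.2)) < 1
    have e : (x : EN) * (y : EN) - A (a x x.2 * a y y.2) =
        (x : EN) * ((y : EN) - A (a y y.2)) + A (a y y.2) * ((x : EN) - A (a x x.2)) := by
      rw [map_mul]; ring
    rw [e]
    refine lt_of_le_of_lt (Valuation.map_add _ _ _) (max_lt ?_ ?_)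
    · rw [map_mul]
      calc W.valuation (x : EN) * W.valuation ((y : EN) - A (a y y.2))
          ≤ 1 * W.valuation ((y : EN) - A (a y y.2)) :=
            mul_le_mul' ((ValuationSubring.valuation_le_one_iff _ _).mpr x.2) le_rfl
        _ = W.valuation ((y : EN) - A (a y y.2)) := one_mul _
        _ < 1 := hax y y.2
    · rw [map_mul]
      calc W.valuation (A (a y y.2)) * W.valuation ((x : EN) - A (a x x.2))
          ≤ 1 * W.valuation ((x : EN) - A (a x x.2)) :=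
            mul_le_mul' ((ValuationSubring.valuation_le_one_iff _ _).mpr
              (hAW ⟨a y y.2, ha y y.2⟩)) le_rfl
        _ = W.valuation ((x : EN) - A (a x x.2)) := one_mul _
        _ < 1 := hax x x.2
  · rw [hkey 0 0 (by
      show W.valuation ((0 : EN) - A (0 : EM)) < 1
      rw [map_zero, sub_self, map_zero]; exact zero_lt_one), map_zero]
  · intro x y
    rw [← map_add]
    refine hkey (x + y) (⟨a x x.2, ha x x.2⟩ + ⟨a y y.2, ha y y.2⟩) ?_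
    show W.valuation ((x : EN) + (y : EN) - A (a x x.2 + a y y.2)) < 1
    have e : (x : EN) + (y : EN) - A (a x x.2 + a y y.2) =
        ((x : EN) - A (a x x.2)) + ((y : EN) - A (a y y.2)) := by
      rw [map_add]; ring
    rw [e]
    exact lt_of_le_of_lt (Valuation.map_add _ _ _) (max_lt (hax x x.2) (hax y y.2))
  · intro x hx
    show ρ ⟨a x x.2, ha x x.2⟩ = 0
    rw [hkey x 0 (by
      show W.valuation ((x : EN) - A (0 : EM)) < 1
      rw [map_zero, sub_zero]; exact hx), map_zero]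
  · intro x b hb
    exact hkey x b hb

end Iota

section Rel

variable {R : Type*} [CommRing R] [IsDomain R] [IsDiscreteValuationRing R] [CharZero R]
  {K₁ : Type*} [Field K₁] [Algebra R K₁] [IsFractionRing R K₁]
  {KM : Type*} [Field KM] [Algebra K₁ KM] [Algebra R KM] [IsScalarTower R K₁ KM]
  {EM : Type*} [Field EM] [Algebra KM EM] [Algebra K₁ EM] [IsScalarTower K₁ KM EM] [Algebra R EM]
  [IsScalarTower R KM EM]
  {KN : Type*} [Field KN] [Algebra K₁ KN] [Algebra R KN] [IsScalarTower R K₁ KN]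
  {EN : Type*} [Field EN] [Algebra KN EN] [Algebra K₁ EN] [IsScalarTower K₁ KN EN] [Algebra R EN]
  [IsScalarTower R KN EN] [FiniteDimensional KN EN]
  {π : R} {q n : ℕ} {S : Finset R} {t : KM} {jM : EM} {j : KN} {A B : EM →+* EN}
  {VM : ValuationSubring EM} {Winf W0 : ValuationSubring EN}
  [IsAlgClosed (IsLocalRing.ResidueField R)]
  {k : Type*} [Field k] {F : Type*} [Field F] [Algebra k F]

/-- the reduction map of the sheet `∞` of an `SSModel`, with its compatibilities. -/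
theorem SSModel.exists_redInf (h : SSModel K₁ π q n S t jM j A B VM Winf W0)
    (ρ : ↥VM →+* F) (hρ : ∀ x : ↥VM, VM.valuation (x : EM) < 1 → ρ x = 0)
    (res : R →+* k)
    (hρR : ∀ (r : R) (hr : algebraMap R EM r ∈ VM),
      ρ ⟨algebraMap R EM r, hr⟩ = algebraMap k F (res r)) :
    ∃ ι : ↥Winf →+* F, (∀ x : ↥Winf, Winf.valuation (x : EN) < 1 → ι x = 0) ∧
      (∀ (x : ↥Winf) (a : ↥VM), Winf.valuation ((x : EN) - A (a : EM)) < 1 → ι x = ρ a) ∧
      (∀ (r : R) (hr : algebraMap R EN r ∈ Winf),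
        ι ⟨algebraMap R EN r, hr⟩ = algebraMap k F (res r)) := by
  obtain ⟨ι, hker, hιA⟩ := exists_ringHom_of_res A VM Winf h.comap_A_inf h.res_inf ρ hρ
  refine ⟨ι, hker, hιA, fun r hr => ?_⟩
  have hrV : algebraMap R EM r ∈ VM := by
    have : algebraMap R EM r ∈ Winf.comap A := by
      show A (algebraMap R EM r) ∈ Winf
      rw [h.A_algebraMap]; exact hr
    rwa [h.comap_A_inf] at this
  rw [hιA ⟨algebraMap R EN r, hr⟩ ⟨algebraMap R EM r, hrV⟩ (by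
    show Winf.valuation (algebraMap R EN r - A (algebraMap R EM r)) < 1
    rw [h.A_algebraMap, sub_self, map_zero]; exact zero_lt_one)]
  exact hρR r hrV

/-- **the dictionary at the non-cuspidal places, relational form.** -/
theorem SSModel.dict_one_rel (h : SSModel K₁ π q n S t jM j A B VM Winf W0)
    (hπ : Irreducible π) {e₁ : ℕ} (he₁ : 0 < e₁) {ε : Rˣ} (hpe : (q : R) = ε * π ^ e₁)
    (ρ : ↥VM →+* F) (hρ : ∀ x : ↥VM, VM.valuation (x : EM) < 1 → ρ x = 0)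
    (res : R →+* k) (hres : Function.Surjective res)
    (hρR : ∀ (r : R) (hr : algebraMap R EM r ∈ VM),
      ρ ⟨algebraMap R EM r, hr⟩ = algebraMap k F (res r))
    (Q : Place k F)
    (hQ : ∀ y ∈ Q.toValuationSubring, ∃ c : k,
      Q.toValuationSubring.valuation (y - algebraMap k F c) < 1)
    (hjV : jM ∈ VM) (hρj : ρ ⟨jM, hjV⟩ ∈ Q.toValuationSubring)
    {f : EN} (hf : f ≠ 0) (hord : ∀ P : Place K₁ EN, (q : ℤ) ∣ P.ord f)
    {U : EN} {c : ℕ} (hU : NodeUnit K₁ π (A jM) U c Winf W0)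
    (hcinf : ∀ b ∈ chartOne R EN j, b ∈ Winf) (hc0 : ∀ b ∈ chartOne R EN j, b ∈ W0)
    (X : ChartNode j Winf W0 hcinf hc0 → EN) (kk KK : ChartNode j Winf W0 hcinf hc0 → ℤ)
    (hXu : ∀ nd, IsUnitIn Winf.toSubring (X nd))
    (hfact : ∀ nd, IsNodeFact K₁ (locSub (chartOne R EN j) nd.1) q (X nd) f (kk nd))
    (hUfact : ∀ nd, ∃ w : EN, IsUnitIn (locSub (chartOne R EN j) nd.1) w ∧ U = w * X nd ^ KK nd)
    {ainf : ℤ} {x₀ U₀ : EM} (hx₀ : x₀ ∈ VM) (hU₀ : U₀ ∈ VM)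
    (hfu : Winf.valuation (f * (algebraMap R EN π ^ ainf)⁻¹) = 1)
    (hlink : Winf.valuation (f * (algebraMap R EN π ^ ainf)⁻¹ - A x₀) < 1)
    (hlinkU : Winf.valuation (U - A U₀) < 1) :
    ((q : ℤ) ∣ Q.ord (ρ ⟨x₀, hx₀⟩) ∧ (q : ℤ) ∣ Q.ord (ρ ⟨U₀, hU₀⟩)) ∨
      ∃ (nd : ChartNode j Winf W0 hcinf hc0) (x : ℤ),
        (q : ℤ) ∣ Q.ord (ρ ⟨x₀, hx₀⟩) - kk nd * x ∧ Q.ord (ρ ⟨U₀, hU₀⟩) = KK nd * x := by
  obtain ⟨ι, hker, hιA, hιR⟩ := SSModel.exists_redInf h ρ hρ res hρR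
  have hjW : algebraMap KN EN j ∈ Winf :=
    h.two.chart_le_inf _ (algebraMap_coord_mem_chartOne j)
  have hιj : ι ⟨algebraMap KN EN j, hjW⟩ ∈ Q.toValuationSubring := by
    rw [hιA ⟨algebraMap KN EN j, hjW⟩ ⟨jM, hjV⟩ (by
      show Winf.valuation (algebraMap KN EN j - A jM) < 1
      rw [h.A_j, sub_self, map_zero]; exact zero_lt_one)]
    exact hρj
  have hfm : f * (algebraMap R EN π ^ ainf)⁻¹ ∈ Winf :=
    (ValuationSubring.valuation_le_one_iff _ _).mp hfu.le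
  have hnf : RedOrd Winf (algebraMap R EN π) ι Q f (Q.ord (ρ ⟨x₀, hx₀⟩)) :=
    ⟨ainf, hfm, hfu, by rw [hιA ⟨_, hfm⟩ ⟨x₀, hx₀⟩ hlink]⟩
  have hU1 : Winf.valuation U = 1 :=
    valuation_eq_one_of_mem_of_inv_mem hU.ne_zero hU.mem_inf hU.inv_mem_inf
  have hnU : RedOrd Winf (algebraMap R EN π) ι Q U (Q.ord (ρ ⟨U₀, hU₀⟩)) := by
    have h1 := RedOrd.of_valuation_eq_one (π := algebraMap R EN π) (ι := ι) (Q := Q)
      hU.mem_inf hU1
    rwa [hιA ⟨U, hU.mem_inf⟩ ⟨U₀, hU₀⟩ hlinkU] at h1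
  rcases SSModel.redOrd_dict_one h hπ he₁ hpe hker res hres hιR Q hQ hjW hιj hf hord hU hcinf hc0
    X kk KK hXu hfact hUfact hnf hnU with h1 | ⟨nd, x, -, h2, h3⟩
  · exact Or.inl h1
  · exact Or.inr ⟨nd, x, h2, h3⟩

/-- **the dictionary at the cuspidal places, relational form.** -/
theorem SSModel.dict_two_rel (h : SSModel K₁ π q n S t jM j A B VM Winf W0)
    (hπ : Irreducible π) {e₁ : ℕ} (he₁ : 0 < e₁) {ε : Rˣ} (hpe : (q : R) = ε * π ^ e₁)
    (hjint : IsIntegral ↥(Algebra.adjoin R {B jM}) (A jM))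
    (ρ : ↥VM →+* F) (hρ : ∀ x : ↥VM, VM.valuation (x : EM) < 1 → ρ x = 0)
    (res : R →+* k) (hres : Function.Surjective res)
    (hρR : ∀ (r : R) (hr : algebraMap R EM r ∈ VM),
      ρ ⟨algebraMap R EM r, hr⟩ = algebraMap k F (res r))
    (Q : Place k F)
    (hQ : ∀ y ∈ Q.toValuationSubring, ∃ c : k,
      Q.toValuationSubring.valuation (y - algebraMap k F c) < 1)
    (hjV : jM ∈ VM) (hρj : ρ ⟨jM, hjV⟩ ∉ Q.toValuationSubring)
    {f : EN} (hf : f ≠ 0) (hord : ∀ P : Place K₁ EN, (q : ℤ) ∣ P.ord f)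
    {ainf : ℤ} {x₀ : EM} (hx₀ : x₀ ∈ VM)
    (hfu : Winf.valuation (f * (algebraMap R EN π ^ ainf)⁻¹) = 1)
    (hlink : Winf.valuation (f * (algebraMap R EN π ^ ainf)⁻¹ - A x₀) < 1) :
    (q : ℤ) ∣ Q.ord (ρ ⟨x₀, hx₀⟩) := by
  obtain ⟨ι, hker, hιA, hιR⟩ := SSModel.exists_redInf h ρ hρ res hρR
  have hjW : algebraMap KN EN j ∈ Winf :=
    h.two.chart_le_inf _ (algebraMap_coord_mem_chartOne j)
  have hιj : ι ⟨algebraMap KN EN j, hjW⟩ ∉ Q.toValuationSubring := by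
    rw [hιA ⟨algebraMap KN EN j, hjW⟩ ⟨jM, hjV⟩ (by
      show Winf.valuation (algebraMap KN EN j - A jM) < 1
      rw [h.A_j, sub_self, map_zero]; exact zero_lt_one)]
    exact hρj
  have hfm : f * (algebraMap R EN π ^ ainf)⁻¹ ∈ Winf :=
    (ValuationSubring.valuation_le_one_iff _ _).mp hfu.le
  have hnf : RedOrd Winf (algebraMap R EN π) ι Q f (Q.ord (ρ ⟨x₀, hx₀⟩)) :=
    ⟨ainf, hfm, hfu, by rw [hιA ⟨_, hfm⟩ ⟨x₀, hx₀⟩ hlink]⟩
  exact SSModel.redOrd_dict_two h hπ he₁ hpe hjint hker res hres hιR Q hQ hjW hιj hf hord hnf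

/-- the reduction of a function linked to a unit of the sheet is non-zero. -/
theorem SSModel.red_ne_zero_of_link (h : SSModel K₁ π q n S t jM j A B VM Winf W0)
    (ρ : ↥VM →+* F) (hρ : ∀ x : ↥VM, VM.valuation (x : EM) < 1 → ρ x = 0)
    {g : EN} {x₀ : EM} (hx₀ : x₀ ∈ VM) (hg : Winf.valuation g = 1)
    (hlink : Winf.valuation (g - A x₀) < 1) : ρ ⟨x₀, hx₀⟩ ≠ 0 := by
  intro h0
  have h1 : VM.valuation x₀ < 1 := (map_eq_zero_iff_of_hker VM ρ hρ ⟨x₀, hx₀⟩).mp h0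
  have h2 := valuation_map_lt_one_of_comap A VM Winf h.comap_A_inf h1
  have h3 : Winf.valuation g < 1 := by
    have e : g = (g - A x₀) + A x₀ := by ring
    rw [e]
    exact lt_of_le_of_lt (Valuation.map_add _ _ _) (max_lt hlink h2)
  rw [hg] at h3
  exact lt_irrefl _ h3

/-- **(C) [ORD], abstract form**: on an `SSModel` with a reduction `ρ : VM → F̄` of the good level,
a function `f` with `div f ∈ p Div` whose normalisation along `Winf` reduces to `F̄ = ρ x₀`, the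
node unit `U` reducing to `Ū = ρ U₀`, the node package (`X`, `kk`, `KK`, proportionality, final
arithmetic `harith`), and a reduced Hecke operator `T` on `F̄` with [PDIV], `T F̄ = c F̄ ^ a u ^ p`,
`T Ū = c' Ū ^ b`, `p ∤ a - b`: then `p ∣ ord_Q F̄` at EVERY place `Q` of `F̄`. -/
theorem SSModel.dvd_ord_red_of_hecke (h : SSModel K₁ π q n S t jM j A B VM Winf W0)
    (hπ : Irreducible π) {e₁ : ℕ} (he₁ : 0 < e₁) {ε : Rˣ} (hpe : (q : R) = ε * π ^ e₁)
    (hjint : IsIntegral ↥(Algebra.adjoin R {B jM}) (A jM))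
    (ρ : ↥VM →+* F) (hρ : ∀ x : ↥VM, VM.valuation (x : EM) < 1 → ρ x = 0)
    (res : R →+* k) (hres : Function.Surjective res)
    (hρR : ∀ (r : R) (hr : algebraMap R EM r ∈ VM),
      ρ ⟨algebraMap R EM r, hr⟩ = algebraMap k F (res r))
    (hQ : ∀ Q : Place k F, ∀ y ∈ Q.toValuationSubring, ∃ c : k,
      Q.toValuationSubring.valuation (y - algebraMap k F c) < 1)
    (hjV : jM ∈ VM)
    {f : EN} (hf : f ≠ 0) (hord : ∀ P : Place K₁ EN, (q : ℤ) ∣ P.ord f)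
    {U : EN} {c : ℕ} (hU : NodeUnit K₁ π (A jM) U c Winf W0)
    (hcinf : ∀ b ∈ chartOne R EN j, b ∈ Winf) (hc0 : ∀ b ∈ chartOne R EN j, b ∈ W0)
    (X : ChartNode j Winf W0 hcinf hc0 → EN) (kk KK : ChartNode j Winf W0 hcinf hc0 → ℤ)
    (hXu : ∀ nd, IsUnitIn Winf.toSubring (X nd))
    (hfact : ∀ nd, IsNodeFact K₁ (locSub (chartOne R EN j) nd.1) q (X nd) f (kk nd))
    (hUfact : ∀ nd, ∃ w : EN, IsUnitIn (locSub (chartOne R EN j) nd.1) w ∧ U = w * X nd ^ KK nd)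
    (hprop : ∀ nd nd', (q : ℤ) ∣ kk nd * KK nd' - kk nd' * KK nd)
    (harith : ∀ (nd : ChartNode j Winf W0 hcinf hc0) (ordF x : ℤ), (q : ℤ) ∣ ordF - kk nd * x →
      ((q : ℤ) ∣ ordF ∨ (q : ℤ) ∣ KK nd) → (q : ℤ) ∣ ordF)
    {ainf : ℤ} {x₀ U₀ : EM} (hx₀ : x₀ ∈ VM) (hU₀ : U₀ ∈ VM)
    (hfu : Winf.valuation (f * (algebraMap R EN π ^ ainf)⁻¹) = 1)
    (hlink : Winf.valuation (f * (algebraMap R EN π ^ ainf)⁻¹ - A x₀) < 1)
    (hlinkU : Winf.valuation (U - A U₀) < 1)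
    (T : F →* F)
    (hpdiv : ∀ z : F, z ≠ 0 →
      (∀ Q : Place k F, ρ ⟨jM, hjV⟩ ∈ Q.toValuationSubring → (q : ℤ) ∣ Q.ord z) →
      ∀ Q : Place k F, ρ ⟨jM, hjV⟩ ∈ Q.toValuationSubring → (q : ℤ) ∣ Q.ord (T z))
    (a b : ℤ) (hab : ¬ (q : ℤ) ∣ a - b)
    (hTF : ∃ (c : k) (u : F), c ≠ 0 ∧ u ≠ 0 ∧
      T (ρ ⟨x₀, hx₀⟩) = algebraMap k F c * ρ ⟨x₀, hx₀⟩ ^ a * u ^ q)
    (hTU : ∃ c : k, c ≠ 0 ∧ T (ρ ⟨U₀, hU₀⟩) = algebraMap k F c * ρ ⟨U₀, hU₀⟩ ^ b) :
    ∀ Q : Place k F, (q : ℤ) ∣ Q.ord (ρ ⟨x₀, hx₀⟩) := by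
  classical
  intro Q
  by_cases hg : ρ ⟨jM, hjV⟩ ∈ Q.toValuationSubring
  · have key : ∀ Q' : Place k F, ρ ⟨jM, hjV⟩ ∈ Q'.toValuationSubring → ∃ (x kQ KQ : ℤ),
        (q : ℤ) ∣ Q'.ord (ρ ⟨x₀, hx₀⟩) - kQ * x ∧ (q : ℤ) ∣ Q'.ord (ρ ⟨U₀, hU₀⟩) - KQ * x ∧
        ((kQ = 0 ∧ KQ = 0 ∧ (q : ℤ) ∣ Q'.ord (ρ ⟨x₀, hx₀⟩)) ∨
          ∃ nd, kQ = kk nd ∧ KQ = KK nd) := by
      intro Q' hg'
      rcases SSModel.dict_one_rel h hπ he₁ hpe ρ hρ res hres hρR Q' (hQ Q') hjV hg' hf hord hU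
        hcinf hc0 X kk KK hXu hfact hUfact hx₀ hU₀ hfu hlink hlinkU with ⟨h1, h2⟩ | ⟨nd, x, h1, h2⟩
      · exact ⟨0, 0, 0, by simpa using h1, by simpa using h2, Or.inl ⟨rfl, rfl, h1⟩⟩
      · exact ⟨x, kk nd, KK nd, h1, by rw [h2, sub_self]; exact dvd_zero _, Or.inr ⟨nd, rfl, rfl⟩⟩
    choose! x' k' K' h1 h2 h3 using key
    have hprop' : ∀ Q₁ Q₂ : Place k F, ρ ⟨jM, hjV⟩ ∈ Q₁.toValuationSubring →
        ρ ⟨jM, hjV⟩ ∈ Q₂.toValuationSubring → (q : ℤ) ∣ k' Q₁ * K' Q₂ - k' Q₂ * K' Q₁ := by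
      intro Q₁ Q₂ hg₁ hg₂
      rcases h3 Q₁ hg₁ with ⟨e1, e2, -⟩ | ⟨nd₁, e1, e2⟩
      · rw [e1, e2]; simp
      · rcases h3 Q₂ hg₂ with ⟨e3, e4, -⟩ | ⟨nd₂, e3, e4⟩
        · rw [e3, e4]; simp
        · rw [e1, e2, e3, e4]; exact hprop nd₁ nd₂
    have hF0 : ρ ⟨x₀, hx₀⟩ ≠ 0 := SSModel.red_ne_zero_of_link h ρ hρ hx₀ hfu hlink
    have hU1 : Winf.valuation U = 1 :=
      valuation_eq_one_of_mem_of_inv_mem hU.ne_zero hU.mem_inf hU.inv_mem_inf
    have hU0 : ρ ⟨U₀, hU₀⟩ ≠ 0 := SSModel.red_ne_zero_of_link h ρ hρ hU₀ hU1 hlinkU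
    have helim := elim_dvd_ord_or_dvd q h.q_prime
      (fun Q' : Place k F => ρ ⟨jM, hjV⟩ ∈ Q'.toValuationSubring) T hpdiv hF0 hU0 a b hab hTF hTU
      x' k' K' h1 h2 hprop' Q hg
    rcases h3 Q hg with ⟨-, -, hd⟩ | ⟨nd, hk, hK⟩
    · exact hd
    · exact harith nd _ (x' Q) (by rw [← hk]; exact h1 Q hg) (by rw [← hK]; exact helim)
  · exact SSModel.dict_two_rel h hπ he₁ hpe hjint ρ hρ res hres hρR Q (hQ Q) hjV hg hf hord hx₀
      hfu hlink

end Rel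

end Fermat.Agent.MP
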