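/-
MP40 (S44/S40) — helper3 — [PDIV], auxiliary: **every `k`-algebra homomorphism between function
fields of one variable is integral** (exchange lemma via transcendence degrees).

`κ'` algebraic over `k(t')` for one `t' ∈ κ'`, `κ` containing an element transcendental over `k`:
then `κ'` is algebraic over `κ` along any `k`-algebra homomorphism `β : κ → κ'`.
-/
import Mathlib
import Fermat.Prelude.Def_AlgebraicCurve_Correspondence

set_option autoImplicit false
set_option linter.unusedSectionVars false
set_option linter.style.haveILetI false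

open AlgebraicCurve IntermediateField Cardinal

namespace Fermat.Agent.MP

universe u v

/-- **exchange lemma**: a tower `k ⊆ κ ⊆ κ'` with `κ'` algebraic over `k(t')` and `κ/k`
transcendental is algebraic at the top. -/
theorem isAlgebraic_of_isAlgebraic_adjoin_of_transcendental {k : Type u} {κ κ' : Type v}
    [Field k] [Field κ] [Field κ'] [Algebra k κ] [Algebra k κ'] [Algebra κ κ']
    [IsScalarTower k κ κ'] (t' : κ') (halg : Algebra.IsAlgebraic k⟮t'⟯ κ') (z : κ)
    (hz : Transcendental k z) : Algebra.IsAlgebraic κ κ' := by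
  haveI : Algebra.IsAlgebraic (Algebra.adjoin k ({t'} : Set κ')) κ' :=
    IntermediateField.isAlgebraic_adjoin_iff_top.mp halg
  have h1 : Algebra.trdeg k κ' ≤ 1 := by
    have := Algebra.IsAlgebraic.trdeg_le_cardinalMk k ({t'} : Set κ')
    rwa [Cardinal.mk_singleton] at this
  haveI : Algebra.Transcendental k κ := ⟨⟨z, hz⟩⟩
  have h2 : 1 ≤ Algebra.trdeg k κ := Cardinal.one_le_iff_pos.mpr (trdeg_pos k κ)
  have h3 : Algebra.trdeg k κ + Algebra.trdeg κ κ' = Algebra.trdeg k κ' :=
    trdeg_add_eq k κ
  rw [← trdeg_eq_zero_iff]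
  by_contra hb
  have h4 : 1 ≤ Algebra.trdeg κ κ' := Cardinal.one_le_iff_ne_zero.mpr hb
  have h5 : (1 : Cardinal) + 1 ≤ 1 := (add_le_add h2 h4).trans (h3 ▸ h1)
  have h6 : ((2 : ℕ) : Cardinal) ≤ ((1 : ℕ) : Cardinal) := by
    have e : ((2 : ℕ) : Cardinal) = 1 + 1 := by norm_num
    rw [e, Nat.cast_one]
    exact h5
  have h7 : (2 : ℕ) ≤ 1 := by exact_mod_cast h6
  omega

/-- **every `k`-algebra homomorphism of function fields of one variable is integral.** -/
theorem algHom_isIntegral_of_isAlgebraic_adjoin {k : Type u} {κ κ' : Type v}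
    [Field k] [Field κ] [Field κ'] [Algebra k κ] [Algebra k κ'] (β : κ →ₐ[k] κ') (t' : κ')
    (halg : Algebra.IsAlgebraic k⟮t'⟯ κ') (z : κ) (hz : Transcendental k z) :
    β.toRingHom.IsIntegral := by
  letI := algebraAlong β
  haveI := isScalarTower_along β
  haveI : Algebra.IsAlgebraic κ κ' :=
    isAlgebraic_of_isAlgebraic_adjoin_of_transcendental t' halg z hz
  haveI : Algebra.IsIntegral κ κ' := Algebra.IsAlgebraic.isIntegral
  exact algebraMap_isIntegral_iff.mpr inferInstance

end Fermat.Agent.MP
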