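import Mathlib
import Fermat.Agent.MW.GOODP_helper3_Ext
import Fermat.Agent.FG.LAT_helper5_CanonAPI

/-!
# MP40 — [ROLD-GR], helper3, part 0: definitions (helper8's literal, msg 1728 / finding 413)

* `regSpace κ` : the space of "regular differentials" `h · ω` (`D = d/ω`, `div ω = κ`), i.e. the
  functions `h` with `ord_P h ≥ - κ P` at all places;
* `canBar X κ` : the reduced canonical divisor `Q ↦ ∑_{P ↦ Q} κ P`;
* `IsNormalisedDer X D` : `‖D‖ = 1`.
-/

set_option autoImplicit false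
set_option linter.unusedSectionVars false
set_option linter.unusedVariables false
set_option linter.style.haveILetI false

noncomputable section

namespace Fermat.Agent.MP

open AlgebraicCurve IsLocalRing Fermat.Agent.FF Fermat.Agent.JA Fermat.Agent.FG Fermat.Agent.MW
open scoped Classical

/-- the space of "regular differentials" `h · ω`, `D = d/ω`, `div ω = κ`. -/
def regSpace {k F : Type*} [Field k] [Field F] [Algebra k F] (κ : Place k F → ℤ) :
    Submodule k F where
  carrier := {h | ∀ P : Place k F, OrdGE P (-κ P) h}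
  add_mem' := by
    intro a b ha hb P
    exact OrdGE.add (ha P) (hb P)
  zero_mem' := fun P => Or.inl rfl
  smul_mem' := by
    intro c h hh P
    rw [Algebra.smul_def]
    have h1 : OrdGE P 0 (algebraMap k F c) := Or.inr (by rw [PlaceAux.ord_algebraMap])
    have := h1.mul (hh P)
    rwa [zero_add] at this

theorem mem_regSpace {k F : Type*} [Field k] [Field F] [Algebra k F] {κ : Place k F → ℤ} {h : F} :
    h ∈ regSpace κ ↔ ∀ P : Place k F, OrdGE P (-κ P) h := Iff.rfl

variable {Ω : Type*} [Field Ω] {A : ValuationSubring Ω}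
  {𝔽 : Type*} [Field 𝔽] [Algebra Ω 𝔽]
  {𝔽b : Type*} [Field 𝔽b] [Algebra (ResidueField ↥A) 𝔽b]

/-- the reduced canonical divisor. -/
def canBar (X : GoodRed Ω A 𝔽 𝔽b) (κ : Place Ω 𝔽 → ℤ) (Q : Place (ResidueField ↥A) 𝔽b) : ℤ :=
  ∑ᶠ P : {P : Place Ω 𝔽 // X.r P = Q}, κ P

/-- normalisation `‖D‖ = 1`. -/
def IsNormalisedDer (X : GoodRed Ω A 𝔽 𝔽b) (D : Derivation Ω 𝔽 𝔽) : Prop :=
  ∃ (Q : Place (ResidueField ↥A) 𝔽b) (t : 𝔽), IsDiscCoord X Q t ∧ D t ∈ X.W ∧ (D t)⁻¹ ∈ X.W

end Fermat.Agent.MP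

end
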