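import Mathlib
import Fermat.Agent.FF.PlaceDict

/-!
# MP40 — [ROLD-CHARP] RQ1, helper3, part 2: the typeclass setting of the coordinate `x⁻¹`

In the typeclass setting of `FF/RR_helper3_*` (a finite separable extension `F / K(x)`, any
characteristic) there is a second instance of the same setting whose coordinate is `x⁻¹`
(`exists_typeclass_setting_inv`). The poles of `x` are regular places of the new coordinate.
-/

set_option autoImplicit false
set_option linter.unusedSectionVars false
set_option linter.style.haveILetI false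

open Polynomial AlgebraicCurve IntermediateField

namespace Fermat.Agent.MP

open Fermat.Agent.FF Fermat.Agent.FF.RR

section Coord

variable {k F : Type*} [Field k] [Field F] [Algebra k F]

theorem adjoin_inv_eq (x : F) : k⟮x⁻¹⟯ = k⟮x⟯ := by
  apply le_antisymm
  · rw [adjoin_simple_le_iff]
    exact inv_mem (mem_adjoin_simple_self k x)
  · rw [adjoin_simple_le_iff]
    have := inv_mem (mem_adjoin_simple_self k x⁻¹)
    rwa [inv_inv] at this

/-- the inverse of a coordinate is a coordinate (any characteristic). -/
noncomputable def coordInvP (c : Coord k F) : Coord k F where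
  x := c.x⁻¹
  trans := by
    intro halg
    apply c.trans
    have := halg.inv
    rwa [inv_inv] at this
  fin := by
    rw [adjoin_inv_eq]
    exact c.fin

@[simp] theorem coordInvP_x (c : Coord k F) : (coordInvP c).x = c.x⁻¹ := rfl

theorem ratEmb_ratEquiv_symm (c : Coord k F) (z : k⟮c.x⟯) : c.ratEmb (c.ratEquiv.symm z) = (z : F) := by
  simp [Coord.ratEmb, Coord.ratEquiv]

theorem ratEmb_eq_coe_ratEquiv (c : Coord k F) (r : RatFunc k) :
    c.ratEmb r = ((c.ratEquiv r : k⟮c.x⟯) : F) := by
  simp [Coord.ratEmb, Coord.ratEquiv]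

/-- separability only depends on the subfield `k(x)`. -/
theorem isSeparable_of_adjoin_eq (c c' : Coord k F) (h : k⟮c.x⟯ = k⟮c'.x⟯)
    (hs : @Algebra.IsSeparable (RatFunc k) F _ _ c.algRat) :
    @Algebra.IsSeparable (RatFunc k) F _ _ c'.algRat := by
  let e₁ : RatFunc k ≃+* RatFunc k :=
    c.ratEquiv.trans ((IntermediateField.equivOfEq h).toRingEquiv.trans c'.ratEquiv.symm)
  refine @Algebra.IsSeparable.of_equiv_equiv (RatFunc k) F (RatFunc k) F _ _ _ _ c.algRat c'.algRat
    e₁ (RingEquiv.refl F) ?_ hs
  ext r
  simp only [RingHom.coe_comp, Function.comp_apply, RingEquiv.coe_toRingHom, RingEquiv.refl_apply]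
  show c'.ratEmb (e₁ r) = c.ratEmb r
  show c'.ratEmb (c'.ratEquiv.symm ((IntermediateField.equivOfEq h) (c.ratEquiv r))) = c.ratEmb r
  rw [ratEmb_ratEquiv_symm, ratEmb_eq_coe_ratEquiv]
  rfl

end Coord

section TC

variable (K F : Type*) [Field K] [Field F] [Algebra K F] [Algebra K[X] F]
  [iR : Algebra (RatFunc K) F] [IsScalarTower K[X] (RatFunc K) F] [IsScalarTower K K[X] F] [IsScalarTower K (RatFunc K) F]
  [FiniteDimensional (RatFunc K) F] [Algebra.IsSeparable (RatFunc K) F]

theorem ratEmb_coordTC (r : RatFunc K) : (coordTC K F).ratEmb r = algebraMap (RatFunc K) F r := by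
  rw [algebraMap_ratFunc_eq_div]
  exact RatFunc.algEquivOfTranscendental_apply (coordTC K F).x (coordTC K F).trans r

/-- separability for the `Coord`-induced algebra structure of the given coordinate. -/
theorem isSeparable_coordTC : @Algebra.IsSeparable (RatFunc K) F _ _ (coordTC K F).algRat := by
  refine @Algebra.IsSeparable.of_equiv_equiv (RatFunc K) F (RatFunc K) F _ _ _ _ _
    (coordTC K F).algRat (RingEquiv.refl _) (RingEquiv.refl F) ?_ inferInstance
  ext r
  simp only [RingHom.coe_comp, Function.comp_apply, RingEquiv.coe_toRingHom, RingEquiv.refl_apply]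
  exact ratEmb_coordTC K F r

/-- **the typeclass setting of the coordinate `x⁻¹`.** Usage:
`obtain ⟨i1, i2, i3, i4, i5, i6, i7, hx⟩ := exists_typeclass_setting_inv K F`. -/
theorem exists_typeclass_setting_inv :
    ∃ (i1 : Algebra K[X] F) (i2 : Algebra (RatFunc K) F)
      (_ : @IsScalarTower K[X] (RatFunc K) F _ i2.toSMul i1.toSMul)
      (_ : @IsScalarTower K K[X] F _ i1.toSMul _)
      (_ : @IsScalarTower K (RatFunc K) F _ i2.toSMul _)
      (_ : @FiniteDimensional (RatFunc K) F _ _ i2.toModule)
      (_ : @Algebra.IsSeparable (RatFunc K) F _ _ i2),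
      @xF K F _ _ i2 = (@xF K F _ _ iR)⁻¹ := by
  have hxc : (coordInvP (coordTC K F)).x = (xF K F)⁻¹ := rfl
  set c := coordTC K F with hc
  set c' := coordInvP c with hc'
  have hsep : @Algebra.IsSeparable (RatFunc K) F _ _ c'.algRat :=
    isSeparable_of_adjoin_eq c c' (adjoin_inv_eq (k := K) c.x).symm (isSeparable_coordTC K F)
  refine ⟨c'.algPoly, c'.algRat, c'.tower1, c'.tower2, c'.tower3, c'.functionField, hsep, ?_⟩
  letI := c'.algPoly
  letI := c'.algRat
  haveI := c'.tower1
  haveI := c'.tower2
  haveI := c'.tower3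
  haveI : FunctionField K F := c'.functionField
  haveI := hsep
  exact ((xF_eq_coord K F).trans c'.coord_eq).trans hxc

end TC

end Fermat.Agent.MP
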