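import Mathlib
import Fermat.Agent.FF.LocalDer
import Fermat.Agent.FF.PlaceDict

/-!
# MP40 — [ROLD-CHARP] RQ1, helper3, part 1: the coordinate of a function field of characteristic
`p` is a `p`-basis; the kernel of `d/dx`

Typeclass setting of `FF/RR_helper3_*`: `F / K(x)` finite separable, `K` perfect of characteristic
`p`.

* `derivation_eq_derCoord_smul` (RQ1-c): every `K`-derivation `δ` of `F` into an `F`-module is
  `δ g = (dg/dx) • δ x`;
* `exists_pbasis_expansion` : every `f ∈ F` is `∑_{j<p} x^j b_j^p`;
* `derCoord_eq_zero_iff` (RQ1-b): `df/dx = 0 ↔ f ∈ F^p`;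
* `derCoord_ne_zero_of_not_dvd_ord` : `df/dx ≠ 0` if `p ∤ ord_v f` for some place `v`.
-/

set_option autoImplicit false
set_option linter.unusedSectionVars false
set_option linter.style.haveILetI false

open Polynomial AlgebraicCurve KaehlerDifferential

namespace Fermat.Agent.MP

open Fermat.Agent.FF Fermat.Agent.FF.RR

section Der

variable {K F : Type*} [Field K] [Field F] [Algebra K F] [Algebra K[X] F] [Algebra (RatFunc K) F]
  [IsScalarTower K[X] (RatFunc K) F] [IsScalarTower K K[X] F] [FunctionField K F]
  [Algebra.IsSeparable (RatFunc K) F]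

/-- **(RQ1-c)** every `K`-derivation of `F` into an `F`-module is determined by its value at the
coordinate: `δ g = (dg/dx) • δ x`. -/
theorem derivation_eq_derCoord_smul {M : Type*} [AddCommGroup M] [Module K M] [Module F M]
    [IsScalarTower K F M] (δ : Derivation K F M) (g : F) :
    δ g = derCoord K F g • δ (coord K F) := by
  have h := congrArg δ.liftKaehlerDifferential (D_eq_derCoord_smul K F g)
  rwa [map_smul, Derivation.liftKaehlerDifferential_comp_D,
    Derivation.liftKaehlerDifferential_comp_D] at h

/-- a `K`-derivation of `F` into itself is `δ x · d/dx`. -/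
theorem derivation_eq_mul_derCoord (δ : Derivation K F F) (g : F) :
    δ g = δ (coord K F) * derCoord K F g := by
  rw [derivation_eq_derCoord_smul δ g, smul_eq_mul, mul_comm]

/-- `(RQ1-c)` with the coordinate written `xF K F`. -/
theorem derivation_eq_derCoord_smul_xF [IsScalarTower K (RatFunc K) F] {M : Type*}
    [AddCommGroup M] [Module K M] [Module F M]
    [IsScalarTower K F M] (δ : Derivation K F M) (g : F) :
    δ g = derCoord K F g • δ (xF K F) := by
  rw [xF_eq_coord]
  exact derivation_eq_derCoord_smul δ g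

/-- `(RQ1-c)`, field-valued form: if `δ : F → M` is a `K`-derivation into an extension field `M`
of `F` with `δ x ≠ 0` (e.g. `θ = q d/dq` on `F ⊆ k((q))`), then `dg/dx = δ g / δ x` in `M`. -/
theorem algebraMap_derCoord_eq_div [IsScalarTower K (RatFunc K) F] {M : Type*} [Field M]
    [Algebra K M] [Algebra F M] [IsScalarTower K F M] (δ : Derivation K F M)
    (hx : δ (xF K F) ≠ 0) (g : F) :
    algebraMap F M (derCoord K F g) = δ g / δ (xF K F) := by
  rw [eq_div_iff hx, derivation_eq_derCoord_smul_xF δ g, Algebra.smul_def]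

end Der

/-- a field extension of a field of characteristic `p` has characteristic `p`. -/
theorem charP_funField (K F : Type*) [Field K] [Field F] [Algebra K F] (p : ℕ) [CharP K p] :
    CharP F p :=
  charP_of_injective_algebraMap (R := K) (A := F) (algebraMap K F).injective p

section PBasis

variable {K F : Type*} [Field K] [Field F] [Algebra K F] [Algebra K[X] F] [Algebra (RatFunc K) F]
  [IsScalarTower K[X] (RatFunc K) F] [IsScalarTower K K[X] F] [IsScalarTower K (RatFunc K) F]
  [FunctionField K F] [Algebra.IsSeparable (RatFunc K) F]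
  (p : ℕ) [hp : Fact p.Prime] [CharP K p] [PerfectRing K p]

variable (K F) in
/-- the elements of the shape `∑_{j<p} x^j b_j^p`. -/
def IsPSum (f : F) : Prop :=
  ∃ b : ℕ → F, f = ∑ j ∈ Finset.range p, coord K F ^ j * b j ^ p


include hp in
theorem isPSum_pow_mul (n : ℕ) (c : F) : IsPSum K F p (coord K F ^ n * c ^ p) := by
  classical
  have hp0 : p ≠ 0 := hp.out.ne_zero
  refine ⟨fun i => if i = n % p then coord K F ^ (n / p) * c else 0, ?_⟩
  rw [Finset.sum_eq_single (n % p)]
  · dsimp only
    rw [if_pos rfl, mul_pow, ← pow_mul, ← mul_assoc, ← pow_add]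
    congr 2
    rw [mul_comm (n / p) p]
    exact (Nat.mod_add_div n p).symm
  · intro j _ hj
    dsimp only
    rw [if_neg hj, zero_pow hp0, mul_zero]
  · intro h
    exact absurd (Finset.mem_range.mpr (Nat.mod_lt n hp.out.pos)) h

include hp in
theorem IsPSum.add {f g : F} (hf : IsPSum K F p f) (hg : IsPSum K F p g) :
    IsPSum K F p (f + g) := by
  haveI := charP_funField K F p
  obtain ⟨a, rfl⟩ := hf
  obtain ⟨b, rfl⟩ := hg
  refine ⟨fun j => a j + b j, ?_⟩
  rw [← Finset.sum_add_distrib]
  refine Finset.sum_congr rfl fun j _ => ?_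
  rw [add_pow_char, mul_add]

include hp in
theorem isPSum_zero : IsPSum K F p (0 : F) := by
  have := isPSum_pow_mul (K := K) (F := F) p 0 0
  rwa [zero_pow hp.out.ne_zero, mul_zero] at this

include hp in
theorem isPSum_sum {ι : Type*} (s : Finset ι) (f : ι → F) (h : ∀ i ∈ s, IsPSum K F p (f i)) :
    IsPSum K F p (∑ i ∈ s, f i) := by
  classical
  induction s using Finset.induction_on with
  | empty => simpa using isPSum_zero (K := K) (F := F) p
  | insert a s ha ih =>
    rw [Finset.sum_insert ha]
    exact (h a (Finset.mem_insert_self a s)).add p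
      (ih fun i hi => h i (Finset.mem_insert_of_mem hi))

include hp in
theorem IsPSum.mul {f g : F} (hf : IsPSum K F p f) (hg : IsPSum K F p g) :
    IsPSum K F p (f * g) := by
  obtain ⟨a, rfl⟩ := hf
  obtain ⟨b, rfl⟩ := hg
  rw [Finset.sum_mul_sum]
  refine isPSum_sum p _ _ fun i _ => isPSum_sum p _ _ fun j _ => ?_
  have e : coord K F ^ i * a i ^ p * (coord K F ^ j * b j ^ p) =
      coord K F ^ (i + j) * (a i * b j) ^ p := by
    rw [pow_add, mul_pow]
    ring
  rw [e]
  exact isPSum_pow_mul p _ _

include hp in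
theorem isPSum_pow_char (c : F) : IsPSum K F p (c ^ p) := by
  have := isPSum_pow_mul (K := K) (F := F) p 0 c
  rwa [pow_zero, one_mul] at this

include hp in
theorem IsPSum.pow {f : F} (hf : IsPSum K F p f) (n : ℕ) : IsPSum K F p (f ^ n) := by
  induction n with
  | zero =>
    rw [pow_zero]
    have := isPSum_pow_char (K := K) (F := F) p 1
    rwa [one_pow] at this
  | succ n ih =>
    rw [pow_succ]
    exact ih.mul p hf

include hp in
theorem IsPSum.inv {f : F} (hf : IsPSum K F p f) : IsPSum K F p f⁻¹ := by
  by_cases h0 : f = 0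
  · rw [h0, inv_zero]
    exact isPSum_zero p
  have e : f⁻¹ = f ^ (p - 1) * (f⁻¹) ^ p := by
    have h1 : p - 1 + 1 = p := Nat.sub_add_cancel hp.out.one_le
    rw [inv_pow]
    field_simp
    rw [← pow_succ', h1]
  rw [e]
  exact (hf.pow p _).mul p (isPSum_pow_char p _)

include hp in
theorem isPSum_algebraMap (c : K) : IsPSum K F p (algebraMap K F c) := by
  obtain ⟨d, hd⟩ := (PerfectRing.bijective_frobenius (R := K) (p := p)).2 c
  rw [← hd]
  change IsPSum K F p (algebraMap K F (d ^ p))
  rw [map_pow]
  exact isPSum_pow_char p _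

include hp in
theorem isPSum_coord : IsPSum K F p (coord K F) := by
  have := isPSum_pow_mul (K := K) (F := F) p 1 1
  rwa [pow_one, one_pow, mul_one] at this

include hp in
theorem isPSum_aeval (P : K[X]) : IsPSum K F p (aeval (coord K F) P) := by
  rw [aeval_eq_sum_range]
  refine isPSum_sum p _ _ fun i _ => ?_
  rw [Algebra.smul_def]
  exact (isPSum_algebraMap p _).mul p ((isPSum_coord p).pow p i)

include hp in
theorem isPSum_algebraMap_ratFunc (r : RatFunc K) :
    IsPSum K F p (algebraMap (RatFunc K) F r) := by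
  rw [algebraMap_ratFunc_eq_div, xF_eq_coord, div_eq_mul_inv]
  exact (isPSum_aeval p _).mul p (isPSum_aeval p _).inv

include hp in
/-- **the coordinate is a `p`-basis**: every element of `F` is `∑_{j<p} x^j b_j^p`. -/
theorem exists_pbasis_expansion (f : F) : IsPSum K F p f := by
  classical
  haveI : ExpChar (RatFunc K) p := by
    haveI : CharP (RatFunc K) p :=
      charP_of_injective_algebraMap (algebraMap K (RatFunc K)).injective p
    exact ExpChar.prime hp.out
  let b := Module.finBasis (RatFunc K) F
  have hspan := Field.span_map_pow_expChar_pow_eq_top_of_isSeparable (F := RatFunc K) (E := F)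
    p 1 b.span_eq
  have hf : f ∈ Submodule.span (RatFunc K) (Set.range fun i => b i ^ p ^ 1) := by
    rw [hspan]
    trivial
  induction hf using Submodule.span_induction with
  | mem g hg =>
    obtain ⟨i, rfl⟩ := hg
    rw [pow_one]
    exact isPSum_pow_char p _
  | zero => exact isPSum_zero p
  | add x y _ _ hx hy => exact hx.add p hy
  | smul r x _ hx =>
    rw [Algebra.smul_def]
    exact (isPSum_algebraMap_ratFunc p r).mul p hx

end PBasis

section Ker

variable {K F : Type*} [Field K] [Field F] [Algebra K F] [Algebra K[X] F] [Algebra (RatFunc K) F]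
  [IsScalarTower K[X] (RatFunc K) F] [IsScalarTower K K[X] F] [IsScalarTower K (RatFunc K) F]
  [FunctionField K F] [Algebra.IsSeparable (RatFunc K) F]
  (p : ℕ) [hp : Fact p.Prime] [CharP K p]

omit [Algebra K[X] F] [Algebra (RatFunc K) F] [IsScalarTower K[X] (RatFunc K) F]
  [IsScalarTower K K[X] F] [IsScalarTower K (RatFunc K) F] [FunctionField K F]
  [Algebra.IsSeparable (RatFunc K) F] [CharP K p] [Algebra K F] in
include hp in
theorem natCast_pow_char [CharP F p] (n : ℕ) : ((n : ℕ) : F) ^ p = n :=
  map_natCast (frobenius F p) n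

include hp in
theorem derCoord_pow_char (g : F) : derCoord K F (g ^ p) = 0 := by
  haveI := charP_funField K F p
  rw [Derivation.leibniz_pow, ← Nat.cast_smul_eq_nsmul F, CharP.cast_eq_zero, zero_smul]

include hp in
theorem derCoord_pow_mul (i : ℕ) (c : F) :
    derCoord K F (coord K F ^ (i + 1) * c ^ p) =
      coord K F ^ i * (((i + 1 : ℕ) : F) * c) ^ p := by
  haveI := charP_funField K F p
  rw [Derivation.leibniz, derCoord_pow_char, smul_zero, zero_add, Derivation.leibniz_pow,
    derCoord_coord, mul_pow, natCast_pow_char p]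
  simp only [smul_eq_mul, nsmul_eq_mul, mul_one, Nat.add_sub_cancel]
  ring

include hp in
theorem derCoord_psum (n : ℕ) (b : ℕ → F) :
    derCoord K F (∑ j ∈ Finset.range (n + 1), coord K F ^ j * b j ^ p) =
      ∑ i ∈ Finset.range n, coord K F ^ i * (((i + 1 : ℕ) : F) * b (i + 1)) ^ p := by
  rw [Finset.sum_range_succ', map_add, map_sum, pow_zero, one_mul, derCoord_pow_char, add_zero]
  exact Finset.sum_congr rfl fun i _ => derCoord_pow_mul p i _

include hp in
theorem psum_coeff_eq_zero (n : ℕ) (hn : n + 1 ≤ p) (b : ℕ → F)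
    (h : derCoord K F (∑ j ∈ Finset.range (n + 1), coord K F ^ j * b j ^ p) = 0) :
    ∀ j ∈ Finset.range (n + 1), j ≠ 0 → b j = 0 := by
  haveI := charP_funField K F p
  induction n generalizing b with
  | zero =>
    intro j hj hj0
    simp only [zero_add, Finset.range_one, Finset.mem_singleton] at hj
    exact absurd hj hj0
  | succ n ih =>
    have hD := derCoord_psum (K := K) p (n + 1) b
    rw [h] at hD
    -- c_i := (i+1) b_{i+1}
    set c : ℕ → F := fun i => ((i + 1 : ℕ) : F) * b (i + 1) with hc
    have hD' : ∑ i ∈ Finset.range (n + 1), coord K F ^ i * c i ^ p = 0 := hD.symm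
    have hc0 : ∀ i ∈ Finset.range (n + 1), i ≠ 0 → c i = 0 := by
      refine ih (by omega) c ?_
      rw [hD', map_zero]
    have hc00 : c 0 = 0 := by
      rw [Finset.sum_eq_single 0] at hD'
      · rw [pow_zero, one_mul] at hD'
        exact pow_eq_zero_iff (hp.out.ne_zero) |>.mp hD'
      · intro i hi hi0
        rw [hc0 i hi hi0, zero_pow hp.out.ne_zero, mul_zero]
      · intro h0
        exact absurd (Finset.mem_range.mpr (Nat.succ_pos n)) h0
    intro j hj hj0
    obtain ⟨i, rfl⟩ : ∃ i, j = i + 1 := ⟨j - 1, by omega⟩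
    have hi : i ∈ Finset.range (n + 1) := by
      rw [Finset.mem_range] at hj ⊢
      omega
    have hci : c i = 0 := by
      by_cases hi0 : i = 0
      · rw [hi0]; exact hc00
      · exact hc0 i hi hi0
    rw [hc] at hci
    dsimp only at hci
    rcases mul_eq_zero.mp hci with h1 | h1
    · exfalso
      rw [CharP.cast_eq_zero_iff F p] at h1
      have := Nat.le_of_dvd (Nat.succ_pos i) h1
      rw [Finset.mem_range] at hi
      omega
    · exact h1

include hp in
/-- **(RQ1-b)** the kernel of `d/dx` is `F^p`. -/
theorem derCoord_eq_zero_iff [PerfectRing K p] (f : F) :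
    derCoord K F f = 0 ↔ ∃ g : F, f = g ^ p := by
  constructor
  · intro h
    obtain ⟨b, hb⟩ := exists_pbasis_expansion (K := K) p f
    have hp1 : p - 1 + 1 = p := Nat.sub_add_cancel hp.out.one_le
    have hb' : f = ∑ j ∈ Finset.range (p - 1 + 1), coord K F ^ j * b j ^ p := by rw [hp1]; exact hb
    have h0 := psum_coeff_eq_zero (K := K) p (p - 1) (by omega) b (by rw [← hb']; exact h)
    refine ⟨b 0, ?_⟩
    rw [hb', Finset.sum_eq_single 0]
    · rw [pow_zero, one_mul]
    · intro j hj hj0
      rw [h0 j hj hj0, zero_pow hp.out.ne_zero, mul_zero]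
    · intro h1
      exact absurd (Finset.mem_range.mpr (Nat.succ_pos _)) h1
  · rintro ⟨g, rfl⟩
    exact derCoord_pow_char p g

end Ker

end Fermat.Agent.MP
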