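import Mathlib
import Fermat.Agent.MP.RQ1_helper3_PBasis
import Fermat.Agent.MP.RQ1_helper3_InvSetting
import Fermat.Agent.JA.DEGK_helper8

/-!
# MP40 — [ROLD-CHARP] RQ1, helper3, part 3: local behaviour of derivations of a function field

* `derivation_mem_of_bounded` : a `K`-derivation `δ` of `F` with `δ τ = 1` (`τ` a uniformizer at a
  place `v` with residue field `K`) and bounded poles on `O_v` preserves `O_v`;
* `exists_bound_derivation` : in the typeclass setting every `K`-derivation of `F` has bounded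
  poles on every `O_v` (finite and infinite places);
* `ordGE_derivation` : `ord_v (δ g) ≥ ord_v (δ τ)` for `g ∈ O_v`;
* `ord_derivation_of_natCast_ne_zero`, `ordGE_dlog_of_natCast_eq_zero` : the local computations;
* characteristic `p`: `ordGE_dlog` : if `D z = 1`, `p ∤ ord_v z` and `p ∣ ord_v f`, then
  `ord_v (D f / f) ≥ 1 - ord_v z`.
-/

set_option autoImplicit false
set_option linter.unusedSectionVars false
set_option linter.style.haveILetI false

open Polynomial AlgebraicCurve KaehlerDifferential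

namespace Fermat.Agent.MP

open Fermat.Agent.FF Fermat.Agent.FF.RR

section Abstract

variable {K F : Type*} [Field K] [Field F] [Algebra K F]

/-- **descent**: a derivation with `δ τ = 1` (`τ` a uniformizer) and bounded poles on the valuation
ring preserves the valuation ring. -/
theorem derivation_mem_of_bounded (v : Place K F) (hdeg : v.deg = 1) (δ : Derivation K F F)
    {τ : F} (hτ : v.ord τ = 1) (hδτ : δ τ = 1) (m : ℕ)
    (hb : ∀ g ∈ v.toValuationSubring, OrdGE v (-(m : ℤ)) (δ g))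
    {g : F} (hg : g ∈ v.toValuationSubring) : δ g ∈ v.toValuationSubring := by
  have ht0 : τ ≠ 0 := by
    intro h0
    rw [h0, v.ord_zero] at hτ
    exact absurd hτ (by norm_num)
  rw [← ordGE_zero_iff_mem]
  have step : ∀ n : ℕ, (∀ g ∈ v.toValuationSubring, OrdGE v (-((n + 1 : ℕ) : ℤ)) (δ g)) →
      ∀ g ∈ v.toValuationSubring, OrdGE v (-(n : ℤ)) (δ g) := by
    intro n hn g hg
    obtain ⟨a, ha⟩ := exists_const_sub_ordGE_one v hdeg hg
    set h := g - algebraMap K F a with hh
    have hg1 : h / τ ∈ v.toValuationSubring := by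
      rw [PlaceAux.mem_iff_ord_nonneg]
      rcases ha with h0 | h1
      · left; rw [h0, zero_div]
      · by_cases h0 : h = 0
        · left; rw [h0, zero_div]
        · right; rw [PlaceAux.ord_div v h0 ht0, hτ]; omega
    have hgeq : g = algebraMap K F a + τ * (h / τ) := by
      rw [hh]; field_simp; ring
    have hder : δ g = h / τ + τ * δ (h / τ) := by
      conv_lhs => rw [hgeq]
      rw [map_add, Derivation.map_algebraMap, zero_add, Derivation.leibniz, hδτ,
        smul_eq_mul, smul_eq_mul]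
      ring
    rw [hder]
    refine ((ordGE_zero_iff_mem.mpr hg1).mono (by omega)).add ?_
    have h1 : OrdGE v 1 τ := Or.inr (by rw [hτ])
    have := h1.mul (hn _ hg1)
    refine this.mono ?_
    push_cast; omega
  have all : ∀ n : ℕ, (∀ g ∈ v.toValuationSubring, OrdGE v (-(n : ℤ)) (δ g)) →
      ∀ g ∈ v.toValuationSubring, OrdGE v 0 (δ g) := by
    intro n
    induction n with
    | zero => intro h g hg; simpa using h g hg
    | succ n ih => intro h; exact ih (step n h)
  exact all m hb g hg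

/-- a derivation with bounded poles on `O_v` satisfies `ord (δ g) ≥ ord (δ τ)` on `O_v`, for any
uniformizer `τ` with `δ τ ≠ 0`. -/
theorem ordGE_derivation_of_bounded (v : Place K F) (hdeg : v.deg = 1) (δ : Derivation K F F)
    {τ : F} (hτ : v.ord τ = 1) (hδτ : δ τ ≠ 0) (m : ℤ)
    (hb : ∀ g ∈ v.toValuationSubring, OrdGE v (-m) (δ g))
    {g : F} (hg : g ∈ v.toValuationSubring) : OrdGE v (v.ord (δ τ)) (δ g) := by
  set c := δ τ with hc
  set δ' : Derivation K F F := c⁻¹ • δ with hδ'
  have hδ'τ : δ' τ = 1 := by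
    rw [hδ', Derivation.smul_apply, smul_eq_mul, ← hc, inv_mul_cancel₀ hδτ]
  have hcinv : OrdGE v (-v.ord c) c⁻¹ := Or.inr (by rw [v.ord_inv])
  have hb' : ∀ g ∈ v.toValuationSubring, OrdGE v (-(((v.ord c + m).toNat : ℕ) : ℤ)) (δ' g) := by
    intro g hg
    rw [hδ', Derivation.smul_apply, smul_eq_mul]
    refine (hcinv.mul (hb g hg)).mono ?_
    have := Int.self_le_toNat (v.ord c + m)
    omega
  have hmem := derivation_mem_of_bounded v hdeg δ' hτ hδ'τ _ hb' hg
  rw [← ordGE_zero_iff_mem] at hmem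
  have hcc : OrdGE v (v.ord c) c := Or.inr le_rfl
  have h2 := hcc.mul hmem
  rw [add_zero, hδ', Derivation.smul_apply, smul_eq_mul, ← mul_assoc, mul_inv_cancel₀ hδτ,
    one_mul] at h2
  exact h2

/-- decomposition `z = u τ^n` with `u` a unit at `v`. -/
theorem exists_unit_mul_zpow (v : Place K F) {τ : F} (hτ : v.ord τ = 1) {z : F} (hz : z ≠ 0) :
    ∃ u : F, u ≠ 0 ∧ v.ord u = 0 ∧ z = u * τ ^ (v.ord z) := by
  have ht0 : τ ≠ 0 := by
    intro h0
    rw [h0, v.ord_zero] at hτ
    exact absurd hτ (by norm_num)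
  have hte0 : τ ^ (v.ord z) ≠ 0 := zpow_ne_zero _ ht0
  refine ⟨z / τ ^ (v.ord z), div_ne_zero hz hte0, ?_, ?_⟩
  · rw [PlaceAux.ord_div v hz hte0, v.ord_zpow, hτ]; ring
  · field_simp

theorem ord_intCast_eq_zero (v : Place K F) (n : ℤ) : v.ord (n : F) = 0 := by
  have : (n : F) = algebraMap K F (n : K) := by simp
  rw [this]
  exact PlaceAux.ord_algebraMap v _

/-- **local computation 1**: if `ord_v z` is nonzero in `F`, then
`ord_v (δ z) = ord_v z - 1 + ord_v (δ τ)`. -/
theorem ord_derivation_of_intCast_ne_zero (v : Place K F) (δ : Derivation K F F) {τ : F}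
    (hτ : v.ord τ = 1) (hδτ : δ τ ≠ 0)
    (hreg : ∀ g ∈ v.toValuationSubring, OrdGE v (v.ord (δ τ)) (δ g))
    {z : F} (hz : z ≠ 0) (hn : ((v.ord z : ℤ) : F) ≠ 0) :
    δ z ≠ 0 ∧ v.ord (δ z) = v.ord z - 1 + v.ord (δ τ) := by
  have ht0 : τ ≠ 0 := by
    intro h0
    rw [h0, v.ord_zero] at hτ
    exact absurd hτ (by norm_num)
  obtain ⟨u, hu0, hordu, hzu⟩ := exists_unit_mul_zpow v hτ hz
  set e : ℤ := v.ord z with he
  set d : ℤ := v.ord (δ τ) with hd
  have humem : u ∈ v.toValuationSubring := (PlaceAux.mem_iff_ord_nonneg' v hu0).mpr hordu.ge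
  have hdu := hreg u humem
  have hte0 : τ ^ e ≠ 0 := zpow_ne_zero _ ht0
  have hder : δ z = u * ((e : F) * τ ^ (e - 1) * δ τ) + τ ^ e * δ u := by
    conv_lhs => rw [hzu]
    rw [Derivation.leibniz, Derivation.leibniz_zpow, smul_eq_mul, smul_eq_mul,
      zsmul_eq_mul, smul_eq_mul]
    ring
  have hordeF : v.ord (e : F) = 0 := ord_intCast_eq_zero v e
  have hA0 : u * ((e : F) * τ ^ (e - 1) * δ τ) ≠ 0 :=
    mul_ne_zero hu0 (mul_ne_zero (mul_ne_zero hn (zpow_ne_zero _ ht0)) hδτ)
  have hordA : v.ord (u * ((e : F) * τ ^ (e - 1) * δ τ)) = e - 1 + d := by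
    rw [v.ord_mul hu0 (mul_ne_zero (mul_ne_zero hn (zpow_ne_zero _ ht0)) hδτ),
      v.ord_mul (mul_ne_zero hn (zpow_ne_zero _ ht0)) hδτ,
      v.ord_mul hn (zpow_ne_zero _ ht0), hordu, hordeF, v.ord_zpow, hτ]
    ring
  by_cases hB0 : τ ^ e * δ u = 0
  · rw [hder, hB0, add_zero]
    exact ⟨hA0, hordA⟩
  · have hdu0 : δ u ≠ 0 := fun h => hB0 (by rw [h, mul_zero])
    have hordB : e + d ≤ v.ord (τ ^ e * δ u) := by
      rw [v.ord_mul hte0 hdu0, v.ord_zpow, hτ]
      have := hdu.resolve_left hdu0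
      linarith
    have hlt : v.ord (u * ((e : F) * τ ^ (e - 1) * δ τ)) < v.ord (τ ^ e * δ u) := by
      rw [hordA]; omega
    have hsum := PlaceAux.ord_add_eq_of_lt v hA0 hB0 hlt
    rw [hder]
    refine ⟨?_, by rw [hsum, hordA]⟩
    intro h0
    have hAB : τ ^ e * δ u = -(u * ((e : F) * τ ^ (e - 1) * δ τ)) := by
      linear_combination h0
    have h1 : OrdGE v (e - 1 + d) (u * ((e : F) * τ ^ (e - 1) * δ τ)) := Or.inr hordA.ge
    have h2 := (h1.neg).resolve_left (neg_ne_zero.mpr hA0)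
    rw [← hAB] at h2
    have h3 : v.ord (τ ^ e * δ u) = v.ord (u * ((e : F) * τ ^ (e - 1) * δ τ)) := by
      rw [hAB]
      have hneg : -(u * ((e : F) * τ ^ (e - 1) * δ τ)) =
          (-1 : F) * (u * ((e : F) * τ ^ (e - 1) * δ τ)) := by ring
      have h1' : v.ord (-1 : F) = 0 := by
        have := PlaceAux.ord_algebraMap v (-1 : K)
        simpa using this
      rw [hneg, v.ord_mul (by norm_num) hA0, h1', zero_add]
    omega

/-- **local computation 2**: if `ord_v f` vanishes in `F`, then `δ f / f` has `ord ≥ ord (δ τ)`. -/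
theorem ordGE_dlog_of_intCast_eq_zero (v : Place K F) (δ : Derivation K F F) {τ : F}
    (hτ : v.ord τ = 1)
    (hreg : ∀ g ∈ v.toValuationSubring, OrdGE v (v.ord (δ τ)) (δ g))
    {f : F} (hf : f ≠ 0) (hn : ((v.ord f : ℤ) : F) = 0) :
    OrdGE v (v.ord (δ τ)) (δ f / f) := by
  have ht0 : τ ≠ 0 := by
    intro h0
    rw [h0, v.ord_zero] at hτ
    exact absurd hτ (by norm_num)
  obtain ⟨u, hu0, hordu, hfu⟩ := exists_unit_mul_zpow v hτ hf
  set e : ℤ := v.ord f with he
  have humem : u ∈ v.toValuationSubring := (PlaceAux.mem_iff_ord_nonneg' v hu0).mpr hordu.ge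
  have hdu := hreg u humem
  have hte0 : τ ^ e ≠ 0 := zpow_ne_zero _ ht0
  have hder : δ f = τ ^ e * δ u := by
    conv_lhs => rw [hfu]
    rw [Derivation.leibniz, Derivation.leibniz_zpow, smul_eq_mul, smul_eq_mul,
      zsmul_eq_mul, smul_eq_mul, hn]
    ring
  have hq : δ f / f = δ u * u⁻¹ := by
    rw [hder]
    conv_lhs => rw [hfu]
    field_simp
  rw [hq]
  have hu' : OrdGE v 0 u⁻¹ := Or.inr (by rw [v.ord_inv, hordu]; simp)
  have := hdu.mul hu'
  rwa [add_zero] at this

end Abstract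

section TC

variable {K F : Type*} [Field K] [Field F] [Algebra K F] [Algebra K[X] F] [Algebra (RatFunc K) F]
  [IsScalarTower K[X] (RatFunc K) F] [IsScalarTower K K[X] F] [IsScalarTower K (RatFunc K) F]
  [FiniteDimensional (RatFunc K) F] [Algebra.IsSeparable (RatFunc K) F]

/-- all places have degree one (any characteristic). -/
theorem deg_eq_one_TCP [IsAlgClosed K] (v : Place K F) : v.deg = 1 := by
  haveI := finiteDimensional_adjoin_xF K F
  exact Fermat.Agent.JA.degk_deg_eq_one (xF K F) inferInstance v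

/-- bounded poles at the places where `x` is regular. -/
theorem exists_bound_derivation_fin (δ : Derivation K F F) (v : Place K F)
    (hx : xF K F ∈ v.toValuationSubring) :
    ∃ m : ℤ, ∀ g ∈ v.toValuationSubring, OrdGE v (-m) (δ g) := by
  obtain ⟨m, hm0, hm⟩ := exists_bound_derCoord v (by rwa [← xF_eq_coord])
  by_cases h0 : δ (coord K F) = 0
  · refine ⟨0, fun g hg => Or.inl ?_⟩
    rw [derivation_eq_mul_derCoord δ g, h0, zero_mul]
  · refine ⟨m - v.ord (δ (coord K F)), fun g hg => ?_⟩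
    rw [derivation_eq_mul_derCoord δ g]
    have h1 : OrdGE v (v.ord (δ (coord K F))) (δ (coord K F)) := Or.inr le_rfl
    exact (h1.mul (hm g hg)).mono (by omega)

/-- **bounded poles**: every `K`-derivation of `F` has bounded poles on every valuation ring. -/
theorem exists_bound_derivation (δ : Derivation K F F) (v : Place K F) :
    ∃ m : ℤ, ∀ g ∈ v.toValuationSubring, OrdGE v (-m) (δ g) := by
  by_cases hx : xF K F ∈ v.toValuationSubring
  · exact exists_bound_derivation_fin δ v hx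
  · have hinv := (v.toValuationSubring.mem_or_inv_mem (xF K F)).resolve_left hx
    obtain ⟨i1, i2, i3, i4, i5, i6, i7, hxi⟩ := exists_typeclass_setting_inv K F
    refine @exists_bound_derivation_fin K F _ _ _ i1 i2 i3 i4 i5 i6 i7 δ v ?_
    rw [hxi]
    exact hinv

/-- **regularity**: `ord_v (δ g) ≥ ord_v (δ τ)` for `g ∈ O_v` and `τ` a uniformizer at `v` with
`δ τ ≠ 0`. -/
theorem ordGE_derivation [IsAlgClosed K] (δ : Derivation K F F) (v : Place K F) {τ : F}
    (hτ : v.ord τ = 1) (hδτ : δ τ ≠ 0) {g : F} (hg : g ∈ v.toValuationSubring) :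
    OrdGE v (v.ord (δ τ)) (δ g) := by
  obtain ⟨m, hm⟩ := exists_bound_derivation δ v
  exact ordGE_derivation_of_bounded v (deg_eq_one_TCP v) δ hτ hδτ m hm hg

section CharP

variable (p : ℕ) [hp : Fact p.Prime] [CharP K p] [IsAlgClosed K]

include hp in
/-- `d f / d x ≠ 0` as soon as `p ∤ ord_v f` for some place `v`. -/
theorem derCoord_ne_zero_of_not_dvd_ord (v : Place K F) {f : F} (h : ¬ (p : ℤ) ∣ v.ord f) :
    derCoord K F f ≠ 0 := by
  intro h0
  obtain ⟨g, rfl⟩ := (derCoord_eq_zero_iff (K := K) p f).mp h0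
  apply h
  rw [PlaceAux.ord_pow]
  exact Dvd.intro _ rfl

include hp in
/-- `d τ / d x ≠ 0` for a uniformizer `τ`. -/
theorem derCoord_uniformizer_ne_zero (v : Place K F) {τ : F} (hτ : v.ord τ = 1) :
    derCoord K F τ ≠ 0 := by
  refine derCoord_ne_zero_of_not_dvd_ord p v ?_
  rw [hτ]
  intro h1
  have h2 := Int.le_of_dvd one_pos h1
  have h3 := hp.out.two_le
  omega

include hp in
/-- **the tame value**: if `dz/dx = 1` (`z = x - a` or `z = x`) and `p ∤ ord_v z`, then
`ord_v (dτ/dx) = 1 - ord_v z` for every uniformizer `τ` at `v` (`= 1 - e_v` at the zeros of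
`x - a`, `= 1 + e_v` at the poles of `x`). -/
theorem ord_derCoord_uniformizer (v : Place K F) {z : F} (hz : derCoord K F z = 1)
    (hpz : ¬ (p : ℤ) ∣ v.ord z) {τ : F} (hτ : v.ord τ = 1) :
    v.ord (derCoord K F τ) = 1 - v.ord z := by
  haveI := charP_funField K F p
  have hDτ := derCoord_uniformizer_ne_zero p v hτ
  have hreg : ∀ g ∈ v.toValuationSubring, OrdGE v (v.ord (derCoord K F τ))
      (derCoord K F g) := fun g hg => ordGE_derivation (derCoord K F) v hτ hDτ hg
  have hz0 : z ≠ 0 := by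
    rintro rfl
    rw [map_zero] at hz
    exact zero_ne_one hz
  have hnz : ((v.ord z : ℤ) : F) ≠ 0 := by
    rw [ne_eq, CharP.intCast_eq_zero_iff F p]
    exact hpz
  have h1 := (ord_derivation_of_intCast_ne_zero v (derCoord K F) hτ hDτ hreg hz0 hnz).2
  rw [hz, v.ord_one] at h1
  omega

include hp in
/-- **the local estimate**: if `dz/dx = 1` (`z = x - a` or `z = x`), `p ∤ ord_v z` and
`p ∣ ord_v f`, then `ord_v ((df/dx) / f) ≥ 1 - ord_v z`. -/
theorem ordGE_dlog (v : Place K F) {z : F} (hz : derCoord K F z = 1) (hpz : ¬ (p : ℤ) ∣ v.ord z)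
    {f : F} (hf : f ≠ 0) (hord : (p : ℤ) ∣ v.ord f) :
    OrdGE v (1 - v.ord z) (derCoord K F f / f) := by
  haveI := charP_funField K F p
  obtain ⟨t, ht⟩ := IsDiscreteValuationRing.exists_irreducible v.toValuationSubring
  have hτ : v.ord (t : F) = 1 := v.ord_coe_irreducible ht
  have hDτ : derCoord K F (t : F) ≠ 0 := by
    refine derCoord_ne_zero_of_not_dvd_ord p v ?_
    rw [hτ]
    intro h1
    have h2 := Int.le_of_dvd one_pos h1
    have h3 := hp.out.two_le
    omega
  have hreg : ∀ g ∈ v.toValuationSubring, OrdGE v (v.ord (derCoord K F (t : F)))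
      (derCoord K F g) := fun g hg => ordGE_derivation (derCoord K F) v hτ hDτ hg
  have hz0 : z ≠ 0 := by
    rintro rfl
    rw [map_zero] at hz
    exact zero_ne_one hz
  have hnz : ((v.ord z : ℤ) : F) ≠ 0 := by
    rw [ne_eq, CharP.intCast_eq_zero_iff F p]
    exact hpz
  have h1 := (ord_derivation_of_intCast_ne_zero v (derCoord K F) hτ hDτ hreg hz0 hnz).2
  rw [hz, v.ord_one] at h1
  have hnf : ((v.ord f : ℤ) : F) = 0 := by
    rw [CharP.intCast_eq_zero_iff F p]
    exact hord
  have h2 := ordGE_dlog_of_intCast_eq_zero v (derCoord K F) hτ hreg hf hnf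
  exact h2.mono (by omega)

end CharP

end TC

end Fermat.Agent.MP
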