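import Mathlib
import Fermat.Agent.MP.ROLDGR_helper3_Defs
import Fermat.Agent.MP.RQ1_helper3_Local

/-!
# MP40 — [ROLD-GR], helper3, part 1: the characteristic `p` statements (GR6), (GR7)

* `Coord.exists_typeclass_setting_of_isSeparable` : a separating coordinate (any characteristic)
  gives the typeclass setting of `FF/RR_helper3_*`;
* `isDerDatum_of_exists_unif` : a nonzero derivation of a function field over an algebraically
  closed field of characteristic `p` is a `IsDerDatum` for `κ` as soon as at every place SOME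
  uniformizer `τ` has `ord (δ τ) = - κ`;
* **(GR6)** `dlog_mem_regSpace` ; **(GR7)** `exists_pow_eq_of_der_eq_zero`.
-/

set_option autoImplicit false
set_option linter.unusedSectionVars false
set_option linter.unusedVariables false
set_option linter.style.haveILetI false

noncomputable section

namespace Fermat.Agent.MP

open AlgebraicCurve IsLocalRing Fermat.Agent.FF Fermat.Agent.JA Fermat.Agent.FG Fermat.Agent.MW
  Fermat.Agent.FF.RR IntermediateField Polynomial
open scoped Classical

section Coord

variable {k F : Type*} [Field k] [Field F] [Algebra k F]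

/-- separability of `F / k(x)` in `Coord` form gives separability for the induced
`RatFunc k`-algebra structure. -/
theorem Coord.isSeparable_algRat (c : Coord k F) (hsep : Algebra.IsSeparable k⟮c.x⟯ F) :
    @Algebra.IsSeparable (RatFunc k) F _ _ c.algRat := by
  refine @Algebra.IsSeparable.of_equiv_equiv k⟮c.x⟯ F (RatFunc k) F _ _ _ _ _ c.algRat
    c.ratEquiv.symm (RingEquiv.refl F) ?_ hsep
  ext z
  simp only [RingHom.coe_comp, Function.comp_apply, RingEquiv.coe_toRingHom, RingEquiv.refl_apply]
  exact ratEmb_ratEquiv_symm c z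

/-- **from a separating `Coord` to the typeclass setting** (any characteristic). -/
theorem Coord.exists_typeclass_setting_of_isSeparable (c : Coord k F)
    (hsep : Algebra.IsSeparable k⟮c.x⟯ F) :
    ∃ (i1 : Algebra k[X] F) (i2 : Algebra (RatFunc k) F)
      (_ : @IsScalarTower k[X] (RatFunc k) F _ i2.toSMul i1.toSMul)
      (_ : @IsScalarTower k k[X] F _ i1.toSMul _)
      (_ : @IsScalarTower k (RatFunc k) F _ i2.toSMul _)
      (_ : @FiniteDimensional (RatFunc k) F _ _ i2.toModule)
      (_ : @Algebra.IsSeparable (RatFunc k) F _ _ i2),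
      @xF k F _ _ i2 = c.x := by
  have hs := Coord.isSeparable_algRat c hsep
  refine ⟨c.algPoly, c.algRat, c.tower1, c.tower2, c.tower3, c.functionField, hs, ?_⟩
  letI := c.algPoly
  letI := c.algRat
  haveI := c.tower1
  haveI := c.tower2
  haveI := c.tower3
  haveI : FunctionField k F := c.functionField
  haveI := hs
  exact (xF_eq_coord k F).trans c.coord_eq

end Coord

section TC

variable {K F : Type*} [Field K] [Field F] [Algebra K F] [Algebra K[X] F] [Algebra (RatFunc K) F]
  [IsScalarTower K[X] (RatFunc K) F] [IsScalarTower K K[X] F] [IsScalarTower K (RatFunc K) F]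
  [FiniteDimensional (RatFunc K) F] [Algebra.IsSeparable (RatFunc K) F]
  [IsAlgClosed K] (p : ℕ) [hp : Fact p.Prime] [CharP K p]

include hp in
/-- a nonzero derivation does not kill uniformizers (characteristic `p`). -/
theorem derivation_uniformizer_ne_zero {δ : Derivation K F F} (hδ : δ ≠ 0) (v : Place K F)
    {τ : F} (hτ : v.ord τ = 1) : δ τ ≠ 0 := by
  have hx : δ (coord K F) ≠ 0 := by
    intro h0
    apply hδ
    ext g
    rw [derivation_eq_mul_derCoord δ g, h0, zero_mul]
    rfl
  rw [derivation_eq_mul_derCoord δ τ]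
  exact mul_ne_zero hx (derCoord_uniformizer_ne_zero p v hτ)

include hp in
/-- **characteristic `p` analogue of `isDerDatum_derCan`**: it suffices to know the order of
`δ τ` for one uniformizer at each place. -/
theorem isDerDatum_of_exists_unif_TC {δ : Derivation K F F} (hδ : δ ≠ 0) {κ : Place K F → ℤ}
    (h : ∀ v : Place K F, ∃ τ : F, v.ord τ = 1 ∧ v.ord (δ τ) = -κ v) : IsDerDatum δ κ := by
  refine ⟨fun v τ' hτ' => ?_⟩
  have h1 := derivation_uniformizer_ne_zero p hδ v hτ'
  refine ⟨h1, ?_⟩
  obtain ⟨τ, hτ, hord⟩ := h v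
  have h2 := derivation_uniformizer_ne_zero p hδ v hτ
  have hmem : ∀ {t : F}, v.ord t = 1 → t ∈ v.toValuationSubring := by
    intro t ht
    rw [PlaceAux.mem_iff_ord_nonneg]
    right
    rw [ht]
    norm_num
  have a1 := (ordGE_derivation δ v hτ h2 (hmem hτ')).resolve_left h1
  have a2 := (ordGE_derivation δ v hτ' h1 (hmem hτ)).resolve_left h2
  rw [← hord]
  omega

end TC

section Statements

variable {k F : Type*} [Field k] [Field F] [Algebra k F]

/-- `Coord` form of `isDerDatum_of_exists_unif_TC`. -/
theorem isDerDatum_of_exists_unif [IsAlgClosed k] (p : ℕ) [Fact p.Prime] [CharP k p]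
    (c : Coord k F) (hsep : Algebra.IsSeparable k⟮c.x⟯ F)
    {δ : Derivation k F F} (hδ : δ ≠ 0) {κ : Place k F → ℤ}
    (h : ∀ v : Place k F, ∃ τ : F, v.ord τ = 1 ∧ v.ord (δ τ) = -κ v) : IsDerDatum δ κ := by
  obtain ⟨i1, i2, i3, i4, i5, i6, i7, -⟩ := Coord.exists_typeclass_setting_of_isSeparable c hsep
  exact @isDerDatum_of_exists_unif_TC k F _ _ _ i1 i2 i3 i4 i5 i6 i7 _ p _ _ δ hδ κ h

/-- **(GR6)** logarithmic derivatives of functions all of whose orders are divisible by `p` are
regular differentials. -/
theorem dlog_mem_regSpace (p : ℕ) [CharP k p]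
    {Db : Derivation k F F} {κb : Place k F → ℤ} (hDb : IsDerDatum Db κb)
    (hdeg : ∀ Q : Place k F, Q.deg = 1) {f : F} (hf : f ≠ 0)
    (hord : ∀ Q : Place k F, (p : ℤ) ∣ Q.ord f) : Db f / f ∈ regSpace κb := by
  haveI := charP_funField k F p
  intro Q
  obtain ⟨τ, hτ⟩ := IsDerDatum.goodp_exists_unif Q
  have hspec := (hDb.spec Q τ hτ).2
  have hreg : ∀ g ∈ Q.toValuationSubring, OrdGE Q (Q.ord (Db τ)) (Db g) := by
    intro g hg
    rw [hspec]
    exact hDb.ordGE (hdeg Q) hg
  have hn : ((Q.ord f : ℤ) : F) = 0 := by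
    rw [CharP.intCast_eq_zero_iff F p]
    exact hord Q
  have := ordGE_dlog_of_intCast_eq_zero Q Db hτ hreg hf hn
  rwa [hspec] at this

/-- **(GR7)** the kernel of a nonzero derivation of a separably generated function field over a
perfect field of characteristic `p` consists of the `p`-th powers. -/
theorem exists_pow_eq_of_der_eq_zero (p : ℕ) [Fact p.Prime] [CharP k p] [PerfectRing k p]
    (c : Coord k F) (hsep : Algebra.IsSeparable k⟮c.x⟯ F) (Db : Derivation k F F)
    (hx : Db c.x ≠ 0) {f : F} (hf : Db f = 0) : ∃ g : F, f = g ^ p := by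
  obtain ⟨i1, i2, i3, i4, i5, i6, i7, hxF⟩ := Coord.exists_typeclass_setting_of_isSeparable c hsep
  letI := i1
  letI := i2
  haveI := i3
  haveI := i4
  haveI := i5
  haveI : FunctionField k F := i6
  haveI := i7
  have h1 := derivation_eq_derCoord_smul_xF Db f
  rw [hf, hxF, smul_eq_mul] at h1
  have h2 : derCoord k F f = 0 := by
    rcases mul_eq_zero.mp h1.symm with h | h
    · exact h
    · exact absurd h hx
  exact (derCoord_eq_zero_iff (K := k) p f).mp h2

end Statements

end Fermat.Agent.MP

end
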