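/-
MP40 — [ROLD-HOST], helper8, part (N4b): **the Euler derivation `θ = x d/dx` on the coefficientwise
Gauss ring `fracInt A`** of an arbitrary valuation subring `A` of the coefficient field: `θ`
preserves `fracInt A` and commutes with the reduction `fracRed A`.
-/
import Mathlib
import Fermat.Agent.FG.EDEF_helper6_Frac
import Fermat.Agent.S36.REG1_lead_Theta

set_option autoImplicit false
set_option linter.unusedSectionVars false
set_option linter.style.haveILetI false

open ModularCurve IsLocalRing

namespace Fermat.Agent.MP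

open Fermat.Agent.FG Fermat.Agent.S36 Fermat.Agent.Igusa

noncomputable section

variable {K : Type*} [Field K] {A : ValuationSubring K}

theorem eulerD_fEmb (f : LaurentSeries ↥A) : eulerD K (fEmb A f) = fEmb A (eulerD ↥A f) :=
  eulerD_coeffMap _ f

theorem eulerD_fRed (f : LaurentSeries ↥A) :
    eulerD (ResidueField ↥A) (fRed A f) = fRed A (eulerD ↥A f) :=
  eulerD_coeffMap _ f

/-- the quotient rule inside `fracInt`. -/
theorem eulerD_mul_fEmb_sq {x : LaurentSeries K} {f g : LaurentSeries ↥A}
    (h : x * fEmb A g = fEmb A f) :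
    eulerD K x * fEmb A (g * g) = fEmb A (eulerD ↥A f * g - f * eulerD ↥A g) := by
  have h1 : eulerD K (x * fEmb A g) = eulerD K (fEmb A f) := by rw [h]
  rw [Derivation.leibniz, smul_eq_mul, smul_eq_mul, eulerD_fEmb, eulerD_fEmb] at h1
  rw [map_mul, map_sub, map_mul, map_mul, ← h1, ← h]
  ring

theorem eulerD_mem_fracInt {x : LaurentSeries K} (hx : x ∈ fracInt A) :
    eulerD K x ∈ fracInt A := by
  obtain ⟨f, g, hg, h⟩ := hx
  exact ⟨eulerD ↥A f * g - f * eulerD ↥A g, g * g, by rw [map_mul]; exact mul_ne_zero hg hg,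
    eulerD_mul_fEmb_sq h⟩

/-- `θ` commutes with the reduction of the coefficientwise Gauss ring. -/
theorem fracRed_eulerD (x : fracInt A) :
    fracRed A ⟨eulerD K x, eulerD_mem_fracInt x.2⟩ =
      eulerD (ResidueField ↥A) (fracRed A x) := by
  obtain ⟨f, g, hg, h⟩ := x.2
  have hgg : fRed A (g * g) ≠ 0 := by rw [map_mul]; exact mul_ne_zero hg hg
  have e1 := fracRed_eq (⟨eulerD K x, eulerD_mem_fracInt x.2⟩ : fracInt A)
    (eulerD ↥A f * g - f * eulerD ↥A g) (g * g) hgg (eulerD_mul_fEmb_sq h)
  have e2 := fracRed_eq x f g hg h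
  rw [e1, e2, map_sub, map_mul, map_mul, map_mul, ← eulerD_fRed, ← eulerD_fRed]
  exact quot_rule_aux (fun z => eulerD (ResidueField ↥A) z)
    (fun a b => by rw [Derivation.leibniz, smul_eq_mul, smul_eq_mul]) hg

end

end Fermat.Agent.MP
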