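/-
MP40 — [ROLD-HOST], helper8, part (N4): **the chain rule `θ g = (dg/dJ) · θ J` on the Legendre
host** `legE Ω N ⊂ Ω((x))` (`θ = x d/dx`, `J = j(x²)`), for every extension `DE` of `d/dj` along
`fullToLegE`.
-/
import Mathlib
import Fermat.Agent.MP.ROLDGR_helper3_CharP
import Fermat.Agent.MP.RQ1_helper3_PBasis
import Fermat.Agent.MP.ROLDQ_helper8_HostSeriesA
import Fermat.Agent.MW.GOODP_helper3_Leg
import Fermat.Agent.MW.RRAPP_helper8_Der

set_option autoImplicit false
set_option linter.unusedSectionVars false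
set_option linter.style.haveILetI false
set_option synthInstance.maxHeartbeats 400000

open Polynomial AlgebraicCurve IntermediateField ModularCurve IsLocalRing

namespace Fermat.Agent.MP

open Fermat.Agent.FF Fermat.Agent.FF.RR Fermat.Agent.JA Fermat.Agent.FG Fermat.Agent.SS
  Fermat.Agent.S36 Fermat.Agent.MW

local notation "Ω" => AlgebraicClosure ℚ

noncomputable section

section General

variable {k F : Type*} [Field k] [Field F] [Algebra k F]

/-- every `k`-derivation of a separable function field into an `F`-module is `δ g = (Dg) • δ x`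
for the derivation `D` with `D x = 1`. -/
theorem derivation_eq_smul_of_der_x (c : Coord k F) (hsep : Algebra.IsSeparable k⟮c.x⟯ F)
    {M : Type*} [AddCommGroup M] [Module k M] [Module F M] [IsScalarTower k F M]
    (DE : Derivation k F F) (h1 : DE c.x = 1) (δ : Derivation k F M) (g : F) :
    δ g = DE g • δ c.x := by
  obtain ⟨i1, i2, t1, t2, t3, fd, sep, hx⟩ := Coord.exists_typeclass_setting_of_isSeparable c hsep
  letI := i1
  letI := i2
  haveI := t1
  haveI := t2
  haveI := t3
  haveI : FunctionField k F := fd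
  haveI := sep
  have e1 := derivation_eq_derCoord_smul_xF δ g
  have e2 := derivation_eq_derCoord_smul_xF DE g
  rw [hx] at e1 e2
  rw [h1, smul_eq_mul, mul_one] at e2
  rw [e1, e2]

end General

section Leg

variable (N : ℕ) [NeZero N]

/-- `θ = x d/dx` on the Legendre host, with values in `Ω((x))`. -/
def thetaE : Derivation Ω ↥(legE Ω N) (LaurentSeries Ω) :=
  (eulerD Ω).compAlgebraMap ↥(legE Ω N)

theorem thetaE_apply (g : ↥(legE Ω N)) : thetaE N g = eulerD Ω (g : LaurentSeries Ω) := rfl

theorem legECoordBar_x_eq : (legECoordBar N).x = legJE Ω N := by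
  show fullToLegE Ω N (Fermat.Agent.X0N.jBar N) = _
  rw [← egalJ_eq_jBar, fullToLegE_egalJ]

theorem isSeparable_legECoordBar :
    Algebra.IsSeparable Ω⟮(legECoordBar N).x⟯ ↥(legE Ω N) := by
  haveI := (legECoordBar N).fin
  haveI : Algebra.IsAlgebraic ↥Ω⟮(legECoordBar N).x⟯ ↥(legE Ω N) :=
    Algebra.IsAlgebraic.of_finite _ _
  exact Algebra.IsAlgebraic.isSeparable_of_perfectField

/-- the scalar tower `Ω → legE Ω N → Ω((x))` for the coefficientwise scalar action. -/
theorem isScalarTower_legE_series : IsScalarTower Ω ↥(legE Ω N) (LaurentSeries Ω) :=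
  ⟨fun a b c => by
    show ((a • b : ↥(legE Ω N)) : LaurentSeries Ω) * c = a • ((b : LaurentSeries Ω) * c)
    rw [IntermediateField.coe_smul, Algebra.smul_def, algebraMap_laurent_eq_C, mul_assoc,
      HahnSeries.C_mul_eq_smul]⟩

/-- **(N4)** the chain rule `θ g = (dg/dJ) · θ J` in `Ω((x))`. -/
theorem eulerD_eq_der_mul_eulerD_legJE (DE : Derivation Ω ↥(legE Ω N) ↥(legE Ω N))
    (hDE : DE (legJE Ω N) = 1) (g : ↥(legE Ω N)) :
    eulerD Ω (g : LaurentSeries Ω) =
      ((DE g : ↥(legE Ω N)) : LaurentSeries Ω) *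
        eulerD Ω ((legJE Ω N : ↥(legE Ω N)) : LaurentSeries Ω) := by
  haveI := isScalarTower_legE_series N
  have h := derivation_eq_smul_of_der_x (legECoordBar N) (isSeparable_legECoordBar N) DE
    (by rw [legECoordBar_x_eq]; exact hDE) (thetaE N) g
  rw [legECoordBar_x_eq, thetaE_apply, thetaE_apply] at h
  exact h

/-- an extension of `d/dj` along `fullToLegE` takes the value `1` at `J`. -/
theorem der_legJE_eq_one (DE : Derivation Ω ↥(legE Ω N) ↥(legE Ω N))
    (hext : ∀ f : FunN N, DE (fullToLegE Ω N f) = fullToLegE Ω N (derJ N f)) :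
    DE (legJE Ω N) = 1 := by
  rw [← fullToLegE_egalJ, egalJ_eq_jBar, hext, derJ_jBar, map_one]

end Leg

end

end Fermat.Agent.MP
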