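/-
MP40 — [ROLD-HOST], helper8, part (N4c): **the reduced chain rule on the Legendre host**:
`θ (ρ f) = ρ (dJ-derivative of f) · θ (J̄)` in `k((x))`, `J̄ = j(x²) mod 𝔪`.
-/
import Mathlib
import Fermat.Agent.MP.ROLDQ_helper8_HostSeriesB
import Fermat.Agent.SS.MODEL_helper7_W0

set_option autoImplicit false
set_option linter.unusedSectionVars false
set_option linter.style.haveILetI false
set_option synthInstance.maxHeartbeats 400000

open Polynomial AlgebraicCurve IntermediateField ModularCurve IsLocalRing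

namespace Fermat.Agent.MP

open Fermat.Agent.FF Fermat.Agent.FF.RR Fermat.Agent.JA Fermat.Agent.FG Fermat.Agent.SS
  Fermat.Agent.S36 Fermat.Agent.MW Fermat.Agent.Igusa

local notation "Ω" => AlgebraicClosure ℚ

noncomputable section

section Leg

variable (N : ℕ) [NeZero N] {ℓ : ℕ} [Fact ℓ.Prime] {A : ValuationSubring Ω}
  (hA : A.LiesOverPrime ℓ) (hℓ2 : ℓ ≠ 2)

theorem jqNModC_eq_fEmb (w : ℕ) [NeZero w] : jqNModC Ω w = fEmb A (jqNModC ↥A w) :=
  (coeffMap_jqNModC A.subtype w).symm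

theorem jqNModC_mem_fracInt (w : ℕ) [NeZero w] : jqNModC Ω w ∈ fracInt A := by
  rw [jqNModC_eq_fEmb (A := A)]
  exact fEmb_mem_fracInt A _

theorem fracRed_jqNModC (w : ℕ) [NeZero w] :
    fracRed A ⟨jqNModC Ω w, jqNModC_mem_fracInt w⟩ = jqNModC (ResidueField ↥A) w := by
  have e : (⟨jqNModC Ω w, jqNModC_mem_fracInt w⟩ : fracInt A) =
      ⟨fEmb A (jqNModC ↥A w), fEmb_mem_fracInt A _⟩ := Subtype.ext (jqNModC_eq_fEmb w)
  rw [e, fracRed_fEmb]
  exact coeffMap_jqNModC (residue ↥A) w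

theorem legJE_mem_legWE : legJE Ω N ∈ legWE hA N hℓ2 :=
  jqNModC_mem_fracInt 2

theorem legEtEmb_legρ_legJE :
    legEtEmb hA N hℓ2 (legρ hA N hℓ2 ⟨legJE Ω N, legJE_mem_legWE N hA hℓ2⟩) =
      jqNModC (ResidueField ↥A) 2 := by
  rw [legEtEmb_legρ]
  exact fracRed_jqNModC 2

/-- **(N4c)** the reduced chain rule. -/
theorem eulerD_legEtEmb_legρ (DE : Derivation Ω ↥(legE Ω N) ↥(legE Ω N))
    (hDE : DE (legJE Ω N) = 1) (f : ↥(legE Ω N)) (hf : f ∈ legWE hA N hℓ2)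
    (hDf : DE f ∈ legWE hA N hℓ2) :
    eulerD (ResidueField ↥A) (legEtEmb hA N hℓ2 (legρ hA N hℓ2 ⟨f, hf⟩)) =
      legEtEmb hA N hℓ2 (legρ hA N hℓ2 ⟨DE f, hDf⟩) *
        eulerD (ResidueField ↥A) (jqNModC (ResidueField ↥A) 2) := by
  rw [legEtEmb_legρ, legEtEmb_legρ, ← fracRed_jqNModC (A := A) 2, ← fracRed_eulerD,
    ← fracRed_eulerD, ← map_mul]
  congr 1
  apply Subtype.ext
  exact eulerD_eq_der_mul_eulerD_legJE N DE hDE f

end Leg

end

end Fermat.Agent.MP
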