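/-
MP40 (S44/S40) — helper3 — [RQ4-Q], part 2': **reduction of the Hecke norm shape modulo the
coefficientwise Gauss ring `fracInt A` of an ARBITRARY valuation subring `A` of the coefficient
field (no discreteness), and the resulting formal eigen-relation in the residue field.**

`K` a field, `A : ValuationSubring K`, `k = A / 𝔪`, `𝒲 = fracInt A ⊂ K((q))`,
`fracRed A : 𝒲 → k((q))` (helper6's `FG/EDEF_helper6_Frac`).

* `qExpand_mem_fracInt`, `fracRed_qExpand`, `twist_mem_fracInt`, `fracRed_twist` : functoriality;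
* `fracRed_inv`, `zpow_mem_fracInt`, `fracRed_zpow`;
* `norm_shape_fracRed` : the identity `G(q^ℓ) = ∏_{b<ℓ} Y(ζ^b q) · Y(q^{ℓ²})` (`ζ ∈ Aˣ`) reduces;
* `eigen_of_norm_shape_frac` : `G = c · Y^a · u^p`, `c ∈ Aˣ`, `Y`, `u` units of `𝒲`;
* `eigen_of_norm_shape_fracField` : `G = c · S^a · u^p` with `c ∈ Kˣ` arbitrary, `S = c₁ · Y'`,
  `u = c₂ · u'` (`Y'`, `u'` units of `𝒲`), `ζ ∈ Kˣ` any `ℓ`-th root of unity;
* `eigen_qExpand_of_eigen` : the same relation for the coefficients `2n` (in general `m n`) of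
  `θF/F`, `F = Ȳ(x^m)` (the currency of `resOccurs_of_dlog_host`).
-/
import Mathlib
import Fermat.Agent.MP.RQ4Q_helper3_Formal
import Fermat.Agent.FG.EDEF_helper6_Frac

set_option autoImplicit false
set_option linter.unusedSectionVars false

namespace Fermat.Agent.MP.RQ4Q

open ModularCurve Fermat.Agent.S36 Fermat.Agent.Igusa Fermat.Agent.FG IsLocalRing

noncomputable section

variable {K : Type*} [Field K] {A : ValuationSubring K}

/-! ### functoriality of `fracInt`, `fracRed` -/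

section Hom

variable (σA : LaurentSeries ↥A →+* LaurentSeries ↥A) (σK : LaurentSeries K →+* LaurentSeries K)
  (σk : LaurentSeries (ResidueField ↥A) →+* LaurentSeries (ResidueField ↥A))
  (emb_comm : ∀ f, fEmb A (σA f) = σK (fEmb A f))
  (red_comm : ∀ f, fRed A (σA f) = σk (fRed A f))

include emb_comm red_comm in
theorem map_mem_fracInt_of_comm {x : LaurentSeries K} (hx : x ∈ fracInt A) :
    σK x ∈ fracInt A := by
  obtain ⟨f, g, hg, h⟩ := hx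
  refine ⟨σA f, σA g, ?_, ?_⟩
  · rw [red_comm]
    exact (map_ne_zero_iff _ σk.injective).2 hg
  · rw [emb_comm, emb_comm, ← h, map_mul]

include emb_comm red_comm in
theorem fracRed_map_of_comm {x : LaurentSeries K} (hx : x ∈ fracInt A) :
    fracRed A ⟨σK x, map_mem_fracInt_of_comm σA σK σk emb_comm red_comm hx⟩ =
      σk (fracRed A ⟨x, hx⟩) := by
  have hx' := hx
  obtain ⟨f, g, hg, h⟩ := hx'
  have hg' : fRed A (σA g) ≠ 0 := by
    rw [red_comm]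
    exact (map_ne_zero_iff _ σk.injective).2 hg
  have h' : ((⟨σK x, map_mem_fracInt_of_comm σA σK σk emb_comm red_comm hx⟩ : fracInt A) :
      LaurentSeries K) * fEmb A (σA g) = fEmb A (σA f) := by
    show σK x * _ = _
    rw [emb_comm, emb_comm, ← h, map_mul]
  rw [fracRed_eq ⟨x, hx⟩ f g hg h, fracRed_eq ⟨σK x, _⟩ (σA f) (σA g) hg' h', red_comm, red_comm,
    map_div₀]

end Hom

theorem qExpand_mem_fracInt (m : ℕ) [NeZero m] {x : LaurentSeries K} (hx : x ∈ fracInt A) :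
    qExpand K m x ∈ fracInt A :=
  map_mem_fracInt_of_comm (qExpand ↥A m) (qExpand K m) (qExpand (ResidueField ↥A) m)
    (fun f => coeffMap_qExpand A.subtype m f) (fun f => coeffMap_qExpand (residue ↥A) m f) hx

theorem fracRed_qExpand (m : ℕ) [NeZero m] {x : LaurentSeries K} (hx : x ∈ fracInt A) :
    fracRed A ⟨qExpand K m x, qExpand_mem_fracInt m hx⟩ =
      qExpand (ResidueField ↥A) m (fracRed A ⟨x, hx⟩) :=
  fracRed_map_of_comm (qExpand ↥A m) (qExpand K m) (qExpand (ResidueField ↥A) m)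
    (fun f => coeffMap_qExpand A.subtype m f) (fun f => coeffMap_qExpand (residue ↥A) m f) hx

theorem twist_mem_fracInt (ζ : (↥A)ˣ) {x : LaurentSeries K} (hx : x ∈ fracInt A) :
    twist (Units.map (A.subtype : ↥A →* K) ζ) x ∈ fracInt A :=
  map_mem_fracInt_of_comm (twist ζ).toRingHom
    (twist (Units.map (A.subtype : ↥A →* K) ζ)).toRingHom
    (twist (Units.map (residue ↥A : ↥A →* ResidueField ↥A) ζ)).toRingHom
    (fun f => coeffMap_twist A.subtype ζ f) (fun f => coeffMap_twist (residue ↥A) ζ f) hx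

theorem fracRed_twist (ζ : (↥A)ˣ) {x : LaurentSeries K} (hx : x ∈ fracInt A) :
    fracRed A ⟨twist (Units.map (A.subtype : ↥A →* K) ζ) x, twist_mem_fracInt ζ hx⟩ =
      twist (Units.map (residue ↥A : ↥A →* ResidueField ↥A) ζ) (fracRed A ⟨x, hx⟩) :=
  fracRed_map_of_comm (twist ζ).toRingHom
    (twist (Units.map (A.subtype : ↥A →* K) ζ)).toRingHom
    (twist (Units.map (residue ↥A : ↥A →* ResidueField ↥A) ζ)).toRingHom
    (fun f => coeffMap_twist A.subtype ζ f) (fun f => coeffMap_twist (residue ↥A) ζ f) hx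

theorem twist_pow_mem_fracInt (ζ : (↥A)ˣ) (b : ℕ) {Y : LaurentSeries K} (hY : Y ∈ fracInt A) :
    twist (Units.map (A.subtype : ↥A →* K) ζ ^ b) Y ∈ fracInt A := by
  rw [← map_pow]
  exact twist_mem_fracInt (ζ ^ b) hY

theorem fracRed_twist_pow (ζ : (↥A)ˣ) (b : ℕ) {Y : LaurentSeries K} (hY : Y ∈ fracInt A) :
    fracRed A ⟨twist (Units.map (A.subtype : ↥A →* K) ζ ^ b) Y, twist_pow_mem_fracInt ζ b hY⟩ =
      twist (Units.map (residue ↥A : ↥A →* ResidueField ↥A) ζ ^ b) (fracRed A ⟨Y, hY⟩) := by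
  have h := fracRed_twist (ζ ^ b) hY
  rw [← map_pow (Units.map (residue ↥A : ↥A →* ResidueField ↥A)), ← h]
  congr 1

/-! ### inverses and integral powers -/

theorem fracRed_inv {Y : LaurentSeries K} (hY : Y ∈ fracInt A)
    (hY' : fracRed A ⟨Y, hY⟩ ≠ 0) :
    fracRed A ⟨Y⁻¹, inv_mem_fracInt_of_fracRed_ne_zero ⟨Y, hY⟩ hY'⟩ =
      (fracRed A ⟨Y, hY⟩)⁻¹ := by
  have hY0 : Y ≠ 0 := by
    rintro rfl
    exact hY' (map_zero (fracRed A))
  have h1 : (⟨Y, hY⟩ : fracInt A) *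
      ⟨Y⁻¹, inv_mem_fracInt_of_fracRed_ne_zero ⟨Y, hY⟩ hY'⟩ = 1 :=
    Subtype.ext (mul_inv_cancel₀ hY0)
  have h2 := congrArg (fracRed A) h1
  rw [map_mul, map_one] at h2
  exact eq_inv_of_mul_eq_one_right h2

theorem zpow_mem_fracInt {Y : LaurentSeries K} (hY : Y ∈ fracInt A)
    (hY' : fracRed A ⟨Y, hY⟩ ≠ 0) (a : ℤ) : Y ^ a ∈ fracInt A := by
  obtain ⟨m, rfl | rfl⟩ := a.eq_nat_or_neg
  · rw [zpow_natCast]
    exact (fracInt A).pow_mem hY m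
  · rw [zpow_neg, zpow_natCast, ← inv_pow]
    exact (fracInt A).pow_mem (inv_mem_fracInt_of_fracRed_ne_zero ⟨Y, hY⟩ hY') m

theorem fracRed_zpow {Y : LaurentSeries K} (hY : Y ∈ fracInt A)
    (hY' : fracRed A ⟨Y, hY⟩ ≠ 0) (a : ℤ) :
    fracRed A ⟨Y ^ a, zpow_mem_fracInt hY hY' a⟩ = fracRed A ⟨Y, hY⟩ ^ a := by
  obtain ⟨m, rfl | rfl⟩ := a.eq_nat_or_neg
  · have h1 : (⟨Y ^ (m : ℤ), zpow_mem_fracInt hY hY' m⟩ : fracInt A) = ⟨Y, hY⟩ ^ m :=
      Subtype.ext (by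
        show Y ^ (m : ℤ) = Y ^ m
        exact zpow_natCast Y m)
    rw [h1, map_pow, zpow_natCast]
  · have h1 : (⟨Y ^ (-(m : ℤ)), zpow_mem_fracInt hY hY' (-(m : ℤ))⟩ : fracInt A) =
        ⟨Y⁻¹, inv_mem_fracInt_of_fracRed_ne_zero ⟨Y, hY⟩ hY'⟩ ^ m :=
      Subtype.ext (by
        show Y ^ (-(m : ℤ)) = Y⁻¹ ^ m
        rw [zpow_neg, zpow_natCast, ← inv_pow])
    rw [h1, map_pow, fracRed_inv hY hY', zpow_neg, zpow_natCast, inv_pow]

/-! ### the norm shape -/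

/-- **the Hecke norm shape reduces modulo the coefficientwise Gauss ring.** -/
theorem norm_shape_fracRed {ℓ : ℕ} [NeZero ℓ] (ζ : (↥A)ˣ) {G Y : LaurentSeries K}
    (hG : G ∈ fracInt A) (hY : Y ∈ fracInt A)
    (h : qExpand K ℓ G = (∏ b ∈ Finset.range ℓ,
      twist (Units.map (A.subtype : ↥A →* K) ζ ^ b) Y) * qExpand K (ℓ * ℓ) Y) :
    qExpand (ResidueField ↥A) ℓ (fracRed A ⟨G, hG⟩) =
      (∏ b ∈ Finset.range ℓ, twist (Units.map (residue ↥A : ↥A →* ResidueField ↥A) ζ ^ b)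
        (fracRed A ⟨Y, hY⟩)) * qExpand (ResidueField ↥A) (ℓ * ℓ) (fracRed A ⟨Y, hY⟩) := by
  have e1 : fracRed A ⟨qExpand K ℓ G, qExpand_mem_fracInt ℓ hG⟩ =
      qExpand (ResidueField ↥A) ℓ (fracRed A ⟨G, hG⟩) := fracRed_qExpand ℓ hG
  have e2 : fracRed A ⟨qExpand K (ℓ * ℓ) Y, qExpand_mem_fracInt (ℓ * ℓ) hY⟩ =
      qExpand (ResidueField ↥A) (ℓ * ℓ) (fracRed A ⟨Y, hY⟩) := fracRed_qExpand (ℓ * ℓ) hY
  have e3 : (⟨qExpand K ℓ G, qExpand_mem_fracInt ℓ hG⟩ : fracInt A) =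
      (∏ b ∈ Finset.range ℓ, (⟨twist (Units.map (A.subtype : ↥A →* K) ζ ^ b) Y,
        twist_pow_mem_fracInt ζ b hY⟩ : fracInt A)) *
      ⟨qExpand K (ℓ * ℓ) Y, qExpand_mem_fracInt (ℓ * ℓ) hY⟩ := by
    apply Subtype.ext
    rw [Subring.coe_mul, SubmonoidClass.coe_finsetProd]
    exact h
  rw [← e1, e3, map_mul, map_prod, e2]
  congr 1
  exact Finset.prod_congr rfl fun b _ => fracRed_twist_pow ζ b hY

/-- **[RQ4-Q], `fracInt` form**: a Hecke relation `G = c · Y^a · u^p` between units of the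
coefficientwise Gauss ring of an arbitrary valuation subring, with `G` of the norm shape, gives the
formal eigen-relation for the coefficients of `θȲ/Ȳ` in the residue field. -/
theorem eigen_of_norm_shape_frac (p : ℕ) [CharP (ResidueField ↥A) p] {ℓ : ℕ} [NeZero ℓ]
    (hℓ : (ℓ : ResidueField ↥A) ≠ 0) (ζ : (↥A)ˣ) (hζ : ζ ^ ℓ = 1) {G Y u : LaurentSeries K}
    (hY : Y ∈ fracInt A) (hY' : fracRed A ⟨Y, hY⟩ ≠ 0)
    (hu : u ∈ fracInt A) (hu' : fracRed A ⟨u, hu⟩ ≠ 0) (c : (↥A)ˣ) (a : ℤ)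
    (h : qExpand K ℓ G = (∏ b ∈ Finset.range ℓ,
      twist (Units.map (A.subtype : ↥A →* K) ζ ^ b) Y) * qExpand K (ℓ * ℓ) Y)
    (hG : G = HahnSeries.C (((c : ↥A) : K)) * Y ^ a * u ^ p) (n : ℕ) :
    (dlogθ (fracRed A ⟨Y, hY⟩)).coeff ((n * ℓ : ℕ) : ℤ) +
      (if ℓ ∣ n then (ℓ : ResidueField ↥A) *
        (dlogθ (fracRed A ⟨Y, hY⟩)).coeff ((n / ℓ : ℕ) : ℤ) else 0) =
      (a : ResidueField ↥A) * (dlogθ (fracRed A ⟨Y, hY⟩)).coeff (n : ℤ) := by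
  have hcm : (HahnSeries.C (((c : ↥A) : K)) : LaurentSeries K) ∈ fracInt A :=
    C_mem_fracInt (c : ↥A).2
  have hGm : G ∈ fracInt A := by
    rw [hG]
    exact (fracInt A).mul_mem ((fracInt A).mul_mem hcm (zpow_mem_fracInt hY hY' a))
      ((fracInt A).pow_mem hu p)
  have hGred : fracRed A ⟨G, hGm⟩ = HahnSeries.C (residue ↥A (c : ↥A)) *
      fracRed A ⟨Y, hY⟩ ^ a * fracRed A ⟨u, hu⟩ ^ p := by
    have h1 : (⟨G, hGm⟩ : fracInt A) = ⟨HahnSeries.C (((c : ↥A) : K)), hcm⟩ *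
        ⟨Y ^ a, zpow_mem_fracInt hY hY' a⟩ * ⟨u, hu⟩ ^ p := Subtype.ext hG
    have h2 : fracRed A ⟨HahnSeries.C (((c : ↥A) : K)), hcm⟩ =
        HahnSeries.C (residue ↥A (c : ↥A)) := fracRed_C (c : ↥A).2
    rw [h1, map_mul, map_mul, map_pow, h2, fracRed_zpow hY hY' a]
  have hc : residue ↥A (c : ↥A) ≠ 0 := by
    intro h0
    have : IsUnit (residue ↥A (c : ↥A)) := c.isUnit.map (residue ↥A)
    exact this.ne_zero h0
  have hζ' : (Units.map (residue ↥A : ↥A →* ResidueField ↥A) ζ) ^ ℓ = 1 := by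
    rw [← map_pow, hζ, map_one]
  exact eigen_of_norm_shape p hℓ _ hζ' hY' hu' hc a (norm_shape_fracRed ζ hGm hY h) hGred n

/-- a constant relating two units of `fracInt A` is a unit of `A`. -/
theorem exists_unit_of_C_mul_eq_frac {c : K} (hc : c ≠ 0) {V P : LaurentSeries K}
    (hV : V ∈ fracInt A) (hVr : fracRed A ⟨V, hV⟩ ≠ 0)
    (hP : P ∈ fracInt A) (hPr : fracRed A ⟨P, hP⟩ ≠ 0)
    (h : HahnSeries.C c * V = P) : ∃ c₀ : (↥A)ˣ, ((c₀ : ↥A) : K) = c := by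
  have hV0 : V ≠ 0 := by
    rintro rfl
    exact hVr (map_zero (fracRed A))
  have hP0 : P ≠ 0 := by
    rintro rfl
    exact hPr (map_zero (fracRed A))
  have hVinv := inv_mem_fracInt_of_fracRed_ne_zero ⟨V, hV⟩ hVr
  have hPinv := inv_mem_fracInt_of_fracRed_ne_zero ⟨P, hP⟩ hPr
  have h1 : c ∈ A := by
    rw [← C_mem_fracInt_iff]
    have e : (HahnSeries.C c : LaurentSeries K) = P * V⁻¹ := by
      rw [← h, mul_assoc, mul_inv_cancel₀ hV0, mul_one]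
    rw [e]
    exact (fracInt A).mul_mem hP hVinv
  have h2 : c⁻¹ ∈ A := by
    rw [← C_mem_fracInt_iff]
    have hC0 : (HahnSeries.C c : LaurentSeries K) ≠ 0 :=
      (map_ne_zero_iff _ HahnSeries.C_injective).mpr hc
    have e : (HahnSeries.C c⁻¹ : LaurentSeries K) = V * P⁻¹ := by
      rw [← h, mul_inv, map_inv₀, mul_comm (HahnSeries.C c)⁻¹, ← mul_assoc, mul_inv_cancel₀ hV0,
        one_mul]
    rw [e]
    exact (fracInt A).mul_mem hV hPinv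
  refine ⟨⟨⟨c, h1⟩, ⟨c⁻¹, h2⟩, ?_, ?_⟩, rfl⟩
  · exact Subtype.ext (mul_inv_cancel₀ hc)
  · exact Subtype.ext (inv_mul_cancel₀ hc)

/-- a root of unity of `K` is a unit of `A`. -/
theorem exists_unit_of_pow_eq_one {ℓ : ℕ} (hℓ : ℓ ≠ 0) (ζ : Kˣ) (hζ : ζ ^ ℓ = 1) :
    ∃ ζ₀ : (↥A)ˣ, Units.map (A.subtype : ↥A →* K) ζ₀ = ζ := by
  have hv : ∀ z : K, z ^ ℓ = 1 → z ∈ A := by
    intro z hz
    rw [← A.valuation_le_one_iff]
    have h1 : (A.valuation z) ^ ℓ = 1 := by rw [← map_pow, hz, map_one]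
    rcases lt_trichotomy (A.valuation z) 1 with hlt | heq | hgt
    · exact hlt.le
    · exact heq.le
    · exact absurd h1 (ne_of_gt (one_lt_pow₀ hgt hℓ))
  have h1 : (ζ : K) ∈ A := hv _ (by
    have := congrArg (fun z : Kˣ => (z : K)) hζ
    simpa using this)
  have h2 : ((ζ⁻¹ : Kˣ) : K) ∈ A := hv _ (by
    have := congrArg (fun z : Kˣ => ((z⁻¹ : Kˣ) : K)) hζ
    simpa using this)
  refine ⟨⟨⟨(ζ : K), h1⟩, ⟨((ζ⁻¹ : Kˣ) : K), h2⟩, ?_, ?_⟩, ?_⟩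
  · exact Subtype.ext (by simp)
  · exact Subtype.ext (by simp)
  · exact Units.ext rfl

/-- **[RQ4-Q], `fracInt` field form**: the formal eigen-relation from a Hecke relation
`G = c · S^a · u^p` with `G` of the norm shape w.r.t. `S`, for `S = c₁ · Y'`, `u = c₂ · u'`
(`Y'`, `u'` units of the coefficientwise Gauss ring), `c ≠ 0` arbitrary, `ζ` any `ℓ`-th root of
unity of `K`. -/
theorem eigen_of_norm_shape_fracField (p : ℕ) [CharP (ResidueField ↥A) p] {ℓ : ℕ} [NeZero ℓ]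
    (hℓ : (ℓ : ResidueField ↥A) ≠ 0) (ζ : Kˣ) (hζ : ζ ^ ℓ = 1) {G S u : LaurentSeries K}
    {c : K} (hc : c ≠ 0) (a : ℤ)
    (h : qExpand K ℓ G = (∏ b ∈ Finset.range ℓ, twist (ζ ^ b) S) * qExpand K (ℓ * ℓ) S)
    (hG : G = HahnSeries.C c * S ^ a * u ^ p)
    {c₁ : K} (hc₁ : c₁ ≠ 0) {Y' : LaurentSeries K} (hY' : Y' ∈ fracInt A)
    (hY'u : fracRed A ⟨Y', hY'⟩ ≠ 0) (hS : S = HahnSeries.C c₁ * Y')
    {c₂ : K} (hc₂ : c₂ ≠ 0) {u' : LaurentSeries K} (hu' : u' ∈ fracInt A)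
    (hu'u : fracRed A ⟨u', hu'⟩ ≠ 0) (hu : u = HahnSeries.C c₂ * u') (n : ℕ) :
    (dlogθ (fracRed A ⟨Y', hY'⟩)).coeff ((n * ℓ : ℕ) : ℤ) +
      (if ℓ ∣ n then (ℓ : ResidueField ↥A) *
        (dlogθ (fracRed A ⟨Y', hY'⟩)).coeff ((n / ℓ : ℕ) : ℤ) else 0) =
      (a : ResidueField ↥A) * (dlogθ (fracRed A ⟨Y', hY'⟩)).coeff (n : ℤ) := by
  obtain ⟨ζ₀, rfl⟩ := exists_unit_of_pow_eq_one (A := A) (NeZero.ne ℓ) ζ hζ
  have hζ₀ : ζ₀ ^ ℓ = 1 := by
    apply Units.ext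
    apply Subtype.ext
    have := congrArg (fun z : Kˣ => (z : K)) hζ
    simpa using this
  set c'' : K := c * c₁ ^ a * c₂ ^ p * (c₁ ^ (ℓ + 1))⁻¹ with hc''
  have hc''0 : c'' ≠ 0 :=
    mul_ne_zero (mul_ne_zero (mul_ne_zero hc (zpow_ne_zero a hc₁)) (pow_ne_zero p hc₂))
      (inv_ne_zero (pow_ne_zero _ hc₁))
  set G' : LaurentSeries K := HahnSeries.C (c₁ ^ (ℓ + 1))⁻¹ * G with hG'
  -- (ii) the Hecke relation for `G'`
  have hii : G' = HahnSeries.C c'' * Y' ^ a * u' ^ p := by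
    rw [hG', hG, hS, hu, mul_zpow, mul_pow, ← map_zpow₀, ← map_pow, hc'', map_mul, map_mul,
      map_mul]
    ring
  -- (i) the norm shape for `G'`
  have hi : qExpand K ℓ G' = (∏ b ∈ Finset.range ℓ,
      twist (Units.map (A.subtype : ↥A →* K) ζ₀ ^ b) Y') * qExpand K (ℓ * ℓ) Y' := by
    rw [hG', map_mul, qExpand_C, h, hS, map_mul, qExpand_C]
    have e : ∀ b ∈ Finset.range ℓ,
        twist (Units.map (A.subtype : ↥A →* K) ζ₀ ^ b) (HahnSeries.C c₁ * Y')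
          = HahnSeries.C c₁ * twist (Units.map (A.subtype : ↥A →* K) ζ₀ ^ b) Y' := by
      intro b _
      rw [map_mul, twist_C]
    rw [Finset.prod_congr rfl e, Finset.prod_mul_distrib, Finset.prod_const, Finset.card_range,
      map_inv₀]
    have hC0 : (HahnSeries.C (c₁ ^ (ℓ + 1)) : LaurentSeries K) ≠ 0 :=
      (map_ne_zero_iff _ HahnSeries.C_injective).mpr (pow_ne_zero _ hc₁)
    have hCe : (HahnSeries.C c₁ : LaurentSeries K) ^ ℓ * HahnSeries.C c₁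
        = HahnSeries.C (c₁ ^ (ℓ + 1)) := by
      rw [pow_succ, map_mul, map_pow]
    calc (HahnSeries.C (c₁ ^ (ℓ + 1)) : LaurentSeries K)⁻¹ *
          (HahnSeries.C c₁ ^ ℓ * (∏ b ∈ Finset.range ℓ,
              twist (Units.map (A.subtype : ↥A →* K) ζ₀ ^ b) Y') *
            (HahnSeries.C c₁ * qExpand K (ℓ * ℓ) Y'))
        = (HahnSeries.C (c₁ ^ (ℓ + 1)) : LaurentSeries K)⁻¹ *
            ((HahnSeries.C c₁ : LaurentSeries K) ^ ℓ * HahnSeries.C c₁) *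
          ((∏ b ∈ Finset.range ℓ,
              twist (Units.map (A.subtype : ↥A →* K) ζ₀ ^ b) Y') *
            qExpand K (ℓ * ℓ) Y') := by ring
      _ = _ := by rw [hCe, inv_mul_cancel₀ hC0, one_mul]
  -- the constant is a unit
  have hU : Y' ^ a * u' ^ p ∈ fracInt A :=
    (fracInt A).mul_mem (zpow_mem_fracInt hY' hY'u a) ((fracInt A).pow_mem hu' p)
  have hUr : fracRed A ⟨Y' ^ a * u' ^ p, hU⟩ ≠ 0 := by
    have e : (⟨Y' ^ a * u' ^ p, hU⟩ : fracInt A)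
        = ⟨Y' ^ a, zpow_mem_fracInt hY' hY'u a⟩ * ⟨u', hu'⟩ ^ p := rfl
    rw [e, map_mul, map_pow, fracRed_zpow hY' hY'u a]
    exact mul_ne_zero (zpow_ne_zero a hY'u) (pow_ne_zero p hu'u)
  have hV : qExpand K ℓ (Y' ^ a * u' ^ p) ∈ fracInt A := qExpand_mem_fracInt ℓ hU
  have hVr : fracRed A ⟨qExpand K ℓ (Y' ^ a * u' ^ p), hV⟩ ≠ 0 := by
    rw [fracRed_qExpand ℓ hU]
    exact (map_ne_zero_iff _ (qExpand_injective (R := ResidueField ↥A) ℓ)).mpr hUr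
  have hPm : (∏ b ∈ Finset.range ℓ,
      twist (Units.map (A.subtype : ↥A →* K) ζ₀ ^ b) Y') * qExpand K (ℓ * ℓ) Y' ∈ fracInt A :=
    (fracInt A).mul_mem
      (Subring.prod_mem _ fun b _ => twist_pow_mem_fracInt ζ₀ b hY')
      (qExpand_mem_fracInt (ℓ * ℓ) hY')
  have hPr : fracRed A ⟨_, hPm⟩ ≠ 0 := by
    have e3 : (⟨_, hPm⟩ : fracInt A) =
        (∏ b ∈ Finset.range ℓ, (⟨twist (Units.map (A.subtype : ↥A →* K) ζ₀ ^ b) Y',
          twist_pow_mem_fracInt ζ₀ b hY'⟩ : fracInt A)) *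
        ⟨qExpand K (ℓ * ℓ) Y', qExpand_mem_fracInt (ℓ * ℓ) hY'⟩ := by
      apply Subtype.ext
      rw [Subring.coe_mul, SubmonoidClass.coe_finsetProd]
    rw [e3, map_mul, map_prod, fracRed_qExpand (ℓ * ℓ) hY']
    refine mul_ne_zero (Finset.prod_ne_zero_iff.mpr fun b _ => ?_)
      ((map_ne_zero_iff _ (qExpand_injective (R := ResidueField ↥A) (ℓ * ℓ))).mpr hY'u)
    rw [fracRed_twist_pow ζ₀ b hY']
    exact (map_ne_zero_iff _ (twist _).injective).mpr hY'u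
  have hrel : HahnSeries.C c'' * qExpand K ℓ (Y' ^ a * u' ^ p) =
      (∏ b ∈ Finset.range ℓ,
        twist (Units.map (A.subtype : ↥A →* K) ζ₀ ^ b) Y') * qExpand K (ℓ * ℓ) Y' := by
    have e : qExpand K ℓ G' = HahnSeries.C c'' * qExpand K ℓ (Y' ^ a * u' ^ p) := by
      rw [hii, mul_assoc, map_mul, qExpand_C]
    rw [← e, hi]
  obtain ⟨c₀, hc₀⟩ := exists_unit_of_C_mul_eq_frac hc''0 hV hVr hPm hPr hrel
  exact eigen_of_norm_shape_frac p hℓ ζ₀ hζ₀ hY' hY'u hu' hu'u c₀ a hi (by rw [hc₀]; exact hii) n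

/-! ### the currency `x = q^{1/m}` -/

/-- the eigen-relation for the coefficients of `θȲ/Ȳ` gives the same relation for the
coefficients `m n` of `θF/F`, `F = Ȳ(x^m)`. -/
theorem eigen_qExpand_of_eigen {k : Type*} [Field k] (m : ℕ) [NeZero m] (Y : LaurentSeries k)
    (ℓ : ℕ) (a : k)
    (h : ∀ n : ℕ, (dlogθ Y).coeff ((n * ℓ : ℕ) : ℤ) +
      (if ℓ ∣ n then (ℓ : k) * (dlogθ Y).coeff ((n / ℓ : ℕ) : ℤ) else 0) =
      a * (dlogθ Y).coeff (n : ℤ))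
    (b : ℕ → k)
    (hb : ∀ n : ℕ, b n = (eulerD k (qExpand k m Y) / qExpand k m Y).coeff ((m : ℤ) * (n : ℤ)))
    (n : ℕ) :
    b (n * ℓ) + (if ℓ ∣ n then (ℓ : k) * b (n / ℓ) else 0) = a * b n := by
  have key : ∀ j : ℕ, b j = (m : k) * (dlogθ Y).coeff (j : ℤ) := by
    intro j
    rw [hb j, ← dlogθ_def, dlogθ_qExpand]
    have e : ((m : ℕ) : LaurentSeries k) = HahnSeries.C ((m : ℕ) : k) := by
      rw [map_natCast]
    rw [e, coeffV_C_mul, qExpand_coeff_mul]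
  rw [key, key, key]
  have h1 := h n
  split_ifs at h1 ⊢ with hd
  · rw [← mul_assoc, mul_comm (ℓ : k) (m : k), mul_assoc, ← mul_add, h1]
    ring
  · rw [add_zero] at h1 ⊢
    rw [h1]
    ring

end

end Fermat.Agent.MP.RQ4Q
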