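/-
MP40 (S44/S40) — helper3 — [PDIV], sub-lemma (Ω5)(i): **the reduced modular equation on the
Legendre host**: in `legEt hA (M ℓ) hp2` (the reduction of the Legendre host of level `M ℓ` at a
valuation ring `A` of `ℚ̄` over `p ≠ 2`), `β̄ j̄` is integral over `k[ᾱ j̄]`, where `ᾱ j̄`, `β̄ j̄` are
the reductions of `j(x²)` (`= legHostA (legJE)`) and `j(x^{2ℓ})` (`= legHostB (legJE)`).

* `exists_monic_evalInt_legJE` : the modular equation transported to `legE Ω (M ℓ)`;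
* `legρ_hostB_legJE_mem_of_hostA_mem` : every integrally closed subring `O ⊇ k` of `legEt` containing
  `ᾱ j̄` contains `β̄ j̄` — in particular (`legρ_hostB_legJE_mem_place`) the valuation ring of a place;
* `isIntegral_legρ_hostB_legJE` : `β̄ j̄` is integral over `Algebra.adjoin k {ᾱ j̄}`.
-/
import Mathlib
import Fermat.Agent.JA.ES1_helper2_Integral
import Fermat.Agent.FG.EDEF_helper6_Leg
import Fermat.Agent.SS.HOSTB_helper8_HostB
import Fermat.Agent.SS.MODEL_helper7_Defs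
import Fermat.Agent.SS.CUSPT_helper3_Host
import Fermat.Agent.MP.ROLDQ_helper8_HostSeriesC
import Fermat.Agent.MP.RQ4Q_helper3_Frac

set_option autoImplicit false
set_option linter.unusedSectionVars false
set_option linter.style.haveILetI false

namespace Fermat.Agent.MP

open ModularCurve AlgebraicCurve IntermediateField Fermat.Agent.X0N Fermat.Agent.Igusa
  Fermat.Agent.JA Fermat.Agent.SS Fermat.Agent.FG Fermat.Agent.MP.RQ4Q IsLocalRing Polynomial

local notation "Ω" => AlgebraicClosure ℚ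

noncomputable section

/-! ### an abstract reduction lemma -/

section Abstract

variable {R₀ S T : Type*} [CommRing R₀] [CommRing S] [CommRing T]

/-- a monic relation `P(x) = 0` over the image of `φ : R₀[X] → S` pushed along `ρ : S → T`: every
integrally closed subring of the field `T` containing `ρ (φ (C a))` and `ρ (φ X)` contains `ρ x`. -/
theorem mem_of_monic_eval₂_of_isIntegrallyClosed {T : Type*} [Field T] (φ : Polynomial R₀ →+* S)
    (ρ : S →+* T) (P : Polynomial (Polynomial R₀)) (hP : P.Monic) (x : S)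
    (h0 : eval₂ φ x P = 0) (O : ValuationSubring T)
    (hC : ∀ a : R₀, ρ (φ (C a)) ∈ O) (hX : ρ (φ X) ∈ O) : ρ x ∈ O := by
  have hrange : ∀ Q : Polynomial R₀, ρ (φ Q) ∈ O := by
    intro Q
    induction Q using Polynomial.induction_on' with
    | add Q₁ Q₂ h₁ h₂ =>
      rw [map_add, map_add]
      exact O.add_mem _ _ h₁ h₂
    | monomial n a =>
      rw [← C_mul_X_pow_eq_monomial, map_mul, map_mul, map_pow, map_pow]
      exact O.mul_mem _ _ (hC a) (pow_mem hX n)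
  have h1 : eval₂ (ρ.comp φ) (ρ x) P = 0 := by
    rw [← Polynomial.hom_eval₂, h0, map_zero]
  have hint : IsIntegral ↥O (ρ x) := by
    refine ⟨P.map ((ρ.comp φ).codRestrict O.toSubring hrange), hP.map _, ?_⟩
    rw [eval₂_map]
    exact h1
  obtain ⟨y, hy⟩ := (IsIntegrallyClosed.isIntegral_iff (R := ↥O) (K := T)).mp hint
  rw [← hy]
  exact y.2

/-- the same relation gives integrality over any subalgebra containing the images of the constants
and of `X`. -/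
theorem isIntegral_of_monic_eval₂ {k T : Type*} [CommRing k] [CommRing T] [Algebra k T]
    (φ : Polynomial R₀ →+* S) (ρ : S →+* T) (P : Polynomial (Polynomial R₀)) (hP : P.Monic)
    (x : S) (h0 : eval₂ φ x P = 0) (B : Subalgebra k T)
    (hC : ∀ a : R₀, ρ (φ (C a)) ∈ B) (hX : ρ (φ X) ∈ B) : IsIntegral ↥B (ρ x) := by
  have hrange : ∀ Q : Polynomial R₀, ρ (φ Q) ∈ B := by
    intro Q
    induction Q using Polynomial.induction_on' with
    | add Q₁ Q₂ h₁ h₂ =>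
      rw [map_add, map_add]
      exact B.add_mem h₁ h₂
    | monomial n a =>
      rw [← C_mul_X_pow_eq_monomial, map_mul, map_mul, map_pow, map_pow]
      exact B.mul_mem (hC a) (B.pow_mem hX n)
  have h1 : eval₂ (ρ.comp φ) (ρ x) P = 0 := by
    rw [← Polynomial.hom_eval₂, h0, map_zero]
  refine ⟨P.map ((ρ.comp φ).codRestrict B.toSubring hrange), hP.map _, ?_⟩
  rw [eval₂_map]
  exact h1

end Abstract

/-! ### the modular equation on the Legendre host -/

section Host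

variable (M ℓ : ℕ) [NeZero M] [NeZero ℓ] [NeZero (M * ℓ)] (hℓ : ℓ.Prime) (hℓ2 : ℓ ≠ 2)

theorem qExpand_congr_helper {K : Type*} [CommRing K] {a b : ℕ} [NeZero a] [NeZero b] (h : a = b)
    (f : LaurentSeries K) : qExpand K a f = qExpand K b f := by
  subst h
  rfl

theorem coe_legHostA_bar (f : ↥(legE Ω M)) :
    ((legHostA Ω M ℓ f : ↥(legE Ω (M * ℓ))) : LaurentSeries Ω) = f :=
  IntermediateField.coe_inclusion _ f

theorem fullToLegE_heckeAlphaBar_jBar :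
    fullToLegE Ω (M * ℓ) (heckeAlphaBar Ω M ℓ (jBar M)) = legHostA Ω M ℓ (legJE Ω M) := by
  letI : Algebra Ω ℂ := complexEmbedding.toRingHom.toAlgebra
  apply Subtype.ext
  rw [coe_fullToLegE, coe_legHostA_bar, coe_legJE, coe_heckeAlphaBar, coe_jBar]
  have h := coeffEmb_qExpand_jq Ω 1
  rw [qExpand_one_apply, qExpand_one_apply] at h
  rw [h]
  rfl

theorem fullToLegE_heckeBetaBar_jBar :
    fullToLegE Ω (M * ℓ) (heckeBetaBar Ω M ℓ (jBar M)) =
      legHostB Ω M ℓ hℓ hℓ2 (legJE Ω M) := by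
  letI : Algebra Ω ℂ := complexEmbedding.toRingHom.toAlgebra
  apply Subtype.ext
  rw [coe_fullToLegE, coe_legHostB, coe_legJE, coe_heckeBetaBar, coe_jBar]
  have h := coeffEmb_qExpand_jq Ω 1
  rw [qExpand_one_apply, qExpand_one_apply] at h
  rw [h]
  haveI : NeZero (2 * ℓ) := ⟨mul_ne_zero two_ne_zero (NeZero.ne ℓ)⟩
  haveI : NeZero (ℓ * 2) := ⟨mul_ne_zero (NeZero.ne ℓ) two_ne_zero⟩
  show qExpand Ω 2 (qExpand Ω ℓ (jqModC Ω)) = qExpand Ω ℓ (qExpand Ω 2 (jqModC Ω))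
  rw [qExpand_qExpand, qExpand_qExpand]
  exact qExpand_congr_helper (mul_comm 2 ℓ) _

/-- **the modular equation on the Legendre host of level `M ℓ` over `ℚ̄`.** -/
theorem exists_monic_evalInt_legJE :
    ∃ P : Polynomial (Polynomial ↥(intSubring Ω)), P.Monic ∧
      eval₂ (evalInt (algebraMap Ω ↥(legE Ω (M * ℓ))) (legHostA Ω M ℓ (legJE Ω M)))
        (legHostB Ω M ℓ hℓ hℓ2 (legJE Ω M)) P = 0 := by
  obtain ⟨P, hP, h0⟩ := exists_monic_evalInt_jBar (N := M) (ℓ := ℓ)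
  refine ⟨P, hP, ?_⟩
  have h1 := congrArg (fullToLegE Ω (M * ℓ)).toRingHom h0
  rw [map_zero, Polynomial.hom_eval₂, comp_evalInt] at h1
  have h2 : (fullToLegE Ω (M * ℓ)).toRingHom.comp
      (algebraMap Ω ↥(laurentBaseChange Ω (modularFunctionFieldFull (M * ℓ)))) =
      algebraMap Ω ↥(legE Ω (M * ℓ)) :=
    RingHom.ext fun c => (fullToLegE Ω (M * ℓ)).commutes c
  have h3 : (fullToLegE Ω (M * ℓ)).toRingHom (heckeAlphaBar Ω M ℓ (jBar M)) =
      legHostA Ω M ℓ (legJE Ω M) := fullToLegE_heckeAlphaBar_jBar M ℓ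
  have h4 : (fullToLegE Ω (M * ℓ)).toRingHom (heckeBetaBar Ω M ℓ (jBar M)) =
      legHostB Ω M ℓ hℓ hℓ2 (legJE Ω M) := fullToLegE_heckeBetaBar_jBar M ℓ hℓ hℓ2
  rw [h2, h3, h4] at h1
  exact h1

end Host

/-! ### reduction -/

section Red

variable (M ℓ : ℕ) [NeZero M] [NeZero ℓ] [NeZero (M * ℓ)] (hℓ : ℓ.Prime) (hℓ2 : ℓ ≠ 2)
  {p : ℕ} [Fact p.Prime] {A : ValuationSubring Ω} (hA : A.LiesOverPrime p) (hp2 : p ≠ 2)

theorem legHostA_legJE_mem_legWE :
    legHostA Ω M ℓ (legJE Ω M) ∈ legWE hA (M * ℓ) hp2 := by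
  rw [mem_legWE_iff, coe_legHostA_bar, coe_legJE]
  exact jqNModC_mem_fracInt 2

theorem legHostB_legJE_mem_legWE :
    legHostB Ω M ℓ hℓ hℓ2 (legJE Ω M) ∈ legWE hA (M * ℓ) hp2 := by
  rw [mem_legWE_iff, coe_legHostB, coe_legJE]
  exact qExpand_mem_fracInt ℓ (jqNModC_mem_fracInt 2)

/-- algebraic integers lie in `A`. -/
theorem mem_of_mem_intSubring (a : ↥(intSubring Ω)) : (a : Ω) ∈ A := by
  have h : IsIntegral ℤ (a : Ω) := a.2
  have h1 : IsIntegral ↥A (a : Ω) := h.tower_top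
  obtain ⟨y, hy⟩ := (IsIntegrallyClosed.isIntegral_iff (R := ↥A) (K := Ω)).mp h1
  rw [← hy]
  exact y.2

/-- `P ↦ P(ᾱ j)` with values in the valuation ring `legWE`. -/
def evalIntWE : Polynomial ↥(intSubring Ω) →+* ↥(legWE hA (M * ℓ) hp2) :=
  (evalInt (algebraMap Ω ↥(legE Ω (M * ℓ))) (legHostA Ω M ℓ (legJE Ω M))).codRestrict
    (legWE hA (M * ℓ) hp2).toSubring (by
      intro Q
      induction Q using Polynomial.induction_on' with
      | add Q₁ Q₂ h₁ h₂ =>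
        rw [map_add]
        exact (legWE hA (M * ℓ) hp2).add_mem _ _ h₁ h₂
      | monomial n a =>
        rw [← C_mul_X_pow_eq_monomial, map_mul, map_pow, evalInt_C, evalInt_X]
        exact (legWE hA (M * ℓ) hp2).mul_mem _ _
          ((algebraMap_mem_legWE_iff hA (M * ℓ) hp2 _).mpr (mem_of_mem_intSubring a))
          (pow_mem (legHostA_legJE_mem_legWE M ℓ hA hp2) n))

theorem coe_evalIntWE (Q : Polynomial ↥(intSubring Ω)) :
    ((evalIntWE M ℓ hA hp2 Q : ↥(legWE hA (M * ℓ) hp2)) : ↥(legE Ω (M * ℓ))) =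
      evalInt (algebraMap Ω ↥(legE Ω (M * ℓ))) (legHostA Ω M ℓ (legJE Ω M)) Q := rfl

/-- the modular equation inside `legWE`. -/
theorem exists_monic_evalIntWE :
    ∃ P : Polynomial (Polynomial ↥(intSubring Ω)), P.Monic ∧
      eval₂ (evalIntWE M ℓ hA hp2)
        (⟨legHostB Ω M ℓ hℓ hℓ2 (legJE Ω M), legHostB_legJE_mem_legWE M ℓ hℓ hℓ2 hA hp2⟩ :
          ↥(legWE hA (M * ℓ) hp2)) P = 0 := by
  obtain ⟨P, hP, h0⟩ := exists_monic_evalInt_legJE M ℓ hℓ hℓ2
  refine ⟨P, hP, ?_⟩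
  apply Subtype.val_injective
  have h1 := Polynomial.hom_eval₂ P (evalIntWE M ℓ hA hp2)
    (legWE hA (M * ℓ) hp2).subtype
    (⟨legHostB Ω M ℓ hℓ hℓ2 (legJE Ω M), legHostB_legJE_mem_legWE M ℓ hℓ hℓ2 hA hp2⟩ :
      ↥(legWE hA (M * ℓ) hp2))
  have h2 : (legWE hA (M * ℓ) hp2).subtype.comp (evalIntWE M ℓ hA hp2) =
      evalInt (algebraMap Ω ↥(legE Ω (M * ℓ))) (legHostA Ω M ℓ (legJE Ω M)) :=
    RingHom.ext fun Q => rfl
  rw [h2] at h1
  show (legWE hA (M * ℓ) hp2).subtype _ = _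
  rw [h1]
  exact h0

/-- **(Ω5)(i), valuation-ring form**: a valuation subring of `legEt` containing `k` and `ᾱ j̄`
contains `β̄ j̄`. -/
theorem legρ_hostB_legJE_mem_of_hostA_mem (O : ValuationSubring (legEt hA (M * ℓ) hp2))
    (hk : ∀ c : ResidueField ↥A, algebraMap (ResidueField ↥A) (legEt hA (M * ℓ) hp2) c ∈ O)
    (hα : legρ hA (M * ℓ) hp2
      ⟨legHostA Ω M ℓ (legJE Ω M), legHostA_legJE_mem_legWE M ℓ hA hp2⟩ ∈ O) :
    legρ hA (M * ℓ) hp2
      ⟨legHostB Ω M ℓ hℓ hℓ2 (legJE Ω M), legHostB_legJE_mem_legWE M ℓ hℓ hℓ2 hA hp2⟩ ∈ O := by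
  obtain ⟨P, hP, h0⟩ := exists_monic_evalIntWE M ℓ hℓ hℓ2 hA hp2
  refine mem_of_monic_eval₂_of_isIntegrallyClosed (evalIntWE M ℓ hA hp2) (legρ hA (M * ℓ) hp2)
    P hP _ h0 O ?_ ?_
  · intro a
    have e : evalIntWE M ℓ hA hp2 (C a) =
        ⟨algebraMap Ω ↥(legE Ω (M * ℓ)) (a : Ω),
          (algebraMap_mem_legWE_iff hA (M * ℓ) hp2 _).mpr (mem_of_mem_intSubring a)⟩ := by
      apply Subtype.ext
      rw [coe_evalIntWE, evalInt_C]
    rw [e, legρ_algebraMap hA (M * ℓ) hp2 ⟨(a : Ω), mem_of_mem_intSubring a⟩]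
    exact hk _
  · have e : evalIntWE M ℓ hA hp2 X =
        ⟨legHostA Ω M ℓ (legJE Ω M), legHostA_legJE_mem_legWE M ℓ hA hp2⟩ := by
      apply Subtype.ext
      rw [coe_evalIntWE, evalInt_X]
    rw [e]
    exact hα

/-- **(Ω5)(i), place form** (the `hint` of `dvd_ord_normAlong_map_of_regular`). -/
theorem legρ_hostB_legJE_mem_place (w : Place (ResidueField ↥A) (legEt hA (M * ℓ) hp2))
    (hα : legρ hA (M * ℓ) hp2
      ⟨legHostA Ω M ℓ (legJE Ω M), legHostA_legJE_mem_legWE M ℓ hA hp2⟩ ∈ w.toValuationSubring) :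
    legρ hA (M * ℓ) hp2
      ⟨legHostB Ω M ℓ hℓ hℓ2 (legJE Ω M), legHostB_legJE_mem_legWE M ℓ hℓ hℓ2 hA hp2⟩ ∈
        w.toValuationSubring :=
  legρ_hostB_legJE_mem_of_hostA_mem M ℓ hℓ hℓ2 hA hp2 w.toValuationSubring
    (fun c => w.algebraMap_mem' c) hα

/-- **(Ω5)(i), integrality form**: `β̄ j̄` is integral over `k[ᾱ j̄]`. -/
theorem isIntegral_legρ_hostB_legJE :
    IsIntegral ↥(Algebra.adjoin (ResidueField ↥A)
      {legρ hA (M * ℓ) hp2
        ⟨legHostA Ω M ℓ (legJE Ω M), legHostA_legJE_mem_legWE M ℓ hA hp2⟩})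
      (legρ hA (M * ℓ) hp2
        ⟨legHostB Ω M ℓ hℓ hℓ2 (legJE Ω M), legHostB_legJE_mem_legWE M ℓ hℓ hℓ2 hA hp2⟩) := by
  obtain ⟨P, hP, h0⟩ := exists_monic_evalIntWE M ℓ hℓ hℓ2 hA hp2
  refine isIntegral_of_monic_eval₂ (evalIntWE M ℓ hA hp2) (legρ hA (M * ℓ) hp2) P hP _ h0 _ ?_ ?_
  · intro a
    have e : evalIntWE M ℓ hA hp2 (C a) =
        ⟨algebraMap Ω ↥(legE Ω (M * ℓ)) (a : Ω),
          (algebraMap_mem_legWE_iff hA (M * ℓ) hp2 _).mpr (mem_of_mem_intSubring a)⟩ := by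
      apply Subtype.ext
      rw [coe_evalIntWE, evalInt_C]
    rw [e, legρ_algebraMap hA (M * ℓ) hp2 ⟨(a : Ω), mem_of_mem_intSubring a⟩]
    exact Subalgebra.algebraMap_mem _ _
  · have e : evalIntWE M ℓ hA hp2 X =
        ⟨legHostA Ω M ℓ (legJE Ω M), legHostA_legJE_mem_legWE M ℓ hA hp2⟩ := by
      apply Subtype.ext
      rw [coe_evalIntWE, evalInt_X]
    rw [e]
    exact Algebra.subset_adjoin rfl

end Red

end

end Fermat.Agent.MP
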