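/-
MP40 (S44/S40) — helper3 — [PDIV], (Ω5), host form **parametric in the reduced degeneracy maps**:
`αt βt : legEt hA M hp2 →ₐ[k] legEt hA (M ℓ) hp2` (`k` the residue field of `A`, a valuation ring of
`ℚ̄` over `p ≠ 2`, `p ∤ M ℓ`) with `αt j̄ = ρ (legHostA j)`, `βt j̄ = ρ (legHostB j)`, `αt` finite
separable.  If `m ∣ ord_Q z` at every place `Q` of `legEt hA M hp2` where `j̄` is regular, then
`m ∣ ord_Q (N_αt (βt z))` at every such place.
-/
import Mathlib
import Fermat.Agent.MP.NORMP_helper3_PDiv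
import Fermat.Agent.MP.NORMP_helper3_ModEq
import Fermat.Agent.MP.NORMP_helper3_Exch
import Fermat.Agent.FG.EDEF_helper6_Fields

set_option autoImplicit false
set_option linter.unusedSectionVars false
set_option linter.style.haveILetI false

namespace Fermat.Agent.MP

open ModularCurve AlgebraicCurve IntermediateField Fermat.Agent.X0N Fermat.Agent.Igusa
  Fermat.Agent.JA Fermat.Agent.SS Fermat.Agent.FG Fermat.Agent.MP.RQ4Q IsLocalRing Polynomial

local notation "Ω" => AlgebraicClosure ℚ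

noncomputable section

section Host

variable (M ℓ : ℕ) [NeZero M] [NeZero ℓ] [NeZero (M * ℓ)] (hℓ : ℓ.Prime) (hℓ2 : ℓ ≠ 2)
  {p : ℕ} [Fact p.Prime] {A : ValuationSubring Ω} (hA : A.LiesOverPrime p) (hp2 : p ≠ 2)

/-- the reduced `j`-function of level `M`. -/
def legJt : legEt hA M hp2 := legρ hA M hp2 ⟨legJE Ω M, legJE_mem_legWE M hA hp2⟩

/-- every `k`-embedding `legEt (M) → legEt (M ℓ)` is integral. -/
theorem legEt_algHom_isIntegral (hpM : ¬ p ∣ M) (hpMℓ : ¬ p ∣ M * ℓ)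
    (βt : legEt hA M hp2 →ₐ[ResidueField ↥A] legEt hA (M * ℓ) hp2) :
    βt.toRingHom.IsIntegral := by
  obtain ⟨htr, -, -, -⟩ := legEt_facts hA M hpM hp2
  obtain ⟨-, hfin', -, -⟩ := legEt_facts hA (M * ℓ) hpMℓ hp2
  haveI := hfin'
  exact algHom_isIntegral_of_isAlgebraic_adjoin βt (legTb hA (M * ℓ) hp2)
    (Algebra.IsAlgebraic.of_finite _ _) (legTb hA M hp2) htr

/-- **[PDIV] on the reduced Legendre host, parametric in the reduced degeneracy maps.** -/
theorem legEt_dvd_ord_normAlong (hpM : ¬ p ∣ M) (hpMℓ : ¬ p ∣ M * ℓ)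
    (αt βt : legEt hA M hp2 →ₐ[ResidueField ↥A] legEt hA (M * ℓ) hp2)
    (hαj : αt (legJt M hA hp2) = legρ hA (M * ℓ) hp2
      ⟨legHostA Ω M ℓ (legJE Ω M), legHostA_legJE_mem_legWE M ℓ hA hp2⟩)
    (hβj : βt (legJt M hA hp2) = legρ hA (M * ℓ) hp2
      ⟨legHostB Ω M ℓ hℓ hℓ2 (legJE Ω M), legHostB_legJE_mem_legWE M ℓ hℓ hℓ2 hA hp2⟩)
    (hfin : FiniteAlong (ResidueField ↥A) αt)
    (hsep : letI := algebraAlong αt
      Algebra.IsSeparable (legEt hA M hp2) (legEt hA (M * ℓ) hp2))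
    (m : ℤ) {z : legEt hA M hp2} (hz : z ≠ 0)
    (h : ∀ Q : Place (ResidueField ↥A) (legEt hA M hp2),
      legJt M hA hp2 ∈ Q.toValuationSubring → m ∣ Q.ord z)
    (Q : Place (ResidueField ↥A) (legEt hA M hp2))
    (hQ : legJt M hA hp2 ∈ Q.toValuationSubring) :
    m ∣ Q.ord (normAlong αt (βt z)) := by
  haveI := legEt_principal_red hA (M * ℓ) hpMℓ hp2
  refine dvd_ord_normAlong_map_of_regular αt βt
    (legEt_algHom_isIntegral M ℓ hA hp2 hpM hpMℓ αt)
    (legEt_algHom_isIntegral M ℓ hA hp2 hpM hpMℓ βt) hfin hsep (legJt M hA hp2) ?_ m hz h Q hQ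
  intro w hw
  rw [hαj] at hw
  rw [hβj]
  exact legρ_hostB_legJE_mem_place M ℓ hℓ hℓ2 hA hp2 w hw

end Host

end

end Fermat.Agent.MP
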