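/-
MP40 (S44/S40) — helper3 — **the reduced Hecke operator `T̄_ℓ = N_ᾱ ∘ β̄` on the reduced Legendre
host** `legEt hA M hp2`, with [PDIV] and the host form of [ELIM].

* `legEtT` : the monoid hom `z ↦ N_{legEtA} (legEtB z)`;
* `legEtT_pdiv` : `m ∣ ord_Q z` at all non-cuspidal `Q` ⇒ `m ∣ ord_Q (T̄_ℓ z)` at all non-cuspidal `Q`;
* `legEt_elim` : the Eisenstein elimination (`elim_dvd_ord_or_dvd`) for `T̄_ℓ`.
Finiteness and separability of `legEtA` are hypotheses here.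
-/
import Mathlib
import Fermat.Agent.MP.NORMP_helper3_HostP
import Fermat.Agent.MP.HECKERO_helper6_Comap
import Fermat.Agent.MP.ELIM_helper3_Abs

set_option autoImplicit false
set_option linter.unusedSectionVars false
set_option linter.style.haveILetI false

namespace Fermat.Agent.MP

open ModularCurve AlgebraicCurve IntermediateField Fermat.Agent.X0N Fermat.Agent.Igusa
  Fermat.Agent.JA Fermat.Agent.SS Fermat.Agent.FG Fermat.Agent.MP.RQ4Q IsLocalRing Polynomial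

local notation "Ω" => AlgebraicClosure ℚ

noncomputable section

section Host

variable {p : ℕ} [Fact p.Prime] {A : ValuationSubring Ω} (hA : A.LiesOverPrime p)
  (M : ℕ) [NeZero M] (hp2 : p ≠ 2) (ℓ : ℕ) [NeZero ℓ] [NeZero (M * ℓ)]
  (hℓ : ℓ.Prime) (hℓ2 : ℓ ≠ 2)

/-- **the reduced Hecke operator** `T̄_ℓ = N_ᾱ ∘ β̄` on `legEt hA M hp2`. -/
def legEtT : legEt hA M hp2 →* legEt hA M hp2 where
  toFun z := normAlong (legEtA hA M hp2 ℓ) (legEtB hA M hp2 ℓ hℓ hℓ2 z)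
  map_one' := by
    letI := algebraAlong (legEtA hA M hp2 ℓ)
    show Algebra.norm (legEt hA M hp2) (legEtB hA M hp2 ℓ hℓ hℓ2 1) = 1
    rw [map_one, map_one]
  map_mul' x y := by
    letI := algebraAlong (legEtA hA M hp2 ℓ)
    show Algebra.norm (legEt hA M hp2) (legEtB hA M hp2 ℓ hℓ hℓ2 (x * y)) =
      Algebra.norm (legEt hA M hp2) (legEtB hA M hp2 ℓ hℓ hℓ2 x) *
        Algebra.norm (legEt hA M hp2) (legEtB hA M hp2 ℓ hℓ hℓ2 y)
    rw [map_mul, map_mul]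

theorem legEtT_apply (z : legEt hA M hp2) :
    legEtT hA M hp2 ℓ hℓ hℓ2 z =
      normAlong (legEtA hA M hp2 ℓ) (legEtB hA M hp2 ℓ hℓ hℓ2 z) := rfl

theorem legEtT_apply' (z : legEt hA M hp2) :
    legEtT hA M hp2 ℓ hℓ hℓ2 z =
      (letI := (legEtA hA M hp2 ℓ).toRingHom.toAlgebra
       Algebra.norm (legEt hA M hp2) (legEtB hA M hp2 ℓ hℓ hℓ2 z)) := rfl

/-- **[PDIV] for the reduced Hecke operator.** -/
theorem legEtT_pdiv (hpM : ¬ p ∣ M) (hpMℓ : ¬ p ∣ M * ℓ)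
    (hfin : FiniteAlong (ResidueField ↥A) (legEtA hA M hp2 ℓ))
    (hsep : letI := algebraAlong (legEtA hA M hp2 ℓ)
      Algebra.IsSeparable (legEt hA M hp2) (legEt hA (M * ℓ) hp2))
    (m : ℤ) (z : legEt hA M hp2) (hz : z ≠ 0)
    (h : ∀ Q : Place (ResidueField ↥A) (legEt hA M hp2),
      legJt M hA hp2 ∈ Q.toValuationSubring → m ∣ Q.ord z)
    (Q : Place (ResidueField ↥A) (legEt hA M hp2))
    (hQ : legJt M hA hp2 ∈ Q.toValuationSubring) :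
    m ∣ Q.ord (legEtT hA M hp2 ℓ hℓ hℓ2 z) :=
  legEt_dvd_ord_normAlong M ℓ hℓ hℓ2 hA hp2 hpM hpMℓ (legEtA hA M hp2 ℓ)
    (legEtB hA M hp2 ℓ hℓ hℓ2)
    (legEtA_legρ hA M hp2 ℓ _ _ _) (legEtB_legρ hA M hp2 ℓ hℓ hℓ2 _ _ _) hfin hsep m hz h Q hQ

/-- **[ELIM] on the reduced Legendre host.** -/
theorem legEt_elim (hpM : ¬ p ∣ M) (hpMℓ : ¬ p ∣ M * ℓ)
    (hfin : FiniteAlong (ResidueField ↥A) (legEtA hA M hp2 ℓ))
    (hsep : letI := algebraAlong (legEtA hA M hp2 ℓ)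
      Algebra.IsSeparable (legEt hA M hp2) (legEt hA (M * ℓ) hp2))
    {F U : legEt hA M hp2} (hF : F ≠ 0) (hU : U ≠ 0) (a b : ℤ) (hab : ¬ (p : ℤ) ∣ a - b)
    (hTF : ∃ (c : ResidueField ↥A) (u : legEt hA M hp2), c ≠ 0 ∧ u ≠ 0 ∧
      legEtT hA M hp2 ℓ hℓ hℓ2 F = algebraMap (ResidueField ↥A) (legEt hA M hp2) c * F ^ a * u ^ p)
    (hTU : ∃ c : ResidueField ↥A, c ≠ 0 ∧
      legEtT hA M hp2 ℓ hℓ hℓ2 U = algebraMap (ResidueField ↥A) (legEt hA M hp2) c * U ^ b)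
    (x kk KK : Place (ResidueField ↥A) (legEt hA M hp2) → ℤ)
    (hordF : ∀ Q : Place (ResidueField ↥A) (legEt hA M hp2),
      legJt M hA hp2 ∈ Q.toValuationSubring → (p : ℤ) ∣ Q.ord F - kk Q * x Q)
    (hordU : ∀ Q : Place (ResidueField ↥A) (legEt hA M hp2),
      legJt M hA hp2 ∈ Q.toValuationSubring → (p : ℤ) ∣ Q.ord U - KK Q * x Q)
    (hprop : ∀ Q Q' : Place (ResidueField ↥A) (legEt hA M hp2),
      legJt M hA hp2 ∈ Q.toValuationSubring → legJt M hA hp2 ∈ Q'.toValuationSubring →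
        (p : ℤ) ∣ kk Q * KK Q' - kk Q' * KK Q)
    (Q₀ : Place (ResidueField ↥A) (legEt hA M hp2))
    (hQ₀ : legJt M hA hp2 ∈ Q₀.toValuationSubring) :
    (p : ℤ) ∣ Q₀.ord F ∨ (p : ℤ) ∣ KK Q₀ :=
  elim_dvd_ord_or_dvd p (Fact.out : p.Prime)
    (fun Q => legJt M hA hp2 ∈ Q.toValuationSubring) (legEtT hA M hp2 ℓ hℓ hℓ2)
    (fun z hz h Q hQ => legEtT_pdiv hA M hp2 ℓ hℓ hℓ2 hpM hpMℓ hfin hsep (p : ℤ) z hz h Q hQ)
    hF hU a b hab hTF hTU x kk KK hordF hordU hprop Q₀ hQ₀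

end Host

end

end Fermat.Agent.MP
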