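import Mathlib
import Fermat.Agent.NP.GLOB_helper5_Main
import Fermat.Agent.NP.HOSTP_helper5_Sheets
import Fermat.Agent.SS.XFER_helper3

/-!
# Project MP40 — C4 [PL-HOST] helper6, [GLOB]: global regularity modulo `π` on one sheet

`W` a valuation subring of `E` restricting to the Gauss valuation at `u` with `𝔪_W = π W`
(one sheet of a model with possibly several sheets).  An element `z ∈ W` which is congruent
modulo `π W` to an element of the local ring at every closed point of the chart `u` lying on the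
sheet `W`, and at every closed point of the chart `u⁻¹` on `W` at which `u⁻¹` vanishes, is
constant modulo `π W`.

* `exists_chart_rep_of_local_sheet` : local to global on one chart, closed points of one sheet;
* `exists_const_of_two_charts_of_gauss` : `(B₁ + 𝔪_W) ∩ (B₂ + 𝔪_W) = R + 𝔪_W` (helper5's
  `GeoHyps.exists_const_of_two_charts` without good reduction);
* `glob_of_gauss` : the abstract statement;
* `SSModel.glob_inf`, `SSModel.glob_zero` : the two sheets of an `SSModel`.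
-/

set_option autoImplicit false
set_option linter.unusedSectionVars false
set_option linter.unusedVariables false
set_option linter.style.haveILetI false

open Polynomial

namespace Fermat.Agent.MP

open Fermat.Agent.NP Fermat.Agent.SS Fermat.Agent.JA Fermat.Agent.FF

section Cover

variable {R : Type*} [CommRing R] {F : Type*} [Field F] [Algebra R F]

/-- **from local to global on one chart, along one sheet**: `𝔭 ⊂ B` an ideal with `𝔭 ⊂ π W`;
`s ∈ W` which is congruent modulo `π W` to an element of `B_𝔫` for every maximal ideal `𝔫 ⊇ 𝔭`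
of the chart `B ⊂ W` is congruent to an element of `B`. -/
theorem exists_chart_rep_of_local_sheet (B : Subalgebra R F) (W : Subring F)
    (hBW : ∀ b : ↥B, (b : F) ∈ W) (π : R) (𝔭 : Ideal ↥B)
    (h𝔭 : ∀ b ∈ 𝔭, PiDvd (algebraMap R F π) W 1 ((b : ↥B) : F)) {s : F} (hs : s ∈ W)
    (hloc : ∀ (𝔫 : Ideal ↥B) [𝔫.IsMaximal], 𝔭 ≤ 𝔫 →
      ∃ r ∈ locSub B 𝔫, PiDvd (algebraMap R F π) W 1 (s - r)) :
    ∃ y : ↥B, PiDvd (algebraMap R F π) W 1 (s - (y : F)) := by
  set I : Ideal ↥B :=
    { carrier := {b | ∃ y : ↥B, PiDvd (algebraMap R F π) W 1 ((b : F) * s - (y : F))}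
      add_mem' := by
        rintro a b ⟨y, w, hw, e⟩ ⟨y', w', hw', e'⟩
        refine ⟨y + y', w + w', W.add_mem hw hw', ?_⟩
        push_cast
        linear_combination e + e'
      zero_mem' := ⟨0, 0, W.zero_mem, by simp⟩
      smul_mem' := by
        rintro c b ⟨y, w, hw, e⟩
        refine ⟨c * y, (c : F) * w, W.mul_mem (hBW c) hw, ?_⟩
        rw [smul_eq_mul]
        push_cast
        linear_combination (c : F) * e } with hI
  have h𝔭I : 𝔭 ≤ I := by
    intro b hb
    obtain ⟨w, hw, e⟩ := h𝔭 b hb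
    refine ⟨0, w * s, W.mul_mem hw hs, ?_⟩
    push_cast
    linear_combination s * e
  have htop : I = ⊤ := by
    by_contra hne
    obtain ⟨𝔫, h𝔫, hle⟩ := Ideal.exists_le_maximal I hne
    haveI := h𝔫
    obtain ⟨r, ⟨a, d, hd, hrd⟩, w, hw, e⟩ := hloc 𝔫 (h𝔭I.trans hle)
    apply hd
    apply hle
    refine ⟨a, (d : F) * w, W.mul_mem (hBW d) hw, ?_⟩
    rw [← hrd]
    linear_combination (d : F) * e
  have h1 : (1 : ↥B) ∈ I := by rw [htop]; trivial
  obtain ⟨y, hy⟩ := h1
  refine ⟨y, ?_⟩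
  simpa using hy

end Cover

section Glob

variable {R : Type*} [CommRing R] [IsDomain R] [IsDiscreteValuationRing R] [CharZero R]
  {K₁ : Type*} [Field K₁] [Algebra R K₁] [IsFractionRing R K₁]
  {K : Type*} [Field K] [Algebra K₁ K] [Algebra R K] [IsScalarTower R K₁ K]
  {E : Type*} [Field E] [Algebra K E] [Algebra R E] [IsScalarTower R K E] [FiniteDimensional K E]
  {π : R} {u : K}

omit [IsDomain R] [IsDiscreteValuationRing R] [CharZero R] [FiniteDimensional K E] in
/-- `π` is a non-unit of a valuation subring lying over a Gauss valuation subring. -/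
theorem valuation_pi_lt_one_of_isGaussAt (W : ValuationSubring E)
    (hG : IsGaussAt R π u (W.comap (algebraMap K E))) :
    W.valuation (algebraMap R E π) < 1 := by
  have hmem : algebraMap R E π ∈ W := by
    have h1 := hG.1 (Polynomial.C π)
    rw [Polynomial.aeval_C] at h1
    have h2 : algebraMap K E (algebraMap R K π) ∈ W := h1
    rwa [← IsScalarTower.algebraMap_apply R K E] at h2
  have hinv : (algebraMap R E π)⁻¹ ∉ W := by
    intro hmem'
    apply hG.2.1
    show algebraMap K E (algebraMap R K π)⁻¹ ∈ W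
    rwa [map_inv₀, ← IsScalarTower.algebraMap_apply R K E]
  rcases lt_or_eq_of_le ((ValuationSubring.valuation_le_one_iff _ _).mpr hmem) with h1 | h1
  · exact h1
  · exfalso
    apply hinv
    rw [← ValuationSubring.valuation_le_one_iff, map_inv₀, h1, inv_one]

/-- **`(B₁ + 𝔪_W) ∩ (B₂ + 𝔪_W) = R + 𝔪_W`** for a valuation subring `W` lying over the Gauss
valuation subring. -/
theorem exists_const_of_two_charts_of_gauss [IsAlgClosed (IsLocalRing.ResidueField R)]
    (hπ : Irreducible π) (hu : Transcendental K₁ u) (VM : ValuationSubring E)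
    (hG : IsGaussAt R π u (VM.comap (algebraMap K E)))
    {x₁ x₂ : E} (hx₁ : x₁ ∈ chartOne R E u) (hx₂ : x₂ ∈ chartOne R E u⁻¹)
    (hx : VM.valuation (x₁ - x₂) < 1) :
    ∃ a : R, VM.valuation (x₁ - algebraMap R E a) < 1 := by
  have hG' : IsGaussAt R π u⁻¹ (VM.comap (algebraMap K E)) := isGaussAt_inv π hπ.prime u _ hG
  have hB₁ : ∀ b ∈ chartOne R E u, b ∈ VM := chart_le_of_isGaussAt hG
  have hB₂ : ∀ b ∈ chartOne R E u⁻¹, b ∈ VM := chart_le_of_isGaussAt hG'
  have hRV : ∀ r : R, algebraMap R E r ∈ VM := fun r =>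
    hB₁ _ ((chartOne R E u).algebraMap_mem r)
  have hu0 : u ≠ 0 := by
    rintro rfl
    exact hu isAlgebraic_zero
  -- `π` is a non-unit of `VM`
  have hπV : VM.valuation (algebraMap R E π) < 1 := valuation_pi_lt_one_of_isGaussAt VM hG
  -- the base map `R → VM` is local
  set f₀ : R →+* ↥VM := (algebraMap R E).codRestrict VM.toSubring hRV with hf₀
  haveI : IsLocalHom f₀ := by
    refine ⟨fun r hr => ?_⟩
    by_contra hnu
    have hmem : r ∈ IsLocalRing.maximalIdeal R := (IsLocalRing.mem_maximalIdeal _).2 hnu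
    rw [hπ.maximalIdeal_eq, Ideal.mem_span_singleton] at hmem
    obtain ⟨r', rfl⟩ := hmem
    have h1 : VM.valuation (algebraMap R E (π * r')) < 1 := by
      rw [map_mul, map_mul]
      calc VM.valuation (algebraMap R E π) * VM.valuation (algebraMap R E r')
          ≤ VM.valuation (algebraMap R E π) * 1 :=
            mul_le_mul_right ((ValuationSubring.valuation_le_one_iff VM _).2 (hRV r')) _
        _ < 1 := by rw [mul_one]; exact hπV
    have h2 : VM.valuation ((f₀ (π * r') : ↥VM) : E) = 1 :=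
      (ValuationSubring.valuation_eq_one_iff VM _).1 hr
    have h3 : ((f₀ (π * r') : ↥VM) : E) = algebraMap R E (π * r') := rfl
    rw [h3] at h2
    exact absurd h2 (ne_of_lt h1)
  letI : Algebra (IsLocalRing.ResidueField R) (IsLocalRing.ResidueField ↥VM) :=
    (IsLocalRing.ResidueField.map f₀).toAlgebra
  set φ : ↥VM →+* IsLocalRing.ResidueField ↥VM := IsLocalRing.residue ↥VM with hφ
  set ρ : R →+* IsLocalRing.ResidueField R := IsLocalRing.residue R with hρ
  have hcomp : ∀ r, φ (f₀ r) = algebraMap (IsLocalRing.ResidueField R)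
      (IsLocalRing.ResidueField ↥VM) (ρ r) := fun r =>
    (IsLocalRing.ResidueField.map_residue f₀ r).symm
  -- the coordinate
  have htV : algebraMap K E u ∈ VM := hB₁ _ (algebraMap_coord_mem_chartOne u)
  have htV' : (algebraMap K E u)⁻¹ ∈ VM := by
    have := hB₂ _ (algebraMap_coord_mem_chartOne (R := R) (E := E) u⁻¹)
    rwa [map_inv₀] at this
  have ht0 : algebraMap K E u ≠ 0 := by
    rw [Ne, map_eq_zero]
    exact hu0
  set tV : ↥VM := ⟨algebraMap K E u, htV⟩ with htVdef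
  set tV' : ↥VM := ⟨(algebraMap K E u)⁻¹, htV'⟩ with htV'def
  have hφinv : φ tV' = (φ tV)⁻¹ := by
    apply eq_inv_of_mul_eq_one_right
    rw [← map_mul]
    have : tV * tV' = 1 := Subtype.ext (mul_inv_cancel₀ ht0)
    rw [this, map_one]
  have hx₁V : x₁ ∈ VM := hB₁ _ hx₁
  have hx₂V : x₂ ∈ VM := hB₂ _ hx₂
  have hφx : φ ⟨x₁, hx₁V⟩ = φ ⟨x₂, hx₂V⟩ := by
    rw [← sub_eq_zero, ← map_sub, IsLocalRing.residue_eq_zero_iff]
    exact (ValuationSubring.valuation_lt_one_iff VM (⟨x₁, hx₁V⟩ - ⟨x₂, hx₂V⟩)).2 hx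
  -- evaluation of polynomials in `VM`
  have hev : ∀ (v : ↥VM) (g : R[X]), ((Polynomial.eval₂ f₀ v g : ↥VM) : E) = aeval (v : E) g := by
    intro v g
    have := Polynomial.hom_eval₂ g f₀ VM.subtype v
    rw [Polynomial.aeval_def]
    exact this
  -- transcendence of the reduction of the coordinate
  have htR : Transcendental R u :=
    hu.restrictScalars (IsFractionRing.injective R K₁)
  have hτ : Transcendental (IsLocalRing.ResidueField R) (φ tV) := by
    rintro ⟨pbar, hp0, hpe⟩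
    obtain ⟨p, rfl⟩ := Polynomial.map_surjective ρ IsLocalRing.residue_surjective pbar
    have hnd : ¬ (C π ∣ p) := by
      rintro ⟨q, rfl⟩
      apply hp0
      rw [Polynomial.map_mul, Polynomial.map_C]
      have : ρ π = 0 := (IsLocalRing.residue_eq_zero_iff π).2
        (by rw [hπ.maximalIdeal_eq]; exact Ideal.subset_span (Set.mem_singleton _))
      rw [this, C_0, zero_mul]
    have hp00 : p ≠ 0 := by
      rintro rfl
      exact hp0 (Polynomial.map_zero ρ)
    have hne : aeval u p ≠ 0 := fun h0 => hp00 (transcendental_iff.1 htR p h0)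
    have hunit : (aeval u p)⁻¹ ∈ VM.comap (algebraMap K E) := hG.2.2 p hnd
    have h2 : (aeval (algebraMap K E u) p)⁻¹ ∈ VM := by
      have : algebraMap K E (aeval u p)⁻¹ ∈ VM := hunit
      rwa [map_inv₀, ← Polynomial.aeval_algebraMap_apply] at this
    have hneE : aeval (algebraMap K E u) p ≠ 0 := by
      rw [Polynomial.aeval_algebraMap_apply, Ne, map_eq_zero]
      exact hne
    have h3 : φ (Polynomial.eval₂ f₀ tV p) = 0 := by
      rw [Polynomial.hom_eval₂]
      have hc : φ.comp f₀ = (algebraMap (IsLocalRing.ResidueField R)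
          (IsLocalRing.ResidueField ↥VM)).comp ρ := RingHom.ext hcomp
      rw [hc, ← Polynomial.eval₂_map, ← Polynomial.aeval_def]
      exact hpe
    rw [IsLocalRing.residue_eq_zero_iff] at h3
    have h4 := (ValuationSubring.valuation_lt_one_iff VM _).1 h3
    rw [hev] at h4
    have h5 : VM.valuation (aeval (algebraMap K E u) p)⁻¹ ≤ 1 :=
      (ValuationSubring.valuation_le_one_iff VM _).2 h2
    rw [map_inv₀] at h5
    have h6 : VM.valuation (aeval (algebraMap K E u) p) ≠ 0 := (_root_.map_ne_zero _).2 hneE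
    have h7 := (inv_le_one₀ (zero_lt_iff.2 h6)).1 h5
    exact absurd h4 (not_lt.2 h7)
  -- integrality of the reduction of `x₁` over `k[τ]` and over `k[τ⁻¹]`
  have hint₁ : IsIntegral ↥(Algebra.adjoin (IsLocalRing.ResidueField R) {φ tV})
      (φ ⟨x₁, hx₁V⟩) := by
    obtain ⟨d, f, hrel⟩ := exists_monic_relation_of_mem_chartOne u hx₁
    refine isIntegral_adjoin_of_relation φ ρ f₀ hcomp tV ⟨x₁, hx₁V⟩ d f ?_
    apply Subtype.ext
    push_cast
    simp only [hev]
    exact hrel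
  have hint₂ : IsIntegral ↥(Algebra.adjoin (IsLocalRing.ResidueField R) {(φ tV)⁻¹})
      (φ ⟨x₁, hx₁V⟩) := by
    obtain ⟨d, f, hrel⟩ := exists_monic_relation_of_mem_chartOne u⁻¹ hx₂
    rw [hφx, ← hφinv]
    refine isIntegral_adjoin_of_relation φ ρ f₀ hcomp tV' ⟨x₂, hx₂V⟩ d f ?_
    apply Subtype.ext
    push_cast
    simp only [hev]
    rw [map_inv₀] at hrel
    exact hrel
  obtain ⟨rbar, hrbar⟩ := exists_algebraMap_eq_of_isIntegral_adjoin_both (φ tV) hτ _ hint₁ hint₂
  obtain ⟨a, rfl⟩ := IsLocalRing.residue_surjective rbar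
  refine ⟨a, ?_⟩
  have h8 : φ (⟨x₁, hx₁V⟩ - f₀ a) = 0 := by
    rw [map_sub, hcomp, hrbar, sub_self]
  rw [IsLocalRing.residue_eq_zero_iff] at h8
  exact (ValuationSubring.valuation_lt_one_iff VM (⟨x₁, hx₁V⟩ - f₀ a)).1 h8

/-- **(GLOB) on one sheet.** -/
theorem glob_of_gauss [IsAlgClosed (IsLocalRing.ResidueField R)]
    (hπ : Irreducible π) (hu : Transcendental K₁ u) (hK : IntermediateField.adjoin K₁ {u} = ⊤)
    (W : ValuationSubring E) (hG : IsGaussAt R π u (W.comap (algebraMap K E)))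
    (hG' : IsGaussAt R π u⁻¹ (W.comap (algebraMap K E)))
    (he : ∀ x : E, W.valuation x < 1 → x * (algebraMap R E π)⁻¹ ∈ W)
    {z : E} (hz : z ∈ W)
    (h1 : ∀ (𝔪 : Ideal ↥(chartOne R E u)) [𝔪.IsMaximal],
      sheetIdeal u W (chart_le_of_isGaussAt hG) ≤ 𝔪 →
      ∃ r ∈ locSub (chartOne R E u) 𝔪, PiDvd (algebraMap R E π) W.toSubring 1 (z - r))
    (h2 : ∀ (𝔪 : Ideal ↥(chartOne R E u⁻¹)) [𝔪.IsMaximal],
      sheetIdeal u⁻¹ W (chart_le_of_isGaussAt hG') ≤ 𝔪 →
      (⟨algebraMap K E u⁻¹, algebraMap_coord_mem_chartOne u⁻¹⟩ : ↥(chartOne R E u⁻¹)) ∈ 𝔪 →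
      ∃ r ∈ locSub (chartOne R E u⁻¹) 𝔪, PiDvd (algebraMap R E π) W.toSubring 1 (z - r)) :
    ∃ a : R, PiDvd (algebraMap R E π) W.toSubring 1 (z - algebraMap R E a) := by
  have hB₁ : ∀ b ∈ chartOne R E u, b ∈ W := chart_le_of_isGaussAt hG
  have hB₂ : ∀ b ∈ chartOne R E u⁻¹, b ∈ W := chart_le_of_isGaussAt hG'
  have hu0 : u ≠ 0 := by
    rintro rfl
    exact hu isAlgebraic_zero
  have hu' : Transcendental K₁ u⁻¹ := transcendental_inv_of_transcendental hu
  have hK' : IntermediateField.adjoin K₁ {u⁻¹} = ⊤ := adjoin_inv_eq_top hK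
  have hπV : W.valuation (algebraMap R E π) < 1 := valuation_pi_lt_one_of_isGaussAt W hG
  have hπ0 : algebraMap R E π ≠ 0 := by
    intro h0
    have h3 := (valuation_pi_lt_one_of_isGaussAt W hG)
    have : (algebraMap R K π)⁻¹ ∈ W.comap (algebraMap K E) := by
      show algebraMap K E (algebraMap R K π)⁻¹ ∈ W
      rw [map_inv₀, ← IsScalarTower.algebraMap_apply R K E, h0, inv_zero]
      exact W.zero_mem
    exact hG.2.1 this
  -- divisibility by `π` in `W`
  have hdvd : ∀ x : E, W.valuation x < 1 → PiDvd (algebraMap R E π) W.toSubring 1 x := by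
    intro x hx
    refine ⟨x * (algebraMap R E π)⁻¹, he x hx, ?_⟩
    rw [pow_one]
    field_simp
  have hval : ∀ x : E, PiDvd (algebraMap R E π) W.toSubring 1 x → W.valuation x < 1 := by
    rintro x ⟨w, hw, rfl⟩
    rw [pow_one, map_mul]
    calc W.valuation (algebraMap R E π) * W.valuation w
        ≤ W.valuation (algebraMap R E π) * 1 :=
          mul_le_mul_right ((ValuationSubring.valuation_le_one_iff W _).2 hw) _
      _ < 1 := by rw [mul_one]; exact hπV
  -- chart `u`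
  obtain ⟨y₁, hy₁⟩ := exists_chart_rep_of_local_sheet (chartOne R E u) W.toSubring
    (fun b => hB₁ _ b.2) π (sheetIdeal u W hB₁)
    (fun b hb => hdvd _ ((mem_sheetIdeal_iff u W hB₁ b).mp hb)) hz h1
  -- chart `u⁻¹`
  have hπ𝔭₂ : algebraMap R ↥(chartOne R E u⁻¹) π ∈ sheetIdeal u⁻¹ W hB₂ := by
    rw [mem_sheetIdeal_iff]
    exact hπV
  obtain ⟨y₂, hy₂⟩ := exists_chart_rep_of_local_sheet (chartOne R E u⁻¹) W.toSubring
    (fun b => hB₂ _ b.2) π (sheetIdeal u⁻¹ W hB₂)
    (fun b hb => hdvd _ ((mem_sheetIdeal_iff u⁻¹ W hB₂ b).mp hb)) hz (by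
      intro 𝔫 h𝔫 hle
      by_cases hx : (⟨algebraMap K E u⁻¹, algebraMap_coord_mem_chartOne u⁻¹⟩ :
          ↥(chartOne R E u⁻¹)) ∈ 𝔫
      · exact h2 𝔫 hle hx
      · haveI := h𝔫.isPrime
        have hle' : chartOne R E u ≤ locRing (chartOne R E u⁻¹) 𝔫 :=
          chartOne_le_locRing_inv u hu0 𝔫 hx
        obtain ⟨hL, hM⟩ := locRing_chartOne_inv_eq (R := R) (E := E) u hu0 𝔫 hx
        have hres : ∀ b : ↥(chartOne R E u⁻¹),
            ∃ c : R, b - algebraMap R ↥(chartOne R E u⁻¹) c ∈ 𝔫 :=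
          exists_sub_mem_of_isMaximal_chartOne (K₁ := K₁) hπ hu' hK' 𝔫 (hle hπ𝔭₂)
        obtain ⟨hmax₁, -⟩ := locComap_isMaximal hres hle'
        haveI := hmax₁
        have hiff : sheetIdeal u W hB₁ ≤ locComap (chartOne R E u⁻¹) 𝔫 (chartOne R E u) hle' ↔
            sheetIdeal u⁻¹ W hB₂ ≤ 𝔫 :=
          sheet_le_iff_of_locRing_eq hL hM hB₁ hB₂
            (mem_sheetIdeal_iff u W hB₁) (mem_sheetIdeal_iff u⁻¹ W hB₂)
        obtain ⟨r, hr, hzr⟩ := h1 _ (hiff.mpr hle)
        refine ⟨r, ?_, hzr⟩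
        have hr' : r ∈ locRing (chartOne R E u)
            (locComap (chartOne R E u⁻¹) 𝔫 (chartOne R E u) hle') := hr
        rw [hL] at hr'
        exact hr')
  -- the two representatives agree modulo `π`
  have hx : W.valuation ((y₁ : E) - (y₂ : E)) < 1 := by
    have e : (y₁ : E) - (y₂ : E) = (z - (y₂ : E)) - (z - (y₁ : E)) := by ring
    rw [e]
    exact lt_of_le_of_lt (Valuation.map_sub _ _ _) (max_lt (hval _ hy₂) (hval _ hy₁))
  obtain ⟨a, ha⟩ := exists_const_of_two_charts_of_gauss (K₁ := K₁) hπ hu W hG y₁.2 y₂.2 hx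
  refine ⟨a, hdvd _ ?_⟩
  have e : z - algebraMap R E a = (z - (y₁ : E)) + ((y₁ : E) - algebraMap R E a) := by ring
  rw [e]
  exact lt_of_le_of_lt (Valuation.map_add _ _ _) (max_lt (hval _ hy₁) ha)

end Glob

section LevelN

variable {R : Type*} [CommRing R] [IsDomain R] [IsDiscreteValuationRing R] [CharZero R]
  {K₁ : Type*} [Field K₁] [Algebra R K₁] [IsFractionRing R K₁]
  {KM : Type*} [Field KM] [Algebra K₁ KM] [Algebra R KM] [IsScalarTower R K₁ KM]
  {EM : Type*} [Field EM] [Algebra KM EM] [Algebra K₁ EM] [IsScalarTower K₁ KM EM] [Algebra R EM]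
  [IsScalarTower R KM EM]
  {KN : Type*} [Field KN] [Algebra K₁ KN] [Algebra R KN] [IsScalarTower R K₁ KN]
  {EN : Type*} [Field EN] [Algebra KN EN] [Algebra K₁ EN] [IsScalarTower K₁ KN EN] [Algebra R EN]
  [IsScalarTower R KN EN] [FiniteDimensional KN EN]
  {π : R} {q n : ℕ} {S : Finset R} {t : KM} {jM : EM} {j : KN} {A B : EM →+* EN}
  {VM : ValuationSubring EM} {Winf W0 : ValuationSubring EN}
  [IsAlgClosed (IsLocalRing.ResidueField R)]

/-- **(GLOB) on the sheet `∞` of an `SSModel`.** -/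
theorem SSModel.glob_inf (h : SSModel K₁ π q n S t jM j A B VM Winf W0) (hπ : Irreducible π)
    {z : EN} (hz : z ∈ Winf)
    (h1 : ∀ (𝔪 : Ideal ↥(chartOne R EN j)) [𝔪.IsMaximal],
      sheetIdeal j Winf h.two.chart_le_inf ≤ 𝔪 →
      ∃ r ∈ locSub (chartOne R EN j) 𝔪, PiDvd (algebraMap R EN π) Winf.toSubring 1 (z - r))
    (h2 : ∀ (𝔪 : Ideal ↥(chartOne R EN j⁻¹)) [𝔪.IsMaximal],
      sheetIdeal j⁻¹ Winf (h.two.inv hπ).chart_le_inf ≤ 𝔪 →
      (⟨algebraMap KN EN j⁻¹, algebraMap_coord_mem_chartOne j⁻¹⟩ : ↥(chartOne R EN j⁻¹)) ∈ 𝔪 →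
      ∃ r ∈ locSub (chartOne R EN j⁻¹) 𝔪, PiDvd (algebraMap R EN π) Winf.toSubring 1 (z - r)) :
    ∃ a : R, PiDvd (algebraMap R EN π) Winf.toSubring 1 (z - algebraMap R EN a) :=
  glob_of_gauss (K₁ := K₁) hπ h.j_transcendental h.j_adjoin Winf h.two.gauss_inf
    (h.two.inv hπ).gauss_inf h.two.e_inf hz h1 h2

/-- **(GLOB) on the sheet `0` of an `SSModel`.** -/
theorem SSModel.glob_zero (h : SSModel K₁ π q n S t jM j A B VM Winf W0) (hπ : Irreducible π)
    {z : EN} (hz : z ∈ W0)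
    (h1 : ∀ (𝔪 : Ideal ↥(chartOne R EN j)) [𝔪.IsMaximal],
      sheetIdeal j W0 h.two.chart_le_zero ≤ 𝔪 →
      ∃ r ∈ locSub (chartOne R EN j) 𝔪, PiDvd (algebraMap R EN π) W0.toSubring 1 (z - r))
    (h2 : ∀ (𝔪 : Ideal ↥(chartOne R EN j⁻¹)) [𝔪.IsMaximal],
      sheetIdeal j⁻¹ W0 (h.two.inv hπ).chart_le_zero ≤ 𝔪 →
      (⟨algebraMap KN EN j⁻¹, algebraMap_coord_mem_chartOne j⁻¹⟩ : ↥(chartOne R EN j⁻¹)) ∈ 𝔪 →
      ∃ r ∈ locSub (chartOne R EN j⁻¹) 𝔪, PiDvd (algebraMap R EN π) W0.toSubring 1 (z - r)) :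
    ∃ a : R, PiDvd (algebraMap R EN π) W0.toSubring 1 (z - algebraMap R EN a) :=
  glob_of_gauss (K₁ := K₁) hπ h.j_transcendental h.j_adjoin W0 h.two.gauss_zero
    (h.two.inv hπ).gauss_zero h.two.e_zero hz h1 h2

end LevelN

end Fermat.Agent.MP
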