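import Mathlib
import Fermat.Agent.MP.PLHOST_helper6_Loc
import Fermat.Agent.MP.PLHOST_helper9_Defs
import Fermat.Agent.NP.HOSTP_helper5_Sheets
import Fermat.Agent.SS.EXPORT_helper4_Model

/-!
# Project MP40 — C4 [PL-HOST] helper6, [NODE]: the node layer of `SSModel → PLData`

At a node `𝔪` of the chart `j` of an `SSModel` (any `S`) with a node coordinate in normal form
`IsNodeCoord π … 𝔪 X m`:

* `SSModel.kron_isBranchUniformizer` : the Kronecker element `B t - (A t) ^ q` is a uniformizer of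
  the branch `0` at `𝔪` lying on the branch `∞`;
* `SSModel.exists_localPt_node` : the `LocalPt` (helper5's `chartLocalPtNode`) with
  `R' = locSub (chartOne R EN j) 𝔪`, sheets `Sinf`, `S0`, the second coordinate `Y` with
  `X Y = π ^ m`, `X ∈ W∞ˣ`, `Y ∈ W0ˣ`, the two branch ideals `(π, Y)`, `(π, X)` and the Kronecker
  element `= unit · Y mod π`.
-/

set_option autoImplicit false
set_option linter.unusedSectionVars false
set_option linter.unusedVariables false
set_option linter.style.haveILetI false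

open AlgebraicCurve

namespace Fermat.Agent.MP

open Fermat.Agent.NP Fermat.Agent.SS Fermat.Agent.JA Fermat.Agent.FF Fermat.Agent.MW.NAdic

section LevelN

attribute [local instance] locAlgebra

variable {R : Type*} [CommRing R] [IsDomain R] [IsDiscreteValuationRing R] [CharZero R]
  {K₁ : Type*} [Field K₁] [Algebra R K₁] [IsFractionRing R K₁]
  {KM : Type*} [Field KM] [Algebra K₁ KM] [Algebra R KM] [IsScalarTower R K₁ KM]
  {EM : Type*} [Field EM] [Algebra KM EM] [Algebra K₁ EM] [IsScalarTower K₁ KM EM] [Algebra R EM]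
  [IsScalarTower R KM EM]
  {KN : Type*} [Field KN] [Algebra K₁ KN] [Algebra R KN] [IsScalarTower R K₁ KN]
  {EN : Type*} [Field EN] [Algebra KN EN] [Algebra K₁ EN] [IsScalarTower K₁ KN EN] [Algebra R EN]
  [IsScalarTower R KN EN] [FiniteDimensional KN EN]
  {π : R} {q n : ℕ} {S : Finset R} {t : KM} {jM : EM} {j : KN} {A B : EM →+* EN}
  {VM : ValuationSubring EM} {Winf W0 : ValuationSubring EN}
  [IsAlgClosed (IsLocalRing.ResidueField R)]

omit [IsDomain R] [IsDiscreteValuationRing R] [CharZero R] [IsAlgClosed (IsLocalRing.ResidueField R)]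
  [FiniteDimensional KN EN] in
/-- the structure map of a chart is the inclusion. -/
theorem coe_algebraMap_chartOne (y : ↥(chartOne R EN j)) :
    algebraMap ↥(chartOne R EN j) EN y = (y : EN) := rfl

/-- the Kronecker element `B t - (A t) ^ q` lies in the chart `j`. -/
theorem SSModel.kron_mem_chartOne (h : SSModel K₁ π q n S t jM j A B VM Winf W0)
    (hπ : Irreducible π) :
    B (algebraMap KM EM t) - A (algebraMap KM EM t) ^ q ∈ chartOne R EN j :=
  (chartOne R EN j).sub_mem (h.B_t_mem (h.jq_mem_chartOne hπ))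
    ((chartOne R EN j).pow_mem h.A_t_mem q)

/-- **the Kronecker element is a uniformizer of the branch `0` at every node, and lies on the
branch `∞`.** -/
theorem SSModel.kron_isBranchUniformizer (h : SSModel K₁ π q n S t jM j A B VM Winf W0)
    (hπ : Irreducible π) (𝔪 : Ideal ↥(chartOne R EN j)) [h𝔪 : 𝔪.IsMaximal]
    (hinf : sheetIdeal j Winf h.two.chart_le_inf ≤ 𝔪)
    (h0 : sheetIdeal j W0 h.two.chart_le_zero ≤ 𝔪) :
    IsBranchUniformizer (sheetIdeal j W0 h.two.chart_le_zero) 𝔪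
      (⟨B (algebraMap KM EM t) - A (algebraMap KM EM t) ^ q, SSModel.kron_mem_chartOne h hπ⟩ :
        ↥(chartOne R EN j)) ∧
    (⟨B (algebraMap KM EM t) - A (algebraMap KM EM t) ^ q, SSModel.kron_mem_chartOne h hπ⟩ :
        ↥(chartOne R EN j)) ∈ sheetIdeal j Winf h.two.chart_le_inf := by
  haveI := h𝔪.isPrime
  have hu := h.j_transcendental
  have hK := h.j_adjoin
  have hjq := h.jq_mem_chartOne hπ
  obtain ⟨s', -, hs'int, -, hs'0, -⟩ := h.kron_t_zero
  obtain ⟨a, yA, sA, hsA, hyA, hbrA⟩ :=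
    h.exists_coord_sub_isBranchUniformizer_inf hu hK h.two 𝔪 hinf (le_locRing h.A_t_mem)
      (fun s₀ hs₀ => h.export_A_t_sub_notMem_locMax 𝔪 s₀ hs₀)
  obtain ⟨b, yB, sB, hsB, hyB, hbrB⟩ :=
    h.exists_coord_sub_isBranchUniformizer_zero hu hK h.two 𝔪 h0
      (le_locRing (h.B_t_mem hjq)) (fun s₀ hs₀ => h.export_B_t_sub_notMem_locMax hjq 𝔪 s₀ hs₀)
  set τA : ↥(chartOne R EN j) := ⟨A (algebraMap KM EM t), h.A_t_mem⟩ with hτA
  set τB : ↥(chartOne R EN j) := ⟨B (algebraMap KM EM t), h.B_t_mem hjq⟩ with hτB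
  set σ' : ↥(chartOne R EN j) := ⟨s', h.mem_chartOne_of_isIntegral_jq hjq hs'int⟩ with hσ'
  have hπ𝔪 : algebraMap R ↥(chartOne R EN j) π ∈ 𝔪 :=
    hinf (IsTwoSheet.pi_mem_inf (K₁ := K₁) h.two hπ)
  have hres := exists_sub_mem_of_isMaximal_chartOne (K₁ := K₁) hπ h.j_transcendental h.j_adjoin
    𝔪 hπ𝔪
  have hRinf : ∀ r : R, algebraMap R ↥(chartOne R EN j) r ∈ 𝔪 →
      algebraMap R ↥(chartOne R EN j) r ∈ sheetIdeal j Winf h.two.chart_le_inf := by
    intro r hr
    obtain ⟨c, rfl⟩ := algebraMap_mem_span_of_mem_maximal hπ 𝔪 hr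
    rw [map_mul]
    exact Ideal.mul_mem_right _ _ (IsTwoSheet.pi_mem_inf (K₁ := K₁) h.two hπ)
  have hR0 : ∀ r : R, algebraMap R ↥(chartOne R EN j) r ∈ 𝔪 →
      algebraMap R ↥(chartOne R EN j) r ∈ sheetIdeal j W0 h.two.chart_le_zero := by
    intro r hr
    obtain ⟨c, rfl⟩ := algebraMap_mem_span_of_mem_maximal hπ 𝔪 hr
    rw [map_mul]
    exact Ideal.mul_mem_right _ _ (IsTwoSheet.pi_mem_zero (K₁ := K₁) h.two hπ)
  obtain ⟨c, hc⟩ := Ideal.mem_span_singleton.mp h.q_mem
  have hqinf : ((q : ℕ) : ↥(chartOne R EN j)) ∈ sheetIdeal j Winf h.two.chart_le_inf := by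
    have : ((q : ℕ) : ↥(chartOne R EN j)) =
        algebraMap R ↥(chartOne R EN j) π * algebraMap R ↥(chartOne R EN j) c := by
      rw [← map_mul, ← hc, map_natCast]
    rw [this]
    exact Ideal.mul_mem_right _ _ (IsTwoSheet.pi_mem_inf (K₁ := K₁) h.two hπ)
  have hq0 : ((q : ℕ) : ↥(chartOne R EN j)) ∈ sheetIdeal j W0 h.two.chart_le_zero := by
    have : ((q : ℕ) : ↥(chartOne R EN j)) =
        algebraMap R ↥(chartOne R EN j) π * algebraMap R ↥(chartOne R EN j) c := by
      rw [← map_mul, ← hc, map_natCast]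
    rw [this]
    exact Ideal.mul_mem_right _ _ (IsTwoSheet.pi_mem_zero (K₁ := K₁) h.two hπ)
  have hx : τA - σ' ^ q ∈ sheetIdeal j W0 h.two.chart_le_zero := by
    rw [mem_sheetIdeal_iff]
    exact hs'0
  have hy : τB - τA ^ q ∈ sheetIdeal j Winf h.two.chart_le_inf := by
    rw [mem_sheetIdeal_iff]
    exact h.kron_t_inf
  have hyA' : (τA - algebraMap R ↥(chartOne R EN j) a) * sA = yA := by
    apply Subtype.ext
    rw [← hyA]
    rfl
  have hyB' : (τB - algebraMap R ↥(chartOne R EN j) b) * sB = yB := by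
    apply Subtype.ext
    rw [← hyB]
    rfl
  obtain ⟨-, h2⟩ := exists_node_uniformizers_of_kron hinf h0 h.q_prime hqinf hq0 hres hRinf hR0
    hx hy hsA hyA' hbrA hsB hyB' hbrB
  have e : (⟨B (algebraMap KM EM t) - A (algebraMap KM EM t) ^ q, SSModel.kron_mem_chartOne h hπ⟩ :
      ↥(chartOne R EN j)) = τB - τA ^ q := Subtype.ext rfl
  rw [e]
  exact ⟨h2, hy⟩

variable {p : ℕ} (hp : p.Prime) {e₁ : ℕ} (he₁ : 0 < e₁) {ε : Rˣ} (hpe : (p : R) = ε * π ^ e₁)

set_option maxHeartbeats 1600000 in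
/-- **the node layer of `SSModel → PLData`.** -/
theorem SSModel.exists_localPt_node (h : SSModel K₁ π q n S t jM j A B VM Winf W0)
    (hπ : Irreducible π) (𝔪 : Ideal ↥(chartOne R EN j)) [h𝔪 : 𝔪.IsMaximal]
    (hinf : sheetIdeal j Winf h.two.chart_le_inf ≤ 𝔪)
    (h0 : sheetIdeal j W0 h.two.chart_le_zero ≤ 𝔪) {X : EN} {m : ℕ}
    (hX : haveI := h𝔪.isPrime; IsNodeCoord π (isFractionRing_chartOne (K₁ := K₁) j h.j_adjoin)
      (sheetIdeal j Winf h.two.chart_le_inf) (sheetIdeal j W0 h.two.chart_le_zero) 𝔪 X m) :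
    haveI := h𝔪.isPrime
    ∃ (L : LocalPt (hostDepthBase K₁ KN EN hπ hp he₁ hpe) Bool) (Y : EN),
      L.R' = locSub (chartOne R EN j) 𝔪 ∧
      L.sheet true = SSModel.sheetInf hp he₁ hpe h hπ ∧
      L.sheet false = SSModel.sheetZero hp he₁ hpe h hπ ∧
      X ∈ L.R' ∧ Y ∈ L.R' ∧ X * Y = algebraMap R EN π ^ m ∧
      IsUnitIn Winf.toSubring X ∧ IsUnitIn W0.toSubring Y ∧
      (∀ x ∈ L.R', PiDvd (algebraMap R EN π) Winf.toSubring 1 x →
        ∃ r ∈ L.R', ∃ r' ∈ L.R', x = algebraMap R EN π * r + Y * r') ∧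
      (∀ x ∈ L.R', PiDvd (algebraMap R EN π) W0.toSubring 1 x →
        ∃ r ∈ L.R', ∃ r' ∈ L.R', x = algebraMap R EN π * r + X * r') ∧
      ∃ a b : EN, IsUnitIn L.R' a ∧ b ∈ L.R' ∧
        B (algebraMap KM EM t) - A (algebraMap KM EM t) ^ q = a * Y + algebraMap R EN π * b := by
  haveI h𝔪p := h𝔪.isPrime
  haveI : IsScalarTower R K₁ EN := isScalarTower_base_const R K₁ KN EN
  haveI : IsNoetherianRing ↥(chartOne R EN j) :=
    isNoetherianRing_chartOne (K₁ := K₁) j h.j_transcendental h.j_adjoin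
  haveI hfr : IsFractionRing ↥(chartOne R EN j) EN :=
    isFractionRing_chartOne (K₁ := K₁) j h.j_adjoin
  have hmod := h.isModelChart_one hπ
  haveI := hmod.isPrime_inf
  haveI := hmod.isPrime_zero
  haveI := locAlgebra_isScalarTower (E := EN) 𝔪
  haveI := locAlgebra_isScalarTower_base (R₁ := R) (E := EN) 𝔪
  obtain ⟨x₁, y₁, hx₁, hx₁0, hy₁, hy₁inf, -⟩ := hmod.node 𝔪 h𝔪 hinf h0
  have hπ𝔪 : algebraMap R ↥(chartOne R EN j) π ∈ 𝔪 := hinf hmod.mem_inf
  have hres := exists_sub_mem_of_isMaximal_chartOne (K₁ := K₁) hπ h.j_transcendental h.j_adjoin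
    𝔪 hπ𝔪
  obtain ⟨x, y, r, hnode, hxy, hr, hm, rfl⟩ := hX
  -- the primes of the local ring
  haveI hP0 : ((sheetIdeal j W0 h.two.chart_le_zero).map
      (algebraMap ↥(chartOne R EN j) (Localization.AtPrime 𝔪))).IsPrime :=
    map_isPrime_of_le 𝔪 _ h0
  haveI hPinf : ((sheetIdeal j Winf h.two.chart_le_inf).map
      (algebraMap ↥(chartOne R EN j) (Localization.AtPrime 𝔪))).IsPrime :=
    map_isPrime_of_le 𝔪 _ hinf
  have hπO : algebraMap ↥(chartOne R EN j) (Localization.AtPrime 𝔪)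
      (algebraMap R ↥(chartOne R EN j) π) = algebraMap R (Localization.AtPrime 𝔪) π :=
    (IsScalarTower.algebraMap_apply R ↥(chartOne R EN j) (Localization.AtPrime 𝔪) π).symm
  have hπ0' : algebraMap R (Localization.AtPrime 𝔪) π ∈
      (sheetIdeal j W0 h.two.chart_le_zero).map
        (algebraMap ↥(chartOne R EN j) (Localization.AtPrime 𝔪)) := by
    rw [← hπO]; exact Ideal.mem_map_of_mem _ hmod.mem_zero
  have hπinf' : algebraMap R (Localization.AtPrime 𝔪) π ∈
      (sheetIdeal j Winf h.two.chart_le_inf).map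
        (algebraMap ↥(chartOne R EN j) (Localization.AtPrime 𝔪)) := by
    rw [← hπO]; exact Ideal.mem_map_of_mem _ hmod.mem_inf
  have hinf' : (sheetIdeal j W0 h.two.chart_le_zero).map
        (algebraMap ↥(chartOne R EN j) (Localization.AtPrime 𝔪)) ⊓
      (sheetIdeal j Winf h.two.chart_le_inf).map
        (algebraMap ↥(chartOne R EN j) (Localization.AtPrime 𝔪)) ≤
      Ideal.span {algebraMap R (Localization.AtPrime 𝔪) π} := by
    rw [← hπO]
    exact map_inf_map_le_span (R := Localization.AtPrime 𝔪) 𝔪 hmod.inf_le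
  have hπE : algebraMap (Localization.AtPrime 𝔪) EN (algebraMap R (Localization.AtPrime 𝔪) π) =
      algebraMap R EN π :=
    (IsScalarTower.algebraMap_apply R (Localization.AtPrime 𝔪) EN π).symm
  have hWinf : locSub (chartOne R EN j) (sheetIdeal j Winf h.two.chart_le_inf) =
      Winf.toSubring := SSModel.locSub_inf h hπ
  have hW0 : locSub (chartOne R EN j) (sheetIdeal j W0 h.two.chart_le_zero) =
      W0.toSubring := SSModel.locSub_zero h hπ
  -- the local point
  set L := chartLocalPtNode (K₁ := K₁) (F := EN) hπ hp he₁ hpe (resAlgClosed_of_isAlgClosed hπ)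
    (sheetIdeal j Winf h.two.chart_le_inf) (sheetIdeal j W0 h.two.chart_le_zero) 𝔪 hinf h0
    hmod.mem_inf hmod.mem_zero hmod.inf_le hx₁ hx₁0 hy₁ hy₁inf hres with hL
  have hLR : L.R' = locSub (chartOne R EN j) 𝔪 := rfl
  -- the second coordinate
  obtain ⟨ru, rfl⟩ := hr
  set Y : EN := algebraMap (Localization.AtPrime 𝔪) EN
    (y * ((ru⁻¹ : (Localization.AtPrime 𝔪)ˣ) : Localization.AtPrime 𝔪)) with hY
  have hXY : algebraMap (Localization.AtPrime 𝔪) EN x * Y = algebraMap R EN π ^ m := by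
    rw [hY, ← map_mul, ← mul_assoc, hxy, mul_assoc, Units.mul_inv, mul_one, map_pow, hπE]
  refine ⟨L, Y, hLR, ?_, ?_, ?_, ?_, hXY, ?_, ?_, ?_, ?_, ?_⟩
  · -- the sheet `∞`
    apply Sheet.ext'
    show locSub (chartOne R EN j) (sheetIdeal j Winf h.two.chart_le_inf) = Winf.toSubring
    exact hWinf
  · apply Sheet.ext'
    show locSub (chartOne R EN j) (sheetIdeal j W0 h.two.chart_le_zero) = W0.toSubring
    exact hW0
  · rw [hLR]; exact algebraMap_loc_mem_locSub _
  · rw [hLR]; exact algebraMap_loc_mem_locSub _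
  · rw [← hWinf]
    exact isUnitIn_loc_of_notMem_map hinf hnode.x_notMem
  · rw [← hW0, hY]
    refine isUnitIn_loc_of_notMem_map h0 (fun hmem => hnode.y_notMem ?_)
    have := Ideal.mul_mem_right (ru : Localization.AtPrime 𝔪) _ hmem
    rwa [mul_assoc, Units.inv_mul, mul_one] at this
  · -- the branch `∞` is `(π, Y)`
    intro e he hdvd
    rw [hLR] at he
    obtain ⟨z, rfl⟩ := exists_loc_eq_of_mem_locSub he
    rw [← hWinf] at hdvd
    have hz := (piDvd_loc_iff_mem_map hinf hmod.mem_inf (IsModelChart.hloc_inf hmod) z).mp hdvd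
    rw [hnode.Pinf_eq hπinf' hinf'] at hz
    obtain ⟨a, b, hab⟩ := Ideal.mem_span_pair.mp hz
    refine ⟨algebraMap (Localization.AtPrime 𝔪) EN b, by rw [hLR]; exact algebraMap_loc_mem_locSub _,
      algebraMap (Localization.AtPrime 𝔪) EN (a * (ru : Localization.AtPrime 𝔪)),
      by rw [hLR]; exact algebraMap_loc_mem_locSub _, ?_⟩
    rw [hY, ← hπE, ← map_mul, ← map_mul, ← map_add, ← hab]
    congr 1
    have : y * ((ru⁻¹ : (Localization.AtPrime 𝔪)ˣ) : Localization.AtPrime 𝔪) *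
        (a * (ru : Localization.AtPrime 𝔪)) = a * y *
        (((ru⁻¹ : (Localization.AtPrime 𝔪)ˣ) : Localization.AtPrime 𝔪) *
          (ru : Localization.AtPrime 𝔪)) := by ring
    rw [this, Units.inv_mul, mul_one]
    ring
  · -- the branch `0` is `(π, X)`
    intro e he hdvd
    rw [hLR] at he
    obtain ⟨z, rfl⟩ := exists_loc_eq_of_mem_locSub he
    rw [← hW0] at hdvd
    have hz := (piDvd_loc_iff_mem_map h0 hmod.mem_zero (IsModelChart.hloc_zero hmod) z).mp hdvd
    rw [hnode.P0_eq hπ0' hinf'] at hz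
    obtain ⟨a, b, hab⟩ := Ideal.mem_span_pair.mp hz
    refine ⟨algebraMap (Localization.AtPrime 𝔪) EN b, by rw [hLR]; exact algebraMap_loc_mem_locSub _,
      algebraMap (Localization.AtPrime 𝔪) EN a,
      by rw [hLR]; exact algebraMap_loc_mem_locSub _, ?_⟩
    rw [← hπE, ← map_mul, ← map_mul, ← map_add, ← hab]
    congr 1
    ring
  · -- the Kronecker element
    obtain ⟨hbr, hkinf⟩ := SSModel.kron_isBranchUniformizer h hπ 𝔪 hinf h0
    set y₀ : ↥(chartOne R EN j) :=
      ⟨B (algebraMap KM EM t) - A (algebraMap KM EM t) ^ q, SSModel.kron_mem_chartOne h hπ⟩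
      with hy₀
    have hy₀inf : algebraMap ↥(chartOne R EN j) (Localization.AtPrime 𝔪) y₀ ∈
        (sheetIdeal j Winf h.two.chart_le_inf).map
          (algebraMap ↥(chartOne R EN j) (Localization.AtPrime 𝔪)) :=
      Ideal.mem_map_of_mem _ hkinf
    have hgen := IsBranchUniformizer.exists_unit_mul_sub_mem_map hbr
      (IsLocalRing.le_maximalIdeal hPinf.ne_top hnode.y_mem)
    obtain ⟨a, b, ha, hab⟩ := IsNodePair.exists_eq_unit_mul_add hnode hπ0' hπinf' hinf' hy₀inf hgen
    refine ⟨algebraMap (Localization.AtPrime 𝔪) EN (a * (ru : Localization.AtPrime 𝔪)),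
      algebraMap (Localization.AtPrime 𝔪) EN b, ?_,
      by rw [hLR]; exact algebraMap_loc_mem_locSub _, ?_⟩
    · rw [hLR]
      exact isUnitIn_loc_of_isUnit (ha.mul ru.isUnit)
    · have e1 : algebraMap (Localization.AtPrime 𝔪) EN
            (algebraMap ↥(chartOne R EN j) (Localization.AtPrime 𝔪) y₀) =
          algebraMap ↥(chartOne R EN j) EN y₀ :=
        (IsScalarTower.algebraMap_apply ↥(chartOne R EN j) (Localization.AtPrime 𝔪) EN y₀).symm
      have e2 : algebraMap ↥(chartOne R EN j) EN y₀ = (y₀ : EN) := coe_algebraMap_chartOne y₀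
      have e3 : (y₀ : EN) = B (algebraMap KM EM t) - A (algebraMap KM EM t) ^ q := rfl
      have e4 := congrArg (algebraMap (Localization.AtPrime 𝔪) EN) hab
      have e5 : a * y + algebraMap R (Localization.AtPrime 𝔪) π * b =
          a * (ru : Localization.AtPrime 𝔪) *
            (y * ((ru⁻¹ : (Localization.AtPrime 𝔪)ˣ) : Localization.AtPrime 𝔪)) +
          algebraMap R (Localization.AtPrime 𝔪) π * b := by
        have : a * (ru : Localization.AtPrime 𝔪) *
            (y * ((ru⁻¹ : (Localization.AtPrime 𝔪)ˣ) : Localization.AtPrime 𝔪)) = a * y *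
            ((ru : Localization.AtPrime 𝔪) *
              ((ru⁻¹ : (Localization.AtPrime 𝔪)ˣ) : Localization.AtPrime 𝔪)) := by ring
        rw [this, Units.mul_inv, mul_one]
      rw [e5, map_add,
        map_mul (algebraMap (Localization.AtPrime 𝔪) EN) (a * (ru : Localization.AtPrime 𝔪)),
        map_mul (algebraMap (Localization.AtPrime 𝔪) EN)
          (algebraMap R (Localization.AtPrime 𝔪) π), hπE] at e4
      exact ((e1.trans (e2.trans e3)).symm.trans e4)

end LevelN

end Fermat.Agent.MP
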