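import Mathlib
import Fermat.Agent.NP.IFACE_helper5_Defs
import Fermat.Agent.NP.EXT_helper5_Basic

/-!
# Project MP40 — C2 [PL-ABS] helper9: abstract first-order Picard–Lefschetz ("PL-lite"), definitions

Currency: helper5's `DepthBase` / `Sheet` / `LocalPt` / `PiDvd` (`NP/IFACE_helper5_Defs`).

`PLData B Iinf I0 In` : a two-sheeted model (`Sinf`, `S0`) with a ring endomorphism `τ` of `F`
which is the identity modulo `π ^ (s + 1)` on both sheets and moves the uniformizer by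
`τ π = π (1 + ω π ^ s)`, `ω ∈ R₁ˣ`, `s ≥ 1`, `(s + 1)(p - 1) ≤ e₁` (the hypothesis (peu):
`π ^ (s + 1) ∣ ζ_p - 1`); `τ`-stable local points: smooth closed points of each sheet
(`Linf`, `L0`), nodes `Ln` with coordinates `X Y = q = unit · π ^ L` (then `τ X / X` is a unit of the
local ring: `PLData.τ_X`), a Kronecker element at each node (then `s + 1 ≤ L`: `PLData.le_L`);
the prime ideals of the two branches at a node (`nodeK1_inf`, `nodeK1_zero`), (GLOB) on each sheet.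
The gluing of constants at a node is a consequence (`PLData.node_glue`, file `PLABS_helper9_Glob`).

`PLFact D f k` : local factorisations `f = c v G ^ p` at the smooth points,
`f = c X ^ (k n) v G ^ p` at the nodes, and `τ f / f` of depth `≥ N` on both sheets for all `N`.

Theorem (file `PLABS_helper9_Main`): `p ^ 2 ∣ k n * L n - k n' * L n'`.
-/

set_option autoImplicit false

namespace Fermat.Agent.MP

open Fermat.Agent.NP

/-- **the data of PL-lite.** -/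
structure PLData {F : Type*} [Field F] {p : ℕ} (B : DepthBase F p) (Iinf I0 In : Type*) where
  /-- the sheet `∞` -/
  Sinf : Sheet B
  /-- the sheet `0` -/
  S0 : Sheet B
  /-- the automorphism -/
  τ : F →+* F
  τ_K₁ : ∀ c ∈ B.K₁, τ c ∈ B.K₁
  τ_R₁ : ∀ c ∈ B.R₁, τ c ∈ B.R₁
  /-- `τ ≡ id mod π ^ (s + 1)` -/
  s : ℕ
  s_pos : 1 ≤ s
  /-- `τ π = π (1 + ω π ^ s)` -/
  ω : F
  ω_unit : IsUnitIn B.R₁ ω
  τ_π : τ B.π = B.π * (1 + ω * B.π ^ s)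
  τ_inf : ∀ x ∈ Sinf.W, PiDvd B.π Sinf.W (s + 1) (τ x - x)
  τ_zero : ∀ x ∈ S0.W, PiDvd B.π S0.W (s + 1) (τ x - x)
  /-- (peu): `π ^ (s + 1) ∣ ζ_p - 1` -/
  peu : (s + 1) * (p - 1) ≤ B.e₁
  /-- the smooth closed points of the sheet `∞` -/
  Linf : Iinf → LocalPt B Unit
  Linf_sheet : ∀ n k, (Linf n).sheet k = Sinf
  Linf_τ : ∀ n, ∀ x ∈ (Linf n).R', τ x ∈ (Linf n).R'
  /-- the smooth closed points of the sheet `0` -/
  L0 : I0 → LocalPt B Unit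
  L0_sheet : ∀ n k, (L0 n).sheet k = S0
  L0_τ : ∀ n, ∀ x ∈ (L0 n).R', τ x ∈ (L0 n).R'
  /-- the nodes -/
  Ln : In → LocalPt B Bool
  Ln_true : ∀ n, (Ln n).sheet true = Sinf
  Ln_false : ∀ n, (Ln n).sheet false = S0
  Ln_τ : ∀ n, ∀ x ∈ (Ln n).R', τ x ∈ (Ln n).R'
  /-- the node coordinates `X Y = q` -/
  X : In → F
  Y : In → F
  q : In → F
  /-- the thickness of a node -/
  L : In → ℕ
  X_mem : ∀ n, X n ∈ (Ln n).R'
  Y_mem : ∀ n, Y n ∈ (Ln n).R'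
  X_mul_Y : ∀ n, X n * Y n = q n
  q_eq : ∀ n, ∃ u, IsUnitIn B.R₁ u ∧ q n = u * B.π ^ L n
  X_unit : ∀ n, IsUnitIn Sinf.W (X n)
  Y_unit : ∀ n, IsUnitIn S0.W (Y n)
  /-- a uniformizer of the branch `0` at the node which vanishes to the order `s + 1` on the sheet
  `∞` (on the hosts: the Kronecker element `t(q ^ p) - t(q) ^ p`); it bounds the thickness from
  below: `s + 1 ≤ L n` (`PLData.le_L`) -/
  kron : ∀ n, ∃ y₀ a b : F, IsUnitIn (Ln n).R' a ∧ b ∈ (Ln n).R' ∧ y₀ = a * Y n + B.π * b ∧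
    PiDvd B.π Sinf.W (s + 1) y₀
  /-- the prime ideal of the branch `∞` at a node is `(π, Y)` -/
  nodeK1_inf : ∀ n, ∀ x ∈ (Ln n).R', PiDvd B.π Sinf.W 1 x →
    ∃ r ∈ (Ln n).R', ∃ r' ∈ (Ln n).R', x = B.π * r + Y n * r'
  /-- the prime ideal of the branch `0` at a node is `(π, X)` -/
  nodeK1_zero : ∀ n, ∀ x ∈ (Ln n).R', PiDvd B.π S0.W 1 x →
    ∃ r ∈ (Ln n).R', ∃ r' ∈ (Ln n).R', x = B.π * r + X n * r'
  /-- (GLOB) on the sheet `∞` -/
  glob_inf : ∀ z ∈ Sinf.W, (∀ n, ∃ r ∈ (Linf n).R', PiDvd B.π Sinf.W 1 (z - r)) →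
    (∀ n, ∃ r ∈ (Ln n).R', PiDvd B.π Sinf.W 1 (z - r)) → ∃ a ∈ B.R₁, PiDvd B.π Sinf.W 1 (z - a)
  /-- (GLOB) on the sheet `0` -/
  glob_zero : ∀ z ∈ S0.W, (∀ n, ∃ r ∈ (L0 n).R', PiDvd B.π S0.W 1 (z - r)) →
    (∀ n, ∃ r ∈ (Ln n).R', PiDvd B.π S0.W 1 (z - r)) → ∃ a ∈ B.R₁, PiDvd B.π S0.W 1 (z - a)

/-- **the hypotheses of PL-lite on a function `f`**: local factorisations and infinite depth of
`τ f / f` on both sheets. -/
structure PLFact {F : Type*} [Field F] {p : ℕ} {B : DepthBase F p} {Iinf I0 In : Type*}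
    (D : PLData B Iinf I0 In) (f : F) (k : In → ℤ) : Prop where
  f_ne : f ≠ 0
  fac_inf : ∀ n : Iinf, ∃ c ∈ B.K₁, ∃ v G : F, c ≠ 0 ∧ G ≠ 0 ∧ IsUnitIn (D.Linf n).R' v ∧
    f = c * v * G ^ p
  fac_zero : ∀ n : I0, ∃ c ∈ B.K₁, ∃ v G : F, c ≠ 0 ∧ G ≠ 0 ∧ IsUnitIn (D.L0 n).R' v ∧
    f = c * v * G ^ p
  fac_node : ∀ n : In, ∃ c ∈ B.K₁, ∃ v G : F, c ≠ 0 ∧ G ≠ 0 ∧ IsUnitIn (D.Ln n).R' v ∧
    f = c * D.X n ^ (k n) * v * G ^ p
  depth_inf : ∀ N, D.Sinf.DepthGE (D.τ f / f) N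
  depth_zero : ∀ N, D.S0.DepthGE (D.τ f / f) N

end Fermat.Agent.MP
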