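import Mathlib
import Fermat.Agent.MP.PLABS_helper9_Defs
import Fermat.Agent.NP.EXT_helper5_LT
import Fermat.Agent.NP.CONSTP_helper5
import Fermat.Agent.NP.NORMP_helper7_Depth

/-!
# Project MP40 — C2 [PL-ABS] helper9: elementary lemmas on sheets

* `sheet_exists_pow_mul_unit` : `x ∈ W ∖ 0` is `π ^ a · unit`, `a : ℕ`;
* `sheet_zpow_unique` : the exponent of `π` is unique;
* `sheet_isUnitIn_of_pow` : `ξ ^ p` a unit ⇒ `ξ` a unit;
* **`sheet_piDvd_sub_one_of_pow`** : `ξ ^ p ≡ 1 mod π ^ N`, `j (p - 1) ≤ e₁`, `j p ≤ N`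
  ⇒ `ξ ≡ 1 mod π ^ j`  (roots of unity of order `p` are `≡ 1 mod π ^ (e₁ / (p - 1))`);
* `localPt_k1_pow` : (K1) for `π ^ n`;
* `depthBase_prime_dvd_of_piDvd_intCast` : an integer in `π R₁` is divisible by `p`.
-/

set_option autoImplicit false

namespace Fermat.Agent.MP

open Fermat.Agent.NP

variable {F : Type*} [Field F] {p : ℕ} {B : DepthBase F p}

section SheetBasic

variable (S : Sheet B)

/-- a nonzero element of `W` is `π ^ a` times a unit, `a : ℕ`. -/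
theorem sheet_exists_pow_mul_unit {x : F} (hx : x ∈ S.W) (hx0 : x ≠ 0) :
    ∃ (a : ℕ) (y : F), IsUnitIn S.W y ∧ x = B.π ^ a * y := by
  obtain ⟨n, u, hu, hu', rfl⟩ := S.unif x hx0
  have hu0 : u ≠ 0 := by
    rintro rfl
    simp at hx0
  rcases lt_or_ge n 0 with hn | hn
  · exfalso
    apply S.π_inv_notMem
    have h1 : B.π ^ n ∈ S.W := by
      have : B.π ^ n = B.π ^ n * u * u⁻¹ := by field_simp
      rw [this]
      exact S.W.mul_mem hx hu'
    have h2 : B.π⁻¹ = B.π ^ n * B.π ^ (-n - 1) := by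
      rw [← zpow_add₀ B.π_ne_zero]
      have : n + (-n - 1) = -1 := by ring
      rw [this, zpow_neg_one]
    rw [h2]
    exact S.W.mul_mem h1 (S.zpow_π_mem (by omega))
  · obtain ⟨a, rfl⟩ := Int.eq_ofNat_of_zero_le hn
    exact ⟨a, u, ⟨hu, hu', hu0⟩, by rw [zpow_natCast]⟩

/-- the exponent of `π` in `π ^ a · unit` is unique. -/
theorem sheet_zpow_unique {a a' : ℤ} {y y' : F} (hy : IsUnitIn S.W y) (hy' : IsUnitIn S.W y')
    (h : B.π ^ a * y = B.π ^ a' * y') : a = a' := by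
  have h1 : IsUnitIn S.W (B.π ^ (a - a')) := by
    have e : B.π ^ (a - a') = y' * y⁻¹ := by
      rw [zpow_sub₀ B.π_ne_zero]
      have h0 : B.π ^ a' ≠ 0 := zpow_ne_zero _ B.π_ne_zero
      have hy0 := hy.2.2
      field_simp
      linear_combination h
    rw [e]
    exact hy'.mul hy.inv
  have := S.zpow_eq_zero_of_isUnitIn h1
  omega

/-- an element whose `m`-th power (`m ≥ 1`) is a unit of `W` is a unit of `W`. -/
theorem sheet_isUnitIn_of_pow {ξ : F} {m : ℕ} (hm : 1 ≤ m) (h : IsUnitIn S.W (ξ ^ m)) :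
    IsUnitIn S.W ξ := by
  have hξ0 : ξ ≠ 0 := by
    rintro rfl
    exact h.2.2 (zero_pow (by omega))
  obtain ⟨n, u, hu, hu', rfl⟩ := S.unif ξ hξ0
  have hu0 : u ≠ 0 := by
    rintro rfl
    simp at hξ0
  have huU : IsUnitIn S.W u := ⟨hu, hu', hu0⟩
  have h1 : IsUnitIn S.W (B.π ^ (n * m)) := by
    have e : B.π ^ (n * m) = (B.π ^ n * u) ^ m * (u ^ m)⁻¹ := by
      rw [mul_pow, zpow_mul, zpow_natCast]
      have := pow_ne_zero m hu0
      field_simp
    rw [e]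
    exact h.mul (huU.pow m).inv
  have h2 := S.zpow_eq_zero_of_isUnitIn h1
  have hn : n = 0 := by
    rcases Int.mul_eq_zero.mp h2 with h3 | h3
    · exact h3
    · omega
  rw [hn, zpow_zero, one_mul]
  exact huU

/-- a unit of `W` is not divisible by `π`. -/
theorem sheet_not_piDvd_of_isUnitIn {y : F} (hy : IsUnitIn S.W y) : ¬ PiDvd B.π S.W 1 y :=
  fun h => S.inv_notMem_of_piDvd hy.2.2 h hy.2.1

/-- unit plus a multiple of `π` is a unit. -/
theorem sheet_isUnitIn_add_piDvd {y t : F} (hy : IsUnitIn S.W y) (ht : PiDvd B.π S.W 1 t) :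
    IsUnitIn S.W (y + t) := by
  have e : y + t = y * (1 + y⁻¹ * t) := by
    have := hy.2.2
    field_simp
  rw [e]
  exact hy.mul (S.isUnitIn_one_add (ht.mul_left hy.2.1))

end SheetBasic

section Roots

variable (S : Sheet B)

/-- **`p`-th roots of `1 + deep` are `≡ 1` modulo `π ^ j` for `j (p - 1) ≤ e₁`.** -/
theorem sheet_piDvd_sub_one_of_pow (hp : p.Prime) {ξ : F} {j N : ℕ}
    (hj : j * (p - 1) ≤ B.e₁) (hN : j * p ≤ N) (hN1 : 1 ≤ N)
    (h : PiDvd B.π S.W N (ξ ^ p - 1)) : PiDvd B.π S.W j (ξ - 1) := by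
  -- `ξ` is a unit
  have hξp : IsUnitIn S.W (ξ ^ p) := by
    have e : ξ ^ p = 1 + (ξ ^ p - 1) := by ring
    rw [e]
    exact S.isUnitIn_one_add (h.mono S.π_mem hN1)
  have hξ : IsUnitIn S.W ξ := sheet_isUnitIn_of_pow S hp.one_le hξp
  have hxW : ξ - 1 ∈ S.W := S.W.sub_mem hξ.1 S.W.one_mem
  by_cases hx0 : ξ - 1 = 0
  · rw [hx0]
    exact piDvd_zero
  obtain ⟨a, y, hy, hxy⟩ := sheet_exists_pow_mul_unit S hxW hx0
  rcases lt_or_ge a j with haj | haj
  · exfalso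
    -- `a (p - 1) < e₁`
    have hp2 := hp.two_le
    have h1 : a * (p - 1) + (p - 1) ≤ B.e₁ := by
      have : (a + 1) * (p - 1) ≤ j * (p - 1) := Nat.mul_le_mul_right _ haj
      calc a * (p - 1) + (p - 1) = (a + 1) * (p - 1) := by ring
        _ ≤ j * (p - 1) := this
        _ ≤ B.e₁ := hj
    obtain ⟨d, hd⟩ : ∃ d, B.e₁ + a = a * p + (d + 1) := by
      refine ⟨B.e₁ + a - a * p - 1, ?_⟩
      have h2 : a * p = a * (p - 1) + a := by
        obtain ⟨p', rfl⟩ := Nat.exists_eq_add_of_le hp.one_le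
        simp
        ring
      omega
    obtain ⟨r, hr, hexp⟩ := one_add_pow_prime_eq_subring S.W hp hxW
    have hεW : B.ε ∈ S.W := S.R₁_le B.ε_mem
    -- `ξ ^ p - 1 = π ^ (a p) (y ^ p + π ^ (d + 1) ε y (1 + x r))`
    have e1 : ξ ^ p - 1 =
        B.π ^ (a * p) * (y ^ p + B.π * (B.π ^ d * B.ε * y * (1 + (ξ - 1) * r))) := by
      have e0 : ξ = 1 + (ξ - 1) := by ring
      have e2 : ξ ^ p = (1 + (ξ - 1)) ^ p := by rw [← e0]
      have e3 : B.π ^ B.e₁ * B.π ^ a = B.π ^ (a * p) * B.π ^ (d + 1) := by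
        rw [← pow_add, ← pow_add, hd]
      have e4 : (ξ - 1) ^ p = B.π ^ (a * p) * y ^ p := by
        rw [hxy, mul_pow, ← pow_mul]
      have e5 : B.π ^ (d + 1) = B.π * B.π ^ d := by ring
      have e6 : (p : F) * (ξ - 1) = B.π ^ (a * p) * B.π ^ (d + 1) * B.ε * y := by
        rw [B.p_eq, hxy]
        linear_combination (B.ε * y) * e3
      rw [e2, hexp]
      linear_combination e4 + (1 + (ξ - 1) * r) * e6 +
        ((1 + (ξ - 1) * r) * B.π ^ (a * p) * B.ε * y) * e5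
    have hU : IsUnitIn S.W (y ^ p + B.π * (B.π ^ d * B.ε * y * (1 + (ξ - 1) * r))) := by
      apply sheet_isUnitIn_add_piDvd S (hy.pow p)
      refine ⟨B.π ^ d * B.ε * y * (1 + (ξ - 1) * r), ?_, by rw [pow_one]⟩
      exact S.W.mul_mem (S.W.mul_mem (S.W.mul_mem (S.W.pow_mem S.π_mem d) hεW) hy.1)
        (S.W.add_mem S.W.one_mem (S.W.mul_mem hxW hr))
    -- but it is divisible by `π`
    obtain ⟨t, ht, het⟩ := h
    obtain ⟨m, hm⟩ : ∃ m, N = a * p + (m + 1) := by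
      refine ⟨N - a * p - 1, ?_⟩
      have : a * p < j * p := Nat.mul_lt_mul_of_pos_right haj hp.pos
      omega
    apply sheet_not_piDvd_of_isUnitIn S hU
    refine ⟨B.π ^ m * t, S.W.mul_mem (S.W.pow_mem S.π_mem m) ht, ?_⟩
    have h0 : B.π ^ (a * p) ≠ 0 := pow_ne_zero _ B.π_ne_zero
    have e6 : B.π ^ (a * p) * (y ^ p + B.π * (B.π ^ d * B.ε * y * (1 + (ξ - 1) * r))) =
        B.π ^ (a * p) * (B.π ^ 1 * (B.π ^ m * t)) := by
      rw [← e1, het, hm]
      ring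
    exact mul_left_cancel₀ h0 e6
  · obtain ⟨m, rfl⟩ := Nat.exists_eq_add_of_le haj
    refine ⟨B.π ^ m * y, S.W.mul_mem (S.W.pow_mem S.π_mem m) hy.1, ?_⟩
    rw [hxy]
    ring

end Roots

section K1

variable {ι : Type*} (L : LocalPt B ι)

/-- (K1) for powers of `π`. -/
theorem localPt_k1_pow [Nonempty ι] {x : F} (hx : x ∈ L.R') (n : ℕ)
    (h : ∀ i, PiDvd B.π (L.sheet i).W n x) : PiDvd B.π L.R' n x := by
  induction n generalizing x with
  | zero => exact piDvd_zero_iff.mpr hx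
  | succ n ih =>
    obtain ⟨r, hr, rfl⟩ := ih hx (fun i => (h i).mono (L.sheet i).π_mem (Nat.le_succ n))
    have h1 : ∀ i, PiDvd B.π (L.sheet i).W 1 r := by
      intro i
      have := h i
      rwa [piDvd_pow_mul_iff B.π_ne_zero] at this
    obtain ⟨r', hr', rfl⟩ := L.k1 r hr h1
    exact ⟨r', hr', by ring⟩

end K1

section Ints

/-- `p ∈ π R₁`. -/
theorem depthBase_piDvd_prime (B : DepthBase F p) : PiDvd B.π B.R₁ 1 (p : F) := by
  obtain ⟨e, he⟩ := Nat.exists_eq_add_of_le B.e₁_pos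
  refine ⟨B.ε * B.π ^ e, B.R₁.mul_mem B.ε_mem (B.R₁.pow_mem B.π_mem e), ?_⟩
  rw [B.p_eq, he]
  ring

/-- `1 ∉ π R₁`. -/
theorem depthBase_not_piDvd_one (B : DepthBase F p) : ¬ PiDvd B.π B.R₁ 1 1 := by
  rintro ⟨t, ht, h⟩
  apply B.π_inv_notMem
  have : B.π⁻¹ = t := by
    rw [pow_one] at h
    exact inv_eq_of_mul_eq_one_right h.symm
  rw [this]
  exact ht

/-- an integer which lies in `π R₁` is divisible by `p`. -/
theorem depthBase_prime_dvd_of_piDvd_intCast (B : DepthBase F p) (hp : p.Prime) {M : ℤ}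
    (h : PiDvd B.π B.R₁ 1 (M : F)) : (p : ℤ) ∣ M := by
  by_contra hnd
  have hcop : IsCoprime M (p : ℤ) := by
    rw [isCoprime_comm]
    exact (Int.isCoprime_iff_gcd_eq_one).mpr
      ((Nat.Prime.coprime_iff_not_dvd hp).mpr (by
        intro hd
        apply hnd
        exact Int.natCast_dvd.mpr hd))
  obtain ⟨a, b, hab⟩ := hcop
  apply depthBase_not_piDvd_one B
  have e : (1 : F) = (a : F) * (M : F) + (b : F) * (p : F) := by
    have := congrArg (Int.cast : ℤ → F) hab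
    push_cast at this
    exact this.symm
  rw [e]
  exact (h.mul_left (intCast_mem B.R₁ a)).add ((depthBase_piDvd_prime B).mul_left (intCast_mem B.R₁ b))

end Ints

end Fermat.Agent.MP
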