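import Mathlib
import Fermat.Agent.MP.PLABS_helper9_Basic

/-!
# Project MP40 — C2 [PL-ABS] helper9: the (GLOB) induction modulo `π ^ j`

* `glob_induction` : if an element `z₀` of a sheet `W` is congruent modulo `π ^ j W` to an element of
  the local ring `O n` of every closed point `n`, then it is congruent to a constant modulo `π ^ j`
  (given (GLOB) modulo `π` and a (K1)-type property of the local rings up to level `j`);
* `PLData.nodeK1_inf_pow`, `PLData.nodeK1_zero_pow` : `O_n ∩ π ^ i W_∞ = (π ^ i, Y) O_n` for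
  `i ≤ L n`;
* `PLData.glob_inf_pow`, `PLData.glob_zero_pow` : (GLOB) modulo `π ^ (s + 1)` on the two sheets.
-/

set_option autoImplicit false

namespace Fermat.Agent.MP

open Fermat.Agent.NP

variable {F : Type*} [Field F] {p : ℕ} {B : DepthBase F p}

/-- **the (GLOB) induction.** -/
theorem glob_induction (S : Sheet B) {I : Type*} (O : I → Subring F) (j : ℕ)
    (hR : ∀ n, B.R₁ ≤ O n)
    (hK1 : ∀ n, ∀ i < j, ∀ x ∈ O n, PiDvd B.π S.W i x →
      ∃ r ∈ O n, PiDvd B.π S.W (i + 1) (x - B.π ^ i * r))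
    (hglob : ∀ z ∈ S.W, (∀ n, ∃ r ∈ O n, PiDvd B.π S.W 1 (z - r)) →
      ∃ a ∈ B.R₁, PiDvd B.π S.W 1 (z - a))
    {z₀ : F} (hz₀ : z₀ ∈ S.W) (h : ∀ n, ∃ r ∈ O n, PiDvd B.π S.W j (z₀ - r)) :
    ∃ β ∈ B.R₁, PiDvd B.π S.W j (z₀ - β) := by
  have key : ∀ i ≤ j, ∃ a ∈ B.R₁, PiDvd B.π S.W i (z₀ - a) := by
    intro i
    induction i with
    | zero =>
      intro _
      refine ⟨0, B.R₁.zero_mem, ?_⟩
      rw [sub_zero, piDvd_zero_iff]
      exact hz₀
    | succ i ih =>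
      intro hij
      obtain ⟨a, ha, z, hz, ez⟩ := ih (by omega)
      have hlt : i < j := by omega
      obtain ⟨m, hm⟩ : ∃ m, j = i + 1 + m := ⟨j - (i + 1), by omega⟩
      have hcover : ∀ n, ∃ r ∈ O n, PiDvd B.π S.W 1 (z - r) := by
        intro n
        obtain ⟨r, hr, t, ht, et⟩ := h n
        have hx : r - a ∈ O n := (O n).sub_mem hr (hR n ha)
        have hxi : PiDvd B.π S.W i (r - a) := by
          refine ⟨z - B.π ^ (1 + m) * t,
            S.W.sub_mem hz (S.W.mul_mem (S.W.pow_mem S.π_mem _) ht), ?_⟩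
          have e1 : B.π ^ j = B.π ^ i * B.π ^ (1 + m) := by
            rw [← pow_add, hm]
            ring_nf
          linear_combination ez - et - t * e1
        obtain ⟨r', hr', t', ht', et'⟩ := hK1 n i hlt (r - a) hx hxi
        refine ⟨r', hr', B.π ^ m * t + t',
          S.W.add_mem (S.W.mul_mem (S.W.pow_mem S.π_mem m) ht) ht', ?_⟩
        have h0 : B.π ^ i ≠ 0 := pow_ne_zero _ B.π_ne_zero
        have e1 : B.π ^ j = B.π ^ i * (B.π * B.π ^ m) := by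
          rw [hm]
          ring
        have e2 : B.π ^ (i + 1) = B.π ^ i * B.π := by ring
        have e3 : B.π ^ i * (z - r') = B.π ^ i * (B.π ^ 1 * (B.π ^ m * t + t')) := by
          rw [pow_one]
          linear_combination (-1 : F) * ez + et + et' + t * e1 + t' * e2
        exact mul_left_cancel₀ h0 e3
      obtain ⟨a', ha', w, hw, ew⟩ := hglob z hz hcover
      refine ⟨a + B.π ^ i * a', B.R₁.add_mem ha (B.R₁.mul_mem (B.R₁.pow_mem B.π_mem i) ha'),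
        w, hw, ?_⟩
      rw [pow_one] at ew
      have e2 : B.π ^ (i + 1) = B.π ^ i * B.π := by ring
      linear_combination ez + B.π ^ i * ew - w * e2
  exact key j le_rfl

section Node

variable {Iinf I0 In : Type*} (D : PLData B Iinf I0 In)

theorem PLData.Ln_le_inf (n : In) : (D.Ln n).R' ≤ D.Sinf.W := by
  have := (D.Ln n).le_sheet true
  rwa [D.Ln_true] at this

theorem PLData.Ln_le_zero (n : In) : (D.Ln n).R' ≤ D.S0.W := by
  have := (D.Ln n).le_sheet false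
  rwa [D.Ln_false] at this

theorem PLData.Linf_le (n : Iinf) : (D.Linf n).R' ≤ D.Sinf.W := by
  have := (D.Linf n).le_sheet ()
  rwa [D.Linf_sheet] at this

theorem PLData.L0_le (n : I0) : (D.L0 n).R' ≤ D.S0.W := by
  have := (D.L0 n).le_sheet ()
  rwa [D.L0_sheet] at this

/-- `Y` vanishes to the order `L` on the sheet `∞`. -/
theorem PLData.Y_piDvd (n : In) : PiDvd B.π D.Sinf.W (D.L n) (D.Y n) := by
  obtain ⟨u, hu, hq⟩ := D.q_eq n
  refine ⟨u * (D.X n)⁻¹, D.Sinf.W.mul_mem (D.Sinf.R₁_le hu.1) (D.X_unit n).2.1, ?_⟩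
  have hX0 := (D.X_unit n).2.2
  have h1 := D.X_mul_Y n
  rw [hq] at h1
  field_simp
  linear_combination h1

/-- `X` vanishes to the order `L` on the sheet `0`. -/
theorem PLData.X_piDvd (n : In) : PiDvd B.π D.S0.W (D.L n) (D.X n) := by
  obtain ⟨u, hu, hq⟩ := D.q_eq n
  refine ⟨u * (D.Y n)⁻¹, D.S0.W.mul_mem (D.S0.R₁_le hu.1) (D.Y_unit n).2.1, ?_⟩
  have hY0 := (D.Y_unit n).2.2
  have h1 := D.X_mul_Y n
  rw [hq] at h1
  field_simp
  linear_combination h1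

/-- `O_n ∩ π ^ i W_∞ = (π ^ i, Y) O_n` for `i ≤ L`. -/
theorem PLData.nodeK1_inf_pow (n : In) (i : ℕ) (hi : i ≤ D.L n) {x : F} (hx : x ∈ (D.Ln n).R')
    (h : PiDvd B.π D.Sinf.W i x) :
    ∃ r ∈ (D.Ln n).R', ∃ r' ∈ (D.Ln n).R', x = B.π ^ i * r + D.Y n * r' := by
  induction i with
  | zero => exact ⟨x, hx, 0, (D.Ln n).R'.zero_mem, by ring⟩
  | succ i ih =>
    obtain ⟨r, hr, r', hr', e⟩ := ih (by omega) (h.mono D.Sinf.π_mem (Nat.le_succ i))
    -- `π ∣ r` on the sheet `∞`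
    have hY : PiDvd B.π D.Sinf.W (i + 1) (D.Y n * r') :=
      ((D.Y_piDvd n).mono D.Sinf.π_mem hi).mul_right (D.Ln_le_inf n hr')
    have h1 : PiDvd B.π D.Sinf.W (i + 1) (B.π ^ i * r) := by
      have : B.π ^ i * r = x - D.Y n * r' := by linear_combination -e
      rw [this]
      exact h.sub hY
    rw [piDvd_pow_mul_iff B.π_ne_zero] at h1
    obtain ⟨r₂, hr₂, r₂', hr₂', e₂⟩ := D.nodeK1_inf n r hr h1
    refine ⟨r₂, hr₂, B.π ^ i * r₂' + r', (D.Ln n).R'.add_mem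
      ((D.Ln n).R'.mul_mem ((D.Ln n).R'.pow_mem (D.Ln n).π_mem i) hr₂') hr', ?_⟩
    rw [e, e₂]
    ring

/-- `O_n ∩ π ^ i W_0 = (π ^ i, X) O_n` for `i ≤ L`. -/
theorem PLData.nodeK1_zero_pow (n : In) (i : ℕ) (hi : i ≤ D.L n) {x : F} (hx : x ∈ (D.Ln n).R')
    (h : PiDvd B.π D.S0.W i x) :
    ∃ r ∈ (D.Ln n).R', ∃ r' ∈ (D.Ln n).R', x = B.π ^ i * r + D.X n * r' := by
  induction i with
  | zero => exact ⟨x, hx, 0, (D.Ln n).R'.zero_mem, by ring⟩
  | succ i ih =>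
    obtain ⟨r, hr, r', hr', e⟩ := ih (by omega) (h.mono D.S0.π_mem (Nat.le_succ i))
    have hX : PiDvd B.π D.S0.W (i + 1) (D.X n * r') :=
      ((D.X_piDvd n).mono D.S0.π_mem hi).mul_right (D.Ln_le_zero n hr')
    have h1 : PiDvd B.π D.S0.W (i + 1) (B.π ^ i * r) := by
      have : B.π ^ i * r = x - D.X n * r' := by linear_combination -e
      rw [this]
      exact h.sub hX
    rw [piDvd_pow_mul_iff B.π_ne_zero] at h1
    obtain ⟨r₂, hr₂, r₂', hr₂', e₂⟩ := D.nodeK1_zero n r hr h1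
    refine ⟨r₂, hr₂, B.π ^ i * r₂' + r', (D.Ln n).R'.add_mem
      ((D.Ln n).R'.mul_mem ((D.Ln n).R'.pow_mem (D.Ln n).π_mem i) hr₂') hr', ?_⟩
    rw [e, e₂]
    ring

/-- **the thickness of a node is at least `s + 1`** (from the Kronecker element). -/
theorem PLData.le_L (n : In) : D.s + 1 ≤ D.L n := by
  by_contra hlt
  have hLs : D.L n + 1 ≤ D.s + 1 := by omega
  obtain ⟨y₀, a, b, ha, hb, ey, hy₀⟩ := D.kron n
  have hy₀' : PiDvd B.π D.Sinf.W (D.L n + 1) y₀ := hy₀.mono D.Sinf.π_mem hLs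
  obtain ⟨uq, huq, hq⟩ := D.q_eq n
  have hXY := D.X_mul_Y n
  rw [hq] at hXY
  have hX0 := (D.X_unit n).2.2
  have hπ0 := B.π_ne_zero
  have hπnu : (D.Ln n).NonUnit B.π := by
    refine LocalPt.nonUnit_of_piDvd (D.Ln n).π_mem true ?_
    rw [D.Ln_true]
    exact ⟨1, D.Sinf.W.one_mem, by ring⟩
  -- `y₀ = Y a_i + π ^ i b_i` for `1 ≤ i ≤ L`
  have key : ∀ i : ℕ, i + 1 ≤ D.L n → ∃ a' b' : F, IsUnitIn (D.Ln n).R' a' ∧ b' ∈ (D.Ln n).R' ∧
      y₀ = D.Y n * a' + B.π ^ (i + 1) * b' := by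
    intro i
    induction i with
    | zero => intro _; exact ⟨a, b, ha, hb, by rw [ey]; ring⟩
    | succ i ih =>
      intro hi
      obtain ⟨a', b', ha', hb', e⟩ := ih (by omega)
      have h1 : PiDvd B.π D.Sinf.W (i + 1 + 1) (B.π ^ (i + 1) * b') := by
        have : B.π ^ (i + 1) * b' = y₀ - D.Y n * a' := by linear_combination -e
        rw [this]
        exact (hy₀'.mono D.Sinf.π_mem (by omega)).sub
          (((D.Y_piDvd n).mono D.Sinf.π_mem hi).mul_right (D.Ln_le_inf n ha'.1))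
      rw [piDvd_pow_mul_iff hπ0] at h1
      obtain ⟨r, hr, r', hr', e'⟩ := D.nodeK1_inf n b' hb' h1
      refine ⟨a' + B.π ^ (i + 1) * r', b' * 0 + r, ?_, ?_, ?_⟩
      · apply LocalPt.isUnitIn_add_nonUnit ha'
        have := hπnu.mul_left ((D.Ln n).R'.mul_mem ((D.Ln n).R'.pow_mem (D.Ln n).π_mem i) hr')
        have e2 : B.π ^ (i + 1) * r' = B.π ^ i * r' * B.π := by ring
        rw [e2]
        exact this
      · rw [mul_zero, zero_add]
        exact hr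
      · rw [e, e']
        ring
  rcases Nat.eq_zero_or_pos (D.L n) with hL0 | hL1
  · -- `L = 0`: `Y` is a unit of `W_∞`
    rw [hL0, pow_zero, mul_one] at hXY
    have hYu : IsUnitIn D.Sinf.W (D.Y n) := by
      have : D.Y n = uq * (D.X n)⁻¹ := by
        field_simp
        linear_combination hXY
      rw [this]
      exact (huq.of_le D.Sinf.R₁_le).mul (D.X_unit n).inv
    have h1 : PiDvd B.π D.Sinf.W 1 (a * D.Y n) := by
      have : a * D.Y n = y₀ - B.π * b := by linear_combination -ey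
      rw [this]
      exact (hy₀'.mono D.Sinf.π_mem (by omega)).sub
        ⟨b, D.Ln_le_inf n hb, by ring⟩
    exact sheet_not_piDvd_of_isUnitIn D.Sinf ((ha.of_le (D.Ln_le_inf n)).mul hYu) h1
  · obtain ⟨i, hi⟩ : ∃ i, D.L n = i + 1 := ⟨D.L n - 1, by omega⟩
    obtain ⟨a', b', ha', hb', e⟩ := key i (by omega)
    -- `y₀ = π ^ L (u a' / X + b')`
    have hXnu : (D.Ln n).NonUnit (D.X n) := by
      refine LocalPt.nonUnit_of_piDvd (D.X_mem n) false ?_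
      rw [D.Ln_false]
      exact (D.X_piDvd n).mono D.S0.π_mem hL1
    have h1 : PiDvd B.π D.Sinf.W 1 (uq * a' + D.X n * b') := by
      obtain ⟨t, ht, et⟩ := hy₀'
      refine ⟨D.X n * t, D.Sinf.W.mul_mem (D.X_unit n).1 ht, ?_⟩
      have hπL : B.π ^ D.L n ≠ 0 := pow_ne_zero _ hπ0
      apply mul_left_cancel₀ hπL
      have e3 : B.π ^ (D.L n + 1) = B.π ^ D.L n * B.π ^ 1 := pow_add _ _ _
      rw [e3] at et
      rw [← hi] at e
      linear_combination (D.X n) * et - (D.X n) * e - a' * hXY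
    have hu : IsUnitIn (D.Ln n).R' (uq * a' + D.X n * b') := by
      apply LocalPt.isUnitIn_add_nonUnit ((huq.of_le (D.Ln n).R₁_le).mul ha')
      have := hXnu.mul_left hb'
      rwa [mul_comm] at this
    exact sheet_not_piDvd_of_isUnitIn D.Sinf (hu.of_le (D.Ln_le_inf n)) h1

/-- **`τ X / X` is a unit of the local ring of the node.** -/
theorem PLData.τ_X (n : In) : IsUnitIn (D.Ln n).R' (D.τ (D.X n) / D.X n) := by
  obtain ⟨uq, huq, hq⟩ := D.q_eq n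
  have hXY := D.X_mul_Y n
  rw [hq] at hXY
  have hX0 := (D.X_unit n).2.2
  have hY0 := (D.Y_unit n).2.2
  have hπ0 := B.π_ne_zero
  have huq0 := huq.2.2
  have hτW0 : ∀ x ∈ D.S0.W, D.τ x ∈ D.S0.W := by
    intro x hx
    have := (D.τ_zero x hx).mem D.S0.π_mem
    have e : D.τ x = (D.τ x - x) + x := by ring
    rw [e]
    exact D.S0.W.add_mem this hx
  have hτWinf : ∀ x ∈ D.Sinf.W, D.τ x ∈ D.Sinf.W := by
    intro x hx
    have := (D.τ_inf x hx).mem D.Sinf.π_mem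
    have e : D.τ x = (D.τ x - x) + x := by ring
    rw [e]
    exact D.Sinf.W.add_mem this hx
  have hθ : 1 + D.ω * B.π ^ D.s ∈ B.R₁ :=
    B.R₁.add_mem B.R₁.one_mem (B.R₁.mul_mem D.ω_unit.1 (B.R₁.pow_mem B.π_mem _))
  -- `τ X ∈ π ^ L W_0`, `τ Y ∈ π ^ L W_∞`
  have h1 : PiDvd B.π D.S0.W (D.L n) (D.τ (D.X n)) := by
    obtain ⟨t, ht, et⟩ := D.X_piDvd n
    refine ⟨(1 + D.ω * B.π ^ D.s) ^ D.L n * D.τ t,
      D.S0.W.mul_mem (D.S0.W.pow_mem (D.S0.R₁_le hθ) _) (hτW0 t ht), ?_⟩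
    rw [et, map_mul, map_pow, D.τ_π, mul_pow]
    ring
  have h2 : PiDvd B.π D.Sinf.W (D.L n) (D.τ (D.Y n)) := by
    obtain ⟨t, ht, et⟩ := D.Y_piDvd n
    refine ⟨(1 + D.ω * B.π ^ D.s) ^ D.L n * D.τ t,
      D.Sinf.W.mul_mem (D.Sinf.W.pow_mem (D.Sinf.R₁_le hθ) _) (hτWinf t ht), ?_⟩
    rw [et, map_mul, map_pow, D.τ_π, mul_pow]
    ring
  obtain ⟨r, hr, r', hr', e⟩ := D.nodeK1_zero_pow n (D.L n) le_rfl
    (D.Ln_τ n _ (D.X_mem n)) h1
  obtain ⟨r₂, hr₂, r₂', hr₂', e₂⟩ := D.nodeK1_inf_pow n (D.L n) le_rfl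
    (D.Ln_τ n _ (D.Y_mem n)) h2
  have hπL : B.π ^ D.L n = uq⁻¹ * (D.X n * D.Y n) := by
    rw [hXY]
    field_simp
  have hui : uq⁻¹ ∈ (D.Ln n).R' := (D.Ln n).R₁_le huq.2.1
  -- `w = τ X / X`, `w' = τ Y / Y`
  have ew : D.τ (D.X n) / D.X n = uq⁻¹ * D.Y n * r + r' := by
    rw [e, hπL]
    field_simp
  have ew' : D.τ (D.Y n) / D.Y n = uq⁻¹ * D.X n * r₂ + r₂' := by
    rw [e₂, hπL]
    field_simp
  have hw : D.τ (D.X n) / D.X n ∈ (D.Ln n).R' := by
    rw [ew]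
    exact (D.Ln n).R'.add_mem ((D.Ln n).R'.mul_mem ((D.Ln n).R'.mul_mem hui (D.Y_mem n)) hr) hr'
  have hw' : D.τ (D.Y n) / D.Y n ∈ (D.Ln n).R' := by
    rw [ew']
    exact (D.Ln n).R'.add_mem ((D.Ln n).R'.mul_mem ((D.Ln n).R'.mul_mem hui (D.X_mem n)) hr₂) hr₂'
  have hτX0 : D.τ (D.X n) ≠ 0 := (map_ne_zero_iff _ D.τ.injective).mpr hX0
  have hτu : IsUnitIn B.R₁ (D.τ uq) :=
    ⟨D.τ_R₁ _ huq.1, by rw [← map_inv₀]; exact D.τ_R₁ _ huq.2.1,
      (map_ne_zero_iff _ D.τ.injective).mpr huq0⟩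
  have hθ0 : 1 + D.ω * B.π ^ D.s ≠ 0 := by
    intro h0
    have h3 : B.π ^ D.s * (-D.ω) = 1 := by linear_combination -h0
    have hs := D.s_pos
    obtain ⟨s', hs'⟩ : ∃ s', D.s = s' + 1 := ⟨D.s - 1, by omega⟩
    apply B.π_inv_notMem
    have : B.π⁻¹ = B.π ^ s' * (-D.ω) := by
      rw [hs', pow_succ] at h3
      apply inv_eq_of_mul_eq_one_right
      linear_combination h3
    rw [this]
    exact B.R₁.mul_mem (B.R₁.pow_mem B.π_mem _) (B.R₁.neg_mem D.ω_unit.1)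
  have hθu : IsUnitIn D.Sinf.W (1 + D.ω * B.π ^ D.s) := by
    have := D.Sinf.isUnitIn_one_add (t := D.ω * B.π ^ D.s) ?_
    · exact this
    · obtain ⟨s', hs'⟩ : ∃ s', D.s = s' + 1 := ⟨D.s - 1, by have := D.s_pos; omega⟩
      refine ⟨D.ω * B.π ^ s', D.Sinf.W.mul_mem (D.Sinf.R₁_le D.ω_unit.1)
        (D.Sinf.W.pow_mem D.Sinf.π_mem _), ?_⟩
      rw [hs']
      ring
  -- `w w' = τ u θ ^ L / u`
  have hprod : (D.τ (D.X n) / D.X n) * (D.τ (D.Y n) / D.Y n) =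
      D.τ uq * (1 + D.ω * B.π ^ D.s) ^ D.L n * uq⁻¹ := by
    have h3 : D.τ (D.X n) * D.τ (D.Y n) = D.τ uq * (B.π * (1 + D.ω * B.π ^ D.s)) ^ D.L n := by
      rw [← map_mul, hXY, map_mul, map_pow, D.τ_π]
    have h4 : D.τ (D.X n) / D.X n * (D.τ (D.Y n) / D.Y n) =
        D.τ (D.X n) * D.τ (D.Y n) / (D.X n * D.Y n) := by
      field_simp
    rw [h4, h3, hXY, mul_pow]
    have := pow_ne_zero (D.L n) hπ0
    field_simp
  refine ⟨hw, ?_, div_ne_zero hτX0 hX0⟩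
  -- the inverse
  have hθR : IsUnitIn B.R₁ (1 + D.ω * B.π ^ D.s) := by
    refine ⟨hθ, ?_, hθ0⟩
    exact D.Sinf.const_mem _ (B.K₁.inv_mem (B.R₁_le _ hθ)) hθu.2.1
  have hc : IsUnitIn B.R₁ (D.τ uq * (1 + D.ω * B.π ^ D.s) ^ D.L n * uq⁻¹) :=
    (hτu.mul (hθR.pow _)).mul huq.inv
  have : (D.τ (D.X n) / D.X n)⁻¹ =
      (D.τ (D.Y n) / D.Y n) * (D.τ uq * (1 + D.ω * B.π ^ D.s) ^ D.L n * uq⁻¹)⁻¹ := by
    have hw0 : D.τ (D.X n) / D.X n ≠ 0 := div_ne_zero hτX0 hX0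
    have hτY0 : D.τ (D.Y n) ≠ 0 := (map_ne_zero_iff _ D.τ.injective).mpr hY0
    have hw0' : D.τ (D.Y n) / D.Y n ≠ 0 := div_ne_zero hτY0 hY0
    rw [← hprod, mul_inv, ← mul_assoc, mul_comm (D.τ (D.Y n) / D.Y n), mul_assoc,
      mul_inv_cancel₀ hw0', mul_one]
  rw [this]
  exact (D.Ln n).R'.mul_mem hw' ((D.Ln n).R₁_le hc.2.1)

/-- **(GLOB) modulo `π ^ (s + 1)` on the sheet `∞`.** -/
theorem PLData.glob_inf_pow {z₀ : F} (hz₀ : z₀ ∈ D.Sinf.W)
    (h1 : ∀ n, ∃ r ∈ (D.Linf n).R', PiDvd B.π D.Sinf.W (D.s + 1) (z₀ - r))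
    (h2 : ∀ n, ∃ r ∈ (D.Ln n).R', PiDvd B.π D.Sinf.W (D.s + 1) (z₀ - r)) :
    ∃ β ∈ B.R₁, PiDvd B.π D.Sinf.W (D.s + 1) (z₀ - β) := by
  refine glob_induction D.Sinf
    (Sum.elim (fun n => (D.Linf n).R') (fun n => (D.Ln n).R') : Iinf ⊕ In → Subring F) (D.s + 1)
    ?_ ?_ ?_ hz₀ ?_
  · rintro (n | n)
    · exact (D.Linf n).R₁_le
    · exact (D.Ln n).R₁_le
  · rintro (n | n) i hi x hx hxi
    · -- smooth point: (K1)
      have hx' : x ∈ (D.Linf n).R' := hx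
      obtain ⟨r, hr, e⟩ := localPt_k1_pow (D.Linf n) hx' i (fun k => by rw [D.Linf_sheet]; exact hxi)
      refine ⟨r, hr, ?_⟩
      rw [e, sub_self]
      exact piDvd_zero
    · -- node
      have hx' : x ∈ (D.Ln n).R' := hx
      have hiL : i + 1 ≤ D.L n := le_trans (by omega) (D.le_L n)
      obtain ⟨r, hr, r', hr', e⟩ := D.nodeK1_inf_pow n i (by omega) hx' hxi
      refine ⟨r, hr, ?_⟩
      have : x - B.π ^ i * r = D.Y n * r' := by linear_combination e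
      rw [this]
      exact ((D.Y_piDvd n).mono D.Sinf.π_mem hiL).mul_right (D.Ln_le_inf n hr')
  · intro z hz hcov
    exact D.glob_inf z hz (fun n => hcov (Sum.inl n)) (fun n => hcov (Sum.inr n))
  · rintro (n | n)
    · exact h1 n
    · exact h2 n

/-- **(GLOB) modulo `π ^ (s + 1)` on the sheet `0`.** -/
theorem PLData.glob_zero_pow {z₀ : F} (hz₀ : z₀ ∈ D.S0.W)
    (h1 : ∀ n, ∃ r ∈ (D.L0 n).R', PiDvd B.π D.S0.W (D.s + 1) (z₀ - r))
    (h2 : ∀ n, ∃ r ∈ (D.Ln n).R', PiDvd B.π D.S0.W (D.s + 1) (z₀ - r)) :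
    ∃ β ∈ B.R₁, PiDvd B.π D.S0.W (D.s + 1) (z₀ - β) := by
  refine glob_induction D.S0
    (Sum.elim (fun n => (D.L0 n).R') (fun n => (D.Ln n).R') : I0 ⊕ In → Subring F) (D.s + 1)
    ?_ ?_ ?_ hz₀ ?_
  · rintro (n | n)
    · exact (D.L0 n).R₁_le
    · exact (D.Ln n).R₁_le
  · rintro (n | n) i hi x hx hxi
    · have hx' : x ∈ (D.L0 n).R' := hx
      obtain ⟨r, hr, e⟩ := localPt_k1_pow (D.L0 n) hx' i (fun k => by rw [D.L0_sheet]; exact hxi)
      refine ⟨r, hr, ?_⟩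
      rw [e, sub_self]
      exact piDvd_zero
    · have hx' : x ∈ (D.Ln n).R' := hx
      have hiL : i + 1 ≤ D.L n := le_trans (by omega) (D.le_L n)
      obtain ⟨r, hr, r', hr', e⟩ := D.nodeK1_zero_pow n i (by omega) hx' hxi
      refine ⟨r, hr, ?_⟩
      have : x - B.π ^ i * r = D.X n * r' := by linear_combination e
      rw [this]
      exact ((D.X_piDvd n).mono D.S0.π_mem hiL).mul_right (D.Ln_le_zero n hr')
  · intro z hz hcov
    exact D.glob_zero z hz (fun n => hcov (Sum.inl n)) (fun n => hcov (Sum.inr n))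
  · rintro (n | n)
    · exact h1 n
    · exact h2 n

/-- `π`, `X`, `Y` are non-units of the local ring of a node. -/
theorem PLData.X_nonUnit (n : In) : (D.Ln n).NonUnit (D.X n) := by
  have hL : 1 ≤ D.L n := le_trans (by have := D.s_pos; omega) (D.le_L n)
  refine LocalPt.nonUnit_of_piDvd (D.X_mem n) false ?_
  rw [D.Ln_false]
  exact (D.X_piDvd n).mono D.S0.π_mem hL

theorem PLData.Y_nonUnit (n : In) : (D.Ln n).NonUnit (D.Y n) := by
  have hL : 1 ≤ D.L n := le_trans (by have := D.s_pos; omega) (D.le_L n)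
  refine LocalPt.nonUnit_of_piDvd (D.Y_mem n) true ?_
  rw [D.Ln_true]
  exact (D.Y_piDvd n).mono D.Sinf.π_mem hL

theorem PLData.π_nonUnit (n : In) : (D.Ln n).NonUnit B.π := by
  refine LocalPt.nonUnit_of_piDvd (D.Ln n).π_mem true ?_
  rw [D.Ln_true]
  exact ⟨1, D.Sinf.W.one_mem, by ring⟩

/-- **the constants of the two branches at a node agree modulo `π ^ (s + 1)`** (a consequence of
the structure of the prime ideals of the two branches and `X Y = q = unit · π ^ L`, `s + 1 ≤ L`). -/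
theorem PLData.node_glue (n : In) (u : F) (hu : u ∈ (D.Ln n).R') (b : F) (hb : b ∈ B.R₁) (b' : F)
    (hb' : b' ∈ B.R₁) (h1 : PiDvd B.π D.Sinf.W (D.s + 1) (u - b))
    (h2 : PiDvd B.π D.S0.W (D.s + 1) (u - b')) :
    PiDvd B.π B.R₁ (D.s + 1) (b - b') := by
  have hO := (D.Ln n).R'
  have hbO : b ∈ (D.Ln n).R' := (D.Ln n).R₁_le hb
  have hb'O : b' ∈ (D.Ln n).R' := (D.Ln n).R₁_le hb'
  obtain ⟨r₁, hr₁, r₂, hr₂, e₁⟩ := D.nodeK1_inf_pow n (D.s + 1) (D.le_L n)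
    ((D.Ln n).R'.sub_mem hu hbO) h1
  obtain ⟨r₃, hr₃, r₄, hr₄, e₂⟩ := D.nodeK1_zero_pow n (D.s + 1) (D.le_L n)
    ((D.Ln n).R'.sub_mem hu hb'O) h2
  obtain ⟨uq, huq, hq⟩ := D.q_eq n
  have hXY := D.X_mul_Y n
  rw [hq] at hXY
  have hX0 := (D.X_unit n).2.2
  have hY0 := (D.Y_unit n).2.2
  have hπ0 := B.π_ne_zero
  -- `d = b - b' = π ^ (s + 1) r₀ + X r₄ - Y r₂`
  have ed : b - b' = B.π ^ (D.s + 1) * (r₃ - r₁) + D.X n * r₄ - D.Y n * r₂ := by
    linear_combination e₂ - e₁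
  -- induction
  have key : ∀ j : ℕ, j ≤ D.s + 1 → PiDvd B.π B.R₁ j (b - b') := by
    intro j
    induction j with
    | zero => intro _; exact piDvd_zero_iff.mpr (B.R₁.sub_mem hb hb')
    | succ j ih =>
      intro hj
      obtain ⟨d₁, hd₁, ed₁⟩ := ih (by omega)
      obtain ⟨a, ha⟩ : ∃ a, D.s + 1 = j + (a + 1) := ⟨D.s - j, by omega⟩
      obtain ⟨c, hc⟩ : ∃ c, D.L n = j + (c + 1) := ⟨D.L n - j - 1, by have := D.le_L n; omega⟩
      have hjL : j ≤ D.L n := by omega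
      -- `r₄ ∈ π ^ j W_∞`
      have h4 : PiDvd B.π D.Sinf.W j r₄ := by
        refine ⟨((D.X n)⁻¹) ^ 2 * (d₁ * D.X n - B.π ^ (a + 1) * (r₃ - r₁) * D.X n +
          uq * B.π ^ (c + 1) * r₂), ?_, ?_⟩
        · refine D.Sinf.W.mul_mem (D.Sinf.W.pow_mem (D.X_unit n).2.1 2) ?_
          refine D.Sinf.W.add_mem (D.Sinf.W.sub_mem ?_ ?_) ?_
          · exact D.Sinf.W.mul_mem (D.Sinf.R₁_le hd₁) (D.X_unit n).1
          · exact D.Sinf.W.mul_mem (D.Sinf.W.mul_mem (D.Sinf.W.pow_mem D.Sinf.π_mem _)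
              (D.Ln_le_inf n ((D.Ln n).R'.sub_mem hr₃ hr₁))) (D.X_unit n).1
          · exact D.Sinf.W.mul_mem (D.Sinf.W.mul_mem (D.Sinf.R₁_le huq.1)
              (D.Sinf.W.pow_mem D.Sinf.π_mem _)) (D.Ln_le_inf n hr₂)
        · have e3 : D.X n ^ 2 * r₄ = B.π ^ j * (d₁ * D.X n - B.π ^ (a + 1) * (r₃ - r₁) * D.X n +
              uq * B.π ^ (c + 1) * r₂) := by
            have e4 : B.π ^ (D.s + 1) = B.π ^ j * B.π ^ (a + 1) := by rw [ha, pow_add]
            have e5 : B.π ^ D.L n = B.π ^ j * B.π ^ (c + 1) := by rw [hc, pow_add]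
            rw [e5] at hXY
            rw [e4] at ed
            linear_combination (-D.X n) * ed + (D.X n) * ed₁ + r₂ * hXY
          field_simp
          linear_combination e3
      -- `r₂ ∈ π ^ j W_0`
      have h2' : PiDvd B.π D.S0.W j r₂ := by
        refine ⟨((D.Y n)⁻¹) ^ 2 * (-(d₁ * D.Y n) + B.π ^ (a + 1) * (r₃ - r₁) * D.Y n +
          uq * B.π ^ (c + 1) * r₄), ?_, ?_⟩
        · refine D.S0.W.mul_mem (D.S0.W.pow_mem (D.Y_unit n).2.1 2) ?_
          refine D.S0.W.add_mem (D.S0.W.add_mem ?_ ?_) ?_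
          · exact D.S0.W.neg_mem (D.S0.W.mul_mem (D.S0.R₁_le hd₁) (D.Y_unit n).1)
          · exact D.S0.W.mul_mem (D.S0.W.mul_mem (D.S0.W.pow_mem D.S0.π_mem _)
              (D.Ln_le_zero n ((D.Ln n).R'.sub_mem hr₃ hr₁))) (D.Y_unit n).1
          · exact D.S0.W.mul_mem (D.S0.W.mul_mem (D.S0.R₁_le huq.1)
              (D.S0.W.pow_mem D.S0.π_mem _)) (D.Ln_le_zero n hr₄)
        · have e3 : D.Y n ^ 2 * r₂ = B.π ^ j * (-(d₁ * D.Y n) + B.π ^ (a + 1) * (r₃ - r₁) * D.Y n +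
              uq * B.π ^ (c + 1) * r₄) := by
            have e4 : B.π ^ (D.s + 1) = B.π ^ j * B.π ^ (a + 1) := by rw [ha, pow_add]
            have e5 : B.π ^ D.L n = B.π ^ j * B.π ^ (c + 1) := by rw [hc, pow_add]
            rw [e5] at hXY
            rw [e4] at ed
            linear_combination (D.Y n) * ed - (D.Y n) * ed₁ + r₄ * hXY
          field_simp
          linear_combination e3
      obtain ⟨r₅, hr₅, r₆, hr₆, e₅⟩ := D.nodeK1_inf_pow n j hjL hr₄ h4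
      obtain ⟨r₇, hr₇, r₈, hr₈, e₇⟩ := D.nodeK1_zero_pow n j hjL hr₂ h2'
      -- `d₁` is a non-unit of the local ring
      have hd₁eq : d₁ = B.π * (B.π ^ a * (r₃ - r₁)) + D.X n * r₅ - D.Y n * r₇ +
          B.π * (uq * B.π ^ c * (r₆ - r₈)) := by
        have e4 : B.π ^ (D.s + 1) = B.π ^ j * B.π ^ (a + 1) := by rw [ha, pow_add]
        have e5 : B.π ^ D.L n = B.π ^ j * B.π ^ (c + 1) := by rw [hc, pow_add]
        rw [e5] at hXY
        rw [e4, e₅, e₇, ed₁] at ed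
        have hπj : B.π ^ j ≠ 0 := pow_ne_zero j hπ0
        apply mul_left_cancel₀ hπj
        linear_combination ed + (r₆ - r₈) * hXY
      have hπO : ∀ k : ℕ, B.π ^ k ∈ (D.Ln n).R' := fun k => (D.Ln n).R'.pow_mem (D.Ln n).π_mem k
      have hnu : (D.Ln n).NonUnit d₁ := by
        rw [hd₁eq]
        refine LocalPt.NonUnit.add (LocalPt.NonUnit.sub (LocalPt.NonUnit.add ?_ ?_) ?_) ?_
        · have := (D.π_nonUnit n).mul_left
            ((D.Ln n).R'.mul_mem (hπO a) ((D.Ln n).R'.sub_mem hr₃ hr₁))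
          rwa [mul_comm] at this
        · have := (D.X_nonUnit n).mul_left hr₅
          rwa [mul_comm] at this
        · have := (D.Y_nonUnit n).mul_left hr₇
          rwa [mul_comm] at this
        · have := (D.π_nonUnit n).mul_left ((D.Ln n).R'.mul_mem
            ((D.Ln n).R'.mul_mem ((D.Ln n).R₁_le huq.1) (hπO c)) ((D.Ln n).R'.sub_mem hr₆ hr₈))
          rwa [mul_comm] at this
      obtain ⟨d₂, hd₂, ed₂⟩ := LocalPt.const_piDvd_of_nonUnit hd₁ hnu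
      refine ⟨d₂, hd₂, ?_⟩
      rw [ed₁, ed₂]
      ring
  exact key (D.s + 1) le_rfl

end Node

end Fermat.Agent.MP
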