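import Mathlib
import Fermat.Agent.MP.PLABS_helper9_Glob
import Fermat.Agent.NP.EXT_helper5_Main
import Fermat.Agent.NP.OLDP_helper7_Sheet

/-!
# Project MP40 — C2 [PL-ABS] helper9: the local analysis at a closed point

* `piDvd_mul_sub_one`, `piDvd_inv_sub_one`, `isUnitIn_zpow` : the calculus of `1`-units;
* `PLData.θ = 1 + ω π ^ s`, `PLData.τ_ratio_const`, `PLData.τ_ratio_unit`, `PLData.τ_ratio_sheet`,
  `PLData.τ_ratio_pow_mul` : the ratios `τ x / x`;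
* **`PLData.local_key`** : at a closed point with `f = c m v G ^ p` (`τ m = m`) and
  `τ f / f = C_i γ_i ^ p (1 + π ^ N z_i)` on the sheets through the point (`N` in the Hensel range):
  there are `c_P ∈ R₁ˣ`, `δ ∈ O_Pˣ` and constants `b_i ∈ K₁ˣ` with `(C_i / c_P) b_i ^ p ≡ 1 mod π ^ N`
  and `γ_i ≡ (τ G / G) δ b_i mod π ^ (s + 1)` (multiplicatively);
* `PLData.sheet_point` : the resulting congruence for the unit part of `γ_i`.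
-/

set_option autoImplicit false

namespace Fermat.Agent.MP

open Fermat.Agent.NP

variable {F : Type*} [Field F] {p : ℕ} {B : DepthBase F p}

section OneUnits

variable {S : Subring F} {π : F} {j : ℕ} {x y : F}

/-- integral powers of units. -/
theorem isUnitIn_zpow (hx : IsUnitIn S x) (n : ℤ) : IsUnitIn S (x ^ n) := by
  rcases Int.le_total 0 n with hn | hn
  · obtain ⟨k, rfl⟩ := Int.eq_ofNat_of_zero_le hn
    rw [zpow_natCast]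
    exact hx.pow k
  · obtain ⟨k, hk⟩ := Int.eq_ofNat_of_zero_le (neg_nonneg.mpr hn)
    have : x ^ n = (x ^ k)⁻¹ := by
      rw [← zpow_natCast, ← hk, zpow_neg, inv_inv]
    rw [this]
    exact (hx.pow k).inv

/-- the product of two `1`-units. -/
theorem piDvd_mul_sub_one (hy : y ∈ S) (hx1 : PiDvd π S j (x - 1)) (hy1 : PiDvd π S j (y - 1)) :
    PiDvd π S j (x * y - 1) := by
  have e : x * y - 1 = (x - 1) * y + (y - 1) := by ring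
  rw [e]
  exact (hx1.mul_right hy).add hy1

/-- the inverse of a `1`-unit. -/
theorem piDvd_inv_sub_one (hxi : x⁻¹ ∈ S) (hx0 : x ≠ 0) (hx1 : PiDvd π S j (x - 1)) :
    PiDvd π S j (x⁻¹ - 1) := by
  have e : x⁻¹ - 1 = -((x - 1) * x⁻¹) := by
    field_simp
    ring
  rw [e]
  exact (hx1.mul_right hxi).neg

/-- the quotient of two `1`-units. -/
theorem piDvd_div_sub_one (hyi : y⁻¹ ∈ S) (hy0 : y ≠ 0) (hx1 : PiDvd π S j (x - 1))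
    (hy1 : PiDvd π S j (y - 1)) : PiDvd π S j (x / y - 1) := by
  rw [div_eq_mul_inv]
  exact piDvd_mul_sub_one hyi hx1 (piDvd_inv_sub_one hyi hy0 hy1)

end OneUnits

section Tau

variable {Iinf I0 In : Type*} (D : PLData B Iinf I0 In)

/-- `θ = τ π / π = 1 + ω π ^ s`. -/
def PLData.θ : F := 1 + D.ω * B.π ^ D.s

theorem PLData.θ_unit : IsUnitIn B.R₁ D.θ := by
  apply B.isUnitIn_one_add
  obtain ⟨k, hk⟩ := Nat.exists_eq_add_of_le D.s_pos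
  refine ⟨D.ω * B.π ^ k, B.R₁.mul_mem D.ω_unit.1 (B.R₁.pow_mem B.π_mem k), ?_⟩
  rw [hk]
  ring

theorem PLData.τ_ne_zero {x : F} (hx : x ≠ 0) : D.τ x ≠ 0 :=
  (map_ne_zero_iff D.τ D.τ.injective).mpr hx

theorem PLData.τ_π_div : D.τ B.π / B.π = D.θ := by
  rw [D.τ_π, PLData.θ]
  have := B.π_ne_zero
  field_simp

/-- `τ` preserves the units of `R₁`. -/
theorem PLData.τ_isUnitIn_R₁ {u : F} (hu : IsUnitIn B.R₁ u) : IsUnitIn B.R₁ (D.τ u) := by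
  refine ⟨D.τ_R₁ u hu.1, ?_, D.τ_ne_zero hu.2.2⟩
  rw [← map_inv₀]
  exact D.τ_R₁ _ hu.2.1

/-- `τ c / c` is a unit of `R₁` for a nonzero constant `c`. -/
theorem PLData.τ_ratio_const {c : F} (hc : c ∈ B.K₁) (hc0 : c ≠ 0) :
    IsUnitIn B.R₁ (D.τ c / c) := by
  obtain ⟨n, u, hu, hu', rfl⟩ := B.unif_const c hc hc0
  have hu0 : u ≠ 0 := by
    rintro rfl
    simp at hc0
  have huU : IsUnitIn B.R₁ u := ⟨hu, hu', hu0⟩
  have e : D.τ (B.π ^ n * u) / (B.π ^ n * u) = D.θ ^ n * (D.τ u * u⁻¹) := by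
    rw [map_mul, map_zpow₀, ← D.τ_π_div, div_zpow]
    have h1 : B.π ^ n ≠ 0 := zpow_ne_zero _ B.π_ne_zero
    field_simp
  rw [e]
  exact (isUnitIn_zpow D.θ_unit n).mul ((D.τ_isUnitIn_R₁ huU).mul huU.inv)

/-- `τ v / v` is a unit of a `τ`-stable subring for a unit `v` of it. -/
theorem PLData.τ_ratio_unit {R' : Subring F} (hτ : ∀ x ∈ R', D.τ x ∈ R') {v : F}
    (hv : IsUnitIn R' v) : IsUnitIn R' (D.τ v / v) := by
  have h1 : IsUnitIn R' (D.τ v) := by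
    refine ⟨hτ v hv.1, ?_, D.τ_ne_zero hv.2.2⟩
    rw [← map_inv₀]
    exact hτ _ hv.2.1
  rw [div_eq_mul_inv]
  exact h1.mul hv.inv

/-- `τ y / y ≡ 1 mod π ^ (s + 1)` for a unit `y` of a sheet on which `τ ≡ id mod π ^ (s + 1)`. -/
theorem PLData.τ_ratio_sheet (S : Sheet B)
    (hτS : ∀ x ∈ S.W, PiDvd B.π S.W (D.s + 1) (D.τ x - x)) {y : F} (hy : IsUnitIn S.W y) :
    PiDvd B.π S.W (D.s + 1) (D.τ y / y - 1) := by
  have e : D.τ y / y - 1 = (D.τ y - y) * y⁻¹ := by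
    have := hy.2.2
    field_simp
  rw [e]
  exact (hτS y hy.1).mul_right hy.2.1

/-- `τ (π ^ μ y) / (π ^ μ y) = θ ^ μ · τ y / y`. -/
theorem PLData.τ_ratio_pow_mul (μ : ℤ) {y : F} (hy0 : y ≠ 0) :
    D.τ (B.π ^ μ * y) / (B.π ^ μ * y) = D.θ ^ μ * (D.τ y / y) := by
  rw [map_mul, map_zpow₀, ← D.τ_π_div, div_zpow]
  have h1 : B.π ^ μ ≠ 0 := zpow_ne_zero _ B.π_ne_zero
  field_simp

end Tau

section Local

variable {Iinf I0 In : Type*} (D : PLData B Iinf I0 In)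

/-- **the local analysis at a closed point.** -/
theorem PLData.local_key (hp : p.Prime) {ι : Type*} [Nonempty ι] (L : LocalPt B ι)
    (hLτ : ∀ x ∈ L.R', D.τ x ∈ L.R')
    {f c m v G : F} (hc : c ∈ B.K₁) (hc0 : c ≠ 0) (hm0 : m ≠ 0)
    (hτm : IsUnitIn L.R' (D.τ m / m))
    (hv : IsUnitIn L.R' v) (hG0 : G ≠ 0) (hf : f = c * m * v * G ^ p) {N : ℕ}
    (hN : B.e₁ * p < N * (p - 1)) (hN2 : (D.s + 1) * p ≤ N)
    (C γ z : ι → F) (hCK : ∀ i, C i ∈ B.K₁) (hC0 : ∀ i, C i ≠ 0) (hγ0 : ∀ i, γ i ≠ 0)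
    (hz : ∀ i, z i ∈ (L.sheet i).W)
    (hg : ∀ i, D.τ f / f = C i * γ i ^ p * (1 + B.π ^ N * z i)) :
    ∃ cP δ, IsUnitIn B.R₁ cP ∧ IsUnitIn L.R' δ ∧ ∀ i, ∃ b ∈ B.K₁, b ≠ 0 ∧
      PiDvd B.π B.R₁ N (C i / cP * b ^ p - 1) ∧
      PiDvd B.π (L.sheet i).W (D.s + 1) (γ i / (D.τ G / G * δ * b) - 1) := by
  classical
  have hN1 : 1 ≤ N := by
    by_contra h0
    have : N = 0 := by omega
    rw [this] at hN
    omega
  -- `τ f / f = v' ψ ^ p`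
  obtain ⟨ψ, hψ⟩ : ∃ ψ : F, ψ = D.τ G / G := ⟨_, rfl⟩
  have hψ0 : ψ ≠ 0 := by
    rw [hψ]
    exact div_ne_zero (D.τ_ne_zero hG0) hG0
  obtain ⟨v', hv'def⟩ : ∃ v' : F, v' = D.τ c / c * (D.τ m / m) * (D.τ v / v) := ⟨_, rfl⟩
  have hv' : IsUnitIn L.R' v' := by
    rw [hv'def]
    exact (((D.τ_ratio_const hc hc0).of_le L.R₁_le).mul hτm).mul (D.τ_ratio_unit hLτ hv)
  have hv0 : v ≠ 0 := hv.2.2
  have hfac : D.τ f / f = v' * ψ ^ p := by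
    rw [hf, map_mul, map_mul, map_mul, map_pow, hv'def, hψ, div_pow]
    have h1 := D.τ_ne_zero hG0
    field_simp
  -- the hypothesis of `ext_hensel`
  have hone : ∀ i, IsUnitIn (L.sheet i).W (1 + B.π ^ N * z i) := fun i =>
    (L.sheet i).isUnitIn_one_add_pow_mul hN1 (hz i)
  have ev : ∀ i, v' = C i * (γ i / ψ) ^ p * (1 + B.π ^ N * z i) := by
    intro i
    have h1 : v' * ψ ^ p = C i * γ i ^ p * (1 + B.π ^ N * z i) := by rw [← hfac, hg i]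
    have h2 : ψ ^ p ≠ 0 := pow_ne_zero p hψ0
    rw [div_pow]
    field_simp
    linear_combination h1
  have hcg : ∀ i, C i * (γ i / ψ) ^ p ∈ (L.sheet i).W := by
    intro i
    have h1 : C i * (γ i / ψ) ^ p = v' * (1 + B.π ^ N * z i)⁻¹ := by
      have := (hone i).2.2
      rw [ev i]
      field_simp
    rw [h1]
    exact (L.sheet i).W.mul_mem (L.le_sheet i hv'.1) (hone i).2.1
  have hroots : ∀ i, ∃ c' ∈ B.K₁, ∃ γ' : F, c' ≠ 0 ∧ γ' ≠ 0 ∧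
      PiDvd B.π (L.sheet i).W N (v' - c' * γ' ^ p) := by
    intro i
    refine ⟨C i, hCK i, γ i / ψ, hC0 i, div_ne_zero (hγ0 i) hψ0,
      C i * (γ i / ψ) ^ p * z i, (L.sheet i).W.mul_mem (hcg i) (hz i), ?_⟩
    have := ev i
    linear_combination this
  obtain ⟨cP, δ, hcP, hδ, r₀, hr₀, er⟩ := L.ext_hensel hp hv' hN hroots N
  refine ⟨cP, δ, hcP, hδ, fun i => ?_⟩
  have hcδ : IsUnitIn L.R' (cP * δ ^ p) := (hcP.of_le L.R₁_le).mul (hδ.pow p)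
  obtain ⟨r, hr⟩ : ∃ r, r = r₀ * (cP * δ ^ p)⁻¹ := ⟨_, rfl⟩
  have hrR : r ∈ L.R' := by
    rw [hr]
    exact L.R'.mul_mem hr₀ hcδ.2.1
  have ev2 : v' = cP * δ ^ p * (1 + B.π ^ N * r) := by
    rw [hr]
    have h1 : cP * δ ^ p * (cP * δ ^ p)⁻¹ = 1 := mul_inv_cancel₀ hcδ.2.2
    linear_combination er - B.π ^ N * r₀ * h1
  have hcP0 := hcP.2.2
  have hδ0 := hδ.2.2
  have hδp : δ ^ p ≠ 0 := pow_ne_zero p hδ0
  have hz1 := (hone i).2.2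
  -- `(C / cP) (γ / (ψ δ)) ^ p = 1 + π ^ N t`
  obtain ⟨t, ht⟩ : ∃ t : F, t = (r - z i) * (1 + B.π ^ N * z i)⁻¹ := ⟨_, rfl⟩
  have htW : t ∈ (L.sheet i).W := by
    rw [ht]
    exact (L.sheet i).W.mul_mem ((L.sheet i).W.sub_mem (L.le_sheet i hrR) (hz i)) (hone i).2.1
  have hrel : C i / cP * (γ i / (ψ * δ)) ^ p = 1 + B.π ^ N * t := by
    have h1 : cP * δ ^ p * (1 + B.π ^ N * r) = C i * (γ i / ψ) ^ p * (1 + B.π ^ N * z i) := by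
      rw [← ev2, ← ev i]
    have h2 : ψ ^ p ≠ 0 := pow_ne_zero p hψ0
    rw [ht, div_pow, mul_pow]
    rw [div_pow] at h1
    field_simp
    field_simp at h1
    linear_combination (-1 : F) * h1
  obtain ⟨b, hbK, hb0, hb⟩ := (L.sheet i).const_depth hp
    (B.K₁.div_mem (hCK i) (B.R₁_le _ hcP.1)) (div_ne_zero (hC0 i) hcP0)
    (div_ne_zero (hγ0 i) (mul_ne_zero hψ0 hδ0)) htW hN1 hrel
  refine ⟨b, hbK, hb0, hb, ?_⟩
  -- `ξ ^ p ≡ 1 mod π ^ N`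
  obtain ⟨t', ht', et'⟩ := hb
  have hA : IsUnitIn (L.sheet i).W (1 + B.π ^ N * t') :=
    (L.sheet i).isUnitIn_one_add_pow_mul hN1 ((L.sheet i).R₁_le ht')
  have hbp : b ^ p ≠ 0 := pow_ne_zero p hb0
  have hξp : (γ i / (ψ * δ * b)) ^ p = (1 + B.π ^ N * t) / (1 + B.π ^ N * t') := by
    have h1 : C i / cP * b ^ p = 1 + B.π ^ N * t' := by linear_combination et'
    rw [← hrel, ← h1, div_pow, div_pow, mul_pow (ψ * δ)]
    have h2 : (ψ * δ) ^ p ≠ 0 := pow_ne_zero p (mul_ne_zero hψ0 hδ0)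
    have h3 := hC0 i
    field_simp
  rw [← hψ]
  apply sheet_piDvd_sub_one_of_pow (L.sheet i) hp D.peu hN2 hN1
  rw [hξp]
  apply piDvd_div_sub_one hA.2.1 hA.2.2
  · exact ⟨t, htW, by ring⟩
  · exact ⟨t', (L.sheet i).R₁_le ht', by ring⟩

/-- **the congruence for the unit part of `γ` at a point of a sheet**: if
`γ ≡ (τ G / G) δ b mod π ^ (s + 1)` multiplicatively, `γ = π ^ ν y_γ`, `G = π ^ μ y`, then
`y_γ⁻¹ ≡ κ δ⁻¹` with the constant `κ = π ^ ν θ ^ (-μ) b⁻¹ ∈ R₁ˣ`. -/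
theorem PLData.sheet_point (S : Sheet B)
    (hτS : ∀ x ∈ S.W, PiDvd B.π S.W (D.s + 1) (D.τ x - x))
    {R' : Subring F} (hR' : R' ≤ S.W) {δ b γ G yγ y : F} {ν μ : ℤ}
    (hδ : IsUnitIn R' δ) (hbK : b ∈ B.K₁) (hb0 : b ≠ 0)
    (hyγ : IsUnitIn S.W yγ) (hγ : γ = B.π ^ ν * yγ) (hy : IsUnitIn S.W y) (hG : G = B.π ^ μ * y)
    (hξ : PiDvd B.π S.W (D.s + 1) (γ / (D.τ G / G * δ * b) - 1)) :
    IsUnitIn B.R₁ (B.π ^ ν * (D.θ ^ μ)⁻¹ * b⁻¹) ∧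
      PiDvd B.π S.W (D.s + 1) (yγ⁻¹ - B.π ^ ν * (D.θ ^ μ)⁻¹ * b⁻¹ * δ⁻¹) := by
  have hs1 : 1 ≤ D.s + 1 := by omega
  obtain ⟨E₁, hE₁⟩ : ∃ E₁ : F, E₁ = D.τ y / y := ⟨_, rfl⟩
  have hE₁1 : PiDvd B.π S.W (D.s + 1) (E₁ - 1) := by
    rw [hE₁]
    exact D.τ_ratio_sheet S hτS hy
  have hψ : D.τ G / G = D.θ ^ μ * E₁ := by
    rw [hG, hE₁]
    exact D.τ_ratio_pow_mul μ hy.2.2
  obtain ⟨ξ, hξdef⟩ : ∃ ξ : F, ξ = γ / (D.τ G / G * δ * b) := ⟨_, rfl⟩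
  rw [← hξdef] at hξ
  have hE₁U : IsUnitIn S.W E₁ := by
    have e : E₁ = 1 + (E₁ - 1) := by ring
    rw [e]
    exact S.isUnitIn_one_add (hE₁1.mono S.π_mem hs1)
  have hξU : IsUnitIn S.W ξ := by
    have e : ξ = 1 + (ξ - 1) := by ring
    rw [e]
    exact S.isUnitIn_one_add (hξ.mono S.π_mem hs1)
  have hEU : IsUnitIn S.W (E₁ * ξ) := hE₁U.mul hξU
  have hE1 : PiDvd B.π S.W (D.s + 1) (E₁ * ξ - 1) := piDvd_mul_sub_one hξU.1 hE₁1 hξ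
  have hEinv : PiDvd B.π S.W (D.s + 1) ((E₁ * ξ)⁻¹ - 1) :=
    piDvd_inv_sub_one hEU.2.1 hEU.2.2 hE1
  have hθ0 : D.θ ^ μ ≠ 0 := zpow_ne_zero _ D.θ_unit.2.2
  have hπν : B.π ^ ν ≠ 0 := zpow_ne_zero _ B.π_ne_zero
  have hδ0 := hδ.2.2
  have hyγ0 := hyγ.2.2
  have hE₁0 := hE₁U.2.2
  have hξ0 := hξU.2.2
  -- `y_γ⁻¹ = κ δ⁻¹ E⁻¹`
  have hγξ : γ = D.θ ^ μ * E₁ * δ * b * ξ := by
    rw [hξdef, hψ]
    field_simp
  have hkey : yγ⁻¹ = B.π ^ ν * (D.θ ^ μ)⁻¹ * b⁻¹ * δ⁻¹ * (E₁ * ξ)⁻¹ := by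
    have h1 : B.π ^ ν * yγ = D.θ ^ μ * E₁ * δ * b * ξ := by rw [← hγ, ← hγξ]
    field_simp
    linear_combination (-1 : F) * h1
  have hκeq : B.π ^ ν * (D.θ ^ μ)⁻¹ * b⁻¹ = yγ⁻¹ * δ * (E₁ * ξ) := by
    rw [hkey]
    field_simp
  have hδW : IsUnitIn S.W δ := hδ.of_le hR'
  have hκW : IsUnitIn S.W (B.π ^ ν * (D.θ ^ μ)⁻¹ * b⁻¹) := by
    rw [hκeq]
    exact (hyγ.inv.mul hδW).mul hEU
  have hθK : D.θ ^ μ ∈ B.K₁ := B.K₁.zpow_mem (B.R₁_le _ D.θ_unit.1) μ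
  have hκK : B.π ^ ν * (D.θ ^ μ)⁻¹ * b⁻¹ ∈ B.K₁ :=
    B.K₁.mul_mem (B.K₁.mul_mem (B.K₁.zpow_mem B.π_mem_K₁ ν) (B.K₁.inv_mem hθK))
      (B.K₁.inv_mem hbK)
  refine ⟨⟨S.const_mem _ hκK hκW.1, S.const_mem _ (B.K₁.inv_mem hκK) hκW.2.1, hκW.2.2⟩, ?_⟩
  have e : yγ⁻¹ - B.π ^ ν * (D.θ ^ μ)⁻¹ * b⁻¹ * δ⁻¹ =
      B.π ^ ν * (D.θ ^ μ)⁻¹ * b⁻¹ * δ⁻¹ * ((E₁ * ξ)⁻¹ - 1) := by
    rw [hkey]
    ring
  rw [e]
  exact hEinv.mul_left (S.W.mul_mem hκW.1 hδW.2.1)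

end Local

end Fermat.Agent.MP
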