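import Mathlib
import Fermat.Agent.MP.PLABS_helper9_Local

/-!
# Project MP40 — C2 [PL-ABS] helper9: abstract first-order Picard–Lefschetz, the theorem

**`PLFact.sq_dvd`** : `p ^ 2 ∣ k n * L n - k n' * L n'` for two nodes `n`, `n'`;
`PLFact.modEq_of_thin` : if all the nodes have the same thickness `L₀` with `p ∣ L₀`, `p ^ 2 ∤ L₀`,
then `k n ≡ k n' mod p`.
-/

set_option autoImplicit false

namespace Fermat.Agent.MP

open Fermat.Agent.NP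

variable {F : Type*} [Field F] {p : ℕ} {B : DepthBase F p}

section Algebra

variable {Iinf I0 In : Type*} (D : PLData B Iinf I0 In)

/-- `θ ^ M ≡ 1 mod π ^ (s + 1)` for a natural number `M` implies `p ∣ M`. -/
theorem PLData.dvd_of_theta_pow (hp : p.Prime) {M : ℕ}
    (h : PiDvd B.π B.R₁ (D.s + 1) (D.θ ^ M - 1)) : (p : ℤ) ∣ (M : ℤ) := by
  have hx : D.ω * B.π ^ D.s ∈ B.R₁ := B.R₁.mul_mem D.ω_unit.1 (B.R₁.pow_mem B.π_mem _)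
  obtain ⟨r, hr, e⟩ := one_add_pow_eq_two_subring B.R₁ hx M
  obtain ⟨s', hs'⟩ := Nat.exists_eq_add_of_le D.s_pos
  -- `π ^ (s + 1) ∣ M ω π ^ s`
  have h1 : PiDvd B.π B.R₁ (D.s + 1) (B.π ^ D.s * ((M : F) * D.ω)) := by
    have e2 : B.π ^ D.s * ((M : F) * D.ω) =
        (D.θ ^ M - 1) - B.π ^ (D.s + 1) * (B.π ^ s' * D.ω ^ 2 * r) := by
      unfold PLData.θ
      rw [e]
      have e3 : B.π ^ (D.s + 1) * B.π ^ s' = (B.π ^ D.s) ^ 2 := by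
        rw [← pow_add, ← pow_mul]
        congr 1
        omega
      linear_combination (D.ω ^ 2 * r) * e3
    rw [e2]
    exact h.sub (piDvd_pow_mul (B.R₁.mul_mem (B.R₁.mul_mem (B.R₁.pow_mem B.π_mem _)
      (B.R₁.pow_mem D.ω_unit.1 _)) hr))
  rw [piDvd_pow_mul_iff B.π_ne_zero] at h1
  have h2 : PiDvd B.π B.R₁ 1 ((M : F)) := by
    have e4 : (M : F) = (M : F) * D.ω * D.ω⁻¹ := by
      have := D.ω_unit.2.2
      field_simp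
    rw [e4]
    exact h1.mul_right D.ω_unit.2.1
  have h3 : PiDvd B.π B.R₁ 1 (((M : ℤ) : F)) := by
    push_cast
    exact h2
  exact depthBase_prime_dvd_of_piDvd_intCast B hp h3

/-- `θ ^ M ≡ 1 mod π ^ (s + 1)` for an integer `M` implies `p ∣ M`. -/
theorem PLData.dvd_of_theta_zpow (hp : p.Prime) {M : ℤ}
    (h : PiDvd B.π B.R₁ (D.s + 1) (D.θ ^ M - 1)) : (p : ℤ) ∣ M := by
  rcases Int.le_total 0 M with hM | hM
  · obtain ⟨m, rfl⟩ := Int.eq_ofNat_of_zero_le hM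
    rw [zpow_natCast] at h
    exact D.dvd_of_theta_pow hp h
  · obtain ⟨m, hm⟩ := Int.eq_ofNat_of_zero_le (neg_nonneg.mpr hM)
    have hU := isUnitIn_zpow D.θ_unit M
    have h1 : PiDvd B.π B.R₁ (D.s + 1) ((D.θ ^ M)⁻¹ - 1) :=
      piDvd_inv_sub_one hU.2.1 hU.2.2 h
    rw [← zpow_neg, hm, zpow_natCast] at h1
    have h2 := D.dvd_of_theta_pow hp h1
    rw [← hm] at h2
    exact (Int.dvd_neg).mp h2

/-- cross-multiplication of two congruences. -/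
theorem piDvd_cross {S : Subring F} {π : F} {j : ℕ} {a a' c c' β β' : F}
    (ha' : a' ∈ S) (hc' : c' ∈ S) (hβ : IsUnitIn S β) (hβ' : IsUnitIn S β')
    (h1 : PiDvd π S j (a * β - a' * β')) (h2 : PiDvd π S j (c * β - c' * β')) :
    PiDvd π S j (a * c' - a' * c) := by
  have e : a * c' - a' * c =
      (β * β')⁻¹ * (c' * β' * (a * β - a' * β') - a' * β' * (c * β - c' * β')) := by
    have h3 := hβ.2.2
    have h4 := hβ'.2.2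
    field_simp
    ring
  rw [e]
  exact ((h1.mul_left (S.mul_mem hc' hβ'.1)).sub (h2.mul_left (S.mul_mem ha' hβ'.1))).mul_left
    (hβ.mul hβ').2.1

/-- a constant `ρ` with `ρ ^ p ≡ 1 mod π ^ N` is `≡ 1 mod π ^ (s + 1)`. -/
theorem PLData.const_root (hp : p.Prime) {ρ : F} (hρK : ρ ∈ B.K₁) {N : ℕ}
    (hN2 : (D.s + 1) * p ≤ N) (hN1 : 1 ≤ N) (h : PiDvd B.π B.R₁ N (ρ ^ p - 1)) :
    PiDvd B.π B.R₁ (D.s + 1) (ρ - 1) :=
  D.Sinf.const_piDvd (B.K₁.sub_mem hρK B.K₁.one_mem)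
    (sheet_piDvd_sub_one_of_pow D.Sinf hp D.peu hN2 hN1 (h.of_le D.Sinf.R₁_le))

/-- the `p`-th power of the cross-ratio of the constants `b` is `≡ 1 mod π ^ N`. -/
theorem piDvd_rho_pow (B : DepthBase F p) {N : ℕ} (hN1 : 1 ≤ N)
    {Cinf C0 cP cP' binf b0 binf' b0' : F} (hCinf : Cinf ≠ 0) (hC0 : C0 ≠ 0) (hcP : cP ≠ 0)
    (hcP' : cP' ≠ 0) (hbinf : binf ≠ 0) (hb0 : b0 ≠ 0) (hbinf' : binf' ≠ 0) (hb0' : b0' ≠ 0)
    (h1 : PiDvd B.π B.R₁ N (Cinf / cP * binf ^ p - 1))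
    (h2 : PiDvd B.π B.R₁ N (C0 / cP * b0 ^ p - 1))
    (h3 : PiDvd B.π B.R₁ N (Cinf / cP' * binf' ^ p - 1))
    (h4 : PiDvd B.π B.R₁ N (C0 / cP' * b0' ^ p - 1)) :
    PiDvd B.π B.R₁ N ((binf * b0' / (b0 * binf')) ^ p - 1) := by
  have hU : ∀ {x : F}, PiDvd B.π B.R₁ N (x - 1) → IsUnitIn B.R₁ x := by
    intro x hx
    have e : x = 1 + (x - 1) := by ring
    rw [e]
    exact B.isUnitIn_one_add (hx.mono B.π_mem hN1)
  have hU2 := hU h2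
  have hU3 := hU h3
  have hU4 := hU h4
  have e : (binf * b0' / (b0 * binf')) ^ p =
      (Cinf / cP * binf ^ p) * (C0 / cP' * b0' ^ p) /
        ((C0 / cP * b0 ^ p) * (Cinf / cP' * binf' ^ p)) := by
    rw [div_pow, mul_pow, mul_pow]
    have := pow_ne_zero p hb0
    have := pow_ne_zero p hbinf'
    field_simp
  rw [e]
  exact piDvd_div_sub_one (hU2.mul hU3).2.1 (hU2.mul hU3).2.2
    (piDvd_mul_sub_one hU4.1 h1 h4) (piDvd_mul_sub_one hU3.1 h2 h3)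

end Algebra

section Points

variable {Iinf I0 In : Type*} (D : PLData B Iinf I0 In)

/-- from the output of `local_key` on one sheet to the congruence for `y_γ⁻¹`. -/
theorem PLData.sheet_out (S : Sheet B)
    (hτS : ∀ x ∈ S.W, PiDvd B.π S.W (D.s + 1) (D.τ x - x))
    {R' : Subring F} (hR' : R' ≤ S.W) {δ b γ G yγ : F} {ν : ℤ}
    (hδ : IsUnitIn R' δ) (hbK : b ∈ B.K₁) (hb0 : b ≠ 0) (hG0 : G ≠ 0)
    (hyγ : IsUnitIn S.W yγ) (hγ : γ = B.π ^ ν * yγ)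
    (hξ : PiDvd B.π S.W (D.s + 1) (γ / (D.τ G / G * δ * b) - 1)) :
    ∃ (μ : ℤ) (y : F), IsUnitIn S.W y ∧ G = B.π ^ μ * y ∧
      IsUnitIn B.R₁ (B.π ^ ν * (D.θ ^ μ)⁻¹ * b⁻¹) ∧
      PiDvd B.π S.W (D.s + 1) (yγ⁻¹ - B.π ^ ν * (D.θ ^ μ)⁻¹ * b⁻¹ * δ⁻¹) := by
  obtain ⟨μ, y, hy, hy', hGy⟩ := S.unif G hG0
  have hy0 : y ≠ 0 := by
    rintro rfl
    rw [mul_zero] at hGy
    exact hG0 hGy
  have hyU : IsUnitIn S.W y := ⟨hy, hy', hy0⟩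
  obtain ⟨h1, h2⟩ := D.sheet_point S hτS hR' hδ hbK hb0 hyγ hγ hyU hGy hξ
  exact ⟨μ, y, hyU, hGy, h1, h2⟩

/-- **the covering hypothesis of (GLOB) at a smooth point.** -/
theorem PLData.cover_smooth (hp : p.Prime) (S : Sheet B)
    (hτS : ∀ x ∈ S.W, PiDvd B.π S.W (D.s + 1) (D.τ x - x))
    (L : LocalPt B Unit) (hL : ∀ k, L.sheet k = S) (hLτ : ∀ x ∈ L.R', D.τ x ∈ L.R')
    {f c v G : F} (hc : c ∈ B.K₁) (hc0 : c ≠ 0) (hv : IsUnitIn L.R' v) (hG0 : G ≠ 0)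
    (hf : f = c * v * G ^ p) {N : ℕ} (hN : B.e₁ * p < N * (p - 1)) (hN2 : (D.s + 1) * p ≤ N)
    {C γ z yγ : F} {ν : ℤ} (hCK : C ∈ B.K₁) (hC0 : C ≠ 0) (hγ0 : γ ≠ 0) (hz : z ∈ S.W)
    (hg : D.τ f / f = C * γ ^ p * (1 + B.π ^ N * z))
    (hyγ : IsUnitIn S.W yγ) (hγ : γ = B.π ^ ν * yγ) :
    ∃ r ∈ L.R', PiDvd B.π S.W (D.s + 1) (yγ⁻¹ - r) := by
  have hf' : f = c * 1 * v * G ^ p := by rw [hf]; ring
  obtain ⟨cP, δ, hcP, hδ, hall⟩ := D.local_key hp L hLτ hc hc0 one_ne_zero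
    (by rw [map_one, div_one]; exact isUnitIn_one) hv hG0
    hf' hN hN2 (fun _ => C) (fun _ => γ) (fun _ => z) (fun _ => hCK) (fun _ => hC0)
    (fun _ => hγ0) (fun k => by rw [hL]; exact hz) (fun _ => hg)
  obtain ⟨b, hbK, hb0, -, hξ⟩ := hall ()
  rw [hL] at hξ
  have hR' : L.R' ≤ S.W := by
    have := L.le_sheet ()
    rwa [hL] at this
  obtain ⟨μ, y, -, -, hκ, hcong⟩ := D.sheet_out S hτS hR' hδ hbK hb0 hG0 hyγ hγ hξ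
  exact ⟨B.π ^ ν * (D.θ ^ μ)⁻¹ * b⁻¹ * δ⁻¹, L.R'.mul_mem (L.R₁_le hκ.1) hδ.2.1, hcong⟩

/-- the output of the local analysis at a node. -/
structure NodeOut (D : PLData B Iinf I0 In) (f : F) (N : ℕ) (Cinf C0 yinf y0 : F) (νinf ν0 : ℤ)
    (n : In) (kn : ℤ) (a : ℤ) (cP binf b0 : F) (μinf μ0 : ℤ) : Prop where
  cP_ne : cP ≠ 0
  binf_mem : binf ∈ B.K₁
  binf_ne : binf ≠ 0
  b0_mem : b0 ∈ B.K₁
  b0_ne : b0 ≠ 0
  Ainf : PiDvd B.π B.R₁ N (Cinf / cP * binf ^ p - 1)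
  A0 : PiDvd B.π B.R₁ N (C0 / cP * b0 ^ p - 1)
  κinf_unit : IsUnitIn B.R₁ (B.π ^ νinf * (D.θ ^ μinf)⁻¹ * binf⁻¹)
  κ0_unit : IsUnitIn B.R₁ (B.π ^ ν0 * (D.θ ^ μ0)⁻¹ * b0⁻¹)
  cong : ∃ u ∈ (D.Ln n).R',
    PiDvd B.π D.Sinf.W (D.s + 1) (yinf⁻¹ - B.π ^ νinf * (D.θ ^ μinf)⁻¹ * binf⁻¹ * u) ∧
    PiDvd B.π D.S0.W (D.s + 1) (y0⁻¹ - B.π ^ ν0 * (D.θ ^ μ0)⁻¹ * b0⁻¹ * u)
  val_inf : ∃ w, IsUnitIn D.Sinf.W w ∧ f = B.π ^ (a + p * μinf) * w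
  val_zero : ∃ w, IsUnitIn D.S0.W w ∧ f = B.π ^ (a + kn * D.L n + p * μ0) * w

/-- **the local analysis at a node.** -/
theorem PLData.exists_nodeOut (hp : p.Prime) (n : In) {f c v G : F} {kn : ℤ}
    (hc : c ∈ B.K₁) (hc0 : c ≠ 0) (hv : IsUnitIn (D.Ln n).R' v) (hG0 : G ≠ 0)
    (hf : f = c * D.X n ^ kn * v * G ^ p) {N : ℕ} (hN : B.e₁ * p < N * (p - 1))
    (hN2 : (D.s + 1) * p ≤ N)
    {Cinf γinf zinf yinf C0 γ0 z0 y0 : F} {νinf ν0 : ℤ}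
    (hCinfK : Cinf ∈ B.K₁) (hCinf0 : Cinf ≠ 0) (hγinf0 : γinf ≠ 0) (hzinf : zinf ∈ D.Sinf.W)
    (hginf : D.τ f / f = Cinf * γinf ^ p * (1 + B.π ^ N * zinf))
    (hyinf : IsUnitIn D.Sinf.W yinf) (hγinf : γinf = B.π ^ νinf * yinf)
    (hC0K : C0 ∈ B.K₁) (hC00 : C0 ≠ 0) (hγ00 : γ0 ≠ 0) (hz0 : z0 ∈ D.S0.W)
    (hg0 : D.τ f / f = C0 * γ0 ^ p * (1 + B.π ^ N * z0))
    (hy0 : IsUnitIn D.S0.W y0) (hγ0 : γ0 = B.π ^ ν0 * y0) :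
    ∃ (a : ℤ) (cP binf b0 : F) (μinf μ0 : ℤ),
      NodeOut D f N Cinf C0 yinf y0 νinf ν0 n kn a cP binf b0 μinf μ0 := by
  have hX0 : D.X n ≠ 0 := (D.X_unit n).2.2
  have hY0 : D.Y n ≠ 0 := (D.Y_unit n).2.2
  have hτm : IsUnitIn (D.Ln n).R' (D.τ (D.X n ^ kn) / D.X n ^ kn) := by
    rw [map_zpow₀, ← div_zpow]
    exact isUnitIn_zpow (D.τ_X n) kn
  obtain ⟨cP, δ, hcP, hδ, hall⟩ := D.local_key hp (D.Ln n) (D.Ln_τ n) hc hc0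
    (zpow_ne_zero kn hX0) hτm hv hG0 hf hN hN2
    (fun i => cond i Cinf C0) (fun i => cond i γinf γ0) (fun i => cond i zinf z0)
    (fun i => by cases i <;> assumption) (fun i => by cases i <;> assumption)
    (fun i => by cases i <;> assumption)
    (fun i => by
      cases i
      · rw [D.Ln_false]; exact hz0
      · rw [D.Ln_true]; exact hzinf)
    (fun i => by cases i <;> assumption)
  obtain ⟨binf, hbinfK, hbinf0, hAinf, hξinf⟩ := hall true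
  obtain ⟨b0, hb0K, hb00, hA0, hξ0⟩ := hall false
  rw [D.Ln_true] at hξinf
  rw [D.Ln_false] at hξ0
  obtain ⟨μinf, yGinf, hyGinf, hGinf, hκinf, hconginf⟩ := D.sheet_out D.Sinf D.τ_inf
    (D.Ln_le_inf n) hδ hbinfK hbinf0 hG0 hyinf hγinf hξinf
  obtain ⟨μ0, yG0, hyG0, hG0', hκ0, hcong0⟩ := D.sheet_out D.S0 D.τ_zero
    (D.Ln_le_zero n) hδ hb0K hb00 hG0 hy0 hγ0 hξ0
  obtain ⟨a, uc, huc, huc', hcu⟩ := B.unif_const c hc hc0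
  have huc0 : uc ≠ 0 := by
    rintro rfl
    rw [mul_zero] at hcu
    exact hc0 hcu
  have hucU : IsUnitIn B.R₁ uc := ⟨huc, huc', huc0⟩
  refine ⟨a, cP, binf, b0, μinf, μ0, ⟨hcP.2.2, hbinfK, hbinf0, hb0K, hb00, hAinf, hA0, hκinf,
    hκ0, ⟨δ⁻¹, hδ.2.1, hconginf, hcong0⟩, ?_, ?_⟩⟩
  · refine ⟨uc * D.X n ^ kn * v * yGinf ^ p, ((hucU.of_le D.Sinf.R₁_le).mul
      (isUnitIn_zpow (D.X_unit n) kn)).mul (hv.of_le (D.Ln_le_inf n)) |>.mul (hyGinf.pow p), ?_⟩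
    have e1 : (B.π ^ μinf) ^ p = B.π ^ ((p : ℤ) * μinf) := by
      rw [← zpow_natCast, ← zpow_mul, mul_comm]
    rw [hf, hcu, hGinf, mul_pow, e1, zpow_add₀ B.π_ne_zero]
    ring
  · obtain ⟨uq, huq, hq⟩ := D.q_eq n
    have hXe : D.X n = B.π ^ (D.L n : ℤ) * (uq * (D.Y n)⁻¹) := by
      have h1 := D.X_mul_Y n
      rw [hq] at h1
      rw [zpow_natCast]
      field_simp
      linear_combination h1
    refine ⟨uc * (uq * (D.Y n)⁻¹) ^ kn * v * yG0 ^ p, ((hucU.of_le D.S0.R₁_le).mul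
      (isUnitIn_zpow ((huq.of_le D.S0.R₁_le).mul (D.Y_unit n).inv) kn)).mul
        (hv.of_le (D.Ln_le_zero n)) |>.mul (hyG0.pow p), ?_⟩
    have e1 : (B.π ^ μ0) ^ p = B.π ^ ((p : ℤ) * μ0) := by
      rw [← zpow_natCast, ← zpow_mul, mul_comm]
    have e2 : D.X n ^ kn = B.π ^ (kn * (D.L n : ℤ)) * (uq * (D.Y n)⁻¹) ^ kn := by
      rw [hXe, mul_zpow, ← zpow_mul, mul_comm kn]
    rw [hf, hcu, hG0', mul_pow, e1, e2, zpow_add₀ B.π_ne_zero, zpow_add₀ B.π_ne_zero]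
    ring

/-- a constant congruent modulo `π` to a unit of a sheet is a unit of `R₁`. -/
theorem sheet_const_unit_of_cong (S : Sheet B) {y β : F} (hy : IsUnitIn S.W y) (hβ : β ∈ B.R₁)
    (h : PiDvd B.π S.W 1 (y - β)) : IsUnitIn B.R₁ β := by
  have hβ0 : β ≠ 0 := by
    rintro rfl
    rw [sub_zero] at h
    exact sheet_not_piDvd_of_isUnitIn S hy h
  refine ⟨hβ, ?_, hβ0⟩
  rcases B.inv_mem_or_piDvd hβ hβ0 with h1 | h1
  · exact h1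
  · exfalso
    apply sheet_not_piDvd_of_isUnitIn S hy
    have e : y = (y - β) + β := by ring
    rw [e]
    exact h.add (h1.of_le S.R₁_le)

/-- **the relation between the constants of the two branches at a node.** -/
theorem NodeOut.rel {f : F} {N : ℕ} {Cinf C0 yinf y0 : F} {νinf ν0 : ℤ} {n : In} {kn a : ℤ}
    {cP binf b0 : F} {μinf μ0 : ℤ}
    (h : NodeOut D f N Cinf C0 yinf y0 νinf ν0 n kn a cP binf b0 μinf μ0)
    {βinf β0 : F} (hβinf : βinf ∈ B.R₁) (hβ0 : β0 ∈ B.R₁)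
    (hcinf : PiDvd B.π D.Sinf.W (D.s + 1) (yinf⁻¹ - βinf))
    (hc0 : PiDvd B.π D.S0.W (D.s + 1) (y0⁻¹ - β0)) :
    PiDvd B.π B.R₁ (D.s + 1)
      (B.π ^ ν0 * (D.θ ^ μ0)⁻¹ * b0⁻¹ * βinf - B.π ^ νinf * (D.θ ^ μinf)⁻¹ * binf⁻¹ * β0) := by
  obtain ⟨κinf, hκinf⟩ : ∃ κ : F, κ = B.π ^ νinf * (D.θ ^ μinf)⁻¹ * binf⁻¹ := ⟨_, rfl⟩
  obtain ⟨κ0, hκ0⟩ : ∃ κ : F, κ = B.π ^ ν0 * (D.θ ^ μ0)⁻¹ * b0⁻¹ := ⟨_, rfl⟩
  have hUinf : IsUnitIn B.R₁ κinf := by rw [hκinf]; exact h.κinf_unit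
  have hU0 : IsUnitIn B.R₁ κ0 := by rw [hκ0]; exact h.κ0_unit
  obtain ⟨u, hu, h1, h2⟩ := h.cong
  rw [← hκinf] at h1
  rw [← hκ0] at h2
  rw [← hκinf, ← hκ0]
  have g1 : PiDvd B.π D.Sinf.W (D.s + 1) (u - κinf⁻¹ * βinf) := by
    have e : u - κinf⁻¹ * βinf = κinf⁻¹ * ((yinf⁻¹ - βinf) - (yinf⁻¹ - κinf * u)) := by
      have := hUinf.2.2
      field_simp
      ring
    rw [e]
    exact (hcinf.sub h1).mul_left (D.Sinf.R₁_le hUinf.2.1)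
  have g2 : PiDvd B.π D.S0.W (D.s + 1) (u - κ0⁻¹ * β0) := by
    have e : u - κ0⁻¹ * β0 = κ0⁻¹ * ((y0⁻¹ - β0) - (y0⁻¹ - κ0 * u)) := by
      have := hU0.2.2
      field_simp
      ring
    rw [e]
    exact (hc0.sub h2).mul_left (D.S0.R₁_le hU0.2.1)
  have g3 := D.node_glue n u hu (κinf⁻¹ * βinf) (B.R₁.mul_mem hUinf.2.1 hβinf)
    (κ0⁻¹ * β0) (B.R₁.mul_mem hU0.2.1 hβ0) g1 g2
  have e : κ0 * βinf - κinf * β0 = κinf * κ0 * (κinf⁻¹ * βinf - κ0⁻¹ * β0) := by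
    have := hUinf.2.2
    have := hU0.2.2
    field_simp
  rw [e]
  exact g3.mul_left (B.R₁.mul_mem hUinf.1 hU0.1)

end Points

section Main

variable {Iinf I0 In : Type*} {D : PLData B Iinf I0 In}

/-- **abstract first-order Picard–Lefschetz**: `p ^ 2 ∣ k n * L n - k n' * L n'`. -/
theorem PLFact.sq_dvd (hp : p.Prime) {f : F} {k : In → ℤ} (h : PLFact D f k) (n n' : In) :
    (p : ℤ) ^ 2 ∣ k n * D.L n - k n' * D.L n' := by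
  classical
  have hp2 := hp.two_le
  obtain ⟨N, hNdef⟩ : ∃ N : ℕ, N = B.e₁ * p + (D.s + 1) * p + 1 := ⟨_, rfl⟩
  have hN1 : 1 ≤ N := by rw [hNdef]; exact Nat.le_add_left _ _
  have hN2 : (D.s + 1) * p ≤ N := by
    rw [hNdef]
    exact le_trans (Nat.le_add_left _ _) (Nat.le_add_right _ _)
  have hN : B.e₁ * p < N * (p - 1) := by
    have h1 : B.e₁ * p < N := by
      rw [hNdef]
      exact Nat.lt_succ_of_le (Nat.le_add_right _ _)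
    have h2 : N * 1 ≤ N * (p - 1) := Nat.mul_le_mul_left _ (by omega)
    rw [mul_one] at h2
    exact lt_of_lt_of_le h1 h2
  -- the global data on the two sheets
  obtain ⟨Cinf, hCinfK, γinf, zinf, hCinf0, hγinf0, hzinf, hginf⟩ :=
    D.Sinf.depthGE_iff.mp (h.depth_inf N)
  obtain ⟨C0, hC0K, γ0, z0, hC00, hγ00, hz0, hg0⟩ := D.S0.depthGE_iff.mp (h.depth_zero N)
  obtain ⟨νinf, yinf, hyi1, hyi2, hγinf⟩ := D.Sinf.unif γinf hγinf0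
  obtain ⟨ν0, y0, hy01, hy02, hγ0⟩ := D.S0.unif γ0 hγ00
  have hyinf : IsUnitIn D.Sinf.W yinf := by
    refine ⟨hyi1, hyi2, ?_⟩
    rintro rfl
    rw [mul_zero] at hγinf
    exact hγinf0 hγinf
  have hy0 : IsUnitIn D.S0.W y0 := by
    refine ⟨hy01, hy02, ?_⟩
    rintro rfl
    rw [mul_zero] at hγ0
    exact hγ00 hγ0
  -- the local analysis at the nodes
  have hnode : ∀ m : In, ∃ (a : ℤ) (cP binf b0 : F) (μinf μ0 : ℤ),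
      NodeOut D f N Cinf C0 yinf y0 νinf ν0 m (k m) a cP binf b0 μinf μ0 := by
    intro m
    obtain ⟨c, hc, v, G, hc0, hG0, hv, hf⟩ := h.fac_node m
    exact D.exists_nodeOut hp m hc hc0 hv hG0 hf hN hN2 hCinfK hCinf0 hγinf0 hzinf hginf hyinf
      hγinf hC0K hC00 hγ00 hz0 hg0 hy0 hγ0
  -- (GLOB) on the sheet `∞`
  obtain ⟨βinf, hβinf, hβinfc⟩ : ∃ β ∈ B.R₁, PiDvd B.π D.Sinf.W (D.s + 1) (yinf⁻¹ - β) := by
    refine D.glob_inf_pow hyinf.2.1 (fun m => ?_) (fun m => ?_)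
    · obtain ⟨c, hc, v, G, hc0, hG0, hv, hf⟩ := h.fac_inf m
      exact D.cover_smooth hp D.Sinf D.τ_inf (D.Linf m) (D.Linf_sheet m) (D.Linf_τ m) hc hc0 hv
        hG0 hf hN hN2 hCinfK hCinf0 hγinf0 hzinf hginf hyinf hγinf
    · obtain ⟨a, cP, binf, b0, μinf, μ0, ho⟩ := hnode m
      obtain ⟨u, hu, h1, -⟩ := ho.cong
      exact ⟨_, (D.Ln m).R'.mul_mem ((D.Ln m).R₁_le ho.κinf_unit.1) hu, h1⟩
  -- (GLOB) on the sheet `0`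
  obtain ⟨β0, hβ0, hβ0c⟩ : ∃ β ∈ B.R₁, PiDvd B.π D.S0.W (D.s + 1) (y0⁻¹ - β) := by
    refine D.glob_zero_pow hy0.2.1 (fun m => ?_) (fun m => ?_)
    · obtain ⟨c, hc, v, G, hc0, hG0, hv, hf⟩ := h.fac_zero m
      exact D.cover_smooth hp D.S0 D.τ_zero (D.L0 m) (D.L0_sheet m) (D.L0_τ m) hc hc0 hv
        hG0 hf hN hN2 hC0K hC00 hγ00 hz0 hg0 hy0 hγ0
    · obtain ⟨a, cP, binf, b0, μinf, μ0, ho⟩ := hnode m
      obtain ⟨u, hu, -, h1⟩ := ho.cong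
      exact ⟨_, (D.Ln m).R'.mul_mem ((D.Ln m).R₁_le ho.κ0_unit.1) hu, h1⟩
  have hs1 : 1 ≤ D.s + 1 := Nat.le_add_left _ _
  have hβinfU : IsUnitIn B.R₁ βinf :=
    sheet_const_unit_of_cong D.Sinf hyinf.inv hβinf (hβinfc.mono D.Sinf.π_mem hs1)
  have hβ0U : IsUnitIn B.R₁ β0 :=
    sheet_const_unit_of_cong D.S0 hy0.inv hβ0 (hβ0c.mono D.S0.π_mem hs1)
  -- the two nodes
  obtain ⟨a, cP, binf, b0, μinf, μ0, ho⟩ := hnode n
  obtain ⟨a', cP', binf', b0', μinf', μ0', ho'⟩ := hnode n'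
  have hr := NodeOut.rel D ho hβinf hβ0 hβinfc hβ0c
  have hr' := NodeOut.rel D ho' hβinf hβ0 hβinfc hβ0c
  have hx := piDvd_cross ho.κinf_unit.1 ho'.κinf_unit.1 hβinfU hβ0U hr hr'
  -- the cross-ratio of the constants `b`
  obtain ⟨ρ, hρdef⟩ : ∃ ρ : F, ρ = binf * b0' / (b0 * binf') := ⟨_, rfl⟩
  have hρK : ρ ∈ B.K₁ := by
    rw [hρdef]
    exact B.K₁.div_mem (B.K₁.mul_mem ho.binf_mem ho'.b0_mem) (B.K₁.mul_mem ho.b0_mem ho'.binf_mem)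
  have hρp : PiDvd B.π B.R₁ N (ρ ^ p - 1) := by
    rw [hρdef]
    exact piDvd_rho_pow B hN1 hCinf0 hC00 ho.cP_ne ho'.cP_ne ho.binf_ne ho.b0_ne ho'.binf_ne
      ho'.b0_ne ho.Ainf ho.A0 ho'.Ainf ho'.A0
  have hρ1 : PiDvd B.π B.R₁ (D.s + 1) (ρ - 1) := D.const_root hp hρK hN2 hN1 hρp
  have hρU : IsUnitIn B.R₁ ρ := by
    have e : ρ = 1 + (ρ - 1) := by ring
    rw [e]
    exact B.isUnitIn_one_add (hρ1.mono B.π_mem hs1)
  -- `θ ^ M ρ ≡ 1`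
  obtain ⟨M, hM⟩ : ∃ M : ℤ, M = μinf + μ0' - μ0 - μinf' := ⟨_, rfl⟩
  have hθ0 : D.θ ≠ 0 := D.θ_unit.2.2
  have eM : D.θ ^ M = D.θ ^ μinf * D.θ ^ μ0' / (D.θ ^ μ0 * D.θ ^ μinf') := by
    rw [hM, zpow_sub₀ hθ0, zpow_sub₀ hθ0, zpow_add₀ hθ0]
    have h1 : D.θ ^ μ0 ≠ 0 := zpow_ne_zero _ hθ0
    have h2 : D.θ ^ μinf' ≠ 0 := zpow_ne_zero _ hθ0
    field_simp
  have hκU := ho.κinf_unit.mul ho'.κ0_unit
  have hθρ : PiDvd B.π B.R₁ (D.s + 1) (D.θ ^ M * ρ - 1) := by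
    have e : D.θ ^ M * ρ - 1 =
        (B.π ^ νinf * (D.θ ^ μinf)⁻¹ * binf⁻¹ * (B.π ^ ν0 * (D.θ ^ μ0')⁻¹ * b0'⁻¹))⁻¹ *
          (B.π ^ ν0 * (D.θ ^ μ0)⁻¹ * b0⁻¹ * (B.π ^ νinf * (D.θ ^ μinf')⁻¹ * binf'⁻¹) -
            B.π ^ νinf * (D.θ ^ μinf)⁻¹ * binf⁻¹ * (B.π ^ ν0 * (D.θ ^ μ0')⁻¹ * b0'⁻¹)) := by
      rw [eM, hρdef]
      have h1 : D.θ ^ μ0 ≠ 0 := zpow_ne_zero _ hθ0
      have h2 : D.θ ^ μinf' ≠ 0 := zpow_ne_zero _ hθ0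
      have h3 : D.θ ^ μinf ≠ 0 := zpow_ne_zero _ hθ0
      have h4 : D.θ ^ μ0' ≠ 0 := zpow_ne_zero _ hθ0
      have h5 : B.π ^ νinf ≠ 0 := zpow_ne_zero _ B.π_ne_zero
      have h6 : B.π ^ ν0 ≠ 0 := zpow_ne_zero _ B.π_ne_zero
      have h7 := ho.binf_ne
      have h8 := ho.b0_ne
      have h9 := ho'.binf_ne
      have h10 := ho'.b0_ne
      field_simp
    rw [e]
    exact hx.mul_left hκU.2.1
  have hθM : PiDvd B.π B.R₁ (D.s + 1) (D.θ ^ M - 1) := by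
    have e : D.θ ^ M = D.θ ^ M * ρ / ρ := by
      have := hρU.2.2
      field_simp
    rw [e]
    exact piDvd_div_sub_one hρU.2.1 hρU.2.2 hθρ hρ1
  obtain ⟨t, ht⟩ := D.dvd_of_theta_zpow hp hθM
  -- the valuations
  obtain ⟨w1, hw1, e1⟩ := ho.val_inf
  obtain ⟨w1', hw1', e1'⟩ := ho'.val_inf
  obtain ⟨w2, hw2, e2⟩ := ho.val_zero
  obtain ⟨w2', hw2', e2'⟩ := ho'.val_zero
  have hv1 : a + p * μinf = a' + p * μinf' :=
    sheet_zpow_unique D.Sinf hw1 hw1' (by rw [← e1, ← e1'])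
  have hv2 : a + k n * D.L n + p * μ0 = a' + k n' * D.L n' + p * μ0' :=
    sheet_zpow_unique D.S0 hw2 hw2' (by rw [← e2, ← e2'])
  refine ⟨t, ?_⟩
  have e3 : k n * D.L n - k n' * D.L n' = (p : ℤ) * M := by
    rw [hM]
    linear_combination hv2 - hv1
  rw [e3, ht]
  ring

/-- **thin nodes**: if all the nodes have the same thickness `L₀` with `p ∣ L₀`, `p ^ 2 ∤ L₀`, then
the exponents `k n` are all congruent modulo `p`. -/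
theorem PLFact.modEq_of_thin (hp : p.Prime) {f : F} {k : In → ℤ} (h : PLFact D f k) {L₀ : ℕ}
    (hL : ∀ n, D.L n = L₀) (hpL : p ∣ L₀) (hp2L : ¬ p ^ 2 ∣ L₀) (n n' : In) :
    k n ≡ k n' [ZMOD p] := by
  have h1 := h.sq_dvd hp n n'
  rw [hL n, hL n'] at h1
  obtain ⟨l, rfl⟩ := hpL
  have hl : ¬ (p : ℤ) ∣ (l : ℤ) := by
    intro hd
    apply hp2L
    obtain ⟨l', hl'⟩ := Int.natCast_dvd_natCast.mp hd
    exact ⟨l', by rw [hl']; ring⟩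
  have hp0 : (p : ℤ) ≠ 0 := by exact_mod_cast hp.ne_zero
  have h2 : (p : ℤ) * ((p : ℤ) * 1) ∣ (p : ℤ) * ((k n - k n') * (l : ℤ)) := by
    have e : k n * ((p * l : ℕ) : ℤ) - k n' * ((p * l : ℕ) : ℤ) =
        (p : ℤ) * ((k n - k n') * (l : ℤ)) := by
      push_cast
      ring
    rw [e] at h1
    have e2 : (p : ℤ) * ((p : ℤ) * 1) = (p : ℤ) ^ 2 := by ring
    rw [e2]
    exact h1
  have h3 : (p : ℤ) * 1 ∣ (k n - k n') * (l : ℤ) := (mul_dvd_mul_iff_left hp0).mp h2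
  rw [mul_one] at h3
  have hpp : Prime (p : ℤ) := Nat.prime_iff_prime_int.mp hp
  rcases hpp.dvd_or_dvd h3 with h4 | h4
  · exact (Int.modEq_iff_dvd.mpr (by
      have : k n' - k n = -(k n - k n') := by ring
      rw [this]
      exact (Int.dvd_neg).mpr h4)).symm.symm
  · exact absurd h4 hl

/-- **the `ζ`-form of (peu)**: if `π ^ j ∣ ζ - 1` in `R₁` for a primitive `p`-th root of unity `ζ`
(`j ≥ 1`), then `j (p - 1) ≤ e₁`. -/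
theorem depthBase_mul_le_of_piDvd_zeta_sub_one (B : DepthBase F p) (hp : p.Prime) {ζ : F}
    (hζ : ζ ^ p = 1) (hζ1 : ζ ≠ 1) {j : ℕ} (hj : 1 ≤ j) (h : PiDvd B.π B.R₁ j (ζ - 1)) :
    j * (p - 1) ≤ B.e₁ := by
  by_contra hlt
  have hlt' : B.e₁ < j * (p - 1) := not_le.mp hlt
  have hxR : ζ - 1 ∈ B.R₁ := h.mem B.π_mem
  have hx0 : ζ - 1 ≠ 0 := sub_ne_zero.mpr hζ1
  obtain ⟨r, hr, e⟩ := one_add_pow_prime_eq_subring B.R₁ hp hxR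
  have e1 : (1 : F) + (ζ - 1) = ζ := by ring
  rw [e1, hζ] at e
  -- `x ^ (p - 1) = - p (1 + x r)`
  have hpp : (ζ - 1) ^ p = (ζ - 1) * (ζ - 1) ^ (p - 1) := by
    rw [← pow_succ', Nat.sub_add_cancel hp.one_le]
  have e2 : (ζ - 1) ^ (p - 1) = -((p : F) * (1 + (ζ - 1) * r)) := by
    have e3 : (ζ - 1) * ((ζ - 1) ^ (p - 1) + (p : F) * (1 + (ζ - 1) * r)) = 0 := by
      rw [mul_add, ← hpp]
      linear_combination (-1 : F) * e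
    rcases mul_eq_zero.mp e3 with h0 | h0
    · exact absurd h0 hx0
    · linear_combination h0
  have hU : IsUnitIn B.R₁ (1 + (ζ - 1) * r) :=
    B.isUnitIn_one_add ((h.mono B.π_mem hj).mul_right hr)
  -- `π ^ (j (p - 1)) ∣ p`
  have h2 : PiDvd B.π B.R₁ (j * (p - 1)) (p : F) := by
    have e4 : (p : F) = -((ζ - 1) ^ (p - 1) * (1 + (ζ - 1) * r)⁻¹) := by
      rw [e2]
      have := hU.2.2
      field_simp
    rw [e4]
    exact ((h.pow (p - 1)).mul_right hU.2.1).neg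
  obtain ⟨t, ht, et⟩ := h2
  obtain ⟨d, hd⟩ := Nat.exists_eq_add_of_lt hlt'
  apply depthBase_not_piDvd_one B
  have e5 : B.ε = B.π ^ 1 * (B.π ^ d * t) := by
    have h0 : B.π ^ B.e₁ ≠ 0 := pow_ne_zero _ B.π_ne_zero
    have e6 : B.π ^ B.e₁ * B.ε = B.π ^ B.e₁ * (B.π ^ 1 * (B.π ^ d * t)) := by
      have e7 : B.π ^ (j * (p - 1)) = B.π ^ B.e₁ * (B.π ^ 1 * B.π ^ d) := by
        rw [← pow_add, ← pow_add, hd]
        congr 1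
        ring
      have := B.p_eq
      rw [et, e7] at this
      linear_combination (-1 : F) * this
    exact mul_left_cancel₀ h0 e6
  have e8 : B.ε * B.ε⁻¹ = 1 := mul_inv_cancel₀ B.ε_ne_zero
  refine ⟨B.π ^ d * t * B.ε⁻¹, B.R₁.mul_mem (B.R₁.mul_mem (B.R₁.pow_mem B.π_mem d) ht)
    B.ε_inv_mem, ?_⟩
  calc (1 : F) = B.ε * B.ε⁻¹ := e8.symm
    _ = (B.π ^ 1 * (B.π ^ d * t)) * B.ε⁻¹ := by rw [← e5]
    _ = B.π ^ 1 * (B.π ^ d * t * B.ε⁻¹) := by ring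

end Main

end Fermat.Agent.MP
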