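import Mathlib
import Fermat.Agent.MP.PLABS_helper9_Main
import Fermat.Agent.MP.PLHOST_helper9_Smooth
import Fermat.Agent.NP.HOSTP_helper7_ThmA

/-!
# Project MP40 — C4 [PL-HOST] helper9: PL-lite on an `SSModel`

`SSModel.pl_sq_dvd` : the abstract first-order Picard–Lefschetz theorem (`PLFact.sq_dvd`) on the
two-sheeted model `h : SSModel K₁ π p n S t jM j A B VM Winf W0`, for a ring endomorphism `τ` of
`E_N` fixing `j`, semilinear over the base, with `τ π = π (1 + ω π ^ s)`, `τ ≡ id mod π ^ (s + 1)`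
on both sheets, `(s + 1)(p - 1) ≤ e₁`, and a Kronecker element `B t - (A t) ^ p` divisible by
`π ^ (s + 1)` on the sheet `∞`.  Inputs: the node data `SSModel.NodePtData` (helper6's (N)), (GLOB)
on both sheets (helper6's (G)), the node factorisations `IsNodeFact`, `p ∣ ord_P f` at all places,
and `τ f / f` of infinite depth on both sheets.
-/

set_option autoImplicit false
set_option linter.unusedSectionVars false
set_option linter.unusedVariables false
set_option linter.style.haveILetI false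

open AlgebraicCurve

namespace Fermat.Agent.MP

open Fermat.Agent.NP Fermat.Agent.SS Fermat.Agent.JA Fermat.Agent.FF

section Stable

variable {R : Type*} [CommRing R] [IsDomain R] [IsDiscreteValuationRing R] [CharZero R]
  {KN : Type*} [Field KN] [Algebra R KN]
  {EN : Type*} [Field EN] [Algebra KN EN] [Algebra R EN] [IsScalarTower R KN EN]
  [FiniteDimensional KN EN]

/-- an element of `π ^ (n + 1) W` has valuation `< 1`. -/
theorem valuation_lt_one_of_piDvd (W : ValuationSubring EN) {ϖ : EN} (hϖ : W.valuation ϖ < 1)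
    {n : ℕ} {y : EN} (hy : PiDvd ϖ W.toSubring (n + 1) y) : W.valuation y < 1 := by
  obtain ⟨w, hw, rfl⟩ := hy
  have hw1 : W.valuation w ≤ 1 := (ValuationSubring.valuation_le_one_iff W w).2 hw
  have hϖ1 : W.valuation ϖ ≤ 1 := hϖ.le
  rw [map_mul, map_pow, pow_succ]
  calc W.valuation ϖ ^ n * W.valuation ϖ * W.valuation w
      ≤ 1 * W.valuation ϖ * 1 := by
        refine mul_le_mul' (mul_le_mul' (pow_le_one' hϖ1 n) le_rfl) hw1
    _ < 1 := by rw [one_mul, mul_one]; exact hϖ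

/-- **stability of the local rings of the points of a sheet** under a ring endomorphism fixing the
chart coordinate, preserving the base, and trivial on the residue field of the sheet. -/
theorem map_mem_locSub_of_sheet (u : KN) (W : ValuationSubring EN)
    (hW : ∀ b ∈ chartOne R EN u, b ∈ W) (τ : EN →+* EN)
    (hτu : τ (algebraMap KN EN u) = algebraMap KN EN u)
    (hτR : ∀ r : R, ∃ r' : R, τ (algebraMap R EN r) = algebraMap R EN r')
    (hτW : ∀ x ∈ W, W.valuation (τ x - x) < 1)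
    (𝔪 : Ideal ↥(chartOne R EN u)) [h𝔪 : 𝔪.IsPrime] (hle : sheetIdeal u W hW ≤ 𝔪)
    {x : EN} (hx : x ∈ locSub (chartOne R EN u) 𝔪) : τ x ∈ locSub (chartOne R EN u) 𝔪 := by
  have hτB : ∀ b ∈ chartOne R EN u, τ b ∈ chartOne R EN u := fun b hb =>
    map_mem_chartOne_of_ringHom u τ hτu hτR hb
  refine map_mem_locSub_of_ringHom (chartOne R EN u) 𝔪 τ hτB (fun b hb hτb => hb ?_) hx
  have hd : (⟨τ (b : EN), hτB _ b.2⟩ : ↥(chartOne R EN u)) - b ∈ sheetIdeal u W hW := by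
    rw [mem_sheetIdeal_iff]
    exact hτW _ (hW _ b.2)
  have : b = (⟨τ (b : EN), hτB _ b.2⟩ : ↥(chartOne R EN u)) -
      ((⟨τ (b : EN), hτB _ b.2⟩ : ↥(chartOne R EN u)) - b) := by ring
  rw [this]
  exact 𝔪.sub_mem hτb (hle hd)

/-- the closed points of the chart `u` lying on the sheet `W` and not on the sheet `W'`. -/
def ChartSmooth (u : KN) (W W' : ValuationSubring EN)
    (hW : ∀ b ∈ chartOne R EN u, b ∈ W) (hW' : ∀ b ∈ chartOne R EN u, b ∈ W') : Type _ :=
  {𝔪 : Ideal ↥(chartOne R EN u) // 𝔪.IsMaximal ∧ sheetIdeal u W hW ≤ 𝔪 ∧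
    ¬ sheetIdeal u W' hW' ≤ 𝔪}

instance ChartSmooth.isMaximal {u : KN} {W W' : ValuationSubring EN}
    {hW : ∀ b ∈ chartOne R EN u, b ∈ W} {hW' : ∀ b ∈ chartOne R EN u, b ∈ W'}
    (x : ChartSmooth u W W' hW hW') : x.1.IsMaximal := x.2.1

instance ChartSmooth.isPrime {u : KN} {W W' : ValuationSubring EN}
    {hW : ∀ b ∈ chartOne R EN u, b ∈ W} {hW' : ∀ b ∈ chartOne R EN u, b ∈ W'}
    (x : ChartSmooth u W W' hW hW') : x.1.IsPrime := x.2.1.isPrime

end Stable

section SmoothPt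

variable {R : Type*} [CommRing R] [IsDomain R] [IsDiscreteValuationRing R] [CharZero R]
  {K₁ : Type*} [Field K₁] [Algebra R K₁] [IsFractionRing R K₁]
  {KN : Type*} [Field KN] [Algebra K₁ KN] [Algebra R KN] [IsScalarTower R K₁ KN]
  {EN : Type*} [Field EN] [Algebra KN EN] [Algebra K₁ EN] [IsScalarTower K₁ KN EN] [Algebra R EN]
  [IsScalarTower R KN EN] [FiniteDimensional KN EN]
  [IsAlgClosed (IsLocalRing.ResidueField R)]
  {π : R} {Winf W0 : ValuationSubring EN}

/-- **the `LocalPt`s of the smooth closed points of a model chart**, with prescribed sheets. -/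
theorem IsModelChart.exists_smoothLocalPt (u : KN) (hu : Transcendental K₁ u)
    (hK : IntermediateField.adjoin K₁ {u} = ⊤) (hπ : Irreducible π) {p : ℕ} (hp : p.Prime)
    {e₁ : ℕ} (he₁ : 0 < e₁) {ε : Rˣ} (hpe : (p : R) = ε * π ^ e₁)
    (h2 : IsTwoSheet π u Winf W0)
    (hmod : IsModelChart EN π (sheetIdeal u Winf h2.chart_le_inf)
      (sheetIdeal u W0 h2.chart_le_zero))
    (Sinf S0 : Sheet (hostDepthBase K₁ KN EN hπ hp he₁ hpe))
    (hSinf : Sinf.W = Winf.toSubring) (hS0 : S0.W = W0.toSubring)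
    (𝔪 : Ideal ↥(chartOne R EN u)) [h𝔪 : 𝔪.IsMaximal] :
    (sheetIdeal u Winf h2.chart_le_inf ≤ 𝔪 → ¬ sheetIdeal u W0 h2.chart_le_zero ≤ 𝔪 →
      ∃ L : LocalPt (hostDepthBase K₁ KN EN hπ hp he₁ hpe) Unit,
        L.R' = locSub (chartOne R EN u) 𝔪 ∧ ∀ k, L.sheet k = Sinf) ∧
    (sheetIdeal u W0 h2.chart_le_zero ≤ 𝔪 → ¬ sheetIdeal u Winf h2.chart_le_inf ≤ 𝔪 →
      ∃ L : LocalPt (hostDepthBase K₁ KN EN hπ hp he₁ hpe) Unit,
        L.R' = locSub (chartOne R EN u) 𝔪 ∧ ∀ k, L.sheet k = S0) := by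
  haveI : IsScalarTower R K₁ EN := isScalarTower_base_const R K₁ KN EN
  haveI : IsNoetherianRing ↥(chartOne R EN u) := isNoetherianRing_chartOne (K₁ := K₁) u hu hK
  haveI : IsFractionRing ↥(chartOne R EN u) EN := isFractionRing_chartOne (K₁ := K₁) u hK
  have hAC : ResAlgClosed π := resAlgClosed_of_isAlgClosed hπ
  have hlinf : locSub (chartOne R EN u) (sheetIdeal u Winf h2.chart_le_inf) = Winf.toSubring :=
    locSub_eq_toSubring Winf (fun b => h2.chart_le_inf b b.2)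
      (fun b => mem_sheetIdeal_iff u Winf h2.chart_le_inf b) hmod.mem_inf
      (IsModelChart.hloc_inf hmod)
  have hl0 : locSub (chartOne R EN u) (sheetIdeal u W0 h2.chart_le_zero) = W0.toSubring :=
    locSub_eq_toSubring W0 (fun b => h2.chart_le_zero b b.2)
      (fun b => mem_sheetIdeal_iff u W0 h2.chart_le_zero b) hmod.mem_zero
      (IsModelChart.hloc_zero hmod)
  constructor
  · intro hinf h0
    have hπ𝔪 : algebraMap R ↥(chartOne R EN u) π ∈ 𝔪 := hinf hmod.mem_inf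
    obtain ⟨z, hz⟩ := hmod.branch_inf 𝔪 h𝔪 hπ𝔪 hinf h0
    exact exists_smoothPt (K₁ := K₁) hπ hp he₁ hpe hAC hmod.mem_inf hmod.inf_le 𝔪 hinf h0 hz
      (exists_sub_mem_of_isMaximal_chartOne (K₁ := K₁) hπ hu hK 𝔪 hπ𝔪) Sinf (by rw [hSinf, hlinf])
  · intro h0 hinf
    have hπ𝔪 : algebraMap R ↥(chartOne R EN u) π ∈ 𝔪 := h0 hmod.mem_zero
    obtain ⟨z, hz⟩ := hmod.branch_zero 𝔪 h𝔪 hπ𝔪 h0 hinf
    exact exists_smoothPt (K₁ := K₁) hπ hp he₁ hpe hAC hmod.mem_zero
      (by rw [inf_comm]; exact hmod.inf_le) 𝔪 h0 hinf hz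
      (exists_sub_mem_of_isMaximal_chartOne (K₁ := K₁) hπ hu hK 𝔪 hπ𝔪) S0 (by rw [hS0, hl0])

end SmoothPt

section Abs

variable {R : Type*} [CommRing R] [IsDomain R] [IsDiscreteValuationRing R] [CharZero R]
  {K₁ : Type*} [Field K₁] [Algebra R K₁] [IsFractionRing R K₁]
  {KM : Type*} [Field KM] [Algebra K₁ KM] [Algebra R KM] [IsScalarTower R K₁ KM]
  {EM : Type*} [Field EM] [Algebra KM EM] [Algebra K₁ EM] [IsScalarTower K₁ KM EM] [Algebra R EM]
  [IsScalarTower R KM EM]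
  {KN : Type*} [Field KN] [Algebra K₁ KN] [Algebra R KN] [IsScalarTower R K₁ KN]
  {EN : Type*} [Field EN] [Algebra KN EN] [Algebra K₁ EN] [IsScalarTower K₁ KN EN] [Algebra R EN]
  [IsScalarTower R KN EN] [FiniteDimensional KN EN]
  {π : R} {p n : ℕ} {S : Finset R} {t : KM} {jM : EM} {j : KN} {A B : EM →+* EN}
  {VM : ValuationSubring EM} {Winf W0 : ValuationSubring EN}
  [IsAlgClosed (IsLocalRing.ResidueField R)]

/-- **the node data at a node `𝔪` with node coordinate `X` of thickness `m`** (helper6's (N)): the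
`LocalPt` of the node with the two sheets, the second coordinate `Y` with `X Y = π ^ m`, the prime
ideals of the two branches, and the Kronecker element `B t - (A t) ^ p = unit · Y mod π`. -/
def SSModel.NodePtData (h : SSModel K₁ π p n S t jM j A B VM Winf W0) (hπ : Irreducible π)
    (hp : p.Prime) {e₁ : ℕ} (he₁ : 0 < e₁) {ε : Rˣ} (hpe : (p : R) = ε * π ^ e₁)
    (𝔪 : Ideal ↥(chartOne R EN j)) [𝔪.IsPrime] (X : EN) (m : ℕ) : Prop :=
  ∃ (L : LocalPt (hostDepthBase K₁ KN EN hπ hp he₁ hpe) Bool) (Y : EN),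
    L.R' = locSub (chartOne R EN j) 𝔪 ∧
    L.sheet true = SSModel.sheetInf hp he₁ hpe h hπ ∧
    L.sheet false = SSModel.sheetZero hp he₁ hpe h hπ ∧
    X ∈ L.R' ∧ Y ∈ L.R' ∧ X * Y = algebraMap R EN π ^ m ∧
    IsUnitIn Winf.toSubring X ∧ IsUnitIn W0.toSubring Y ∧
    (∀ x ∈ L.R', PiDvd (algebraMap R EN π) Winf.toSubring 1 x →
      ∃ r ∈ L.R', ∃ r' ∈ L.R', x = algebraMap R EN π * r + Y * r') ∧
    (∀ x ∈ L.R', PiDvd (algebraMap R EN π) W0.toSubring 1 x →
      ∃ r ∈ L.R', ∃ r' ∈ L.R', x = algebraMap R EN π * r + X * r') ∧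
    ∃ a b : EN, IsUnitIn L.R' a ∧ b ∈ L.R' ∧
      B (algebraMap KM EM t) - A (algebraMap KM EM t) ^ p = a * Y + algebraMap R EN π * b

/-- **(GLOB) on a sheet `W` of the level `N`** (helper6's (G)): an element of `W` which is regular
modulo `π` at the closed points of the chart `j` on the sheet and at the cusps (chart `j⁻¹`) is
constant modulo `π`. -/
def SSModel.GlobOn (h : SSModel K₁ π p n S t jM j A B VM Winf W0) (hπ : Irreducible π)
    (W : ValuationSubring EN) (hW₁ : ∀ b ∈ chartOne R EN j, b ∈ W)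
    (hW₂ : ∀ b ∈ chartOne R EN j⁻¹, b ∈ W) : Prop :=
  ∀ z ∈ W,
    (∀ (𝔪 : Ideal ↥(chartOne R EN j)) [𝔪.IsMaximal], sheetIdeal j W hW₁ ≤ 𝔪 →
      ∃ r ∈ locSub (chartOne R EN j) 𝔪, PiDvd (algebraMap R EN π) W.toSubring 1 (z - r)) →
    (∀ (𝔪 : Ideal ↥(chartOne R EN j⁻¹)) [𝔪.IsMaximal], sheetIdeal j⁻¹ W hW₂ ≤ 𝔪 →
      (⟨algebraMap KN EN j⁻¹, algebraMap_coord_mem_chartOne j⁻¹⟩ : ↥(chartOne R EN j⁻¹)) ∈ 𝔪 →
      ∃ r ∈ locSub (chartOne R EN j⁻¹) 𝔪, PiDvd (algebraMap R EN π) W.toSubring 1 (z - r)) →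
    ∃ a : R, PiDvd (algebraMap R EN π) W.toSubring 1 (z - algebraMap R EN a)

set_option maxHeartbeats 3200000 in
/-- **PL-lite on an `SSModel`.** -/
theorem SSModel.pl_sq_dvd (h : SSModel K₁ π p n S t jM j A B VM Winf W0) (hπ : Irreducible π)
    (hjint : IsIntegral ↥(Algebra.adjoin R {B jM}) (A jM))
    (hp : p.Prime) {e₁ : ℕ} (he₁ : 0 < e₁) {ε : Rˣ} (hpe : (p : R) = ε * π ^ e₁)
    (τ : EN →+* EN)
    (hτK : ∀ c : K₁, ∃ c' : K₁, τ (algebraMap K₁ EN c) = algebraMap K₁ EN c')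
    (hτR : ∀ r : R, ∃ r' : R, τ (algebraMap R EN r) = algebraMap R EN r')
    (hτj : τ (algebraMap KN EN j) = algebraMap KN EN j)
    {s : ℕ} (hs : 1 ≤ s) (ω : Rˣ)
    (hτπ : τ (algebraMap R EN π) =
      algebraMap R EN π * (1 + algebraMap R EN ω * algebraMap R EN π ^ s))
    (hτinf : ∀ x ∈ Winf, PiDvd (algebraMap R EN π) Winf.toSubring (s + 1) (τ x - x))
    (hτzero : ∀ x ∈ W0, PiDvd (algebraMap R EN π) W0.toSubring (s + 1) (τ x - x))
    (hpeu : (s + 1) * (p - 1) ≤ e₁)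
    (hkron : PiDvd (algebraMap R EN π) Winf.toSubring (s + 1)
      (B (algebraMap KM EM t) - A (algebraMap KM EM t) ^ p))
    (hGinf : SSModel.GlobOn h hπ Winf h.two.chart_le_inf (h.two.inv hπ).chart_le_inf)
    (hG0 : SSModel.GlobOn h hπ W0 h.two.chart_le_zero (h.two.inv hπ).chart_le_zero)
    {f : EN} (hf : f ≠ 0) (hord : ∀ P : Place K₁ EN, (p : ℤ) ∣ P.ord f)
    (hdinf : ∀ N, ∃ c : K₁, c ≠ 0 ∧ ValDepth π p Winf N (τ f / f) c)
    (hd0 : ∀ N, ∃ c : K₁, c ≠ 0 ∧ ValDepth π p W0 N (τ f / f) c)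
    (X : ChartNode j Winf W0 h.two.chart_le_inf h.two.chart_le_zero → EN)
    (m : ChartNode j Winf W0 h.two.chart_le_inf h.two.chart_le_zero → ℕ)
    (k : ChartNode j Winf W0 h.two.chart_le_inf h.two.chart_le_zero → ℤ)
    (hN : ∀ nd, SSModel.NodePtData h hπ hp he₁ hpe nd.1 (X nd) (m nd))
    (hk : ∀ nd, IsNodeFact K₁ (locSub (chartOne R EN j) nd.1) p (X nd) f (k nd)) :
    ∀ nd nd', (p : ℤ) ^ 2 ∣ k nd * m nd - k nd' * m nd' := by
  classical
  have hu := h.j_transcendental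
  have hK := h.j_adjoin
  have hu' := transcendental_inv_of_transcendental hu
  have hK' := adjoin_inv_eq_top hK
  have h2 : IsTwoSheet π j⁻¹ Winf W0 := h.two.inv hπ
  have hmod₁ := h.isModelChart_one hπ
  have hmod₂ := h.isModelChart_two hπ hjint h2
  haveI : IsScalarTower R K₁ EN := isScalarTower_base_const R K₁ KN EN
  -- the sheets
  obtain ⟨Sinf, hSinf⟩ : ∃ S', S' = SSModel.sheetInf hp he₁ hpe h hπ := ⟨_, rfl⟩
  obtain ⟨S0, hS0⟩ : ∃ S', S' = SSModel.sheetZero hp he₁ hpe h hπ := ⟨_, rfl⟩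
  have hSinfW : Sinf.W = Winf.toSubring := by rw [hSinf]; rfl
  have hS0W : S0.W = W0.toSubring := by rw [hS0]; rfl
  -- `τ` is trivial on the residue fields
  have hϖinf : Winf.valuation (algebraMap R EN π) < 1 :=
    (mem_sheetIdeal_iff j Winf h.two.chart_le_inf _).1 (h.two.pi_mem_inf (K₁ := K₁) hπ)
  have hϖ0 : W0.valuation (algebraMap R EN π) < 1 :=
    (mem_sheetIdeal_iff j W0 h.two.chart_le_zero _).1 (h.two.pi_mem_zero (K₁ := K₁) hπ)
  have hτWinf : ∀ x ∈ Winf, Winf.valuation (τ x - x) < 1 := fun x hx =>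
    valuation_lt_one_of_piDvd Winf hϖinf (hτinf x hx)
  have hτW0 : ∀ x ∈ W0, W0.valuation (τ x - x) < 1 := fun x hx =>
    valuation_lt_one_of_piDvd W0 hϖ0 (hτzero x hx)
  have hτj' : τ (algebraMap KN EN j⁻¹) = algebraMap KN EN j⁻¹ := by
    rw [map_inv₀, map_inv₀, hτj]
  -- the smooth points
  have hL1i : ∀ x : ChartSmooth j Winf W0 h.two.chart_le_inf h.two.chart_le_zero,
      ∃ L : LocalPt (hostDepthBase K₁ KN EN hπ hp he₁ hpe) Unit,
        L.R' = locSub (chartOne R EN j) x.1 ∧ ∀ k', L.sheet k' = Sinf := fun x => by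
    exact (IsModelChart.exists_smoothLocalPt (K₁ := K₁) j hu hK hπ hp he₁ hpe h.two hmod₁ Sinf S0
      hSinfW hS0W x.1).1 x.2.2.1 x.2.2.2
  have hL1z : ∀ x : ChartSmooth j W0 Winf h.two.chart_le_zero h.two.chart_le_inf,
      ∃ L : LocalPt (hostDepthBase K₁ KN EN hπ hp he₁ hpe) Unit,
        L.R' = locSub (chartOne R EN j) x.1 ∧ ∀ k', L.sheet k' = S0 := fun x => by
    exact (IsModelChart.exists_smoothLocalPt (K₁ := K₁) j hu hK hπ hp he₁ hpe h.two hmod₁ Sinf S0
      hSinfW hS0W x.1).2 x.2.2.1 x.2.2.2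
  have hL2i : ∀ x : ChartSmooth j⁻¹ Winf W0 h2.chart_le_inf h2.chart_le_zero,
      ∃ L : LocalPt (hostDepthBase K₁ KN EN hπ hp he₁ hpe) Unit,
        L.R' = locSub (chartOne R EN j⁻¹) x.1 ∧ ∀ k', L.sheet k' = Sinf := fun x => by
    exact (IsModelChart.exists_smoothLocalPt (K₁ := K₁) j⁻¹ hu' hK' hπ hp he₁ hpe h2 hmod₂ Sinf S0
      hSinfW hS0W x.1).1 x.2.2.1 x.2.2.2
  have hL2z : ∀ x : ChartSmooth j⁻¹ W0 Winf h2.chart_le_zero h2.chart_le_inf,
      ∃ L : LocalPt (hostDepthBase K₁ KN EN hπ hp he₁ hpe) Unit,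
        L.R' = locSub (chartOne R EN j⁻¹) x.1 ∧ ∀ k', L.sheet k' = S0 := fun x => by
    exact (IsModelChart.exists_smoothLocalPt (K₁ := K₁) j⁻¹ hu' hK' hπ hp he₁ hpe h2 hmod₂ Sinf S0
      hSinfW hS0W x.1).2 x.2.2.1 x.2.2.2
  choose L1i hL1iR hL1iS using hL1i
  choose L1z hL1zR hL1zS using hL1z
  choose L2i hL2iR hL2iS using hL2i
  choose L2z hL2zR hL2zS using hL2z
  -- the nodes
  have hN' : ∀ nd : ChartNode j Winf W0 h.two.chart_le_inf h.two.chart_le_zero,
      ∃ (L : LocalPt (hostDepthBase K₁ KN EN hπ hp he₁ hpe) Bool) (Y : EN),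
        L.R' = locSub (chartOne R EN j) nd.1 ∧ L.sheet true = Sinf ∧ L.sheet false = S0 ∧
        X nd ∈ L.R' ∧ Y ∈ L.R' ∧ X nd * Y = algebraMap R EN π ^ m nd ∧
        IsUnitIn Winf.toSubring (X nd) ∧ IsUnitIn W0.toSubring Y ∧
        (∀ x ∈ L.R', PiDvd (algebraMap R EN π) Winf.toSubring 1 x →
          ∃ r ∈ L.R', ∃ r' ∈ L.R', x = algebraMap R EN π * r + Y * r') ∧
        (∀ x ∈ L.R', PiDvd (algebraMap R EN π) W0.toSubring 1 x →
          ∃ r ∈ L.R', ∃ r' ∈ L.R', x = algebraMap R EN π * r + X nd * r') ∧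
        ∃ a b : EN, IsUnitIn L.R' a ∧ b ∈ L.R' ∧
          B (algebraMap KM EM t) - A (algebraMap KM EM t) ^ p =
            a * Y + algebraMap R EN π * b := fun nd => by
    rw [hSinf, hS0]
    exact hN nd
  choose Ln Y hLnR hLnt hLnf hXm hYm hXY hXu hYu hK1i hK1z hkr using hN'
  -- the data of PL-lite
  let D : PLData (hostDepthBase K₁ KN EN hπ hp he₁ hpe)
      (ChartSmooth j Winf W0 h.two.chart_le_inf h.two.chart_le_zero ⊕
        ChartSmooth j⁻¹ Winf W0 h2.chart_le_inf h2.chart_le_zero)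
      (ChartSmooth j W0 Winf h.two.chart_le_zero h.two.chart_le_inf ⊕
        ChartSmooth j⁻¹ W0 Winf h2.chart_le_zero h2.chart_le_inf)
      (ChartNode j Winf W0 h.two.chart_le_inf h.two.chart_le_zero) :=
    { Sinf := Sinf
      S0 := S0
      τ := τ
      τ_K₁ := by
        rintro _ ⟨c, rfl⟩
        obtain ⟨c', hc'⟩ := hτK c
        exact ⟨c', hc'.symm⟩
      τ_R₁ := by
        rintro _ ⟨c, rfl⟩
        obtain ⟨c', hc'⟩ := hτR c
        exact ⟨c', hc'.symm⟩
      s := s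
      s_pos := hs
      ω := algebraMap R EN ω
      ω_unit := by
        refine ⟨⟨ω, rfl⟩, ⟨((ω⁻¹ : Rˣ) : R), ?_⟩, (ω.isUnit.map (algebraMap R EN)).ne_zero⟩
        apply eq_inv_of_mul_eq_one_left
        rw [← map_mul, Units.inv_mul, map_one]
      τ_π := hτπ
      τ_inf := fun x hx => by
        rw [hSinfW] at hx ⊢
        exact hτinf x hx
      τ_zero := fun x hx => by
        rw [hS0W] at hx ⊢
        exact hτzero x hx
      peu := hpeu
      Linf := Sum.elim L1i L2i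
      Linf_sheet := by
        rintro (x | x) k'
        · exact hL1iS x k'
        · exact hL2iS x k'
      Linf_τ := by
        rintro (x | x) y hy
        · change y ∈ (L1i x).R' at hy
          show τ y ∈ (L1i x).R'
          rw [hL1iR] at hy ⊢
          exact map_mem_locSub_of_sheet j Winf h.two.chart_le_inf τ hτj hτR hτWinf x.1 x.2.2.1 hy
        · change y ∈ (L2i x).R' at hy
          show τ y ∈ (L2i x).R'
          rw [hL2iR] at hy ⊢
          exact map_mem_locSub_of_sheet j⁻¹ Winf h2.chart_le_inf τ hτj' hτR hτWinf x.1 x.2.2.1 hy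
      L0 := Sum.elim L1z L2z
      L0_sheet := by
        rintro (x | x) k'
        · exact hL1zS x k'
        · exact hL2zS x k'
      L0_τ := by
        rintro (x | x) y hy
        · change y ∈ (L1z x).R' at hy
          show τ y ∈ (L1z x).R'
          rw [hL1zR] at hy ⊢
          exact map_mem_locSub_of_sheet j W0 h.two.chart_le_zero τ hτj hτR hτW0 x.1 x.2.2.1 hy
        · change y ∈ (L2z x).R' at hy
          show τ y ∈ (L2z x).R'
          rw [hL2zR] at hy ⊢
          exact map_mem_locSub_of_sheet j⁻¹ W0 h2.chart_le_zero τ hτj' hτR hτW0 x.1 x.2.2.1 hy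
      Ln := Ln
      Ln_true := hLnt
      Ln_false := hLnf
      Ln_τ := fun nd y hy => by
        rw [hLnR] at hy ⊢
        exact map_mem_locSub_of_sheet j Winf h.two.chart_le_inf τ hτj hτR hτWinf nd.1 nd.inf_le hy
      X := X
      Y := Y
      q := fun nd => algebraMap R EN π ^ m nd
      L := m
      X_mem := hXm
      Y_mem := hYm
      X_mul_Y := hXY
      q_eq := fun nd => ⟨1, ⟨⟨1, map_one _⟩, ⟨1, by rw [map_one, inv_one]⟩, one_ne_zero⟩, by
        rw [one_mul]; rfl⟩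
      X_unit := fun nd => by rw [hSinfW]; exact hXu nd
      Y_unit := fun nd => by rw [hS0W]; exact hYu nd
      kron := fun nd => by
        obtain ⟨a, b, ha, hb, e⟩ := hkr nd
        refine ⟨_, a, b, ha, hb, e, ?_⟩
        rw [hSinfW]
        exact hkron
      nodeK1_inf := fun nd x hx hd => by
        rw [hSinfW] at hd
        exact hK1i nd x hx hd
      nodeK1_zero := fun nd x hx hd => by
        rw [hS0W] at hd
        exact hK1z nd x hx hd
      glob_inf := fun z hz hsm hnd => by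
        rw [hSinfW] at hz
        obtain ⟨a, ha⟩ := hGinf z hz
          (fun 𝔪 h𝔪 hle => by
            by_cases h0 : sheetIdeal j W0 h.two.chart_le_zero ≤ 𝔪
            · obtain ⟨r, hr, hd⟩ := hnd ⟨𝔪, h𝔪, hle, h0⟩
              rw [hLnR] at hr
              rw [hSinfW] at hd
              exact ⟨r, hr, hd⟩
            · obtain ⟨r, hr, hd⟩ := hsm (Sum.inl ⟨𝔪, h𝔪, hle, h0⟩)
              have hr' : r ∈ (L1i ⟨𝔪, h𝔪, hle, h0⟩).R' := hr
              rw [hL1iR] at hr'
              rw [hSinfW] at hd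
              exact ⟨r, hr', hd⟩)
          (fun 𝔪 h𝔪 hle hc => by
            haveI := h𝔪.isPrime
            have h0 : ¬ sheetIdeal j⁻¹ W0 h2.chart_le_zero ≤ 𝔪 := fun h0 =>
              h.not_crossing_of_cusp hπ h2 𝔪 hc hle h0
            obtain ⟨r, hr, hd⟩ := hsm (Sum.inr ⟨𝔪, h𝔪, hle, h0⟩)
            have hr' : r ∈ (L2i ⟨𝔪, h𝔪, hle, h0⟩).R' := hr
            rw [hL2iR] at hr'
            rw [hSinfW] at hd
            exact ⟨r, hr', hd⟩)
        refine ⟨algebraMap R EN a, ⟨a, rfl⟩, ?_⟩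
        rw [hSinfW]
        exact ha
      glob_zero := fun z hz hsm hnd => by
        rw [hS0W] at hz
        obtain ⟨a, ha⟩ := hG0 z hz
          (fun 𝔪 h𝔪 hle => by
            by_cases hi : sheetIdeal j Winf h.two.chart_le_inf ≤ 𝔪
            · obtain ⟨r, hr, hd⟩ := hnd ⟨𝔪, h𝔪, hi, hle⟩
              rw [hLnR] at hr
              rw [hS0W] at hd
              exact ⟨r, hr, hd⟩
            · obtain ⟨r, hr, hd⟩ := hsm (Sum.inl ⟨𝔪, h𝔪, hle, hi⟩)
              have hr' : r ∈ (L1z ⟨𝔪, h𝔪, hle, hi⟩).R' := hr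
              rw [hL1zR] at hr'
              rw [hS0W] at hd
              exact ⟨r, hr', hd⟩)
          (fun 𝔪 h𝔪 hle hc => by
            haveI := h𝔪.isPrime
            have hi : ¬ sheetIdeal j⁻¹ Winf h2.chart_le_inf ≤ 𝔪 := fun hi =>
              h.not_crossing_of_cusp hπ h2 𝔪 hc hi hle
            obtain ⟨r, hr, hd⟩ := hsm (Sum.inr ⟨𝔪, h𝔪, hle, hi⟩)
            have hr' : r ∈ (L2z ⟨𝔪, h𝔪, hle, hi⟩).R' := hr
            rw [hL2zR] at hr'
            rw [hS0W] at hd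
            exact ⟨r, hr', hd⟩)
        refine ⟨algebraMap R EN a, ⟨a, rfl⟩, ?_⟩
        rw [hS0W]
        exact ha }
  have hD : PLFact D f k :=
    { f_ne := hf
      fac_inf := by
        rintro (x | x)
        · haveI := x.2.1
          obtain ⟨c, v, G, hc, hG, hv, e⟩ :=
            (SSModel.exists_fact_smooth_one h hπ hp.ne_zero hf hord x.1).1 x.2.2.1 x.2.2.2
          refine ⟨algebraMap K₁ EN c, ⟨c, rfl⟩, v, G, (map_ne_zero _).2 hc, hG, ?_, e⟩
          show IsUnitIn (L1i x).R' v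
          rw [hL1iR]
          exact hv
        · haveI := x.2.1
          obtain ⟨c, v, G, hc, hG, hv, e⟩ :=
            (SSModel.exists_fact_smooth_two h hπ hjint hp.ne_zero hf hord x.1).1 x.2.2.1 x.2.2.2
          refine ⟨algebraMap K₁ EN c, ⟨c, rfl⟩, v, G, (map_ne_zero _).2 hc, hG, ?_, e⟩
          show IsUnitIn (L2i x).R' v
          rw [hL2iR]
          exact hv
      fac_zero := by
        rintro (x | x)
        · haveI := x.2.1
          obtain ⟨c, v, G, hc, hG, hv, e⟩ :=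
            (SSModel.exists_fact_smooth_one h hπ hp.ne_zero hf hord x.1).2 x.2.2.1 x.2.2.2
          refine ⟨algebraMap K₁ EN c, ⟨c, rfl⟩, v, G, (map_ne_zero _).2 hc, hG, ?_, e⟩
          show IsUnitIn (L1z x).R' v
          rw [hL1zR]
          exact hv
        · haveI := x.2.1
          obtain ⟨c, v, G, hc, hG, hv, e⟩ :=
            (SSModel.exists_fact_smooth_two h hπ hjint hp.ne_zero hf hord x.1).2 x.2.2.1 x.2.2.2
          refine ⟨algebraMap K₁ EN c, ⟨c, rfl⟩, v, G, (map_ne_zero _).2 hc, hG, ?_, e⟩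
          show IsUnitIn (L2z x).R' v
          rw [hL2zR]
          exact hv
      fac_node := fun nd => by
        obtain ⟨c, v, G, hc, hG, hv, e⟩ := hk nd
        refine ⟨algebraMap K₁ EN c, ⟨c, rfl⟩, v, G, (map_ne_zero _).2 hc, hG, ?_, e⟩
        show IsUnitIn (Ln nd).R' v
        rw [hLnR]
        exact hv
      depth_inf := fun N =>
        (hostDepthBase_depthGE_iff hπ hp he₁ hpe Sinf Winf hSinfW).2 (hdinf N)
      depth_zero := fun N =>
        (hostDepthBase_depthGE_iff hπ hp he₁ hpe S0 W0 hS0W).2 (hd0 N) }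
  intro nd nd'
  exact PLFact.sq_dvd hp hD nd nd'

end Abs

end Fermat.Agent.MP
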