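import Mathlib
import Fermat.Agent.MP.PLHOST_helper9_Abs
import Fermat.Agent.MP.PLHOST_helper6_Node
import Fermat.Agent.MP.PLHOST_helper6_Glob

/-!
# Project MP40 — C4 [PL-HOST] helper9: PL-lite on an `SSModel`, assembled

`SSModel.pl_sq_dvd_of_isNodeCoord` = `SSModel.pl_sq_dvd` with helper6's node layer
(`SSModel.exists_localPt_node`) and (GLOB) (`SSModel.glob_inf`, `SSModel.glob_zero`) plugged in: the
only node input is a family of node coordinates in normal form `IsNodeCoord` with the node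
factorisations `IsNodeFact`.
-/

set_option autoImplicit false
set_option linter.unusedSectionVars false
set_option linter.unusedVariables false
set_option linter.style.haveILetI false

open AlgebraicCurve

namespace Fermat.Agent.MP

open Fermat.Agent.NP Fermat.Agent.SS Fermat.Agent.JA Fermat.Agent.FF Fermat.Agent.MW.NAdic

section Model

variable {R : Type*} [CommRing R] [IsDomain R] [IsDiscreteValuationRing R] [CharZero R]
  {K₁ : Type*} [Field K₁] [Algebra R K₁] [IsFractionRing R K₁]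
  {KM : Type*} [Field KM] [Algebra K₁ KM] [Algebra R KM] [IsScalarTower R K₁ KM]
  {EM : Type*} [Field EM] [Algebra KM EM] [Algebra K₁ EM] [IsScalarTower K₁ KM EM] [Algebra R EM]
  [IsScalarTower R KM EM]
  {KN : Type*} [Field KN] [Algebra K₁ KN] [Algebra R KN] [IsScalarTower R K₁ KN]
  {EN : Type*} [Field EN] [Algebra KN EN] [Algebra K₁ EN] [IsScalarTower K₁ KN EN] [Algebra R EN]
  [IsScalarTower R KN EN] [FiniteDimensional KN EN]
  {π : R} {p n : ℕ} {S : Finset R} {t : KM} {jM : EM} {j : KN} {A B : EM →+* EN}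
  {VM : ValuationSubring EM} {Winf W0 : ValuationSubring EN}
  [IsAlgClosed (IsLocalRing.ResidueField R)]

/-- **PL-lite on an `SSModel`**, with node coordinates in normal form as the only node input. -/
theorem SSModel.pl_sq_dvd_of_isNodeCoord (h : SSModel K₁ π p n S t jM j A B VM Winf W0)
    (hπ : Irreducible π) (hjint : IsIntegral ↥(Algebra.adjoin R {B jM}) (A jM))
    (hp : p.Prime) {e₁ : ℕ} (he₁ : 0 < e₁) {ε : Rˣ} (hpe : (p : R) = ε * π ^ e₁)
    (τ : EN →+* EN)
    (hτK : ∀ c : K₁, ∃ c' : K₁, τ (algebraMap K₁ EN c) = algebraMap K₁ EN c')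
    (hτR : ∀ r : R, ∃ r' : R, τ (algebraMap R EN r) = algebraMap R EN r')
    (hτj : τ (algebraMap KN EN j) = algebraMap KN EN j)
    {s : ℕ} (hs : 1 ≤ s) (ω : Rˣ)
    (hτπ : τ (algebraMap R EN π) =
      algebraMap R EN π * (1 + algebraMap R EN ω * algebraMap R EN π ^ s))
    (hτinf : ∀ x ∈ Winf, PiDvd (algebraMap R EN π) Winf.toSubring (s + 1) (τ x - x))
    (hτzero : ∀ x ∈ W0, PiDvd (algebraMap R EN π) W0.toSubring (s + 1) (τ x - x))
    (hpeu : (s + 1) * (p - 1) ≤ e₁)
    (hkron : PiDvd (algebraMap R EN π) Winf.toSubring (s + 1)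
      (B (algebraMap KM EM t) - A (algebraMap KM EM t) ^ p))
    {f : EN} (hf : f ≠ 0) (hord : ∀ P : Place K₁ EN, (p : ℤ) ∣ P.ord f)
    (hdinf : ∀ N, ∃ c : K₁, c ≠ 0 ∧ ValDepth π p Winf N (τ f / f) c)
    (hd0 : ∀ N, ∃ c : K₁, c ≠ 0 ∧ ValDepth π p W0 N (τ f / f) c)
    (X : ChartNode j Winf W0 h.two.chart_le_inf h.two.chart_le_zero → EN)
    (m : ChartNode j Winf W0 h.two.chart_le_inf h.two.chart_le_zero → ℕ)
    (k : ChartNode j Winf W0 h.two.chart_le_inf h.two.chart_le_zero → ℤ)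
    (hX : ∀ nd, IsNodeCoord π (isFractionRing_chartOne (K₁ := K₁) j h.j_adjoin)
      (sheetIdeal j Winf h.two.chart_le_inf) (sheetIdeal j W0 h.two.chart_le_zero) nd.1
      (X nd) (m nd))
    (hk : ∀ nd, IsNodeFact K₁ (locSub (chartOne R EN j) nd.1) p (X nd) f (k nd)) :
    ∀ nd nd', (p : ℤ) ^ 2 ∣ k nd * m nd - k nd' * m nd' :=
  SSModel.pl_sq_dvd h hπ hjint hp he₁ hpe τ hτK hτR hτj hs ω hτπ hτinf hτzero hpeu hkron
    (fun z hz h1 h2 => SSModel.glob_inf h hπ hz h1 h2)
    (fun z hz h1 h2 => SSModel.glob_zero h hπ hz h1 h2)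
    hf hord hdinf hd0 X m k
    (fun nd => SSModel.exists_localPt_node hp he₁ hpe h hπ nd.1 nd.inf_le nd.zero_le (hX nd)) hk

end Model

end Fermat.Agent.MP
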