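import Mathlib
import Fermat.Agent.MP.PLHOST_helper9_Model

/-!
# Project MP40 — C4 [PL-HOST] helper9: the valuation identity at a node, and the proportionality

* `sheet_node_rel` (abstract, two sheets of a `DepthBase`): `f = c X ^ k v G ^ p`, `X Y = π ^ m`,
  `X` a unit along the sheet `∞`, `Y` a unit along the sheet `0`, `v` a unit along both,
  `f = π ^ a∞ · unit` along `∞`, `f = π ^ a0 · unit` along `0`  ⇒  `p ∣ k m - (a0 - a∞)`;
* `SSModel.dvd_node_of_isNodeFact` : the same at a node of an `SSModel`, from a node coordinate in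
  normal form and a node factorisation `IsNodeFact`;
* `int_dvd_cross_of_pow_dvd` : `K m = K' m' = c`, `p ^ (a + 1) ∤ c`, `p ^ (a + 1) ∣ k m - k' m'`
  ⇒ `p ∣ k K' - k' K`.
-/

set_option autoImplicit false
set_option linter.unusedSectionVars false
set_option linter.unusedVariables false
set_option linter.style.haveILetI false

open AlgebraicCurve

namespace Fermat.Agent.MP

open Fermat.Agent.NP Fermat.Agent.SS Fermat.Agent.JA Fermat.Agent.FF Fermat.Agent.MW.NAdic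

section Abstract

variable {F : Type*} [Field F] {p : ℕ} {B : DepthBase F p}

/-- **the valuation identity at a node**, abstract form. -/
theorem sheet_node_rel (Sinf S0 : Sheet B) {X Y c v G f : F} {m : ℕ} {k ainf a0 : ℤ}
    (hXY : X * Y = B.π ^ m) (hX : IsUnitIn Sinf.W X) (hY : IsUnitIn S0.W Y)
    (hc : c ∈ B.K₁) (hc0 : c ≠ 0) (hvinf : IsUnitIn Sinf.W v) (hv0 : IsUnitIn S0.W v)
    (hG : G ≠ 0) (hf : f = c * X ^ k * v * G ^ p)
    (hfinf : IsUnitIn Sinf.W (f * (B.π ^ ainf)⁻¹)) (hf0 : IsUnitIn S0.W (f * (B.π ^ a0)⁻¹)) :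
    (p : ℤ) ∣ k * m - (a0 - ainf) := by
  obtain ⟨nc, uc, huc, huc', rfl⟩ := B.unif_const c hc hc0
  obtain ⟨bi, ui, hui, hui', eGi⟩ := Sinf.unif G hG
  obtain ⟨bz, uz, huz, huz', eGz⟩ := S0.unif G hG
  have hπ0 := B.π_ne_zero
  have huc0 : uc ≠ 0 := by
    rintro rfl
    exact hc0 (mul_zero _)
  have hui0 : ui ≠ 0 := by
    rintro rfl
    exact hG (by rw [eGi, mul_zero])
  have huz0 : uz ≠ 0 := by
    rintro rfl
    exact hG (by rw [eGz, mul_zero])
  have hUci : IsUnitIn Sinf.W uc := ⟨Sinf.R₁_le huc, Sinf.R₁_le huc', huc0⟩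
  have hUcz : IsUnitIn S0.W uc := ⟨S0.R₁_le huc, S0.R₁_le huc', huc0⟩
  have hUi : IsUnitIn Sinf.W ui := ⟨hui, hui', hui0⟩
  have hUz : IsUnitIn S0.W uz := ⟨huz, huz', huz0⟩
  have hY0 : Y ≠ 0 := hY.2.2
  have hXe : X = B.π ^ m * Y⁻¹ := by
    rw [← hXY]
    field_simp
  -- along the sheet `∞`
  have e1 : B.π ^ ainf * (f * (B.π ^ ainf)⁻¹) =
      B.π ^ (nc + (p : ℤ) * bi) * (uc * X ^ k * v * ui ^ p) := by
    have h0 : B.π ^ ainf ≠ 0 := zpow_ne_zero _ hπ0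
    rw [mul_comm f, ← mul_assoc, mul_inv_cancel₀ h0, one_mul, hf, eGi, zpow_add₀ hπ0,
      mul_comm (p : ℤ) bi, zpow_mul B.π bi (p : ℤ), zpow_natCast, mul_pow]
    ring
  have hainf : ainf = nc + (p : ℤ) * bi :=
    sheet_zpow_unique Sinf hfinf
      (((hUci.mul (isUnitIn_zpow hX k)).mul hvinf).mul (hUi.pow p)) e1
  -- along the sheet `0`
  have e2 : B.π ^ a0 * (f * (B.π ^ a0)⁻¹) =
      B.π ^ (nc + k * (m : ℤ) + (p : ℤ) * bz) * (uc * Y⁻¹ ^ k * v * uz ^ p) := by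
    have h0 : B.π ^ a0 ≠ 0 := zpow_ne_zero _ hπ0
    have hz : B.π ^ (nc + k * (m : ℤ) + (p : ℤ) * bz) =
        B.π ^ nc * (B.π ^ m) ^ k * (B.π ^ bz) ^ p := by
      rw [zpow_add₀ hπ0, zpow_add₀ hπ0, mul_comm (p : ℤ) bz, zpow_mul B.π bz (p : ℤ),
        zpow_natCast, mul_comm k (m : ℤ), zpow_mul B.π (m : ℤ) k, zpow_natCast]
    rw [mul_comm f, ← mul_assoc, mul_inv_cancel₀ h0, one_mul, hf, eGz, hXe, hz, mul_pow, mul_zpow]
    ring
  have ha0 : a0 = nc + k * (m : ℤ) + (p : ℤ) * bz :=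
    sheet_zpow_unique S0 hf0
      (((hUcz.mul (isUnitIn_zpow hY.inv k)).mul hv0).mul (hUz.pow p)) e2
  exact ⟨bi - bz, by rw [ha0, hainf]; ring⟩

end Abstract

section Arith

/-- **the proportionality of the node exponents**: `K m = K' m' = c`, `p ^ (a + 1) ∤ c`,
`p ^ (a + 1) ∣ k m - k' m'` ⇒ `p ∣ k K' - k' K`. -/
theorem int_dvd_cross_of_pow_dvd {p : ℕ} (hp : p.Prime) {a : ℕ} {c k k' K K' m m' : ℤ}
    (hc : ¬ (p : ℤ) ^ (a + 1) ∣ c) (hK : K * m = c) (hK' : K' * m' = c)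
    (h : (p : ℤ) ^ (a + 1) ∣ k * m - k' * m') : (p : ℤ) ∣ k * K' - k' * K := by
  have hP : Prime (p : ℤ) := Nat.prime_iff_prime_int.mp hp
  have hc0 : c ≠ 0 := by
    rintro rfl
    exact hc (dvd_zero _)
  have hm0 : m ≠ 0 := by
    rintro rfl
    exact hc0 (by rw [← hK, mul_zero])
  have hm'0 : m' ≠ 0 := by
    rintro rfl
    exact hc0 (by rw [← hK', mul_zero])
  have hfin : ∀ z : ℤ, z ≠ 0 → FiniteMultiplicity (p : ℤ) z := fun z hz =>
    Int.finiteMultiplicity_iff.mpr ⟨by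
      rw [Int.natAbs_natCast]
      exact hp.one_lt.ne', hz⟩
  obtain ⟨μ, hμ, hpμ⟩ := (hfin m hm0).exists_eq_pow_mul_and_not_dvd
  obtain ⟨μ', hμ', hpμ'⟩ := (hfin m' hm'0).exists_eq_pow_mul_and_not_dvd
  set α := multiplicity (p : ℤ) m with hα
  set α' := multiplicity (p : ℤ) m' with hα'
  have hα'a : α' ≤ a := by
    by_contra hlt
    rw [not_le] at hlt
    apply hc
    rw [← hK', hμ']
    exact Dvd.dvd.mul_left (Dvd.dvd.mul_right (pow_dvd_pow _ hlt) _) _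
  have hPα : (p : ℤ) ^ α ≠ 0 := pow_ne_zero _ hP.ne_zero
  have hPα' : (p : ℤ) ^ α' ≠ 0 := pow_ne_zero _ hP.ne_zero
  -- the key identity, after cancelling `p ^ α`
  have key : (k * K' - k' * K) * μ * μ' * (p : ℤ) ^ α' = K * μ * (k * m - k' * m') := by
    apply mul_left_cancel₀ hPα
    have e1 : (k * K' - k' * K) * m * m' = c * (k * m - k' * m') := by
      rw [← hK]
      have hKK : K' * m' = K * m := by rw [hK, hK']
      linear_combination (k * m) * hKK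
    have e2 : K * m = K * ((p : ℤ) ^ α * μ) := by rw [← hμ]
    calc (p : ℤ) ^ α * ((k * K' - k' * K) * μ * μ' * (p : ℤ) ^ α')
        = (k * K' - k' * K) * ((p : ℤ) ^ α * μ) * ((p : ℤ) ^ α' * μ') := by ring
      _ = (k * K' - k' * K) * m * m' := by rw [← hμ, ← hμ']
      _ = c * (k * m - k' * m') := e1
      _ = K * ((p : ℤ) ^ α * μ) * (k * m - k' * m') := by rw [← hK, e2]
      _ = (p : ℤ) ^ α * (K * μ * (k * m - k' * m')) := by ring
  have h1 : (p : ℤ) ^ (α' + 1) ∣ (k * K' - k' * K) * μ * μ' * (p : ℤ) ^ α' := by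
    rw [key]
    exact Dvd.dvd.mul_left (dvd_trans (pow_dvd_pow _ (by omega)) h) _
  have h2 : (p : ℤ) ∣ (k * K' - k' * K) * μ * μ' := by
    rw [pow_succ, mul_comm ((k * K' - k' * K) * μ * μ')] at h1
    exact (mul_dvd_mul_iff_left hPα').mp h1
  rcases hP.dvd_or_dvd h2 with h3 | h3
  · rcases hP.dvd_or_dvd h3 with h4 | h4
    · exact h4
    · exact absurd h4 hpμ
  · exact absurd h3 hpμ'

end Arith

section Model

variable {R : Type*} [CommRing R] [IsDomain R] [IsDiscreteValuationRing R] [CharZero R]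
  {K₁ : Type*} [Field K₁] [Algebra R K₁] [IsFractionRing R K₁]
  {KM : Type*} [Field KM] [Algebra K₁ KM] [Algebra R KM] [IsScalarTower R K₁ KM]
  {EM : Type*} [Field EM] [Algebra KM EM] [Algebra K₁ EM] [IsScalarTower K₁ KM EM] [Algebra R EM]
  [IsScalarTower R KM EM]
  {KN : Type*} [Field KN] [Algebra K₁ KN] [Algebra R KN] [IsScalarTower R K₁ KN]
  {EN : Type*} [Field EN] [Algebra KN EN] [Algebra K₁ EN] [IsScalarTower K₁ KN EN] [Algebra R EN]
  [IsScalarTower R KN EN] [FiniteDimensional KN EN]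
  {π : R} {p n : ℕ} {S : Finset R} {t : KM} {jM : EM} {j : KN} {A B : EM →+* EN}
  {VM : ValuationSubring EM} {Winf W0 : ValuationSubring EN}
  [IsAlgClosed (IsLocalRing.ResidueField R)]

/-- **the valuation identity at a node of an `SSModel`**: `p ∣ k m - (a0 - a∞)`. -/
theorem SSModel.dvd_node_of_isNodeFact (h : SSModel K₁ π p n S t jM j A B VM Winf W0)
    (hπ : Irreducible π) (hp : p.Prime) {e₁ : ℕ} (he₁ : 0 < e₁) {ε : Rˣ}
    (hpe : (p : R) = ε * π ^ e₁)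
    (𝔪 : Ideal ↥(chartOne R EN j)) [h𝔪 : 𝔪.IsMaximal]
    (hinf : sheetIdeal j Winf h.two.chart_le_inf ≤ 𝔪)
    (h0 : sheetIdeal j W0 h.two.chart_le_zero ≤ 𝔪) {X : EN} {m : ℕ}
    (hX : haveI := h𝔪.isPrime; IsNodeCoord π (isFractionRing_chartOne (K₁ := K₁) j h.j_adjoin)
      (sheetIdeal j Winf h.two.chart_le_inf) (sheetIdeal j W0 h.two.chart_le_zero) 𝔪 X m)
    {f : EN} {k : ℤ} (hk : IsNodeFact K₁ (locSub (chartOne R EN j) 𝔪) p X f k)
    {ainf a0 : ℤ} (hfinf : Winf.valuation (f * (algebraMap R EN π ^ ainf)⁻¹) = 1)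
    (hf0 : W0.valuation (f * (algebraMap R EN π ^ a0)⁻¹) = 1) :
    (p : ℤ) ∣ k * m - (a0 - ainf) := by
  haveI := h𝔪.isPrime
  obtain ⟨L, Y, hLR, hLt, hLf, -, -, hXY, hXu, hYu, -, -, -⟩ :=
    SSModel.exists_localPt_node hp he₁ hpe h hπ 𝔪 hinf h0 hX
  obtain ⟨c, v, G, hc, hG, hv, hf⟩ := hk
  have hvL : IsUnitIn L.R' v := by rw [hLR]; exact hv
  have hvi : IsUnitIn Winf.toSubring v := by
    have := hvL.of_le (L.le_sheet true)
    rwa [hLt] at this
  have hvz : IsUnitIn W0.toSubring v := by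
    have := hvL.of_le (L.le_sheet false)
    rwa [hLf] at this
  exact sheet_node_rel (B := hostDepthBase K₁ KN EN hπ hp he₁ hpe)
    (SSModel.sheetInf hp he₁ hpe h hπ) (SSModel.sheetZero hp he₁ hpe h hπ) hXY hXu hYu
    ⟨c, rfl⟩ ((map_ne_zero _).mpr hc) hvi hvz hG hf
    ((isUnitIn_toSubring_iff Winf).mpr hfinf) ((isUnitIn_toSubring_iff W0).mpr hf0)

end Model

end Fermat.Agent.MP
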