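import Mathlib
import Fermat.Agent.MP.PLHOST_helper9_Val
import Fermat.Agent.MP.PLHOST_helper9_Smooth
import Fermat.Agent.NP.HOSTP_helper7_ThmA
import Fermat.Agent.S36.CYCLO_helper1

/-!
# Project MP40 — C5 helper9: normalised factorisations along the sheet `∞`, final arithmetic

For the dictionary [DICT] between the places of the special fibre `C_∞` and the closed points of the
model (in a form which does not mention the reduction map):

* `SSModel.exists_normalised_fact_inf` : `f = c₁ u G₁ ^ d` with `u ∈ W_∞ˣ` and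
  `f = π ^ a∞ · unit` along `W_∞`  ⇒  `f π ^ (-a∞) = c u G ^ d` with `c ∈ Rˣ`, `G ∈ W_∞ˣ`;
* `SSModel.exists_fact_smooth_inf_one / _two` : at a smooth closed point `𝔪` of `C_∞` (chart `j` /
  chart `j⁻¹`): `f π ^ (-a∞) = c v G ^ d`, `c ∈ Rˣ`, `v ∈ O_𝔪ˣ`, `G ∈ W_∞ˣ`;
* `SSModel.exists_fact_node_inf` : at a node: `f π ^ (-a∞) = c X ^ k v G ^ d`;
* `ramification_eq_of_zeta`, `not_dvd_nodeUnit_exp`, `dvd_ord_of_elim` : the final arithmetic of
  (C) [ORD]: `p ∣ K`, `K m = 12 e`, `p ∣ k m - δ`, `p ∣ δ`, `p ∤ k` is impossible for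
  `e = m_w (p - 1)`, `m_w ≤ p`.
-/

set_option autoImplicit false
set_option linter.unusedSectionVars false
set_option linter.unusedVariables false
set_option linter.style.haveILetI false

open AlgebraicCurve

namespace Fermat.Agent.MP

open Fermat.Agent.NP Fermat.Agent.SS Fermat.Agent.JA Fermat.Agent.FF Fermat.Agent.MW.NAdic

section Arith

variable {R : Type*} [CommRing R] [IsDomain R] [IsDiscreteValuationRing R]

/-- `p = u ϖ ^ e` and `ζ_p - 1 = u_w ϖ ^ m_w` ⇒ `e = m_w (p - 1)`. -/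
theorem ramification_eq_of_zeta {p : ℕ} (hp : p.Prime) {ϖ ζ : R} (hϖ : Irreducible ϖ)
    (hζ : IsPrimitiveRoot ζ p) {mw : ℕ} {uw : Rˣ} (hζϖ : ζ - 1 = uw * ϖ ^ mw) {e : ℕ} {u : Rˣ}
    (hu : ((p : ℕ) : R) = u * ϖ ^ e) : e = mw * (p - 1) := by
  obtain ⟨v, hv⟩ := Fermat.Agent.S36.associated_sub_one_pow_natCast_of_prime hp hζ
  have h1 : ((uw ^ (p - 1) * v : Rˣ) : R) * ϖ ^ (mw * (p - 1)) = (u : R) * ϖ ^ e := by
    rw [← hu, ← hv, hζϖ, mul_pow, ← pow_mul, Units.val_mul, Units.val_pow_eq_pow_val]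
    ring
  exact (IsDiscreteValuationRing.unit_mul_pow_congr_pow hϖ hϖ _ _ _ _ h1).symm

/-- `p² ∤ 12 m_w (p - 1)` for a prime `p ≥ 5` and `0 < m_w ≤ p` (integer form). -/
theorem not_sq_dvd_twelve_mul_int {p mw : ℕ} (hp : p.Prime) (hp5 : 5 ≤ p) (hmw : 0 < mw)
    (hle : mw ≤ p) : ¬ (p : ℤ) ^ 2 ∣ ((12 * (mw * (p - 1)) : ℕ) : ℤ) := by
  have h12 : ¬ p ∣ 12 * (p - 1) := by
    intro h
    rcases (Nat.Prime.dvd_mul hp).mp h with h1 | h1
    · have hle' := Nat.le_of_dvd (by norm_num) h1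
      interval_cases p <;> first | omega | exact absurd hp (by norm_num)
    · have hle' := Nat.le_of_dvd (by omega) h1
      omega
  have : ((p : ℤ) ^ 2) = ((p ^ 2 : ℕ) : ℤ) := by push_cast; ring
  rw [this, Int.natCast_dvd_natCast]
  intro h
  have hcop : Nat.Coprime (p ^ 2) (12 * (p - 1)) :=
    Nat.Coprime.pow_left 2 ((Nat.Prime.coprime_iff_not_dvd hp).mpr h12)
  have h' : p ^ 2 ∣ mw * (12 * (p - 1)) := by
    have e1 : 12 * (mw * (p - 1)) = mw * (12 * (p - 1)) := by ring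
    rwa [e1] at h
  have h1 : p ^ 2 ∣ mw := hcop.dvd_of_dvd_mul_right h'
  have h2 := Nat.le_of_dvd hmw h1
  nlinarith

/-- **the final arithmetic at a node**: `K m = 12 e`, `e = m_w (p - 1)` with `m_w ≤ p`,
`p ∣ k m - δ`, `p ∣ δ`, `p ∤ k`  ⇒  `p ∤ K`. -/
theorem not_dvd_nodeUnit_exp {p : ℕ} (hp : p.Prime) (hp5 : 5 ≤ p) {ϖ ζ : R} (hϖ : Irreducible ϖ)
    (hζ : IsPrimitiveRoot ζ p) {mw : ℕ} {uw : Rˣ} (hmw : 0 < mw) (hmwp : mw ≤ p)
    (hζϖ : ζ - 1 = uw * ϖ ^ mw) {e : ℕ} {u : Rˣ} (hu : ((p : ℕ) : R) = u * ϖ ^ e)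
    {k K a0 ainf : ℤ} {m : ℕ} (hK : K * (m : ℤ) = ((12 * e : ℕ) : ℤ))
    (hval : (p : ℤ) ∣ k * (m : ℤ) - (a0 - ainf)) (hdelta : (p : ℤ) ∣ a0 - ainf)
    (hk : ¬ (p : ℤ) ∣ k) : ¬ (p : ℤ) ∣ K := by
  intro hpK
  have hP : Prime (p : ℤ) := Nat.prime_iff_prime_int.mp hp
  have he := ramification_eq_of_zeta hp hϖ hζ hζϖ hu
  have hkm : (p : ℤ) ∣ k * (m : ℤ) := by
    have := dvd_add hval hdelta
    rwa [sub_add_cancel] at this
  have hm : (p : ℤ) ∣ (m : ℤ) := (hP.dvd_or_dvd hkm).resolve_left hk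
  have h2 : (p : ℤ) ^ 2 ∣ ((12 * e : ℕ) : ℤ) := by
    rw [← hK, pow_two]
    exact mul_dvd_mul hpK hm
  rw [he] at h2
  exact not_sq_dvd_twelve_mul_int hp hp5 hmw hmwp h2

/-- **the conclusion at a node**: from the elimination `p ∣ ord F̄ ∨ p ∣ K` and
`ord F̄ ≡ k x mod p`. -/
theorem dvd_ord_of_elim {p : ℕ} (hp : p.Prime) (hp5 : 5 ≤ p) {ϖ ζ : R} (hϖ : Irreducible ϖ)
    (hζ : IsPrimitiveRoot ζ p) {mw : ℕ} {uw : Rˣ} (hmw : 0 < mw) (hmwp : mw ≤ p)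
    (hζϖ : ζ - 1 = uw * ϖ ^ mw) {e : ℕ} {u : Rˣ} (hu : ((p : ℕ) : R) = u * ϖ ^ e)
    {k K a0 ainf ordF x : ℤ} {m : ℕ} (hK : K * (m : ℤ) = ((12 * e : ℕ) : ℤ))
    (hval : (p : ℤ) ∣ k * (m : ℤ) - (a0 - ainf)) (hdelta : (p : ℤ) ∣ a0 - ainf)
    (hordF : (p : ℤ) ∣ ordF - k * x) (helim : (p : ℤ) ∣ ordF ∨ (p : ℤ) ∣ K) :
    (p : ℤ) ∣ ordF := by
  rcases helim with h | h
  · exact h
  · by_contra hn
    have hk : ¬ (p : ℤ) ∣ k := by
      intro hk
      apply hn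
      have := dvd_add hordF (Dvd.dvd.mul_right hk x)
      rwa [sub_add_cancel] at this
    exact not_dvd_nodeUnit_exp hp hp5 hϖ hζ hmw hmwp hζϖ hu hK hval hdelta hk h

end Arith

section Model

variable {R : Type*} [CommRing R] [IsDomain R] [IsDiscreteValuationRing R] [CharZero R]
  {K₁ : Type*} [Field K₁] [Algebra R K₁] [IsFractionRing R K₁]
  {KM : Type*} [Field KM] [Algebra K₁ KM] [Algebra R KM] [IsScalarTower R K₁ KM]
  {EM : Type*} [Field EM] [Algebra KM EM] [Algebra K₁ EM] [IsScalarTower K₁ KM EM] [Algebra R EM]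
  [IsScalarTower R KM EM]
  {KN : Type*} [Field KN] [Algebra K₁ KN] [Algebra R KN] [IsScalarTower R K₁ KN]
  {EN : Type*} [Field EN] [Algebra KN EN] [Algebra K₁ EN] [IsScalarTower K₁ KN EN] [Algebra R EN]
  [IsScalarTower R KN EN] [FiniteDimensional KN EN]
  {π : R} {p n : ℕ} {S : Finset R} {t : KM} {jM : EM} {j : KN} {A B : EM →+* EN}
  {VM : ValuationSubring EM} {Winf W0 : ValuationSubring EN}
  [IsAlgClosed (IsLocalRing.ResidueField R)]

/-- **normalisation of a factorisation along the sheet `∞`.** -/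
theorem SSModel.exists_normalised_fact_inf (h : SSModel K₁ π p n S t jM j A B VM Winf W0)
    (hπ : Irreducible π) (hp : p.Prime) {e₁ : ℕ} (he₁ : 0 < e₁) {ε : Rˣ}
    (hpe : (p : R) = ε * π ^ e₁) {d : ℕ} {f u G₁ : EN} {c₁ : K₁} (hc₁ : c₁ ≠ 0) (hG₁ : G₁ ≠ 0)
    (hu : Winf.valuation u = 1) (hf : f = algebraMap K₁ EN c₁ * u * G₁ ^ d) {ainf : ℤ}
    (hfinf : Winf.valuation (f * (algebraMap R EN π ^ ainf)⁻¹) = 1) :
    ∃ (c : Rˣ) (G : EN), Winf.valuation G = 1 ∧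
      f * (algebraMap R EN π ^ ainf)⁻¹ = algebraMap R EN (c : R) * u * G ^ d := by
  haveI : IsScalarTower R K₁ EN := isScalarTower_base_const R K₁ KN EN
  obtain ⟨nc, c, hc⟩ := exists_zpow_mul_unit_base K₁ hπ hc₁
  obtain ⟨b, hb⟩ := SSModel.exists_zpow_val_eq_one_inf h he₁ hpe hG₁
  have hπ0 : algebraMap R EN π ≠ 0 := SSModel_pi_ne_zero h
  set G : EN := G₁ * (algebraMap R EN π ^ b)⁻¹ with hG
  have hG₁e : G₁ = algebraMap R EN π ^ b * G := by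
    rw [hG]
    field_simp
  have hcE : algebraMap K₁ EN c₁ = algebraMap R EN π ^ nc * algebraMap R EN (c : R) := by
    rw [hc, map_mul, map_zpow₀, ← IsScalarTower.algebraMap_apply R K₁ EN,
      ← IsScalarTower.algebraMap_apply R K₁ EN]
  have hcval : Winf.valuation (algebraMap R EN (c : R)) = 1 := by
    have hRW : ∀ r : R, algebraMap R EN r ∈ Winf :=
      fun r => h.two.chart_le_inf _ (Subalgebra.algebraMap_mem _ r)
    have hinv : algebraMap R EN ((c⁻¹ : Rˣ) : R) = (algebraMap R EN (c : R))⁻¹ := by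
      apply eq_inv_of_mul_eq_one_left
      rw [← map_mul, Units.inv_mul, map_one]
    refine (isUnitIn_toSubring_iff Winf).mp ⟨hRW _, ?_, ?_⟩
    · rw [← hinv]
      exact hRW _
    · intro h0
      have h1 : algebraMap R EN ((c : R) * ((c⁻¹ : Rˣ) : R)) = 0 := by rw [map_mul, h0, zero_mul]
      rw [Units.mul_inv, map_one] at h1
      exact one_ne_zero h1
  have hy' : Winf.valuation (algebraMap R EN (c : R) * u * G ^ d) = 1 := by
    rw [map_mul, map_mul, map_pow, hcval, hu, hb, one_pow, mul_one, mul_one]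
  have e1 : algebraMap R EN π ^ ainf * (f * (algebraMap R EN π ^ ainf)⁻¹) =
      algebraMap R EN π ^ (nc + (d : ℤ) * b) * (algebraMap R EN (c : R) * u * G ^ d) := by
    have h0 : algebraMap R EN π ^ ainf ≠ 0 := zpow_ne_zero _ hπ0
    rw [mul_comm f, ← mul_assoc, mul_inv_cancel₀ h0, one_mul, hf, hcE, hG₁e, zpow_add₀ hπ0,
      mul_comm (d : ℤ) b, zpow_mul (algebraMap R EN π) b (d : ℤ), zpow_natCast, mul_pow]
    ring
  have hainf : ainf = nc + (d : ℤ) * b :=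
    sheet_zpow_unique (B := hostDepthBase K₁ KN EN hπ hp he₁ hpe)
      (SSModel.sheetInf hp he₁ hpe h hπ) ((isUnitIn_toSubring_iff Winf).mpr hfinf)
      ((isUnitIn_toSubring_iff Winf).mpr hy') e1
  refine ⟨c, G, hb, ?_⟩
  have h0 : algebraMap R EN π ^ ainf ≠ 0 := zpow_ne_zero _ hπ0
  apply mul_left_cancel₀ h0
  rw [e1, hainf]

/-- a unit of the local ring of a closed point of the component `∞` (chart `j`) is a unit of
`W_∞`. -/
theorem SSModel.val_inf_eq_one_of_isUnitIn_one (h : SSModel K₁ π p n S t jM j A B VM Winf W0)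
    (hπ : Irreducible π) (𝔪 : Ideal ↥(chartOne R EN j)) [h𝔪 : 𝔪.IsMaximal]
    (hinf : sheetIdeal j Winf h.two.chart_le_inf ≤ 𝔪) {v : EN}
    (hv : haveI := h𝔪.isPrime; IsUnitIn (locSub (chartOne R EN j) 𝔪) v) :
    Winf.valuation v = 1 := by
  haveI := h𝔪.isPrime
  haveI : IsScalarTower R K₁ EN := isScalarTower_base_const R K₁ KN EN
  haveI : IsNoetherianRing ↥(chartOne R EN j) :=
    isNoetherianRing_chartOne (K₁ := K₁) j h.j_transcendental h.j_adjoin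
  haveI : IsFractionRing ↥(chartOne R EN j) EN := isFractionRing_chartOne (K₁ := K₁) j h.j_adjoin
  have hmod := h.isModelChart_one hπ
  haveI := hmod.isPrime_inf
  have h1 : IsUnitIn (locSub (chartOne R EN j) (sheetIdeal j Winf h.two.chart_le_inf)) v :=
    hv.of_le (locSub_mono hinf)
  rw [SSModel.locSub_inf h hπ] at h1
  exact (isUnitIn_toSubring_iff Winf).mp h1

/-- **the normalised factorisation at a smooth closed point of `C_∞`, chart `j`.** -/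
theorem SSModel.exists_fact_smooth_inf_one (h : SSModel K₁ π p n S t jM j A B VM Winf W0)
    (hπ : Irreducible π) (hp : p.Prime) {e₁ : ℕ} (he₁ : 0 < e₁) {ε : Rˣ}
    (hpe : (p : R) = ε * π ^ e₁) {d : ℕ} (hd : d ≠ 0) {f : EN} (hf : f ≠ 0)
    (hord : ∀ P : Place K₁ EN, (d : ℤ) ∣ P.ord f) {ainf : ℤ}
    (hfinf : Winf.valuation (f * (algebraMap R EN π ^ ainf)⁻¹) = 1)
    (𝔪 : Ideal ↥(chartOne R EN j)) [h𝔪 : 𝔪.IsMaximal]
    (hinf : sheetIdeal j Winf h.two.chart_le_inf ≤ 𝔪)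
    (h0 : ¬ sheetIdeal j W0 h.two.chart_le_zero ≤ 𝔪) :
    haveI := h𝔪.isPrime
    ∃ (c : Rˣ) (v G : EN), IsUnitIn (locSub (chartOne R EN j) 𝔪) v ∧ Winf.valuation G = 1 ∧
      f * (algebraMap R EN π ^ ainf)⁻¹ = algebraMap R EN (c : R) * v * G ^ d := by
  haveI := h𝔪.isPrime
  obtain ⟨c₁, v, G₁, hc₁, hG₁, hv, hfe⟩ :=
    (SSModel.exists_fact_smooth_one h hπ hd hf hord 𝔪).1 hinf h0
  have hvu := SSModel.val_inf_eq_one_of_isUnitIn_one h hπ 𝔪 hinf hv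
  obtain ⟨c, G, hG, e⟩ := SSModel.exists_normalised_fact_inf h hπ hp he₁ hpe hc₁ hG₁ hvu hfe hfinf
  exact ⟨c, v, G, hv, hG, e⟩

/-- a unit of the local ring of a closed point of the component `∞` (chart `j⁻¹`) is a unit of
`W_∞`. -/
theorem SSModel.val_inf_eq_one_of_isUnitIn_two (h : SSModel K₁ π p n S t jM j A B VM Winf W0)
    (hπ : Irreducible π) (hjint : IsIntegral ↥(Algebra.adjoin R {B jM}) (A jM))
    (𝔪 : Ideal ↥(chartOne R EN j⁻¹)) [h𝔪 : 𝔪.IsMaximal]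
    (hinf : sheetIdeal j⁻¹ Winf (h.two.inv hπ).chart_le_inf ≤ 𝔪) {v : EN}
    (hv : haveI := h𝔪.isPrime; IsUnitIn (locSub (chartOne R EN j⁻¹) 𝔪) v) :
    Winf.valuation v = 1 := by
  haveI := h𝔪.isPrime
  haveI : IsScalarTower R K₁ EN := isScalarTower_base_const R K₁ KN EN
  have hu' := transcendental_inv_of_transcendental h.j_transcendental
  have hK' := adjoin_inv_eq_top h.j_adjoin
  haveI : IsNoetherianRing ↥(chartOne R EN j⁻¹) :=
    isNoetherianRing_chartOne (K₁ := K₁) j⁻¹ hu' hK'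
  haveI : IsFractionRing ↥(chartOne R EN j⁻¹) EN := isFractionRing_chartOne (K₁ := K₁) j⁻¹ hK'
  have h2 := h.two.inv hπ
  have hmod := h.isModelChart_two hπ hjint h2
  haveI := hmod.isPrime_inf
  have h1 : IsUnitIn (locSub (chartOne R EN j⁻¹) (sheetIdeal j⁻¹ Winf h2.chart_le_inf)) v :=
    hv.of_le (locSub_mono hinf)
  rw [locSub_eq_toSubring Winf (fun b => h2.chart_le_inf b b.2)
    (fun b => mem_sheetIdeal_iff j⁻¹ Winf h2.chart_le_inf b) hmod.mem_inf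
    (IsModelChart.hloc_inf hmod)] at h1
  exact (isUnitIn_toSubring_iff Winf).mp h1

/-- **the normalised factorisation at a smooth closed point of `C_∞`, chart `j⁻¹`.** -/
theorem SSModel.exists_fact_smooth_inf_two (h : SSModel K₁ π p n S t jM j A B VM Winf W0)
    (hπ : Irreducible π) (hjint : IsIntegral ↥(Algebra.adjoin R {B jM}) (A jM))
    (hp : p.Prime) {e₁ : ℕ} (he₁ : 0 < e₁) {ε : Rˣ}
    (hpe : (p : R) = ε * π ^ e₁) {d : ℕ} (hd : d ≠ 0) {f : EN} (hf : f ≠ 0)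
    (hord : ∀ P : Place K₁ EN, (d : ℤ) ∣ P.ord f) {ainf : ℤ}
    (hfinf : Winf.valuation (f * (algebraMap R EN π ^ ainf)⁻¹) = 1)
    (𝔪 : Ideal ↥(chartOne R EN j⁻¹)) [h𝔪 : 𝔪.IsMaximal]
    (hinf : sheetIdeal j⁻¹ Winf (h.two.inv hπ).chart_le_inf ≤ 𝔪)
    (h0 : ¬ sheetIdeal j⁻¹ W0 (h.two.inv hπ).chart_le_zero ≤ 𝔪) :
    haveI := h𝔪.isPrime
    ∃ (c : Rˣ) (v G : EN), IsUnitIn (locSub (chartOne R EN j⁻¹) 𝔪) v ∧ Winf.valuation G = 1 ∧
      f * (algebraMap R EN π ^ ainf)⁻¹ = algebraMap R EN (c : R) * v * G ^ d := by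
  haveI := h𝔪.isPrime
  obtain ⟨c₁, v, G₁, hc₁, hG₁, hv, hfe⟩ :=
    (SSModel.exists_fact_smooth_two h hπ hjint hd hf hord 𝔪).1 hinf h0
  have hvu := SSModel.val_inf_eq_one_of_isUnitIn_two h hπ hjint 𝔪 hinf hv
  obtain ⟨c, G, hG, e⟩ := SSModel.exists_normalised_fact_inf h hπ hp he₁ hpe hc₁ hG₁ hvu hfe hfinf
  exact ⟨c, v, G, hv, hG, e⟩

/-- **the normalised factorisation at a node.** -/
theorem SSModel.exists_fact_node_inf (h : SSModel K₁ π p n S t jM j A B VM Winf W0)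
    (hπ : Irreducible π) (hp : p.Prime) {e₁ : ℕ} (he₁ : 0 < e₁) {ε : Rˣ}
    (hpe : (p : R) = ε * π ^ e₁)
    (𝔪 : Ideal ↥(chartOne R EN j)) [h𝔪 : 𝔪.IsMaximal]
    (hinf : sheetIdeal j Winf h.two.chart_le_inf ≤ 𝔪)
    (h0 : sheetIdeal j W0 h.two.chart_le_zero ≤ 𝔪) {X : EN} {m : ℕ}
    (hX : haveI := h𝔪.isPrime; IsNodeCoord π (isFractionRing_chartOne (K₁ := K₁) j h.j_adjoin)
      (sheetIdeal j Winf h.two.chart_le_inf) (sheetIdeal j W0 h.two.chart_le_zero) 𝔪 X m)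
    {d : ℕ} {f : EN} {k : ℤ}
    (hk : haveI := h𝔪.isPrime; IsNodeFact K₁ (locSub (chartOne R EN j) 𝔪) d X f k) {ainf : ℤ}
    (hfinf : Winf.valuation (f * (algebraMap R EN π ^ ainf)⁻¹) = 1) :
    haveI := h𝔪.isPrime
    ∃ (c : Rˣ) (v G : EN), IsUnitIn (locSub (chartOne R EN j) 𝔪) v ∧ Winf.valuation G = 1 ∧
      Winf.valuation X = 1 ∧
      f * (algebraMap R EN π ^ ainf)⁻¹ = algebraMap R EN (c : R) * X ^ k * v * G ^ d := by
  haveI := h𝔪.isPrime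
  obtain ⟨L, Y, -, -, -, -, -, -, hXu, -⟩ :=
    SSModel.exists_localPt_node hp he₁ hpe h hπ 𝔪 hinf h0 hX
  have hXv : Winf.valuation X = 1 := (isUnitIn_toSubring_iff Winf).mp hXu
  obtain ⟨c₁, v, G₁, hc₁, hG₁, hv, hfe⟩ := hk
  have hvu := SSModel.val_inf_eq_one_of_isUnitIn_one h hπ 𝔪 hinf hv
  have hu : Winf.valuation (X ^ k * v) = 1 := by
    rw [map_mul, map_zpow₀, hXv, one_zpow, one_mul, hvu]
  have hfe' : f = algebraMap K₁ EN c₁ * (X ^ k * v) * G₁ ^ d := by rw [hfe]; ring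
  obtain ⟨c, G, hG, e⟩ := SSModel.exists_normalised_fact_inf h hπ hp he₁ hpe hc₁ hG₁ hu hfe' hfinf
  exact ⟨c, v, G, hv, hG, hXv, by rw [e]; ring⟩

end Model

end Fermat.Agent.MP
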