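import Mathlib

/-!
# Project MP40 — C3 [NODEQ] helper1, part 1: points of a node with values in a valuation ring

`O` a local ring with maximal ideal `(x, y, ϖ)`, residue field that of the base `R₁`, and
`x y = ϖ^m r` (`r` a unit): the local ring of a normal model at a node of the special fibre.
`𝒜` a valuation ring of a field `Ω`. An *`𝒜`-centred point* of the node is a ring homomorphism
`ρ : O → Ω` with `ρ(O) ⊆ 𝒜`, `ρ(𝔪_O) ⊆ 𝔪_𝒜`.

* `NodePt.twisted_derivation_eq_zero` : a `(ρ, ρ')`-derivation `d : O → Ω` (`ρ`, `ρ'` two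
  `𝒜`-centred points, `d (z w) = ρ z · d w + d z · ρ' w`) which kills the base and the node
  coordinate `x` is zero, as soon as `O` is essentially of finite type over the base.
* `NodePt.eq_of_apply_coord_eq` : two `𝒜`-centred points with the same `x`-coordinate coincide
  (`d = ρ - ρ'`): **the node coordinate is injective on the `𝒜`-annulus**.
* `NodePt.derivation_eq_zero` : a derivation over an `𝒜`-centred point killing the base and `x` is
  zero: **the node coordinate is étale on the `𝒜`-annulus**.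
No rationality, no completeness, no henselianity of the base.
-/

set_option autoImplicit false
set_option linter.unusedSectionVars false
set_option linter.style.haveILetI false

open IsLocalRing

namespace Fermat.Agent.MP

namespace NodePt

section Twisted

variable {R₁ : Type*} [CommRing R₁]
  {O : Type*} [CommRing O] [IsLocalRing O] [Algebra R₁ O]
  {Ω : Type*} [Field Ω] (𝒜 : ValuationSubring Ω)

/-- `O` is essentially of finite type over `R₁`: every element is a quotient `b / s` of elements of a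
finitely generated subalgebra with `s` a unit. -/
def EssFiniteType (R₁ : Type*) [CommRing R₁] (O : Type*) [CommRing O] [Algebra R₁ O] : Prop :=
  ∃ S : Finset O, ∀ z : O, ∃ b ∈ Algebra.adjoin R₁ (S : Set O), ∃ s ∈ Algebra.adjoin R₁ (S : Set O),
    IsUnit s ∧ z * s = b

/-- `ρ` is an `𝒜`-centred point: `ρ(O) ⊆ 𝒜` and `ρ(𝔪_O) ⊆ 𝔪_𝒜`. -/
structure IsCentred (ρ : O →+* Ω) : Prop where
  mem : ∀ z : O, ρ z ∈ 𝒜
  lt_one : ∀ z ∈ maximalIdeal O, 𝒜.valuation (ρ z) < 1

variable {𝒜}

theorem IsCentred.le_one {ρ : O →+* Ω} (h : IsCentred 𝒜 ρ) (z : O) : 𝒜.valuation (ρ z) ≤ 1 :=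
  (𝒜.valuation_le_one_iff _).mpr (h.mem z)

theorem IsCentred.eq_one {ρ : O →+* Ω} (h : IsCentred 𝒜 ρ) {z : O} (hz : IsUnit z) :
    𝒜.valuation (ρ z) = 1 := by
  obtain ⟨u, rfl⟩ := hz
  have h1 := h.le_one (u : O)
  have h2 := h.le_one ((u⁻¹ : Oˣ) : O)
  have h3 : 𝒜.valuation (ρ (u : O)) * 𝒜.valuation (ρ ((u⁻¹ : Oˣ) : O)) = 1 := by
    rw [← map_mul, ← map_mul, Units.mul_inv, map_one, map_one]
  refine le_antisymm h1 ?_
  by_contra hlt
  rw [not_le] at hlt
  have h4 : 𝒜.valuation (ρ (u : O)) * 𝒜.valuation (ρ ((u⁻¹ : Oˣ) : O)) < 1 := by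
    calc 𝒜.valuation (ρ (u : O)) * 𝒜.valuation (ρ ((u⁻¹ : Oˣ) : O))
        ≤ 𝒜.valuation (ρ (u : O)) * 1 := mul_le_mul_right h2 _
      _ = 𝒜.valuation (ρ (u : O)) := mul_one _
      _ < 1 := hlt
  rw [h3] at h4
  exact lt_irrefl _ h4

end Twisted

section Main

variable {R₁ : Type*} [CommRing R₁]
  {O : Type*} [CommRing O] [IsLocalRing O] [Algebra R₁ O]
  {Ω : Type*} [Field Ω] {𝒜 : ValuationSubring Ω}
  {ρ ρ' : O →+* Ω} (hρ : IsCentred 𝒜 ρ) (hρ' : IsCentred 𝒜 ρ')
  {d : O → Ω} (d_add : ∀ z w, d (z + w) = d z + d w)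
  (d_mul : ∀ z w, d (z * w) = ρ z * d w + d z * ρ' w)
  (d_alg : ∀ a : R₁, d (algebraMap R₁ O a) = 0)

include d_add in
theorem d_zero : d 0 = 0 := by
  have := d_add 0 0
  rw [add_zero] at this
  exact left_eq_add.mp this

include hρ hρ' d_add d_mul d_alg in
/-- the bound on a finitely generated subalgebra. -/
theorem valuation_d_le_of_mem_adjoin {S : Set O} {M : 𝒜.ValueGroup}
    (hM : ∀ s ∈ S, 𝒜.valuation (d s) ≤ M) {b : O} (hb : b ∈ Algebra.adjoin R₁ S) :
    𝒜.valuation (d b) ≤ M := by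
  induction hb using Algebra.adjoin_induction with
  | mem s hs => exact hM s hs
  | algebraMap a => rw [d_alg, map_zero]; exact zero_le
  | add z w _ _ hz hw =>
    rw [d_add]
    exact (𝒜.valuation.map_add _ _).trans (max_le hz hw)
  | mul z w _ _ hz hw =>
    rw [d_mul]
    refine (𝒜.valuation.map_add _ _).trans (max_le ?_ ?_)
    · rw [map_mul]
      calc 𝒜.valuation (ρ z) * 𝒜.valuation (d w) ≤ 1 * M := mul_le_mul' (hρ.le_one z) hw
        _ = M := one_mul M
    · rw [map_mul]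
      calc 𝒜.valuation (d z) * 𝒜.valuation (ρ' w) ≤ M * 1 := mul_le_mul' hz (hρ'.le_one w)
        _ = M := mul_one M

include hρ hρ' d_add d_mul d_alg in
/-- the bound on `O`. -/
theorem valuation_d_le {S : Finset O}
    (hS : ∀ z : O, ∃ b ∈ Algebra.adjoin R₁ (S : Set O), ∃ s ∈ Algebra.adjoin R₁ (S : Set O),
      IsUnit s ∧ z * s = b) {M : 𝒜.ValueGroup}
    (hM : ∀ s ∈ S, 𝒜.valuation (d s) ≤ M) (z : O) : 𝒜.valuation (d z) ≤ M := by
  obtain ⟨b, hb, s, hs, hsu, hzs⟩ := hS z
  have hb' := valuation_d_le_of_mem_adjoin hρ hρ' d_add d_mul d_alg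
    (S := (S : Set O)) (fun s hs => hM s hs) hb
  have hs' := valuation_d_le_of_mem_adjoin hρ hρ' d_add d_mul d_alg
    (S := (S : Set O)) (fun s hs => hM s hs) hs
  have h1 : d b = ρ z * d s + d z * ρ' s := by rw [← hzs, d_mul]
  have hρ's : 𝒜.valuation (ρ' s) = 1 := hρ'.eq_one hsu
  have hρ's0 : ρ' s ≠ 0 := by
    intro h0
    rw [h0, map_zero] at hρ's
    exact zero_ne_one hρ's
  have h2 : d z = (d b - ρ z * d s) / ρ' s := by
    rw [h1]; field_simp; ring
  rw [h2, map_div₀, hρ's, div_one]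
  refine (𝒜.valuation.map_sub _ _).trans (max_le hb' ?_)
  rw [map_mul]
  calc 𝒜.valuation (ρ z) * 𝒜.valuation (d s) ≤ 1 * M := mul_le_mul' (hρ.le_one z) hs'
    _ = M := one_mul M

section Node

variable {ϖ : R₁} {x y r : O} {m : ℕ}
  (hmax : maximalIdeal O = Ideal.span {x, y, algebraMap R₁ O ϖ})
  (hxy : x * y = algebraMap R₁ O ϖ ^ m * r) (hr : IsUnit r)
  (hres : ∀ z : O, ∃ a : R₁, z - algebraMap R₁ O a ∈ maximalIdeal O)
  (hϖ0 : ρ (algebraMap R₁ O ϖ) ≠ 0)

include hρ hρ' d_add d_mul d_alg hmax hxy hr hres hϖ0 in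
/-- **a twisted derivation at two `𝒜`-centred points of a node which kills the base and the node
coordinate is zero.** -/
theorem twisted_derivation_eq_zero (hfin : EssFiniteType R₁ O) (hdx : d x = 0) (z : O) :
    d z = 0 := by
  classical
  obtain ⟨S, hS⟩ := hfin
  have hxm : x ∈ maximalIdeal O := by rw [hmax]; exact Ideal.subset_span (by simp)
  have hym : y ∈ maximalIdeal O := by rw [hmax]; exact Ideal.subset_span (by simp)
  have hπm : algebraMap R₁ O ϖ ∈ maximalIdeal O := by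
    rw [hmax]; exact Ideal.subset_span (by simp)
  -- the maximum of the valuations on the generators
  obtain ⟨s₀, -, hs₀⟩ := Finset.exists_max_image (insert x S) (fun s => 𝒜.valuation (d s))
    ⟨x, Finset.mem_insert_self x S⟩
  set M : 𝒜.ValueGroup := 𝒜.valuation (d s₀) with hM
  have hMS : ∀ s ∈ S, 𝒜.valuation (d s) ≤ M := fun s hs => hs₀ s (Finset.mem_insert_of_mem hs)
  have hbound : ∀ z : O, 𝒜.valuation (d z) ≤ M :=
    valuation_d_le hρ hρ' d_add d_mul d_alg hS hMS
  -- the contraction factor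
  set c : 𝒜.ValueGroup := max (max (𝒜.valuation (ρ' x)) (𝒜.valuation (ρ y)))
    (max (𝒜.valuation (ρ' y)) (𝒜.valuation (ρ' (algebraMap R₁ O ϖ)))) with hc
  have hc1 : c < 1 := max_lt (max_lt (hρ'.lt_one x hxm) (hρ.lt_one y hym))
    (max_lt (hρ'.lt_one y hym) (hρ'.lt_one _ hπm))
  -- `d y`
  have hξ0 : ρ x ≠ 0 := by
    intro h0
    have h1 : ρ x * ρ y = ρ (algebraMap R₁ O ϖ) ^ m * ρ r := by
      rw [← map_mul, hxy, map_mul, map_pow]
    rw [h0, zero_mul] at h1
    have hr0 : ρ r ≠ 0 := by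
      intro h0'
      have := hρ.eq_one hr
      rw [h0', map_zero] at this
      exact zero_ne_one this
    exact (mul_ne_zero (pow_ne_zero m hϖ0) hr0) h1.symm
  have hdπm : d (algebraMap R₁ O ϖ ^ m) = 0 := by
    rw [← map_pow]; exact d_alg _
  have hdy : ρ x * d y = ρ (algebraMap R₁ O ϖ) ^ m * d r := by
    have h1 : d (x * y) = ρ x * d y := by rw [d_mul, hdx, zero_mul, add_zero]
    have h2 : d (algebraMap R₁ O ϖ ^ m * r) = ρ (algebraMap R₁ O ϖ) ^ m * d r := by
      rw [d_mul, hdπm, zero_mul, add_zero, map_pow]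
    rw [← h1, hxy, h2]
  have hvy : 𝒜.valuation (d y) ≤ c * M := by
    have hρr : 𝒜.valuation (ρ r) = 1 := hρ.eq_one hr
    have h1 : ρ x * ρ y = ρ (algebraMap R₁ O ϖ) ^ m * ρ r := by
      rw [← map_mul, hxy, map_mul, map_pow]
    -- `v(ϖ^m) = v(ρ x) v(ρ y)`
    have h2 : 𝒜.valuation (ρ x) * 𝒜.valuation (ρ y) =
        𝒜.valuation (ρ (algebraMap R₁ O ϖ) ^ m) := by
      rw [← map_mul, h1, map_mul, hρr, mul_one]
    have h3 : 𝒜.valuation (ρ x) * 𝒜.valuation (d y) =
        𝒜.valuation (ρ x) * (𝒜.valuation (ρ y) * 𝒜.valuation (d r)) := by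
      rw [← map_mul, hdy, map_mul, ← h2, mul_assoc]
    have hvx0 : 𝒜.valuation (ρ x) ≠ 0 := (Valuation.ne_zero_iff _).mpr hξ0
    have h4 : 𝒜.valuation (d y) = 𝒜.valuation (ρ y) * 𝒜.valuation (d r) :=
      mul_left_cancel₀ hvx0 h3
    rw [h4]
    exact mul_le_mul' ((le_max_right _ _).trans (le_max_left _ _)) (hbound r)
  -- the contraction
  have hcontr : ∀ z : O, 𝒜.valuation (d z) ≤ c * M := by
    intro z
    obtain ⟨a₀, ha₀⟩ := hres z
    rw [hmax] at ha₀
    obtain ⟨a, b, e, habe⟩ := Submodule.mem_span_triple.mp ha₀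
    simp only [smul_eq_mul] at habe
    have hz : z = algebraMap R₁ O a₀ + (a * x + b * y + e * algebraMap R₁ O ϖ) := by
      rw [habe]; ring
    have hdz : d z = d a * ρ' x + (ρ b * d y + d b * ρ' y) + d e * ρ' (algebraMap R₁ O ϖ) := by
      rw [hz, d_add, d_alg, zero_add, d_add, d_add, d_mul, d_mul, d_mul, hdx, d_alg, mul_zero,
        mul_zero, zero_add, zero_add]
    rw [hdz]
    have hcM : ∀ u w : O, 𝒜.valuation (ρ' w) ≤ c → 𝒜.valuation (d u * ρ' w) ≤ c * M := by
      intro u w hw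
      rw [map_mul, mul_comm]
      exact mul_le_mul' hw (hbound u)
    refine (𝒜.valuation.map_add _ _).trans (max_le ((𝒜.valuation.map_add _ _).trans
      (max_le ?_ ((𝒜.valuation.map_add _ _).trans (max_le ?_ ?_)))) ?_)
    · exact hcM a x ((le_max_left _ _).trans (le_max_left _ _))
    · rw [map_mul]
      calc 𝒜.valuation (ρ b) * 𝒜.valuation (d y) ≤ 1 * (c * M) := mul_le_mul' (hρ.le_one b) hvy
        _ = c * M := one_mul _
    · exact hcM b y ((le_max_left _ _).trans (le_max_right _ _))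
    · exact hcM e _ ((le_max_right _ _).trans (le_max_right _ _))
  -- `M = 0`
  have hM0 : M = 0 := by
    by_contra hne
    have h1 : M ≤ c * M := hcontr s₀
    have h2 : c * M < 1 * M := by
      have hMpos : 0 < M := zero_lt_iff.mpr hne
      exact mul_lt_mul_of_pos_right hc1 hMpos
    rw [one_mul] at h2
    exact lt_irrefl _ (lt_of_le_of_lt h1 h2)
  have h5 := hbound z
  rw [hM0] at h5
  exact (Valuation.zero_iff _).mp (le_antisymm h5 zero_le)

end Node

end Main

section Corollaries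

variable {R₁ : Type*} [CommRing R₁]
  {O : Type*} [CommRing O] [IsLocalRing O] [Algebra R₁ O]
  {Ω : Type*} [Field Ω] {𝒜 : ValuationSubring Ω}
  {ϖ : R₁} {x y r : O} {m : ℕ}
  (hmax : maximalIdeal O = Ideal.span {x, y, algebraMap R₁ O ϖ})
  (hxy : x * y = algebraMap R₁ O ϖ ^ m * r) (hr : IsUnit r)
  (hres : ∀ z : O, ∃ a : R₁, z - algebraMap R₁ O a ∈ maximalIdeal O)
  (hfin : EssFiniteType R₁ O)

include hmax hxy hr hres hfin in
/-- **the node coordinate is injective on the `𝒜`-annulus**: two `𝒜`-centred points of the node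
which agree on the base and have the same `x`-coordinate coincide. -/
theorem eq_of_apply_coord_eq {ρ ρ' : O →+* Ω} (hρ : IsCentred 𝒜 ρ) (hρ' : IsCentred 𝒜 ρ')
    (hbase : ∀ a : R₁, ρ (algebraMap R₁ O a) = ρ' (algebraMap R₁ O a))
    (hϖ0 : ρ (algebraMap R₁ O ϖ) ≠ 0) (hx : ρ x = ρ' x) : ρ = ρ' := by
  ext z
  have h := twisted_derivation_eq_zero (d := fun z => ρ z - ρ' z) hρ hρ'
    (fun z w => by simp only [map_add]; ring)
    (fun z w => by simp only [map_mul]; ring)
    (fun a => by rw [hbase, sub_self]) hmax hxy hr hres hϖ0 hfin (by rw [hx, sub_self]) z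
  exact sub_eq_zero.mp h

include hmax hxy hr hres hfin in
/-- **the node coordinate is étale on the `𝒜`-annulus**: a derivation over an `𝒜`-centred point of
the node which kills the base and the node coordinate is zero. -/
theorem derivation_eq_zero {ρ : O →+* Ω} (hρ : IsCentred 𝒜 ρ) {d : O → Ω}
    (d_add : ∀ z w, d (z + w) = d z + d w) (d_mul : ∀ z w, d (z * w) = ρ z * d w + d z * ρ w)
    (d_alg : ∀ a : R₁, d (algebraMap R₁ O a) = 0)
    (hϖ0 : ρ (algebraMap R₁ O ϖ) ≠ 0) (hdx : d x = 0) (z : O) : d z = 0 :=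
  twisted_derivation_eq_zero hρ hρ d_add d_mul d_alg hmax hxy hr hres hϖ0 hfin hdx z

end Corollaries

end NodePt

end Fermat.Agent.MP
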