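import Mathlib
import Fermat.Agent.MP.NODEQ_helper1_Hom

/-!
# Project MP40 — C3 [NODEQ] helper1, part 2: every point of a local ring has an `𝒜`-centred
conjugate

`R₁` a local domain with infinite residue field, `K₁` its fraction field, `Ω` an algebraic closure
of `K₁`, `𝒜` a valuation ring of `Ω` with `𝒜 ∩ K₁ = R₁`. `O` a local `R₁`-algebra, essentially of
finite type, with residue field that of `R₁`, and `ρ₀ : O → Ω` a ring homomorphism over `R₁`.
Then some conjugate `σ ∘ ρ₀`, `σ ∈ Aut(Ω / K₁)`, is `𝒜`-centred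
(`NodePt.exists_isCentred_conj`): the valuation ring `𝒜` dominates `σ ρ₀(O)`.

This is the conjugacy of the extensions of a valuation to an algebraic extension, in the form needed
for [NODEQ]; the proof is the classical norm argument (no integral closures, no Galois groups).
-/

set_option autoImplicit false
set_option linter.unusedSectionVars false
set_option linter.style.haveILetI false

open IsLocalRing Polynomial

namespace Fermat.Agent.MP

namespace NodePt

section Base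

variable {R₁ : Type*} [CommRing R₁] [IsLocalRing R₁]
  {K₁ : Type*} [Field K₁] [Algebra R₁ K₁]
  {Ω : Type*} [Field Ω] [Algebra K₁ Ω] [Algebra R₁ Ω] [IsScalarTower R₁ K₁ Ω]
  {𝒜 : ValuationSubring Ω}
  (h𝒜 : ∀ c : K₁, algebraMap K₁ Ω c ∈ 𝒜 ↔ c ∈ Set.range (algebraMap R₁ K₁))

include h𝒜 in
theorem algebraMap_base_mem (a : R₁) : algebraMap R₁ Ω a ∈ 𝒜 := by
  rw [IsScalarTower.algebraMap_apply R₁ K₁ Ω]
  exact (h𝒜 _).mpr ⟨a, rfl⟩

include h𝒜 in
theorem valuation_algebraMap_base_le_one (a : R₁) : 𝒜.valuation (algebraMap R₁ Ω a) ≤ 1 :=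
  (𝒜.valuation_le_one_iff _).mpr (algebraMap_base_mem h𝒜 a)

include h𝒜 in
theorem valuation_algebraMap_base_unit {a : R₁} (ha : IsUnit a) :
    𝒜.valuation (algebraMap R₁ Ω a) = 1 := by
  obtain ⟨u, rfl⟩ := ha
  have h1 := valuation_algebraMap_base_le_one h𝒜 (u : R₁)
  have h2 := valuation_algebraMap_base_le_one h𝒜 ((u⁻¹ : R₁ˣ) : R₁)
  have h3 : 𝒜.valuation (algebraMap R₁ Ω (u : R₁)) *
      𝒜.valuation (algebraMap R₁ Ω ((u⁻¹ : R₁ˣ) : R₁)) = 1 := by
    rw [← map_mul, ← map_mul, Units.mul_inv, map_one, map_one]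
  refine le_antisymm h1 ?_
  by_contra hlt
  rw [not_le] at hlt
  have h4 : 𝒜.valuation (algebraMap R₁ Ω (u : R₁)) *
      𝒜.valuation (algebraMap R₁ Ω ((u⁻¹ : R₁ˣ) : R₁)) < 1 := by
    calc 𝒜.valuation (algebraMap R₁ Ω (u : R₁)) *
          𝒜.valuation (algebraMap R₁ Ω ((u⁻¹ : R₁ˣ) : R₁))
        ≤ 𝒜.valuation (algebraMap R₁ Ω (u : R₁)) * 1 := mul_le_mul_right h2 _
      _ = 𝒜.valuation (algebraMap R₁ Ω (u : R₁)) := mul_one _
      _ < 1 := hlt
  rw [h3] at h4
  exact lt_irrefl _ h4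

end Base

section NotCentred

variable {R₁ : Type*} [CommRing R₁] [IsLocalRing R₁]
  {K₁ : Type*} [Field K₁] [Algebra R₁ K₁]
  {Ω : Type*} [Field Ω] [Algebra K₁ Ω] [Algebra R₁ Ω] [IsScalarTower R₁ K₁ Ω]
  {𝒜 : ValuationSubring Ω}
  (h𝒜 : ∀ c : K₁, algebraMap K₁ Ω c ∈ 𝒜 ↔ c ∈ Set.range (algebraMap R₁ K₁))
  {O : Type*} [CommRing O] [IsLocalRing O] [Algebra R₁ O]
  (hres : ∀ z : O, ∃ a : R₁, z - algebraMap R₁ O a ∈ maximalIdeal O)

include h𝒜 hres in
/-- a point over the base which is not `𝒜`-centred has a non-unit `z` with `|ρ z| ≥ 1`. -/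
theorem exists_one_le_of_not_isCentred {ρ : O →+* Ω}
    (hρ : ∀ a : R₁, ρ (algebraMap R₁ O a) = algebraMap R₁ Ω a) (hn : ¬ IsCentred 𝒜 ρ) :
    ∃ z ∈ maximalIdeal O, 1 ≤ 𝒜.valuation (ρ z) := by
  by_contra hcon
  simp only [not_exists, not_and, not_le] at hcon
  apply hn
  refine ⟨fun z => ?_, hcon⟩
  obtain ⟨a, ha⟩ := hres z
  have h1 : ρ z = algebraMap R₁ Ω a + ρ (z - algebraMap R₁ O a) := by
    rw [map_sub, hρ]; ring
  rw [h1]
  exact 𝒜.add_mem _ _ (algebraMap_base_mem h𝒜 a)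
    ((𝒜.valuation_le_one_iff _).mp (le_of_lt (hcon _ ha)))

end NotCentred

section Family

variable {R₁ : Type*} [CommRing R₁] [IsLocalRing R₁] [Infinite (ResidueField R₁)]
  {K₁ : Type*} [Field K₁] [Algebra R₁ K₁]
  {Ω : Type*} [Field Ω] [Algebra K₁ Ω] [Algebra R₁ Ω] [IsScalarTower R₁ K₁ Ω]
  {𝒜 : ValuationSubring Ω}
  (h𝒜 : ∀ c : K₁, algebraMap K₁ Ω c ∈ 𝒜 ↔ c ∈ Set.range (algebraMap R₁ K₁))
  {O : Type*} [CommRing O] [IsLocalRing O] [Algebra R₁ O]
  {ι : Type*} (ρ : ι → (O →+* Ω))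
  (hρ : ∀ i, ∀ a : R₁, ρ i (algebraMap R₁ O a) = algebraMap R₁ Ω a)

/-- choosing a residue class outside finitely many subsingletons. -/
theorem exists_residue_notMem {ι' : Type*} (T : Finset ι') (Bad : ι' → Set (ResidueField R₁))
    (hBad : ∀ i ∈ T, (Bad i).Subsingleton) (E : Set (ResidueField R₁)) (hE : E.Finite) :
    ∃ a : R₁, residue R₁ a ∉ E ∧ ∀ i ∈ T, residue R₁ a ∉ Bad i := by
  have hfin : (E ∪ ⋃ i ∈ T, Bad i).Finite :=
    hE.union (Set.Finite.biUnion T.finite_toSet (fun i hi => (hBad i hi).finite))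
  obtain ⟨c, hc⟩ := hfin.exists_notMem
  obtain ⟨a, rfl⟩ := residue_surjective c
  refine ⟨a, fun h => hc (Or.inl h), fun i hi h => hc (Or.inr ?_)⟩
  exact Set.mem_biUnion hi h

include h𝒜 hρ in
/-- two base elements with different residues: if `z' + a z₀` and `z' + a' z₀` both have small
value then so have `z₀` and `z'`. -/
theorem lt_one_of_two_bad (i : ι) {z' z₀ : O} {a a' : R₁} (hne : residue R₁ a ≠ residue R₁ a')
    (h1 : 𝒜.valuation (ρ i (z' + algebraMap R₁ O a * z₀)) < 1)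
    (h2 : 𝒜.valuation (ρ i (z' + algebraMap R₁ O a' * z₀)) < 1) :
    𝒜.valuation (ρ i z₀) < 1 ∧ 𝒜.valuation (ρ i z') < 1 := by
  have hu : IsUnit (a - a') := by
    by_contra hnu
    apply hne
    have : a - a' ∈ maximalIdeal R₁ := hnu
    rw [← sub_eq_zero, ← map_sub]
    exact (residue_eq_zero_iff _).mpr this
  have hv := valuation_algebraMap_base_unit h𝒜 hu
  have h3 : ρ i (z' + algebraMap R₁ O a * z₀) - ρ i (z' + algebraMap R₁ O a' * z₀) =
      algebraMap R₁ Ω (a - a') * ρ i z₀ := by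
    simp only [map_add, map_mul, hρ, map_sub]; ring
  have h4 : 𝒜.valuation (ρ i z₀) < 1 := by
    have h5 : 𝒜.valuation (algebraMap R₁ Ω (a - a') * ρ i z₀) < 1 := by
      rw [← h3]
      exact lt_of_le_of_lt (𝒜.valuation.map_sub _ _) (max_lt h1 h2)
    rwa [map_mul, hv, one_mul] at h5
  refine ⟨h4, ?_⟩
  have h6 : ρ i z' = ρ i (z' + algebraMap R₁ O a * z₀) - algebraMap R₁ Ω a * ρ i z₀ := by
    simp only [map_add, map_mul, hρ]; ring
  rw [h6]
  refine lt_of_le_of_lt (𝒜.valuation.map_sub _ _) (max_lt h1 ?_)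
  rw [map_mul]
  calc 𝒜.valuation (algebraMap R₁ Ω a) * 𝒜.valuation (ρ i z₀)
      ≤ 1 * 𝒜.valuation (ρ i z₀) := mul_le_mul_left (valuation_algebraMap_base_le_one h𝒜 a) _
    _ = 𝒜.valuation (ρ i z₀) := one_mul _
    _ < 1 := h4

include h𝒜 hρ in
/-- **simultaneous large values**: if each point `ρ i` of a finite family has a non-unit with value
of absolute value `≥ 1`, a single non-unit works for all of them. -/
theorem exists_forall_one_le (T : Finset ι)
    (h : ∀ i ∈ T, ∃ z ∈ maximalIdeal O, 1 ≤ 𝒜.valuation (ρ i z)) :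
    ∃ z ∈ maximalIdeal O, ∀ i ∈ T, 1 ≤ 𝒜.valuation (ρ i z) := by
  classical
  induction T using Finset.induction_on with
  | empty => exact ⟨0, Ideal.zero_mem _, fun i hi => absurd hi (Finset.notMem_empty i)⟩
  | insert i₀ T' hi₀ ih =>
    obtain ⟨z', hz'm, hz'⟩ := ih (fun i hi => h i (Finset.mem_insert_of_mem hi))
    obtain ⟨z₀, hz₀m, hz₀⟩ := h i₀ (Finset.mem_insert_self i₀ T')
    -- the bad residue classes
    set Bad : ι → Set (ResidueField R₁) := fun i =>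
      {c | ∃ a : R₁, residue R₁ a = c ∧ 𝒜.valuation (ρ i (z' + algebraMap R₁ O a * z₀)) < 1}
      with hBad
    have hsub : ∀ i ∈ insert i₀ T', (Bad i).Subsingleton := by
      rintro i hi c ⟨a, rfl, ha⟩ c' ⟨a', rfl, ha'⟩
      by_contra hne
      obtain ⟨h1, h2⟩ := lt_one_of_two_bad h𝒜 ρ hρ i hne ha ha'
      rcases Finset.mem_insert.mp hi with rfl | hi'
      · exact absurd hz₀ (not_le.mpr h1)
      · exact absurd (hz' i hi') (not_le.mpr h2)
    obtain ⟨a, -, ha⟩ := exists_residue_notMem (insert i₀ T') Bad hsub ∅ Set.finite_empty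
    refine ⟨z' + algebraMap R₁ O a * z₀,
      Ideal.add_mem _ hz'm (Ideal.mul_mem_left _ _ hz₀m), fun i hi => ?_⟩
    by_contra hlt
    rw [not_le] at hlt
    exact ha i hi ⟨a, rfl, hlt⟩

include h𝒜 hρ in
/-- **normalisation**: a non-unit whose values at a finite family of points all have absolute value
`≥ 1` can be replaced by one whose values all have absolute value `1`. -/
theorem exists_forall_eq_one (T : Finset ι) {z : O} (hz : z ∈ maximalIdeal O)
    (h : ∀ i ∈ T, 1 ≤ 𝒜.valuation (ρ i z)) :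
    ∃ z' ∈ maximalIdeal O, ∀ i ∈ T, 𝒜.valuation (ρ i z') = 1 := by
  classical
  set Bad : ι → Set (ResidueField R₁) := fun i =>
    {c | ∃ a : R₁, residue R₁ a = c ∧ 𝒜.valuation (ρ i (1 + algebraMap R₁ O a * z)) < 1}
    with hBad
  have hsub : ∀ i ∈ T, (Bad i).Subsingleton := by
    rintro i hi c ⟨a, rfl, ha⟩ c' ⟨a', rfl, ha'⟩
    by_contra hne
    obtain ⟨h1, -⟩ := lt_one_of_two_bad h𝒜 ρ hρ i hne ha ha'
    exact absurd (h i hi) (not_le.mpr h1)
  obtain ⟨a, ha0, ha⟩ := exists_residue_notMem T Bad hsub {0} (Set.finite_singleton 0)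
  have hau : IsUnit a := by
    by_contra hnu
    apply ha0
    have : a ∈ maximalIdeal R₁ := hnu
    exact (residue_eq_zero_iff _).mpr this
  have hva := valuation_algebraMap_base_unit h𝒜 hau
  -- `1 + a z` is a unit of `O`
  have hu : IsUnit (1 + algebraMap R₁ O a * z) := by
    by_contra hnu
    have h1 : 1 + algebraMap R₁ O a * z ∈ maximalIdeal O := hnu
    have h2 : (1 : O) ∈ maximalIdeal O := by
      have := Ideal.sub_mem _ h1 (Ideal.mul_mem_left _ (algebraMap R₁ O a) hz)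
      rwa [add_sub_cancel_right] at this
    exact (maximalIdeal.isMaximal O).ne_top ((Ideal.eq_top_iff_one _).mpr h2)
  obtain ⟨w, hw⟩ := hu
  refine ⟨z * ((w⁻¹ : Oˣ) : O), Ideal.mul_mem_right _ _ hz, fun i hi => ?_⟩
  have hge : 1 ≤ 𝒜.valuation (ρ i (1 + algebraMap R₁ O a * z)) := by
    by_contra hlt
    rw [not_le] at hlt
    exact ha i hi ⟨a, rfl, hlt⟩
  have hval : 𝒜.valuation (ρ i (1 + algebraMap R₁ O a * z)) = 𝒜.valuation (ρ i z) := by
    have e : ρ i (1 + algebraMap R₁ O a * z) = 1 + algebraMap R₁ Ω a * ρ i z := by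
      simp only [map_add, map_one, map_mul, hρ]
    have hmul : 𝒜.valuation (algebraMap R₁ Ω a * ρ i z) = 𝒜.valuation (ρ i z) := by
      rw [map_mul, hva, one_mul]
    rcases lt_or_eq_of_le (h i hi) with hgt | heq
    · rw [e, add_comm]
      rw [𝒜.valuation.map_add_eq_of_lt_left (by rw [map_one, hmul]; exact hgt), hmul]
    · refine le_antisymm ?_ (heq ▸ hge)
      rw [e]
      refine (𝒜.valuation.map_add _ _).trans (max_le ?_ (le_of_eq hmul))
      rw [map_one]; exact h i hi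
  have hw0 : ρ i (w : O) ≠ 0 := by
    intro h0
    rw [← hw, h0, map_zero] at hge
    exact absurd hge (not_le.mpr zero_lt_one)
  have e2 : ρ i (z * ((w⁻¹ : Oˣ) : O)) = ρ i z / ρ i (w : O) := by
    rw [eq_div_iff hw0, ← map_mul, mul_assoc, Units.inv_mul, mul_one]
  have hz0 : 𝒜.valuation (ρ i z) ≠ 0 := by
    intro h0
    have := h i hi
    rw [h0] at this
    exact absurd this (not_le.mpr zero_lt_one)
  rw [e2, map_div₀, hw, hval, div_self hz0]

end Family

section Minpoly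

variable {R₁ : Type*} [CommRing R₁]
  {K₁ : Type*} [Field K₁] [Algebra R₁ K₁]
  {Ω : Type*} [Field Ω] [Algebra K₁ Ω] [IsAlgClosed Ω] [Algebra.IsAlgebraic K₁ Ω]
  {𝒜 : ValuationSubring Ω}
  (h𝒜 : ∀ c : K₁, algebraMap K₁ Ω c ∈ 𝒜 ↔ c ∈ Set.range (algebraMap R₁ K₁))
  (hinj : Function.Injective (algebraMap R₁ K₁))

theorem esymm_mem_of_forall_mem (s : Multiset Ω) (hs : ∀ α ∈ s, α ∈ 𝒜) (n : ℕ) :
    s.esymm n ∈ 𝒜 := by
  rw [Multiset.esymm]
  refine Subring.multiset_sum_mem 𝒜.toSubring _ ?_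
  intro c hc
  obtain ⟨t, ht, rfl⟩ := Multiset.mem_map.mp hc
  refine Subring.multiset_prod_mem 𝒜.toSubring _ ?_
  intro α hα
  exact hs α (Multiset.mem_of_le (Multiset.mem_powersetCard.mp ht).1 hα)

include h𝒜 hinj in
/-- **an element all of whose conjugates are `𝒜`-units has its minimal polynomial over the base ring,
with constant term a unit.** -/
theorem exists_lift_minpoly_of_forall_root_eq_one (w : Ω)
    (hroots : ∀ α ∈ (minpoly K₁ w).rootSet Ω, 𝒜.valuation α = 1) :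
    ∃ μ₁ : R₁[X], μ₁.map (algebraMap R₁ K₁) = minpoly K₁ w ∧ IsUnit (μ₁.coeff 0) := by
  have hint : IsIntegral K₁ w := Algebra.IsIntegral.isIntegral w
  set μ := minpoly K₁ w with hμ
  set P : Polynomial Ω := μ.map (algebraMap K₁ Ω) with hP
  have hmonic : P.Monic := (minpoly.monic hint).map _
  have hsplits : P.Splits := IsAlgClosed.splits P
  have hcard : Multiset.card P.roots = P.natDegree := splits_iff_card_roots.mp hsplits
  have hrootsP : ∀ α ∈ P.roots, 𝒜.valuation α = 1 := by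
    intro α hα
    apply hroots α
    rw [mem_rootSet_of_ne (minpoly.ne_zero hint)]
    have h1 := (mem_roots hmonic.ne_zero).mp hα
    rwa [IsRoot.def, hP, eval_map, ← aeval_def] at h1
  have hrootsmem : ∀ α ∈ P.roots, α ∈ 𝒜 := fun α hα =>
    (𝒜.valuation_le_one_iff _).mp (le_of_eq (hrootsP α hα))
  -- all coefficients lie in `𝒜`
  have hcoeff : ∀ k : ℕ, P.coeff k ∈ 𝒜 := by
    intro k
    by_cases hk : k ≤ P.natDegree
    · rw [coeff_eq_esymm_roots_of_card hcard hk, hmonic.leadingCoeff, one_mul]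
      refine 𝒜.mul_mem _ _ ?_ (esymm_mem_of_forall_mem _ hrootsmem _)
      exact Subring.pow_mem 𝒜.toSubring (𝒜.neg_mem _ 𝒜.one_mem) _
    · rw [coeff_eq_zero_of_natDegree_lt (not_le.mp hk)]
      exact 𝒜.zero_mem
  have hlifts : μ ∈ lifts (algebraMap R₁ K₁) := by
    rw [lifts_iff_coeff_lifts]
    intro k
    have := hcoeff k
    rw [hP, coeff_map] at this
    exact (h𝒜 _).mp this
  obtain ⟨μ₁, hμ₁⟩ := (mem_lifts _).mp hlifts
  refine ⟨μ₁, hμ₁, ?_⟩
  -- the constant term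
  have hc0 : P.coeff 0 = (-1) ^ P.natDegree * P.roots.prod :=
    hsplits.coeff_zero_eq_prod_roots_of_monic hmonic
  have hvprod : 𝒜.valuation P.roots.prod = 1 := by
    rw [map_multiset_prod]
    have : (P.roots.map 𝒜.valuation) = P.roots.map (fun _ => (1 : 𝒜.ValueGroup)) :=
      Multiset.map_congr rfl hrootsP
    rw [this, Multiset.map_const', Multiset.prod_replicate, one_pow]
  have hv0 : 𝒜.valuation (P.coeff 0) = 1 := by
    rw [hc0, map_mul, hvprod, mul_one, map_pow, Valuation.map_neg, map_one, one_pow]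
  have hne0 : P.coeff 0 ≠ 0 := by
    intro h0
    rw [h0, map_zero] at hv0
    exact zero_ne_one hv0
  have hinv : (P.coeff 0)⁻¹ ∈ 𝒜 := by
    rw [← 𝒜.valuation_le_one_iff, map_inv₀, hv0, inv_one]
  have e1 : P.coeff 0 = algebraMap K₁ Ω (algebraMap R₁ K₁ (μ₁.coeff 0)) := by
    rw [hP, coeff_map, ← hμ₁, coeff_map]
  rw [e1, ← map_inv₀] at hinv
  obtain ⟨r', hr'⟩ := (h𝒜 _).mp hinv
  have hμ0 : algebraMap R₁ K₁ (μ₁.coeff 0) ≠ 0 := by
    intro h0
    rw [e1, h0, map_zero] at hne0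
    exact hne0 rfl
  refine IsUnit.of_mul_eq_one r' (hinj ?_)
  rw [map_mul, hr', map_one, mul_inv_cancel₀ hμ0]

end Minpoly

section Conj

variable {R₁ : Type*} [CommRing R₁] [IsLocalRing R₁] [Infinite (ResidueField R₁)]
  {K₁ : Type*} [Field K₁] [Algebra R₁ K₁]
  {Ω : Type*} [Field Ω] [Algebra K₁ Ω] [Algebra R₁ Ω] [IsScalarTower R₁ K₁ Ω]
  [IsAlgClosed Ω] [Algebra.IsAlgebraic K₁ Ω]
  {𝒜 : ValuationSubring Ω}
  (h𝒜 : ∀ c : K₁, algebraMap K₁ Ω c ∈ 𝒜 ↔ c ∈ Set.range (algebraMap R₁ K₁))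
  (hinj : Function.Injective (algebraMap R₁ K₁))
  {O : Type*} [CommRing O] [IsLocalRing O] [Algebra R₁ O]
  (hres : ∀ z : O, ∃ a : R₁, z - algebraMap R₁ O a ∈ maximalIdeal O)
  (hfin : EssFiniteType R₁ O)
  {ρ₀ : O →+* Ω} (hρ₀ : ∀ a : R₁, ρ₀ (algebraMap R₁ O a) = algebraMap R₁ Ω a)

include hρ₀ in
/-- the values of a point of an essentially finitely generated algebra lie in a finite extension. -/
theorem exists_finiteDimensional_forall_mem (hfin : EssFiniteType R₁ O) :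
    ∃ L : IntermediateField K₁ Ω, FiniteDimensional K₁ ↥L ∧ ∀ z : O, ρ₀ z ∈ L := by
  classical
  obtain ⟨S, hS⟩ := hfin
  refine ⟨IntermediateField.adjoin K₁ (ρ₀ '' (S : Set O)),
    IntermediateField.finiteDimensional_adjoin
      (fun x _ => Algebra.IsIntegral.isIntegral x), ?_⟩
  set L := IntermediateField.adjoin K₁ (ρ₀ '' (S : Set O)) with hL
  have hadj : ∀ b ∈ Algebra.adjoin R₁ (S : Set O), ρ₀ b ∈ L := by
    intro b hb
    induction hb using Algebra.adjoin_induction with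
    | mem s hs => exact IntermediateField.subset_adjoin K₁ _ ⟨s, hs, rfl⟩
    | algebraMap a =>
      rw [hρ₀, IsScalarTower.algebraMap_apply R₁ K₁ Ω]
      exact L.algebraMap_mem _
    | add z w _ _ hz hw => rw [map_add]; exact L.add_mem hz hw
    | mul z w _ _ hz hw => rw [map_mul]; exact L.mul_mem hz hw
  intro z
  obtain ⟨b, hb, s, hs, hsu, hzs⟩ := hS z
  have hs0 : ρ₀ s ≠ 0 := (hsu.map ρ₀).ne_zero
  have e : ρ₀ z = ρ₀ b / ρ₀ s := by
    rw [eq_div_iff hs0, ← map_mul, hzs]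
  rw [e]
  exact L.div_mem (hadj b hb) (hadj s hs)

include h𝒜 hinj hres hfin hρ₀ in
/-- **every point of `O` over the base has an `𝒜`-centred conjugate.** -/
theorem exists_isCentred_conj :
    ∃ σ : Ω ≃ₐ[K₁] Ω, IsCentred 𝒜 ((σ : Ω →+* Ω).comp ρ₀) := by
  classical
  obtain ⟨L, hLfin, hL⟩ := exists_finiteDimensional_forall_mem (K₁ := K₁) hρ₀ hfin
  haveI := hLfin
  -- the point with values in `L`
  set ρL : O →+* ↥L := ρ₀.codRestrict L hL with hρL
  -- the finite family of conjugates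
  set ρ : (↥L →ₐ[K₁] Ω) → (O →+* Ω) := fun τ => (τ : ↥L →+* Ω).comp ρL with hρdef
  have hρ : ∀ τ, ∀ a : R₁, ρ τ (algebraMap R₁ O a) = algebraMap R₁ Ω a := by
    intro τ a
    have h1 : ρL (algebraMap R₁ O a) = algebraMap K₁ ↥L (algebraMap R₁ K₁ a) := by
      apply Subtype.ext
      show ρ₀ (algebraMap R₁ O a) = algebraMap K₁ Ω (algebraMap R₁ K₁ a)
      rw [hρ₀, IsScalarTower.algebraMap_apply R₁ K₁ Ω]
    show τ (ρL (algebraMap R₁ O a)) = _
    rw [h1, AlgHom.commutes, ← IsScalarTower.algebraMap_apply R₁ K₁ Ω]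
  -- every `τ` extends to an automorphism of `Ω`
  have hext : ∀ τ : ↥L →ₐ[K₁] Ω, ∃ σ : Ω ≃ₐ[K₁] Ω, (σ : Ω →+* Ω).comp ρ₀ = ρ τ := by
    intro τ
    obtain ⟨φ, hφ⟩ := IntermediateField.exists_algHom_of_splits (F := K₁) (E := Ω) (K := Ω)
      (fun s => ⟨Algebra.IsIntegral.isIntegral s, IsAlgClosed.splits _⟩) τ
    refine ⟨AlgEquiv.ofBijective φ (Algebra.IsAlgebraic.algHom_bijective φ), ?_⟩
    ext z
    have h1 : φ (ρ₀ z) = τ ⟨ρ₀ z, hL z⟩ := by
      have := DFunLike.congr_fun hφ ⟨ρ₀ z, hL z⟩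
      simpa using this
    exact h1
  by_contra hcon
  simp only [not_exists] at hcon
  have hnc : ∀ τ : ↥L →ₐ[K₁] Ω, ¬ IsCentred 𝒜 (ρ τ) := by
    intro τ h
    obtain ⟨σ, hσ⟩ := hext τ
    exact hcon σ (hσ ▸ h)
  -- a non-unit of `O` all of whose conjugate values are units of `𝒜`
  obtain ⟨z, hzm, hz⟩ := exists_forall_one_le h𝒜 ρ hρ Finset.univ
    (fun τ _ => exists_one_le_of_not_isCentred h𝒜 hres (hρ τ) (hnc τ))
  obtain ⟨z', hz'm, hz'⟩ := exists_forall_eq_one h𝒜 ρ hρ Finset.univ hzm hz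
  -- its minimal polynomial
  set w : Ω := ρ₀ z' with hw
  have hroots : ∀ α ∈ (minpoly K₁ w).rootSet Ω, 𝒜.valuation α = 1 := by
    intro α hα
    rw [← Algebra.IsAlgebraic.range_eval_eq_rootSet_minpoly Ω w] at hα
    obtain ⟨ψ, rfl⟩ := hα
    have h1 := hz' (ψ.comp L.val) (Finset.mem_univ _)
    exact h1
  obtain ⟨μ₁, hμ₁, hunit⟩ := exists_lift_minpoly_of_forall_root_eq_one h𝒜 hinj w hroots
  -- evaluate at `z'`
  set qv : O := μ₁.eval₂ (algebraMap R₁ O) z' with hq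
  have hρq : ρ₀ qv = 0 := by
    have hcomp : ρ₀.comp (algebraMap R₁ O) = (algebraMap K₁ Ω).comp (algebraMap R₁ K₁) := by
      ext a
      simp only [RingHom.comp_apply, hρ₀]
      exact IsScalarTower.algebraMap_apply R₁ K₁ Ω a
    rw [hq, hom_eval₂, hcomp, ← eval₂_map, hμ₁, ← hw, ← aeval_def, minpoly.aeval]
  have hqm : qv ∈ maximalIdeal O := by
    by_contra hnm
    have hu : IsUnit qv := by
      by_contra hnu
      exact hnm hnu
    exact (hu.map ρ₀).ne_zero hρq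
  obtain ⟨g, hg⟩ := X_dvd_sub_C (p := μ₁)
  have hdecomp : qv = algebraMap R₁ O (μ₁.coeff 0) + z' * g.eval₂ (algebraMap R₁ O) z' := by
    have h1 : μ₁ = C (μ₁.coeff 0) + X * g := by rw [← hg]; ring
    rw [hq]
    conv_lhs => rw [h1]
    rw [eval₂_add, eval₂_C, eval₂_mul, eval₂_X]
  have h0m : algebraMap R₁ O (μ₁.coeff 0) ∈ maximalIdeal O := by
    have := Ideal.sub_mem _ hqm (Ideal.mul_mem_right (g.eval₂ (algebraMap R₁ O) z') _ hz'm)
    rwa [hdecomp, add_sub_cancel_right] at this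
  exact h0m (hunit.map (algebraMap R₁ O))

end Conj

end NodePt

end Fermat.Agent.MP
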