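import Mathlib
import Fermat.Agent.MP.NODEQ_helper1_Conj
import Fermat.Agent.MW.NADIC_helper6_LocN
import Fermat.Agent.JA.REDO_helper1_SumBC

/-!
# Project MP40 — C3 [NODEQ] helper1, part 3: the geometric points of the cell of a node

`O ⊂ E` the local ring of the model at a node, `φ : E → E_Ω` the constant field extension to an
algebraic closure `Ω` of the base field `K₁` (all places of `E_Ω/Ω` rational), `𝒜` a valuation
ring of `Ω` above the base ring.

* `NodePt.ptHom` : the value homomorphism `O → Ω` of a place `Q` of `E_Ω/Ω` whose valuation ring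
  contains `φ(O)`; its kernel is the centre of the restriction of `Q` to `E` (`ptHom_eq_zero_iff`).
* `NodePt.exists_coordPoly` : **the key lemma of [NODEQ]**. Let `P` be a place of `E/K₁` of the
  cell of the node, `Q` a geometric point above it, and assume that all conjugates (over `K₁`) of
  the values at `Q` of the functions regular at `P` are `𝒜`-integral as soon as the value is
  (hypothesis `(HENS)`: the base is henselian as far as `P` sees). Then `G = μ(x)`, `μ` the minimal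
  polynomial over `K₁` of the `x`-coordinate of `Q`, lies in `O`, is a unit along the branch
  `Pinf`, has order one at `P` and order zero at every other place of the cell.
-/

set_option autoImplicit false
set_option linter.unusedSectionVars false
set_option linter.style.haveILetI false

open AlgebraicCurve IsLocalRing Polynomial

namespace Fermat.Agent.MP

namespace NodePt

open Fermat.Agent.SS Fermat.Agent.JA Fermat.Agent.FF Fermat.Agent.MW.NAdic

section PtHom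

variable {K₁ : Type*} [Field K₁] {E : Type*} [Field E] [Algebra K₁ E]
  {O : Type*} [CommRing O] [Algebra O E]
  {Ω : Type*} [Field Ω]
  {EΩ : Type*} [Field EΩ] [Algebra Ω EΩ]
  (φ : E →+* EΩ)
  (Q : Place Ω EΩ) (hQ : ∀ z : O, φ (algebraMap O E z) ∈ Q.toValuationSubring)
  (hrat : IsRationalPlace Q)

include hQ hrat in
theorem exists_hasValueAt_pt (z : O) : ∃ c : Ω, HasValueAt Q (φ (algebraMap O E z)) c := by
  obtain ⟨c, hc⟩ := hrat _ (hQ z)
  exact ⟨c, HasValueAt.iff_ord.mpr hc⟩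

/-- the value homomorphism of a geometric point of the cell. -/
noncomputable def ptHom : O →+* Ω where
  toFun z := valueAt Q (φ (algebraMap O E z))
  map_one' := by
    rw [map_one, map_one]
    exact (HasValueAt.one' Q).valueAt_eq
  map_mul' z w := by
    rw [map_mul, map_mul]
    exact ((hasValueAt_valueAt (exists_hasValueAt_pt φ Q hQ hrat z)).mul
      (hasValueAt_valueAt (exists_hasValueAt_pt φ Q hQ hrat w))).valueAt_eq
  map_zero' := by
    rw [map_zero, map_zero]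
    exact (HasValueAt.zero' Q).valueAt_eq
  map_add' z w := by
    rw [map_add, map_add]
    exact ((hasValueAt_valueAt (exists_hasValueAt_pt φ Q hQ hrat z)).add
      (hasValueAt_valueAt (exists_hasValueAt_pt φ Q hQ hrat w))).valueAt_eq

theorem hasValueAt_ptHom (z : O) :
    HasValueAt Q (φ (algebraMap O E z)) (ptHom φ Q hQ hrat z) :=
  hasValueAt_valueAt (exists_hasValueAt_pt φ Q hQ hrat z)

theorem ptHom_eq_of_hasValueAt {z : O} {c : Ω} (h : HasValueAt Q (φ (algebraMap O E z)) c) :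
    ptHom φ Q hQ hrat z = c :=
  h.valueAt_eq

end PtHom

section Restrict

variable {K₁ : Type*} [Field K₁] {E : Type*} [Field E] [Algebra K₁ E]
  {O : Type*} [CommRing O] [Algebra O E]
  {Ω : Type*} [Field Ω] [Algebra K₁ Ω] [Algebra.IsAlgebraic K₁ Ω]
  {EΩ : Type*} [Field EΩ] [Algebra Ω EΩ] [CharZero EΩ]
  (φ : E →+* EΩ) (hφ : ∀ a : K₁, φ (algebraMap K₁ E a) = algebraMap Ω EΩ (algebraMap K₁ Ω a))
  (hgen : Subfield.closure (Set.range φ ∪ Set.range (algebraMap Ω EΩ)) = ⊤)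
  (Q : Place Ω EΩ) (hQ : ∀ z : O, φ (algebraMap O E z) ∈ Q.toValuationSubring)
  (hrat : IsRationalPlace Q)

include hQ in
theorem inCell_restrictBC (z : O) :
    algebraMap O E z ∈ (restrictBC φ hφ hgen Q).toValuationSubring :=
  (mem_restrictBC_iff φ hφ hgen Q _).mpr (hQ z)

/-- **the kernel of the value homomorphism of `Q` is the centre of the restriction of `Q`.** -/
theorem ptHom_eq_zero_iff (z : O) :
    ptHom φ Q hQ hrat z = 0 ↔
      z ∈ centreIdeal (restrictBC φ hφ hgen Q) (inCell_restrictBC φ hφ hgen Q hQ) := by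
  rw [mem_centreIdeal_iff]
  unfold Place.IsZeroAt
  rw [ord_restrictBC, ← map_eq_zero_iff φ φ.injective (x := algebraMap O E z)]
  constructor
  · intro h
    have h1 := hasValueAt_ptHom φ Q hQ hrat z
    rw [h] at h1
    exact HasValueAt.zero_iff.mp h1
  · intro h
    exact ptHom_eq_of_hasValueAt φ Q hQ hrat (HasValueAt.zero_iff.mpr h)

include hφ in
theorem ptHom_algebraMap_base (c : K₁) {z : O} (hz : algebraMap O E z = algebraMap K₁ E c) :
    ptHom φ Q hQ hrat z = algebraMap K₁ Ω c := by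
  apply ptHom_eq_of_hasValueAt
  rw [hz, hφ]
  exact HasValueAt.algebraMap' Q _

end Restrict

section SmallRoots

variable {R₁ : Type*} [CommRing R₁] [IsLocalRing R₁]
  {K₁ : Type*} [Field K₁] [Algebra R₁ K₁]
  {Ω : Type*} [Field Ω] [Algebra K₁ Ω] [Algebra R₁ Ω] [IsScalarTower R₁ K₁ Ω]
  [IsAlgClosed Ω] [Algebra.IsAlgebraic K₁ Ω]
  {𝒜 : ValuationSubring Ω}
  (h𝒜 : ∀ c : K₁, algebraMap K₁ Ω c ∈ 𝒜 ↔ c ∈ Set.range (algebraMap R₁ K₁))
  (hinj : Function.Injective (algebraMap R₁ K₁))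

omit [IsAlgClosed Ω] in
theorem prod_lt_one_of_forall_lt_one (t : Multiset Ω) (ht : ∀ α ∈ t, 𝒜.valuation α < 1)
    (h0 : t ≠ 0) : 𝒜.valuation t.prod < 1 := by
  obtain ⟨a, ha⟩ := Multiset.exists_mem_of_ne_zero h0
  obtain ⟨t', rfl⟩ := Multiset.exists_cons_of_mem ha
  rw [Multiset.prod_cons, map_mul]
  have h1 : t'.prod ∈ 𝒜 := Subring.multiset_prod_mem 𝒜.toSubring _ (fun α hα =>
    (𝒜.valuation_le_one_iff _).mp (le_of_lt (ht α (Multiset.mem_cons_of_mem hα))))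
  calc 𝒜.valuation a * 𝒜.valuation t'.prod ≤ 𝒜.valuation a * 1 :=
        mul_le_mul' le_rfl ((𝒜.valuation_le_one_iff _).mpr h1)
    _ = 𝒜.valuation a := mul_one _
    _ < 1 := ht a (Multiset.mem_cons_self a t')

omit [IsAlgClosed Ω] in
theorem sum_lt_one_of_forall_lt_one (t : Multiset Ω) (ht : ∀ α ∈ t, 𝒜.valuation α < 1) :
    𝒜.valuation t.sum < 1 := by
  induction t using Multiset.induction_on with
  | empty => rw [Multiset.sum_zero, map_zero]; exact zero_lt_one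
  | cons a t ih =>
    rw [Multiset.sum_cons]
    exact Valuation.map_add_lt _ (ht a (Multiset.mem_cons_self a t))
      (ih fun α hα => ht α (Multiset.mem_cons_of_mem hα))

omit [IsAlgClosed Ω] in
theorem esymm_lt_one_of_forall_lt_one (s : Multiset Ω) (hs : ∀ α ∈ s, 𝒜.valuation α < 1)
    {n : ℕ} (hn : 1 ≤ n) : 𝒜.valuation (s.esymm n) < 1 := by
  rw [Multiset.esymm]
  refine sum_lt_one_of_forall_lt_one _ ?_
  intro c hc
  obtain ⟨t, ht, rfl⟩ := Multiset.mem_map.mp hc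
  obtain ⟨hle, hcard⟩ := Multiset.mem_powersetCard.mp ht
  refine prod_lt_one_of_forall_lt_one t (fun α hα => hs α (Multiset.mem_of_le hle hα)) ?_
  rintro rfl
  rw [Multiset.card_zero] at hcard
  omega

include h𝒜 hinj in
/-- **an element all of whose conjugates lie in the maximal ideal of `𝒜` has its minimal polynomial
over the base ring, congruent to a power of the variable modulo the maximal ideal.** -/
theorem exists_lift_minpoly_of_forall_root_lt_one (w : Ω)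
    (hroots : ∀ α ∈ (minpoly K₁ w).rootSet Ω, 𝒜.valuation α < 1) :
    ∃ μ₁ : R₁[X], μ₁.Monic ∧ μ₁.map (algebraMap R₁ K₁) = minpoly K₁ w ∧
      ∀ k < μ₁.natDegree, μ₁.coeff k ∈ maximalIdeal R₁ := by
  have hint : IsIntegral K₁ w := Algebra.IsIntegral.isIntegral w
  set μ := minpoly K₁ w with hμ
  set P : Polynomial Ω := μ.map (algebraMap K₁ Ω) with hP
  have hmonic : P.Monic := (minpoly.monic hint).map _
  have hsplits : P.Splits := IsAlgClosed.splits P
  have hcard : Multiset.card P.roots = P.natDegree := splits_iff_card_roots.mp hsplits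
  have hrootsP : ∀ α ∈ P.roots, 𝒜.valuation α < 1 := by
    intro α hα
    apply hroots α
    rw [mem_rootSet_of_ne (minpoly.ne_zero hint)]
    have h1 := (mem_roots hmonic.ne_zero).mp hα
    rwa [IsRoot.def, hP, eval_map, ← aeval_def] at h1
  have hrootsmem : ∀ α ∈ P.roots, α ∈ 𝒜 := fun α hα =>
    (𝒜.valuation_le_one_iff _).mp (le_of_lt (hrootsP α hα))
  -- all coefficients lie in `𝒜`
  have hcoeff : ∀ k : ℕ, P.coeff k ∈ 𝒜 := by
    intro k
    by_cases hk : k ≤ P.natDegree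
    · rw [coeff_eq_esymm_roots_of_card hcard hk, hmonic.leadingCoeff, one_mul]
      refine 𝒜.mul_mem _ _ ?_ (esymm_mem_of_forall_mem _ hrootsmem _)
      exact Subring.pow_mem 𝒜.toSubring (𝒜.neg_mem _ 𝒜.one_mem) _
    · rw [coeff_eq_zero_of_natDegree_lt (not_le.mp hk)]
      exact 𝒜.zero_mem
  have hcoeff' : ∀ k : ℕ, k < P.natDegree → 𝒜.valuation (P.coeff k) < 1 := by
    intro k hk
    rw [coeff_eq_esymm_roots_of_card hcard hk.le, hmonic.leadingCoeff, one_mul, map_mul, map_pow,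
      Valuation.map_neg, map_one, one_pow, one_mul]
    exact esymm_lt_one_of_forall_lt_one _ hrootsP (by omega)
  have hlifts : μ ∈ lifts (algebraMap R₁ K₁) := by
    rw [lifts_iff_coeff_lifts]
    intro k
    have := hcoeff k
    rw [hP, coeff_map] at this
    exact (h𝒜 _).mp this
  obtain ⟨μ₁, hμ₁⟩ := (mem_lifts _).mp hlifts
  have hdeg : μ₁.natDegree = P.natDegree := by
    rw [hP, natDegree_map, ← hμ₁, natDegree_map_eq_of_injective hinj]
  refine ⟨μ₁, monic_of_injective hinj (by rw [hμ₁]; exact minpoly.monic hint), hμ₁, ?_⟩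
  intro k hk
  rw [hdeg] at hk
  have h1 := hcoeff' k hk
  have e1 : P.coeff k = algebraMap R₁ Ω (μ₁.coeff k) := by
    rw [hP, coeff_map, ← hμ₁, coeff_map, ← IsScalarTower.algebraMap_apply R₁ K₁ Ω]
  rw [e1] at h1
  rw [mem_maximalIdeal, mem_nonunits_iff]
  intro hu
  rw [valuation_algebraMap_base_unit h𝒜 hu] at h1
  exact lt_irrefl _ h1

end SmallRoots

section EvalNotMem

variable {R₁ : Type*} [CommRing R₁] {O : Type*} [CommRing O]

/-- a monic polynomial, congruent to a power of the variable modulo a prime `I`, evaluated at an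
element outside `I`, is outside `I`. -/
theorem eval₂_notMem_of_monic (f : R₁ →+* O) (I : Ideal O) [hI : I.IsPrime] (μ₁ : R₁[X])
    (hm : μ₁.Monic) (hlow : ∀ k < μ₁.natDegree, f (μ₁.coeff k) ∈ I) {x : O} (hx : x ∉ I) :
    μ₁.eval₂ f x ∉ I := by
  rw [eval₂_eq_sum_range, Finset.sum_range_succ, hm.coeff_natDegree, map_one, one_mul]
  intro hmem
  have h1 : ∑ k ∈ Finset.range μ₁.natDegree, f (μ₁.coeff k) * x ^ k ∈ I :=
    I.sum_mem fun k hk => I.mul_mem_right _ (hlow k (Finset.mem_range.mp hk))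
  have h2 := (Ideal.add_mem_iff_right I h1).mp hmem
  exact hx (hI.mem_of_pow_mem _ h2)

end EvalNotMem

section Hens

variable {K₁ : Type*} [Field K₁] {O : Type*} [CommRing O] [IsLocalRing O]
  {Ω : Type*} [Field Ω] [Algebra K₁ Ω] {𝒜 : ValuationSubring Ω}

/-- **(HENS) for a point `ρ : O → Ω`**: the `𝒜`-integrality of the values of `ρ` and of their
inverses is invariant under `Aut(Ω / K₁)`. -/
def HensAt (K₁ : Type*) [Field K₁] {Ω : Type*} [Field Ω] [Algebra K₁ Ω] (𝒜 : ValuationSubring Ω)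
    {O : Type*} [CommRing O] (ρ : O →+* Ω) : Prop :=
  ∀ σ : Ω ≃ₐ[K₁] Ω, ∀ z : O, (ρ z ∈ 𝒜 ↔ σ (ρ z) ∈ 𝒜) ∧ ((ρ z)⁻¹ ∈ 𝒜 ↔ σ (ρ z)⁻¹ ∈ 𝒜)

/-- under (HENS), if one conjugate of a point is `𝒜`-centred, all are. -/
theorem HensAt.isCentred_comp {ρ : O →+* Ω} (hh : HensAt K₁ 𝒜 ρ) {σ₁ : Ω ≃ₐ[K₁] Ω}
    (h1 : IsCentred 𝒜 ((σ₁ : Ω →+* Ω).comp ρ)) (σ₂ : Ω ≃ₐ[K₁] Ω) :
    IsCentred 𝒜 ((σ₂ : Ω →+* Ω).comp ρ) := by
  refine ⟨fun z => ?_, fun z hz => ?_⟩
  · have h2 : σ₁ (ρ z) ∈ 𝒜 := h1.mem z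
    exact (hh σ₂ z).1.mp ((hh σ₁ z).1.mpr h2)
  · by_contra hlt
    rw [not_lt] at hlt
    have hlt' : 1 ≤ 𝒜.valuation (σ₂ (ρ z)) := hlt
    have hne : σ₂ (ρ z) ≠ 0 := by
      intro h0
      rw [h0, map_zero] at hlt'
      exact not_lt.mpr hlt' zero_lt_one
    have hρ0 : ρ z ≠ 0 := fun h0 => hne (by rw [h0, map_zero])
    have h2 : σ₂ (ρ z)⁻¹ ∈ 𝒜 := by
      rw [map_inv₀, ← 𝒜.valuation_le_one_iff, map_inv₀]
      exact inv_le_one_of_one_le₀ hlt'
    have h3 : σ₁ (ρ z)⁻¹ ∈ 𝒜 := (hh σ₁ z).2.mp ((hh σ₂ z).2.mpr h2)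
    rw [map_inv₀, ← 𝒜.valuation_le_one_iff, map_inv₀] at h3
    have h4 : 𝒜.valuation (σ₁ (ρ z)) < 1 := h1.lt_one z hz
    have h5 : 𝒜.valuation (σ₁ (ρ z)) ≠ 0 :=
      (Valuation.ne_zero_iff _).mpr ((map_ne_zero σ₁).mpr hρ0)
    have h6 : 1 < (𝒜.valuation (σ₁ (ρ z)))⁻¹ := (one_lt_inv₀ (zero_lt_iff.mpr h5)).mpr h4
    exact absurd h3 (not_le.mpr h6)

end Hens

section Diff

variable {Ω : Type*} [Field Ω] {EΩ : Type*} [Field EΩ] [Algebra Ω EΩ] {Q : Place Ω EΩ}

theorem ne_zero_of_ord_eq_one {t₀ : EΩ} (ht : Q.ord t₀ = 1) : t₀ ≠ 0 := by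
  rintro rfl
  rw [Q.ord_zero] at ht
  exact zero_ne_one ht

/-- the difference quotient `(f - f(Q)) / t₀` at a rational place is regular. -/
theorem div_mem_of_hasValueAt {f t₀ : EΩ} {c : Ω} (hf : HasValueAt Q f c) (ht : Q.ord t₀ = 1) :
    (f - algebraMap Ω EΩ c) / t₀ ∈ Q.toValuationSubring := by
  have ht0 := ne_zero_of_ord_eq_one ht
  rw [PlaceAux.mem_iff_ord_nonneg]
  rcases HasValueAt.iff_ord.mp hf with h | h
  · left; rw [h, zero_div]
  · right
    have h0 : f - algebraMap Ω EΩ c ≠ 0 := by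
      intro h0
      rw [h0, Q.ord_zero] at h
      exact lt_irrefl _ h
    rw [div_eq_mul_inv, Q.ord_mul h0 (inv_ne_zero ht0), Place.ord_inv, ht]
    omega

theorem exists_hasValueAt_div (hrat : IsRationalPlace Q) {f t₀ : EΩ} {c : Ω}
    (hf : HasValueAt Q f c) (ht : Q.ord t₀ = 1) :
    ∃ d : Ω, HasValueAt Q ((f - algebraMap Ω EΩ c) / t₀) d := by
  obtain ⟨d, hd⟩ := hrat _ (div_mem_of_hasValueAt hf ht)
  exact ⟨d, HasValueAt.iff_ord.mpr hd⟩

/-- a difference quotient of order at least one has value zero. -/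
theorem hasValueAt_div_zero {f t₀ : EΩ} {c : Ω} (ht : Q.ord t₀ = 1)
    (h : f - algebraMap Ω EΩ c = 0 ∨ 2 ≤ Q.ord (f - algebraMap Ω EΩ c)) :
    HasValueAt Q ((f - algebraMap Ω EΩ c) / t₀) 0 := by
  have ht0 := ne_zero_of_ord_eq_one ht
  rw [HasValueAt.zero_iff]
  rcases h with h | h
  · left; rw [h, zero_div]
  · right
    have h0 : f - algebraMap Ω EΩ c ≠ 0 := by
      intro h0
      rw [h0, Q.ord_zero] at h
      omega
    rw [div_eq_mul_inv, Q.ord_mul h0 (inv_ne_zero ht0), Place.ord_inv, ht]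
    omega

/-- the value of a polynomial with constant coefficients. -/
theorem hasValueAt_eval₂_const {f : EΩ} {c : Ω} (hf : HasValueAt Q f c) (q : Polynomial Ω) :
    HasValueAt Q (q.eval₂ (algebraMap Ω EΩ) f) (q.eval c) := by
  rw [eval₂_eq_sum_range, eval_eq_sum_range]
  exact HasValueAt.sum _ _ _ fun i _ => (HasValueAt.algebraMap' Q _).mul (hf.pow i)

end Diff

section Key

variable {R₁ : Type*} [CommRing R₁] [IsDomain R₁] [IsDiscreteValuationRing R₁]
  [Infinite (ResidueField R₁)]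
  {K₁ : Type*} [Field K₁] [CharZero K₁] [Algebra R₁ K₁] [IsFractionRing R₁ K₁]
  {E : Type*} [Field E] [Algebra K₁ E] [Algebra R₁ E] [IsScalarTower R₁ K₁ E]
  {O : Type*} [CommRing O] [IsDomain O] [IsLocalRing O] [IsNoetherianRing O]
  [IsIntegrallyClosed O] [Algebra R₁ O] [Algebra O E] [IsScalarTower R₁ O E] [IsFractionRing O E]
  {Ω : Type*} [Field Ω] [Algebra K₁ Ω] [Algebra R₁ Ω] [IsScalarTower R₁ K₁ Ω] [IsAlgClosed Ω]
  [Algebra.IsAlgebraic K₁ Ω]
  {𝒜 : ValuationSubring Ω}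
  (h𝒜 : ∀ c : K₁, algebraMap K₁ Ω c ∈ 𝒜 ↔ c ∈ Set.range (algebraMap R₁ K₁))
  {EΩ : Type*} [Field EΩ] [Algebra Ω EΩ] [CharZero EΩ]
  (φ : E →+* EΩ) (hφ : ∀ a : K₁, φ (algebraMap K₁ E a) = algebraMap Ω EΩ (algebraMap K₁ Ω a))
  (hgen : Subfield.closure (Set.range φ ∪ Set.range (algebraMap Ω EΩ)) = ⊤)
  (hratΩ : ∀ Q : Place Ω EΩ, IsRationalPlace Q)

include hφ in
theorem ptHom_algebraMap (Q : Place Ω EΩ)
    (hQ : ∀ z : O, φ (algebraMap O E z) ∈ Q.toValuationSubring) (hrat : IsRationalPlace Q)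
    (a : R₁) : ptHom φ Q hQ hrat (algebraMap R₁ O a) = algebraMap R₁ Ω a := by
  rw [ptHom_algebraMap_base φ hφ Q hQ hrat (algebraMap R₁ K₁ a)
    ((IsScalarTower.algebraMap_apply R₁ O E a).symm.trans
      (IsScalarTower.algebraMap_apply R₁ K₁ E a)),
    ← IsScalarTower.algebraMap_apply R₁ K₁ Ω]

/-- (HENS) for a place gives (HENS) for the value homomorphism of a geometric point above it. -/
theorem hensAt_ptHom (Q : Place Ω EΩ)
    (hQ : ∀ z : O, φ (algebraMap O E z) ∈ Q.toValuationSubring) (hrat : IsRationalPlace Q)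
    (hhens : ∀ σ : Ω ≃ₐ[K₁] Ω, ∀ z ∈ (restrictBC φ hφ hgen Q).toValuationSubring, ∀ c : Ω,
      HasValueAt Q (φ z) c → (c ∈ 𝒜 ↔ σ c ∈ 𝒜)) :
    HensAt K₁ 𝒜 (ptHom φ Q hQ hrat) := by
  intro σ z
  have hv := hasValueAt_ptHom φ Q hQ hrat z
  refine ⟨hhens σ _ (inCell_restrictBC φ hφ hgen Q hQ z) _ hv, ?_⟩
  by_cases h0 : ptHom φ Q hQ hrat z = 0
  · rw [h0, inv_zero, map_zero]
  · have hv' := hv.inv h0
    rw [← map_inv₀ φ] at hv'
    refine hhens σ _ ?_ _ hv'
    rw [mem_restrictBC_iff]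
    exact hv'.mem

variable {ϖ : R₁} (hϖ : Irreducible ϖ) {P0 Pinf : Ideal O} [hP0 : P0.IsPrime]
  [hPinf : Pinf.IsPrime] {x y r : O} {m : ℕ} (hnode : IsNodePair P0 Pinf x y)
  (hπ0 : algebraMap R₁ O ϖ ∈ P0) (hπinf : algebraMap R₁ O ϖ ∈ Pinf)
  (hinf : P0 ⊓ Pinf ≤ Ideal.span {algebraMap R₁ O ϖ})
  (hxy : x * y = algebraMap R₁ O ϖ ^ m * r) (hr : IsUnit r)
  (hres : ∀ z : O, ∃ a : R₁, z - algebraMap R₁ O a ∈ maximalIdeal O)
  (hfin : EssFiniteType R₁ O)

include h𝒜 hφ hres hfin in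
/-- every geometric point of the cell has an `𝒜`-centred conjugate. -/
theorem exists_isCentred_conj_ptHom (Q : Place Ω EΩ)
    (hQ : ∀ z : O, φ (algebraMap O E z) ∈ Q.toValuationSubring) (hrat : IsRationalPlace Q) :
    ∃ σ : Ω ≃ₐ[K₁] Ω, IsCentred 𝒜 ((σ : Ω →+* Ω).comp (ptHom φ Q hQ hrat)) :=
  exists_isCentred_conj h𝒜 (IsFractionRing.injective R₁ K₁) hres hfin
    (ptHom_algebraMap φ hφ Q hQ hrat)

include hϖ hφ hnode hπ0 hinf hxy hr hres hfin in
/-- two geometric points of the cell, the first one with all its conjugates `𝒜`-centred, whose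
`x`-coordinates are conjugate, lie above the same horizontal prime. -/
theorem centreIdeal_eq_of_coord_conj (Q Q' : Place Ω EΩ)
    (hQ : ∀ z : O, φ (algebraMap O E z) ∈ Q.toValuationSubring)
    (hQ' : ∀ z : O, φ (algebraMap O E z) ∈ Q'.toValuationSubring)
    (hcen : ∀ σ : Ω ≃ₐ[K₁] Ω, IsCentred 𝒜 ((σ : Ω →+* Ω).comp (ptHom φ Q hQ (hratΩ Q))))
    {σ : Ω ≃ₐ[K₁] Ω} (hσ : IsCentred 𝒜 ((σ : Ω →+* Ω).comp (ptHom φ Q' hQ' (hratΩ Q'))))
    (τ : Ω ≃ₐ[K₁] Ω) (hτ : ptHom φ Q' hQ' (hratΩ Q') x = τ (ptHom φ Q hQ (hratΩ Q) x)) :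
    centreIdeal (restrictBC φ hφ hgen Q') (inCell_restrictBC φ hφ hgen Q' hQ') =
      centreIdeal (restrictBC φ hφ hgen Q) (inCell_restrictBC φ hφ hgen Q hQ) := by
  have hmax := hnode.maximalIdeal_eq hπ0 hinf
  have hbaseσ : ∀ (σ' : Ω ≃ₐ[K₁] Ω) (a : R₁), σ' (algebraMap R₁ Ω a) = algebraMap R₁ Ω a := by
    intro σ' a
    rw [IsScalarTower.algebraMap_apply R₁ K₁ Ω, σ'.commutes]
  have hϖΩ : algebraMap R₁ Ω ϖ ≠ 0 := by
    rw [IsScalarTower.algebraMap_apply R₁ K₁ Ω]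
    exact (_root_.map_ne_zero _).mpr
      ((map_ne_zero_iff _ (IsFractionRing.injective R₁ K₁)).mpr hϖ.ne_zero)
  have heq : (σ : Ω →+* Ω).comp (ptHom φ Q' hQ' (hratΩ Q')) =
      ((τ.trans σ : Ω ≃ₐ[K₁] Ω) : Ω →+* Ω).comp (ptHom φ Q hQ (hratΩ Q)) := by
    refine eq_of_apply_coord_eq hmax hxy hr hres hfin hσ (hcen (τ.trans σ)) (fun a => ?_) ?_ ?_
    · show σ (ptHom φ Q' hQ' (hratΩ Q') (algebraMap R₁ O a)) =
        σ (τ (ptHom φ Q hQ (hratΩ Q) (algebraMap R₁ O a)))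
      rw [ptHom_algebraMap φ hφ, ptHom_algebraMap φ hφ, hbaseσ τ]
    · show σ (ptHom φ Q' hQ' (hratΩ Q') (algebraMap R₁ O ϖ)) ≠ 0
      rw [ptHom_algebraMap φ hφ, hbaseσ σ]
      exact hϖΩ
    · show σ (ptHom φ Q' hQ' (hratΩ Q') x) = σ (τ (ptHom φ Q hQ (hratΩ Q) x))
      rw [hτ]
  ext z
  rw [← ptHom_eq_zero_iff φ hφ hgen Q' hQ' (hratΩ Q'), ← ptHom_eq_zero_iff φ hφ hgen Q hQ (hratΩ Q)]
  have h1 : σ (ptHom φ Q' hQ' (hratΩ Q') z) = σ (τ (ptHom φ Q hQ (hratΩ Q) z)) :=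
    DFunLike.congr_fun heq z
  constructor
  · intro h
    rw [h, map_zero] at h1
    have h2 := h1.symm
    rwa [map_eq_zero_iff _ σ.injective, map_eq_zero_iff _ τ.injective] at h2
  · intro h
    rw [h, map_zero, map_zero] at h1
    rwa [map_eq_zero_iff _ σ.injective] at h1

include hϖ hφ hnode hπ0 hinf hxy hr hres hfin in
/-- **the node coordinate is a local parameter at every `𝒜`-centred geometric point of the cell**
(étaleness of `x` on the `𝒜`-annulus): `ord_Q (x - x(Q)) = 1`. -/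
theorem ord_coord_sub_eq_one (Q : Place Ω EΩ)
    (hQ : ∀ z : O, φ (algebraMap O E z) ∈ Q.toValuationSubring)
    (hcen : IsCentred 𝒜 (ptHom φ Q hQ (hratΩ Q)))
    (hh : (centreIdeal (restrictBC φ hφ hgen Q) (inCell_restrictBC φ hφ hgen Q hQ)).height = 1) :
    Q.ord (φ (algebraMap O E x) - algebraMap Ω EΩ (ptHom φ Q hQ (hratΩ Q) x)) = 1 := by
  have hmax := hnode.maximalIdeal_eq hπ0 hinf
  set ρ := ptHom φ Q hQ (hratΩ Q) with hρ
  have hP : InCell O (restrictBC φ hφ hgen Q) := inCell_restrictBC φ hφ hgen Q hQ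
  obtain ⟨z₀, hz₀, hz₀0, hloc⟩ := exists_local_generator_of_height_eq_one _ hh
  have hord1 : (restrictBC φ hφ hgen Q).ord (algebraMap O E z₀) = 1 :=
    (ord_eq_of_isUnitAtPrime (restrictBC φ hφ hgen Q) hP hz₀ hz₀0 hloc).1
  set t₀ : EΩ := φ (algebraMap O E z₀) with ht₀
  have ht : Q.ord t₀ = 1 := by
    rw [ht₀, ← ord_restrictBC φ hφ hgen Q]
    exact hord1
  have ht0 : t₀ ≠ 0 := ne_zero_of_ord_eq_one ht
  have hρz₀ : ρ z₀ = 0 := (ptHom_eq_zero_iff φ hφ hgen Q hQ (hratΩ Q) z₀).mpr hz₀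
  -- the difference quotient
  set D : O → EΩ := fun z => (φ (algebraMap O E z) - algebraMap Ω EΩ (ρ z)) / t₀ with hD
  have hval : ∀ z : O, HasValueAt Q (φ (algebraMap O E z)) (ρ z) :=
    fun z => hasValueAt_ptHom φ Q hQ (hratΩ Q) z
  have hDval : ∀ z : O, ∃ d : Ω, HasValueAt Q (D z) d :=
    fun z => exists_hasValueAt_div (hratΩ Q) (hval z) ht
  set δ : O → Ω := fun z => valueAt Q (D z) with hδdef
  have hδ : ∀ z : O, HasValueAt Q (D z) (δ z) := fun z => hasValueAt_valueAt (hDval z)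
  have d_add : ∀ z w, δ (z + w) = δ z + δ w := by
    intro z w
    have e : D (z + w) = D z + D w := by
      simp only [hD, map_add]
      ring
    show valueAt Q (D (z + w)) = _
    rw [e]
    exact ((hδ z).add (hδ w)).valueAt_eq
  have d_mul : ∀ z w, δ (z * w) = ρ z * δ w + δ z * ρ w := by
    intro z w
    have e : D (z * w) = φ (algebraMap O E z) * D w + D z * algebraMap Ω EΩ (ρ w) := by
      simp only [hD, map_mul]
      ring
    show valueAt Q (D (z * w)) = _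
    rw [e]
    exact (((hval z).mul (hδ w)).add ((hδ z).mul (HasValueAt.algebraMap' Q _))).valueAt_eq
  have d_alg : ∀ a : R₁, δ (algebraMap R₁ O a) = 0 := by
    intro a
    have e : D (algebraMap R₁ O a) = 0 := by
      simp only [hD]
      rw [hρ, ptHom_algebraMap φ hφ, ← IsScalarTower.algebraMap_apply R₁ O E,
        IsScalarTower.algebraMap_apply R₁ K₁ E, hφ, ← IsScalarTower.algebraMap_apply R₁ K₁ Ω,
        sub_self, zero_div]
    show valueAt Q (D (algebraMap R₁ O a)) = 0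
    rw [e]
    exact (HasValueAt.zero' Q).valueAt_eq
  have hδz₀ : δ z₀ = 1 := by
    have e : D z₀ = 1 := by
      simp only [hD]
      rw [hρz₀, map_zero, sub_zero]
      exact div_self ht0
    show valueAt Q (D z₀) = 1
    rw [e]
    exact (HasValueAt.one' Q).valueAt_eq
  have hϖ0 : ρ (algebraMap R₁ O ϖ) ≠ 0 := by
    rw [hρ, ptHom_algebraMap φ hφ, IsScalarTower.algebraMap_apply R₁ K₁ Ω]
    exact (_root_.map_ne_zero _).mpr
      ((map_ne_zero_iff _ (IsFractionRing.injective R₁ K₁)).mpr hϖ.ne_zero)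
  by_contra hne
  have h2 : φ (algebraMap O E x) - algebraMap Ω EΩ (ρ x) = 0 ∨
      2 ≤ Q.ord (φ (algebraMap O E x) - algebraMap Ω EΩ (ρ x)) := by
    rcases HasValueAt.iff_ord.mp (hval x) with h | h
    · exact Or.inl h
    · right; omega
  have hdx : δ x = 0 := (hasValueAt_div_zero ht h2).valueAt_eq
  have h3 := derivation_eq_zero hmax hxy hr hres hfin hcen d_add d_mul d_alg hϖ0 hdx z₀
  rw [hδz₀] at h3
  exact one_ne_zero h3

include h𝒜 hϖ hφ hratΩ hnode hπ0 hπinf hinf hxy hr hres hfin in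
/-- **the key lemma of [NODEQ]**: under (HENS) at the geometric point `Q` of the cell of the node,
the minimal polynomial over `K₁` of the node coordinate of `Q`, evaluated at the node coordinate,
is an element of `O` outside the branch `Pinf`, of order one at the place `P` below `Q` and of order
zero at every other place of the cell. -/
theorem exists_coordPoly (Q : Place Ω EΩ)
    (hQ : ∀ z : O, φ (algebraMap O E z) ∈ Q.toValuationSubring)
    (hhens : ∀ σ : Ω ≃ₐ[K₁] Ω, ∀ z ∈ (restrictBC φ hφ hgen Q).toValuationSubring, ∀ c : Ω,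
      HasValueAt Q (φ z) c → (c ∈ 𝒜 ↔ σ c ∈ 𝒜)) :
    ∃ G : O, G ∉ Pinf ∧
      ((centreIdeal (restrictBC φ hφ hgen Q) (inCell_restrictBC φ hφ hgen Q hQ)).height = 1 →
        (restrictBC φ hφ hgen Q).ord (algebraMap O E G) = 1) ∧
      ∀ (P' : Place K₁ E) (hP' : InCell O P'), (centreIdeal P' hP').height = 1 →
        P' ≠ restrictBC φ hφ hgen Q → P'.ord (algebraMap O E G) = 0 := by
  classical
  have hinj := IsFractionRing.injective R₁ K₁
  set ρ := ptHom φ Q hQ (hratΩ Q) with hρ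
  have hH : HensAt K₁ 𝒜 ρ := hensAt_ptHom φ hφ hgen Q hQ (hratΩ Q) hhens
  obtain ⟨σ₀, hσ₀⟩ := exists_isCentred_conj_ptHom h𝒜 φ hφ hres hfin Q hQ (hratΩ Q)
  have hcen : ∀ σ : Ω ≃ₐ[K₁] Ω, IsCentred 𝒜 ((σ : Ω →+* Ω).comp ρ) := hH.isCentred_comp hσ₀
  have hρcen : IsCentred 𝒜 ρ := by
    have h1 := hcen AlgEquiv.refl
    have e : ((AlgEquiv.refl : Ω ≃ₐ[K₁] Ω) : Ω →+* Ω).comp ρ = ρ := by
      ext z; rfl
    rwa [e] at h1
  set ξ := ρ x with hξ
  have hint : IsIntegral K₁ ξ := Algebra.IsIntegral.isIntegral ξ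
  have hxm : x ∈ maximalIdeal O := x_mem_of_node hnode
  have hroots : ∀ α ∈ (minpoly K₁ ξ).rootSet Ω, ∃ τ : Ω ≃ₐ[K₁] Ω, α = τ ξ := by
    intro α hα
    rw [← Algebra.IsAlgebraic.range_eval_eq_rootSet_minpoly Ω ξ] at hα
    obtain ⟨ψ, rfl⟩ := hα
    exact ⟨AlgEquiv.ofBijective ψ (Algebra.IsAlgebraic.algHom_bijective ψ), rfl⟩
  have hsmall : ∀ α ∈ (minpoly K₁ ξ).rootSet Ω, 𝒜.valuation α < 1 := by
    intro α hα
    obtain ⟨τ, rfl⟩ := hroots α hα
    exact (hcen τ).lt_one x hxm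
  obtain ⟨μ₁, hmonic, hμ₁, hlow⟩ := exists_lift_minpoly_of_forall_root_lt_one h𝒜 hinj ξ hsmall
  set G : O := μ₁.eval₂ (algebraMap R₁ O) x with hG
  -- the value of `G` at a point over the base
  have hGval : ∀ ρ' : O →+* Ω, (∀ a : R₁, ρ' (algebraMap R₁ O a) = algebraMap R₁ Ω a) →
      ρ' G = aeval (ρ' x) (minpoly K₁ ξ) := by
    intro ρ' hρ'
    have hcomp : ρ'.comp (algebraMap R₁ O) = (algebraMap K₁ Ω).comp (algebraMap R₁ K₁) := by
      ext a
      simp only [RingHom.comp_apply, hρ']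
      exact IsScalarTower.algebraMap_apply R₁ K₁ Ω a
    rw [hG, hom_eval₂, hcomp, ← eval₂_map, hμ₁, ← aeval_def]
  refine ⟨G, ?_, ?_, ?_⟩
  · -- not in `Pinf`
    refine eval₂_notMem_of_monic (algebraMap R₁ O) Pinf μ₁ hmonic (fun k hk => ?_) hnode.x_notMem
    have h1 := hlow k hk
    rw [hϖ.maximalIdeal_eq, Ideal.mem_span_singleton'] at h1
    obtain ⟨b, hb⟩ := h1
    rw [← hb, map_mul]
    exact Pinf.mul_mem_left _ hπinf
  · intro hh
    have h1 := ord_coord_sub_eq_one φ hφ hgen hratΩ hϖ hnode hπ0 hinf hxy hr hres hfin Q hQ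
      hρcen hh
    rw [ord_restrictBC]
    -- factor the minimal polynomial over `Ω`
    set Pμ : Polynomial Ω := (minpoly K₁ ξ).map (algebraMap K₁ Ω) with hPμ
    have hroot : Pμ.IsRoot ξ := by
      rw [IsRoot.def, hPμ, eval_map, ← aeval_def, minpoly.aeval]
    set ν := Pμ /ₘ (X - C ξ) with hν
    have hfac : (X - C ξ) * ν = Pμ := mul_divByMonic_eq_iff_isRoot.mpr hroot
    have hsepK : (minpoly K₁ ξ).Separable := (minpoly.irreducible hint).separable
    have hder : (derivative Pμ).eval ξ = ν.eval ξ := by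
      rw [← hfac, derivative_mul, derivative_sub, derivative_X, derivative_C, sub_zero, one_mul,
        eval_add, eval_mul, eval_sub, eval_X, eval_C, sub_self, zero_mul, add_zero]
    have hνξ : ν.eval ξ ≠ 0 := by
      rw [← hder, hPμ, derivative_map, eval_map, ← aeval_def]
      exact hsepK.aeval_derivative_ne_zero (minpoly.aeval K₁ ξ)
    have hφG : φ (algebraMap O E G) =
        (φ (algebraMap O E x) - algebraMap Ω EΩ ξ) *
          ν.eval₂ (algebraMap Ω EΩ) (φ (algebraMap O E x)) := by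
      have hcomp : ((φ.comp (algebraMap O E)).comp (algebraMap R₁ O)) =
          (algebraMap Ω EΩ).comp ((algebraMap K₁ Ω).comp (algebraMap R₁ K₁)) := by
        ext a
        simp only [RingHom.comp_apply]
        rw [← IsScalarTower.algebraMap_apply R₁ O E, IsScalarTower.algebraMap_apply R₁ K₁ E, hφ]
      have h2 : φ (algebraMap O E G) = (φ.comp (algebraMap O E)) G := rfl
      rw [h2, hG, hom_eval₂, hcomp, ← eval₂_map, ← Polynomial.map_map, hμ₁, ← hPμ, ← hfac, eval₂_mul,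
        eval₂_sub, eval₂_X, eval₂_C]
      rfl
    have hN := hasValueAt_eval₂_const (hasValueAt_ptHom φ Q hQ (hratΩ Q) x) ν
    obtain ⟨hN0, hNord⟩ := hN.ord_eq_zero hνξ
    have h0 : φ (algebraMap O E x) - algebraMap Ω EΩ ξ ≠ 0 := ne_zero_of_ord_eq_one h1
    rw [hφG, Q.ord_mul h0 hN0, h1, hNord, add_zero]
  · intro P' hP' hh' hne
    by_contra hord
    have hGc : G ∈ centreIdeal P' hP' := by
      by_contra hG'
      exact hord (ord_eq_zero_of_not_mem_centreIdeal P' hP' hG')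
    obtain ⟨Q', hQ'P⟩ := exists_restrictBC_eq φ hφ hgen P'
    subst hQ'P
    have hQ' : ∀ z : O, φ (algebraMap O E z) ∈ Q'.toValuationSubring :=
      fun z => (mem_restrictBC_iff φ hφ hgen Q' _).mp (hP' z)
    have hρ'G : ptHom φ Q' hQ' (hratΩ Q') G = 0 :=
      (ptHom_eq_zero_iff φ hφ hgen Q' hQ' (hratΩ Q') G).mpr hGc
    rw [hGval _ (ptHom_algebraMap φ hφ Q' hQ' (hratΩ Q'))] at hρ'G
    have hmem : ptHom φ Q' hQ' (hratΩ Q') x ∈ (minpoly K₁ ξ).rootSet Ω := by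
      rw [mem_rootSet_of_ne (minpoly.ne_zero hint)]
      exact hρ'G
    obtain ⟨τ, hτ⟩ := hroots _ hmem
    obtain ⟨σ, hσ⟩ := exists_isCentred_conj_ptHom h𝒜 φ hφ hres hfin Q' hQ' (hratΩ Q')
    have hc := centreIdeal_eq_of_coord_conj φ hφ hgen hratΩ hϖ hnode hπ0 hinf hxy hr hres hfin
      Q Q' hQ hQ' hcen hσ τ hτ
    obtain ⟨z₁, hz₁, hz₁0, hloc₁⟩ := exists_local_generator_of_height_eq_one _ hh'
    exact hne (place_eq_of_centreIdeal_eq (restrictBC φ hφ hgen Q') hP' (restrictBC φ hφ hgen Q)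
      (inCell_restrictBC φ hφ hgen Q hQ) hc.symm hz₁ hz₁0 hloc₁)

end Key

end NodePt

end Fermat.Agent.MP
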