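import Mathlib
import Fermat.Agent.MP.NODEQ_helper1_Place

/-!
# Project MP40 — C3 [NODEQ] helper1, part 4: the factorisation at a node without rationality

`O` the local ring of the normal model at a node in normal form `x y = ϖ^m r`, `f ≠ 0` a function.
If (HENS) holds at the places of the cell of the node in the support of `f`, then
`f = ϖ^a · x^k · u · ∏_{P} G_P ^ (ord_P f)`, `u ∈ Oˣ`, the product over the places of the cell in
the support of `f` (`NodePt.exists_node_factorisationQ`); if moreover `p ∣ ord_P f` for all these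
places, `f = ϖ^a · x^k · u · G^p` (`NodePt.exists_node_pow_factorisationQ`).
No rationality of the support over the base field is needed.
-/

set_option autoImplicit false
set_option linter.unusedSectionVars false
set_option linter.style.haveILetI false

open AlgebraicCurve IsLocalRing Polynomial

namespace Fermat.Agent.MP

namespace NodePt

open Fermat.Agent.SS Fermat.Agent.JA Fermat.Agent.FF Fermat.Agent.MW.NAdic

section Ord

variable {K F : Type*} [Field K] [Field F] [Algebra K F]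

/-- the order of a finite product of integer powers. -/
theorem ord_prod_zpow (v : Place K F) {ι : Type*} (s : Finset ι) (f : ι → F) (ε : ι → ℤ)
    (hf : ∀ i ∈ s, f i ≠ 0) :
    v.ord (∏ i ∈ s, f i ^ ε i) = ∑ i ∈ s, ε i * v.ord (f i) := by
  classical
  induction s using Finset.induction_on with
  | empty => simp
  | insert a s ha ih =>
    rw [Finset.prod_insert ha, Finset.sum_insert ha]
    have h1 : f a ^ ε a ≠ 0 := zpow_ne_zero _ (hf a (Finset.mem_insert_self a s))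
    have h2 : ∏ i ∈ s, f i ^ ε i ≠ 0 := by
      rw [Finset.prod_ne_zero_iff]
      intro i hi
      exact zpow_ne_zero _ (hf i (Finset.mem_insert_of_mem hi))
    rw [v.ord_mul h1 h2, v.ord_zpow, ih fun i hi => hf i (Finset.mem_insert_of_mem hi)]

end Ord

section Fact

variable {R₁ : Type*} [CommRing R₁] [IsDomain R₁] [IsDiscreteValuationRing R₁]
  [Infinite (ResidueField R₁)]
  {K₁ : Type*} [Field K₁] [CharZero K₁] [Algebra R₁ K₁] [IsFractionRing R₁ K₁]
  {E : Type*} [Field E] [Algebra K₁ E] [Algebra R₁ E] [IsScalarTower R₁ K₁ E]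
  {O : Type*} [CommRing O] [IsDomain O] [IsLocalRing O] [IsNoetherianRing O]
  [IsIntegrallyClosed O] [Algebra R₁ O] [Algebra O E] [IsScalarTower R₁ O E] [IsFractionRing O E]
  {Ω : Type*} [Field Ω] [Algebra K₁ Ω] [Algebra R₁ Ω] [IsScalarTower R₁ K₁ Ω] [IsAlgClosed Ω]
  [Algebra.IsAlgebraic K₁ Ω]
  {𝒜 : ValuationSubring Ω}
  (h𝒜 : ∀ c : K₁, algebraMap K₁ Ω c ∈ 𝒜 ↔ c ∈ Set.range (algebraMap R₁ K₁))
  {EΩ : Type*} [Field EΩ] [Algebra Ω EΩ] [CharZero EΩ]
  (φ : E →+* EΩ) (hφ : ∀ a : K₁, φ (algebraMap K₁ E a) = algebraMap Ω EΩ (algebraMap K₁ Ω a))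
  (hgen : Subfield.closure (Set.range φ ∪ Set.range (algebraMap Ω EΩ)) = ⊤)
  (hratΩ : ∀ Q : Place Ω EΩ, IsRationalPlace Q)

variable {ϖ : R₁} (hϖ : Irreducible ϖ) {P0 Pinf : Ideal O} [hP0 : P0.IsPrime]
  [hPinf : Pinf.IsPrime] {x y r : O} {m : ℕ} (hnode : IsNodePair P0 Pinf x y)
  (hπ0 : algebraMap R₁ O ϖ ∈ P0) (hπinf : algebraMap R₁ O ϖ ∈ Pinf)
  (hinf : P0 ⊓ Pinf ≤ Ideal.span {algebraMap R₁ O ϖ})
  (hxy : x * y = algebraMap R₁ O ϖ ^ m * r) (hr : IsUnit r)
  (hres : ∀ z : O, ∃ a : R₁, z - algebraMap R₁ O a ∈ maximalIdeal O)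
  (hfin : EssFiniteType R₁ O)

include h𝒜 hϖ hφ hratΩ hnode hπ0 hπinf hinf hxy hr hres hfin in
/-- **the factorisation at a node without rationality**:
`f = ϖ^a · x^k · u · ∏_P G_P ^ (ord_P f)`. -/
theorem exists_node_factorisationQ (hm : 1 ≤ m) {f : E} (hf : f ≠ 0) (T : Finset (Place K₁ E))
    (hT : ∀ P ∈ T, InCell O P)
    (hfT : ∀ P : Place K₁ E, InCell O P → P.ord f ≠ 0 → P ∈ T)
    (hhens : ∀ P ∈ T, ∀ Q : Place Ω EΩ, restrictBC φ hφ hgen Q = P → ∀ σ : Ω ≃ₐ[K₁] Ω,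
      ∀ z ∈ P.toValuationSubring, ∀ c : Ω, HasValueAt Q (φ z) c → (c ∈ 𝒜 ↔ σ c ∈ 𝒜))
    (a : ℤ) (hfπ : IsUnitAtPrime Pinf (f * (algebraMap O E (algebraMap R₁ O ϖ) ^ a)⁻¹)) :
    ∃ (k : ℤ) (u : Oˣ) (Gf : Place K₁ E → E), (∀ P ∈ T, Gf P ≠ 0) ∧
      f = algebraMap O E (algebraMap R₁ O ϖ) ^ a * algebraMap O E x ^ k *
        algebraMap O E (u : O) * ∏ P ∈ T, Gf P ^ (P.ord f) := by
  classical
  -- the coordinate polynomials
  have hex : ∀ P : Place K₁ E, P ∈ T → ∃ G : O, G ∉ Pinf ∧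
      (∀ hP : InCell O P, (centreIdeal P hP).height = 1 → P.ord (algebraMap O E G) = 1) ∧
      ∀ (P' : Place K₁ E) (hP' : InCell O P'), (centreIdeal P' hP').height = 1 → P' ≠ P →
        P'.ord (algebraMap O E G) = 0 := by
    intro P hPT
    obtain ⟨Q, hQP⟩ := exists_restrictBC_eq φ hφ hgen P
    have hh := hhens P hPT Q hQP
    have hP := hT P hPT
    subst hQP
    have hQ : ∀ z : O, φ (algebraMap O E z) ∈ Q.toValuationSubring :=
      fun z => (mem_restrictBC_iff φ hφ hgen Q _).mp (hP z)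
    obtain ⟨G, hG1, hG2, hG3⟩ := exists_coordPoly h𝒜 φ hφ hgen hratΩ hϖ hnode hπ0 hπinf hinf hxy
      hr hres hfin Q hQ hh
    exact ⟨G, hG1, fun _ h1 => hG2 h1, hG3⟩
  choose! Gf hGf using hex
  have hϖO := pi_mem_of_node (hP0 := hP0) hπ0
  set π : O := algebraMap R₁ O ϖ with hπ
  have hπne : π ≠ 0 := algebraMap_ne_zero_of_irreducible K₁ E hϖ.ne_zero
  have hinj : Function.Injective (algebraMap O E) := IsFractionRing.injective O E
  have hπE : algebraMap O E π ≠ 0 := (map_ne_zero_iff _ hinj).mpr hπne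
  have hGf0 : ∀ P ∈ T, Gf P ≠ 0 := fun P hP h0 => (hGf P hP).1 (h0 ▸ Pinf.zero_mem)
  have hfac0 : ∀ P ∈ T, algebraMap O E (Gf P) ≠ 0 := fun P hP =>
    (map_ne_zero_iff _ hinj).mpr (hGf0 P hP)
  set Pr : E := ∏ P ∈ T, algebraMap O E (Gf P) ^ (P.ord f) with hPr
  have hPr0 : Pr ≠ 0 := Finset.prod_ne_zero_iff.mpr (fun P hP => zpow_ne_zero _ (hfac0 P hP))
  set G : E := f * Pr⁻¹ * (algebraMap O E π ^ a)⁻¹ with hG
  have hG0 : G ≠ 0 :=
    mul_ne_zero (mul_ne_zero hf (inv_ne_zero hPr0)) (inv_ne_zero (zpow_ne_zero _ hπE))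
  have hGunit : ∀ 𝔮 : Ideal O, 𝔮.IsPrime → 𝔮.height = 1 → 𝔮 ≠ P0 → IsUnitAtPrime 𝔮 G := by
    intro 𝔮 h𝔮 hh hne0
    by_cases hπ𝔮 : π ∈ 𝔮
    · have hq : 𝔮 = Pinf :=
        (hnode.eq_or_eq_of_mem_of_height_one hπ0 hπinf hinf hπne hxy hm 𝔮 hh hπ𝔮).resolve_left hne0
      subst hq
      have h1 : IsUnitAtPrime 𝔮 Pr :=
        isUnitAtPrime_prod T _ (fun P hP => (isUnitAtPrime_algebraMap (hGf P hP).1).zpow _)
      have : G = (f * (algebraMap O E π ^ a)⁻¹) * Pr⁻¹ := by rw [hG]; ring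
      rw [this]
      exact hfπ.mul h1.inv
    · refine isUnitAtPrime_of_forall_place (K₁ := K₁) hϖ 𝔮 hh hπ𝔮 hG0
        (fun (P' : Place K₁ E) hO hc => ?_)
      have hπP' : P'.ord (algebraMap O E π) = 0 :=
        ord_eq_zero_of_not_mem_centreIdeal P' hO (by rw [hc]; exact hπ𝔮)
      have hh' : (centreIdeal P' hO).height = 1 := by rw [hc]; exact hh
      have hordPr : P'.ord Pr = P'.ord f := by
        rw [hPr, ord_prod_zpow P' T _ _ hfac0]
        by_cases hPT : P' ∈ T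
        · rw [Finset.sum_eq_single_of_mem P' hPT]
          · rw [(hGf P' hPT).2.1 hO hh', mul_one]
          · intro P hP hne
            rw [(hGf P hP).2.2 P' hO hh' hne.symm, mul_zero]
        · have hord0 : P'.ord f = 0 := by
            by_contra hne
            exact hPT (hfT P' hO hne)
          rw [hord0]
          refine Finset.sum_eq_zero (fun P hP => ?_)
          have hne : P' ≠ P := fun h => hPT (h ▸ hP)
          rw [(hGf P hP).2.2 P' hO hh' hne, mul_zero]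
      rw [hG, P'.ord_mul (mul_ne_zero hf (inv_ne_zero hPr0)) (inv_ne_zero (zpow_ne_zero _ hπE)),
        P'.ord_mul hf (inv_ne_zero hPr0), Place.ord_inv, Place.ord_inv, Place.ord_zpow, hπP',
        hordPr]
      ring
  obtain ⟨k, u, hku⟩ := hnode.exists_zpow_mul_unit hπ0 hinf hxy hr hm hG0 hGunit
  refine ⟨k, u, fun P => algebraMap O E (Gf P), hfac0, ?_⟩
  have h1 : algebraMap O E π ^ a ≠ 0 := zpow_ne_zero _ hπE
  have h2 : f = G * Pr * algebraMap O E π ^ a := by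
    rw [hG]; field_simp
  calc f = G * Pr * algebraMap O E π ^ a := h2
    _ = algebraMap O E x ^ k * algebraMap O E (u : O) * Pr * algebraMap O E π ^ a := by rw [hku]
    _ = _ := by ring

end Fact

end NodePt

end Fermat.Agent.MP
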