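import Mathlib
import Fermat.Agent.MP.NODEQ_helper1_Fact
import Fermat.Agent.MW.NADIC_helper6_Fac

/-!
# Project MP40 — C3 [NODEQ] helper1, part 5: the factorisation at a node of a chart, without
rationality

The chart form of `NodePt.exists_node_factorisationQ`: `B` a normal noetherian chart of finite type
over the base ring `R₁`, `𝔪` a closed point with residue field that of `R₁` at which the two sheets
`𝔭inf`, `𝔭0` cross, `X` a node coordinate in normal form.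
-/

set_option autoImplicit false
set_option linter.unusedSectionVars false
set_option linter.style.haveILetI false

open AlgebraicCurve IsLocalRing Polynomial

namespace Fermat.Agent.MP

namespace NodePt

open Fermat.Agent.SS Fermat.Agent.JA Fermat.Agent.FF Fermat.Agent.MW.NAdic

section Loc

variable {R₁ : Type*} [CommRing R₁] {B : Type*} [CommRing B] [Algebra R₁ B]

/-- the localisation of an algebra of finite type is essentially of finite type. -/
theorem essFiniteType_localization (hfin : Algebra.FiniteType R₁ B) (𝔪 : Ideal B) [𝔪.IsPrime] :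
    EssFiniteType R₁ (Localization.AtPrime 𝔪) := by
  classical
  obtain ⟨S, hS⟩ := hfin.out
  refine ⟨S.image (algebraMap B (Localization.AtPrime 𝔪)), fun z => ?_⟩
  have hmem : ∀ b : B, algebraMap B (Localization.AtPrime 𝔪) b ∈
      Algebra.adjoin R₁ ((S.image (algebraMap B (Localization.AtPrime 𝔪)) : Finset _) :
        Set (Localization.AtPrime 𝔪)) := by
    intro b
    have hb : b ∈ Algebra.adjoin R₁ (S : Set B) := by rw [hS]; exact Algebra.mem_top
    have h1 : (IsScalarTower.toAlgHom R₁ B (Localization.AtPrime 𝔪)) b ∈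
        (Algebra.adjoin R₁ (S : Set B)).map (IsScalarTower.toAlgHom R₁ B (Localization.AtPrime 𝔪)) :=
      ⟨b, hb, rfl⟩
    rw [AlgHom.map_adjoin] at h1
    rw [Finset.coe_image]
    exact h1
  obtain ⟨b, s, rfl⟩ := IsLocalization.exists_mk'_eq 𝔪.primeCompl z
  exact ⟨_, hmem b, _, hmem s, IsLocalization.map_units _ s, IsLocalization.mk'_spec _ b s⟩

/-- the residue field of the localisation at a closed point with residue field that of the base. -/
theorem exists_sub_mem_maximalIdeal_localization [IsLocalRing R₁] (𝔪 : Ideal B) [h𝔪 : 𝔪.IsPrime]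
    (hloc : ∀ a ∈ maximalIdeal R₁, algebraMap R₁ B a ∈ 𝔪)
    (hresB : ∀ b : B, ∃ a : R₁, b - algebraMap R₁ B a ∈ 𝔪) (z : Localization.AtPrime 𝔪) :
    ∃ a : R₁, z - algebraMap R₁ (Localization.AtPrime 𝔪) a ∈
      maximalIdeal (Localization.AtPrime 𝔪) := by
  obtain ⟨b, s, rfl⟩ := IsLocalization.exists_mk'_eq 𝔪.primeCompl z
  obtain ⟨ab, hab⟩ := hresB b
  obtain ⟨as, has⟩ := hresB (s : B)
  have hu : IsUnit as := by
    by_contra hnu
    have h1 : algebraMap R₁ B as ∈ 𝔪 := hloc as ((mem_maximalIdeal as).mpr hnu)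
    have h2 : (s : B) ∈ 𝔪 := by
      have := 𝔪.add_mem has h1
      rwa [sub_add_cancel] at this
    exact s.2 h2
  obtain ⟨u, rfl⟩ := hu
  refine ⟨ab * ((u⁻¹ : R₁ˣ) : R₁), ?_⟩
  set O := Localization.AtPrime 𝔪
  have hs' : IsUnit (algebraMap B O (s : B)) := IsLocalization.map_units _ s
  have hmemO : ∀ c : B, c ∈ 𝔪 → algebraMap B O c ∈ maximalIdeal O := fun c hc =>
    (IsLocalization.AtPrime.to_map_mem_maximal_iff O 𝔪 c).mpr hc
  have hspec : IsLocalization.mk' O b s * algebraMap B O (s : B) = algebraMap B O b :=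
    IsLocalization.mk'_spec O b s
  have hR : ∀ a : R₁, algebraMap R₁ O a = algebraMap B O (algebraMap R₁ B a) :=
    fun a => IsScalarTower.algebraMap_apply R₁ B O a
  have key : (IsLocalization.mk' O b s - algebraMap R₁ O (ab * ((u⁻¹ : R₁ˣ) : R₁))) *
      algebraMap B O (s : B) =
      algebraMap B O (b - algebraMap R₁ B ab) -
        algebraMap R₁ O (ab * ((u⁻¹ : R₁ˣ) : R₁)) *
          algebraMap B O ((s : B) - algebraMap R₁ B (u : R₁)) := by
    have h3 : algebraMap R₁ O (ab * ((u⁻¹ : R₁ˣ) : R₁)) * algebraMap R₁ O (u : R₁) =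
        algebraMap R₁ O ab := by
      rw [← map_mul, mul_assoc, Units.inv_mul, mul_one]
    rw [sub_mul, hspec, map_sub, map_sub, ← hR, ← hR, mul_sub, h3]
    ring
  have h4 : (IsLocalization.mk' O b s - algebraMap R₁ O (ab * ((u⁻¹ : R₁ˣ) : R₁))) *
      algebraMap B O (s : B) ∈ maximalIdeal O := by
    rw [key]
    exact Ideal.sub_mem _ (hmemO _ hab) (Ideal.mul_mem_left _ _ (hmemO _ has))
  rcases (Ideal.IsPrime.mem_or_mem inferInstance h4) with h5 | h5
  · exact h5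
  · exact absurd hs' ((mem_maximalIdeal _).mp h5)

end Loc

section ChartFact

attribute [local instance] locAlgebra

variable {R₁ : Type*} [CommRing R₁] [IsDomain R₁] [IsDiscreteValuationRing R₁]
  [Infinite (ResidueField R₁)]
  {K₁ : Type*} [Field K₁] [CharZero K₁] [Algebra R₁ K₁] [IsFractionRing R₁ K₁]
  {E : Type*} [Field E] [Algebra K₁ E] [Algebra R₁ E] [IsScalarTower R₁ K₁ E]
  {B : Type*} [CommRing B] [IsDomain B] [IsNoetherianRing B] [IsIntegrallyClosed B]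
  [Algebra R₁ B] [Algebra B E] [IsScalarTower R₁ B E] [IsFractionRing B E]
  {Ω : Type*} [Field Ω] [Algebra K₁ Ω] [Algebra R₁ Ω] [IsScalarTower R₁ K₁ Ω] [IsAlgClosed Ω]
  [Algebra.IsAlgebraic K₁ Ω]
  {𝒜 : ValuationSubring Ω}
  (h𝒜 : ∀ c : K₁, algebraMap K₁ Ω c ∈ 𝒜 ↔ c ∈ Set.range (algebraMap R₁ K₁))
  {EΩ : Type*} [Field EΩ] [Algebra Ω EΩ] [CharZero EΩ]
  (φ : E →+* EΩ) (hφ : ∀ a : K₁, φ (algebraMap K₁ E a) = algebraMap Ω EΩ (algebraMap K₁ Ω a))
  (hgen : Subfield.closure (Set.range φ ∪ Set.range (algebraMap Ω EΩ)) = ⊤)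
  (hratΩ : ∀ Q : Place Ω EΩ, IsRationalPlace Q)

include h𝒜 hratΩ in
/-- **the factorisation at a node of a chart, without rationality.** -/
theorem chart_node_factorisationQ {π : R₁} (hπ : Irreducible π)
    (𝔪 : Ideal B) [h𝔪 : 𝔪.IsMaximal] {𝔭inf 𝔭0 : Ideal B} [h𝔭inf : 𝔭inf.IsPrime]
    [h𝔭0 : 𝔭0.IsPrime]
    (hπinf : algebraMap R₁ B π ∈ 𝔭inf) (hπ0 : algebraMap R₁ B π ∈ 𝔭0)
    (hinf : 𝔭inf ⊓ 𝔭0 ≤ Ideal.span {algebraMap R₁ B π})
    (hleinf : 𝔭inf ≤ 𝔪) (hle0 : 𝔭0 ≤ 𝔪)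
    {x y r : Localization.AtPrime 𝔪} {m : ℕ}
    (hnode : IsNodePair (𝔭0.map (algebraMap B (Localization.AtPrime 𝔪)))
      (𝔭inf.map (algebraMap B (Localization.AtPrime 𝔪))) x y)
    (hxy : x * y = algebraMap R₁ (Localization.AtPrime 𝔪) π ^ m * r) (hr : IsUnit r)
    (hm : 1 ≤ m) {X : E} (hX : algebraMap (Localization.AtPrime 𝔪) E x = X)
    (hfinB : Algebra.FiniteType R₁ B) (hresB : ∀ b : B, ∃ a : R₁, b - algebraMap R₁ B a ∈ 𝔪)
    {f : E} (hf : f ≠ 0) (T : Finset (Place K₁ E)) (hT : ∀ P ∈ T, CentredAt 𝔪 P)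
    (hfT : ∀ P : Place K₁ E, CentredAt 𝔪 P → P.ord f ≠ 0 → P ∈ T)
    (hhens : ∀ P ∈ T, ∀ Q : Place Ω EΩ, restrictBC φ hφ hgen Q = P → ∀ σ : Ω ≃ₐ[K₁] Ω,
      ∀ z ∈ P.toValuationSubring, ∀ c : Ω, HasValueAt Q (φ z) c → (c ∈ 𝒜 ↔ σ c ∈ 𝒜))
    (ainf : ℤ) (hfinf : IsUnitAtPrime 𝔭inf (f * (algebraMap R₁ E π ^ ainf)⁻¹)) :
    ∃ (k : ℤ) (u : E) (r' s' : B) (Gf : Place K₁ E → E), (∀ P ∈ T, Gf P ≠ 0) ∧
      r' ∉ 𝔪 ∧ s' ∉ 𝔪 ∧ u * algebraMap B E s' = algebraMap B E r' ∧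
      f = algebraMap R₁ E π ^ ainf * X ^ k * u * ∏ P ∈ T, Gf P ^ (P.ord f) := by
  haveI h𝔪p : 𝔪.IsPrime := h𝔪.isPrime
  have hS : 𝔪.primeCompl ≤ nonZeroDivisors B := by
    intro s hs
    exact mem_nonZeroDivisors_of_ne_zero (fun h0 => hs (h0 ▸ 𝔪.zero_mem))
  haveI : IsIntegrallyClosed (Localization.AtPrime 𝔪) :=
    isIntegrallyClosed_of_isLocalization (Localization.AtPrime 𝔪) 𝔪.primeCompl hS
  haveI : IsNoetherianRing (Localization.AtPrime 𝔪) :=
    IsLocalization.isNoetherianRing 𝔪.primeCompl (Localization.AtPrime 𝔪) inferInstance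
  haveI := locAlgebra_isScalarTower (E := E) 𝔪
  haveI := locAlgebra_isScalarTower_base (R₁ := R₁) (E := E) 𝔪
  haveI := locAlgebra_isFractionRing (E := E) 𝔪
  haveI hP0 : (𝔭0.map (algebraMap B (Localization.AtPrime 𝔪))).IsPrime :=
    map_isPrime_of_le 𝔪 𝔭0 hle0
  haveI hPinf : (𝔭inf.map (algebraMap B (Localization.AtPrime 𝔪))).IsPrime :=
    map_isPrime_of_le 𝔪 𝔭inf hleinf
  have hπO : algebraMap B (Localization.AtPrime 𝔪) (algebraMap R₁ B π) =
      algebraMap R₁ (Localization.AtPrime 𝔪) π :=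
    (IsScalarTower.algebraMap_apply R₁ B (Localization.AtPrime 𝔪) π).symm
  have hπ0' : algebraMap R₁ (Localization.AtPrime 𝔪) π ∈
      𝔭0.map (algebraMap B (Localization.AtPrime 𝔪)) := by
    rw [← hπO]; exact Ideal.mem_map_of_mem _ hπ0
  have hπinf' : algebraMap R₁ (Localization.AtPrime 𝔪) π ∈
      𝔭inf.map (algebraMap B (Localization.AtPrime 𝔪)) := by
    rw [← hπO]; exact Ideal.mem_map_of_mem _ hπinf
  have hinf' : 𝔭0.map (algebraMap B (Localization.AtPrime 𝔪)) ⊓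
      𝔭inf.map (algebraMap B (Localization.AtPrime 𝔪)) ≤
      Ideal.span {algebraMap R₁ (Localization.AtPrime 𝔪) π} := by
    rw [← hπO]
    exact map_inf_map_le_span (R := Localization.AtPrime 𝔪) 𝔪 hinf
  have hcell : ∀ P : Place K₁ E, CentredAt 𝔪 P → InCell (Localization.AtPrime 𝔪) P :=
    fun P hP => (through_localization_iff 𝔪 P).mpr hP
  have hcell' : ∀ P : Place K₁ E, InCell (Localization.AtPrime 𝔪) P → CentredAt 𝔪 P :=
    fun P hP => (through_localization_iff 𝔪 P).mp hP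
  have hπE : algebraMap (Localization.AtPrime 𝔪) E (algebraMap R₁ (Localization.AtPrime 𝔪) π) =
      algebraMap R₁ E π := (IsScalarTower.algebraMap_apply R₁ (Localization.AtPrime 𝔪) E π).symm
  have hfinf' : IsUnitAtPrime (𝔭inf.map (algebraMap B (Localization.AtPrime 𝔪)))
      (f * (algebraMap (Localization.AtPrime 𝔪) E
        (algebraMap R₁ (Localization.AtPrime 𝔪) π) ^ ainf)⁻¹) := by
    rw [hπE]
    exact isUnitAtPrime_map_of_le (R := Localization.AtPrime 𝔪) 𝔪 𝔭inf hleinf hfinf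
  have hT' : ∀ P ∈ T, InCell (Localization.AtPrime 𝔪) P := fun P hP => hcell P (hT P hP)
  have hfT' : ∀ P : Place K₁ E, InCell (Localization.AtPrime 𝔪) P → P.ord f ≠ 0 → P ∈ T :=
    fun P hP hne => hfT P (hcell' P hP) hne
  have hloc : ∀ a ∈ maximalIdeal R₁, algebraMap R₁ B a ∈ 𝔪 := by
    intro a ha
    rw [hπ.maximalIdeal_eq, Ideal.mem_span_singleton'] at ha
    obtain ⟨c, rfl⟩ := ha
    rw [map_mul]
    exact 𝔪.mul_mem_left _ (hleinf hπinf)
  have hres := exists_sub_mem_maximalIdeal_localization 𝔪 hloc hresB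
  have hfin := essFiniteType_localization hfinB 𝔪
  obtain ⟨k, u, Gf, hGf, hfac⟩ := exists_node_factorisationQ h𝒜 φ hφ hgen hratΩ hπ hnode hπ0'
    hπinf' hinf' hxy hr hres hfin hm hf T hT' hfT' hhens ainf hfinf'
  obtain ⟨r', s', hr', hs', hrs'⟩ := exists_frac_of_unit (E := E) 𝔪 u
  refine ⟨k, algebraMap (Localization.AtPrime 𝔪) E (u : Localization.AtPrime 𝔪), r', s', Gf, hGf,
    hr', hs', hrs', ?_⟩
  rw [hπE, hX] at hfac
  exact hfac

end ChartFact

end NodePt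

end Fermat.Agent.MP
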