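import Mathlib
import Fermat.Agent.MP.NODEQ_helper1_Chart
import Fermat.Agent.MP.PLHOST_helper9_Defs
import Fermat.Agent.SS.VERT_helper4_Closed

/-!
# Project MP40 — C3 [NODEQ] helper1, part 6: the factorisation at a node of a semistable model,
without rationality of the support

`SSModel.node_factorisationQ` : on the model of a semistable level, at a node `𝔪` of the chart `j`
with a node coordinate `X` in normal form: a function `g ≠ 0` all of whose orders at the places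
centred at `𝔪` are divisible by `p`, and such that (HENS) holds at the places of its support centred
at `𝔪`, is `g = c · X ^ k · v · G ^ p` with `c` a non-zero constant, `v` a unit of the local ring of
the model at the node, `G ≠ 0` (`IsNodeFact`, the node clause of helper9's `PLFact`).

(HENS) at `P`: for one (every) geometric point `Q` above `P`, the `𝒜`-integrality of the values at
`Q` of the functions regular at `P` is invariant under `Aut(Ω / K₁)`. It holds when the base is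
henselian, or when the values lie in a Galois base `K₁' ⊇ K₁` with `Gal(K₁'/K₁)` inside the
decomposition group of `𝒜`.
-/

set_option autoImplicit false
set_option linter.unusedSectionVars false
set_option linter.style.haveILetI false

open AlgebraicCurve IsLocalRing Polynomial

namespace Fermat.Agent.MP

open Fermat.Agent.SS Fermat.Agent.JA Fermat.Agent.FF Fermat.Agent.MW.NAdic Fermat.Agent.NP
  Fermat.Agent.MP.NodePt

section Model

variable {R : Type*} [CommRing R] [IsDomain R] [IsDiscreteValuationRing R] [CharZero R]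
  {K₁ : Type*} [Field K₁] [Algebra R K₁] [IsFractionRing R K₁]
  {KM : Type*} [Field KM] [Algebra K₁ KM] [Algebra R KM] [IsScalarTower R K₁ KM]
  {EM : Type*} [Field EM] [Algebra KM EM] [Algebra K₁ EM] [IsScalarTower K₁ KM EM] [Algebra R EM]
  [IsScalarTower R KM EM]
  {KN : Type*} [Field KN] [Algebra K₁ KN] [Algebra R KN] [IsScalarTower R K₁ KN]
  {EN : Type*} [Field EN] [Algebra KN EN] [Algebra K₁ EN] [IsScalarTower K₁ KN EN] [Algebra R EN]
  [IsScalarTower R KN EN] [FiniteDimensional KN EN]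
  {π : R} {q n : ℕ} {S : Finset R} {t : KM} {jM : EM} {j : KN} {A B : EM →+* EN}
  {VM : ValuationSubring EM} {Winf W0 : ValuationSubring EN}

/-- **[NODEQ]: the factorisation at a node of a semistable model, without rationality.** -/
theorem SSModel.node_factorisationQ [IsAlgClosed (IsLocalRing.ResidueField R)]
    [IsScalarTower R K₁ EN]
    (h : SSModel K₁ π q n S t jM j A B VM Winf W0) (hπ : Irreducible π)
    (𝔪 : Ideal ↥(chartOne R EN j)) [h𝔪 : 𝔪.IsMaximal]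
    (hinf : sheetIdeal j Winf h.two.chart_le_inf ≤ 𝔪)
    (h0 : sheetIdeal j W0 h.two.chart_le_zero ≤ 𝔪)
    {X : EN} {m : ℕ}
    (hX : haveI := h𝔪.isPrime; IsNodeCoord π (isFractionRing_chartOne (K₁ := K₁) j h.j_adjoin)
      (sheetIdeal j Winf h.two.chart_le_inf) (sheetIdeal j W0 h.two.chart_le_zero) 𝔪 X m)
    {Ω : Type*} [Field Ω] [Algebra K₁ Ω] [IsAlgClosed Ω] [Algebra.IsAlgebraic K₁ Ω]
    (𝒜 : ValuationSubring Ω)
    (h𝒜 : ∀ c : K₁, algebraMap K₁ Ω c ∈ 𝒜 ↔ c ∈ Set.range (algebraMap R K₁))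
    {EΩ : Type*} [Field EΩ] [Algebra Ω EΩ] [CharZero EΩ] [HasPrincipalDivisors Ω EΩ]
    (φ : EN →+* EΩ)
    (hφ : ∀ a : K₁, φ (algebraMap K₁ EN a) = algebraMap Ω EΩ (algebraMap K₁ Ω a))
    (hgen : Subfield.closure (Set.range φ ∪ Set.range (algebraMap Ω EΩ)) = ⊤)
    (hratΩ : ∀ Q : Place Ω EΩ, IsRationalPlace Q)
    {p : ℕ} {g : EN} (hg : g ≠ 0)
    (hord : ∀ P : Place K₁ EN, CentredAt 𝔪 P → (p : ℤ) ∣ P.ord g)
    (hhens : ∀ P : Place K₁ EN, CentredAt 𝔪 P → P.ord g ≠ 0 → ∀ Q : Place Ω EΩ,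
      restrictBC φ hφ hgen Q = P → ∀ σ : Ω ≃ₐ[K₁] Ω, ∀ z ∈ P.toValuationSubring, ∀ c : Ω,
        HasValueAt Q (φ z) c → (c ∈ 𝒜 ↔ σ c ∈ 𝒜))
    (ainf : ℤ) (hginf : g * (algebraMap R EN π ^ ainf)⁻¹ ∈ Winf)
    (hginf' : (g * (algebraMap R EN π ^ ainf)⁻¹)⁻¹ ∈ Winf) :
    haveI := h𝔪.isPrime
    ∃ (k : ℤ) (v G : EN), G ≠ 0 ∧ IsUnitIn (locSub (chartOne R EN j) 𝔪) v ∧
      g = algebraMap K₁ EN (algebraMap R K₁ π ^ ainf) * X ^ k * v * G ^ p := by
  classical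
  haveI h𝔪p : 𝔪.IsPrime := h𝔪.isPrime
  have hu := h.j_transcendental
  have hK := h.j_adjoin
  haveI : IsIntegrallyClosed ↥(chartOne R EN j) := isIntegrallyClosed_chartOne (K₁ := K₁) j hK
  haveI : IsNoetherianRing ↥(chartOne R EN j) := isNoetherianRing_chartOne (K₁ := K₁) j hu hK
  haveI : IsFractionRing ↥(chartOne R EN j) EN := isFractionRing_chartOne (K₁ := K₁) j hK
  haveI : CharZero K₁ := charZero_of_injective_algebraMap (IsFractionRing.injective R K₁)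
  letI : Algebra R Ω := ((algebraMap K₁ Ω).comp (algebraMap R K₁)).toAlgebra
  haveI : IsScalarTower R K₁ Ω := IsScalarTower.of_algebraMap_eq (fun _ => rfl)
  obtain ⟨x, y, r, hnode, hxy, hr, hm, hxX⟩ := hX
  have hπ0E : algebraMap R EN π ≠ 0 := algebraMap_pi_ne_zero (K₁ := K₁) (K := KN) hπ
  have hfinfU := isUnitAtPrime_sheetIdeal_of_isGaussAt hπ hu hK h.two.gauss_inf
    (mul_ne_zero hg (inv_ne_zero (zpow_ne_zero _ hπ0E))) hginf hginf'
  have hπ𝔪 : algebraMap R ↥(chartOne R EN j) π ∈ 𝔪 := hinf (h.two.pi_mem_inf (K₁ := K₁) hπ)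
  -- the support of `g` in the cell
  have hφg : φ g ≠ 0 := (_root_.map_ne_zero φ).mpr hg
  obtain ⟨D, hD, -⟩ := HasPrincipalDivisors.exists_divisor (K := Ω) (φ g) hφg
  set T : Finset (Place K₁ EN) :=
    (D.support.image (restrictBC φ hφ hgen)).filter (fun P => CentredAt 𝔪 P ∧ P.ord g ≠ 0) with hTdef
  have hT : ∀ P ∈ T, CentredAt 𝔪 P := fun P hP => (Finset.mem_filter.mp hP).2.1
  have hTord : ∀ P ∈ T, P.ord g ≠ 0 := fun P hP => (Finset.mem_filter.mp hP).2.2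
  have hfT : ∀ P : Place K₁ EN, CentredAt 𝔪 P → P.ord g ≠ 0 → P ∈ T := by
    intro P hP hne
    obtain ⟨Q, hQ⟩ := exists_restrictBC_eq φ hφ hgen P
    refine Finset.mem_filter.mpr ⟨Finset.mem_image.mpr ⟨Q, ?_, hQ⟩, hP, hne⟩
    rw [Finsupp.mem_support_iff, hD Q, ← ord_restrictBC φ hφ hgen Q, hQ]
    exact hne
  obtain ⟨k, u, r', s', Gf, hGf, hr', hs', hrs', hfac⟩ :=
    chart_node_factorisationQ (B := ↥(chartOne R EN j)) h𝒜 φ hφ hgen hratΩ hπ 𝔪
      (h.two.pi_mem_inf (K₁ := K₁) hπ) (h.two.pi_mem_zero (K₁ := K₁) hπ)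
      (h.two.inf_le_span hπ hu hK) hinf h0 hnode hxy hr hm hxX
      (finiteType_chartOne (R := R) (K₁ := K₁) (E := EN) j hu hK)
      (exists_sub_mem_of_isMaximal_chartOne hπ hu hK 𝔪 hπ𝔪)
      hg T hT hfT (fun P hP => hhens P (hT P hP) (hTord P hP)) ainf hfinfU
  -- the unit
  have hr'0 : algebraMap ↥(chartOne R EN j) EN r' ≠ 0 := by
    intro h0'
    apply hr'
    have : r' = 0 := (map_eq_zero_iff _ (IsFractionRing.injective ↥(chartOne R EN j) EN)).mp h0'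
    rw [this]; exact 𝔪.zero_mem
  have hs'0 : algebraMap ↥(chartOne R EN j) EN s' ≠ 0 := by
    intro h0'
    apply hs'
    have : s' = 0 := (map_eq_zero_iff _ (IsFractionRing.injective ↥(chartOne R EN j) EN)).mp h0'
    rw [this]; exact 𝔪.zero_mem
  have hu0 : u ≠ 0 := by
    rintro rfl
    rw [zero_mul] at hrs'
    exact hr'0 hrs'.symm
  have huU : IsUnitIn (locSub (chartOne R EN j) 𝔪) u := by
    refine ⟨⟨r', s', hs', hrs'⟩, ⟨s', r', hr', ?_⟩, hu0⟩
    have e1 : (algebraMap ↥(chartOne R EN j) EN r' : EN) = (r' : EN) := rfl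
    have e2 : (algebraMap ↥(chartOne R EN j) EN s' : EN) = (s' : EN) := rfl
    rw [← e1, ← e2, ← hrs']
    field_simp
  -- the `p`-th power
  set G : EN := ∏ P ∈ T, Gf P ^ (P.ord g / (p : ℤ)) with hGdef
  have hG0 : G ≠ 0 := Finset.prod_ne_zero_iff.mpr (fun P hP => zpow_ne_zero _ (hGf P hP))
  have hGp : G ^ p = ∏ P ∈ T, Gf P ^ (P.ord g) := by
    rw [hGdef, ← Finset.prod_pow]
    refine Finset.prod_congr rfl (fun P hP => ?_)
    rw [← zpow_natCast, ← zpow_mul, Int.ediv_mul_cancel (hord P (hT P hP))]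
  refine ⟨k, u, G, hG0, huU, ?_⟩
  rw [hGp, map_zpow₀, ← IsScalarTower.algebraMap_apply R K₁ EN]
  exact hfac

/-- **[NODEQ]**, in the currency of [PL-HOST] (`IsNodeFact`). -/
theorem SSModel.isNodeFact_of_hens [IsAlgClosed (IsLocalRing.ResidueField R)]
    [IsScalarTower R K₁ EN]
    (h : SSModel K₁ π q n S t jM j A B VM Winf W0) (hπ : Irreducible π)
    (𝔪 : Ideal ↥(chartOne R EN j)) [h𝔪 : 𝔪.IsMaximal]
    (hinf : sheetIdeal j Winf h.two.chart_le_inf ≤ 𝔪)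
    (h0 : sheetIdeal j W0 h.two.chart_le_zero ≤ 𝔪)
    {X : EN} {m : ℕ}
    (hX : haveI := h𝔪.isPrime; IsNodeCoord π (isFractionRing_chartOne (K₁ := K₁) j h.j_adjoin)
      (sheetIdeal j Winf h.two.chart_le_inf) (sheetIdeal j W0 h.two.chart_le_zero) 𝔪 X m)
    {Ω : Type*} [Field Ω] [Algebra K₁ Ω] [IsAlgClosed Ω] [Algebra.IsAlgebraic K₁ Ω]
    (𝒜 : ValuationSubring Ω)
    (h𝒜 : ∀ c : K₁, algebraMap K₁ Ω c ∈ 𝒜 ↔ c ∈ Set.range (algebraMap R K₁))
    {EΩ : Type*} [Field EΩ] [Algebra Ω EΩ] [CharZero EΩ] [HasPrincipalDivisors Ω EΩ]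
    (φ : EN →+* EΩ)
    (hφ : ∀ a : K₁, φ (algebraMap K₁ EN a) = algebraMap Ω EΩ (algebraMap K₁ Ω a))
    (hgen : Subfield.closure (Set.range φ ∪ Set.range (algebraMap Ω EΩ)) = ⊤)
    (hratΩ : ∀ Q : Place Ω EΩ, IsRationalPlace Q)
    {p : ℕ} {g : EN} (hg : g ≠ 0)
    (hord : ∀ P : Place K₁ EN, CentredAt 𝔪 P → (p : ℤ) ∣ P.ord g)
    (hhens : ∀ P : Place K₁ EN, CentredAt 𝔪 P → P.ord g ≠ 0 → ∀ Q : Place Ω EΩ,
      restrictBC φ hφ hgen Q = P → ∀ σ : Ω ≃ₐ[K₁] Ω, ∀ z ∈ P.toValuationSubring, ∀ c : Ω,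
        HasValueAt Q (φ z) c → (c ∈ 𝒜 ↔ σ c ∈ 𝒜))
    (ainf : ℤ) (hginf : g * (algebraMap R EN π ^ ainf)⁻¹ ∈ Winf)
    (hginf' : (g * (algebraMap R EN π ^ ainf)⁻¹)⁻¹ ∈ Winf) :
    haveI := h𝔪.isPrime
    ∃ k : ℤ, IsNodeFact K₁ (locSub (chartOne R EN j) 𝔪) p X g k := by
  haveI := h𝔪.isPrime
  obtain ⟨k, v, G, hG, hv, hfac⟩ := SSModel.node_factorisationQ h hπ 𝔪 hinf h0 hX 𝒜 h𝒜 φ hφ hgen
    hratΩ hg hord hhens ainf hginf hginf'
  refine ⟨k, algebraMap R K₁ π ^ ainf, v, G, ?_, hG, hv, hfac⟩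
  exact zpow_ne_zero _ ((map_ne_zero_iff _ (IsFractionRing.injective R K₁)).mpr hπ.ne_zero)

end Model

end Fermat.Agent.MP
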