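import Mathlib
import Fermat.Agent.MP.NODEQ_helper1_Main
import Fermat.Agent.JA.BCDEG_helper7
import Fermat.Agent.JA.BCD_helper9_Rational
import Fermat.Agent.NP.BASEP_helper2_Iface

/-!
# Project MP40 — C3 [NODEQ] helper1, part 7: the Legendre hosts

* `legInclQ` : the inclusion `E(K') → E(K₁)` of the Legendre hosts for `K' ≤ K₁`;
* `leg_hens_of_rat` : **(HENS) on the Legendre host over a small base `K'`**, from (h1)
  (`Gal(Ω/K')` preserves `A ∩ K₁`) and the rationality over `K₁` of the place;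
* `legE_isNodeFact_of_rat` : **[NODEQ] on the Legendre host over the small base `K' ≤ K₁`**: the
  function `f₀` of (KEY-PEU) (`p ∣` all orders over `K'`, support rational over `K₁`) is
  `c · X ^ k · v · G ^ p` at every node of the chart `j` (helper9's `IsNodeFact`).
-/

set_option autoImplicit false
set_option linter.unusedSectionVars false
set_option linter.style.haveILetI false

open HahnSeries IntermediateField AlgebraicCurve ModularCurve IsLocalRing

namespace Fermat.Agent.MP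

open Fermat.Agent.JA Fermat.Agent.FF Fermat.Agent.SS Fermat.Agent.S35 Fermat.Agent.NP
  Fermat.Agent.MW.NAdic

/-- `Ω = AlgebraicClosure ℚ`. -/
local notation "Ω" => AlgebraicClosure ℚ

/-- the absolute Galois group. -/
local notation "GQ" => (AlgebraicClosure ℚ ≃ₐ[ℚ] AlgebraicClosure ℚ)

section Incl

variable (N : ℕ) [NeZero N] {K' K₁ : IntermediateField ℚ Ω} (hle : K' ≤ K₁)

/-- the inclusion `E(K') → E(K₁)` of the Legendre hosts. -/
noncomputable def legInclQ : ↥(legE ↥K' N) →+* ↥(legE ↥K₁ N) :=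
  coeffHom (IntermediateField.inclusion hle : ↥K' →+* ↥K₁) (legE ↥K' N) (legE ↥K₁ N)
    (fun _ hx => coeffMap_mem_legE _ N hx)

theorem legBC_legInclQ (x : ↥(legE ↥K' N)) : legBC N K₁ (legInclQ N hle x) = legBC N K' x := by
  apply Subtype.ext
  rw [coe_legBC, coe_legBC, legInclQ, coe_coeffHom, coeffMap_coeffMap]
  rfl

end Incl

section Hens

variable (N : ℕ) [NeZero N] (A : ValuationSubring Ω) {K' K₁ : IntermediateField ℚ Ω}
  (hle : K' ≤ K₁)
  (h1 : ∀ σ : GQ, (∀ c ∈ K', σ c = c) → ∀ c ∈ K₁, (c ∈ A ↔ σ c ∈ A))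

include hle h1 in
/-- **(HENS) on the Legendre host over the small base**: at a geometric point whose restriction to
`E(K₁)` is rational, the `A`-integrality of the values of the functions of `E(K')` is invariant
under `Gal(Ω/K')`. -/
theorem leg_hens_of_rat {Q : Place Ω ↥(legE Ω N)}
    (hrat : IsRationalPlace (restrictBC (legBC N K₁) (legBC_algebraMap N K₁)
      (closure_range_legBC N K₁) Q))
    (σ : Ω ≃ₐ[↥K'] Ω) {z : ↥(legE ↥K' N)} {c : Ω} (hc : HasValueAt Q (legBC N K' z) c) :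
    c ∈ A ↔ σ c ∈ A := by
  have hmem : legInclQ N hle z ∈ (restrictBC (legBC N K₁) (legBC_algebraMap N K₁)
      (closure_range_legBC N K₁) Q).toValuationSubring := by
    rw [mem_restrictBC_iff, legBC_legInclQ]
    exact hc.mem
  obtain ⟨c₁, hc₁⟩ := hrat _ hmem
  have hv : HasValueAt (restrictBC (legBC N K₁) (legBC_algebraMap N K₁)
      (closure_range_legBC N K₁) Q) (legInclQ N hle z) c₁ := HasValueAt.iff_ord.mpr hc₁
  rw [hasValueAt_restrictBC_iff, legBC_legInclQ] at hv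
  have hcc : c = algebraMap ↥K₁ Ω c₁ := hc.unique hv
  have hfix : ∀ c' ∈ K', (σ.restrictScalars ℚ) c' = c' := by
    intro c' hc'
    exact σ.commutes ⟨c', hc'⟩
  have h2 := h1 (σ.restrictScalars ℚ) hfix (c₁ : Ω) c₁.2
  rw [hcc]
  exact h2

end Hens

section LegNode

variable {p : ℕ} (N : ℕ) [NeZero N] (A : ValuationSubring Ω) {K' K₁ : IntermediateField ℚ Ω}
  [IsDiscreteValuationRing ↥(baseRing A K')]
  [IsAlgClosed (ResidueField ↥(baseRing A K'))]
  {KM : Type*} [Field KM] [Algebra ↥K' KM] [Algebra ↥(baseRing A K') KM]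
  [IsScalarTower ↥(baseRing A K') ↥K' KM]
  {EM : Type*} [Field EM] [Algebra KM EM] [Algebra ↥K' EM] [IsScalarTower ↥K' KM EM]
  [Algebra ↥(baseRing A K') EM] [IsScalarTower ↥(baseRing A K') KM EM]
  {KN : Type*} [Field KN] [Algebra ↥K' KN] [Algebra ↥(baseRing A K') KN]
  [IsScalarTower ↥(baseRing A K') ↥K' KN]
  [Algebra KN ↥(legE ↥K' N)] [IsScalarTower ↥K' KN ↥(legE ↥K' N)]
  [IsScalarTower ↥(baseRing A K') KN ↥(legE ↥K' N)] [FiniteDimensional KN ↥(legE ↥K' N)]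
  {π : ↥(baseRing A K')} {q n : ℕ} {S : Finset ↥(baseRing A K')} {t : KM} {jM : EM} {j : KN}
  {A' B' : EM →+* ↥(legE ↥K' N)}
  {VM : ValuationSubring EM} {Winf W0 : ValuationSubring ↥(legE ↥K' N)}

/-- `A ∩ K' = baseRing A K'`, in the form used by [NODEQ]. -/
theorem algebraMap_mem_iff_mem_range_baseRing (c : ↥K') :
    algebraMap ↥K' Ω c ∈ A ↔ c ∈ Set.range (algebraMap ↥(baseRing A K') ↥K') := by
  constructor
  · intro h
    exact ⟨⟨c, h⟩, rfl⟩
  · rintro ⟨r, rfl⟩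
    exact r.2

/-- **[NODEQ] on the Legendre host over the small base `K' ≤ K₁`**. -/
theorem legE_isNodeFact_of_rat
    (h : SSModel ↥K' π q n S t jM j A' B' VM Winf W0) (hπ : Irreducible π)
    (hle : K' ≤ K₁)
    (h1 : ∀ σ : GQ, (∀ c ∈ K', σ c = c) → ∀ c ∈ K₁, (c ∈ A ↔ σ c ∈ A))
    (𝔪 : Ideal ↥(chartOne ↥(baseRing A K') ↥(legE ↥K' N) j)) [h𝔪 : 𝔪.IsMaximal]
    (hinf : sheetIdeal j Winf h.two.chart_le_inf ≤ 𝔪)
    (h0 : sheetIdeal j W0 h.two.chart_le_zero ≤ 𝔪)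
    {X : ↥(legE ↥K' N)} {m : ℕ}
    (hX : haveI := h𝔪.isPrime; IsNodeCoord π (isFractionRing_chartOne (K₁ := ↥K') j h.j_adjoin)
      (sheetIdeal j Winf h.two.chart_le_inf) (sheetIdeal j W0 h.two.chart_le_zero) 𝔪 X m)
    (f₀ : ↥(keyFq ↥K' N)) (hf₀ : f₀ ≠ 0)
    (hord : ∀ P : Place ↥K' ↥(legE ↥K' N), (p : ℤ) ∣ P.ord (fullToLegE ↥K' N f₀))
    (hrat : ∃ F₁ : ↥(keyFq ↥K₁ N), keyFqBC N K₁ F₁ = keyFqBC N K' f₀ ∧
      LegOrdCond K₁ N p (fullToLegE ↥K₁ N F₁))
    (ainf : ℤ)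
    (hginf : fullToLegE ↥K' N f₀ *
      (algebraMap ↥(baseRing A K') ↥(legE ↥K' N) π ^ ainf)⁻¹ ∈ Winf)
    (hginf' : (fullToLegE ↥K' N f₀ *
      (algebraMap ↥(baseRing A K') ↥(legE ↥K' N) π ^ ainf)⁻¹)⁻¹ ∈ Winf) :
    haveI := h𝔪.isPrime
    ∃ k : ℤ, IsNodeFact ↥K' (locSub (chartOne ↥(baseRing A K') ↥(legE ↥K' N) j) 𝔪) p X
      (fullToLegE ↥K' N f₀) k := by
  haveI := h𝔪.isPrime
  haveI : HasPrincipalDivisors Ω ↥(legE Ω N) := bcd_hasPrincipalDivisors_legE N
  obtain ⟨F₁, hF₁, hcond⟩ := hrat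
  have hg : fullToLegE ↥K' N f₀ ≠ 0 := (_root_.map_ne_zero _).mpr hf₀
  refine SSModel.isNodeFact_of_hens h hπ 𝔪 hinf h0 hX A
    (algebraMap_mem_iff_mem_range_baseRing A) (legBC N K') (legBC_algebraMap N K')
    (closure_range_legBC N K')
    (fun Q => isRationalPlace_of_deg_eq_one Q (up_deg_eq_one_legE N Q)) hg
    (fun P _ => hord P) ?_ ainf hginf hginf'
  intro P _ hPord Q hQP σ z _ c hc
  refine leg_hens_of_rat N A hle h1 ?_ σ hc
  -- the restriction of `Q` to `E(K₁)` is rational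
  have hordQ : (restrictBC (legBC N K₁) (legBC_algebraMap N K₁) (closure_range_legBC N K₁) Q).ord
      (fullToLegE ↥K₁ N F₁) ≠ 0 := by
    rw [ord_restrictBC, bcdeg_legBC_fullToLegE, hF₁, ← bcdeg_legBC_fullToLegE,
      ← ord_restrictBC (legBC N K') (legBC_algebraMap N K') (closure_range_legBC N K'), hQP]
    exact hPord
  rcases hcond _ with h' | h'
  · exact absurd h' hordQ
  · exact h'.1

end LegNode

end Fermat.Agent.MP
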