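import Mathlib
import Fermat.Agent.SS.FIELD_helper6_Unit
import Fermat.Agent.MW.NADIC_helper6_Kind

/-!
# Project MP40 — C4/C5 helper6, [LEG-UNIT]: the node unit of the Legendre host, explicitly

The `unit` field of `SSModelLeg` with the unit made explicit: the host image of the modular unit
`U = Δ(τ)/Δ(qτ)` (`modUnit K (M q) q`) is a `NodeUnit` of the two sheets `legWinf`, `legW0`, with
`c = 12 · e` where `q = u · π ^ e` in the base ring.

* `atkinLehnerN_modUnit_mem_gaussInt_of_eq` : the Atkin–Lehner transform of `U / π^(12 e)` and of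
  its inverse are Gauss-integral;
* `nodeUnit_legE_modUnit` : abstract sheets;
* `ssModelLeg_nodeUnit` : the sheets of `SSModelLeg`.
-/

set_option autoImplicit false
set_option linter.unusedSectionVars false
set_option linter.unusedVariables false
set_option linter.style.haveILetI false
set_option synthInstance.maxHeartbeats 200000

open Polynomial ModularCurve IntermediateField

namespace Fermat.Agent.MP

open Fermat.Agent.SS Fermat.Agent.JA Fermat.Agent.Igusa Fermat.Agent.X0N Fermat.Agent.MW.NAdic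

open scoped Fermat.Agent.JA.Host

section Val

variable (R : Type*) [CommRing R] [IsDomain R] [IsDiscreteValuationRing R]
variable {k : Type*} [Field k] [Algebra R k] [IsFractionRing R k] [Algebra ℚ k] (ι : k →+* ℂ)
variable {N ℓ : ℕ} [NeZero N] [NeZero ℓ] [NeZero (N * ℓ)] {x y : ℤ}
  (h : (ℓ : ℤ) * x + N * y = 1)

/-- **the modular unit on the second sheet**, explicit exponent: if `ℓ = u ϖ^e`, the Atkin–Lehner
transforms of `U / ϖ^(12 e)` and of its inverse are Gauss-integral. -/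
theorem atkinLehnerN_modUnit_mem_gaussInt_of_eq {ϖ : R} (hϖ : Irreducible ϖ) (hℓ : ℓ.Prime)
    {e : ℕ} {u : Rˣ} (hu : (ℓ : R) = u * ϖ ^ e) :
      ((atkinLehnerN ι h hℓ (modUnit k (N * ℓ) ℓ (Dvd.intro_left N rfl) *
          (algebraMap k _ (algebraMap R k ϖ ^ (12 * e)))⁻¹) :
          ↥(laurentBaseChange k (modularFunctionFieldFull (N * ℓ)))) : LaurentSeries k) ∈
        gaussInt R k ∧
      ((atkinLehnerN ι h hℓ (modUnit k (N * ℓ) ℓ (Dvd.intro_left N rfl) *
          (algebraMap k _ (algebraMap R k ϖ ^ (12 * e)))⁻¹)⁻¹ :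
          ↥(laurentBaseChange k (modularFunctionFieldFull (N * ℓ)))) : LaurentSeries k) ∈
        gaussInt R k := by
  haveI : CharZero k := algebraRat.charZero k
  have hinj : Function.Injective (algebraMap R k) := IsFractionRing.injective R k
  have hϖk : algebraMap R k ϖ ≠ 0 := (map_ne_zero_iff _ hinj).mpr hϖ.ne_zero
  have hℓk : (ℓ : k) = algebraMap R k u * algebraMap R k ϖ ^ e := by
    rw [← map_natCast (algebraMap R k), hu, map_mul, map_pow]
  -- the constants
  have hc1 : (ℓ : k) ^ 12 * (algebraMap R k ϖ ^ (12 * e))⁻¹ = algebraMap R k ((u : R) ^ 12) := by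
    rw [hℓk, map_pow, mul_pow, ← pow_mul, mul_comm e 12]
    field_simp
  have hc2 : ((ℓ : k) ^ 12 * (algebraMap R k ϖ ^ (12 * e))⁻¹)⁻¹ =
      algebraMap R k (((u⁻¹ : Rˣ) : R) ^ 12) := by
    rw [hc1, map_pow, map_pow, ← inv_pow]
    congr 1
    apply inv_eq_of_mul_eq_one_right
    rw [← map_mul, Units.mul_inv, map_one]
  refine ⟨?_, ?_⟩
  · rw [map_mul, map_inv₀, atkinLehnerN_algebraMap, atkinLehnerN_modUnit ι h hℓ]
    have e1 : algebraMap k ↥(laurentBaseChange k (modularFunctionFieldFull (N * ℓ))) ((ℓ : k) ^ 12) *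
        (modUnit k (N * ℓ) ℓ (Dvd.intro_left N rfl))⁻¹ *
        (algebraMap k _ (algebraMap R k ϖ ^ (12 * e)))⁻¹ =
        algebraMap k _ (algebraMap R k ((u : R) ^ 12)) *
          deltaRatio ℓ 1 k (N * ℓ) (Dvd.intro_left N rfl) (one_dvd _) := by
      rw [← hc1, map_mul, map_inv₀, modUnit, deltaRatio_inv]
      ring
    rw [e1, IntermediateField.coe_mul, coe_deltaRatio]
    refine (gaussInt R k).mul_mem ?_ (coeffEmb_deltaRatioSeries_mem_gaussInt R k ℓ 1)
    show algebraMap k (LaurentSeries k) (algebraMap R k ((u : R) ^ 12)) ∈ gaussInt R k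
    rw [algebraMap_laurentSeries_eq_single, ← HahnSeries.C_apply]
    exact C_algebraMap_mem_gaussInt _
  · rw [map_inv₀, map_mul, map_inv₀, atkinLehnerN_algebraMap, atkinLehnerN_modUnit ι h hℓ]
    have e1 : (algebraMap k ↥(laurentBaseChange k (modularFunctionFieldFull (N * ℓ)))
        ((ℓ : k) ^ 12) * (modUnit k (N * ℓ) ℓ (Dvd.intro_left N rfl))⁻¹ *
        (algebraMap k _ (algebraMap R k ϖ ^ (12 * e)))⁻¹)⁻¹ =
        algebraMap k _ (algebraMap R k (((u⁻¹ : Rˣ) : R) ^ 12)) *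
          deltaRatio 1 ℓ k (N * ℓ) (one_dvd _) (Dvd.intro_left N rfl) := by
      rw [← hc2, map_inv₀, map_mul, map_inv₀, modUnit]
      have hne : algebraMap k ↥(laurentBaseChange k (modularFunctionFieldFull (N * ℓ)))
          (algebraMap R k ϖ ^ (12 * e)) ≠ 0 :=
        (_root_.map_ne_zero _).mpr (pow_ne_zero _ hϖk)
      have hne2 : algebraMap k ↥(laurentBaseChange k (modularFunctionFieldFull (N * ℓ)))
          ((ℓ : k) ^ 12) ≠ 0 :=
        (_root_.map_ne_zero _).mpr (pow_ne_zero _ (Nat.cast_ne_zero.mpr (NeZero.ne ℓ)))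
      have hne3 := deltaRatio_ne_zero 1 ℓ k (N * ℓ) (one_dvd _) (Dvd.intro_left N rfl)
      field_simp
    rw [e1, IntermediateField.coe_mul, coe_deltaRatio]
    refine (gaussInt R k).mul_mem ?_ (coeffEmb_deltaRatioSeries_mem_gaussInt R k 1 ℓ)
    show algebraMap k (LaurentSeries k) (algebraMap R k (((u⁻¹ : Rˣ) : R) ^ 12)) ∈ gaussInt R k
    rw [algebraMap_laurentSeries_eq_single, ← HahnSeries.C_apply]
    exact C_algebraMap_mem_gaussInt _

end Val

section Host

variable {R : Type*} [CommRing R] [IsDomain R] [IsDiscreteValuationRing R]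
variable {K₁ : Type*} [Field K₁] [Algebra R K₁] [IsFractionRing R K₁] [Algebra ℚ K₁]
  (ι : K₁ →+* ℂ)
variable {M ℓ : ℕ} [NeZero M] [NeZero ℓ] [NeZero (M * ℓ)] {x y : ℤ}
  (h : (ℓ : ℤ) * x + M * y = 1)

/-- **the node unit of the Legendre host, explicitly** (abstract sheets). -/
theorem nodeUnit_legE_modUnit (L : Type*) [Field L] [Algebra ℚ L] [Algebra K₁ L]
    [IsScalarTower ℚ K₁ L]
    [Algebra.IsAlgebraic K₁ L] [IsAlgClosed L] [Algebra L ℂ] [IsScalarTower ℚ L ℂ]
    {ϖ : R} (hϖ : Irreducible ϖ) (hℓ : ℓ.Prime) {e : ℕ} {u : Rˣ} (he : 1 ≤ e)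
    (hu : (ℓ : R) = u * ϖ ^ e) [Algebra R ↥(legE K₁ (M * ℓ))]
    [IsScalarTower R K₁ ↥(legE K₁ (M * ℓ))]
    (Winf W0 : ValuationSubring ↥(legE K₁ (M * ℓ)))
    (hWinf : ∀ z : ↥(legE K₁ (M * ℓ)), (z : LaurentSeries K₁) ∈ gaussInt R K₁ → z ∈ Winf)
    (hW0 : ∀ f : ↥(keyFq K₁ (M * ℓ)),
      ((atkinLehnerN ι h hℓ f : ↥(keyFq K₁ (M * ℓ))) : LaurentSeries K₁) ∈ gaussInt R K₁ →
        fullToLegE K₁ (M * ℓ) f ∈ W0) :
    NodeUnit K₁ ϖ (legJE K₁ (M * ℓ))
      (fullToLegE K₁ (M * ℓ) (modUnit K₁ (M * ℓ) ℓ (Dvd.intro_left M rfl))) (12 * e) Winf W0 := by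
  set U := modUnit K₁ (M * ℓ) ℓ (Dvd.intro_left M rfl) with hU
  obtain ⟨h1, h2⟩ := atkinLehnerN_modUnit_mem_gaussInt_of_eq R ι h hϖ hℓ hu
  have hu0 : U ≠ 0 := deltaRatio_ne_zero 1 ℓ K₁ (M * ℓ) _ _
  have hπ : algebraMap R ↥(legE K₁ (M * ℓ)) ϖ ^ (12 * e) =
      fullToLegE K₁ (M * ℓ) (algebraMap K₁ _ (algebraMap R K₁ ϖ ^ (12 * e))) := by
    rw [AlgHom.commutes, map_pow, ← IsScalarTower.algebraMap_apply]
  refine ⟨(_root_.map_ne_zero _).mpr hu0, by omega, ?_, ?_, ?_, ?_, ?_, ?_⟩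
  · apply hWinf
    rw [coe_fullToLegE]
    exact (gaussHomQExpand R K₁ 2).map_mem_gaussInt
      (coeffEmb_deltaRatioSeries_mem_gaussInt R K₁ 1 ℓ)
  · apply hWinf
    rw [← map_inv₀, coe_fullToLegE, hU, modUnit, deltaRatio_inv]
    exact (gaussHomQExpand R K₁ 2).map_mem_gaussInt
      (coeffEmb_deltaRatioSeries_mem_gaussInt R K₁ ℓ 1)
  · rw [hπ, ← map_inv₀, ← map_mul]
    exact hW0 _ h1
  · rw [hπ, ← map_inv₀, ← map_mul, ← map_inv₀]
    exact hW0 _ h2
  · exact isIntegral_fullToLegE (M * ℓ)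
      (isIntegral_deltaRatio 1 ℓ L (one_dvd _) (Dvd.intro_left M rfl))
  · rw [← map_inv₀, hU, modUnit, deltaRatio_inv]
    exact isIntegral_fullToLegE (M * ℓ)
      (isIntegral_deltaRatio ℓ 1 L (Dvd.intro_left M rfl) (one_dvd _))

end Host

section Fields

variable (R : Type*) [CommRing R] [IsDomain R] [IsDiscreteValuationRing R] [CharZero R]
  (K : Type*) [Field K] [Algebra R K] [IsFractionRing R K] [Algebra ℚ K] [Algebra K ℂ]
  {M q : ℕ} [NeZero M] [NeZero q] [NeZero (M * q)] {x y : ℤ}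

/-- **the node unit of `SSModelLeg`, explicitly**: the host image of `Δ(τ)/Δ(qτ)`, with
`c = 12 e` for `q = u π^e`. -/
theorem ssModelLeg_nodeUnit {π : R} (hπ : Irreducible π) (h2 : IsUnit (2 : R))
    (h : (q : ℤ) * x + M * y = 1) (hq : q.Prime) {e : ℕ} {u : Rˣ} (he : 1 ≤ e)
    (hu : (q : R) = u * π ^ e) :
    NodeUnit K π ((legHostA K M q : ↥(legE K M) →+* ↥(legE K (M * q))) (legJE K M))
      (fullToLegE K (M * q) (modUnit K (M * q) q (Dvd.intro_left M rfl))) (12 * e)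
      (legWinf R K h2 (M * q)) (legW0 R K h hq) := by
  haveI : CharZero K := algebraRat.charZero K
  letI : Algebra (AlgebraicClosure K) ℂ :=
    ((IsAlgClosed.lift : AlgebraicClosure K →ₐ[K] ℂ) : AlgebraicClosure K →+* ℂ).toAlgebra
  haveI : IsScalarTower ℚ K (AlgebraicClosure K) :=
    IsScalarTower.of_algebraMap_eq fun r => by
      simp only [eq_ratCast, map_ratCast]
  haveI : IsScalarTower ℚ (AlgebraicClosure K) ℂ :=
    IsScalarTower.of_algebraMap_eq fun r => by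
      simp only [eq_ratCast, map_ratCast]
  rw [legHostA_legJE]
  exact nodeUnit_legE_modUnit (algebraMap K ℂ) h (AlgebraicClosure K) hπ hq he hu
    (legWinf R K h2 (M * q)) (legW0 R K h hq) (mem_legWinf_of_mem_gaussInt R K h2 (M * q))
    (legW0_mem_of_atkinLehnerN R K h hq)

end Fields

end Fermat.Agent.MP
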