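import Mathlib
import Fermat.Agent.SS.AUT_helper1_Gauss

/-!
# Project MP40 — C4 [PL-HOST] helper9: the coefficientwise action modulo `a`

`R` a discrete valuation ring, `L = Frac R`, `τ : L →+* L` inducing `τR` on `R` with
`τR r ≡ r mod a` for all `r` (`a` a non-unit).  Then `coeffMap τ x - x ∈ a · 𝒲` for every `x` of
the Gauss valuation ring `𝒲 = gaussInt R L` (`coeffMap_sub_mem_C_mul_gaussInt`), and the same on
every intermediate field `M ≤ gaussField R L` stable under the action
(`exists_map_sub_eq_mul_gaussValSub`).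
-/

set_option autoImplicit false
set_option linter.unusedSectionVars false
set_option linter.unusedVariables false
set_option linter.style.haveILetI false

open ModularCurve Fermat.Agent.Igusa

namespace Fermat.Agent.MP

open Fermat.Agent.SS

section Gauss

variable {R : Type*} [CommRing R] [IsDomain R] [IsDiscreteValuationRing R]
variable {L : Type*} [Field L] [Algebra R L] [IsFractionRing R L]

/-- a Laurent series all of whose coefficients are divisible by `a` is `a ·` a Laurent series. -/
theorem exists_eq_C_mul_of_forall_dvd {a : R} (f : LaurentSeries R)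
    (h : ∀ n, a ∣ f.coeff n) : ∃ g : LaurentSeries R, f = HahnSeries.C a * g := by
  classical
  choose c hc using h
  refine ⟨⟨fun n => if f.coeff n = 0 then 0 else c n, ?_⟩, ?_⟩
  · refine f.isPWO_support.mono fun n hn => ?_
    simp only [Function.mem_support, ne_eq, ite_eq_left_iff, not_forall] at hn
    exact hn.1
  · ext n
    rw [coeffV_C_mul]
    show f.coeff n = a * (if f.coeff n = 0 then 0 else c n)
    split_ifs with h0
    · rw [h0, mul_zero]
    · exact hc n

variable (τ : L →+* L) (τR : R →+* R)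
  (hτ : ∀ r : R, τ (algebraMap R L r) = algebraMap R L (τR r))
  (hres : ∀ r : R, τR r - r ∈ IsLocalRing.maximalIdeal R)

include hτ hres in
/-- **the coefficientwise action is the identity modulo `a` on the Gauss valuation ring.** -/
theorem coeffMap_sub_mem_C_mul_gaussInt {a : R} (ha : ∀ r : R, a ∣ τR r - r)
    {x : LaurentSeries L} (hx : x ∈ gaussInt R L) :
    ∃ y ∈ gaussInt R L, coeffMap τ x - x = HahnSeries.C (algebraMap R L a) * y := by
  obtain ⟨f, g, hg, h⟩ := hx
  obtain ⟨f₁, hf₁⟩ := exists_eq_C_mul_of_forall_dvd (a := a) (coeffMap τR f - f) (fun n => by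
    rw [HahnSeries.coeff_sub, coeffMap_coeff]
    exact ha _)
  obtain ⟨g₁, hg₁⟩ := exists_eq_C_mul_of_forall_dvd (a := a) (coeffMap τR g - g) (fun n => by
    rw [HahnSeries.coeff_sub, coeffMap_coeff]
    exact ha _)
  have hg' : red R (coeffMap τR g) ≠ 0 := by rwa [red_coeffMap_eq τR hres]
  have hgg : red R (g * coeffMap τR g) ≠ 0 := by
    rw [map_mul]
    exact mul_ne_zero hg hg'
  have h' : coeffMap τ x * emb R L (coeffMap τR g) = emb R L (coeffMap τR f) := by
    rw [← coeffMap_emb_eq τ τR hτ, ← coeffMap_emb_eq τ τR hτ, ← map_mul, h]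
  have hne : emb R L (g * coeffMap τR g) ≠ 0 := emb_ne_zero_of_red_ne_zero hgg
  refine ⟨emb R L (f₁ * g - f * g₁) / emb R L (g * coeffMap τR g),
    ⟨f₁ * g - f * g₁, g * coeffMap τR g, hgg, div_mul_cancel₀ _ hne⟩, ?_⟩
  have hCa : (HahnSeries.C (algebraMap R L a) : LaurentSeries L) = emb R L (HahnSeries.C a) :=
    (emb_C R L a).symm
  rw [eq_comm, mul_div_assoc', div_eq_iff hne, hCa, ← map_mul]
  have e1 : coeffMap τR f = f + HahnSeries.C a * f₁ := by rw [← hf₁]; ring
  have e2 : coeffMap τR g = g + HahnSeries.C a * g₁ := by rw [← hg₁]; ring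
  have e3 : HahnSeries.C a * (f₁ * g - f * g₁) = coeffMap τR f * g - f * coeffMap τR g := by
    rw [e1, e2]; ring
  rw [e3, map_sub, map_mul, map_mul, map_mul, ← h, ← h']
  ring

variable {M : IntermediateField L (LaurentSeries L)} {hM : M ≤ gaussField R L}
  (σ : ↥M →+* ↥M) (hσ : ∀ x : ↥M, ((σ x : ↥M) : LaurentSeries L) = coeffMap τ (x : LaurentSeries L))

include hτ hres hσ in
/-- **the induced endomorphism of `M` is the identity modulo `a` on the Gauss valuation subring.** -/
theorem exists_map_sub_eq_mul_gaussValSub {a : R} (ha0 : a ≠ 0) (ha : ∀ r : R, a ∣ τR r - r)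
    {x : ↥M} (hx : x ∈ gaussValSub R L M hM) :
    ∃ y ∈ gaussValSub R L M hM, σ x - x = algebraMap L ↥M (algebraMap R L a) * y := by
  rw [mem_gaussValSub_iff] at hx
  obtain ⟨y, hy, e⟩ := coeffMap_sub_mem_C_mul_gaussInt τ τR hτ hres ha hx
  have haL : algebraMap R L a ≠ 0 := by
    rw [Ne, map_eq_zero_iff _ (IsFractionRing.injective R L)]
    exact ha0
  have haM : algebraMap L ↥M (algebraMap R L a) ≠ 0 := by
    rw [Ne, map_eq_zero]
    exact haL
  have hcoe : ((algebraMap L ↥M (algebraMap R L a) : ↥M) : LaurentSeries L) =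
      HahnSeries.C (algebraMap R L a) := by
    rw [IntermediateField.coe_algebraMap_apply, algebraMap_laurentSeries_eq_single,
      HahnSeries.C_apply]
  refine ⟨(σ x - x) / algebraMap L ↥M (algebraMap R L a), ?_, ?_⟩
  · rw [mem_gaussValSub_iff]
    have h1 : (((σ x - x) / algebraMap L ↥M (algebraMap R L a) : ↥M) : LaurentSeries L) = y := by
      rw [IntermediateField.coe_div, AddSubgroupClass.coe_sub, hcoe, hσ, e]
      have hC : (HahnSeries.C (algebraMap R L a) : LaurentSeries L) ≠ 0 := by
        rw [← hcoe]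
        exact fun h0 => haM (Subtype.ext h0)
      field_simp
    rw [h1]
    exact hy
  · field_simp

end Gauss

end Fermat.Agent.MP
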