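import Mathlib
import Fermat.Agent.SS.HOSTINT_helper6_Main
import Fermat.Agent.MP.PLHOST_helper9_Coeff

/-!
# Project MP40 — C4 [PL-HOST] helper9: the Kronecker element of the Legendre coordinate modulo `p`

`legT L ∈ L⸨x⸩` has coefficients in `ℤ[1/2]`, hence `t(x^p) - t(x)^p ∈ p · R⸨x⸩` for every
discrete valuation ring `R` with `Frac R = L`, `2 ∈ Rˣ` (`legT_qExpand_sub_pow_eq`): divisible by
`p`, not only by the uniformizer.
-/

set_option autoImplicit false
set_option linter.unusedSectionVars false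
set_option linter.unusedVariables false
set_option linter.style.haveILetI false

open ModularCurve Fermat.Agent.Igusa

namespace Fermat.Agent.MP

open Fermat.Agent.SS Fermat.Agent.JA

section Frob

/-- over a ring of characteristic `p` with trivial Frobenius, `F(x^p) = F(x)^p`. -/
theorem qExpand_eq_pow_of_frobenius_eq_id {Z : Type*} [CommRing Z] (p : ℕ) [NeZero p]
    [ExpChar Z p] (hfr : ∀ z : Z, z ^ p = z) (F : LaurentSeries Z) :
    qExpand Z p F = F ^ p := by
  rw [laurent_pow_char p F]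
  congr 1
  ext n
  rw [coeffMap_coeff, frobenius_def, hfr]

end Frob

section Away

/-- an element of `ℤ[1/2]` which vanishes in `ZMod p` maps to a multiple of `p` in every ring. -/
theorem natCast_dvd_map_of_map_zmod_eq_zero {S : Type*} [CommRing S] (p : ℕ)
    (ρ : Localization.Away (2 : ℤ) →+* ZMod p) (ψ : Localization.Away (2 : ℤ) →+* S)
    {a : Localization.Away (2 : ℤ)} (ha : ρ a = 0) : (p : S) ∣ ψ a := by
  obtain ⟨⟨m, s⟩, hms⟩ := IsLocalization.surj (Submonoid.powers (2 : ℤ)) a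
  simp only at hms
  have hsu : IsUnit (algebraMap ℤ (Localization.Away (2 : ℤ)) (s : ℤ)) :=
    IsLocalization.map_units _ s
  have h1 : ρ (algebraMap ℤ (Localization.Away (2 : ℤ)) m) = 0 := by
    rw [← hms, map_mul, ha, zero_mul]
  have h2 : ((m : ℤ) : ZMod p) = 0 := by
    have : ρ (algebraMap ℤ (Localization.Away (2 : ℤ)) m) = ((m : ℤ) : ZMod p) := by
      rw [eq_intCast, map_intCast]
    rw [← this, h1]
  rw [ZMod.intCast_zmod_eq_zero_iff_dvd] at h2
  obtain ⟨m', rfl⟩ := h2
  have hψs : IsUnit (ψ (algebraMap ℤ (Localization.Away (2 : ℤ)) (s : ℤ))) := hsu.map ψ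
  obtain ⟨v, hv⟩ := hψs
  have h3 : ψ a * (v : S) = (p : S) * (m' : S) := by
    rw [hv, ← map_mul, hms, eq_intCast, map_intCast]
    push_cast
    ring
  refine ⟨(m' : S) * ((v⁻¹ : Sˣ) : S), ?_⟩
  calc ψ a = ψ a * (v : S) * ((v⁻¹ : Sˣ) : S) := by rw [mul_assoc, Units.mul_inv, mul_one]
    _ = (p : S) * ((m' : S) * ((v⁻¹ : Sˣ) : S)) := by rw [h3]; ring

end Away

section Main

variable (R : Type*) [CommRing R] [IsDomain R] [IsDiscreteValuationRing R]
variable (L : Type*) [Field L] [Algebra R L] [IsFractionRing R L] [Algebra ℚ L]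

/-- **the Kronecker element of the Legendre coordinate is divisible by `p`** (coefficientwise, over
`R`). -/
theorem legT_qExpand_sub_pow_eq (h2 : IsUnit (2 : R)) {p : ℕ} [NeZero p] (hp : p.Prime)
    (hp2 : p ≠ 2) :
    ∃ g : LaurentSeries R,
      qExpand L p (legT L) - legT L ^ p = HahnSeries.C ((p : ℕ) : L) * emb R L g := by
  classical
  haveI : Fact p.Prime := ⟨hp⟩
  have h2A : IsUnit (2 : Localization.Away (2 : ℤ)) := by
    have := IsLocalization.Away.algebraMap_isUnit (S := Localization.Away (2 : ℤ)) (2 : ℤ)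
    rwa [map_ofNat] at this
  have h2Q : IsUnit (Int.castRingHom ℚ (2 : ℤ)) := by
    rw [map_ofNat]; exact (two_ne_zero : (2 : ℚ) ≠ 0).isUnit
  have h2R : IsUnit (Int.castRingHom R (2 : ℤ)) := by
    rw [map_ofNat]; exact h2
  have h2Z : IsUnit (Int.castRingHom (ZMod p) (2 : ℤ)) := by
    rw [map_ofNat]
    have hcop : Nat.Coprime 2 p := (Nat.coprime_primes Nat.prime_two hp).2 (Ne.symm hp2)
    have := (ZMod.unitOfCoprime 2 hcop).isUnit
    rwa [ZMod.coe_unitOfCoprime, Nat.cast_ofNat] at this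
  set φ : Localization.Away (2 : ℤ) →+* ℚ :=
    IsLocalization.Away.lift (S := Localization.Away (2 : ℤ)) (2 : ℤ) (g := Int.castRingHom ℚ) h2Q
  set ψ : Localization.Away (2 : ℤ) →+* R :=
    IsLocalization.Away.lift (S := Localization.Away (2 : ℤ)) (2 : ℤ) (g := Int.castRingHom R) h2R
  set ρ : Localization.Away (2 : ℤ) →+* ZMod p :=
    IsLocalization.Away.lift (S := Localization.Away (2 : ℤ)) (2 : ℤ)
      (g := Int.castRingHom (ZMod p)) h2Z
  obtain ⟨F, hF, -⟩ := exists_legT₀_eq_coeffMap h2A φ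
  have hT : legT L = emb R L (coeffMap ψ F) := by
    rw [legT, hF]
    exact coeffMap_rat_eq_emb φ ψ (ringHom_away_int_ext (2 : ℤ) _ _) F
  set G : LaurentSeries (Localization.Away (2 : ℤ)) :=
    qExpand (Localization.Away (2 : ℤ)) p F - F ^ p with hG
  -- `G` vanishes modulo `p`
  have hρG : coeffMap ρ G = 0 := by
    rw [hG, map_sub, map_pow, coeffMap_qExpand,
      qExpand_eq_pow_of_frobenius_eq_id p (fun z => ZMod.pow_card z) (coeffMap ρ F), sub_self]
  obtain ⟨g, hg⟩ := exists_eq_C_mul_of_forall_dvd (a := ((p : ℕ) : R)) (coeffMap ψ G) (fun n => by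
    rw [coeffMap_coeff]
    refine natCast_dvd_map_of_map_zmod_eq_zero p ρ ψ ?_
    have := congrArg (fun x => HahnSeries.coeff x n) hρG
    simpa using this)
  refine ⟨g, ?_⟩
  have e1 : qExpand L p (legT L) - legT L ^ p = emb R L (coeffMap ψ G) := by
    rw [hT, hG, map_sub, map_sub, map_pow, map_pow, coeffMap_qExpand, emb, coeffMap_qExpand]
  rw [e1, hg, map_mul, emb_C, map_natCast]

end Main

end Fermat.Agent.MP
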