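import Mathlib

/-!
# Project MP40 — C4 [PL-HOST] helper9: the wild index of an automorphism of order `p` of a
discrete valuation ring

`R` a discrete valuation ring with uniformizer `ϖ`, residue characteristic `p`, perfect residue
field; `σ` a ring endomorphism of `R` which is the identity on the residue field, with `σ^p = id`
and `σ ≠ id`.  Then there is `i ≥ 2` with `σ ϖ = ϖ (1 + ω ϖ^(i-1))`, `ω ∈ Rˣ`, and
`σ r ≡ r mod ϖ^i` for all `r` (`exists_wild_index`).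
-/

set_option autoImplicit false
set_option linter.unusedSectionVars false
set_option linter.unusedVariables false
set_option linter.style.haveILetI false

namespace Fermat.Agent.MP

section Wild

variable {R : Type*} [CommRing R] [IsDomain R] [IsDiscreteValuationRing R]

/-- if `ϖ ^ I ∣ σ ϖ - ϖ`, `σ ≡ id mod ϖ` and the residue field is perfect of characteristic `p`,
then `σ ≡ id mod ϖ ^ n` for all `n ≤ I`. -/
theorem pow_dvd_map_sub_of_le {ϖ : R} {p : ℕ} (hp : p.Prime) (hpϖ : ϖ ∣ (p : R))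
    (hperf : ∀ r : R, ∃ b : R, ϖ ∣ r - b ^ p)
    (σ : R →+* R) (hres : ∀ r, ϖ ∣ σ r - r) {I : ℕ} (hI : ϖ ^ I ∣ σ ϖ - ϖ) :
    ∀ n ≤ I, ∀ r, ϖ ^ n ∣ σ r - r := by
  intro n
  induction n with
  | zero => intro _ r; rw [pow_zero]; exact one_dvd _
  | succ n ih =>
    intro hn r
    have ih' := ih (Nat.le_of_succ_le hn)
    obtain ⟨b, c, hc⟩ := hperf r
    have hr : r = b ^ p + ϖ * c := by rw [← hc]; ring
    have e : σ r - r = ((σ b) ^ p - b ^ p) + (σ ϖ - ϖ) * σ c + ϖ * (σ c - c) := by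
      rw [hr, map_add, map_mul, map_pow]
      ring
    rw [e]
    refine dvd_add (dvd_add ?_ ?_) ?_
    · -- `(σ b)^p - b^p = Σ · (σ b - b)`
      rw [← geom_sum₂_mul (σ b) b p, pow_succ']
      refine mul_dvd_mul ?_ (ih' b)
      rw [dvd_geom_sum₂_iff_of_dvd_sub (hres b)]
      exact Dvd.dvd.mul_right hpϖ _
    · exact Dvd.dvd.mul_right (dvd_trans (pow_dvd_pow ϖ hn) hI) _
    · rw [pow_succ']
      exact mul_dvd_mul_left _ (ih' c)

/-- **the wild index.** -/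
theorem exists_wild_index {ϖ : R} (hϖ : Irreducible ϖ) {p : ℕ} (hp : p.Prime)
    (hpϖ : ϖ ∣ (p : R)) (hperf : ∀ r : R, ∃ b : R, ϖ ∣ r - b ^ p)
    (σ : R →+* R) (hres : ∀ r, ϖ ∣ σ r - r) (hσp : ∀ r, (⇑σ)^[p] r = r)
    {r₀ : R} (hne : σ r₀ ≠ r₀) :
    ∃ (i : ℕ) (ω : Rˣ), 2 ≤ i ∧ σ ϖ = ϖ * (1 + ω * ϖ ^ (i - 1)) ∧ ∀ r, ϖ ^ i ∣ σ r - r := by
  haveI : Fact p.Prime := ⟨hp⟩
  -- `σ ϖ ≠ ϖ`
  have hϖne : σ ϖ - ϖ ≠ 0 := by
    intro h0
    have hall : ∀ n : ℕ, ϖ ^ n ∣ σ r₀ - r₀ := fun n =>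
      pow_dvd_map_sub_of_le hp hpϖ hperf σ hres (I := n) (by rw [h0]; exact dvd_zero _) n le_rfl r₀
    have hfin := FiniteMultiplicity.of_not_isUnit hϖ.not_isUnit (sub_ne_zero.2 hne)
    obtain ⟨N, hN⟩ := hfin
    exact hN (hall _)
  obtain ⟨I, w, hw⟩ := IsDiscreteValuationRing.eq_unit_mul_pow_irreducible hϖne hϖ
  have hI1 : 1 ≤ I := by
    rcases Nat.eq_zero_or_pos I with h0 | h0
    · exfalso
      rw [h0, pow_zero, mul_one] at hw
      have h1 := hres ϖ
      rw [hw] at h1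
      exact hϖ.not_isUnit (isUnit_of_dvd_unit h1 w.isUnit)
    · exact h0
  have hall : ∀ r, ϖ ^ I ∣ σ r - r :=
    pow_dvd_map_sub_of_le hp hpϖ hperf σ hres (I := I) (by rw [hw]; exact Dvd.intro_left _ rfl)
      I le_rfl
  have hσϖ : σ ϖ = ϖ * (1 + w * ϖ ^ (I - 1)) := by
    have h1 : σ ϖ = ϖ + w * ϖ ^ I := by rw [← hw]; ring
    have h2 : ϖ ^ I = ϖ * ϖ ^ (I - 1) := by
      rw [← pow_succ', Nat.sub_add_cancel hI1]
    rw [h1, h2]
    ring
  refine ⟨I, w, ?_, hσϖ, hall⟩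
  -- `I ≥ 2` : the norm argument
  by_contra hlt
  have hI : I = 1 := by omega
  rw [hI, Nat.sub_self, pow_zero, mul_one] at hσϖ
  set u : R := 1 + w with hu
  -- the quotient
  set k := R ⧸ Ideal.span {ϖ} with hk
  haveI : (Ideal.span {ϖ}).IsMaximal := by
    rw [← hϖ.maximalIdeal_eq]
    exact IsLocalRing.maximalIdeal.isMaximal R
  letI : Field k := Ideal.Quotient.field _
  haveI : CharP k p := by
    rw [CharP.charP_iff_prime_eq_zero hp]
    have : ((p : ℕ) : k) = Ideal.Quotient.mk (Ideal.span {ϖ}) (p : R) := (map_natCast _ p).symm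
    rw [this, Ideal.Quotient.eq_zero_iff_dvd]
    exact hpϖ
  set ρ : R →+* k := Ideal.Quotient.mk (Ideal.span {ϖ}) with hρ
  have hρσ : ∀ x, ρ (σ x) = ρ x := by
    intro x
    rw [← sub_eq_zero, ← map_sub, hρ, Ideal.Quotient.eq_zero_iff_dvd]
    exact hres x
  -- the partial norms
  let N : ℕ → R := fun n => Nat.rec 1 (fun _ y => u * σ y) n
  have hN0 : N 0 = 1 := rfl
  have hNs : ∀ n, N (n + 1) = u * σ (N n) := fun _ => rfl
  have hiter : ∀ n, (⇑σ)^[n] ϖ = ϖ * N n := by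
    intro n
    induction n with
    | zero => rw [Function.iterate_zero, id, hN0, mul_one]
    | succ n ih => rw [Function.iterate_succ_apply', ih, map_mul, hσϖ, hNs]; ring
  have hρN : ∀ n, ρ (N n) = ρ u ^ n := by
    intro n
    induction n with
    | zero => rw [hN0, map_one, pow_zero]
    | succ n ih => rw [hNs, map_mul, hρσ, ih, pow_succ']
  have hNp : N p = 1 := by
    have h1 := hiter p
    rw [hσp] at h1
    have h2 : ϖ * 1 = ϖ * N p := by rw [mul_one]; exact h1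
    exact (mul_left_cancel₀ hϖ.ne_zero h2).symm
  have hup : ρ u ^ p = 1 := by rw [← hρN, hNp, map_one]
  have hu1 : ρ u = 1 := by
    have h1 : (ρ u - 1) ^ p = 0 := by rw [sub_pow_char, hup, one_pow, sub_self]
    exact sub_eq_zero.1 (pow_eq_zero_iff (hp.ne_zero) |>.1 h1)
  have hw0 : ρ (w : R) = 0 := by
    have : ρ u = 1 + ρ (w : R) := by rw [hu, map_add, map_one]
    rw [this] at hu1
    exact add_eq_left.1 hu1
  rw [hρ, Ideal.Quotient.eq_zero_iff_dvd] at hw0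
  exact hϖ.not_isUnit (isUnit_of_dvd_unit hw0 w.isUnit)

end Wild

end Fermat.Agent.MP
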