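import Mathlib
import Fermat.Agent.MP.PLHOST_helper9_Model
import Fermat.Agent.MP.PLHOST_helper9_Wild
import Fermat.Agent.MP.PLHOST_helper9_Coeff
import Fermat.Agent.MP.PLHOST_helper9_Kron
import Fermat.Agent.NP.HOSTP_helper7_TwoLevel
import Fermat.Agent.NP.OLDTOP_helper7_Main
import Fermat.Agent.SS.AUT_helper1_Sheet
import Fermat.Agent.SS.MODELS_helper7_AtBases
import Fermat.Agent.S36.CYCLO_helper1

/-!
# Project MP40 — C4 [PL-HOST] helper9: PL-lite on the Legendre host, wild case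

The instantiation of `SSModel.pl_sq_dvd_of_isNodeCoord` on the Legendre host of level `M p` over a
base `K'` at `p`, for the coefficientwise action of an automorphism `s` of `K'` of inertia type, of
order dividing `p`, non-trivial, with (peu): `ζ_p - 1 ∈ (s r - r) R'` for some `r ∈ R'`
(`legPeuNode_sq_dvd`).

Abstract ingredients:

* `mem_iff_map_mem_of_res` : an endomorphism which preserves a valuation subring and is trivial on
  its residue field reflects membership;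
* `SSModel.piDvd_map_sub_zero` : an automorphism of the model which is the identity modulo `π ^ i`
  on `V_M` and commutes with `B` is the identity modulo `π ^ i` on `W_0`.
-/

set_option autoImplicit false
set_option linter.unusedSectionVars false
set_option linter.unusedVariables false
set_option linter.style.haveILetI false

open HahnSeries IntermediateField AlgebraicCurve ModularCurve IsLocalRing

namespace Fermat.Agent.MP

open Fermat.Agent.JA Fermat.Agent.FF Fermat.Agent.SS Fermat.Agent.S35 Fermat.Agent.Igusa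
  Fermat.Agent.NP Fermat.Agent.MW.NAdic

open scoped Fermat.Agent.JA.Host

/-- `Ω = AlgebraicClosure ℚ`. -/
local notation "Ω" => AlgebraicClosure ℚ

section Abstract

/-- an endomorphism which preserves a valuation subring and is trivial on its residue field
reflects membership. -/
theorem mem_iff_map_mem_of_res {E : Type*} [Field E] (W : ValuationSubring E) (σ : E →+* E)
    (hmem : ∀ x ∈ W, σ x ∈ W) (hres : ∀ x ∈ W, W.valuation (σ x - x) < 1) (x : E) :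
    σ x ∈ W ↔ x ∈ W := by
  refine ⟨fun hσx => ?_, hmem x⟩
  by_contra hx
  have hx0 : x ≠ 0 := fun h0 => hx (h0 ▸ W.zero_mem)
  have hxi : x⁻¹ ∈ W := (W.mem_or_inv_mem x).resolve_left hx
  have hv : W.valuation x⁻¹ < 1 := by
    rw [map_inv₀]
    have h1 : 1 < W.valuation x := by
      rw [← not_le, ValuationSubring.valuation_le_one_iff]; exact hx
    exact inv_lt_one_of_one_lt₀ h1
  have h2 : W.valuation (σ x⁻¹) < 1 := by
    have h3 := hres _ hxi
    have h4 : σ x⁻¹ = (σ x⁻¹ - x⁻¹) + x⁻¹ := by ring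
    rw [h4]
    exact lt_of_le_of_lt (Valuation.map_add _ _ _) (max_lt h3 hv)
  have h5 : W.valuation (σ x) ≤ 1 := (ValuationSubring.valuation_le_one_iff _ _).mpr hσx
  have h6 : W.valuation (σ x) * W.valuation (σ x⁻¹) = 1 := by
    rw [← map_mul, ← map_mul, mul_inv_cancel₀ hx0, map_one, map_one]
  have h7 : W.valuation (σ x) * W.valuation (σ x⁻¹) < 1 := by
    calc W.valuation (σ x) * W.valuation (σ x⁻¹) ≤ 1 * W.valuation (σ x⁻¹) :=
          mul_le_mul' h5 le_rfl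
      _ = W.valuation (σ x⁻¹) := one_mul _
      _ < 1 := h2
  exact absurd h6 (ne_of_lt h7)

variable {R : Type*} [CommRing R] [IsDomain R] [IsDiscreteValuationRing R] [CharZero R]
  {K₁ : Type*} [Field K₁] [Algebra R K₁] [IsFractionRing R K₁]
  {KM : Type*} [Field KM] [Algebra K₁ KM] [Algebra R KM] [IsScalarTower R K₁ KM]
  {EM : Type*} [Field EM] [Algebra KM EM] [Algebra K₁ EM] [IsScalarTower K₁ KM EM] [Algebra R EM]
  [IsScalarTower R KM EM]
  {KN : Type*} [Field KN] [Algebra K₁ KN] [Algebra R KN] [IsScalarTower R K₁ KN]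
  {EN : Type*} [Field EN] [Algebra KN EN] [Algebra K₁ EN] [IsScalarTower K₁ KN EN] [Algebra R EN]
  [IsScalarTower R KN EN] [FiniteDimensional KN EN]
  {π : R} {p n : ℕ} {S : Finset R} {t : KM} {jM : EM} {j : KN} {A B : EM →+* EN}
  {VM : ValuationSubring EM} {Winf W0 : ValuationSubring EN}

/-- **the action on the sheet `0` modulo `π ^ i`**: an endomorphism `τ` of `E_N` preserving `W_0`,
multiplying `π` by an element of `W_0`, commuting with `B` and an endomorphism `τ_M` of `E_M` which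
is the identity modulo `π ^ i` on `V_M`, is the identity modulo `π ^ i` on `W_0`. -/
theorem SSModel.piDvd_map_sub_zero (h : SSModel K₁ π p n S t jM j A B VM Winf W0)
    (τ : EN →+* EN) (τM : EM →+* EM) (hcomm : ∀ a : EM, τ (B a) = B (τM a)) {i : ℕ}
    (hτM : ∀ y ∈ VM, ∃ z ∈ VM, τM y - y = algebraMap R EM π ^ i * z)
    (hτπ : ∃ w ∈ W0, τ (algebraMap R EN π) = algebraMap R EN π * w)
    (hτ0 : ∀ x ∈ W0, τ x ∈ W0) :
    ∀ x ∈ W0, PiDvd (algebraMap R EN π) W0.toSubring i (τ x - x) := by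
  intro x hx
  obtain ⟨y, hy, u, hu, e⟩ := SSModel_approx_zero h hx i
  obtain ⟨z, hz, ez⟩ := hτM y hy
  obtain ⟨w, hw, ew⟩ := hτπ
  have hBz : B z ∈ W0 := by
    have : z ∈ W0.comap B := by rw [h.comap_B_zero]; exact hz
    exact this
  refine ⟨B z + w ^ i * τ u - u,
    sub_mem (add_mem hBz (mul_mem (pow_mem hw i) (hτ0 u hu))) hu, ?_⟩
  have ex : x = B y + algebraMap R EN π ^ i * u := by rw [← e]; ring
  have e1 : τ (B y) - B y = algebraMap R EN π ^ i * B z := by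
    rw [hcomm, ← map_sub, ez, map_mul, map_pow, h.B_algebraMap]
  have e2 : τ x = τ (B y) + (algebraMap R EN π * w) ^ i * τ u := by
    conv_lhs => rw [ex]
    rw [map_add, map_mul, map_pow, ew]
  rw [e2]
  conv_lhs => rw [ex]
  linear_combination e1

end Abstract

section Wild

variable {R : Type*} [CommRing R] [IsDomain R] [IsDiscreteValuationRing R]

/-- **the wild data of an automorphism of order `p` with (peu)**: index `s + 1 ≥ 2`, the action on
the uniformizer, the congruence modulo `ϖ ^ (s + 1)` and the bound `(s + 1) (p - 1) ≤ e`. -/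
theorem exists_wild_data [IsAlgClosed (ResidueField R)] {ϖ : R} (hϖ : Irreducible ϖ) {p : ℕ}
    (hp : p.Prime) (hpϖ : ϖ ∣ (p : R)) (τR : R →+* R)
    (hres : ∀ r : R, τR r - r ∈ maximalIdeal R) (hσp : ∀ r, (⇑τR)^[p] r = r)
    {ζ : R} (hζ : IsPrimitiveRoot ζ p)
    (hpeu : ∃ r d : R, τR r ≠ r ∧ ζ - 1 = (τR r - r) * d)
    {e₁ : ℕ} {ε : Rˣ} (hpe : ((p : ℕ) : R) = ε * ϖ ^ e₁) :
    ∃ (s : ℕ) (ω : Rˣ), 1 ≤ s ∧ τR ϖ = ϖ * (1 + ω * ϖ ^ s) ∧ (∀ r, ϖ ^ (s + 1) ∣ τR r - r) ∧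
      (s + 1) * (p - 1) ≤ e₁ := by
  have hres' : ∀ r, ϖ ∣ τR r - r := by
    intro r
    have := hres r
    rwa [hϖ.maximalIdeal_eq, Ideal.mem_span_singleton] at this
  have hperf : ∀ r : R, ∃ b : R, ϖ ∣ r - b ^ p := by
    intro r
    obtain ⟨z, hz⟩ := IsAlgClosed.exists_pow_nat_eq (residue R r) hp.pos
    obtain ⟨b, rfl⟩ := residue_surjective z
    refine ⟨b, ?_⟩
    rw [← Ideal.mem_span_singleton, ← hϖ.maximalIdeal_eq, ← residue_eq_zero_iff, map_sub, map_pow,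
      hz, sub_self]
  obtain ⟨r₀, d, hne, hd⟩ := hpeu
  obtain ⟨i, ω, hi2, hτϖ, hall⟩ := exists_wild_index hϖ hp hpϖ hperf τR hres' hσp hne
  obtain ⟨s, rfl⟩ : ∃ s, i = s + 1 := ⟨i - 1, by omega⟩
  rw [Nat.add_sub_cancel] at hτϖ
  refine ⟨s, ω, by omega, hτϖ, hall, ?_⟩
  have h1 : ϖ ^ (s + 1) ∣ ζ - 1 := by
    rw [hd]
    exact Dvd.dvd.mul_right (hall r₀) d
  have h2 : ϖ ^ ((s + 1) * (p - 1)) ∣ (ζ - 1) ^ (p - 1) := by
    rw [pow_mul]
    exact pow_dvd_pow_of_dvd h1 _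
  obtain ⟨u, hu⟩ := Fermat.Agent.S36.associated_sub_one_pow_natCast_of_prime hp hζ
  have h3 : ϖ ^ ((s + 1) * (p - 1)) ∣ ((p : ℕ) : R) := by
    rw [← hu]
    exact Dvd.dvd.mul_right h2 _
  rw [hpe, (Units.isUnit ε).dvd_mul_left] at h3
  exact (pow_dvd_pow_iff hϖ.ne_zero hϖ.not_isUnit).mp h3

end Wild

section Kron

variable (R : Type*) [CommRing R] [IsDomain R] [IsDiscreteValuationRing R]
variable (L : Type*) [Field L] [Algebra R L] [IsFractionRing R L] [Algebra ℚ L]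

/-- the Kronecker element of the Legendre coordinate is divisible by `ϖ ^ n`, `n ≤ e`. -/
theorem legT_qExpand_sub_pow_eq_pow_mul (h2 : IsUnit (2 : R)) {p : ℕ} [NeZero p] (hp : p.Prime)
    (hp2 : p ≠ 2) {ϖ : R} {e₁ n : ℕ} {ε : Rˣ} (hpe : ((p : ℕ) : R) = ε * ϖ ^ e₁) (hn : n ≤ e₁) :
    ∃ g : LaurentSeries R,
      qExpand L p (legT L) - legT L ^ p = HahnSeries.C (algebraMap R L ϖ) ^ n * emb R L g := by
  obtain ⟨g, hg⟩ := legT_qExpand_sub_pow_eq R L h2 hp hp2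
  refine ⟨HahnSeries.C ((ε : R) * ϖ ^ (e₁ - n)) * g, ?_⟩
  have e1 : ((p : ℕ) : L) = algebraMap R L ϖ ^ n * algebraMap R L ((ε : R) * ϖ ^ (e₁ - n)) := by
    rw [← map_natCast (algebraMap R L), hpe, ← map_pow, ← map_mul]
    congr 1
    obtain ⟨k, rfl⟩ := Nat.exists_eq_add_of_le hn
    rw [Nat.add_sub_cancel_left, _root_.pow_add]
    ring
  rw [hg, e1]
  simp only [map_mul, map_pow, emb_C]
  ring

end Kron

section Leg

variable {M p : ℕ} [NeZero M] [NeZero p] [NeZero (M * p)] {A : ValuationSubring Ω}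
  {K' : IntermediateField ℚ Ω} [Algebra ↥K' ℂ]

set_option maxHeartbeats 3200000 in
/-- **PL-lite on the Legendre host of level `M p`, wild case.** `K'` a base at `p`, `s` an
automorphism of `K'` of inertia type with `s ^ p = 1` and (peu); `f` a function on the host with
`div f ∈ p Div` and `s̄ f / f` of all depths along both sheets.  Then the node exponents `k` of `f`
(`f = c X ^ k v G ^ p` at the node, `X` a node coordinate of thickness `m`) satisfy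
`k m ≡ k' m' mod p²`. -/
theorem legPeuNode_sq_dvd (hp : p.Prime) (hp2 : p ≠ 2) (hpM : ¬ p ∣ M) (hA : A.LiesOverPrime p)
    (hK' : IsBase p K')
    [IsDiscreteValuationRing ↥(baseRing A K')] [CharZero ↥(baseRing A K')]
    {ϖ : ↥(baseRing A K')} (hϖ : Irreducible ϖ) (h2 : IsUnit (2 : ↥(baseRing A K')))
    {x y : ℤ} (hbez : (p : ℤ) * x + M * y = 1)
    {ζ : ↥(baseRing A K')} (hζ : IsPrimitiveRoot ζ p)
    (s : ↥K' ≃ₐ[ℚ] ↥K')
    (hs : ∀ r : ↥(baseRing A K'), ∃ r' : ↥(baseRing A K'),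
      s (r : ↥K') = (r' : ↥K') ∧ r' - r ∈ maximalIdeal ↥(baseRing A K'))
    (hsp : s ^ p = 1)
    (hpeu : ∃ r d : ↥(baseRing A K'), s (r : ↥K') ≠ (r : ↥K') ∧
      ((ζ : ↥(baseRing A K')) : ↥K') - 1 = (s (r : ↥K') - (r : ↥K')) * (d : ↥K'))
    {f : ↥(legE ↥K' (M * p))} (hf : f ≠ 0)
    (hord : ∀ P : Place ↥K' ↥(legE ↥K' (M * p)), (p : ℤ) ∣ P.ord f)
    (hdinf : ∀ N, ∃ c : ↥K', c ≠ 0 ∧
      ValDepth ϖ p (legWinf ↥(baseRing A K') ↥K' h2 (M * p)) N
        (legGalois ↥K' (M * p) s • f / f) c)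
    (hd0 : ∀ N, ∃ c : ↥K', c ≠ 0 ∧
      ValDepth ϖ p (legW0 ↥(baseRing A K') ↥K' hbez hp) N
        (legGalois ↥K' (M * p) s • f / f) c)
    (hcinf : ∀ b ∈ chartOne ↥(baseRing A K') ↥(legE ↥K' (M * p))
        (AdjoinSimple.gen ↥K' (jqNModC ↥K' 2)), b ∈ legWinf ↥(baseRing A K') ↥K' h2 (M * p))
    (hc0 : ∀ b ∈ chartOne ↥(baseRing A K') ↥(legE ↥K' (M * p))
        (AdjoinSimple.gen ↥K' (jqNModC ↥K' 2)), b ∈ legW0 ↥(baseRing A K') ↥K' hbez hp)
    (hfr : IsFractionRing ↥(chartOne ↥(baseRing A K') ↥(legE ↥K' (M * p))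
        (AdjoinSimple.gen ↥K' (jqNModC ↥K' 2))) ↥(legE ↥K' (M * p)))
    (X : ChartNode (AdjoinSimple.gen ↥K' (jqNModC ↥K' 2))
      (legWinf ↥(baseRing A K') ↥K' h2 (M * p)) (legW0 ↥(baseRing A K') ↥K' hbez hp) hcinf hc0 →
      ↥(legE ↥K' (M * p)))
    (m : ChartNode (AdjoinSimple.gen ↥K' (jqNModC ↥K' 2))
      (legWinf ↥(baseRing A K') ↥K' h2 (M * p)) (legW0 ↥(baseRing A K') ↥K' hbez hp) hcinf hc0 → ℕ)
    (k : ChartNode (AdjoinSimple.gen ↥K' (jqNModC ↥K' 2))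
      (legWinf ↥(baseRing A K') ↥K' h2 (M * p)) (legW0 ↥(baseRing A K') ↥K' hbez hp) hcinf hc0 → ℤ)
    (hX : ∀ nd, IsNodeCoord ϖ hfr
      (sheetIdeal (AdjoinSimple.gen ↥K' (jqNModC ↥K' 2))
        (legWinf ↥(baseRing A K') ↥K' h2 (M * p)) hcinf)
      (sheetIdeal (AdjoinSimple.gen ↥K' (jqNModC ↥K' 2))
        (legW0 ↥(baseRing A K') ↥K' hbez hp) hc0) nd.1 (X nd) (m nd))
    (hk : ∀ nd, IsNodeFact ↥K' (locSub (chartOne ↥(baseRing A K') ↥(legE ↥K' (M * p))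
      (AdjoinSimple.gen ↥K' (jqNModC ↥K' 2))) nd.1) p (X nd) f (k nd)) :
    ∀ nd nd', (p : ℤ) ^ 2 ∣ k nd * m nd - k nd' * m nd' := by
  classical
  haveI : Fact p.Prime := ⟨hp⟩
  haveI : IsAlgClosed (ResidueField ↥(baseRing A K')) := hK'.isAlgClosed_residueField hA
  have hpϖ := natCast_mem_span_uniformizer_baseRing hA K' hϖ
  have hmodel : SSModelLeg ↥(baseRing A K') ↥K' ϖ h2 hbez hp hp2 :=
    ssModelLeg ↥(baseRing A K') ↥K' hϖ h2 hbez hp hp2 hpϖ
      (geoHyps_legE_baseRing hA M hpM hK' hp2 hϖ)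
  haveI : FiniteDimensional ↥(↥K')⟮jqNModC ↥K' 2⟯ ↥(legE ↥K' (M * p)) :=
    finite_legE_adjoin_j ↥K' (M * p)
  have h' := SSModelLeg.ssModel ↥(baseRing A K') ↥K' hmodel
  have hjint := SSModelLeg.jint ↥(baseRing A K') ↥K' hϖ hmodel
  -- `p = ε ϖ ^ e₁`
  have hp0 : ((p : ℕ) : ↥(baseRing A K')) ≠ 0 := Nat.cast_ne_zero.mpr hp.ne_zero
  obtain ⟨e₁, ε, hpe⟩ := IsDiscreteValuationRing.eq_unit_mul_pow_irreducible hp0 hϖ
  have he₁ : 0 < e₁ := by
    rcases Nat.eq_zero_or_pos e₁ with h0 | h0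
    · exfalso
      rw [h0, pow_zero, mul_one] at hpe
      have hu : IsUnit ((p : ℕ) : ↥(baseRing A K')) := hpe ▸ Units.isUnit _
      obtain ⟨z, hz⟩ := Ideal.mem_span_singleton.mp hpϖ
      rw [hz] at hu
      exact hϖ.not_isUnit (isUnit_of_mul_isUnit_left hu)
    · exact h0
  have hEN := coeffStable_legE ↥K' (M * p)
  have hEM := coeffStable_legE ↥K' M
  have hMle := legE_le_gaussField ↥(baseRing A K') ↥K' h2 M
  have hNle := legE_le_gaussField ↥(baseRing A K') ↥K' h2 (M * p)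
  have hBq : ∀ g : ↥(legE ↥K' M), ((legHostB ↥K' M p hp hp2 g : ↥(legE ↥K' (M * p))) :
      LaurentSeries ↥K') = qExpand ↥K' p (g : LaurentSeries ↥K') :=
    fun g => coe_legHostB ↥K' M p hp hp2 g
  have hjfix : ∀ τ : ↥K' ≃ₐ[ℚ] ↥K', coeffRingAut hEN τ
      (algebraMap ↥(↥K')⟮jqNModC ↥K' 2⟯ ↥(legE ↥K' (M * p))
        (AdjoinSimple.gen ↥K' (jqNModC ↥K' 2))) =
      algebraMap ↥(↥K')⟮jqNModC ↥K' 2⟯ ↥(legE ↥K' (M * p))
        (AdjoinSimple.gen ↥K' (jqNModC ↥K' 2)) :=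
    fun τ => Subtype.ext (coeffMap_jqNModC (τ : ↥K' →+* ↥K') 2)
  have hRN : ∀ r : ↥(baseRing A K'), algebraMap ↥(baseRing A K') ↥(legE ↥K' (M * p)) r =
      algebraMap ↥K' ↥(legE ↥K' (M * p)) (algebraMap ↥(baseRing A K') ↥K' r) :=
    fun r => IsScalarTower.algebraMap_apply ↥(baseRing A K') ↥K' ↥(legE ↥K' (M * p)) r
  have hRM : ∀ r : ↥(baseRing A K'), algebraMap ↥(baseRing A K') ↥(legE ↥K' M) r =
      algebraMap ↥K' ↥(legE ↥K' M) (algebraMap ↥(baseRing A K') ↥K' r) :=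
    fun r => IsScalarTower.algebraMap_apply ↥(baseRing A K') ↥K' ↥(legE ↥K' M) r
  -- the automorphism of `R'`
  have hsmem : ∀ r : ↥(baseRing A K'), s (r : ↥K') ∈ baseRing A K' := by
    intro r
    obtain ⟨r', e, _⟩ := hs r
    rw [e]
    exact r'.2
  let τR : ↥(baseRing A K') →+* ↥(baseRing A K') :=
    ((s : ↥K' →+* ↥K').comp (baseRing A K').subtype).codRestrict (baseRing A K') hsmem
  have hτ : ∀ r : ↥(baseRing A K'), (s : ↥K' →+* ↥K') (algebraMap ↥(baseRing A K') ↥K' r) =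
      algebraMap ↥(baseRing A K') ↥K' (τR r) := fun r => rfl
  have hres : ∀ r : ↥(baseRing A K'), τR r - r ∈ maximalIdeal ↥(baseRing A K') := by
    intro r
    obtain ⟨r', e, hm⟩ := hs r
    have : τR r = r' := Subtype.ext e
    rw [this]
    exact hm
  have hiter : ∀ (k : ℕ) (r : ↥(baseRing A K')),
      (((⇑τR)^[k] r : ↥(baseRing A K')) : ↥K') = (s ^ k) (r : ↥K') := by
    intro k
    induction k with
    | zero => intro r; rfl
    | succ k ih =>
      intro r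
      rw [Function.iterate_succ_apply', pow_succ', AlgEquiv.mul_apply, ← ih]
      rfl
  have hσp : ∀ r, (⇑τR)^[p] r = r := fun r => Subtype.ext (by rw [hiter, hsp]; rfl)
  have hpeu' : ∃ r d : ↥(baseRing A K'), τR r ≠ r ∧ ζ - 1 = (τR r - r) * d := by
    obtain ⟨r, d, hne, e⟩ := hpeu
    exact ⟨r, d, fun h0 => hne (congrArg Subtype.val h0), Subtype.ext e⟩
  obtain ⟨sw, ω, hsw, hτϖ, hall, hbound⟩ := exists_wild_data hϖ hp
    (Ideal.mem_span_singleton.mp hpϖ) τR hres hσp hζ hpeu' hpe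
  have hϖi0 : ϖ ^ (sw + 1) ≠ 0 := pow_ne_zero _ hϖ.ne_zero
  -- the automorphisms of the hosts
  set τ : ↥(legE ↥K' (M * p)) →+* ↥(legE ↥K' (M * p)) :=
    ((coeffRingAut hEN s : ↥(legE ↥K' (M * p)) ≃+* ↥(legE ↥K' (M * p))) :
      ↥(legE ↥K' (M * p)) →+* ↥(legE ↥K' (M * p))) with hτdef
  set τM : ↥(legE ↥K' M) →+* ↥(legE ↥K' M) :=
    ((coeffRingAut hEM s : ↥(legE ↥K' M) ≃+* ↥(legE ↥K' M)) :
      ↥(legE ↥K' M) →+* ↥(legE ↥K' M)) with hτMdef
  have hτK : ∀ c : ↥K', ∃ c' : ↥K', τ (algebraMap ↥K' ↥(legE ↥K' (M * p)) c) =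
      algebraMap ↥K' ↥(legE ↥K' (M * p)) c' :=
    fun c => ⟨s c, coeffRingAut_algebraMap hEN s c⟩
  have hτRr : ∀ r : ↥(baseRing A K'), τ (algebraMap ↥(baseRing A K') ↥(legE ↥K' (M * p)) r) =
      algebraMap ↥(baseRing A K') ↥(legE ↥K' (M * p)) (τR r) := by
    intro r
    rw [hRN, hRN]
    exact (coeffRingAut_algebraMap hEN s _).trans (congrArg _ (hτ r))
  have hτj : τ (algebraMap ↥(↥K')⟮jqNModC ↥K' 2⟯ ↥(legE ↥K' (M * p))
        (AdjoinSimple.gen ↥K' (jqNModC ↥K' 2))) =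
      algebraMap ↥(↥K')⟮jqNModC ↥K' 2⟯ ↥(legE ↥K' (M * p))
        (AdjoinSimple.gen ↥K' (jqNModC ↥K' 2)) := hjfix s
  have hτπ : τ (algebraMap ↥(baseRing A K') ↥(legE ↥K' (M * p)) ϖ) =
      algebraMap ↥(baseRing A K') ↥(legE ↥K' (M * p)) ϖ *
        (1 + algebraMap ↥(baseRing A K') ↥(legE ↥K' (M * p)) ω *
          algebraMap ↥(baseRing A K') ↥(legE ↥K' (M * p)) ϖ ^ sw) := by
    rw [hτRr, hτϖ, map_mul, map_add, map_one, map_mul, map_pow]
  have hτinf : ∀ z ∈ legWinf ↥(baseRing A K') ↥K' h2 (M * p),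
      PiDvd (algebraMap ↥(baseRing A K') ↥(legE ↥K' (M * p)) ϖ)
        (legWinf ↥(baseRing A K') ↥K' h2 (M * p)).toSubring (sw + 1) (τ z - z) := by
    intro z hz
    obtain ⟨y', hy', e⟩ := exists_map_sub_eq_mul_gaussValSub (hM := hNle) (s : ↥K' →+* ↥K') τR
      hτ hres τ (fun _ => rfl) hϖi0 hall hz
    exact ⟨y', hy', by rw [e, ← hRN, map_pow]⟩
  have hτMV : ∀ z ∈ legWinf ↥(baseRing A K') ↥K' h2 M, ∃ z' ∈ legWinf ↥(baseRing A K') ↥K' h2 M,
      τM z - z = algebraMap ↥(baseRing A K') ↥(legE ↥K' M) ϖ ^ (sw + 1) * z' := by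
    intro z hz
    obtain ⟨y', hy', e⟩ := exists_map_sub_eq_mul_gaussValSub (hM := hMle) (s : ↥K' →+* ↥K') τR
      hτ hres τM (fun _ => rfl) hϖi0 hall hz
    exact ⟨y', hy', by rw [e, ← hRM, map_pow]⟩
  have hcomm : ∀ a : ↥(legE ↥K' M),
      τ ((legHostB ↥K' M p hp hp2 : ↥(legE ↥K' M) →+* ↥(legE ↥K' (M * p))) a) =
        (legHostB ↥K' M p hp hp2 : ↥(legE ↥K' M) →+* ↥(legE ↥K' (M * p))) (τM a) := by
    intro a
    apply Subtype.ext
    show coeffMap _ ((legHostB ↥K' M p hp hp2 a : ↥(legE ↥K' (M * p))) : LaurentSeries ↥K') =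
      ((legHostB ↥K' M p hp hp2 (τM a) : ↥(legE ↥K' (M * p))) : LaurentSeries ↥K')
    rw [hBq, hBq]
    show _ = qExpand ↥K' p (coeffMap _ _)
    rw [coeffMap_qExpand]
  have hinf_mem : ∀ z ∈ legWinf ↥(baseRing A K') ↥K' h2 (M * p),
      τ z ∈ legWinf ↥(baseRing A K') ↥K' h2 (M * p) :=
    fun z hz => map_mem_gaussValSub (hM := hNle) (s : ↥K' →+* ↥K') τR hτ hres τ (fun _ => rfl) hz
  have hinf_res : ∀ z ∈ legWinf ↥(baseRing A K') ↥K' h2 (M * p),
      (legWinf ↥(baseRing A K') ↥K' h2 (M * p)).valuation (τ z - z) < 1 :=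
    fun z hz => valuation_map_sub_lt_one (hM := hNle) (s : ↥K' →+* ↥K') τR hτ hres τ
      (fun _ => rfl) hz
  have hinf_iff := mem_iff_map_mem_of_res (legWinf ↥(baseRing A K') ↥K' h2 (M * p)) τ hinf_mem
    hinf_res
  have hres_span : ∀ r : ↥(baseRing A K'), τR r - r ∈ Ideal.span {ϖ} := by
    intro r
    rw [← hϖ.maximalIdeal_eq]
    exact hres r
  have hzero_iff := h'.two.mem_zero_iff_of_ringEquiv (coeffRingAut hEN s) τR hτj hτRr hres_span
    hinf_iff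
  have hR0 : ∀ r : ↥(baseRing A K'), algebraMap ↥(baseRing A K') ↥(legE ↥K' (M * p)) r ∈
      legW0 ↥(baseRing A K') ↥K' hbez hp :=
    fun r => h'.two.chart_le_zero _ (Subalgebra.algebraMap_mem _ r)
  have hτzero : ∀ z ∈ legW0 ↥(baseRing A K') ↥K' hbez hp,
      PiDvd (algebraMap ↥(baseRing A K') ↥(legE ↥K' (M * p)) ϖ)
        (legW0 ↥(baseRing A K') ↥K' hbez hp).toSubring (sw + 1) (τ z - z) :=
    SSModel.piDvd_map_sub_zero h' τ τM hcomm hτMV
      ⟨_, add_mem (one_mem _) (mul_mem (hR0 ω) (pow_mem (hR0 ϖ) sw)), hτπ⟩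
      (fun z hz => (hzero_iff z).mpr hz)
  -- the Kronecker element
  have hle : sw + 1 ≤ e₁ :=
    le_trans (Nat.le_mul_of_pos_right _ (Nat.sub_pos_of_lt hp.one_lt)) hbound
  have hkron : PiDvd (algebraMap ↥(baseRing A K') ↥(legE ↥K' (M * p)) ϖ)
      (legWinf ↥(baseRing A K') ↥K' h2 (M * p)).toSubring (sw + 1)
      ((legHostB ↥K' M p hp hp2 : ↥(legE ↥K' M) →+* ↥(legE ↥K' (M * p)))
          (algebraMap ↥(↥K')⟮legT ↥K'⟯ ↥(legE ↥K' M) (AdjoinSimple.gen ↥K' (legT ↥K'))) -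
        (legHostA ↥K' M p : ↥(legE ↥K' M) →+* ↥(legE ↥K' (M * p)))
          (algebraMap ↥(↥K')⟮legT ↥K'⟯ ↥(legE ↥K' M) (AdjoinSimple.gen ↥K' (legT ↥K'))) ^ p) := by
    obtain ⟨g, hg⟩ := legT_qExpand_sub_pow_eq_pow_mul ↥(baseRing A K') ↥K' h2 hp hp2 hpe hle
    have hϖc : ((algebraMap ↥(baseRing A K') ↥(legE ↥K' (M * p)) ϖ : ↥(legE ↥K' (M * p))) :
        LaurentSeries ↥K') = HahnSeries.C (algebraMap ↥(baseRing A K') ↥K' ϖ) := by
      rw [hRN, IntermediateField.coe_algebraMap_apply, algebraMap_laurentSeries_eq_single,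
        HahnSeries.C_apply]
    have hC0 : (HahnSeries.C (algebraMap ↥(baseRing A K') ↥K' ϖ) : LaurentSeries ↥K') ≠ 0 := by
      rw [Ne, map_eq_zero_iff _ HahnSeries.C_injective,
        map_eq_zero_iff _ (IsFractionRing.injective ↥(baseRing A K') ↥K')]
      exact hϖ.ne_zero
    set z : ↥(legE ↥K' (M * p)) :=
      (legHostB ↥K' M p hp hp2 : ↥(legE ↥K' M) →+* ↥(legE ↥K' (M * p)))
          (algebraMap ↥(↥K')⟮legT ↥K'⟯ ↥(legE ↥K' M) (AdjoinSimple.gen ↥K' (legT ↥K'))) -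
        (legHostA ↥K' M p : ↥(legE ↥K' M) →+* ↥(legE ↥K' (M * p)))
          (algebraMap ↥(↥K')⟮legT ↥K'⟯ ↥(legE ↥K' M) (AdjoinSimple.gen ↥K' (legT ↥K'))) ^ p
      with hzdef
    have hzc : (z : LaurentSeries ↥K') =
        HahnSeries.C (algebraMap ↥(baseRing A K') ↥K' ϖ) ^ (sw + 1) *
          emb ↥(baseRing A K') ↥K' g := by
      rw [← hg, hzdef, AddSubgroupClass.coe_sub, SubmonoidClass.coe_pow, RingHom.coe_coe,
        RingHom.coe_coe, coe_legHostB, coe_legHostA]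
      rfl
    have hϖE0 : algebraMap ↥(baseRing A K') ↥(legE ↥K' (M * p)) ϖ ^ (sw + 1) ≠ 0 := by
      apply pow_ne_zero
      intro h0
      apply hC0
      rw [← hϖc, h0]
      rfl
    refine ⟨z * (algebraMap ↥(baseRing A K') ↥(legE ↥K' (M * p)) ϖ ^ (sw + 1))⁻¹, ?_, ?_⟩
    · show _ ∈ gaussValSub ↥(baseRing A K') ↥K' (legE ↥K' (M * p)) hNle
      rw [mem_gaussValSub_iff]
      have : ((z * (algebraMap ↥(baseRing A K') ↥(legE ↥K' (M * p)) ϖ ^ (sw + 1))⁻¹ :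
          ↥(legE ↥K' (M * p))) : LaurentSeries ↥K') = emb ↥(baseRing A K') ↥K' g := by
        rw [IntermediateField.coe_mul, IntermediateField.coe_inv, IntermediateField.coe_pow, hϖc,
          hzc, mul_comm, ← mul_assoc, inv_mul_cancel₀ (pow_ne_zero _ hC0), one_mul]
      rw [this]
      exact emb_mem_gaussInt _ _ g
    · rw [mul_comm z, ← mul_assoc, mul_inv_cancel₀ hϖE0, one_mul]
  exact SSModel.pl_sq_dvd_of_isNodeCoord h' hϖ hjint hp he₁ hpe τ hτK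
    (fun r => ⟨τR r, hτRr r⟩) hτj hsw ω hτπ hτinf hτzero hbound hkron hf hord hdinf hd0 X m k hX hk

end Leg

end Fermat.Agent.MP
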