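import Mathlib
import Fermat.Agent.MP.PLHOST_helper9_Leg
import Fermat.Agent.MP.PLHOST_helper9_Val

/-!
# Project MP40 — C4 [PL-HOST] helper9: the node exponents on the Legendre host

On the Legendre host of level `M p` over a base `K'` at `p`, for a function `f` with node
factorisations `f = c X ^ k v G ^ p` (`IsNodeFact`) at the nodes of the chart `j`:

* `legPeuNode_dvd` : `p ∣ k m - (a0 - a∞)` (`a∞`, `a0` the orders of `f` along the two sheets,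
  `m` the thickness of the node);
* `legPeuNode_prop` : **the proportionality** `p ∣ k K' - k' K` of the node exponents of `f` to the
  exponents `K` of the node unit (`K m = 12 e`), in the tame case (`e = p - 1`) from
  `legPeuNode_dvd`, in the wild case (`e = m_w (p - 1)`, `m_w ≤ p`) from PL-lite
  `legPeuNode_sq_dvd`.
-/

set_option autoImplicit false
set_option linter.unusedSectionVars false
set_option linter.unusedVariables false
set_option linter.style.haveILetI false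

open HahnSeries IntermediateField AlgebraicCurve ModularCurve IsLocalRing

namespace Fermat.Agent.MP

open Fermat.Agent.JA Fermat.Agent.FF Fermat.Agent.SS Fermat.Agent.S35 Fermat.Agent.Igusa
  Fermat.Agent.NP Fermat.Agent.MW.NAdic

open scoped Fermat.Agent.JA.Host

/-- `Ω = AlgebraicClosure ℚ`. -/
local notation "Ω" => AlgebraicClosure ℚ

section Arith

/-- `p ∤ 12 (p - 1)` for a prime `p ≥ 5`. -/
theorem not_dvd_twelve_mul_pred {p : ℕ} (hp : p.Prime) (hp5 : 5 ≤ p) : ¬ p ∣ 12 * (p - 1) := by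
  intro h
  rcases (Nat.Prime.dvd_mul hp).mp h with h1 | h1
  · have hle := Nat.le_of_dvd (by norm_num) h1
    interval_cases p <;> first | omega | exact absurd hp (by norm_num)
  · have hle := Nat.le_of_dvd (by omega) h1
    omega

/-- `p² ∤ 12 m_w (p - 1)` for a prime `p ≥ 5` and `0 < m_w ≤ p`. -/
theorem not_sq_dvd_twelve_mul {p mw : ℕ} (hp : p.Prime) (hp5 : 5 ≤ p) (hmw : 0 < mw)
    (hle : mw ≤ p) : ¬ p ^ 2 ∣ 12 * (mw * (p - 1)) := by
  intro h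
  have hcop : Nat.Coprime (p ^ 2) (12 * (p - 1)) :=
    Nat.Coprime.pow_left 2 ((Nat.Prime.coprime_iff_not_dvd hp).mpr (not_dvd_twelve_mul_pred hp hp5))
  have h' : p ^ 2 ∣ mw * (12 * (p - 1)) := by
    have : 12 * (mw * (p - 1)) = mw * (12 * (p - 1)) := by ring
    rwa [this] at h
  have h1 : p ^ 2 ∣ mw := hcop.dvd_of_dvd_mul_right h'
  have h2 := Nat.le_of_dvd hmw h1
  nlinarith

end Arith

section Leg

variable {M p : ℕ} [NeZero M] [NeZero p] [NeZero (M * p)] {A : ValuationSubring Ω}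
  {K' : IntermediateField ℚ Ω} [Algebra ↥K' ℂ]

set_option maxHeartbeats 1600000 in
/-- **the valuation identity at the nodes of the Legendre host**: `p ∣ k m - (a0 - a∞)`. -/
theorem legPeuNode_dvd (hp : p.Prime) (hp2 : p ≠ 2) (hpM : ¬ p ∣ M) (hA : A.LiesOverPrime p)
    (hK' : IsBase p K')
    [IsDiscreteValuationRing ↥(baseRing A K')] [CharZero ↥(baseRing A K')]
    {ϖ : ↥(baseRing A K')} (hϖ : Irreducible ϖ) (h2 : IsUnit (2 : ↥(baseRing A K')))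
    {x y : ℤ} (hbez : (p : ℤ) * x + M * y = 1)
    {f : ↥(legE ↥K' (M * p))} {ainf a0 : ℤ}
    (hfinf : (legWinf ↥(baseRing A K') ↥K' h2 (M * p)).valuation
      (f * (algebraMap ↥(baseRing A K') ↥(legE ↥K' (M * p)) ϖ ^ ainf)⁻¹) = 1)
    (hf0 : (legW0 ↥(baseRing A K') ↥K' hbez hp).valuation
      (f * (algebraMap ↥(baseRing A K') ↥(legE ↥K' (M * p)) ϖ ^ a0)⁻¹) = 1)
    (hcinf : ∀ b ∈ chartOne ↥(baseRing A K') ↥(legE ↥K' (M * p))
        (AdjoinSimple.gen ↥K' (jqNModC ↥K' 2)), b ∈ legWinf ↥(baseRing A K') ↥K' h2 (M * p))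
    (hc0 : ∀ b ∈ chartOne ↥(baseRing A K') ↥(legE ↥K' (M * p))
        (AdjoinSimple.gen ↥K' (jqNModC ↥K' 2)), b ∈ legW0 ↥(baseRing A K') ↥K' hbez hp)
    (hfr : IsFractionRing ↥(chartOne ↥(baseRing A K') ↥(legE ↥K' (M * p))
        (AdjoinSimple.gen ↥K' (jqNModC ↥K' 2))) ↥(legE ↥K' (M * p)))
    (nd : ChartNode (AdjoinSimple.gen ↥K' (jqNModC ↥K' 2))
      (legWinf ↥(baseRing A K') ↥K' h2 (M * p)) (legW0 ↥(baseRing A K') ↥K' hbez hp) hcinf hc0)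
    {X : ↥(legE ↥K' (M * p))} {m : ℕ} {k : ℤ}
    (hX : IsNodeCoord ϖ hfr
      (sheetIdeal (AdjoinSimple.gen ↥K' (jqNModC ↥K' 2))
        (legWinf ↥(baseRing A K') ↥K' h2 (M * p)) hcinf)
      (sheetIdeal (AdjoinSimple.gen ↥K' (jqNModC ↥K' 2))
        (legW0 ↥(baseRing A K') ↥K' hbez hp) hc0) nd.1 X m)
    (hk : IsNodeFact ↥K' (locSub (chartOne ↥(baseRing A K') ↥(legE ↥K' (M * p))
      (AdjoinSimple.gen ↥K' (jqNModC ↥K' 2))) nd.1) p X f k) :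
    (p : ℤ) ∣ k * m - (a0 - ainf) := by
  classical
  haveI : Fact p.Prime := ⟨hp⟩
  haveI : IsAlgClosed (ResidueField ↥(baseRing A K')) := hK'.isAlgClosed_residueField hA
  have hpϖ := natCast_mem_span_uniformizer_baseRing hA K' hϖ
  have hmodel : SSModelLeg ↥(baseRing A K') ↥K' ϖ h2 hbez hp hp2 :=
    ssModelLeg ↥(baseRing A K') ↥K' hϖ h2 hbez hp hp2 hpϖ
      (geoHyps_legE_baseRing hA M hpM hK' hp2 hϖ)
  haveI : FiniteDimensional ↥(↥K')⟮jqNModC ↥K' 2⟯ ↥(legE ↥K' (M * p)) :=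
    finite_legE_adjoin_j ↥K' (M * p)
  have h' := SSModelLeg.ssModel ↥(baseRing A K') ↥K' hmodel
  have hp0 : ((p : ℕ) : ↥(baseRing A K')) ≠ 0 := Nat.cast_ne_zero.mpr hp.ne_zero
  obtain ⟨e₁, ε, hpe⟩ := IsDiscreteValuationRing.eq_unit_mul_pow_irreducible hp0 hϖ
  have he₁ : 0 < e₁ := by
    rcases Nat.eq_zero_or_pos e₁ with h0 | h0
    · exfalso
      rw [h0, pow_zero, mul_one] at hpe
      have hu : IsUnit ((p : ℕ) : ↥(baseRing A K')) := hpe ▸ Units.isUnit _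
      obtain ⟨z, hz⟩ := Ideal.mem_span_singleton.mp hpϖ
      rw [hz] at hu
      exact hϖ.not_isUnit (isUnit_of_mul_isUnit_left hu)
    · exact h0
  exact SSModel.dvd_node_of_isNodeFact h' hϖ hp he₁ hpe nd.1 nd.inf_le nd.zero_le hX hk hfinf hf0

set_option maxHeartbeats 3200000 in
/-- **the proportionality of the node exponents on the Legendre host.** -/
theorem legPeuNode_prop (hp : p.Prime) (hp5 : 5 ≤ p) (hpM : ¬ p ∣ M) (hA : A.LiesOverPrime p)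
    (hK' : IsBase p K')
    [IsDiscreteValuationRing ↥(baseRing A K')] [CharZero ↥(baseRing A K')]
    {ϖ : ↥(baseRing A K')} (hϖ : Irreducible ϖ) (h2 : IsUnit (2 : ↥(baseRing A K')))
    {x y : ℤ} (hbez : (p : ℤ) * x + M * y = 1)
    {ζ : ↥(baseRing A K')} (hζ : IsPrimitiveRoot ζ p)
    (s : ↥K' ≃ₐ[ℚ] ↥K')
    (hs : ∀ r : ↥(baseRing A K'), ∃ r' : ↥(baseRing A K'),
      s (r : ↥K') = (r' : ↥K') ∧ r' - r ∈ maximalIdeal ↥(baseRing A K'))
    (hsp : s ^ p = 1)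
    (hpeu : s = 1 ∨ ∃ r d : ↥(baseRing A K'), s (r : ↥K') ≠ (r : ↥K') ∧
      ((ζ : ↥(baseRing A K')) : ↥K') - 1 = (s (r : ↥K') - (r : ↥K')) * (d : ↥K'))
    (hwild : ∃ (mw : ℕ) (u : (↥(baseRing A K'))ˣ), 0 < mw ∧ mw ≤ p ∧ (s = 1 → mw = 1) ∧
      ζ - 1 = u * ϖ ^ mw)
    {f : ↥(legE ↥K' (M * p))} (hf : f ≠ 0)
    (hord : ∀ P : Place ↥K' ↥(legE ↥K' (M * p)), (p : ℤ) ∣ P.ord f)
    (hdinf : ∀ N, ∃ c : ↥K', c ≠ 0 ∧
      ValDepth ϖ p (legWinf ↥(baseRing A K') ↥K' h2 (M * p)) N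
        (legGalois ↥K' (M * p) s • f / f) c)
    (hd0 : ∀ N, ∃ c : ↥K', c ≠ 0 ∧
      ValDepth ϖ p (legW0 ↥(baseRing A K') ↥K' hbez hp) N
        (legGalois ↥K' (M * p) s • f / f) c)
    (hcinf : ∀ b ∈ chartOne ↥(baseRing A K') ↥(legE ↥K' (M * p))
        (AdjoinSimple.gen ↥K' (jqNModC ↥K' 2)), b ∈ legWinf ↥(baseRing A K') ↥K' h2 (M * p))
    (hc0 : ∀ b ∈ chartOne ↥(baseRing A K') ↥(legE ↥K' (M * p))
        (AdjoinSimple.gen ↥K' (jqNModC ↥K' 2)), b ∈ legW0 ↥(baseRing A K') ↥K' hbez hp)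
    (hfr : IsFractionRing ↥(chartOne ↥(baseRing A K') ↥(legE ↥K' (M * p))
        (AdjoinSimple.gen ↥K' (jqNModC ↥K' 2))) ↥(legE ↥K' (M * p)))
    (X : ChartNode (AdjoinSimple.gen ↥K' (jqNModC ↥K' 2))
      (legWinf ↥(baseRing A K') ↥K' h2 (M * p)) (legW0 ↥(baseRing A K') ↥K' hbez hp) hcinf hc0 →
      ↥(legE ↥K' (M * p)))
    (m : ChartNode (AdjoinSimple.gen ↥K' (jqNModC ↥K' 2))
      (legWinf ↥(baseRing A K') ↥K' h2 (M * p)) (legW0 ↥(baseRing A K') ↥K' hbez hp) hcinf hc0 → ℕ)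
    (k : ChartNode (AdjoinSimple.gen ↥K' (jqNModC ↥K' 2))
      (legWinf ↥(baseRing A K') ↥K' h2 (M * p)) (legW0 ↥(baseRing A K') ↥K' hbez hp) hcinf hc0 → ℤ)
    (hX : ∀ nd, IsNodeCoord ϖ hfr
      (sheetIdeal (AdjoinSimple.gen ↥K' (jqNModC ↥K' 2))
        (legWinf ↥(baseRing A K') ↥K' h2 (M * p)) hcinf)
      (sheetIdeal (AdjoinSimple.gen ↥K' (jqNModC ↥K' 2))
        (legW0 ↥(baseRing A K') ↥K' hbez hp) hc0) nd.1 (X nd) (m nd))
    (hk : ∀ nd, IsNodeFact ↥K' (locSub (chartOne ↥(baseRing A K') ↥(legE ↥K' (M * p))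
      (AdjoinSimple.gen ↥K' (jqNModC ↥K' 2))) nd.1) p (X nd) f (k nd))
    {e : ℕ} {u : (↥(baseRing A K'))ˣ} (hu : ((p : ℕ) : ↥(baseRing A K')) = u * ϖ ^ e)
    (K : ChartNode (AdjoinSimple.gen ↥K' (jqNModC ↥K' 2))
      (legWinf ↥(baseRing A K') ↥K' h2 (M * p)) (legW0 ↥(baseRing A K') ↥K' hbez hp) hcinf hc0 → ℤ)
    (hK : ∀ nd, K nd * (m nd : ℤ) = ((12 * e : ℕ) : ℤ)) :
    ∀ nd nd', (p : ℤ) ∣ k nd * K nd' - k nd' * K nd := by
  classical
  have hp2 : p ≠ 2 := by omega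
  haveI : Fact p.Prime := ⟨hp⟩
  obtain ⟨mw, uw, hmw, hmwp, hs1, hζϖ⟩ := hwild
  -- `e = m_w (p - 1)`
  have he : e = mw * (p - 1) := by
    obtain ⟨v, hv⟩ := Fermat.Agent.S36.associated_sub_one_pow_natCast_of_prime hp hζ
    have h1 : ((uw ^ (p - 1) * v : (↥(baseRing A K'))ˣ) : ↥(baseRing A K')) * ϖ ^ (mw * (p - 1)) =
        (u : ↥(baseRing A K')) * ϖ ^ e := by
      rw [← hu, ← hv, hζϖ, mul_pow, ← pow_mul, Units.val_mul, Units.val_pow_eq_pow_val]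
      ring
    exact (IsDiscreteValuationRing.unit_mul_pow_congr_pow hϖ hϖ _ _ _ _ h1).symm
  intro nd nd'
  rcases hpeu with hs1' | hpeu'
  · -- the tame case
    have hmw1 := hs1 hs1'
    have hc : ¬ (p : ℤ) ^ (0 + 1) ∣ ((12 * e : ℕ) : ℤ) := by
      rw [zero_add, pow_one, Int.natCast_dvd_natCast, he, hmw1, one_mul]
      exact not_dvd_twelve_mul_pred hp hp5
    -- the orders along the sheets
    have hpϖ := natCast_mem_span_uniformizer_baseRing hA K' hϖ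
    haveI : IsAlgClosed (ResidueField ↥(baseRing A K')) := hK'.isAlgClosed_residueField hA
    have hmodel : SSModelLeg ↥(baseRing A K') ↥K' ϖ h2 hbez hp hp2 :=
      ssModelLeg ↥(baseRing A K') ↥K' hϖ h2 hbez hp hp2 hpϖ
        (geoHyps_legE_baseRing hA M hpM hK' hp2 hϖ)
    haveI : FiniteDimensional ↥(↥K')⟮jqNModC ↥K' 2⟯ ↥(legE ↥K' (M * p)) :=
      finite_legE_adjoin_j ↥K' (M * p)
    have h' := SSModelLeg.ssModel ↥(baseRing A K') ↥K' hmodel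
    have he0 : 0 < e := by
      rw [he, hmw1, one_mul]
      exact Nat.sub_pos_of_lt hp.one_lt
    obtain ⟨ainf, hainf⟩ := SSModel.exists_zpow_val_eq_one_inf h' he0 hu hf
    obtain ⟨a0, ha0⟩ := SSModel.exists_zpow_val_eq_one_zero h' he0 hu hf
    have d1 := legPeuNode_dvd hp hp2 hpM hA hK' hϖ h2 hbez hainf ha0 hcinf hc0 hfr nd (hX nd)
      (hk nd)
    have d2 := legPeuNode_dvd hp hp2 hpM hA hK' hϖ h2 hbez hainf ha0 hcinf hc0 hfr nd' (hX nd')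
      (hk nd')
    have h12 : (p : ℤ) ^ (0 + 1) ∣ k nd * (m nd : ℤ) - k nd' * (m nd' : ℤ) := by
      rw [zero_add, pow_one]
      have := dvd_sub d1 d2
      have e12 : k nd * (m nd : ℤ) - (a0 - ainf) - (k nd' * (m nd' : ℤ) - (a0 - ainf)) =
          k nd * (m nd : ℤ) - k nd' * (m nd' : ℤ) := by ring
      rwa [e12] at this
    exact int_dvd_cross_of_pow_dvd hp hc (hK nd) (hK nd') h12
  · -- the wild case
    have hc : ¬ (p : ℤ) ^ (1 + 1) ∣ ((12 * e : ℕ) : ℤ) := by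
      have : ((p : ℤ) ^ (1 + 1)) = ((p ^ 2 : ℕ) : ℤ) := by push_cast; ring
      rw [this, Int.natCast_dvd_natCast, he]
      exact not_sq_dvd_twelve_mul hp hp5 hmw hmwp
    have h12 := legPeuNode_sq_dvd hp hp2 hpM hA hK' hϖ h2 hbez hζ s hs hsp hpeu' hf hord hdinf hd0
      hcinf hc0 hfr X m k hX hk nd nd'
    exact int_dvd_cross_of_pow_dvd hp hc (hK nd) (hK nd') h12

end Leg

end Fermat.Agent.MP
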