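import Mathlib
import Fermat.Agent.MP.DICT_helper1_Rel
import Fermat.Agent.MP.PLHOST_helper9_Pack
import Fermat.Agent.MP.PLHOST_helper9_Dict
import Fermat.Agent.MP.NORMP_helper3_HostT
import Fermat.Agent.SS.BASE_helper1_Leg

/-!
# Project MP40 — (C) [ORD] helper1: the core assembly on the Legendre host

From lead's package `LegPeuHyp` over the small base `K'`, a reduction map `ρ` of the good level
`M` (kernel, constants, `ρ j = j̄`), rationality of the places of the reduced host, the reduced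
Hecke relations of the reductions `F̄ = ρ x₀` of `f ϖ ^ (-a∞)` and `Ū = ρ U₀` of the node unit
(`hTF`, `hTU`), and [DELTA] (`p ∣ a0 - a∞`): **`p ∣ ord_Q F̄` at every place `Q` of the reduced host**
(`legPeuOrd_core`). The logic is `SSModel.dvd_ord_red_of_hecke`; the node package is helper9's
`legPeuNode_package`, the final arithmetic helper9's `dvd_ord_of_elim`, the reduced Hecke operator
and [PDIV] helper3's `legEtT`, `legEtT_pdiv`.
-/

set_option autoImplicit false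
set_option linter.unusedSectionVars false
set_option linter.unusedVariables false
set_option linter.style.haveILetI false
set_option synthInstance.maxHeartbeats 400000

open HahnSeries IntermediateField AlgebraicCurve ModularCurve IsLocalRing

namespace Fermat.Agent.MP

open Fermat.Agent.JA Fermat.Agent.FF Fermat.Agent.SS Fermat.Agent.S35 Fermat.Agent.Igusa
  Fermat.Agent.NP Fermat.Agent.MW.NAdic Fermat.Agent.MW Fermat.Agent.FG

open scoped Fermat.Agent.JA.Host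

/-- `Ω = AlgebraicClosure ℚ`. -/
local notation "Ω" => AlgebraicClosure ℚ

section Core

variable {M p : ℕ} [NeZero M] [NeZero p] [NeZero (M * p)] {A : ValuationSubring Ω}
  {K₁ : IntermediateField ℚ Ω} [Normal ℚ ↥K₁] {K' : IntermediateField ℚ Ω} [Algebra ↥K' ℂ]

set_option maxHeartbeats 6400000 in
/-- **(C) [ORD], core assembly on the Legendre host.** -/
theorem legPeuOrd_core (HB : LegNormBCompat) [Fact p.Prime] (hp : p.Prime) (hp5 : 5 ≤ p)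
    (hp2 : p ≠ 2) (hpM : ¬ p ∣ M) (hA : A.LiesOverPrime p)
    [IsDiscreteValuationRing ↥(baseRing A K')] [CharZero ↥(baseRing A K')]
    {ζ : ↥(baseRing A K')} {s : ↥K' ≃ₐ[ℚ] ↥K'} {S : Set ℕ} {a : ℕ → ℤ}
    {f₀ : ↥(keyFq ↥K' (M * p))} (hyp : LegPeuHyp p M A K₁ K' ζ s S a f₀)
    {ϖ : ↥(baseRing A K')} (hϖ : Irreducible ϖ) (h2 : IsUnit (2 : ↥(baseRing A K')))
    {x y : ℤ} (hbez : (p : ℤ) * x + M * y = 1)
    -- the reduction map of the good level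
    (ρ : ↥(legWinf ↥(baseRing A K') ↥K' h2 M) →+* legEt hA M hp2)
    (hρ : ∀ z : ↥(legWinf ↥(baseRing A K') ↥K' h2 M),
      (legWinf ↥(baseRing A K') ↥K' h2 M).valuation (z : ↥(legE ↥K' M)) < 1 → ρ z = 0)
    (res : ↥(baseRing A K') →+* ResidueField ↥A) (hres : Function.Surjective res)
    (hρR : ∀ (r : ↥(baseRing A K'))
      (hr : algebraMap ↥(baseRing A K') ↥(legE ↥K' M) r ∈ legWinf ↥(baseRing A K') ↥K' h2 M),
      ρ ⟨algebraMap ↥(baseRing A K') ↥(legE ↥K' M) r, hr⟩ =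
        algebraMap (ResidueField ↥A) (legEt hA M hp2) (res r))
    (hρj : ∀ hj : legJE ↥K' M ∈ legWinf ↥(baseRing A K') ↥K' h2 M,
      ρ ⟨legJE ↥K' M, hj⟩ = legJt M hA hp2)
    (hQ : ∀ Q : Place (ResidueField ↥A) (legEt hA M hp2), ∀ z ∈ Q.toValuationSubring,
      ∃ c : ResidueField ↥A, Q.toValuationSubring.valuation
        (z - algebraMap (ResidueField ↥A) (legEt hA M hp2) c) < 1)
    -- the Hecke operator
    (ℓ : ℕ) [NeZero ℓ] [NeZero (M * ℓ)] (hℓ : ℓ.Prime) (hℓ2 : ℓ ≠ 2) (hpMℓ : ¬ p ∣ M * ℓ)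
    (hfin : FiniteAlong (ResidueField ↥A) (legEtA hA M hp2 ℓ))
    (hsep : letI := algebraAlong (legEtA hA M hp2 ℓ)
      Algebra.IsSeparable (legEt hA M hp2) (legEt hA (M * ℓ) hp2))
    (hab : ¬ (a ℓ ≡ (ℓ : ℤ) + 1 [ZMOD (p : ℤ)]))
    -- the function along the two sheets
    {ainf a0 : ℤ}
    (hfinf : (legWinf ↥(baseRing A K') ↥K' h2 (M * p)).valuation
      (fullToLegE ↥K' (M * p) f₀ *
        (algebraMap ↥(baseRing A K') ↥(legE ↥K' (M * p)) ϖ ^ ainf)⁻¹) = 1)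
    (hf0 : (legW0 ↥(baseRing A K') ↥K' hbez hp).valuation
      (fullToLegE ↥K' (M * p) f₀ *
        (algebraMap ↥(baseRing A K') ↥(legE ↥K' (M * p)) ϖ ^ a0)⁻¹) = 1)
    (hdelta : (p : ℤ) ∣ a0 - ainf)
    -- the reductions
    {x₀ U₀ : ↥(legE ↥K' M)} (hx₀ : x₀ ∈ legWinf ↥(baseRing A K') ↥K' h2 M)
    (hU₀ : U₀ ∈ legWinf ↥(baseRing A K') ↥K' h2 M)
    (hlink : (legWinf ↥(baseRing A K') ↥K' h2 (M * p)).valuation
      (fullToLegE ↥K' (M * p) f₀ *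
        (algebraMap ↥(baseRing A K') ↥(legE ↥K' (M * p)) ϖ ^ ainf)⁻¹ -
        legHostA ↥K' M p x₀) < 1)
    (hlinkU : (legWinf ↥(baseRing A K') ↥K' h2 (M * p)).valuation
      (fullToLegE ↥K' (M * p) (modUnit ↥K' (M * p) p (Dvd.intro_left M rfl)) -
        legHostA ↥K' M p U₀) < 1)
    (hTF : ∃ (c : ResidueField ↥A) (u : legEt hA M hp2), c ≠ 0 ∧ u ≠ 0 ∧
      legEtT hA M hp2 ℓ hℓ hℓ2 (ρ ⟨x₀, hx₀⟩) =
        algebraMap (ResidueField ↥A) (legEt hA M hp2) c * ρ ⟨x₀, hx₀⟩ ^ (a ℓ) * u ^ p)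
    (hTU : ∃ c : ResidueField ↥A, c ≠ 0 ∧
      legEtT hA M hp2 ℓ hℓ hℓ2 (ρ ⟨U₀, hU₀⟩) =
        algebraMap (ResidueField ↥A) (legEt hA M hp2) c * ρ ⟨U₀, hU₀⟩ ^ ((ℓ : ℤ) + 1)) :
    ∀ Q : Place (ResidueField ↥A) (legEt hA M hp2), (p : ℤ) ∣ Q.ord (ρ ⟨x₀, hx₀⟩) := by
  classical
  have hK' : IsBase p K' := hyp.base
  haveI : IsAlgClosed (ResidueField ↥(baseRing A K')) := hK'.isAlgClosed_residueField hA
  have hpϖ := natCast_mem_span_uniformizer_baseRing hA K' hϖ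
  have hmodel : SSModelLeg ↥(baseRing A K') ↥K' ϖ h2 hbez hp hp2 :=
    ssModelLeg ↥(baseRing A K') ↥K' hϖ h2 hbez hp hp2 hpϖ
      (geoHyps_legE_baseRing hA M hpM hK' hp2 hϖ)
  haveI : FiniteDimensional ↥(↥K')⟮jqNModC ↥K' 2⟯ ↥(legE ↥K' (M * p)) :=
    finite_legE_adjoin_j ↥K' (M * p)
  have h' := SSModelLeg.ssModel ↥(baseRing A K') ↥K' hmodel
  -- `p = u ϖ ^ e`
  have hp0 : ((p : ℕ) : ↥(baseRing A K')) ≠ 0 := by
    exact_mod_cast (Nat.cast_ne_zero (R := ↥(baseRing A K'))).mpr hp.ne_zero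
  obtain ⟨e, u, hu⟩ := IsDiscreteValuationRing.eq_unit_mul_pow_irreducible hp0 hϖ
  have he : 0 < e := by
    rcases Nat.eq_zero_or_pos e with h0 | h0
    · exfalso
      rw [h0, pow_zero, mul_one] at hu
      have hu' : IsUnit ((p : ℕ) : ↥(baseRing A K')) := hu ▸ Units.isUnit _
      obtain ⟨z, hz⟩ := Ideal.mem_span_singleton.mp hpϖ
      rw [hz] at hu'
      exact hϖ.not_isUnit (isUnit_of_mul_isUnit_left hu')
    · exact h0
  have hf : fullToLegE ↥K' (M * p) f₀ ≠ 0 :=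
    (_root_.map_ne_zero (fullToLegE ↥K' (M * p))).mpr hyp.ne_zero
  have hUnode := ssModelLeg_nodeUnit ↥(baseRing A K') ↥K' (M := M) hϖ h2 hbez hp he hu
  have hfr := isFractionRing_chartOne (R := ↥(baseRing A K')) (K₁ := ↥K')
    (E := ↥(legE ↥K' (M * p))) (AdjoinSimple.gen ↥K' (jqNModC ↥K' 2)) h'.j_adjoin
  obtain ⟨X, m, k, K, hX, hk, hXu, hUfact, hKm, hprop, hval⟩ :=
    legPeuNode_package HB hp hp5 hpM hA hyp hϖ h2 hbez hu hfinf hf0 h'.two.chart_le_inf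
      h'.two.chart_le_zero hfr
  obtain ⟨mw, uw, hmw, hmwp, -, hζϖ⟩ := hyp.wild ϖ hϖ
  have harith : ∀ (nd : ChartNode (AdjoinSimple.gen ↥K' (jqNModC ↥K' 2))
      (legWinf ↥(baseRing A K') ↥K' h2 (M * p)) (legW0 ↥(baseRing A K') ↥K' hbez hp)
      h'.two.chart_le_inf h'.two.chart_le_zero) (ordF x : ℤ), (p : ℤ) ∣ ordF - k nd * x →
      ((p : ℤ) ∣ ordF ∨ (p : ℤ) ∣ K nd) → (p : ℤ) ∣ ordF := fun nd ordF x h1 h2 =>
    dvd_ord_of_elim hp hp5 hϖ hyp.zeta hmw hmwp hζϖ hu (hKm nd).1 (hval nd) hdelta h1 h2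
  have hjV : legJE ↥K' M ∈ legWinf ↥(baseRing A K') ↥K' h2 M := h'.jM_mem
  have hab' : ¬ (p : ℤ) ∣ a ℓ - ((ℓ : ℤ) + 1) := fun hd =>
    hab (Int.modEq_iff_dvd.mpr (by
      have e : (ℓ : ℤ) + 1 - a ℓ = -(a ℓ - ((ℓ : ℤ) + 1)) := by ring
      rw [e]
      exact (dvd_neg.mpr hd)))
  exact SSModel.dvd_ord_red_of_hecke h' hϖ he hu
    (SSModelLeg.jint ↥(baseRing A K') ↥K' hϖ hmodel) ρ hρ res hres hρR hQ hjV hf hyp.ord hUnode
    h'.two.chart_le_inf h'.two.chart_le_zero X k K hXu hk hUfact hprop harith hx₀ hU₀ hfinf hlink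
    hlinkU (legEtT hA M hp2 ℓ hℓ hℓ2)
    (fun z hz h Q hQ' => by
      rw [hρj hjV] at hQ' h
      exact legEtT_pdiv hA M hp2 ℓ hℓ hℓ2 hpM hpMℓ hfin hsep (p : ℤ) z hz h Q hQ')
    (a ℓ) ((ℓ : ℤ) + 1) hab' hTF hTU

end Core

end Fermat.Agent.MP
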