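import Mathlib
import Fermat.Agent.FG.EDEF_helper6_PsiBij
import Fermat.Agent.JA.DEGK_helper8
import Fermat.Agent.JA.REDA_helper1_Eval

/-!
# Project MP40 — C5 [ORD] helper9: the places of the reduced Legendre host are rational

`k = ResidueField A` is algebraically closed and `legEt hA M hp2` is a function field in one
variable over `k` (`legEt_facts`), so every place `Q` has residue field `k`:
`legEt_place_rational`.
-/

set_option autoImplicit false
set_option linter.unusedSectionVars false
set_option linter.unusedVariables false
set_option linter.style.haveILetI false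

namespace Fermat.Agent.MP

open ModularCurve AlgebraicCurve IntermediateField Fermat.Agent.JA Fermat.Agent.SS Fermat.Agent.FG
  IsLocalRing

local notation "Ω" => AlgebraicClosure ℚ

section RatPlace

variable {p : ℕ} [Fact p.Prime] {A : ValuationSubring Ω} (hA : A.LiesOverPrime p) (M : ℕ)
  [NeZero M] (hp2 : p ≠ 2)

/-- every place of the reduced Legendre host has degree one. -/
theorem legEt_place_deg_eq_one (hpM : ¬ p ∣ M)
    (Q : Place (ResidueField ↥A) (legEt hA M hp2)) : Q.deg = 1 := by
  haveI := isAlgClosed_residueField A
  obtain ⟨-, hfin, -, -⟩ := legEt_facts hA M hpM hp2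
  haveI := hfin
  exact degk_deg_eq_one (legTb hA M hp2) (Algebra.IsAlgebraic.of_finite _ _) Q

/-- every place of the reduced Legendre host is rational. -/
theorem legEt_isRationalPlace (hpM : ¬ p ∣ M)
    (Q : Place (ResidueField ↥A) (legEt hA M hp2)) : IsRationalPlace Q :=
  isRationalPlace_of_deg_eq_one Q (legEt_place_deg_eq_one hA M hp2 hpM Q)

/-- **every place of the reduced Legendre host is rational**, valuation form: an element of the
valuation ring of `Q` is congruent to a constant. -/
theorem legEt_place_rational (hpM : ¬ p ∣ M)
    (Q : Place (ResidueField ↥A) (legEt hA M hp2)) :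
    ∀ y ∈ Q.toValuationSubring, ∃ c : ResidueField ↥A,
      Q.toValuationSubring.valuation (y - algebraMap (ResidueField ↥A) (legEt hA M hp2) c) < 1 := by
  intro y hy
  obtain ⟨c, hc⟩ := legEt_isRationalPlace hA M hp2 hpM Q y hy
  refine ⟨c, ?_⟩
  obtain ⟨hmem, h0 | hinv⟩ := (Place.isZeroAt_iff Q _).mp hc
  · rw [h0, map_zero]
    exact zero_lt_one
  · refine lt_of_le_of_ne ((ValuationSubring.valuation_le_one_iff _ _).mpr hmem) ?_
    intro h1
    apply hinv
    rw [← ValuationSubring.valuation_le_one_iff, map_inv₀, h1, inv_one]

end RatPlace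

end Fermat.Agent.MP
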