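import Mathlib
import Fermat.Agent.MP.ORD_helper1_Defs
import Fermat.Agent.MP.PLHOST_helper9_RatPlace

/-!
# Project MP40 — (C) [ORD] helper1: `LegEtRationalP` (adapter to helper9's `legEt_place_rational`)
-/

set_option autoImplicit false

namespace Fermat.Agent.MP

/-- the places of the reduced Legendre host are rational. -/
theorem legEtRationalP : LegEtRationalP := by
  intro M _ p _ hp2 hpM A hA Q
  exact legEt_place_rational hA M hp2 hpM Q

end Fermat.Agent.MP
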