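/-
MP40 C5 [RED∞] — helper8 — abstract part: **the reduction map of a sheet of residue degree one.**

`V ⊆ E₀`, `W ⊆ E` valuation subrings, `P : E₀ →+* E` with `W ∩ P E₀ = P V` (`hcomap`) and residue
degree one (`hres`: every element of `W` is congruent to some `P a`, `a ∈ V`).  Every ring
homomorphism `φ : V → F` to a field killing the maximal ideal extends uniquely to
`resLift : W → F` with `resLift (P a) = φ a`; its kernel is the maximal ideal of `W`.
-/
import Mathlib
import Fermat.Agent.MP.HECKERO_helper6_Comap

set_option autoImplicit false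
set_option linter.unusedSectionVars false
set_option linter.unusedVariables false
set_option linter.style.haveILetI false

open IsLocalRing

namespace Fermat.Agent.MP

noncomputable section

section Lift

variable {E₀ E F : Type*} [Field E₀] [Field E] [Field F]
  (V : ValuationSubring E₀) (W : ValuationSubring E) (P : E₀ →+* E)
  (hcomap : W.comap P = V)
  (hres : ∀ x ∈ W, ∃ a ∈ V, W.valuation (x - P a) < 1)
  (φ : ↥V →+* F) (hφ : ∀ a : ↥V, V.valuation (a : E₀) < 1 → φ a = 0)

include hres in
/-- residue degree one: the map of residue fields is bijective. -/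
theorem valSubResMap_bijective_of_res : Function.Bijective (valSubResMap V W P hcomap) := by
  refine ⟨RingHom.injective _, fun y => ?_⟩
  obtain ⟨x, rfl⟩ := residue_surjective y
  obtain ⟨a, ha, hlt⟩ := hres (x : E) x.2
  refine ⟨residue ↥V ⟨a, ha⟩, ?_⟩
  have ha' : P a ∈ W := by
    have : a ∈ W.comap P := by rw [hcomap]; exact ha
    exact this
  rw [valSubResMap_residue_mk V W P hcomap a ha ha']
  symm
  rw [← sub_eq_zero, ← map_sub, residue_eq_zero_iff, ValuationSubring.valuation_lt_one_iff]
  exact hlt

/-- the isomorphism of residue fields of a sheet of residue degree one. -/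
def resEquivOfRes : ResidueField ↥V ≃+* ResidueField ↥W :=
  RingEquiv.ofBijective (valSubResMap V W P hcomap)
    (valSubResMap_bijective_of_res V W P hcomap hres)

theorem resEquivOfRes_apply (z : ResidueField ↥V) :
    resEquivOfRes V W P hcomap hres z = valSubResMap V W P hcomap z := rfl

/-- a ring homomorphism `V → F` killing the maximal ideal, on the residue field. -/
def resBarOf : ResidueField ↥V →+* F :=
  Ideal.Quotient.lift (maximalIdeal ↥V) φ (fun a ha =>
    hφ a ((ValuationSubring.valuation_lt_one_iff V a).mp ha))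

theorem resBarOf_residue (a : ↥V) : resBarOf V φ hφ (residue ↥V a) = φ a :=
  Ideal.Quotient.lift_mk _ _ _

/-- **the reduction map of the sheet `W`.** -/
def resLift : ↥W →+* F :=
  (resBarOf V φ hφ).comp
    (((resEquivOfRes V W P hcomap hres).symm : ResidueField ↥W →+* ResidueField ↥V).comp
      (residue ↥W))

theorem resLift_apply (x : ↥W) :
    resLift V W P hcomap hres φ hφ x =
      resBarOf V φ hφ ((resEquivOfRes V W P hcomap hres).symm (residue ↥W x)) := rfl

/-- `resLift (P a) = φ a`. -/
theorem resLift_apply_P (a : E₀) (ha : a ∈ V) (ha' : P a ∈ W) :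
    resLift V W P hcomap hres φ hφ ⟨P a, ha'⟩ = φ ⟨a, ha⟩ := by
  rw [resLift_apply, ← valSubResMap_residue_mk V W P hcomap a ha ha',
    ← resEquivOfRes_apply V W P hcomap hres, RingEquiv.symm_apply_apply, resBarOf_residue]

/-- the kernel of `resLift` is the maximal ideal of `W`. -/
theorem resLift_eq_zero_iff (x : ↥W) :
    resLift V W P hcomap hres φ hφ x = 0 ↔ W.valuation (x : E) < 1 := by
  rw [resLift_apply, map_eq_zero, map_eq_zero_iff _ (RingEquiv.injective _), residue_eq_zero_iff,
    ValuationSubring.valuation_lt_one_iff]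

theorem resLift_eq_zero_of_lt (x : ↥W) (h : W.valuation (x : E) < 1) :
    resLift V W P hcomap hres φ hφ x = 0 :=
  (resLift_eq_zero_iff V W P hcomap hres φ hφ x).mpr h

/-- `resLift x = φ a` as soon as `x ≡ P a`. -/
theorem resLift_eq_of_congr (x : ↥W) (a : E₀) (ha : a ∈ V)
    (h : W.valuation ((x : E) - P a) < 1) :
    resLift V W P hcomap hres φ hφ x = φ ⟨a, ha⟩ := by
  have ha' : P a ∈ W := by
    have : a ∈ W.comap P := by rw [hcomap]; exact ha
    exact this
  rw [← resLift_apply_P V W P hcomap hres φ hφ a ha ha', ← sub_eq_zero, ← map_sub,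
    resLift_eq_zero_iff]
  exact h

include hres in
/-- `resLift` is onto when `φ` is. -/
theorem resLift_surjective (hφs : Function.Surjective φ) :
    Function.Surjective (resLift V W P hcomap hres φ hφ) := by
  intro z
  obtain ⟨a, rfl⟩ := hφs z
  have ha' : P (a : E₀) ∈ W := by
    have : (a : E₀) ∈ W.comap P := by rw [hcomap]; exact a.2
    exact this
  exact ⟨⟨P (a : E₀), ha'⟩, resLift_apply_P V W P hcomap hres φ hφ (a : E₀) a.2 ha'⟩

/-- every element of `W` has the reduction of some `P a`. -/
theorem exists_resLift_eq (x : ↥W) :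
    ∃ (a : E₀) (ha : a ∈ V), W.valuation ((x : E) - P a) < 1 ∧
      resLift V W P hcomap hres φ hφ x = φ ⟨a, ha⟩ := by
  obtain ⟨a, ha, hlt⟩ := hres (x : E) x.2
  exact ⟨a, ha, hlt, resLift_eq_of_congr V W P hcomap hres φ hφ x a ha hlt⟩

end Lift

end

end Fermat.Agent.MP
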