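/-
MP40 C5 [RED∞] — helper8 — host part: **the reduction maps of the Legendre hosts over a base `K'`
into the reduced function fields over `k`**.

* `legRhoBase hA N hp2 K' h2 : V_N(K') → Ẽ_N`, `x ↦ legρ (legBC x)` (any level `N`), kernel the
  maximal ideal, compatible with the constants, the degeneracy maps and `fullToLegE`;
* `legRedInf hA M hp2 K' h2 hK' hpM : W_∞(K', M p) → Ẽ_M`, the reduction of the sheet `∞` of the
  level `M p` (residue degree one along `A`), with `legRedInf (A a) = legRhoBase a`.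
-/
import Mathlib
import Fermat.Agent.MP.REDINF_helper8_Lift
import Fermat.Agent.MP.HECKERO_helper6_Comap
import Fermat.Agent.FG.EDEF_helper6_Desc
import Fermat.Agent.JA.BCDEG_helper7
import Fermat.Agent.SS.MODEL_helper7_Leg
import Fermat.Agent.SS.VAL2_helper7_HostGauss
import Fermat.Agent.SS.MODELS_helper7_AtBases
import Fermat.Agent.SS.FIELD_helper9_A
import Fermat.Agent.JA.GEOBASE_helper8_Base
import Fermat.Agent.SS.BASE_helper1_Leg
import Fermat.Agent.SS.FIELD_helper3_T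

set_option autoImplicit false
set_option linter.unusedSectionVars false
set_option linter.unusedVariables false
set_option linter.style.haveILetI false
set_option synthInstance.maxHeartbeats 400000

open HahnSeries IntermediateField ModularCurve IsLocalRing

namespace Fermat.Agent.MP

open Fermat.Agent.JA Fermat.Agent.Igusa Fermat.Agent.SS Fermat.Agent.FG Fermat.Agent.S36

open scoped Fermat.Agent.JA.Host

/-- `Ω = AlgebraicClosure ℚ`. -/
local notation "Ω" => AlgebraicClosure ℚ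

noncomputable section

section Rho

variable {p : ℕ} [Fact p.Prime] {A : ValuationSubring Ω} (hA : A.LiesOverPrime p)
  (N : ℕ) [NeZero N] (hp2 : p ≠ 2)
  (K' : IntermediateField ℚ Ω) [IsDiscreteValuationRing ↥(baseRing A K')]
  (h2 : IsUnit (2 : ↥(baseRing A K')))

/-- the base change of a Gauss-integral function over `K'` is `A`-integral. -/
theorem legBC_mem_legWE_of_mem_legWinf (x : ↥(legE ↥K' N))
    (hx : x ∈ legWinf ↥(baseRing A K') ↥K' h2 N) : legBC N K' x ∈ legWE hA N hp2 := by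
  show ((legBC N K' x : ↥(legE Ω N)) : LaurentSeries Ω) ∈ fracInt A
  rw [coe_legBC]
  exact coeffMap_mem_fracInt_of_mem_gaussInt hx

/-- **the reduction map `V_N(K') → Ẽ_N`.** -/
def legRhoBase : ↥(legWinf ↥(baseRing A K') ↥K' h2 N) →+* legEt hA N hp2 :=
  (legρ hA N hp2).comp
    (((legBC N K').comp (legWinf ↥(baseRing A K') ↥K' h2 N).subtype).codRestrict
      (legWE hA N hp2).toSubring
      (fun x => legBC_mem_legWE_of_mem_legWinf hA N hp2 K' h2 (x : ↥(legE ↥K' N)) x.2))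

theorem legRhoBase_apply (x : ↥(legWinf ↥(baseRing A K') ↥K' h2 N)) :
    legRhoBase hA N hp2 K' h2 x =
      legρ hA N hp2 ⟨legBC N K' (x : ↥(legE ↥K' N)),
        legBC_mem_legWE_of_mem_legWinf hA N hp2 K' h2 (x : ↥(legE ↥K' N)) x.2⟩ := rfl

theorem legRhoBase_mk (x : ↥(legE ↥K' N)) (hx : x ∈ legWinf ↥(baseRing A K') ↥K' h2 N)
    (hW : legBC N K' x ∈ legWE hA N hp2) :
    legRhoBase hA N hp2 K' h2 ⟨x, hx⟩ = legρ hA N hp2 ⟨legBC N K' x, hW⟩ := rfl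

/-- the series of the reduction. -/
theorem legEtEmb_legRhoBase (x : ↥(legWinf ↥(baseRing A K') ↥K' h2 N)) :
    legEtEmb hA N hp2 (legRhoBase hA N hp2 K' h2 x) =
      coeffMap (baseResidueMap A K') (gaussRed ↥(baseRing A K') ↥K'
        ⟨((x : ↥(legE ↥K' N)) : LaurentSeries ↥K'), x.2⟩) := by
  rw [legRhoBase_apply, legEtEmb_legρ, ← fracRed_coeffMap_of_mem_gaussInt x.2]
  rfl

/-- the kernel of `legRhoBase` is the maximal ideal. -/
theorem legRhoBase_eq_zero_iff (x : ↥(legWinf ↥(baseRing A K') ↥K' h2 N)) :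
    legRhoBase hA N hp2 K' h2 x = 0 ↔
      (legWinf ↥(baseRing A K') ↥K' h2 N).valuation (x : ↥(legE ↥K' N)) < 1 := by
  rw [← map_eq_zero_iff (legEtEmb hA N hp2) (RingHom.injective _), legEtEmb_legRhoBase,
    map_eq_zero_iff _ (coeffMapV_injective (baseResidueMap_injective A K'))]
  unfold legWinf
  rw [gaussValSub_valuation_lt_one_iff]
  constructor
  · intro h
    exact ⟨x.2, h⟩
  · rintro ⟨_, h⟩
    exact h

end Rho

section Compat

variable {p : ℕ} [Fact p.Prime] {A : ValuationSubring Ω} (hA : A.LiesOverPrime p)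
  (N : ℕ) [NeZero N] (hp2 : p ≠ 2)
  (K' : IntermediateField ℚ Ω) [IsDiscreteValuationRing ↥(baseRing A K')]
  (h2 : IsUnit (2 : ↥(baseRing A K')))

/-- constants reduce to constants. -/
theorem legRhoBase_algebraMap (r : ↥(baseRing A K'))
    (hr : algebraMap ↥(baseRing A K') ↥(legE ↥K' N) r ∈ legWinf ↥(baseRing A K') ↥K' h2 N) :
    legRhoBase hA N hp2 K' h2 ⟨algebraMap ↥(baseRing A K') ↥(legE ↥K' N) r, hr⟩ =
      algebraMap (ResidueField ↥A) (legEt hA N hp2)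
        (baseResidueMap A K' (residue ↥(baseRing A K') r)) := by
  have e : legBC N K' (algebraMap ↥(baseRing A K') ↥(legE ↥K' N) r) =
      algebraMap Ω ↥(legE Ω N) ((baseIncl A K' r : ↥A) : Ω) := by
    rw [IsScalarTower.algebraMap_apply ↥(baseRing A K') ↥K' ↥(legE ↥K' N), legBC_algebraMap]
    rfl
  have hW : algebraMap Ω ↥(legE Ω N) ((baseIncl A K' r : ↥A) : Ω) ∈ legWE hA N hp2 :=
    (algebraMap_mem_legWE_iff hA N hp2 _).mpr (baseIncl A K' r).2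
  have e2 : legRhoBase hA N hp2 K' h2 ⟨algebraMap ↥(baseRing A K') ↥(legE ↥K' N) r, hr⟩ =
      legρ hA N hp2 ⟨algebraMap Ω ↥(legE Ω N) ((baseIncl A K' r : ↥A) : Ω), hW⟩ := by
    rw [legRhoBase_apply]
    congr 1
    exact Subtype.ext e
  rw [e2, legρ_algebraMap hA N hp2 (baseIncl A K' r) hW, baseResidueMap_residue]

/-- the reduction of a function of the level field, in the currency of `LegPeuOrdP`. -/
theorem legRhoBase_fullToLegE (w₀ : ↥(keyFq ↥K' N))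
    (hw : fullToLegE ↥K' N w₀ ∈ legWinf ↥(baseRing A K') ↥K' h2 N)
    (hW : fullToLegE Ω N (keyFqBC N K' w₀) ∈ legWE hA N hp2) :
    legRhoBase hA N hp2 K' h2 ⟨fullToLegE ↥K' N w₀, hw⟩ =
      legρ hA N hp2 ⟨fullToLegE Ω N (keyFqBC N K' w₀), hW⟩ := by
  rw [legRhoBase_apply]
  congr 1
  exact Subtype.ext (bcdeg_legBC_fullToLegE N K' w₀)

end Compat

section Degen

variable {p : ℕ} [Fact p.Prime] {A : ValuationSubring Ω} (hA : A.LiesOverPrime p)
  (M : ℕ) [NeZero M] (hp2 : p ≠ 2) (ℓ : ℕ) [NeZero ℓ] [NeZero (M * ℓ)]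
  (K' : IntermediateField ℚ Ω) [IsDiscreteValuationRing ↥(baseRing A K')]
  (h2 : IsUnit (2 : ↥(baseRing A K')))

/-- base change commutes with `A`. -/
theorem legBC_legHostA_h8 (x : ↥(legE ↥K' M)) :
    legBC (M * ℓ) K' (legHostA ↥K' M ℓ x) = legHostA Ω M ℓ (legBC M K' x) := by
  apply Subtype.ext
  have h1 : ((legHostA ↥K' M ℓ x : ↥(legE ↥K' (M * ℓ))) : LaurentSeries ↥K') = x :=
    IntermediateField.coe_inclusion _ x
  rw [coe_legBC, h1, coe_legHostA_Ω, coe_legBC]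


/-- `legRhoBase` is compatible with `A_ℓ`. -/
theorem legRhoBase_legHostA (x : ↥(legE ↥K' M)) (hx : x ∈ legWinf ↥(baseRing A K') ↥K' h2 M)
    (hx' : legHostA ↥K' M ℓ x ∈ legWinf ↥(baseRing A K') ↥K' h2 (M * ℓ)) :
    legRhoBase hA (M * ℓ) hp2 K' h2 ⟨legHostA ↥K' M ℓ x, hx'⟩ =
      legEtA hA M hp2 ℓ (legRhoBase hA M hp2 K' h2 ⟨x, hx⟩) := by
  have hW := legBC_mem_legWE_of_mem_legWinf hA M hp2 K' h2 x hx
  have hW' := legHostA_mem_legWE hA M hp2 ℓ hW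
  have hW'' : legBC (M * ℓ) K' (legHostA ↥K' M ℓ x) ∈ legWE hA (M * ℓ) hp2 := by
    rw [legBC_legHostA_h8]; exact hW'
  have e1 : legRhoBase hA (M * ℓ) hp2 K' h2 ⟨legHostA ↥K' M ℓ x, hx'⟩ =
      legρ hA (M * ℓ) hp2 ⟨legBC (M * ℓ) K' (legHostA ↥K' M ℓ x), hW''⟩ :=
    legRhoBase_mk hA (M * ℓ) hp2 K' h2 _ hx' hW''
  have e2 : (⟨legBC (M * ℓ) K' (legHostA ↥K' M ℓ x), hW''⟩ : ↥(legWE hA (M * ℓ) hp2)) =
      ⟨legHostA Ω M ℓ (legBC M K' x), hW'⟩ := Subtype.ext (legBC_legHostA_h8 M ℓ K' x)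
  rw [e1, e2, legRhoBase_mk hA M hp2 K' h2 x hx hW, legEtA_legρ hA M hp2 ℓ _ hW hW']


/-- base change commutes with `B`. -/
theorem legBC_legHostB_h8 (hℓ : ℓ.Prime) (hℓ2 : ℓ ≠ 2) (x : ↥(legE ↥K' M)) :
    legBC (M * ℓ) K' (legHostB ↥K' M ℓ hℓ hℓ2 x) = legHostB Ω M ℓ hℓ hℓ2 (legBC M K' x) := by
  apply Subtype.ext
  rw [coe_legBC, coe_legHostB, coe_legHostB, coe_legBC, ModularCurve.coeffMap_qExpand]

/-- `legRhoBase` is compatible with `B_ℓ`. -/
theorem legRhoBase_legHostB (hℓ : ℓ.Prime) (hℓ2 : ℓ ≠ 2) (x : ↥(legE ↥K' M))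
    (hx : x ∈ legWinf ↥(baseRing A K') ↥K' h2 M)
    (hx' : legHostB ↥K' M ℓ hℓ hℓ2 x ∈ legWinf ↥(baseRing A K') ↥K' h2 (M * ℓ)) :
    legRhoBase hA (M * ℓ) hp2 K' h2 ⟨legHostB ↥K' M ℓ hℓ hℓ2 x, hx'⟩ =
      legEtB hA M hp2 ℓ hℓ hℓ2 (legRhoBase hA M hp2 K' h2 ⟨x, hx⟩) := by
  have hW := legBC_mem_legWE_of_mem_legWinf hA M hp2 K' h2 x hx
  have hW' := legHostB_mem_legWE hA M hp2 ℓ hℓ hℓ2 hW
  have hW'' : legBC (M * ℓ) K' (legHostB ↥K' M ℓ hℓ hℓ2 x) ∈ legWE hA (M * ℓ) hp2 := by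
    rw [legBC_legHostB_h8]; exact hW'
  have e1 : legRhoBase hA (M * ℓ) hp2 K' h2 ⟨legHostB ↥K' M ℓ hℓ hℓ2 x, hx'⟩ =
      legρ hA (M * ℓ) hp2 ⟨legBC (M * ℓ) K' (legHostB ↥K' M ℓ hℓ hℓ2 x), hW''⟩ :=
    legRhoBase_mk hA (M * ℓ) hp2 K' h2 _ hx' hW''
  have e2 : (⟨legBC (M * ℓ) K' (legHostB ↥K' M ℓ hℓ hℓ2 x), hW''⟩ :
      ↥(legWE hA (M * ℓ) hp2)) = ⟨legHostB Ω M ℓ hℓ hℓ2 (legBC M K' x), hW'⟩ :=
    Subtype.ext (legBC_legHostB_h8 M ℓ K' hℓ hℓ2 x)
  rw [e1, e2, legRhoBase_mk hA M hp2 K' h2 x hx hW, legEtB_legρ hA M hp2 ℓ hℓ hℓ2 _ hW hW']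

end Degen

section Inf

variable {p : ℕ} [Fact p.Prime] {A : ValuationSubring Ω} (hA : A.LiesOverPrime p)
  (M : ℕ) [NeZero M] [NeZero p] [NeZero (M * p)] (hp2 : p ≠ 2)
  (K' : IntermediateField ℚ Ω) [IsDiscreteValuationRing ↥(baseRing A K')]
  (h2 : IsUnit (2 : ↥(baseRing A K')))

/-- `W_∞(M p) ∩ A E_M = A V_M`. -/
theorem legWinf_comap_legHostA_base :
    (legWinf ↥(baseRing A K') ↥K' h2 (M * p)).comap
      ((legHostA ↥K' M p : ↥(legE ↥K' M) →ₐ[↥K'] ↥(legE ↥K' (M * p))) :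
        ↥(legE ↥K' M) →+* ↥(legE ↥K' (M * p))) = legWinf ↥(baseRing A K') ↥K' h2 M := by
  ext x
  rw [ValuationSubring.mem_comap]
  show ((legHostA ↥K' M p x : ↥(legE ↥K' (M * p))) : LaurentSeries ↥K') ∈ gaussInt _ _ ↔
    ((x : ↥(legE ↥K' M)) : LaurentSeries ↥K') ∈ gaussInt _ _
  have h1 : ((legHostA ↥K' M p x : ↥(legE ↥K' (M * p))) : LaurentSeries ↥K') = x :=
    IntermediateField.coe_inclusion _ x
  rw [h1]

include hA hp2 in
/-- residue degree one along `A` on the sheet `∞` of the Legendre host over a base. -/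
theorem legWinf_res_inf_base (hK' : IsBase p K') (hpM : ¬ p ∣ M) :
    ∀ x ∈ legWinf ↥(baseRing A K') ↥K' h2 (M * p), ∃ a ∈ legWinf ↥(baseRing A K') ↥K' h2 M,
      (legWinf ↥(baseRing A K') ↥K' h2 (M * p)).valuation
        (x - ((legHostA ↥K' M p : ↥(legE ↥K' M) →ₐ[↥K'] ↥(legE ↥K' (M * p))) :
          ↥(legE ↥K' M) →+* ↥(legE ↥K' (M * p))) a) < 1 := by
  classical
  have hp : p.Prime := Fact.out
  obtain ⟨ϖ, hϖ⟩ := IsDiscreteValuationRing.exists_irreducible ↥(baseRing A K')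
  obtain ⟨x, y, hbez⟩ := exists_bezout_of_prime_of_not_dvd hp hpM
  letI := baseToComplex K'
  have hpϖ := natCast_mem_span_uniformizer_baseRing hA K' hϖ
  have hmodel : SSModelLeg ↥(baseRing A K') ↥K' ϖ h2 hbez hp hp2 :=
    ssModelLeg ↥(baseRing A K') ↥K' hϖ h2 hbez hp hp2 hpϖ
      (geoHyps_legE_baseRing hA M hpM hK' hp2 hϖ)
  haveI : FiniteDimensional ↥(↥K')⟮jqNModC ↥K' 2⟯ ↥(legE ↥K' (M * p)) :=
    finite_legE_adjoin_j ↥K' (M * p)
  have h' := SSModelLeg.ssModel ↥(baseRing A K') ↥K' hmodel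
  exact h'.res_inf


/-- **the reduction map of the sheet `∞` of level `M p`**, with values in the reduced function
field of level `M`. -/
def legRedInf (hK' : IsBase p K') (hpM : ¬ p ∣ M) :
    ↥(legWinf ↥(baseRing A K') ↥K' h2 (M * p)) →+* legEt hA M hp2 :=
  resLift (legWinf ↥(baseRing A K') ↥K' h2 M) (legWinf ↥(baseRing A K') ↥K' h2 (M * p))
    ((legHostA ↥K' M p : ↥(legE ↥K' M) →ₐ[↥K'] ↥(legE ↥K' (M * p))) :
      ↥(legE ↥K' M) →+* ↥(legE ↥K' (M * p)))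
    (legWinf_comap_legHostA_base M K' h2) (legWinf_res_inf_base hA M hp2 K' h2 hK' hpM)
    (legRhoBase hA M hp2 K' h2)
    (fun a h => (legRhoBase_eq_zero_iff hA M hp2 K' h2 a).mpr h)

/-- `legRedInf (A a) = legRhoBase a`. -/
theorem legRedInf_legHostA (hK' : IsBase p K') (hpM : ¬ p ∣ M) (a : ↥(legE ↥K' M))
    (ha : a ∈ legWinf ↥(baseRing A K') ↥K' h2 M)
    (ha' : legHostA ↥K' M p a ∈ legWinf ↥(baseRing A K') ↥K' h2 (M * p)) :
    legRedInf hA M hp2 K' h2 hK' hpM ⟨legHostA ↥K' M p a, ha'⟩ =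
      legRhoBase hA M hp2 K' h2 ⟨a, ha⟩ :=
  resLift_apply_P _ _ _ _ _ _ _ a ha ha'

/-- the kernel of `legRedInf` is the maximal ideal of `W_∞`. -/
theorem legRedInf_eq_zero_iff (hK' : IsBase p K') (hpM : ¬ p ∣ M)
    (x : ↥(legWinf ↥(baseRing A K') ↥K' h2 (M * p))) :
    legRedInf hA M hp2 K' h2 hK' hpM x = 0 ↔
      (legWinf ↥(baseRing A K') ↥K' h2 (M * p)).valuation (x : ↥(legE ↥K' (M * p))) < 1 :=
  resLift_eq_zero_iff _ _ _ _ _ _ _ x

/-- `legRedInf x = legRhoBase a` as soon as `x ≡ A a` along `W_∞`. -/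
theorem legRedInf_eq_of_congr (hK' : IsBase p K') (hpM : ¬ p ∣ M)
    (x : ↥(legWinf ↥(baseRing A K') ↥K' h2 (M * p))) (a : ↥(legE ↥K' M))
    (ha : a ∈ legWinf ↥(baseRing A K') ↥K' h2 M)
    (h : (legWinf ↥(baseRing A K') ↥K' h2 (M * p)).valuation
      ((x : ↥(legE ↥K' (M * p))) - legHostA ↥K' M p a) < 1) :
    legRedInf hA M hp2 K' h2 hK' hpM x = legRhoBase hA M hp2 K' h2 ⟨a, ha⟩ :=
  resLift_eq_of_congr _ _ _ _ _ _ _ x a ha h

/-- every element of `W_∞` has the reduction of some `A a`. -/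
theorem exists_legRedInf_eq (hK' : IsBase p K') (hpM : ¬ p ∣ M)
    (x : ↥(legWinf ↥(baseRing A K') ↥K' h2 (M * p))) :
    ∃ (a : ↥(legE ↥K' M)) (ha : a ∈ legWinf ↥(baseRing A K') ↥K' h2 M),
      (legWinf ↥(baseRing A K') ↥K' h2 (M * p)).valuation
        ((x : ↥(legE ↥K' (M * p))) - legHostA ↥K' M p a) < 1 ∧
      legRedInf hA M hp2 K' h2 hK' hpM x = legRhoBase hA M hp2 K' h2 ⟨a, ha⟩ :=
  exists_resLift_eq _ _ _ _ _ _ _ x

/-- constants reduce to constants. -/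
theorem legRedInf_algebraMap (hK' : IsBase p K') (hpM : ¬ p ∣ M) (r : ↥(baseRing A K'))
    (hr : algebraMap ↥(baseRing A K') ↥(legE ↥K' (M * p)) r ∈
      legWinf ↥(baseRing A K') ↥K' h2 (M * p)) :
    legRedInf hA M hp2 K' h2 hK' hpM ⟨algebraMap ↥(baseRing A K') ↥(legE ↥K' (M * p)) r, hr⟩ =
      algebraMap (ResidueField ↥A) (legEt hA M hp2)
        (baseResidueMap A K' (residue ↥(baseRing A K') r)) := by
  have hr0 : algebraMap ↥(baseRing A K') ↥(legE ↥K' M) r ∈ legWinf ↥(baseRing A K') ↥K' h2 M := by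
    letI := baseToComplex K'
    exact algebraMap_mem_legWinf ↥(baseRing A K') ↥K' h2 M r
  have e : algebraMap ↥(baseRing A K') ↥(legE ↥K' (M * p)) r =
      legHostA ↥K' M p (algebraMap ↥(baseRing A K') ↥(legE ↥K' M) r) := by
    rw [IsScalarTower.algebraMap_apply ↥(baseRing A K') ↥K' ↥(legE ↥K' M), AlgHom.commutes,
      ← IsScalarTower.algebraMap_apply ↥(baseRing A K') ↥K' ↥(legE ↥K' (M * p))]
  have e2 : (⟨algebraMap ↥(baseRing A K') ↥(legE ↥K' (M * p)) r, hr⟩ :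
      ↥(legWinf ↥(baseRing A K') ↥K' h2 (M * p))) =
      ⟨legHostA ↥K' M p (algebraMap ↥(baseRing A K') ↥(legE ↥K' M) r), e ▸ hr⟩ :=
    Subtype.ext e
  rw [e2, legRedInf_legHostA hA M hp2 K' h2 hK' hpM _ hr0, legRhoBase_algebraMap]

include hA in
/-- the residue map `R' → k` is onto at a base. -/
theorem legBaseRes_surjective (hK' : IsBase p K') :
    Function.Surjective ((baseResidueMap A K').comp (residue ↥(baseRing A K'))) :=
  (hK'.baseResidueMap_bijective hA).2.comp residue_surjective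


/-- the link of `LegPeuOrdP`: if `x ≡ A (w₀)` along `W_∞`, `w₀` a function of the level field
`F_M(K')`, then the reduction of `x` is the reduction over `Ω` of the base change of `w₀`. -/
theorem legRedInf_eq_legρ_of_congr (hK' : IsBase p K') (hpM : ¬ p ∣ M)
    (x : ↥(legWinf ↥(baseRing A K') ↥K' h2 (M * p))) (w₀ : ↥(keyFq ↥K' M))
    (hw : fullToLegE ↥K' M w₀ ∈ legWinf ↥(baseRing A K') ↥K' h2 M)
    (hW : fullToLegE Ω M (keyFqBC M K' w₀) ∈ legWE hA M hp2)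
    (h : (legWinf ↥(baseRing A K') ↥K' h2 (M * p)).valuation
      ((x : ↥(legE ↥K' (M * p))) - legHostA ↥K' M p (fullToLegE ↥K' M w₀)) < 1) :
    legRedInf hA M hp2 K' h2 hK' hpM x =
      legρ hA M hp2 ⟨fullToLegE Ω M (keyFqBC M K' w₀), hW⟩ := by
  rw [legRedInf_eq_of_congr hA M hp2 K' h2 hK' hpM x _ hw h,
    legRhoBase_fullToLegE hA M hp2 K' h2 w₀ hw hW]

end Inf

end

end Fermat.Agent.MP
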