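/-
MP40 (C) [ORD] — helper8 — `legRhoBaseP : LegRhoBaseP`: the reduction map of the good level over
the small base, in the literal form consumed by helper1's `legPeuOrdP_of`.
-/
import Mathlib
import Fermat.Agent.MP.REDINF_helper8_Host
import Fermat.Agent.MP.ORD_helper1_Defs

set_option autoImplicit false
set_option linter.unusedSectionVars false
set_option linter.unusedVariables false
set_option linter.style.haveILetI false
set_option synthInstance.maxHeartbeats 400000

open HahnSeries IntermediateField ModularCurve IsLocalRing

namespace Fermat.Agent.MP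

open Fermat.Agent.JA Fermat.Agent.Igusa Fermat.Agent.SS Fermat.Agent.FG Fermat.Agent.S36
  Fermat.Agent.NP

open scoped Fermat.Agent.JA.Host

/-- `Ω = AlgebraicClosure ℚ`. -/
local notation "Ω" => AlgebraicClosure ℚ

/-- **the reduction map of the good level over the small base.** -/
theorem legRhoBaseP : LegRhoBaseP := by
  intro M _ p _ _ hp2 hpM A hA K' _ hK' h2
  refine ⟨legRhoBase hA M hp2 K' h2,
    (baseResidueMap A K').comp (residue ↥(baseRing A K')), legBaseRes_surjective hA K' hK',
    ?_, ?_, ?_⟩
  · intro z hz
    exact (legRhoBase_eq_zero_iff hA M hp2 K' h2 z).mpr hz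
  · intro r hr
    exact legRhoBase_algebraMap hA M hp2 K' h2 r hr
  · intro x hx hW
    exact legRhoBase_mk hA M hp2 K' h2 x hx hW

end Fermat.Agent.MP
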