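import Mathlib
import Fermat.Agent.MP.ROLDGR_helper3_Defs

/-!
# MP40 — [ROLD-GR], helper3, part 2: (GR1) the reduction of a normalised derivation

`X : GoodRed Ω A 𝔽 𝔽b`, `D = d/ω` a derivation of `𝔽 / Ω` with `IsDerDatum D κ` and `‖D‖ = 1`.

* `gaussNorm_der_eq_one` : `‖D t‖ = 1` for every coordinate `t` of every residue disc;
* `der_unit_of_isDiscCoord` : `D t` is a Gauss unit;
* **`der_mem_W`** : `D W ⊆ W`; `ρ_der_eq_zero` : `D 𝔪_W ⊆ 𝔪_W`;
* **`derBar`, `derBar_ρ`, `exists_derBar`** : the reduced derivation `D̄ (ρ f) = ρ (D f)`.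
-/

set_option autoImplicit false
set_option linter.unusedSectionVars false
set_option linter.unusedVariables false
set_option linter.style.haveILetI false

noncomputable section

namespace Fermat.Agent.MP

open AlgebraicCurve IsLocalRing Fermat.Agent.FF Fermat.Agent.JA Fermat.Agent.FG Fermat.Agent.MW
open scoped Classical

variable {Ω : Type*} [Field Ω] [IsAlgClosed Ω] {A : ValuationSubring Ω}
  {𝔽 : Type*} [Field 𝔽] [Algebra Ω 𝔽]
  {𝔽b : Type*} [Field 𝔽b] [Algebra (ResidueField ↥A) 𝔽b] {X : GoodRed Ω A 𝔽 𝔽b}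
  {Γ₀ : Type*} [LinearOrderedCommGroupWithZero Γ₀] {v : Valuation Ω Γ₀}
  {D : Derivation Ω 𝔽 𝔽} {κ : Place Ω 𝔽 → ℤ}

/-- a function of Gauss norm one is a Gauss unit. -/
theorem mem_W_and_inv_mem_W_of_gaussNorm_eq_one (hv : v.valuationSubring = A) {f : 𝔽}
    (h : gaussNorm X v f = 1) : f ∈ X.W ∧ f⁻¹ ∈ X.W := by
  have hf0 : f ≠ 0 := by
    rintro rfl
    rw [gaussNorm_zero] at h
    exact zero_ne_one h
  refine ⟨(gaussNorm_le_one_iff hv f).mp h.le, (gaussNorm_le_one_iff hv f⁻¹).mp ?_⟩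
  have h1 : gaussNorm X v (f * f⁻¹) = 1 := by
    rw [mul_inv_cancel₀ hf0]
    exact gaussNorm_eq_one hv one_ne_zero X.W.one_mem (by rw [inv_one]; exact X.W.one_mem)
  rw [gaussNorm_mul hv, h, one_mul] at h1
  exact h1.le

/-- `‖D t‖ = 1` for every disc coordinate. -/
theorem gaussNorm_der_eq_one (hv : v.valuationSubring = A) (hD : IsDerDatum D κ)
    (hn : IsNormalisedDer X D) {Q : Place (ResidueField ↥A) 𝔽b} {t : 𝔽} (h : IsDiscCoord X Q t) :
    gaussNorm X v (D t) = 1 := by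
  obtain ⟨Q₀, t₀, h₀, h1, h2⟩ := hn
  rw [gaussNorm_der_eq hv hD h h₀]
  exact gaussNorm_eq_one hv (h₀.der_ne_zero hD) h1 h2

/-- `D t` is a Gauss unit for every disc coordinate. -/
theorem der_unit_of_isDiscCoord (hv : v.valuationSubring = A) (hD : IsDerDatum D κ)
    (hn : IsNormalisedDer X D) {Q : Place (ResidueField ↥A) 𝔽b} {t : 𝔽} (h : IsDiscCoord X Q t) :
    D t ∈ X.W ∧ (D t)⁻¹ ∈ X.W :=
  mem_W_and_inv_mem_W_of_gaussNorm_eq_one hv (gaussNorm_der_eq_one hv hD hn h)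

/-- **(GR1)** a normalised derivation preserves the Gauss valuation ring. -/
theorem der_mem_W (hv : v.valuationSubring = A) (hD : IsDerDatum D κ)
    (hn : IsNormalisedDer X D) {f : 𝔽} (hf : f ∈ X.W) : D f ∈ X.W := by
  obtain ⟨t, ht⟩ := exists_isDiscCoord X X.cuspb
  rw [← gaussNorm_le_one_iff hv]
  exact (ht.gaussNorm_der_le hv hD hf).trans (gaussNorm_der_eq_one hv hD hn ht).le

/-- a normalised derivation preserves the maximal ideal of the Gauss valuation ring. -/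
theorem ρ_der_eq_zero (hv : v.valuationSubring = A) (hD : IsDerDatum D κ)
    (hn : IsNormalisedDer X D) {f : 𝔽} (hf : f ∈ X.W) (hρ : X.ρ ⟨f, hf⟩ = 0) :
    X.ρ ⟨D f, der_mem_W hv hD hn hf⟩ = 0 := by
  rcases eq_or_ne f 0 with rfl | h0
  · have : (⟨D (0 : 𝔽), der_mem_W hv hD hn hf⟩ : ↥X.W) = 0 := by
      apply Subtype.ext
      simp
    rw [this, map_zero]
  obtain ⟨a, u, ha, ha0, hu, hu', rfl⟩ := X.exists_smul_of_ρ_eq_zero hf h0 hρ
  obtain ⟨haA, hres⟩ := (GoodRed.mem_nonunits_iff' (A := A)).mp ha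
  have hDu : D u ∈ X.W := der_mem_W hv hD hn hu
  have e : (⟨D (a • u), der_mem_W hv hD hn hf⟩ : ↥X.W)
      = ⟨((⟨a, haA⟩ : ↥A) : Ω) • ((⟨D u, hDu⟩ : ↥X.W) : 𝔽), X.smul_mem_W haA hDu⟩ := by
    apply Subtype.ext
    show D (a • u) = a • D u
    exact D.map_smul a u
  rw [e, X.ρ_smul, hres, zero_smul]

variable (X D) in
/-- `D` as a self-map of the Gauss valuation ring. -/
def derW (hv : v.valuationSubring = A) (hD : IsDerDatum D κ) (hn : IsNormalisedDer X D) :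
    ↥X.W → ↥X.W := fun f => ⟨D (f : 𝔽), der_mem_W hv hD hn f.2⟩

theorem ρ_derW_congr (hv : v.valuationSubring = A) (hD : IsDerDatum D κ)
    (hn : IsNormalisedDer X D) {f g : ↥X.W} (h : X.ρ f = X.ρ g) :
    X.ρ (derW X D hv hD hn f) = X.ρ (derW X D hv hD hn g) := by
  have h1 : X.ρ ⟨((f - g : ↥X.W) : 𝔽), (f - g).2⟩ = 0 := by
    show X.ρ (f - g) = 0
    rw [map_sub, h, sub_self]
  have h2 := ρ_der_eq_zero hv hD hn (f - g).2 h1
  have e : (⟨D ((f - g : ↥X.W) : 𝔽), der_mem_W hv hD hn (f - g).2⟩ : ↥X.W)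
      = derW X D hv hD hn f - derW X D hv hD hn g := by
    apply Subtype.ext
    show D ((f : 𝔽) - (g : 𝔽)) = D (f : 𝔽) - D (g : 𝔽)
    rw [map_sub]
  rw [e, map_sub, sub_eq_zero] at h2
  exact h2

variable (X D) in
/-- the underlying function of the reduced derivation. -/
def derBarFun (hv : v.valuationSubring = A) (hD : IsDerDatum D κ) (hn : IsNormalisedDer X D) :
    𝔽b → 𝔽b := fun x => X.ρ (derW X D hv hD hn (X.ρ_surjective x).choose)

theorem derBarFun_ρ (hv : v.valuationSubring = A) (hD : IsDerDatum D κ)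
    (hn : IsNormalisedDer X D) (f : ↥X.W) :
    derBarFun X D hv hD hn (X.ρ f) = X.ρ (derW X D hv hD hn f) :=
  ρ_derW_congr hv hD hn (X.ρ_surjective (X.ρ f)).choose_spec

variable (X D) in
/-- the reduced derivation as a linear map. -/
def derBarLin (hv : v.valuationSubring = A) (hD : IsDerDatum D κ) (hn : IsNormalisedDer X D) :
    𝔽b →ₗ[ResidueField ↥A] 𝔽b where
  toFun := derBarFun X D hv hD hn
  map_add' := by
    intro x y
    obtain ⟨f, rfl⟩ := X.ρ_surjective x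
    obtain ⟨g, rfl⟩ := X.ρ_surjective y
    rw [← map_add, derBarFun_ρ, derBarFun_ρ, derBarFun_ρ, ← map_add]
    congr 1
    apply Subtype.ext
    show D ((f : 𝔽) + (g : 𝔽)) = D (f : 𝔽) + D (g : 𝔽)
    rw [map_add]
  map_smul' := by
    intro c x
    obtain ⟨f, rfl⟩ := X.ρ_surjective x
    obtain ⟨a, rfl⟩ := residue_surjective c
    rw [RingHom.id_apply, ← X.ρ_smul, derBarFun_ρ, derBarFun_ρ, ← X.ρ_smul]
    congr 1
    apply Subtype.ext
    show D ((a : Ω) • (f : 𝔽)) = (a : Ω) • D (f : 𝔽)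
    exact D.map_smul (a : Ω) (f : 𝔽)

variable (X D) in
/-- **(GR1) the reduced derivation** `D̄` of `𝔽b / k`, `D̄ (ρ f) = ρ (D f)`. -/
def derBar (hv : v.valuationSubring = A) (hD : IsDerDatum D κ) (hn : IsNormalisedDer X D) :
    Derivation (ResidueField ↥A) 𝔽b 𝔽b :=
  Derivation.mk' (derBarLin X D hv hD hn) (by
    intro x y
    obtain ⟨f, rfl⟩ := X.ρ_surjective x
    obtain ⟨g, rfl⟩ := X.ρ_surjective y
    show derBarFun X D hv hD hn (X.ρ f * X.ρ g)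
      = X.ρ f • derBarFun X D hv hD hn (X.ρ g) + X.ρ g • derBarFun X D hv hD hn (X.ρ f)
    rw [← map_mul, derBarFun_ρ, derBarFun_ρ, derBarFun_ρ, smul_eq_mul, smul_eq_mul, ← map_mul,
      ← map_mul, ← map_add]
    congr 1
    apply Subtype.ext
    show D ((f : 𝔽) * (g : 𝔽)) = (f : 𝔽) * D (g : 𝔽) + (g : 𝔽) * D (f : 𝔽)
    rw [Derivation.leibniz, smul_eq_mul, smul_eq_mul])

theorem derBar_ρ (hv : v.valuationSubring = A) (hD : IsDerDatum D κ)
    (hn : IsNormalisedDer X D) (f : 𝔽) (hf : f ∈ X.W) (hDf : D f ∈ X.W) :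
    derBar X D hv hD hn (X.ρ ⟨f, hf⟩) = X.ρ ⟨D f, hDf⟩ :=
  derBarFun_ρ hv hD hn ⟨f, hf⟩

/-- **(GR1)** existence of the reduced derivation (helper8's literal). -/
theorem exists_derBar (hv : v.valuationSubring = A) (hD : IsDerDatum D κ)
    (hn : IsNormalisedDer X D) :
    ∃ Db : Derivation (ResidueField ↥A) 𝔽b 𝔽b, ∀ (f : 𝔽) (hf : f ∈ X.W) (hDf : D f ∈ X.W),
      Db (X.ρ ⟨f, hf⟩) = X.ρ ⟨D f, hDf⟩ :=
  ⟨derBar X D hv hD hn, derBar_ρ hv hD hn⟩

/-- a derivation of `𝔽b` compatible with `D` is `derBar`. -/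
theorem eq_derBar (hv : v.valuationSubring = A) (hD : IsDerDatum D κ)
    (hn : IsNormalisedDer X D) (Db : Derivation (ResidueField ↥A) 𝔽b 𝔽b)
    (hDb : ∀ (f : 𝔽) (hf : f ∈ X.W) (hDf : D f ∈ X.W), Db (X.ρ ⟨f, hf⟩) = X.ρ ⟨D f, hDf⟩) :
    Db = derBar X D hv hD hn := by
  ext x
  obtain ⟨f, rfl⟩ := X.ρ_surjective x
  have := hDb f.1 f.2 (der_mem_W hv hD hn f.2)
  rw [show (⟨(f : 𝔽), f.2⟩ : ↥X.W) = f from rfl] at this
  rw [this]
  exact (derBar_ρ hv hD hn f.1 f.2 _).symm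

end Fermat.Agent.MP

end
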