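import Mathlib
import Fermat.Agent.MP.ROLDGR_helper3_DerBar
import Fermat.Agent.MP.ROLDGR_helper3_CharP
import Fermat.Agent.DS48.VALSUB_helper4
import Fermat.Agent.FG.TAUREG_helper2

/-!
# MP40 — [ROLD-GR], helper3, part 3: (GR2), (GR3) the reduced derivation has canonical divisor
`canBar`, and regular differentials reduce to regular differentials

* `canBar_eq_sum` : `canBar X κ Q = ∑_{P ∈ T, r P = Q} κ P` for every finite `T ⊇ supp κ`;
* `ord_ρ_der_discCoord` : `ord_Q (ρ (D t)) = - canBar X κ Q` for a coordinate `t` of the disc of `Q`;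
* **(GR3)** `rho_mem_regSpace` ; **(GR2)** `isDerDatum_derBar`.
-/

set_option autoImplicit false
set_option linter.unusedSectionVars false
set_option linter.unusedVariables false
set_option linter.style.haveILetI false

noncomputable section

namespace Fermat.Agent.MP

open AlgebraicCurve IsLocalRing Fermat.Agent.FF Fermat.Agent.JA Fermat.Agent.FG Fermat.Agent.MW
  IntermediateField
open scoped Classical

variable {Ω : Type*} [Field Ω] [IsAlgClosed Ω] {A : ValuationSubring Ω}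
  {𝔽 : Type*} [Field 𝔽] [Algebra Ω 𝔽]
  {𝔽b : Type*} [Field 𝔽b] [Algebra (ResidueField ↥A) 𝔽b] {X : GoodRed Ω A 𝔽 𝔽b}
  {Γ₀ : Type*} [LinearOrderedCommGroupWithZero Γ₀] {v : Valuation Ω Γ₀}
  {D : Derivation Ω 𝔽 𝔽} {κ : Place Ω 𝔽 → ℤ}

omit [IsAlgClosed Ω] in
/-- the reduced canonical divisor as a finite sum. -/
theorem canBar_eq_sum (T : Finset (Place Ω 𝔽)) (hT : ∀ P, κ P ≠ 0 → P ∈ T)
    (Q : Place (ResidueField ↥A) 𝔽b) :
    canBar X κ Q = ∑ P ∈ T.filter (fun P => X.r P = Q), κ P := by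
  rw [canBar]
  change ∑ᶠ P : ↥{P : Place Ω 𝔽 | X.r P = Q}, κ P = _
  rw [finsum_set_coe_eq_finsum_mem (s := {P : Place Ω 𝔽 | X.r P = Q}) (f := κ)]
  apply finsum_mem_eq_sum_of_inter_support_eq
  ext P
  simp only [Set.mem_inter_iff, Set.mem_ofPred_eq, Function.mem_support, Finset.coe_filter]
  constructor
  · rintro ⟨h1, h2⟩
    exact ⟨⟨hT P h2, h1⟩, h2⟩
  · rintro ⟨⟨-, h1⟩, h2⟩
    exact ⟨h1, h2⟩

/-- **the order of `ρ (D t)`** at `Q`, for a coordinate `t` of the residue disc of `Q`. -/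
theorem ord_ρ_der_discCoord (hv : v.valuationSubring = A) (hD : IsDerDatum D κ)
    (hκ : (Function.support κ).Finite) (hn : IsNormalisedDer X D)
    {Q : Place (ResidueField ↥A) 𝔽b} {t : 𝔽} (h : IsDiscCoord X Q t) :
    X.ρ ⟨D t, (der_unit_of_isDiscCoord hv hD hn h).1⟩ ≠ 0 ∧
      Q.ord (X.ρ ⟨D t, (der_unit_of_isDiscCoord hv hD hn h).1⟩) = -canBar X κ Q := by
  obtain ⟨h1, h2⟩ := der_unit_of_isDiscCoord hv hD hn h
  have hDt0 : D t ≠ 0 := h.der_ne_zero hD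
  have hρ : X.ρ ⟨D t, h1⟩ ≠ 0 := X.ρ_ne_zero_of_inv_mem h1 h2 hDt0
  refine ⟨hρ, ?_⟩
  obtain ⟨E, hE⟩ := X.exists_div (D t) hDt0
  set T : Finset (Place Ω 𝔽) := E.support ∪ hκ.toFinset with hTdef
  have hT1 : E.support ⊆ T := Finset.subset_union_left
  have hT2 : ∀ P, κ P ≠ 0 → P ∈ T := fun P hP =>
    Finset.mem_union_right _ (hκ.mem_toFinset.mpr hP)
  rw [← X.r_div ⟨D t, h1⟩ hρ E hE Q, Fermat.Agent.FG.mapDomain_apply_eq_sum_filter X.r E T hT1 Q,
    canBar_eq_sum T hT2 Q, ← Finset.sum_neg_distrib]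
  refine Finset.sum_congr rfl fun P hP => ?_
  rw [hE P, (h.der_spec hD (Finset.mem_filter.mp hP).2).2]

/-- **(GR3)** regular differentials which are Gauss-integral reduce to regular differentials. -/
theorem rho_mem_regSpace (hv : v.valuationSubring = A) (hD : IsDerDatum D κ)
    (hκ : (Function.support κ).Finite) (hn : IsNormalisedDer X D)
    {h : 𝔽} (hh : h ∈ regSpace κ) (hW : h ∈ X.W) :
    X.ρ ⟨h, hW⟩ ∈ regSpace (canBar X κ) := by
  intro Q
  by_cases hρh : X.ρ ⟨h, hW⟩ = 0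
  · exact Or.inl hρh
  right
  have hh0 : h ≠ 0 := X.ρ_ne_zero_imp_ne_zero hW hρh
  obtain ⟨t, ht⟩ := exists_isDiscCoord X Q
  obtain ⟨h1, h2⟩ := der_unit_of_isDiscCoord hv hD hn ht
  obtain ⟨hρDt, hordDt⟩ := ord_ρ_der_discCoord hv hD hκ hn ht
  have hDt0 : D t ≠ 0 := ht.der_ne_zero hD
  set y : 𝔽 := h * (D t)⁻¹ with hy
  have hyW : y ∈ X.W := X.W.mul_mem _ _ hW h2
  have hy0 : y ≠ 0 := mul_ne_zero hh0 (inv_ne_zero hDt0)
  have hmul : (⟨h, hW⟩ : ↥X.W) = ⟨y, hyW⟩ * ⟨D t, h1⟩ := by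
    apply Subtype.ext
    show h = y * D t
    rw [hy, mul_assoc, inv_mul_cancel₀ hDt0, mul_one]
  have hρy : X.ρ ⟨y, hyW⟩ ≠ 0 := by
    intro h0
    apply hρh
    rw [hmul, map_mul, h0, zero_mul]
  -- `ρ y` is regular at `Q`
  have hordy : 0 ≤ Q.ord (X.ρ ⟨y, hyW⟩) := by
    obtain ⟨E, hE⟩ := X.exists_div y hy0
    rw [← X.r_div ⟨y, hyW⟩ hρy E hE Q,
      Fermat.Agent.FG.mapDomain_apply_eq_sum_filter X.r E E.support (Finset.Subset.refl _) Q]
    refine Finset.sum_nonneg fun P hP => ?_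
    have hrP : X.r P = Q := (Finset.mem_filter.mp hP).2
    rw [hE P, hy, P.ord_mul hh0 (inv_ne_zero hDt0), P.ord_inv, (ht.der_spec hD hrP).2]
    have := (hh P).resolve_left hh0
    omega
  rw [hmul, map_mul, Q.ord_mul hρy hρDt, hordDt]
  omega

/-- the reduced coordinate of a good reduction datum as a `Coord`. -/
def coordRed (X : GoodRed Ω A 𝔽 𝔽b) : Coord (ResidueField ↥A) 𝔽b where
  x := X.ρ ⟨X.τ, X.τ_mem⟩
  trans := by
    intro halg
    have h1 := ord_eq_zero_of_isAlgebraic (X.r X.cusp) halg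
    have h2 := X.ord_r_cusp_τ
    rw [h1] at h2
    exact zero_ne_one h2
  fin := X.τ_finite_red

/-- **(GR2)** the reduced derivation has canonical divisor `canBar X κ`. -/
theorem isDerDatum_derBar (hv : v.valuationSubring = A) (hD : IsDerDatum D κ)
    (hκ : (Function.support κ).Finite) (hn : IsNormalisedDer X D)
    (p : ℕ) [Fact p.Prime] [CharP (ResidueField ↥A) p]
    (Db : Derivation (ResidueField ↥A) 𝔽b 𝔽b)
    (hDb : ∀ (f : 𝔽) (hf : f ∈ X.W) (hDf : D f ∈ X.W), Db (X.ρ ⟨f, hf⟩) = X.ρ ⟨D f, hDf⟩) :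
    IsDerDatum Db (canBar X κ) := by
  haveI : IsAlgClosed (ResidueField ↥A) := Fermat.Agent.DS48.VALSUB.isAlgClosed_residueField A
  have key : ∀ Q : Place (ResidueField ↥A) 𝔽b, ∃ τ : 𝔽b, Q.ord τ = 1 ∧
      Db τ ≠ 0 ∧ Q.ord (Db τ) = -canBar X κ Q := by
    intro Q
    obtain ⟨t, ht⟩ := exists_isDiscCoord X Q
    obtain ⟨h1, h2⟩ := der_unit_of_isDiscCoord hv hD hn ht
    obtain ⟨hρDt, hordDt⟩ := ord_ρ_der_discCoord hv hD hκ hn ht
    refine ⟨X.ρ ⟨t, ht.mem⟩, ht.ord, ?_, ?_⟩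
    · rw [hDb t ht.mem h1]
      exact hρDt
    · rw [hDb t ht.mem h1]
      exact hordDt
  have hDb0 : Db ≠ 0 := by
    intro h0
    obtain ⟨τ, -, h1, -⟩ := key X.cuspb
    apply h1
    rw [h0]
    rfl
  refine isDerDatum_of_exists_unif p (coordRed X) X.τ_separable_red hDb0 fun Q => ?_
  obtain ⟨τ, h1, -, h3⟩ := key Q
  exact ⟨τ, h1, h3⟩

end Fermat.Agent.MP

end
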