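import Mathlib
import Fermat.Agent.MP.ROLDGR_helper3_Red

/-!
# MP40 — [ROLD-GR], helper3, part 4: (GR4) the dimension bound on the special fibre

* `divOf κ hκ` : a finitely supported `κ` as a divisor; `regSpace_eq_riemannRochSpace`;
* `redDiv_divOf` : `redDiv (divOf κ) = canBar X κ` pointwise; `degree_divOf`;
* **(GR4)** `finrank_regSpace_canBar_le`.
-/

set_option autoImplicit false
set_option linter.unusedSectionVars false
set_option linter.unusedVariables false
set_option linter.style.haveILetI false

noncomputable section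

namespace Fermat.Agent.MP

open AlgebraicCurve IsLocalRing Fermat.Agent.FF Fermat.Agent.JA Fermat.Agent.FG Fermat.Agent.MW
open scoped Classical

section General

variable {k F : Type*} [Field k] [Field F] [Algebra k F]

/-- a finitely supported function on the places as a divisor. -/
def divOf (κ : Place k F → ℤ) (hκ : (Function.support κ).Finite) : Divisor k F :=
  Finsupp.onFinset hκ.toFinset κ (fun P hP => hκ.mem_toFinset.mpr hP)

@[simp] theorem divOf_apply (κ : Place k F → ℤ) (hκ : (Function.support κ).Finite)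
    (P : Place k F) : divOf κ hκ P = κ P := rfl

theorem regSpace_eq_riemannRochSpace (κ : Place k F → ℤ) (hκ : (Function.support κ).Finite) :
    regSpace κ = riemannRochSpace (divOf κ hκ) := by
  ext f
  rw [mem_regSpace, mem_riemannRochSpace_iff]
  rfl

theorem regSpace_coe_divisor (E : Divisor k F) :
    regSpace (fun P => E P) = riemannRochSpace E := by
  ext f
  rw [mem_regSpace, mem_riemannRochSpace_iff]
  rfl

theorem degree_divOf (κ : Place k F → ℤ) (hκ : (Function.support κ).Finite)
    (hdeg : ∀ P : Place k F, P.deg = 1) : Divisor.degree (divOf κ hκ) = ∑ᶠ P, κ P := by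
  rw [degree_eq_sum_of_support_subset (divOf κ hκ) hκ.toFinset
    (fun P hP => by
      rw [Finsupp.mem_support_iff, divOf_apply] at hP
      exact hκ.mem_toFinset.mpr hP),
    finsum_eq_sum_of_support_subset κ (s := hκ.toFinset) (fun P hP => by
      rw [Finset.mem_coe]
      exact hκ.mem_toFinset.mpr hP)]
  refine Finset.sum_congr rfl fun P _ => ?_
  rw [divOf_apply, hdeg P, Nat.cast_one, mul_one]

/-- monotonicity of `regSpace`. -/
theorem regSpace_mono {κ κ' : Place k F → ℤ} (h : ∀ P, κ P ≤ κ' P) : regSpace κ ≤ regSpace κ' := by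
  intro f hf P
  exact (hf P).mono (by have := h P; omega)

end General

variable {Ω : Type*} [Field Ω] [IsAlgClosed Ω] {A : ValuationSubring Ω}
  {𝔽 : Type*} [Field 𝔽] [Algebra Ω 𝔽]
  {𝔽b : Type*} [Field 𝔽b] [Algebra (ResidueField ↥A) 𝔽b] {X : GoodRed Ω A 𝔽 𝔽b}
  {κ : Place Ω 𝔽 → ℤ}

omit [IsAlgClosed Ω] in
/-- the reduced canonical divisor is the reduction of the canonical divisor. -/
theorem redDiv_divOf (hκ : (Function.support κ).Finite) (Q : Place (ResidueField ↥A) 𝔽b) :
    X.redDiv (divOf κ hκ) Q = canBar X κ Q := by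
  rw [GoodRed.redDiv_apply, Fermat.Agent.FG.mapDomain_apply_eq_sum_filter X.r (divOf κ hκ)
    hκ.toFinset (fun P hP => by
      rw [Finsupp.mem_support_iff, divOf_apply] at hP
      exact hκ.mem_toFinset.mpr hP) Q,
    canBar_eq_sum hκ.toFinset (fun P hP => hκ.mem_toFinset.mpr hP) Q]
  rfl

omit [IsAlgClosed Ω] in
theorem regSpace_canBar_eq (hκ : (Function.support κ).Finite) :
    regSpace (canBar X κ) = riemannRochSpace (X.redDiv (divOf κ hκ)) := by
  rw [← regSpace_coe_divisor]
  congr 1
  funext Q
  exact (redDiv_divOf hκ Q).symm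

omit [IsAlgClosed Ω] in
/-- **(GR4)** the space of regular differentials of the special fibre has dimension `≤ g`. -/
theorem finrank_regSpace_canBar_le (hκ : (Function.support κ).Finite)
    (hdeg : ∑ᶠ P, κ P ≤ 2 * (X.g : ℤ) - 2) :
    Module.Finite (ResidueField ↥A) ↥(regSpace (canBar X κ)) ∧
      Module.finrank (ResidueField ↥A) ↥(regSpace (canBar X κ)) ≤ X.g := by
  set Kb : Divisor (ResidueField ↥A) 𝔽b := X.redDiv (divOf κ hκ) with hKb
  have hdegKb : Divisor.degree Kb = ∑ᶠ P, κ P := by
    rw [hKb, X.degree_redDiv, degree_divOf κ hκ X.deg_gen]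
  set n : ℤ := 2 * (X.g : ℤ) - 1 - Divisor.degree Kb with hn
  have hn0 : 0 ≤ n := by rw [hn, hdegKb]; omega
  set E : Divisor (ResidueField ↥A) 𝔽b := Kb + Finsupp.single X.cuspb n with hE
  have hdegE : Divisor.degree E = 2 * (X.g : ℤ) - 1 := by
    rw [hE, map_add, Divisor.degree_single, X.deg_red, Nat.cast_one, mul_one, hn]
    ring
  obtain ⟨hfin, hrank⟩ := X.rr_red E (by rw [hdegE])
  have hle : regSpace (canBar X κ) ≤ riemannRochSpace E := by
    rw [regSpace_canBar_eq hκ, ← hKb, ← regSpace_coe_divisor, ← regSpace_coe_divisor]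
    refine regSpace_mono fun Q => ?_
    rw [hE, Finsupp.add_apply]
    have : 0 ≤ (Finsupp.single X.cuspb n) Q := by
      rw [Finsupp.single_apply]
      split_ifs
      · exact hn0
      · exact le_refl _
    omega
  haveI := hfin
  refine ⟨Submodule.finiteDimensional_of_le hle, ?_⟩
  have h1 := Submodule.finrank_mono hle
  have h2 : (Module.finrank (ResidueField ↥A) ↥(riemannRochSpace E) : ℤ) = X.g := by
    rw [hrank, hdegE]
    ring
  have h3 : Module.finrank (ResidueField ↥A) ↥(riemannRochSpace E) = X.g := by exact_mod_cast h2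
  omega

end Fermat.Agent.MP

end
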