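import Mathlib
import Fermat.Agent.MP.ROLDGR_helper3_Dim
import Fermat.Agent.FG.LATT_helper2_Gauss

/-!
# MP40 — [ROLD-GR], helper3, part 5: (GR5) regular differentials of the special fibre lift

* `exists_mul_regSpace_le_poleSpace` : a Gauss unit `u` with `u · regSpace κ ⊆ L(m · cusp)`;
* **(GR5)** `exists_lift_regSpace` : if `dim_Ω regSpace κ = g` and `deg κ ≤ 2g - 2`, every element
  of `regSpace (canBar X κ)` is the reduction of a Gauss-integral element of `regSpace κ`.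
-/

set_option autoImplicit false
set_option linter.unusedSectionVars false
set_option linter.unusedVariables false
set_option linter.style.haveILetI false

noncomputable section

namespace Fermat.Agent.MP

open AlgebraicCurve IsLocalRing Fermat.Agent.FF Fermat.Agent.JA Fermat.Agent.FG Fermat.Agent.MW
open scoped Classical

variable {Ω : Type*} [Field Ω] [IsAlgClosed Ω] {A : ValuationSubring Ω}
  {𝔽 : Type*} [Field 𝔽] [Algebra Ω 𝔽]
  {𝔽b : Type*} [Field 𝔽b] [Algebra (ResidueField ↥A) 𝔽b] {X : GoodRed Ω A 𝔽 𝔽b}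
  {Γ₀ : Type*} [LinearOrderedCommGroupWithZero Γ₀] {v : Valuation Ω Γ₀}
  {D : Derivation Ω 𝔽 𝔽} {κ : Place Ω 𝔽 → ℤ}

omit [IsAlgClosed Ω] in
/-- a Gauss unit `u` moving `regSpace κ` into a pole space of the base point. -/
theorem exists_mul_regSpace_le_poleSpace (X : GoodRed Ω A 𝔽 𝔽b)
    (hκ : (Function.support κ).Finite) :
    ∃ (u : 𝔽) (m : ℕ), u ≠ 0 ∧ u ∈ X.W ∧ u⁻¹ ∈ X.W ∧ 2 * (X.g : ℤ) - 1 ≤ m ∧
      ∀ h ∈ regSpace κ, u * h ∈ poleSpace X.cusp m := by
  set K : Divisor Ω 𝔽 := divOf κ hκ with hK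
  set n : ℤ := Divisor.degree K + X.g with hn
  set E : Divisor Ω 𝔽 := Finsupp.single X.cusp n - K with hE
  have hdegE : Divisor.degree E = X.g := by
    rw [hE, map_sub, Divisor.degree_single, X.deg_gen, Nat.cast_one, mul_one, hn]
    ring
  obtain ⟨hfin, hrank⟩ := X.riemann_gen E
  haveI := hfin
  have hpos : 0 < Module.finrank Ω ↥(riemannRochSpace E) := by
    have : (1 : ℤ) ≤ (Module.finrank Ω ↥(riemannRochSpace E) : ℤ) := by
      rw [hdegE] at hrank
      linarith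
    exact_mod_cast this
  obtain ⟨⟨u₀, hu₀E⟩, hu₀⟩ := Module.finrank_pos_iff_exists_ne_zero.mp hpos
  have hu₀0 : u₀ ≠ 0 := fun h => hu₀ (Subtype.ext h)
  obtain ⟨a, ha, h1, h2⟩ := X.exists_smul_unit u₀ hu₀0
  have hu0 : a • u₀ ≠ 0 := smul_ne_zero ha hu₀0
  have huE : a • u₀ ∈ riemannRochSpace E := Submodule.smul_mem _ a hu₀E
  rw [mem_riemannRochSpace_iff] at huE
  set m : ℕ := (max n (2 * (X.g : ℤ) - 1)).toNat with hm
  have hm1 : n ≤ (m : ℤ) := by
    rw [hm]
    have := Int.self_le_toNat (max n (2 * (X.g : ℤ) - 1))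
    exact (le_max_left _ _).trans this
  have hm2 : 2 * (X.g : ℤ) - 1 ≤ (m : ℤ) := by
    rw [hm]
    have := Int.self_le_toNat (max n (2 * (X.g : ℤ) - 1))
    exact (le_max_right _ _).trans this
  refine ⟨a • u₀, m, hu0, h1, h2, hm2, fun h hh => ?_⟩
  rw [mem_poleSpace_iff]
  have hEP : ∀ P : Place Ω 𝔽, E P = (if P = X.cusp then n else 0) - κ P := by
    intro P
    rw [hE, Finsupp.sub_apply, Finsupp.single_apply, hK, divOf_apply]
    by_cases hP : P = X.cusp
    · rw [if_pos hP, if_pos hP.symm]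
    · rw [if_neg hP, if_neg (Ne.symm hP)]
  have hmul : ∀ P : Place Ω 𝔽, OrdGE P (-(if P = X.cusp then n else 0)) (a • u₀ * h) := by
    intro P
    have hu : OrdGE P (-E P) (a • u₀) := huE P
    have := hu.mul (hh P)
    refine this.mono ?_
    rw [hEP P]
    omega
  refine ⟨?_, fun Q hQ => ?_⟩
  · have := hmul X.cusp
    rw [if_pos rfl] at this
    exact this.mono (by omega)
  · have := hmul Q
    rw [if_neg hQ, neg_zero] at this
    exact this

/-- **(GR5)** regular differentials of the special fibre lift to Gauss-integral regular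
differentials of the generic fibre. -/
theorem exists_lift_regSpace (hv : v.valuationSubring = A) (hD : IsDerDatum D κ)
    (hκ : (Function.support κ).Finite) (hn : IsNormalisedDer X D)
    (hdeg : ∑ᶠ P, κ P ≤ 2 * (X.g : ℤ) - 2)
    (hfin : Module.Finite Ω ↥(regSpace κ)) (hdim : Module.finrank Ω ↥(regSpace κ) = X.g)
    {hb : 𝔽b} (hhb : hb ∈ regSpace (canBar X κ)) :
    ∃ (h : 𝔽) (hW : h ∈ X.W), h ∈ regSpace κ ∧ X.ρ ⟨h, hW⟩ = hb := by
  obtain ⟨u, m, hu0, huW, huW', hm, hmul⟩ := exists_mul_regSpace_le_poleSpace X hκ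
  -- the coordinate map
  set mulU : ↥(regSpace κ) →ₗ[Ω] ↥(poleSpace X.cusp m) :=
    LinearMap.codRestrict (poleSpace X.cusp m)
      ((LinearMap.mulLeft Ω u).comp (regSpace κ).subtype) (fun h => hmul h h.2) with hmulU
  have hmulU_coe : ∀ h : ↥(regSpace κ), ((mulU h : ↥(poleSpace X.cusp m)) : 𝔽) = u * (h : 𝔽) :=
    fun h => rfl
  set res : (Fin (m + 1) → Ω) →ₗ[Ω] (↥(X.nongaps m) → Ω) :=
    LinearMap.funLeft Ω Ω (Subtype.val : ↥(X.nongaps m) → Fin (m + 1)) with hres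
  set φ : ↥(regSpace κ) →ₗ[Ω] (↥(X.nongaps m) → Ω) := (res.comp (X.pp m)).comp mulU with hφ
  have hφ_apply : ∀ (h : ↥(regSpace κ)) (ν : ↥(X.nongaps m)), φ h ν = X.pp m (mulU h) ν :=
    fun h ν => rfl
  have hφinj : Function.Injective φ := by
    rw [← LinearMap.ker_eq_bot, LinearMap.ker_eq_bot']
    intro h hh
    have h1 : mulU h = 0 := X.eq_zero_of_pp_nongaps hm (mulU h) (fun ν => by
      rw [← hφ_apply, hh]; rfl)
    have h2 : u * (h : 𝔽) = 0 := by rw [← hmulU_coe, h1]; rfl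
    exact Subtype.ext ((mul_eq_zero.mp h2).resolve_left hu0)
  set V' : Submodule Ω (↥(X.nongaps m) → Ω) := LinearMap.range φ with hV'
  have hV'rank : Module.finrank Ω ↥V' = X.g := by
    rw [hV', LinearMap.finrank_range_of_inj hφinj, hdim]
  obtain ⟨m', vv, hli, hspan, -, hresLI⟩ := exists_integral_basis A V'
  have hm' : m' = X.g := by
    have h1 := finrank_span_eq_card hli
    rw [hspan, hV'rank, Fintype.card_fin] at h1
    exact h1.symm
  -- preimages
  have hpre : ∀ i : Fin m', ∃ h : ↥(regSpace κ), φ h = fun ν => (vv i ν : Ω) := by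
    intro i
    have : (fun ν => (vv i ν : Ω)) ∈ V' := by
      rw [← hspan]
      exact Submodule.subset_span ⟨i, rfl⟩
    exact this
  choose hh hhφ using hpre
  -- integrality
  have hfW : ∀ i, u * (hh i : 𝔽) ∈ X.W := by
    intro i
    have h1 := X.eq_sum_canon hm (mulU (hh i))
    have h2 : u * (hh i : 𝔽) = ∑ ν : ↥(X.nongaps m), (vv i ν : Ω) • (X.canon hm ν : 𝔽) := by
      rw [← hmulU_coe]
      conv_lhs => rw [h1]
      rw [Submodule.coe_sum]
      refine Finset.sum_congr rfl fun ν _ => ?_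
      rw [Submodule.coe_smul, ← hφ_apply, hhφ i]
    rw [h2]
    exact Subring.sum_mem X.W.toSubring fun ν _ => X.smul_mem_W (vv i ν).2 (X.canon_mem_W hm ν)
  have hhW : ∀ i, (hh i : 𝔽) ∈ X.W := by
    intro i
    have : (hh i : 𝔽) = u⁻¹ * (u * (hh i : 𝔽)) := by
      rw [← mul_assoc, inv_mul_cancel₀ hu0, one_mul]
    rw [this]
    exact X.W.mul_mem _ _ huW' (hfW i)
  -- the reductions of `u * h_i` are linearly independent
  set fP : Fin m' → ↥(poleSpace X.cuspb m) := fun i => X.redPole (mulU (hh i)) (hfW i) with hfP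
  set resb : (Fin (m + 1) → ResidueField ↥A) →ₗ[ResidueField ↥A]
      (↥(X.nongaps m) → ResidueField ↥A) :=
    LinearMap.funLeft (ResidueField ↥A) (ResidueField ↥A)
      (Subtype.val : ↥(X.nongaps m) → Fin (m + 1)) with hresb
  have hLI1 : LinearIndependent (ResidueField ↥A) fP := by
    refine LinearIndependent.of_comp (resb.comp (X.ppb m)) ?_
    have e : (⇑(resb.comp (X.ppb m)) ∘ fP) = fun i ν => residue ↥A (vv i ν) := by
      funext i ν
      have hmem : X.pp m (mulU (hh i)) ν ∈ A := by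
        rw [← hφ_apply, hhφ i]
        exact (vv i ν).2
      show X.ppb m (X.redPole (mulU (hh i)) (hfW i)) ν = residue ↥A (vv i ν)
      rw [X.ppb_redPole (mulU (hh i)) (hfW i) ν hmem]
      congr 1
      apply Subtype.ext
      show X.pp m (mulU (hh i)) ν = (vv i ν : Ω)
      rw [← hφ_apply, hhφ i]
    rw [e]
    exact hresLI
  have hLI2 : LinearIndependent (ResidueField ↥A)
      (fun i => X.ρ ⟨u * (hh i : 𝔽), hfW i⟩) := by
    have := hLI1.map' (poleSpace X.cuspb m).subtype (Submodule.ker_subtype _)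
    exact this
  -- the reductions of `h_i`
  have hρu : X.ρ ⟨u, huW⟩ ≠ 0 := X.ρ_ne_zero_of_inv_mem huW huW' hu0
  have hρmul : ∀ i, X.ρ ⟨(hh i : 𝔽), hhW i⟩
      = (X.ρ ⟨u, huW⟩)⁻¹ * X.ρ ⟨u * (hh i : 𝔽), hfW i⟩ := by
    intro i
    have : (⟨u * (hh i : 𝔽), hfW i⟩ : ↥X.W) = ⟨u, huW⟩ * ⟨(hh i : 𝔽), hhW i⟩ := rfl
    rw [this, map_mul, ← mul_assoc, inv_mul_cancel₀ hρu, one_mul]
  have hLI3 : LinearIndependent (ResidueField ↥A) (fun i => X.ρ ⟨(hh i : 𝔽), hhW i⟩) := by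
    have h1 := hLI2.map' (LinearMap.mulLeft (ResidueField ↥A) (X.ρ ⟨u, huW⟩)⁻¹) (by
      rw [LinearMap.ker_eq_bot]
      intro x y hxy
      exact mul_left_cancel₀ (inv_ne_zero hρu) hxy)
    have e : (fun i => X.ρ ⟨(hh i : 𝔽), hhW i⟩)
        = ⇑(LinearMap.mulLeft (ResidueField ↥A) (X.ρ ⟨u, huW⟩)⁻¹) ∘
          (fun i => X.ρ ⟨u * (hh i : 𝔽), hfW i⟩) := by
      funext i
      exact hρmul i
    rw [e]
    exact h1
  -- they lie in `regSpace (canBar X κ)` and span it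
  obtain ⟨hSfin, hSrank⟩ := finrank_regSpace_canBar_le (X := X) hκ hdeg
  set S : Submodule (ResidueField ↥A) 𝔽b := regSpace (canBar X κ) with hS
  have hmemS : ∀ i, X.ρ ⟨(hh i : 𝔽), hhW i⟩ ∈ S := fun i =>
    rho_mem_regSpace hv hD hκ hn (hh i).2 (hhW i)
  set sS : Fin m' → ↥S := fun i => ⟨X.ρ ⟨(hh i : 𝔽), hhW i⟩, hmemS i⟩ with hsS
  have hLI4 : LinearIndependent (ResidueField ↥A) sS := by
    refine LinearIndependent.of_comp S.subtype ?_
    exact hLI3
  haveI := hSfin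
  have hcard : Fintype.card (Fin m') = Module.finrank (ResidueField ↥A) ↥S := by
    have h1 := hLI4.fintype_card_le_finrank
    rw [Fintype.card_fin] at h1 ⊢
    omega
  have hspanS := hLI4.span_eq_top_of_card_eq_finrank' hcard
  have hbmem : (⟨hb, hhb⟩ : ↥S) ∈ Submodule.span (ResidueField ↥A) (Set.range sS) := by
    rw [hspanS]
    trivial
  obtain ⟨c, hc⟩ := (Submodule.mem_span_range_iff_exists_fun (ResidueField ↥A)).mp hbmem
  choose a ha using fun i => residue_surjective (c i)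
  -- the lift
  have htermW : ∀ i, (a i : Ω) • (hh i : 𝔽) ∈ X.W := fun i => X.smul_mem_W (a i).2 (hhW i)
  refine ⟨∑ i, (a i : Ω) • (hh i : 𝔽), Subring.sum_mem X.W.toSubring fun i _ => htermW i,
    Submodule.sum_mem _ fun i _ => Submodule.smul_mem _ _ (hh i).2, ?_⟩
  have e1 : (⟨∑ i, (a i : Ω) • (hh i : 𝔽), Subring.sum_mem X.W.toSubring fun i _ => htermW i⟩ : ↥X.W)
      = ∑ i, ⟨(a i : Ω) • (hh i : 𝔽), htermW i⟩ := by
    apply Subtype.ext
    rw [AddSubmonoidClass.coe_finsetSum]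
  rw [e1, map_sum]
  have e2 : ∑ i, ((c i • sS i : ↥S) : 𝔽b) = hb := by
    rw [← AddSubmonoidClass.coe_finsetSum]
    exact congrArg (Subtype.val) hc
  rw [← e2]
  refine Finset.sum_congr rfl fun i _ => ?_
  have e3 : (⟨(a i : Ω) • (hh i : 𝔽), htermW i⟩ : ↥X.W)
      = ⟨((a i : ↥A) : Ω) • ((⟨(hh i : 𝔽), hhW i⟩ : ↥X.W) : 𝔽), X.smul_mem_W (a i).2 (hhW i)⟩ := rfl
  rw [e3, X.ρ_smul, ha i]
  rfl

end Fermat.Agent.MP

end
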