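import Mathlib
import Fermat.Agent.MP.ROLDGR_helper3_Lift
import Fermat.Agent.MW.GOODP_helper3_Aut

/-!
# MP40 — [ROLD-GR], helper3, part 10: (N5) averaging over a group of deck automorphisms
(`SemilinearAut` currency of `MW/GOODP_helper3_Aut`)

* `derDatum_smul_place` : if `D` commutes with `g`, its canonical divisor is `g`-invariant;
* `smul_mem_regSpace` : then `g` preserves `regSpace κ`;
* `exists_invariant_lift_regSpace_deck` : a regular differential of the special fibre which is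
  fixed by the induced action of a finite group `G` of deck automorphisms (`#G` invertible in `A`)
  lifts to a `G`-invariant Gauss-integral regular differential of the generic fibre.
-/

set_option autoImplicit false
set_option linter.unusedSectionVars false
set_option linter.unusedVariables false
set_option linter.style.haveILetI false

noncomputable section

namespace Fermat.Agent.MP

open AlgebraicCurve IsLocalRing Fermat.Agent.FF Fermat.Agent.JA Fermat.Agent.FG Fermat.Agent.MW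
open scoped Classical

variable {Ω : Type*} [Field Ω] [IsAlgClosed Ω] {A : ValuationSubring Ω}
  {𝔽 : Type*} [Field 𝔽] [Algebra Ω 𝔽]
  {𝔽b : Type*} [Field 𝔽b] [Algebra (ResidueField ↥A) 𝔽b] {X : GoodRed Ω A 𝔽 𝔽b}
  {Γ₀ : Type*} [LinearOrderedCommGroupWithZero Γ₀] {v : Valuation Ω Γ₀}
  {D : Derivation Ω 𝔽 𝔽} {κ : Place Ω 𝔽 → ℤ}

omit [IsAlgClosed Ω] in
/-- the canonical divisor of a derivation commuting with `g` is `g`-invariant. -/
theorem derDatum_smul_place (hD : IsDerDatum D κ) (g : SemilinearAut Ω 𝔽)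
    (hcomm : ∀ f : 𝔽, D (g • f) = g • D f) (Q : Place Ω 𝔽) : κ (g • Q) = κ Q := by
  obtain ⟨τ, hτ⟩ := IsDerDatum.goodp_exists_unif Q
  have h1 : (g • Q).ord (g • τ) = 1 := by rw [SemilinearAut.ord_smul, hτ]
  have h2 := (hD.spec (g • Q) (g • τ) h1).2
  rw [hcomm, SemilinearAut.ord_smul, (hD.spec Q τ hτ).2] at h2
  omega

omit [IsAlgClosed Ω] in
/-- an automorphism commuting with `D` preserves the regular differentials. -/
theorem smul_mem_regSpace (hD : IsDerDatum D κ) (g : SemilinearAut Ω 𝔽)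
    (hcomm : ∀ f : 𝔽, D (g • f) = g • D f) {h : 𝔽} (hh : h ∈ regSpace κ) :
    g • h ∈ regSpace κ := by
  intro P
  have h1 := ordGE_smul g (hh (g⁻¹ • P))
  rw [smul_inv_smul] at h1
  have h2 := derDatum_smul_place hD g hcomm (g⁻¹ • P)
  rw [smul_inv_smul] at h2
  rwa [h2]

/-- **(N5), deck-group form**: a regular differential `hb` of the special fibre fixed by the
induced action of a finite group `G` of deck automorphisms commuting with `D`, `#G` invertible
in `A`, has a `G`-invariant Gauss-integral lift in `regSpace κ`. -/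
theorem exists_invariant_lift_regSpace_deck (hv : v.valuationSubring = A) (hD : IsDerDatum D κ)
    (hκ : (Function.support κ).Finite) (hn : IsNormalisedDer X D)
    (hdeg : ∑ᶠ P, κ P ≤ 2 * (X.g : ℤ) - 2)
    (hfin : Module.Finite Ω ↥(regSpace κ)) (hdim : Module.finrank Ω ↥(regSpace κ) = X.g)
    (G : Subgroup (SemilinearAut Ω 𝔽)) [Fintype ↥G] (hG : ∀ g ∈ G, IsDeckAut X g)
    (hcard0 : (Fintype.card ↥G : Ω) ≠ 0) (hcard : ((Fintype.card ↥G : Ω))⁻¹ ∈ A)
    (hcomm : ∀ g ∈ G, ∀ f : 𝔽, D (g • f) = g • D f)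
    {hb : 𝔽b} (hhb : hb ∈ regSpace (canBar X κ))
    (hinv : ∀ g ∈ G, ∀ (f : 𝔽) (hf : f ∈ X.W) (hgf : g • f ∈ X.W),
      X.ρ ⟨f, hf⟩ = hb → X.ρ ⟨g • f, hgf⟩ = hb) :
    ∃ (h : 𝔽) (hW : h ∈ X.W), h ∈ regSpace κ ∧ (∀ g ∈ G, g • h = h) ∧ X.ρ ⟨h, hW⟩ = hb := by
  obtain ⟨h₁, h₁W, h₁V, h₁ρ⟩ := exists_lift_regSpace hv hD hκ hn hdeg hfin hdim hhb
  set c : Ω := ((Fintype.card ↥G : Ω))⁻¹ with hc
  have hgW : ∀ g : ↥G, (g : SemilinearAut Ω 𝔽) • h₁ ∈ X.W := fun g =>
    ((hG g g.2).smul_mem h₁).mpr h₁W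
  have hsumW : ∑ g : ↥G, (g : SemilinearAut Ω 𝔽) • h₁ ∈ X.W :=
    Subring.sum_mem X.W.toSubring fun g _ => hgW g
  have hW : c • ∑ g : ↥G, (g : SemilinearAut Ω 𝔽) • h₁ ∈ X.W := X.smul_mem_W hcard hsumW
  refine ⟨c • ∑ g : ↥G, (g : SemilinearAut Ω 𝔽) • h₁, hW,
    Submodule.smul_mem _ _ (Submodule.sum_mem _ fun g _ =>
      smul_mem_regSpace hD g (hcomm g g.2) h₁V), ?_, ?_⟩
  · -- invariance
    intro g' hg'
    have hbase : g' • (c • ∑ g : ↥G, (g : SemilinearAut Ω 𝔽) • h₁)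
        = c • (g' • ∑ g : ↥G, (g : SemilinearAut Ω 𝔽) • h₁) := by
      rw [Algebra.smul_def, Algebra.smul_def, smul_mul', (hG g' hg').smul_algebraMap]
    rw [hbase, Finset.smul_sum]
    congr 1
    have e : ∀ g : ↥G, g' • ((g : SemilinearAut Ω 𝔽) • h₁)
        = (((⟨g', hg'⟩ : ↥G) * g : ↥G) : SemilinearAut Ω 𝔽) • h₁ := fun g => by
      rw [Subgroup.coe_mul, mul_smul]
    rw [Finset.sum_congr rfl fun g _ => e g]
    exact Fintype.sum_equiv (Equiv.mulLeft (⟨g', hg'⟩ : ↥G)) _ _ fun g => rfl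
  · -- the reduction
    have hterm : ∀ g : ↥G, X.ρ ⟨(g : SemilinearAut Ω 𝔽) • h₁, hgW g⟩ = hb := fun g =>
      hinv g g.2 h₁ h₁W (hgW g) h₁ρ
    have hsumρ : X.ρ ⟨∑ g : ↥G, (g : SemilinearAut Ω 𝔽) • h₁, hsumW⟩
        = (Fintype.card ↥G : 𝔽b) * hb := by
      have e : (⟨∑ g : ↥G, (g : SemilinearAut Ω 𝔽) • h₁, hsumW⟩ : ↥X.W)
          = ∑ g : ↥G, ⟨(g : SemilinearAut Ω 𝔽) • h₁, hgW g⟩ := by
        apply Subtype.ext
        rw [AddSubmonoidClass.coe_finsetSum]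
      rw [e, map_sum, Finset.sum_congr rfl fun g _ => hterm g, Finset.sum_const,
        Finset.card_univ, nsmul_eq_mul]
    have e2 : (⟨c • ∑ g : ↥G, (g : SemilinearAut Ω 𝔽) • h₁, hW⟩ : ↥X.W)
        = ⟨((⟨c, hcard⟩ : ↥A) : Ω) • ((⟨∑ g : ↥G, (g : SemilinearAut Ω 𝔽) • h₁, hsumW⟩ : ↥X.W) : 𝔽),
          X.smul_mem_W hcard hsumW⟩ := rfl
    rw [e2, X.ρ_smul, hsumρ]
    -- `c̄ · #G = 1`
    have hnA : (Fintype.card ↥G : Ω) ∈ A := natCast_mem A _
    have hone : residue ↥A ⟨c, hcard⟩ * residue ↥A ⟨(Fintype.card ↥G : Ω), hnA⟩ = 1 := by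
      rw [← map_mul, ← map_one (residue ↥A)]
      congr 1
      apply Subtype.ext
      show c * (Fintype.card ↥G : Ω) = 1
      rw [hc, inv_mul_cancel₀ hcard0]
    have hcast : (Fintype.card ↥G : 𝔽b)
        = algebraMap (ResidueField ↥A) 𝔽b (residue ↥A ⟨(Fintype.card ↥G : Ω), hnA⟩) := by
      have : (⟨(Fintype.card ↥G : Ω), hnA⟩ : ↥A) = ((Fintype.card ↥G : ℕ) : ↥A) := by
        apply Subtype.ext
        push_cast
        rfl
      rw [this, map_natCast, map_natCast]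
    rw [hcast, Algebra.smul_def, ← mul_assoc, ← map_mul, hone, map_one, one_mul]

end Fermat.Agent.MP

end
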