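import Mathlib
import Fermat.Agent.MP.ROLDGR_helper3_AvgDeck

/-!
# MP40 — [ROLD-GR], helper3, part 12: invariance of the logarithmic derivative of an invariant
function of the special fibre

`ρ_smul_congr` : for a deck automorphism `g`, `ρ (g • f)` only depends on `ρ f`;
`dlog_hinv_of_hfix` : if the induced action of `g` fixes `fb ≠ 0` (in the lifted form `hfix` of the
contract of [ROLD-HOST]) and `D` commutes with `g`, then it fixes `D̄ fb / fb` (in the form `hinv`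
consumed by `exists_invariant_lift_regSpace_deck`).
-/

set_option autoImplicit false
set_option linter.unusedSectionVars false
set_option linter.unusedVariables false
set_option linter.style.haveILetI false

noncomputable section

namespace Fermat.Agent.MP

open AlgebraicCurve IsLocalRing Fermat.Agent.FF Fermat.Agent.JA Fermat.Agent.FG Fermat.Agent.MW
open scoped Classical

variable {Ω : Type*} [Field Ω] [IsAlgClosed Ω] {A : ValuationSubring Ω}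
  {𝔽 : Type*} [Field 𝔽] [Algebra Ω 𝔽]
  {𝔽b : Type*} [Field 𝔽b] [Algebra (ResidueField ↥A) 𝔽b] {X : GoodRed Ω A 𝔽 𝔽b}
  {Γ₀ : Type*} [LinearOrderedCommGroupWithZero Γ₀] {v : Valuation Ω Γ₀}
  {D : Derivation Ω 𝔽 𝔽} {κ : Place Ω 𝔽 → ℤ}

omit [IsAlgClosed Ω] in
/-- for a deck automorphism, `ρ (g • f)` only depends on `ρ f`. -/
theorem ρ_smul_congr {g : SemilinearAut Ω 𝔽} (hg : IsDeckAut X g) {f f' : 𝔽} (hf : f ∈ X.W)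
    (hf' : f' ∈ X.W) (hgf : g • f ∈ X.W) (hgf' : g • f' ∈ X.W)
    (h : X.ρ ⟨f, hf⟩ = X.ρ ⟨f', hf'⟩) : X.ρ ⟨g • f, hgf⟩ = X.ρ ⟨g • f', hgf'⟩ := by
  have hdW : f - f' ∈ X.W := sub_mem hf hf'
  have hd0 : X.ρ ⟨f - f', hdW⟩ = 0 := by
    have : (⟨f - f', hdW⟩ : ↥X.W) = ⟨f, hf⟩ - ⟨f', hf'⟩ := rfl
    rw [this, map_sub, h, sub_self]
  have hgdW : g • (f - f') ∈ X.W := (hg.smul_mem _).mpr hdW
  have h1 := hg.ρ_smul_eq_zero hdW hgdW hd0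
  have e : (⟨g • (f - f'), hgdW⟩ : ↥X.W) = ⟨g • f, hgf⟩ - ⟨g • f', hgf'⟩ := by
    apply Subtype.ext
    show g • (f - f') = g • f - g • f'
    rw [smul_sub]
  rw [e, map_sub, sub_eq_zero] at h1
  exact h1

/-- **the logarithmic derivative of an invariant function is invariant.** -/
theorem dlog_hinv_of_hfix (hv : v.valuationSubring = A) (hD : IsDerDatum D κ)
    (hn : IsNormalisedDer X D) {g : SemilinearAut Ω 𝔽} (hg : IsDeckAut X g)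
    (hcomm : ∀ f : 𝔽, D (g • f) = g • D f)
    (Db : Derivation (ResidueField ↥A) 𝔽b 𝔽b)
    (hDb : ∀ (f : 𝔽) (hf : f ∈ X.W) (hDf : D f ∈ X.W), Db (X.ρ ⟨f, hf⟩) = X.ρ ⟨D f, hDf⟩)
    {fb : 𝔽b} (hfb : fb ≠ 0)
    (hfix : ∀ (f : 𝔽) (hf : f ∈ X.W) (hgf : g • f ∈ X.W),
      X.ρ ⟨f, hf⟩ = fb → X.ρ ⟨g • f, hgf⟩ = fb)
    (f : 𝔽) (hf : f ∈ X.W) (hgf : g • f ∈ X.W) (hρ : X.ρ ⟨f, hf⟩ = Db fb / fb) :
    X.ρ ⟨g • f, hgf⟩ = Db fb / fb := by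
  obtain ⟨f₁, hf₁⟩ := X.ρ_surjective fb
  have hf₁0 : (f₁ : 𝔽) ≠ 0 := X.ρ_ne_zero_imp_ne_zero f₁.2 (by
    rw [show (⟨(f₁ : 𝔽), f₁.2⟩ : ↥X.W) = f₁ from rfl, hf₁]; exact hfb)
  have hf₁inv : (f₁ : 𝔽)⁻¹ ∈ X.W := (X.inv_mem_W_iff f₁.2 hf₁0).mpr (by
    rw [show (⟨(f₁ : 𝔽), f₁.2⟩ : ↥X.W) = f₁ from rfl, hf₁]; exact hfb)
  have hDf₁ : D (f₁ : 𝔽) ∈ X.W := der_mem_W hv hD hn f₁.2
  -- the logarithmic derivative of a unit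
  have key : ∀ (u : 𝔽) (hu : u ∈ X.W) (hu' : u⁻¹ ∈ X.W) (hDu : D u ∈ X.W)
      (hm : D u * u⁻¹ ∈ X.W), X.ρ ⟨u, hu⟩ = fb → X.ρ ⟨D u * u⁻¹, hm⟩ = Db fb / fb := by
    intro u hu hu' hDu hm hρu
    have e : (⟨D u * u⁻¹, hm⟩ : ↥X.W) = ⟨D u, hDu⟩ * ⟨u⁻¹, hu'⟩ := rfl
    have hu0 : u ≠ 0 := X.ρ_ne_zero_imp_ne_zero hu (by rw [hρu]; exact hfb)
    have hinv : X.ρ ⟨u⁻¹, hu'⟩ = fb⁻¹ := by
      have h1 : (⟨u, hu⟩ : ↥X.W) * ⟨u⁻¹, hu'⟩ = 1 := Subtype.ext (mul_inv_cancel₀ hu0)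
      have h2 := congrArg X.ρ h1
      rw [map_mul, map_one, hρu] at h2
      exact eq_inv_of_mul_eq_one_right h2
    rw [e, map_mul, ← hDb u hu hDu, hρu, hinv, div_eq_mul_inv]
  set f' : 𝔽 := D (f₁ : 𝔽) * (f₁ : 𝔽)⁻¹ with hf'
  have hf'W : f' ∈ X.W := X.W.mul_mem _ _ hDf₁ hf₁inv
  have hρf' : X.ρ ⟨f', hf'W⟩ = Db fb / fb := key f₁ f₁.2 hf₁inv hDf₁ hf'W hf₁
  have hgf'W : g • f' ∈ X.W := (hg.smul_mem _).mpr hf'W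
  rw [ρ_smul_congr hg hf hf'W hgf hgf'W (hρ.trans hρf'.symm)]
  -- `g • f' = D (g • f₁) / (g • f₁)`
  have hgf₁W : g • (f₁ : 𝔽) ∈ X.W := (hg.smul_mem _).mpr f₁.2
  have hgf₁inv : (g • (f₁ : 𝔽))⁻¹ ∈ X.W := by
    rw [← smul_inv'' g (f₁ : 𝔽)]
    exact (hg.smul_mem _).mpr hf₁inv
  have hDgf₁ : D (g • (f₁ : 𝔽)) ∈ X.W := der_mem_W hv hD hn hgf₁W
  have e : g • f' = D (g • (f₁ : 𝔽)) * (g • (f₁ : 𝔽))⁻¹ := by
    rw [hf', smul_mul', smul_inv'', hcomm]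
  have hm : D (g • (f₁ : 𝔽)) * (g • (f₁ : 𝔽))⁻¹ ∈ X.W := by rw [← e]; exact hgf'W
  have h3 := key (g • (f₁ : 𝔽)) hgf₁W hgf₁inv hDgf₁ hm (hfix f₁ f₁.2 hgf₁W hf₁)
  rw [← h3]
  congr 1
  exact Subtype.ext e

end Fermat.Agent.MP

end
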