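import Mathlib
import Fermat.Agent.MW.GOODP_helper3_Ext
import Fermat.Agent.FG.EGAL_helper6_Char

/-!
# MP40 — [ROLD-GR], helper3, part 9: uniqueness of the extension of a derivation along a finite
cover (characteristic zero) and equivariance under the deck transformations

* `derivation_ext_along` : two derivations of `E / k` which agree on `φ F` are equal;
* `conjDerAlg h δ = h⁻¹ ∘ δ ∘ h`;
* `der_comm_of_fixingAlong` : an extension `DE` of `D₀` commutes with every automorphism of `E`
  fixing `φ F`.
-/

set_option autoImplicit false
set_option linter.unusedSectionVars false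
set_option linter.unusedVariables false
set_option linter.style.haveILetI false

noncomputable section

namespace Fermat.Agent.MP

open AlgebraicCurve Fermat.Agent.FF Fermat.Agent.JA Fermat.Agent.FG Fermat.Agent.MW
  KaehlerDifferential

variable {k F E : Type*} [Field k] [Field F] [Field E] [Algebra k F] [Algebra k E]

/-- a derivation of a finite separable extension which kills the base field is zero. -/
theorem derivation_eq_zero_of_isSeparable {F E : Type*} [Field F] [Field E] [Algebra F E]
    [Algebra.IsSeparable F E] (δ : Derivation F E E) : δ = 0 := by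
  haveI : Algebra.FormallyUnramified F E := Algebra.FormallyUnramified.of_isSeparable F E
  ext y
  have h1 : δ y = δ.liftKaehlerDifferential (D F E y) :=
    (δ.liftKaehlerDifferential_comp_D y).symm
  rw [h1, Subsingleton.elim (D F E y) 0, map_zero]
  rfl

variable [CharZero k]

/-- **uniqueness of the extension of a derivation along a finite cover.** -/
theorem derivation_ext_along (φ : F →ₐ[k] E) (hfin : FiniteAlong k φ)
    {D₁ D₂ : Derivation k E E} (h : ∀ f : F, D₁ (φ f) = D₂ (φ f)) : D₁ = D₂ := by
  letI := algebraAlong φ
  haveI := isScalarTower_along φ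
  haveI : FiniteDimensional F E := hfin
  haveI : CharZero F := charZero_of_injective_algebraMap (algebraMap k F).injective
  haveI : Algebra.IsSeparable F E := Algebra.IsAlgebraic.isSeparable_of_perfectField
  set δ₀ : Derivation k E E := D₁ - D₂ with hδ₀
  have hkill : ∀ f : F, δ₀ (algebraMap F E f) = 0 := by
    intro f
    show (D₁ - D₂) (φ f) = 0
    rw [Derivation.sub_apply, h f, sub_self]
  let L : E →ₗ[F] E :=
    { toFun := fun x => δ₀ x
      map_add' := fun x y => map_add δ₀ x y
      map_smul' := fun a x => by
        simp only [RingHom.id_apply]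
        rw [Algebra.smul_def, Derivation.leibniz, hkill, smul_zero, add_zero, smul_eq_mul,
          Algebra.smul_def] }
  set δ : Derivation F E E := Derivation.mk' L (fun a b => Derivation.leibniz δ₀ a b) with hδ
  have hδ0 : δ = 0 := derivation_eq_zero_of_isSeparable δ
  have hzero : δ₀ = 0 := by
    ext y
    have := congrArg (fun d : Derivation F E E => d y) hδ0
    exact this
  have : D₁ - D₂ = 0 := hzero
  exact sub_eq_zero.mp this

omit [CharZero k] in
/-- the conjugate `h⁻¹ ∘ δ ∘ h` of a derivation by an automorphism. -/
def conjDerAlg (h : E ≃ₐ[k] E) (δ : Derivation k E E) : Derivation k E E :=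
  Derivation.mk' ((h.symm.toLinearMap.comp δ.toLinearMap).comp h.toLinearMap) (by
    intro a b
    show h.symm (δ (h (a * b))) = a • h.symm (δ (h b)) + b • h.symm (δ (h a))
    rw [map_mul, Derivation.leibniz, smul_eq_mul, smul_eq_mul, map_add, map_mul, map_mul,
      AlgEquiv.symm_apply_apply, AlgEquiv.symm_apply_apply, smul_eq_mul, smul_eq_mul])

omit [CharZero k] in
theorem conjDerAlg_apply (h : E ≃ₐ[k] E) (δ : Derivation k E E) (y : E) :
    conjDerAlg h δ y = h.symm (δ (h y)) := rfl

/-- **an extension of a derivation of `F` to a finite cover `E` commutes with the automorphisms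
of `E` over `F`.** -/
theorem der_comm_of_fixingAlong (φ : F →ₐ[k] E) (hfin : FiniteAlong k φ)
    {D₀ : Derivation k F F} {DE : Derivation k E E} (hDE : ∀ f : F, DE (φ f) = φ (D₀ f))
    {h : E ≃ₐ[k] E} (hh : h ∈ fixingAlong φ) (y : E) : DE (h y) = h (DE y) := by
  have hfix : ∀ x : F, h (φ x) = φ x := hh
  have hfix' : ∀ x : F, h.symm (φ x) = φ x := fun x => by
    rw [AlgEquiv.symm_apply_eq, hfix x]
  have h1 : conjDerAlg h DE = DE := by
    apply derivation_ext_along φ hfin
    intro f
    rw [conjDerAlg_apply, hfix f, hDE f, hfix']
  have h2 := congrArg (fun d : Derivation k E E => d y) h1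
  simp only [conjDerAlg_apply] at h2
  rw [← h2, AlgEquiv.apply_symm_apply]

end Fermat.Agent.MP

end
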