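import Mathlib
import Fermat.Agent.MP.ROLDGR_helper3_Dim
import Fermat.Agent.MW.RRAPP_helper8_Can
import Fermat.Agent.FG.LAT_helper5_Basis

/-!
# MP40 — [ROLD-GR], helper3, part 7: (N1) Riemann–Roch on the generic fibre of a good reduction
datum, for the canonical divisor of a derivation

`Ω` algebraically closed of characteristic zero, `X : GoodRed Ω A 𝔽 𝔽b`, `c : Coord Ω 𝔽`,
`D ≠ 0` a derivation of `𝔽 / Ω`, `κ := derCan D`.  Then

* `support_derCan_finite` : `κ` has finite support;
* `genus_eq_of_rrHyp` : the Riemann–Roch genus of `𝔽` is `X.g`;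
* `derCan_RR` : `IsDerDatum D κ`, `∑ κ = 2 g - 2`, `regSpace κ` is finite of dimension `X.g`
  — the hypotheses `hD hκ hdeg hfin hdim` of (GR4)/(GR5)/(N5).
-/

set_option autoImplicit false
set_option linter.unusedSectionVars false
set_option linter.unusedVariables false
set_option linter.style.haveILetI false

noncomputable section

namespace Fermat.Agent.MP

open AlgebraicCurve IsLocalRing Fermat.Agent.FF Fermat.Agent.JA Fermat.Agent.FG Fermat.Agent.MW
open scoped Classical

section General

variable {k F : Type*} [Field k] [Field F] [Algebra k F]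

/-- a divisor satisfying the specification of the canonical divisor of `D` is `derCan D`. -/
theorem derCan_eq_of_spec {D : Derivation k F F} {κd : Divisor k F}
    (hκd : ∀ (Q : Place k F) (τ : F), Q.ord τ = 1 → D τ ≠ 0 ∧ Q.ord (D τ) = -κd Q)
    (Q : Place k F) : derCan D Q = κd Q := by
  rw [derCan, (hκd Q (derUnif Q) (ord_derUnif Q)).2, neg_neg]

variable [IsAlgClosed k] [CharZero k]

/-- the canonical divisor of a nonzero derivation has finite support. -/
theorem support_derCan_finite (c : Coord k F) {D : Derivation k F F} (hD0 : D ≠ 0) :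
    (Function.support (derCan D)).Finite := by
  obtain ⟨κd, hκd⟩ := exists_derDivisor c hD0
  have h : derCan D = fun Q => κd Q := funext (derCan_eq_of_spec hκd)
  rw [h]
  exact κd.hasFiniteSupport

end General

variable {Ω : Type*} [Field Ω] [IsAlgClosed Ω] [CharZero Ω] {A : ValuationSubring Ω}
  {𝔽 : Type*} [Field 𝔽] [Algebra Ω 𝔽]
  {𝔽b : Type*} [Field 𝔽b] [Algebra (ResidueField ↥A) 𝔽b]

/-- **the Riemann–Roch genus of the generic fibre of a good reduction datum is `X.g`.** -/
theorem genus_eq_of_rrHyp (X : GoodRed Ω A 𝔽 𝔽b) (c : Coord Ω 𝔽) {κd : Divisor Ω 𝔽} {g' : ℕ}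
    (H : RRHyp κd g') : g' = X.g := by
  set m : ℕ := 2 * g' + 2 * X.g + 1 with hm
  have hm1 : 2 * (X.g : ℤ) - 1 ≤ m := by rw [hm]; push_cast; omega
  obtain ⟨r, f, -, hr, hLI, hspan, -, -, -⟩ := X.exists_lattice_basis hm1
  have hr1 : r = Module.finrank Ω ↥(poleSpace X.cusp m) := by
    have := finrank_span_eq_card hLI
    rw [hspan, finrank_top, Fintype.card_fin] at this
    exact this.symm
  have hdeg : Divisor.degree (Finsupp.single X.cusp (m : ℤ)) = m := X.degree_single_cusp m
  have h2 := H.ell_of_lt c (E := Finsupp.single X.cusp (m : ℤ))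
    (by rw [hdeg, hm]; push_cast; omega)
  rw [hdeg] at h2
  have h3 : (ell (Finsupp.single X.cusp (m : ℤ) : Divisor Ω 𝔽) : ℤ) = r := by
    rw [hr1]
    rfl
  rw [h3, hr] at h2
  omega

/-- **(N1)** Riemann–Roch for the canonical divisor of a nonzero derivation on the generic fibre
of a good reduction datum. -/
theorem derCan_RR (X : GoodRed Ω A 𝔽 𝔽b) (c : Coord Ω 𝔽) {D : Derivation Ω 𝔽 𝔽} (hD0 : D ≠ 0) :
    IsDerDatum D (derCan D) ∧ (Function.support (derCan D)).Finite ∧
      ∑ᶠ P, derCan D P = 2 * (X.g : ℤ) - 2 ∧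
      Module.Finite Ω ↥(regSpace (derCan D)) ∧
      Module.finrank Ω ↥(regSpace (derCan D)) = X.g := by
  obtain ⟨κd, hκd⟩ := exists_derDivisor c hD0
  have hfun : derCan D = fun Q => κd Q := funext (derCan_eq_of_spec hκd)
  have hκ : (Function.support (derCan D)).Finite := support_derCan_finite c hD0
  obtain ⟨g', H⟩ := exists_rrHyp c D κd hκd
  have hg : g' = X.g := genus_eq_of_rrHyp X c H
  have hreg : regSpace (derCan D) = riemannRochSpace κd := by
    rw [hfun]
    exact regSpace_coe_divisor κd
  have hdiv : Fermat.Agent.MP.divOf (derCan D) hκ = κd := by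
    ext Q
    rw [Fermat.Agent.MP.divOf_apply, derCan_eq_of_spec hκd]
  refine ⟨isDerDatum_derCan c hD0, hκ, ?_, ?_, ?_⟩
  · rw [← Fermat.Agent.MP.degree_divOf (derCan D) hκ X.deg_gen, hdiv, ← H.deg, hg]
  · rw [hreg]
    exact H.fin κd
  · rw [hreg]
    have := H.ell_canonical c
    rw [hg] at this
    exact this

end Fermat.Agent.MP

end
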