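import Mathlib
import Fermat.Agent.MP.ROLDGR_helper3_Red
import Fermat.Agent.MW.GOODP_helper3_Max

/-!
# MP40 — [ROLD-GR], helper3, part 8: (N2) a criterion for `‖D‖ = 1`

`isNormalisedDer_of_unit_of_not_pow` : if `f ∈ W`, `D f` is a Gauss unit (e.g. `D f = 1`) and the
reduction of `f` is not a `p`-th power in `𝔽b`, then `D` is normalised (`‖D‖ = 1`).

Proof: `‖D‖ ≥ ‖D f‖ = 1` always; if `‖D‖ > 1`, then `a • D` (`|a| = ‖D‖⁻¹ < 1`) is normalised and
its reduction kills `ρ f`, so `ρ f` is a `p`-th power by (GR2) + (GR7).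
-/

set_option autoImplicit false
set_option linter.unusedSectionVars false
set_option linter.unusedVariables false
set_option linter.style.haveILetI false

noncomputable section

namespace Fermat.Agent.MP

open AlgebraicCurve IsLocalRing Fermat.Agent.FF Fermat.Agent.JA Fermat.Agent.FG Fermat.Agent.MW
open scoped Classical

variable {Ω : Type*} [Field Ω] [IsAlgClosed Ω] {A : ValuationSubring Ω}
  {𝔽 : Type*} [Field 𝔽] [Algebra Ω 𝔽]
  {𝔽b : Type*} [Field 𝔽b] [Algebra (ResidueField ↥A) 𝔽b] {X : GoodRed Ω A 𝔽 𝔽b}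
  {Γ₀ : Type*} [LinearOrderedCommGroupWithZero Γ₀] {v : Valuation Ω Γ₀}
  {D : Derivation Ω 𝔽 𝔽} {κ : Place Ω 𝔽 → ℤ}

omit [IsAlgClosed Ω] in
/-- scaling a derivation by a nonzero constant does not change its canonical divisor. -/
theorem isDerDatum_smul (hD : IsDerDatum D κ) {a : Ω} (ha : a ≠ 0) : IsDerDatum (a • D) κ := by
  refine ⟨fun Q τ hτ => ?_⟩
  obtain ⟨h1, h2⟩ := hD.spec Q τ hτ
  have ha' : algebraMap Ω 𝔽 a ≠ 0 := (map_ne_zero _).mpr ha
  have e : (a • D) τ = algebraMap Ω 𝔽 a * D τ := by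
    rw [Derivation.smul_apply, Algebra.smul_def]
  rw [e]
  refine ⟨mul_ne_zero ha' h1, ?_⟩
  rw [Q.ord_mul ha' h1, PlaceAux.ord_algebraMap, zero_add, h2]

/-- **(N2)** a derivation taking a Gauss-unit value on an integral function whose reduction is
not a `p`-th power is normalised. -/
theorem isNormalisedDer_of_unit_of_not_pow (hv : v.valuationSubring = A) (hD : IsDerDatum D κ)
    (hκ : (Function.support κ).Finite) (p : ℕ) [Fact p.Prime] [CharP (ResidueField ↥A) p]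
    {f : 𝔽} (hf : f ∈ X.W) (hDf : D f ∈ X.W) (hDf' : (D f)⁻¹ ∈ X.W) (hDf0 : D f ≠ 0)
    (hpow : ¬ ∃ g : 𝔽b, X.ρ ⟨f, hf⟩ = g ^ p) : IsNormalisedDer X D := by
  haveI : IsAlgClosed (ResidueField ↥A) := Fermat.Agent.DS48.VALSUB.isAlgClosed_residueField A
  haveI : PerfectRing (ResidueField ↥A) p := PerfectField.toPerfectRing p
  have ht : IsDiscCoord X X.cuspb X.τ := ⟨X.τ_mem, X.τ_regularOn, X.ord_r_cusp_τ⟩
  have hDt0 : D X.τ ≠ 0 := ht.der_ne_zero hD
  obtain ⟨a, ha0, haW, haW'⟩ := X.exists_smul_unit (D X.τ) hDt0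
  have hN : gaussNorm X v (D X.τ) = (v a)⁻¹ := gaussNorm_eq hv hDt0 ha0 haW haW'
  have h1 : gaussNorm X v (D f) = 1 := Fermat.Agent.MW.gaussNorm_eq_one hv hDf0 hDf hDf'
  have hle : gaussNorm X v (D f) ≤ gaussNorm X v (D X.τ) := ht.gaussNorm_der_le hv hD hf
  rw [h1, hN] at hle
  have hva0 : 0 < v a := zero_lt_iff.mpr ((Valuation.ne_zero_iff v).mpr ha0)
  have hva : v a ≤ 1 := by
    have := (one_le_inv₀ hva0).mp hle
    exact this
  have haA : a ∈ A := goodp_mem_of_val_le_one hv hva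
  -- the scaled derivation
  have hD' : IsDerDatum (a • D) κ := isDerDatum_smul hD ha0
  have hn' : IsNormalisedDer X (a • D) := ⟨X.cuspb, X.τ, ht, haW, haW'⟩
  by_cases hlt : v a < 1
  · exfalso
    have hanon : a ∈ A.nonunits := goodp_mem_nonunits_of_val_lt_one hv hlt
    obtain ⟨haA', hres⟩ := (GoodRed.mem_nonunits_iff' (A := A)).mp hanon
    set Db := derBar X (a • D) hv hD' hn' with hDb
    have hDbρ := derBar_ρ hv hD' hn'
    -- `Db (ρ f) = 0`
    have hD'f : (a • D) f ∈ X.W := der_mem_W hv hD' hn' hf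
    have hkill : Db (X.ρ ⟨f, hf⟩) = 0 := by
      rw [hDb, hDbρ f hf hD'f]
      have e : (⟨(a • D) f, hD'f⟩ : ↥X.W)
          = ⟨((⟨a, haA'⟩ : ↥A) : Ω) • ((⟨D f, hDf⟩ : ↥X.W) : 𝔽), X.smul_mem_W haA' hDf⟩ := by
        apply Subtype.ext
        rfl
      rw [e, X.ρ_smul, hres, zero_smul]
    -- `Db (ρ τ) ≠ 0`
    have hx : Db (coordRed X).x ≠ 0 := by
      show Db (X.ρ ⟨X.τ, X.τ_mem⟩) ≠ 0
      rw [hDb, hDbρ X.τ X.τ_mem haW]
      have h0 : (a • D) X.τ ≠ 0 := by
        intro h0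
        have : (a • D) X.τ = a • D X.τ := rfl
        rw [this] at h0
        rw [h0, inv_zero] at haW'
        exact hDt0 ((smul_eq_zero.mp h0).resolve_left ha0)
      exact (X.inv_mem_W_iff haW h0).mp haW'
    exact hpow (exists_pow_eq_of_der_eq_zero p (coordRed X) X.τ_separable_red Db hx hkill)
  · have hva1 : v a = 1 := le_antisymm hva (not_lt.mp hlt)
    have hainv : a⁻¹ ∈ A := goodp_mem_of_val_le_one hv (by rw [map_inv₀, hva1, inv_one])
    refine ⟨X.cuspb, X.τ, ht, ?_, ?_⟩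
    · have e : D X.τ = a⁻¹ • (a • D X.τ) := by
        rw [smul_smul, inv_mul_cancel₀ ha0, one_smul]
      rw [e]
      exact X.smul_mem_W hainv haW
    · have e : (D X.τ)⁻¹ = a • (a • D X.τ)⁻¹ := by
        rw [Algebra.smul_def, Algebra.smul_def, mul_inv, ← mul_assoc,
          mul_inv_cancel₀ ((map_ne_zero _).mpr ha0), one_mul]
      rw [e]
      exact X.smul_mem_W haA haW'

end Fermat.Agent.MP

end
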