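import Mathlib
import Fermat.Agent.MP.ROLDGR_helper3_Genus
import Fermat.Agent.MP.ROLDGR_helper3_Norm
import Fermat.Agent.MP.ROLDGR_helper3_DerExt
import Fermat.Agent.MP.ROLDGR_helper3_AvgDeck
import Fermat.Agent.MW.GOODP_helper3_Leg
import Fermat.Agent.MW.RRAPP_helper8_Der

/-!
# MP40 — [ROLD-GR], helper3, part 11: (N1) + (N2) + (N5) on the Legendre host

`X := legGoodRed hA M hpM hp2`, `φ := fullToLegE Ω M`, `D₀ := derJ M = d/dj`, `DE` any extension
of `D₀` to the host (`hDE : ∀ f, DE (φ f) = φ (D₀ f)`), `κ := derCan DE`.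

* `legJHost M = φ j`, Gauss-integral, `DE (φ j) = 1`, its reduction has `x`-expansion
  `x⁻² + 744 + …` hence is not a `p`-th power (`p ≠ 2`);
* `legHost_RR` : **(N1)** `IsDerDatum DE κ`, finite support, `∑ κ = 2g - 2`, `regSpace κ` finite of
  dimension `X.g`;
* `legHost_isNormalisedDer` : **(N2)** `IsNormalisedDer X DE`;
* `legHost_der_comm` : `DE` commutes with the deck group; `legHost_pow_six`,
  `legHost_card_inv_mem` : the order of the deck group is prime to `p` (`p ≠ 2, 3`);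
  `legHost_exists_of_deck_fixed` : deck-invariant functions come from `FunN M`;
* `legHost_exists_invariant_lift` : **(N5)** on the host, with the descent to `FunN M`.
-/

set_option autoImplicit false
set_option linter.unusedSectionVars false
set_option linter.unusedVariables false
set_option linter.style.haveILetI false

noncomputable section

namespace Fermat.Agent.MP

open AlgebraicCurve ModularCurve IsLocalRing IntermediateField Fermat.Agent.FF Fermat.Agent.JA
  Fermat.Agent.FG Fermat.Agent.MW Fermat.Agent.SS Fermat.Agent.Igusa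
open scoped Classical

local notation "Ω" => AlgebraicClosure ℚ

variable {p : ℕ} [Fact p.Prime] {A : ValuationSubring Ω} (hA : A.LiesOverPrime p)
  (M : ℕ) [NeZero M] (hpM : ¬ p ∣ M) (hp2 : p ≠ 2)

/-! ### `j` on the host -/

/-- `j` on the Legendre host. -/
def legJHost : ↥(legE Ω M) := fullToLegE Ω M (Fermat.Agent.X0N.jBar M)

theorem coe_legJHost :
    ((legJHost M : ↥(legE Ω M)) : LaurentSeries Ω) = qExpand Ω 2 (jqModC Ω) := by
  rw [legJHost, coe_fullToLegE, coe_jBar_eq_jqModC]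

theorem fEmb_qExpand_jqModC :
    fEmb A (qExpand ↥A 2 (jqModC ↥A)) = qExpand Ω 2 (jqModC Ω) := by
  rw [fEmb, coeffMap_qExpand, coeffMap_jqModC]

theorem legJHost_mem : legJHost M ∈ legWE hA M hp2 := by
  rw [mem_legWE_iff, coe_legJHost, ← fEmb_qExpand_jqModC (A := A)]
  exact fEmb_mem_fracInt A _

/-- the `x`-expansion of the reduction of `j`. -/
theorem legEtEmb_legρ_legJHost :
    legEtEmb hA M hp2 (legρ hA M hp2 ⟨legJHost M, legJHost_mem hA M hp2⟩) =
      qExpand (ResidueField ↥A) 2 (jqModC (ResidueField ↥A)) := by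
  rw [legEtEmb_legρ]
  have e : (⟨((legJHost M : ↥(legE Ω M)) : LaurentSeries Ω),
      (mem_legWE_iff hA M hp2 _).mp (legJHost_mem hA M hp2)⟩ : ↥(fracInt A)) =
      ⟨fEmb A (qExpand ↥A 2 (jqModC ↥A)), fEmb_mem_fracInt A _⟩ := by
    apply Subtype.ext
    show ((legJHost M : ↥(legE Ω M)) : LaurentSeries Ω) = fEmb A (qExpand ↥A 2 (jqModC ↥A))
    rw [coe_legJHost, fEmb_qExpand_jqModC]
  rw [e, fracRed_fEmb, fRed, coeffMap_qExpand, coeffMap_jqModC]

theorem order_jqModC_field (k : Type*) [Field k] : (jqModC k).order = -1 := by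
  have hne := jqModC_ne_zero_of_nontrivial k
  apply le_antisymm
  · exact HahnSeries.order_le_of_coeff_ne_zero
      (by rw [coeff_jqModC_neg_one]; exact one_ne_zero)
  · by_contra hlt
    rw [not_le] at hlt
    exact hne (HahnSeries.coeff_order_eq_zero.mp (coeff_jqModC_of_lt k hlt))

/-- **the reduction of `j` is not a `p`-th power** (`p` odd). -/
theorem legJHost_red_not_pow :
    ¬ ∃ g : legEt hA M hp2, legρ hA M hp2 ⟨legJHost M, legJHost_mem hA M hp2⟩ = g ^ p := by
  rintro ⟨g, hg⟩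
  have h1 := congrArg (legEtEmb hA M hp2) hg
  rw [legEtEmb_legρ_legJHost, map_pow] at h1
  have h2 := congrArg HahnSeries.order h1
  rw [Fermat.Agent.JA.order_qExpand, order_jqModC_field, HahnSeries.order_pow] at h2
  have h3 : (p : ℤ) ∣ 2 := by
    refine ⟨-(legEtEmb hA M hp2 g).order, ?_⟩
    rw [nsmul_eq_mul] at h2
    push_cast at h2
    linarith
  have h4 : p ∣ 2 := by exact_mod_cast h3
  exact hp2 ((Nat.prime_dvd_prime_iff_eq (Fact.out : p.Prime) Nat.prime_two).mp h4)

/-! ### an extension `DE` of `d/dj` -/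

variable {M}
variable {DE : Derivation Ω ↥(legE Ω M) ↥(legE Ω M)}

theorem legHost_der_legJHost
    (hDE : ∀ f : FunN M, DE (fullToLegE Ω M f) = fullToLegE Ω M (derJ M f)) :
    DE (legJHost M) = 1 := by
  rw [legJHost, hDE, derJ_jBar, map_one]

theorem legHost_der_ne_zero
    (hDE : ∀ f : FunN M, DE (fullToLegE Ω M f) = fullToLegE Ω M (derJ M f)) : DE ≠ 0 := by
  intro h0
  have h1 := legHost_der_legJHost hDE
  rw [h0] at h1
  exact zero_ne_one h1

/-- **(N1) on the host.** -/
theorem legHost_RR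
    (hDE : ∀ f : FunN M, DE (fullToLegE Ω M f) = fullToLegE Ω M (derJ M f)) :
    IsDerDatum DE (derCan DE) ∧ (Function.support (derCan DE)).Finite ∧
      ∑ᶠ P, derCan DE P = 2 * ((legGoodRed hA M hpM hp2).g : ℤ) - 2 ∧
      Module.Finite Ω ↥(regSpace (derCan DE)) ∧
      Module.finrank Ω ↥(regSpace (derCan DE)) = (legGoodRed hA M hpM hp2).g :=
  derCan_RR (legGoodRed hA M hpM hp2) (legCoordBar M) (legHost_der_ne_zero hDE)

/-- **(N2) on the host.** -/
theorem legHost_isNormalisedDer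
    (hDE : ∀ f : FunN M, DE (fullToLegE Ω M f) = fullToLegE Ω M (derJ M f)) :
    IsNormalisedDer (legGoodRed hA M hpM hp2) DE := by
  haveI : CharP (ResidueField ↥A) p := charP_residueField hA
  obtain ⟨hD, hκ, -, -, -⟩ := legHost_RR hA hpM hp2 hDE
  have h1 := legHost_der_legJHost hDE
  have hone : (1 : ↥(legE Ω M)) ∈ (legGoodRed hA M hpM hp2).W :=
    (legGoodRed hA M hpM hp2).W.one_mem
  refine isNormalisedDer_of_unit_of_not_pow (X := legGoodRed hA M hpM hp2) (v := A.valuation)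
    A.valuationSubring_valuation hD hκ p (f := legJHost M) (legJHost_mem hA M hp2) ?_ ?_ ?_
    (legJHost_red_not_pow hA M hp2)
  · rw [h1]; exact hone
  · rw [h1, inv_one]; exact hone
  · rw [h1]; exact one_ne_zero

/-! ### the deck group -/

/-- the action of a deck transformation is that of the underlying automorphism. -/
theorem ofAlgAut_smul (h : ↥(legE Ω M) ≃ₐ[Ω] ↥(legE Ω M)) (y : ↥(legE Ω M)) :
    SemilinearAut.ofAlgAut h • y = h y := rfl

/-- `DE` commutes with the deck group. -/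
theorem legHost_der_comm
    (hDE : ∀ f : FunN M, DE (fullToLegE Ω M f) = fullToLegE Ω M (derJ M f))
    {g : SemilinearAut Ω ↥(legE Ω M)} (hg : g ∈ deckGroup (fullToLegE Ω M))
    (y : ↥(legE Ω M)) : DE (g • y) = g • DE y := by
  obtain ⟨h, hh, rfl⟩ := mem_deckGroup.mp hg
  rw [ofAlgAut_smul, ofAlgAut_smul]
  exact der_comm_of_fixingAlong (fullToLegE Ω M) (finiteAlong_fullToLegE M) hDE hh y

theorem anharmonic_aux4 {E : Type*} [Field E] {t : E} (ht0 : t ≠ 0) (h1' : 1 - t ≠ 0) :
    (1 - (1 - t)⁻¹)⁻¹ = (t - 1) / t := by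
  have h2 : 1 - (1 - t)⁻¹ = -t / (1 - t) := by
    field_simp
    ring
  rw [h2, inv_div]
  rw [div_eq_div_iff (neg_ne_zero.mpr ht0) ht0]
  ring

theorem anharmonic_aux4b {E : Type*} [Field E] {t : E} (h1' : 1 - t ≠ 0) :
    ((1 - t)⁻¹ - 1) / (1 - t)⁻¹ = t := by
  rw [div_eq_iff (inv_ne_zero h1')]
  field_simp
  ring

theorem anharmonic_aux5 {E : Type*} [Field E] {t : E} (ht0 : t ≠ 0) (h1 : t - 1 ≠ 0)
    (h1' : 1 - t ≠ 0) : ((t - 1) / t - 1) / ((t - 1) / t) = (1 - t)⁻¹ := by
  rw [div_eq_iff (div_ne_zero h1 ht0)]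
  field_simp
  ring

theorem anharmonic_aux5b {E : Type*} [Field E] {t : E} (ht0 : t ≠ 0) :
    (1 - (t - 1) / t)⁻¹ = t := by
  have h2 : 1 - (t - 1) / t = t⁻¹ := by
    field_simp
    ring
  rw [h2, inv_inv]

theorem anharmonic_aux6 {E : Type*} [Field E] {t : E} (h1 : t - 1 ≠ 0) :
    t / (t - 1) / (t / (t - 1) - 1) = t := by
  have h2 : t / (t - 1) - 1 = (t - 1)⁻¹ := by
    field_simp
    ring
  rw [h2, div_eq_iff (inv_ne_zero h1)]
  field_simp

/-- an anharmonic transformation has order dividing `6`. -/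
theorem anharmonic_iterate {E : Type*} [Field E] (h : E ≃+* E) {t : E} (ht0 : t ≠ 0)
    (ht1 : t ≠ 1)
    (hy : h t = t ∨ h t = 1 - t ∨ h t = t⁻¹ ∨ h t = (1 - t)⁻¹ ∨ h t = (t - 1) / t ∨
      h t = t / (t - 1)) :
    h (h t) = t ∨ h (h (h t)) = t := by
  have h1 : t - 1 ≠ 0 := sub_ne_zero.mpr ht1
  have h1' : 1 - t ≠ 0 := sub_ne_zero.mpr (Ne.symm ht1)
  rcases hy with e | e | e | e | e | e
  · left; rw [e, e]
  · left; rw [e, map_sub, map_one, e]; ring
  · left; rw [e, map_inv₀, e, inv_inv]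
  · right
    have e2 : h (h t) = (t - 1) / t := by
      rw [e, map_inv₀, map_sub, map_one, e]
      exact anharmonic_aux4 ht0 h1'
    rw [e2, map_div₀, map_sub, map_one, e]
    exact anharmonic_aux4b h1'
  · right
    have e2 : h (h t) = (1 - t)⁻¹ := by
      rw [e, map_div₀, map_sub, map_one, e]
      exact anharmonic_aux5 ht0 h1 h1'
    rw [e2, map_inv₀, map_sub, map_one, e]
    exact anharmonic_aux5b ht0
  · left
    rw [e, map_div₀, map_sub, map_one, e]
    exact anharmonic_aux6 h1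

/-- every automorphism of the Legendre cover has order dividing `6`. -/
theorem legHost_pow_six {h : ↥(legE Ω M) ≃ₐ[Ω] ↥(legE Ω M)}
    (hh : h ∈ fixingAlong (fullToLegE Ω M)) : h ^ 6 = 1 := by
  have han := isAnharmonic_legTE M hh
  rcases anharmonic_iterate h.toRingEquiv (legTE_ne_zero M) (legTE_ne_one M) han with e | e
  · have h2 : h ^ 2 = 1 := by
      apply legE_eq_one_of_apply_legTE M (pow_mem hh 2)
      rw [pow_two, AlgEquiv.mul_apply]
      exact e
    rw [show (6 : ℕ) = 2 * 3 from rfl, pow_mul, h2, one_pow]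
  · have h3 : h ^ 3 = 1 := by
      apply legE_eq_one_of_apply_legTE M (pow_mem hh 3)
      rw [pow_succ, pow_two, AlgEquiv.mul_apply, AlgEquiv.mul_apply]
      exact e
    rw [show (6 : ℕ) = 3 * 2 from rfl, pow_mul, h3, one_pow]

theorem legHost_deck_pow_six (g : ↥(deckGroup (fullToLegE Ω M))) : g ^ 6 = 1 := by
  obtain ⟨h, hh, hg⟩ := mem_deckGroup.mp g.2
  apply Subtype.ext
  rw [Subgroup.coe_pow, Subgroup.coe_one, ← hg, ← map_pow, legHost_pow_six hh, map_one]

include hp2 in
/-- the order of the deck group is prime to `p` (`p ≠ 2, 3`). -/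
theorem legHost_not_dvd_card (hp3 : p ≠ 3) :
    ¬ p ∣ Fintype.card ↥(deckGroup (fullToLegE Ω M)) := by
  intro hdvd
  obtain ⟨g, hg⟩ := exists_prime_orderOf_dvd_card p hdvd
  have h6 : orderOf g ∣ 6 := orderOf_dvd_of_pow_eq_one (legHost_deck_pow_six g)
  rw [hg] at h6
  have hp : p.Prime := Fact.out
  have hle : p ≤ 6 := Nat.le_of_dvd (by norm_num) h6
  interval_cases p
  · exact absurd hp (by decide)
  · exact absurd hp (by decide)
  · exact hp2 rfl
  · exact hp3 rfl
  · exact absurd hp (by decide)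
  · exact absurd h6 (by decide)
  · exact absurd hp (by decide)

theorem legHost_card_ne_zero :
    (Fintype.card ↥(deckGroup (fullToLegE Ω M)) : Ω) ≠ 0 := by
  rw [Nat.cast_ne_zero]
  exact Fintype.card_ne_zero

include hA hp2 in
theorem legHost_card_inv_mem (hp3 : p ≠ 3) :
    ((Fintype.card ↥(deckGroup (fullToLegE Ω M)) : Ω))⁻¹ ∈ A := by
  rw [← A.valuation_le_one_iff, map_inv₀,
    Fermat.Agent.TW.Kill.valuation_natCast_eq_one (Fact.out : p.Prime)
      (legHost_not_dvd_card (M := M) hp2 hp3) hA, inv_one]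

/-- deck-invariant functions on the host come from `X₀(M)`. -/
theorem legHost_exists_of_deck_fixed {y : ↥(legE Ω M)}
    (hy : ∀ g ∈ deckGroup (fullToLegE Ω M), g • y = y) :
    ∃ y₀ : FunN M, fullToLegE Ω M y₀ = y :=
  legE_mem_range_of_fixed M y fun h hh => by
    have := hy (SemilinearAut.ofAlgAut h) (mem_deckGroup.mpr ⟨h, hh, rfl⟩)
    rwa [ofAlgAut_smul] at this

/-- **(N5) on the host, with the descent to `X₀(M)`**: a regular differential `hb` of the reduced
host which is fixed by the induced action of the deck group is the reduction of `φ h₀`,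
`h₀ ∈ FunN M`, with `φ h₀` a Gauss-integral regular differential of the host. -/
theorem legHost_exists_invariant_lift (hp3 : p ≠ 3)
    (hDE : ∀ f : FunN M, DE (fullToLegE Ω M f) = fullToLegE Ω M (derJ M f))
    {hb : legEt hA M hp2} (hhb : hb ∈ regSpace (canBar (legGoodRed hA M hpM hp2) (derCan DE)))
    (hinv : ∀ g ∈ deckGroup (fullToLegE Ω M), ∀ (f : ↥(legE Ω M))
      (hf : f ∈ legWE hA M hp2) (hgf : g • f ∈ legWE hA M hp2),
      legρ hA M hp2 ⟨f, hf⟩ = hb → legρ hA M hp2 ⟨g • f, hgf⟩ = hb) :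
    ∃ (h₀ : FunN M) (hW : fullToLegE Ω M h₀ ∈ legWE hA M hp2),
      fullToLegE Ω M h₀ ∈ regSpace (derCan DE) ∧
        legρ hA M hp2 ⟨fullToLegE Ω M h₀, hW⟩ = hb := by
  obtain ⟨hD, hκ, hdeg, hfin, hdim⟩ := legHost_RR hA hpM hp2 hDE
  obtain ⟨h, hW, hV, hfix, hρ⟩ := exists_invariant_lift_regSpace_deck
    (X := legGoodRed hA M hpM hp2) (v := A.valuation) A.valuationSubring_valuation hD hκ
    (legHost_isNormalisedDer hA hpM hp2 hDE) hdeg.le hfin hdim
    (deckGroup (fullToLegE Ω M)) (fun g hg => isDeckAut_leg M hA hpM hp2 hg)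
    legHost_card_ne_zero (legHost_card_inv_mem hA hp2 hp3)
    (fun g hg f => legHost_der_comm hDE hg f) hhb hinv
  obtain ⟨h₀, rfl⟩ := legHost_exists_of_deck_fixed hfix
  exact ⟨h₀, hW, hV, hρ⟩

end Fermat.Agent.MP

end
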