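import Mathlib
import Fermat.Agent.MP.ROLDGR_helper3_Lift

/-!
# MP40 — [ROLD-GR], helper3, part 6: (N5) averaging over a finite group of automorphisms

`X : GoodRed Ω A 𝔽 𝔽b`, `G` a finite set of `Ω`-automorphisms of `𝔽`, closed under composition,
preserving the Gauss valuation ring and `regSpace κ`, of order invertible in `A`.

* `ρ_algEquiv_eq_zero` : such an automorphism preserves the maximal ideal of `W`;
* **`exists_invariant_lift_regSpace`** : a `G`-invariant `h₀ ∈ W` whose reduction lies in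
  `regSpace (canBar X κ)` has the same reduction as a `G`-invariant element of `regSpace κ ∩ W`.
-/

set_option autoImplicit false
set_option linter.unusedSectionVars false
set_option linter.unusedVariables false
set_option linter.style.haveILetI false

noncomputable section

namespace Fermat.Agent.MP

open AlgebraicCurve IsLocalRing Fermat.Agent.FF Fermat.Agent.JA Fermat.Agent.FG Fermat.Agent.MW
open scoped Classical

variable {Ω : Type*} [Field Ω] [IsAlgClosed Ω] {A : ValuationSubring Ω}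
  {𝔽 : Type*} [Field 𝔽] [Algebra Ω 𝔽]
  {𝔽b : Type*} [Field 𝔽b] [Algebra (ResidueField ↥A) 𝔽b] {X : GoodRed Ω A 𝔽 𝔽b}
  {Γ₀ : Type*} [LinearOrderedCommGroupWithZero Γ₀] {v : Valuation Ω Γ₀}
  {D : Derivation Ω 𝔽 𝔽} {κ : Place Ω 𝔽 → ℤ}

omit [IsAlgClosed Ω] in
/-- an automorphism preserving `W` preserves its maximal ideal. -/
theorem ρ_algEquiv_eq_zero (σ : 𝔽 ≃ₐ[Ω] 𝔽) (hσ : ∀ f : 𝔽, σ f ∈ X.W ↔ f ∈ X.W) {f : 𝔽}
    (hf : f ∈ X.W) (hρ : X.ρ ⟨f, hf⟩ = 0) : X.ρ ⟨σ f, (hσ f).mpr hf⟩ = 0 := by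
  rcases eq_or_ne f 0 with rfl | h0
  · have : (⟨σ (0 : 𝔽), (hσ 0).mpr hf⟩ : ↥X.W) = 0 := by
      apply Subtype.ext
      simp
    rw [this, map_zero]
  by_contra hne
  have hσ0 : σ f ≠ 0 := (map_ne_zero σ).mpr h0
  have h1 : (σ f)⁻¹ ∈ X.W := (X.inv_mem_W_iff ((hσ f).mpr hf) hσ0).mpr hne
  rw [← map_inv₀, hσ] at h1
  exact (X.inv_mem_W_iff hf h0).mp h1 hρ

/-- **(N5) averaging**: a `G`-invariant Gauss-integral function whose reduction is a regular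
differential of the special fibre has the same reduction as a `G`-invariant Gauss-integral
regular differential of the generic fibre. -/
theorem exists_invariant_lift_regSpace (hv : v.valuationSubring = A) (hD : IsDerDatum D κ)
    (hκ : (Function.support κ).Finite) (hn : IsNormalisedDer X D)
    (hdeg : ∑ᶠ P, κ P ≤ 2 * (X.g : ℤ) - 2)
    (hfin : Module.Finite Ω ↥(regSpace κ)) (hdim : Module.finrank Ω ↥(regSpace κ) = X.g)
    (G : Finset (𝔽 ≃ₐ[Ω] 𝔽)) (hG : ∀ σ ∈ G, ∀ τ ∈ G, τ.trans σ ∈ G)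
    (hGW : ∀ σ ∈ G, ∀ f : 𝔽, σ f ∈ X.W ↔ f ∈ X.W)
    (hGV : ∀ σ ∈ G, ∀ h ∈ regSpace κ, σ h ∈ regSpace κ)
    {c : Ω} (hc : c ∈ A) (hcG : c * (G.card : Ω) = 1)
    {h₀ : 𝔽} (h₀W : h₀ ∈ X.W) (hinv : ∀ σ ∈ G, σ h₀ = h₀)
    (hρ : X.ρ ⟨h₀, h₀W⟩ ∈ regSpace (canBar X κ)) :
    ∃ (h : 𝔽) (hW : h ∈ X.W), h ∈ regSpace κ ∧ (∀ σ ∈ G, σ h = h) ∧
      X.ρ ⟨h, hW⟩ = X.ρ ⟨h₀, h₀W⟩ := by
  obtain ⟨h₁, h₁W, h₁V, h₁ρ⟩ := exists_lift_regSpace hv hD hκ hn hdeg hfin hdim hρ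
  have hτW : ∀ τ ∈ G, τ h₁ ∈ X.W := fun τ hτ => (hGW τ hτ h₁).mpr h₁W
  have hsumW : ∑ τ ∈ G, τ h₁ ∈ X.W := Subring.sum_mem X.W.toSubring hτW
  have hW : c • ∑ τ ∈ G, τ h₁ ∈ X.W := X.smul_mem_W hc hsumW
  refine ⟨c • ∑ τ ∈ G, τ h₁, hW,
    Submodule.smul_mem _ _ (Submodule.sum_mem _ fun τ hτ => hGV τ hτ h₁ h₁V), ?_, ?_⟩
  · -- invariance
    intro σ hσ
    rw [map_smul, map_sum]
    congr 1
    have himg : G.image (fun τ : 𝔽 ≃ₐ[Ω] 𝔽 => τ.trans σ) = G := by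
      apply Finset.eq_of_subset_of_card_le
      · intro ρ' hρ'
        obtain ⟨τ, hτ, rfl⟩ := Finset.mem_image.mp hρ'
        exact hG σ hσ τ hτ
      · rw [Finset.card_image_of_injective]
        intro τ τ' h
        ext x
        have := congrArg (fun e : 𝔽 ≃ₐ[Ω] 𝔽 => e x) h
        simp only [AlgEquiv.trans_apply] at this
        exact σ.injective this
    conv_rhs => rw [← himg]
    rw [Finset.sum_image]
    · rfl
    · intro τ _ τ' _ h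
      ext x
      have := congrArg (fun e : 𝔽 ≃ₐ[Ω] 𝔽 => e x) h
      simp only [AlgEquiv.trans_apply] at this
      exact σ.injective this
  · -- the reduction
    have hdiffW : h₁ - h₀ ∈ X.W := sub_mem h₁W h₀W
    have hdiffρ : X.ρ ⟨h₁ - h₀, hdiffW⟩ = 0 := by
      have : (⟨h₁ - h₀, hdiffW⟩ : ↥X.W) = ⟨h₁, h₁W⟩ - ⟨h₀, h₀W⟩ := rfl
      rw [this, map_sub, h₁ρ, sub_self]
    have hterm : ∀ τ ∈ G, ∃ hm : τ (h₁ - h₀) ∈ X.W, X.ρ ⟨τ (h₁ - h₀), hm⟩ = 0 := fun τ hτ =>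
      ⟨(hGW τ hτ _).mpr hdiffW, ρ_algEquiv_eq_zero τ (hGW τ hτ) hdiffW hdiffρ⟩
    have hsum2W : ∑ τ ∈ G, τ (h₁ - h₀) ∈ X.W :=
      Subring.sum_mem X.W.toSubring fun τ hτ => (hterm τ hτ).1
    have hsum2ρ : X.ρ ⟨∑ τ ∈ G, τ (h₁ - h₀), hsum2W⟩ = 0 := by
      have e : (⟨∑ τ ∈ G, τ (h₁ - h₀), hsum2W⟩ : ↥X.W)
          = ∑ τ ∈ G.attach, ⟨(τ : 𝔽 ≃ₐ[Ω] 𝔽) (h₁ - h₀), (hterm τ τ.2).1⟩ := by
        apply Subtype.ext
        rw [AddSubmonoidClass.coe_finsetSum]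
        exact (Finset.sum_attach G (fun τ => τ (h₁ - h₀))).symm
      rw [e, map_sum]
      exact Finset.sum_eq_zero fun τ _ => (hterm τ τ.2).2
    have hkey : c • ∑ τ ∈ G, τ h₁ = h₀ + c • ∑ τ ∈ G, τ (h₁ - h₀) := by
      have h1 : ∑ τ ∈ G, τ (h₁ - h₀) = ∑ τ ∈ G, τ h₁ - G.card • h₀ := by
        rw [← Finset.sum_const, ← Finset.sum_sub_distrib]
        refine Finset.sum_congr rfl fun τ hτ => ?_
        rw [map_sub, hinv τ hτ]
      rw [h1, smul_sub, ← Nat.cast_smul_eq_nsmul Ω, smul_smul, hcG, one_smul]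
      ring
    have hcW : c • ∑ τ ∈ G, τ (h₁ - h₀) ∈ X.W := X.smul_mem_W hc hsum2W
    have e2 : (⟨c • ∑ τ ∈ G, τ h₁, hW⟩ : ↥X.W)
        = ⟨h₀, h₀W⟩ + ⟨((⟨c, hc⟩ : ↥A) : Ω) • ((⟨∑ τ ∈ G, τ (h₁ - h₀), hsum2W⟩ : ↥X.W) : 𝔽),
            X.smul_mem_W hc hsum2W⟩ := by
      apply Subtype.ext
      exact hkey
    rw [e2, map_add, X.ρ_smul, hsum2ρ, smul_zero, add_zero]

end Fermat.Agent.MP

end
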