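/-
MP40 — [ROLD-HOST], helper8, part (N3): **integrality of the coefficients of a cusp form with
respect to a saturated integral basis.**

* `exists_int_basis` : a finite family `B i` of cusp forms of weight two on `Γ₀(N)` with integral
  `q`-expansions `m i`, spanning `S₂(Γ₀(N))` over `ℂ`, and SATURATED at every prime `p`;
* `eq_zero_of_saturated` : the reductions of a saturated family are linearly independent over every
  field of characteristic `p`;
* `coeff_mem_of_mem_fracInt` : if the series `∑ c_i T_i` (`T_i` integral series forming a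
  saturated family) lies in the coefficientwise Gauss ring `fracInt A`, then every `c_i ∈ A`.
-/
import Mathlib
import Fermat.Agent.DS48.INT1_lead_Lattice
import Fermat.Agent.FG.EDEF_helper6_Frac
import Fermat.Agent.FG.EDEF_helper1
import Fermat.Prelude.Def_CuspForm_HeckeLocal

set_option autoImplicit false
set_option linter.unusedSectionVars false
set_option linter.style.haveILetI false

open CongruenceSubgroup ModularFormClass IsLocalRing ModularCurve

namespace Fermat.Agent.MP

open Fermat.Agent.DS48 Fermat.Agent.FG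

noncomputable section

/-- saturation of a family of integral sequences at `p`. -/
def IsSaturatedAt (p : ℕ) {ι J : Type*} [Fintype ι] (u : ι → J → ℤ) : Prop :=
  ∀ a : ι → ℤ, (∀ j, (p : ℤ) ∣ ∑ i, a i * u i j) → ∀ i, (p : ℤ) ∣ a i

section Basis

variable (N : ℕ) [NeZero N]

theorem qCoeff_sum_smul_Gamma0 {ι : Type*} (s : Finset ι) (c : ι → ℂ)
    (B : ι → CuspForm (Gamma0 N) 2) (j : ℕ) :
    qCoeff (∑ i ∈ s, c i • B i : CuspForm (Gamma0 N) 2) j = ∑ i ∈ s, c i * qCoeff (B i) j := by
  classical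
  induction s using Finset.induction_on with
  | empty => rw [Finset.sum_empty, Finset.sum_empty, qCoeff_zero_Gamma0]
  | insert i s hi ih =>
    rw [Finset.sum_insert hi, Finset.sum_insert hi, qCoeff_add_Gamma0, qCoeff_smul_Gamma0, ih]

/-- **a saturated integral basis of `S₂(Γ₀(N))`.** -/
theorem exists_int_basis (p : ℕ) (hp : p.Prime) :
    ∃ (n : ℕ) (B : Fin n → CuspForm (Gamma0 N) 2) (m : Fin n → ℕ → ℤ),
      (∀ i j, qCoeff (B i) j = (m i j : ℂ)) ∧
      (∀ F : CuspForm (Gamma0 N) 2, ∃ c : Fin n → ℂ, F = ∑ i, c i • B i) ∧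
      IsSaturatedAt p m := by
  classical
  haveI := CuspForm.intLattice.moduleFinite N
  haveI := CuspForm.intLattice.moduleFree N
  set L := CuspForm.intLattice N 2 with hL
  set b := Module.finBasis ℤ ↥L with hb
  set n := Module.finrank ℤ ↥L with hn
  have hint : ∀ i : Fin n, ∀ j : ℕ, ∃ z : ℤ, qCoeff ((b i : ↥L) : CuspForm (Gamma0 N) 2) j = (z : ℂ) :=
    fun i j => intCoeff_of_mem_intLattice (b i).2 j
  choose m hm using hint
  refine ⟨n, fun i => ((b i : ↥L) : CuspForm (Gamma0 N) 2), m, hm, ?_, ?_⟩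
  · -- spanning
    intro F
    have htop : F ∈ Submodule.span ℂ ((L : Submodule ℤ (CuspForm (Gamma0 N) 2)) :
        Set (CuspForm (Gamma0 N) 2)) := by
      rw [show Submodule.span ℂ _ = ⊤ from RatStr.hasIntegralStructure N one_le_two]
      exact Submodule.mem_top
    have hle : Submodule.span ℂ ((L : Submodule ℤ (CuspForm (Gamma0 N) 2)) :
        Set (CuspForm (Gamma0 N) 2)) ≤
        Submodule.span ℂ (Set.range fun i : Fin n => ((b i : ↥L) : CuspForm (Gamma0 N) 2)) := by
      refine Submodule.span_le.mpr fun x hx => ?_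
      have hx' : (⟨x, hx⟩ : ↥L) = ∑ i, b.repr ⟨x, hx⟩ i • b i := (b.sum_repr ⟨x, hx⟩).symm
      have hx'' : x = ∑ i, b.repr ⟨x, hx⟩ i • ((b i : ↥L) : CuspForm (Gamma0 N) 2) := by
        have h0 : x = ((∑ i, b.repr ⟨x, hx⟩ i • b i : ↥L) : CuspForm (Gamma0 N) 2) :=
          congrArg Subtype.val hx'
        rw [Submodule.coe_sum] at h0
        simpa only [Submodule.coe_smul] using h0
      rw [SetLike.mem_coe, hx'']
      refine Submodule.sum_mem _ fun i _ => ?_
      rw [← Int.cast_smul_eq_zsmul ℂ]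
      exact Submodule.smul_mem _ _ (Submodule.subset_span ⟨i, rfl⟩)
    obtain ⟨c, hc⟩ := (Submodule.mem_span_range_iff_exists_fun ℂ).mp (hle htop)
    exact ⟨c, hc.symm⟩
  · -- saturation
    intro a ha i
    have hp0 : (p : ℂ) ≠ 0 := Nat.cast_ne_zero.mpr hp.ne_zero
    choose z hz using ha
    set G : CuspForm (Gamma0 N) 2 :=
      ∑ i, (a i : ℂ) • ((b i : ↥L) : CuspForm (Gamma0 N) 2) with hG
    set G' : CuspForm (Gamma0 N) 2 := ((p : ℂ)⁻¹) • G with hG'
    have hG'L : G' ∈ L := by
      refine Submodule.subset_span fun j => ⟨z j, ?_⟩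
      rw [hG', qCoeff_smul_Gamma0, hG, qCoeff_sum_smul_Gamma0]
      have : (∑ i, (a i : ℂ) * qCoeff ((b i : ↥L) : CuspForm (Gamma0 N) 2) j) =
          ((∑ i, a i * m i j : ℤ) : ℂ) := by
        push_cast
        exact Finset.sum_congr rfl fun i _ => by rw [hm]
      rw [this, hz j]
      push_cast
      field_simp
    have hGL : (p : ℤ) • (⟨G', hG'L⟩ : ↥L) = ∑ i, a i • b i := by
      apply Subtype.ext
      have h1 : (((p : ℤ) • (⟨G', hG'L⟩ : ↥L) : ↥L) : CuspForm (Gamma0 N) 2) = (p : ℤ) • G' := rfl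
      rw [h1, ← Int.cast_smul_eq_zsmul ℂ, hG', smul_smul]
      have h2 : ((p : ℤ) : ℂ) * (p : ℂ)⁻¹ = 1 := by
        push_cast
        exact mul_inv_cancel₀ hp0
      rw [h2, one_smul, hG]
      have h3 : ((∑ i, a i • b i : ↥L) : CuspForm (Gamma0 N) 2) =
          ∑ i, a i • ((b i : ↥L) : CuspForm (Gamma0 N) 2) := by
        rw [Submodule.coe_sum]
        simp only [Submodule.coe_smul]
      rw [h3]
      exact Finset.sum_congr rfl fun i _ => Int.cast_smul_eq_zsmul ℂ _ _
    have h4 := congrArg (fun y : ↥L => b.repr y i) hGL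
    simp only [map_smul, Finsupp.smul_apply, smul_eq_mul] at h4
    have h5 : b.repr (∑ i, a i • b i) i = a i := by
      rw [map_sum]
      simp [Finsupp.single_apply]
    rw [h5] at h4
    exact ⟨_, h4.symm⟩

end Basis

section Indep

variable {k : Type*} [Field k] (p : ℕ) [Fact p.Prime] [CharP k p]

/-- **the reductions of a saturated family are linearly independent over every field of
characteristic `p`.** -/
theorem eq_zero_of_saturated {ι J : Type*} [Fintype ι] {u : ι → J → ℤ} (hu : IsSaturatedAt p u)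
    (c : ι → k) (hc : ∀ j, ∑ i, c i * (u i j : k) = 0) : ∀ i, c i = 0 := by
  classical
  letI : Algebra (ZMod p) k := ZMod.algebra k p
  intro i
  rw [← Module.forall_dual_apply_eq_zero_iff (ZMod p) (c i)]
  intro φ
  set a : ι → ℤ := fun i => ((φ (c i)).val : ℤ) with ha
  have hcast : ∀ i, ((a i : ℤ) : ZMod p) = φ (c i) := fun i => by
    show (((φ (c i)).val : ℤ) : ZMod p) = φ (c i)
    rw [Int.cast_natCast, ZMod.natCast_zmod_val]
  have hφz : ∀ (z : ℤ) (x : k), φ (x * (z : k)) = (z : ZMod p) * φ x := by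
    intro z x
    have : ((z : ℤ) : k) = algebraMap (ZMod p) k (z : ZMod p) := by rw [map_intCast]
    rw [this, mul_comm, ← Algebra.smul_def, map_smul, smul_eq_mul]
  have key : ∀ j, (p : ℤ) ∣ ∑ i, a i * u i j := by
    intro j
    rw [← ZMod.intCast_zmod_eq_zero_iff_dvd]
    push_cast
    have h1 := congrArg φ (hc j)
    rw [map_sum, map_zero] at h1
    rw [← h1]
    refine Finset.sum_congr rfl fun i _ => ?_
    rw [hφz, hcast, mul_comm]
  have h2 := hu a key i
  rw [← hcast i, ZMod.intCast_zmod_eq_zero_iff_dvd]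
  exact h2

end Indep

section Coeff

variable {K : Type*} [Field K] {A : ValuationSubring K} (p : ℕ) [Fact p.Prime]
  [CharP (ResidueField ↥A) p]

/-- **(N3)** if `∑ c_i T_i ∈ fracInt A` for a saturated family of integral series `T_i`, then
all `c_i ∈ A`. -/
theorem coeff_mem_of_mem_fracInt {ι : Type*} [Fintype ι] {u : ι → ℤ → ℤ}
    (hu : IsSaturatedAt p u) (c : ι → K) (G : LaurentSeries K)
    (hG : ∀ j : ℤ, G.coeff j = ∑ i, c i * (u i j : K)) (hmem : G ∈ fracInt A) :
    ∀ i, c i ∈ A := by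
  classical
  by_contra hcon
  push Not at hcon
  obtain ⟨i₁, hi₁⟩ := hcon
  obtain ⟨i₀, -, hmax⟩ := Finset.exists_max_image Finset.univ (fun i => A.valuation (c i))
    ⟨i₁, Finset.mem_univ _⟩
  have h1 : 1 < A.valuation (c i₀) := by
    have := hmax i₁ (Finset.mem_univ _)
    have h2 : ¬ A.valuation (c i₁) ≤ 1 := fun h => hi₁ ((A.valuation_le_one_iff _).mp h)
    exact lt_of_lt_of_le (not_le.mp h2) this
  have hc0 : c i₀ ≠ 0 := by
    intro h0
    rw [h0, map_zero] at h1
    exact not_lt.mpr zero_le_one h1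
  have hv0 : A.valuation (c i₀) ≠ 0 := (A.valuation.ne_zero_iff).mpr hc0
  set d : K := (c i₀)⁻¹ with hd
  have hdv : A.valuation d < 1 := by
    rw [hd, map_inv₀]
    exact inv_lt_one_of_one_lt₀ h1
  have hdA : d ∈ A := (A.valuation_le_one_iff _).mp hdv.le
  have hdm : residue ↥A ⟨d, hdA⟩ = 0 := by
    rw [residue_eq_zero_iff]
    exact (A.valuation_lt_one_iff ⟨d, hdA⟩).mpr hdv
  have hc' : ∀ i, d * c i ∈ A := by
    intro i
    rw [← A.valuation_le_one_iff, map_mul, hd, map_inv₀]
    rw [inv_mul_le_iff₀ (lt_of_lt_of_le zero_lt_one h1.le), mul_one]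
    exact hmax i (Finset.mem_univ _)
  -- the rescaled series
  have hG' : ∀ j : ℤ, (HahnSeries.C d * G).coeff j ∈ A := by
    intro j
    rw [HahnSeries.C_mul_eq_smul, HahnSeries.coeff_smul, smul_eq_mul, hG, Finset.mul_sum]
    refine A.toSubring.sum_mem fun i _ => ?_
    rw [← mul_assoc]
    exact A.mul_mem _ _ (hc' i) (by exact_mod_cast intCast_mem A.toSubring (u i j))
  obtain ⟨y, hy⟩ := exists_coeffMap_subtype_eq_ered (A := A) (HahnSeries.C d * G) hG'
  have hyE : fEmb A y = HahnSeries.C d * G := hy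
  have hmemC : (HahnSeries.C d : LaurentSeries K) ∈ fracInt A := C_mem_fracInt hdA
  have hprod : (⟨fEmb A y, fEmb_mem_fracInt A y⟩ : fracInt A) = ⟨HahnSeries.C d, hmemC⟩ * ⟨G, hmem⟩ :=
    Subtype.ext hyE
  have hred : fRed A y = 0 := by
    rw [← fracRed_fEmb A y, hprod, map_mul, fracRed_C hdA, hdm, map_zero, zero_mul]
  -- the coefficients of `y`
  have hycoeff : ∀ j : ℤ, ((y.coeff j : ↥A) : K) = ∑ i, (d * c i) * (u i j : K) := by
    intro j
    have := congrArg (fun s : LaurentSeries K => s.coeff j) hyE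
    simp only [fEmb_coeff] at this
    rw [this, HahnSeries.C_mul_eq_smul, HahnSeries.coeff_smul, smul_eq_mul, hG, Finset.mul_sum]
    exact Finset.sum_congr rfl fun i _ => by ring
  have hres : ∀ j : ℤ, ∑ i, residue ↥A ⟨d * c i, hc' i⟩ * ((u i j : ℤ) : ResidueField ↥A) = 0 := by
    intro j
    have h2 : residue ↥A (y.coeff j) = 0 := by
      have := congrArg (fun s : LaurentSeries (ResidueField ↥A) => s.coeff j) hred
      simpa only [fRed_coeff, HahnSeries.coeff_zero] using this
    have h3 : y.coeff j = ∑ i, (⟨d * c i, hc' i⟩ : ↥A) * ((u i j : ℤ) : ↥A) := by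
      apply Subtype.ext
      rw [hycoeff j]
      push_cast
      rfl
    rw [h3, map_sum] at h2
    rw [← h2]
    exact Finset.sum_congr rfl fun i _ => by rw [map_mul, map_intCast]
  have h4 := eq_zero_of_saturated p hu (fun i => residue ↥A ⟨d * c i, hc' i⟩) hres i₀
  have h5 : (⟨d * c i₀, hc' i₀⟩ : ↥A) = 1 := by
    apply Subtype.ext
    show d * c i₀ = 1
    rw [hd, inv_mul_cancel₀ hc0]
  simp only [h5, map_one] at h4
  exact one_ne_zero h4

/-- **(N3′)** the reduction of `∑ c_i T_i ∈ fracInt A` is `∑ c̄_i T̄_i`. -/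
theorem fracRed_coeff_of_mem_fracInt {ι : Type*} [Fintype ι] {u : ι → ℤ → ℤ}
    (hu : IsSaturatedAt p u) (c : ι → K) (G : LaurentSeries K)
    (hG : ∀ j : ℤ, G.coeff j = ∑ i, c i * (u i j : K)) (hmem : G ∈ fracInt A) :
    ∃ c' : ι → ↥A, (∀ i, ((c' i : ↥A) : K) = c i) ∧
      ∀ j : ℤ, (fracRed A ⟨G, hmem⟩).coeff j =
        ∑ i, residue ↥A (c' i) * ((u i j : ℤ) : ResidueField ↥A) := by
  classical
  have hc := coeff_mem_of_mem_fracInt p hu c G hG hmem
  refine ⟨fun i => ⟨c i, hc i⟩, fun i => rfl, fun j => ?_⟩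
  have hG' : ∀ j : ℤ, G.coeff j ∈ A := by
    intro j
    rw [hG]
    refine A.toSubring.sum_mem fun i _ => ?_
    exact A.mul_mem _ _ (hc i) (by exact_mod_cast intCast_mem A.toSubring (u i j))
  obtain ⟨y, hy⟩ := exists_coeffMap_subtype_eq_ered (A := A) G hG'
  have hyE : fEmb A y = G := hy
  have e : (⟨G, hmem⟩ : fracInt A) = ⟨fEmb A y, fEmb_mem_fracInt A y⟩ := Subtype.ext hyE.symm
  rw [e, fracRed_fEmb, fRed_coeff]
  have h3 : y.coeff j = ∑ i, (⟨c i, hc i⟩ : ↥A) * ((u i j : ℤ) : ↥A) := by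
    apply Subtype.ext
    have := congrArg (fun s : LaurentSeries K => s.coeff j) hyE
    simp only [fEmb_coeff] at this
    rw [this, hG]
    push_cast
    rfl
  rw [h3, map_sum]
  exact Finset.sum_congr rfl fun i _ => by rw [map_mul, map_intCast]

end Coeff

end

end Fermat.Agent.MP
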