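/-
MP40 — [ROLD-HOST], helper8: bookkeeping for the final assembly.

* `extZ m` : an integral sequence extended by zero to negative indices;
* `exists_coeff_expansion` : if `qexp F₀ = ι(G₀)` for a series `G₀` over `Ω` and `F₀ = ∑ c̃_i B_i`
  with integral `B_i`, then `G₀ = ∑ c_i B_i` with `c_i ∈ Ω` (an `Ω`-linear retraction of `ι`);
* `isSaturatedAt_two` : saturation passes to the sequences in the variable `x`, `x² = q`.
-/
import Mathlib
import Fermat.Agent.MP.ROLDQ_helper8_HostInt

set_option autoImplicit false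
set_option linter.unusedSectionVars false
set_option linter.style.haveILetI false

open CongruenceSubgroup ModularFormClass IsLocalRing ModularCurve

namespace Fermat.Agent.MP

open Fermat.Agent.DS48 Fermat.Agent.FG

noncomputable section

/-- an integral sequence extended by zero to the negative indices. -/
def extZ {ι : Type*} (m : ι → ℕ → ℤ) (i : ι) (j : ℤ) : ℤ := if 0 ≤ j then m i j.toNat else 0

theorem extZ_natCast {ι : Type*} (m : ι → ℕ → ℤ) (i : ι) (j : ℕ) : extZ m i (j : ℤ) = m i j := by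
  unfold extZ
  rw [if_pos (Int.natCast_nonneg j), Int.toNat_natCast]

theorem extZ_of_neg {ι : Type*} (m : ι → ℕ → ℤ) (i : ι) {j : ℤ} (hj : ¬ 0 ≤ j) :
    extZ m i j = 0 := by
  unfold extZ
  rw [if_neg hj]

/-- the sequences in the variable `x`, `x² = q`. -/
def extTwo {ι : Type*} (m : ι → ℕ → ℤ) (i : ι) (j : ℤ) : ℤ :=
  if (2 : ℤ) ∣ j then extZ m i (j / 2) else 0

theorem extTwo_two_mul {ι : Type*} (m : ι → ℕ → ℤ) (i : ι) (j : ℤ) :
    extTwo m i (2 * j) = extZ m i j := by
  unfold extTwo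
  rw [if_pos (dvd_mul_right 2 j), Int.mul_ediv_cancel_left j two_ne_zero]

theorem extTwo_of_not_dvd {ι : Type*} (m : ι → ℕ → ℤ) (i : ι) {j : ℤ} (hj : ¬ (2 : ℤ) ∣ j) :
    extTwo m i j = 0 := by
  unfold extTwo
  rw [if_neg hj]

theorem isSaturatedAt_two {p : ℕ} {ι : Type*} [Fintype ι] {m : ι → ℕ → ℤ}
    (hm : IsSaturatedAt p m) : IsSaturatedAt p (extTwo m) := by
  intro a ha
  refine hm a fun j => ?_
  have := ha (2 * (j : ℤ))
  simpa only [extTwo_two_mul, extZ_natCast] using this

theorem coeff_ofPowerSeries_int (P : PowerSeries ℂ) (j : ℤ) :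
    (HahnSeries.ofPowerSeries ℤ ℂ P).coeff j = if 0 ≤ j then PowerSeries.coeff j.toNat P else 0 := by
  by_cases hj : 0 ≤ j
  · obtain ⟨n, rfl⟩ := Int.eq_ofNat_of_zero_le hj
    rw [if_pos hj, HahnSeries.ofPowerSeries_apply_coeff, Int.toNat_natCast]
  · rw [if_neg hj, HahnSeries.ofPowerSeries_apply]
    apply HahnSeries.embDomain_of_notMem_range
    simp only [Set.mem_range, not_exists]
    intro k hk
    apply hj
    rw [← hk]
    simp

section Expansion

variable {Ω : Type*} [Field Ω] (ι : Ω →+* ℂ) (N : ℕ) [NeZero N]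

/-- **descent of the coefficients of an expansion in an integral family to the field of
definition of the `q`-expansion.** -/
theorem exists_coeff_expansion {n : ℕ} (B : Fin n → CuspForm (Gamma0 N) 2) (m : Fin n → ℕ → ℤ)
    (hm : ∀ i j, qCoeff (B i) j = (m i j : ℂ))
    (F₀ : CuspForm (Gamma0 N) 2) (ct : Fin n → ℂ) (hF : F₀ = ∑ i, ct i • B i)
    (G₀ : LaurentSeries Ω)
    (hG : HahnSeries.ofPowerSeries ℤ ℂ (UpperHalfPlane.qExpansion 1 F₀) = coeffMap ι G₀) :
    ∃ c : Fin n → Ω, ∀ j : ℤ, G₀.coeff j = ∑ i, c i * ((extZ m i j : ℤ) : Ω) := by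
  classical
  letI : Algebra Ω ℂ := ι.toAlgebra
  have hinj : LinearMap.ker (Algebra.linearMap Ω ℂ) = ⊥ :=
    LinearMap.ker_eq_bot.mpr (algebraMap Ω ℂ).injective
  obtain ⟨π, hπ⟩ := LinearMap.exists_leftInverse_of_injective (Algebra.linearMap Ω ℂ) hinj
  have hπι : ∀ x : Ω, π (ι x) = x := fun x => by
    have := congrArg (fun g : Ω →ₗ[Ω] Ω => g x) hπ
    simp only [LinearMap.coe_comp, Function.comp_apply, Algebra.linearMap_apply,
      LinearMap.id_coe, id_eq] at this
    exact this
  refine ⟨fun i => π (ct i), fun j => ?_⟩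
  have h1 : ι (G₀.coeff j) =
      if 0 ≤ j then PowerSeries.coeff j.toNat (UpperHalfPlane.qExpansion 1 F₀) else 0 := by
    rw [← coeff_ofPowerSeries_int, hG, coeffMap_coeff]
  by_cases hj : 0 ≤ j
  · rw [if_pos hj] at h1
    have h2 : PowerSeries.coeff j.toNat (UpperHalfPlane.qExpansion 1 F₀) =
        ∑ i, ct i * ((m i j.toNat : ℤ) : ℂ) := by
      have := qCoeff_sum_smul_Gamma0 N Finset.univ ct B j.toNat
      rw [← hF] at this
      rw [show PowerSeries.coeff j.toNat (UpperHalfPlane.qExpansion 1 F₀) = qCoeff F₀ j.toNat from rfl,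
        this]
      exact Finset.sum_congr rfl fun i _ => by rw [hm]
    rw [h2] at h1
    have h3 := congrArg π h1
    rw [hπι, map_sum] at h3
    rw [h3]
    refine Finset.sum_congr rfl fun i _ => ?_
    unfold extZ
    rw [if_pos hj, mul_comm (ct i), ← zsmul_eq_mul, map_zsmul, zsmul_eq_mul, mul_comm]
  · rw [if_neg hj] at h1
    have h0 : G₀.coeff j = 0 := by
      have := congrArg π h1
      rwa [hπι, map_zero] at this
    rw [h0]
    symm
    refine Finset.sum_eq_zero fun i _ => ?_
    rw [extZ_of_neg m i hj, Int.cast_zero, mul_zero]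

end Expansion

end

end Fermat.Agent.MP
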