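/-
MP40 (row 38) — helper8 — [ROLD], package [RQ-A], part 1: **the Laurent expansion at `i∞` of the
normalised derivative** `D F = (2πi)⁻¹ F'` of a function meromorphic at `i∞` is the Euler
derivative `θ = q d/dq` of its Laurent expansion.

* `eulerD_ofPowerSeries` : `θ` of a power series;
* `isMeroInfty_D`, `laurent_D` : `laurent 1 (D F) = θ (laurent 1 F)` for `IsMeroInfty 1 F`.
-/
import Mathlib
import Fermat.Agent.S36.REG1_lead_Theta
import Fermat.Agent.S16.TH_helper1_QExp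

set_option autoImplicit false
set_option linter.unusedSectionVars false

noncomputable section

namespace Fermat.Agent.MP

open UpperHalfPlane hiding I
open Complex Filter Function Topology ModularForm Derivative
open Fermat.Agent.RatStr Fermat.Agent.X0N Fermat.Agent.S36 Fermat.Agent.S16
open scoped Manifold MatrixGroups Real

local notation "𝕢" => Periodic.qParam

/-- `θ` of (the Laurent series of) a power series. -/
theorem eulerD_ofPowerSeries (P : PowerSeries ℂ) :
    eulerD ℂ (HahnSeries.ofPowerSeries ℤ ℂ P) = HahnSeries.ofPowerSeries ℤ ℂ (thetaPS P) := by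
  ext n
  rw [eulerD_coeff]
  by_cases hn : 0 ≤ n
  · obtain ⟨m, rfl⟩ := Int.eq_ofNat_of_zero_le hn
    rw [HahnSeries.ofPowerSeries_apply_coeff, HahnSeries.ofPowerSeries_apply_coeff, coeff_thetaPS]
    push_cast
    rfl
  · have h1 : ∀ Q : PowerSeries ℂ, (HahnSeries.ofPowerSeries ℤ ℂ Q).coeff n = 0 := by
      intro Q
      rw [HahnSeries.ofPowerSeries_apply]
      apply HahnSeries.embDomain_of_notMem_range
      simp only [Set.mem_range, not_exists]
      intro k hk
      apply hn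
      rw [← hk]
      simp
    rw [h1, h1, mul_zero]

/-- `θ (q^n) = n q^n`. -/
theorem eulerD_single (n : ℤ) (c : ℂ) :
    eulerD ℂ (HahnSeries.single n c : LaurentSeries ℂ) = (n : ℂ) • HahnSeries.single n c := by
  ext k
  rw [eulerD_coeff, HahnSeries.coeff_smul, smul_eq_mul]
  rcases eq_or_ne k n with rfl | h
  · rfl
  · rw [HahnSeries.coeff_single_of_ne h, mul_zero, mul_zero]

/-- `D q = q`. -/
theorem D_qf : D (qf 1) = qf 1 := by
  funext z
  have hev : (qf 1 ∘ ofComplex) =ᶠ[𝓝 (z : ℂ)] 𝕢 1 := by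
    filter_upwards [isOpen_upperHalfPlaneSet.mem_nhds z.im_pos] with w hw
    simp only [comp_apply]
    rw [ofComplex_apply_of_im_pos hw]
    rfl
  unfold normalizedDerivOfComplex
  rw [hev.deriv_eq, (hasDerivAt_qParam_one (z : ℂ)).deriv]
  have : (2 * π * I : ℂ) ≠ 0 := two_pi_I_ne_zero'
  rw [qf_apply]
  field_simp

/-- `D (q ^ m) = m q ^ m`. -/
theorem D_qf_pow (m : ℕ) : D (qf 1 ^ m) = (m : ℂ) • qf 1 ^ m := by
  rw [normalizedDerivOfComplex_pow _ _ (mdiff_qf 1), D_qf]
  rcases Nat.eq_zero_or_pos m with rfl | hm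
  · simp
  · funext z
    simp only [Pi.mul_apply, Pi.pow_apply, Pi.smul_apply, smul_eq_mul, Pi.natCast_apply]
    rw [mul_assoc, ← pow_succ, Nat.sub_add_cancel hm]

variable {F : ℍ → ℂ}

/-- `D F · q^m = D (F q^m) − m F q^m`. -/
theorem D_mul_qf_pow (hF : MDiff F) (m : ℕ) :
    D F * qf 1 ^ m = D (F * qf 1 ^ m) - (m : ℂ) • (F * qf 1 ^ m) := by
  rw [normalizedDerivOfComplex_mul _ _ hF ((mdiff_qf 1).pow m), D_qf_pow]
  funext z
  simp only [Pi.mul_apply, Pi.pow_apply, Pi.smul_apply, smul_eq_mul, Pi.sub_apply, Pi.add_apply]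
  ring

theorem isMeroInfty_D (hF : IsMeroInfty 1 F) : IsMeroInfty 1 (D F) := by
  have hhol := hF.hol
  obtain ⟨m, hm⟩ := hF
  refine ⟨m, ?_⟩
  rw [D_mul_qf_pow hhol m]
  exact (isHolBdd_D hm).sub (hm.smul _)

/-- **the Laurent expansion of the normalised derivative.** -/
theorem laurent_D (hF : IsMeroInfty 1 F) : laurent 1 (D F) = eulerD ℂ (laurent 1 F) := by
  have hhol := hF.hol
  obtain ⟨m, hm⟩ := hF
  have h1 : IsHolBdd 1 (D F * qf 1 ^ m) := by
    rw [D_mul_qf_pow hhol m]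
    exact (isHolBdd_D hm).sub (hm.smul _)
  rw [laurent_eq one_pos h1, laurent_eq one_pos hm, Derivation.leibniz, eulerD_single,
    eulerD_ofPowerSeries, D_mul_qf_pow hhol m]
  have h2 : qExpansion 1 (D (F * qf 1 ^ m) - (m : ℂ) • (F * qf 1 ^ m)) =
      thetaPS (qExpansion 1 (F * qf 1 ^ m)) - (m : ℂ) • qExpansion 1 (F * qf 1 ^ m) := by
    have e1 : D (F * qf 1 ^ m) - (m : ℂ) • (F * qf 1 ^ m) =
        D (F * qf 1 ^ m) + (fun _ => -(m : ℂ)) * (F * qf 1 ^ m) := by
      funext z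
      simp only [Pi.sub_apply, Pi.smul_apply, smul_eq_mul, Pi.add_apply, Pi.mul_apply]
      ring
    rw [e1, qExpansion_add' one_pos (isHolBdd_D hm) ((IsHolBdd.const 1 _).mul hm),
      qExpansion_mul' one_pos (IsHolBdd.const 1 _) hm, qExpansion_const one_pos, qExpansion_D hm]
    rw [← PowerSeries.smul_eq_C_mul, sub_eq_add_neg, _root_.neg_smul]
  rw [h2, map_sub]
  have h3 : HahnSeries.ofPowerSeries ℤ ℂ ((m : ℂ) • qExpansion 1 (F * qf 1 ^ m)) =
      (m : ℂ) • HahnSeries.ofPowerSeries ℤ ℂ (qExpansion 1 (F * qf 1 ^ m)) := by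
    rw [PowerSeries.smul_eq_C_mul, map_mul, HahnSeries.ofPowerSeries_C, HahnSeries.C_mul_eq_smul]
  rw [h3]
  have hC : ∀ (c : ℂ) (x : LaurentSeries ℂ), c • x = HahnSeries.C c * x :=
    fun c x => HahnSeries.C_mul_eq_smul.symm
  simp only [hC, Int.cast_neg, Int.cast_natCast, map_neg]
  ring

end Fermat.Agent.MP
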