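/-
MP40 (row 38) — helper8 — [ROLD], package [RQ-A], part 3: **the dictionary over `ℂ` in terms of
`q`-expansions.**

* `laurent_jD` : the Laurent expansion of `dj/dτ` (normalised) is `θ(j(q))`;
* `laurent_eq_mul_of_ofHol_eq` : if `f = ρ(h) · dj/dτ` with `f` holomorphic on `ℍ` and
  meromorphic at `i∞`, then `laurent 1 f = h · θ(j(q))` in `ℂ((q))`;
* `dictMap_surjective`, `exists_mem_riemannRochSpace_laurent` : every weight two cusp form `F` of
  level `Γ₀(N)` is `dictMap h` for a (unique) `h ∈ L(div dj)`, and `qexp F = h · θ(j(q))`.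
-/
import Mathlib
import Fermat.Agent.MP.ROLDQ_helper8_LaurentD
import Fermat.Agent.X0N.S20_helper5_Reduction
import Fermat.Agent.FF.RR_helper3_Final
import Fermat.Prelude.Thm_CongruenceSubgroup_one_mem_strictPeriods_Gamma0

set_option autoImplicit false
set_option linter.unusedSectionVars false
set_option linter.style.haveILetI false

noncomputable section

namespace Fermat.Agent.MP

open UpperHalfPlane hiding I
open Complex Filter Function Topology ModularForm Derivative CongruenceSubgroup
open AlgebraicCurve ModularCurve KaehlerDifferential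
open Fermat.Agent.RatStr Fermat.Agent.X0N Fermat.Agent.X0N.Dict Fermat.Agent.S36 Fermat.Agent.FF
open scoped Manifold MatrixGroups Real

/-- **the Laurent expansion of `dj/dτ`** (normalised) is `θ (j(q))`. -/
theorem laurent_jD : laurent 1 jD = coeffEmb ℂ (eulerD ℚ jq) := by
  have h1 : jD = D jFun := funext jD_eq_D_jFun
  rw [h1, laurent_D isMeroInfty_jFun, laurent_jFun, coeffEmb, eulerD_coeffMap]

variable (N : ℕ) [NeZero N]

/-- if `f = ρ(h) · dj/dτ` is meromorphic at `i∞` then its Laurent expansion is `h · θ(j(q))`. -/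
theorem laurent_eq_mul_of_ofHol_eq {h : ↥(laurentBaseChange ℂ (modularFunctionFieldFull N))}
    {f : HolH} (hf : MerH.ofHol f = realN (RingHom.id ℂ) N h * MerH.ofHol jDHol)
    (hmer : IsMeroInfty 1 (f : ℍ → ℂ)) :
    laurent 1 (f : ℍ → ℂ) = (h : LaurentSeries ℂ) * coeffEmb ℂ (eulerD ℚ jq) := by
  obtain ⟨a, ha, b, hb, hab⟩ := (mem_merSeries (RingHom.id ℂ)).mp (inclN (RingHom.id ℂ) N h).2
  have hab' : a / b = (h : LaurentSeries ℂ) := hab
  by_cases hb0 : b = 0
  · -- then `h = 0`
    rw [hb0, div_zero] at hab'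
    have hh0 : h = 0 := Subtype.ext hab'.symm
    rw [hh0, map_zero, zero_mul] at hf
    have hf0 : f = 0 := MerH.ofHol_injective (hf.trans (map_zero _).symm)
    rw [hf0, hh0]
    show laurent 1 (0 : ℍ → ℂ) = _
    rw [laurent_zero]
    simp
  · set A : convSeries (RingHom.id ℂ) := ⟨a, ha⟩ with hA
    set B : convSeries (RingHom.id ℂ) := ⟨b, hb⟩ with hB
    have hB0 : B ≠ 0 := fun h0 => hb0 (congrArg Subtype.val h0)
    -- the realisation of `h`
    have hreal : realN (RingHom.id ℂ) N h * MerH.ofHol (convSeries.toHol _ B) =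
        MerH.ofHol (convSeries.toHol _ A) := by
      have e1 : inclN (RingHom.id ℂ) N h * algebraMap (convSeries (RingHom.id ℂ))
          (merSeries (RingHom.id ℂ)) B = algebraMap _ _ A := by
        apply Subtype.ext
        show (h : LaurentSeries ℂ) * b = a
        rw [← hab', div_mul_cancel₀ _ hb0]
      have e2 := congrArg (merSeries.real (RingHom.id ℂ)) e1
      rw [map_mul, merSeries.real_algebraMap, merSeries.real_algebraMap] at e2
      exact e2
    -- the identity of holomorphic functions
    have hhol : f * convSeries.toHol _ B = convSeries.toHol _ A * jDHol := by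
      apply MerH.ofHol_injective
      rw [map_mul, map_mul, hf, ← hreal]
      ring
    have hfun : (f : ℍ → ℂ) * convSeries.fn _ B = convSeries.fn _ A * jD :=
      congrArg Subtype.val hhol
    have hlaur := congrArg (laurent 1) hfun
    rw [laurent_mul one_pos hmer (convSeries.isMeroInfty_fn _ B),
      laurent_mul one_pos (convSeries.isMeroInfty_fn _ A) isMeroInfty_jD, convSeries.laurent_fn,
      convSeries.laurent_fn, coeffMap_id, coeffMap_id, laurent_jD] at hlaur
    have hb' : (B : LaurentSeries ℂ) ≠ 0 := hb0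
    rw [← hab']
    field_simp
    exact hlaur

section Surj

variable (W : Divisor ℂ ↥(laurentBaseChange ℂ (modularFunctionFieldFull N)))
  (hW : ∀ v : Place ℂ ↥(laurentBaseChange ℂ (modularFunctionFieldFull N)),
      W v = v.ordDifferential (KaehlerDifferential.D ℂ _ (jCoordC N).x))

include hW in
/-- `dim L(div dj) = dim S₂(Γ₀(N))`. -/
theorem finrank_riemannRochSpace_eq_finrank_cuspForm :
    Module.Finite ℂ ↥(riemannRochSpace W) ∧
    Module.finrank ℂ ↥(riemannRochSpace W) = Module.finrank ℂ (CuspForm (Gamma0 N) 2) := by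
  obtain ⟨hfin, hRR⟩ := (jCoordC N).two_mul_finrank_riemannRochSpace_D_x W hW
  refine ⟨hfin, ?_⟩
  have hlow := finrank_riemannRochSpace_le_finrank_cuspForm N (jCoordC N)
    (jCoordC_x_eq_jBarN N) W hW
  have hdeg := degree_divisor_D_jCoordC N W hW
  have hup := finrank_cuspForm_le_genusFormula N
  have h' : (2 : ℚ) * (Module.finrank ℂ ↥(riemannRochSpace W) : ℚ) =
      ((Divisor.degree W : ℤ) : ℚ) + 2 := by exact_mod_cast hRR
  have h2 : (Module.finrank ℂ (CuspForm (Gamma0 N) 2) : ℚ) ≤
      (Module.finrank ℂ ↥(riemannRochSpace W) : ℚ) := by linarith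
  have h3 : Module.finrank ℂ (CuspForm (Gamma0 N) 2) ≤
      Module.finrank ℂ ↥(riemannRochSpace W) := by exact_mod_cast h2
  exact le_antisymm hlow h3

include hW in
/-- **the dictionary is surjective** (S20 = Riemann–Roch + Riemann–Hurwitz + Eichler–Shimura). -/
theorem dictMap_surjective :
    Function.Surjective (dictMap N (jCoordC N) (jCoordC_x_eq_jBarN N) W hW
      (cuspCond N (jCoordC N) (jCoordC_x_eq_jBarN N) W hW)) := by
  obtain ⟨hfin, hdim⟩ := finrank_riemannRochSpace_eq_finrank_cuspForm N W hW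
  haveI := hfin
  exact (LinearMap.injective_iff_surjective_of_finrank_eq_finrank hdim).mp
    (dictMap_injective N (jCoordC N) (jCoordC_x_eq_jBarN N) W hW _)

include hW in
/-- **every weight two cusp form is `h · dj/dτ` with `h ∈ L(div dj)`, and its `q`-expansion is
`h · θ(j(q))`.** -/
theorem exists_mem_riemannRochSpace_laurent (F : CuspForm (Gamma0 N) 2) :
    ∃ h : ↥(laurentBaseChange ℂ (modularFunctionFieldFull N)), h ∈ riemannRochSpace W ∧
      HahnSeries.ofPowerSeries ℤ ℂ (qExpansion 1 F) =
        (h : LaurentSeries ℂ) * coeffEmb ℂ (eulerD ℚ jq) := by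
  obtain ⟨h, hh⟩ := dictMap_surjective N W hW F
  refine ⟨h.1, h.2, ?_⟩
  have hfun : (dictHol N (h : ↥(laurentBaseChange ℂ (modularFunctionFieldFull N))) : ℍ → ℂ) =
      (F : ℍ → ℂ) := congrArg (fun G : CuspForm (Gamma0 N) 2 => (G : ℍ → ℂ)) hh
  have hper : (1 : ℝ) ∈ (Gamma0 N : Subgroup (GL (Fin 2) ℝ)).strictPeriods :=
    CongruenceSubgroup.one_mem_strictPeriods_Gamma0 N
  have hmer : IsMeroInfty 1 (dictHol N (h : ↥(laurentBaseChange ℂ (modularFunctionFieldFull N))) :
      ℍ → ℂ) := by
    rw [hfun]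
    exact isMeroInfty_of_modularForm F one_pos hper
  have h1 := laurent_eq_mul_of_ofHol_eq N
    (ofHol_dictHol N (exists_ofHol_eq_of_mem N (jCoordC N) (jCoordC_x_eq_jBarN N) W hW h.2)) hmer
  rw [hfun, laurent_of_modularForm F one_pos hper] at h1
  exact h1

end Surj

end Fermat.Agent.MP
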