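/-
MP40 (row 38) — helper8 — [ROLD], package [RQ-A'], part 1: **points of `ℍ` whose `j`-invariant is
transcendental over the coefficient field are invisible to the function field**:
for `k` algebraically closed, `ι : k →+* ℂ`, `τ₀ ∈ ℍ` with `j(τ₀) ∉ ι(k)`, every nonzero
`x ∈ F_k = k·ℚ(j_d : d ∣ N)` has `ord_{τ₀} (ρ x) = 0`.
-/
import Mathlib
import Fermat.Agent.X0N.Dict_helper5_Cusp
import Fermat.Agent.X0N.SYM_helper2_Integral

set_option autoImplicit false
set_option linter.unusedSectionVars false
set_option linter.style.haveILetI false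
set_option synthInstance.maxHeartbeats 400000

noncomputable section

namespace Fermat.Agent.MP

open UpperHalfPlane hiding I
open Complex Filter Function Topology ModularForm CongruenceSubgroup Polynomial
open AlgebraicCurve ModularCurve
open Fermat.Agent.RatStr Fermat.Agent.X0N Fermat.Agent.X0N.Dict Fermat.Agent.FF
open scoped Manifold MatrixGroups Real

/-- ultrametric inequality for finite sums of meromorphic functions. -/
theorem ordAt_sum_ge {α : Type*} (s : Finset α) (f : α → MerH) (τ : ℍ) (c : ℤ)
    (h : ∀ i ∈ s, f i = 0 ∨ c ≤ MerH.ordAt τ (f i)) :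
    ∑ i ∈ s, f i = 0 ∨ c ≤ MerH.ordAt τ (∑ i ∈ s, f i) := by
  classical
  induction s using Finset.induction_on with
  | empty => left; simp
  | insert a s ha ih =>
    rw [Finset.sum_insert ha]
    have h1 := h a (Finset.mem_insert_self a s)
    have h2 := ih fun i hi => h i (Finset.mem_insert_of_mem hi)
    by_cases hsum : f a + ∑ i ∈ s, f i = 0
    · left; exact hsum
    right
    rcases h1 with h1 | h1
    · rw [h1, zero_add] at hsum ⊢
      exact h2.resolve_left hsum
    rcases h2 with h2 | h2
    · rw [h2, add_zero] at hsum ⊢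
      exact h1
    by_cases ha0 : f a = 0
    · rw [ha0, zero_add] at hsum ⊢
      exact h2
    by_cases hs0 : ∑ i ∈ s, f i = 0
    · rw [hs0, add_zero]
      exact h1
    exact le_trans (le_min h1 h2) (MerH.min_ordAt_le_ordAt_add ha0 hs0 hsum τ)

/-- **integrality over the local ring at `τ`**: a root of a polynomial with coefficients regular
at `τ` and leading coefficient a unit at `τ` is regular at `τ`. -/
theorem ordAt_nonneg_of_relation {τ : ℍ} {X : MerH} {n : ℕ} (A : ℕ → MerH)
    (hA : ∀ i, 0 ≤ MerH.ordAt τ (A i)) (hAn : A n ≠ 0) (hAn0 : MerH.ordAt τ (A n) = 0)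
    (hrel : ∑ i ∈ Finset.range (n + 1), A i * X ^ i = 0) : 0 ≤ MerH.ordAt τ X := by
  by_contra hneg
  rw [not_le] at hneg
  have hX0 : X ≠ 0 := by
    rintro rfl
    simp at hneg
  rw [Finset.sum_range_succ] at hrel
  have hlhs : A n * X ^ n = -∑ i ∈ Finset.range n, A i * X ^ i := by
    rw [eq_neg_iff_add_eq_zero, add_comm]
    exact hrel
  have hne : A n * X ^ n ≠ 0 := mul_ne_zero hAn (pow_ne_zero _ hX0)
  have hord : MerH.ordAt τ (A n * X ^ n) = n * MerH.ordAt τ X := by
    rw [MerH.ordAt_mul hAn (pow_ne_zero _ hX0), hAn0, zero_add, MerH.ordAt_pow]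
  have hsum := ordAt_sum_ge (Finset.range n) (fun i => A i * X ^ i) τ
    (((n : ℤ) - 1) * MerH.ordAt τ X) (by
      intro i hi
      by_cases hAi : A i = 0
      · left; rw [hAi, zero_mul]
      right
      rw [MerH.ordAt_mul hAi (pow_ne_zero _ hX0), MerH.ordAt_pow]
      have hi' : (i : ℤ) ≤ (n : ℤ) - 1 := by
        have := Finset.mem_range.mp hi
        omega
      have h1 := hA i
      nlinarith)
  rcases hsum with hsum | hsum
  · rw [hsum, neg_zero] at hlhs
    exact hne hlhs
  · have h1 := MerH.ordAt_neg (∑ i ∈ Finset.range n, A i * X ^ i) τ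
    rw [← hlhs, hord] at h1
    rw [← h1] at hsum
    nlinarith

variable {k : Type*} [Field k] [Algebra ℚ k] (ι : k →+* ℂ) (N : ℕ) [NeZero N]

/-- the realisation of a polynomial in `j`. -/
theorem realN_aeval_jBarN (P : k[X]) :
    realN ι N (Polynomial.aeval (jBarN (k := k) N) P) = Polynomial.aeval jM (P.map ι) := by
  induction P using Polynomial.induction_on' with
  | add p q hp hq => rw [map_add, map_add, Polynomial.map_add, map_add, hp, hq]
  | monomial n a =>
    rw [Polynomial.aeval_monomial, map_mul, map_pow, realN_jBarN, realN_algebraMap,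
      Polynomial.map_monomial, Polynomial.aeval_monomial]
    rfl

/-- a nonzero polynomial over an algebraically closed field `k` does not vanish outside `ι(k)`. -/
theorem eval_map_ne_zero_of_notMem_range [IsAlgClosed k] {P : k[X]} (hP : P ≠ 0) {z : ℂ}
    (hz : z ∉ Set.range ι) : (P.map ι).eval z ≠ 0 := by
  intro h0
  have hsplit : P.Splits := IsAlgClosed.splits P
  have hroot : z ∈ (P.map ι).roots := by
    rw [Polynomial.mem_roots ((Polynomial.map_ne_zero_iff ι.injective).mpr hP)]
    exact h0
  rw [hsplit.roots_map ι] at hroot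
  obtain ⟨r, -, hr⟩ := Multiset.mem_map.mp hroot
  exact hz ⟨r, hr⟩

end Fermat.Agent.MP
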