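/-
MP40 (row 38) — helper8 — [ROLD], package [RQ-A'], part 2: **regular differentials of the function
field of `X₀(N)` over an algebraically closed subfield `k ⊆ ℂ` give weight two cusp forms**
(generalisation of helper5's `X0N/Dict_helper5_*` from `ℂ` to `ι : k →+* ℂ`).

* `ordAt_realN_eq_zero_of_notMem_range` : points with `j(τ₀) ∉ ι(k)` are invisible;
* `ordAt_mul_jD_nonneg_of_mem` : `h ∈ L(div dj)` ⟹ `ρ(h) · dj/dτ` is holomorphic on `ℍ`;
* `exists_holH_of_mem`, `slash_eq_of_ofHol_eqK`, `isZeroAtImInfty_slash_of_mem`.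
-/
import Mathlib
import Fermat.Agent.MP.ROLDQ_helper8_DictK1

set_option autoImplicit false
set_option linter.unusedSectionVars false
set_option linter.style.haveILetI false
set_option synthInstance.maxHeartbeats 400000

noncomputable section

namespace Fermat.Agent.MP

open UpperHalfPlane hiding I
open Complex Filter Function Topology ModularForm CongruenceSubgroup Polynomial
open AlgebraicCurve ModularCurve KaehlerDifferential
open Fermat.Agent.RatStr Fermat.Agent.X0N Fermat.Agent.X0N.Dict Fermat.Agent.FF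
  Fermat.Agent.X0N.Cusp
open scoped Manifold MatrixGroups Real

variable {k : Type*} [Field k] [Algebra ℚ k] [IsAlgClosed k] (ι : k →+* ℂ) (N : ℕ) [NeZero N]

/-- **points with transcendental `j`-invariant**: every function is regular there. -/
theorem ordAt_realN_nonneg_of_notMem_range
    (c : Coord k ↥(laurentBaseChange k (modularFunctionFieldFull N))) (hcx : c.x = jBarN N)
    {τ₀ : ℍ} (hτ₀ : jFun τ₀ ∉ Set.range ι)
    (x : ↥(laurentBaseChange k (modularFunctionFieldFull N))) :
    0 ≤ MerH.ordAt τ₀ (realN ι N x) := by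
  letI := c.algPoly
  letI := c.algRat
  haveI := c.tower1
  haveI := c.tower2
  haveI := c.tower3
  haveI : FunctionField k ↥(laurentBaseChange k (modularFunctionFieldFull N)) := c.functionField
  haveI : Algebra.IsAlgebraic (RatFunc k) ↥(laurentBaseChange k (modularFunctionFieldFull N)) :=
    Algebra.IsAlgebraic.of_finite _ _
  have halg : IsAlgebraic k[X] x :=
    (IsFractionRing.isAlgebraic_iff k[X] (RatFunc k) _).mpr (Algebra.IsAlgebraic.isAlgebraic x)
  obtain ⟨Q, hQ0, hQ⟩ := halg
  rw [Polynomial.aeval_eq_sum_range] at hQ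
  have hmap : ∀ P : k[X], algebraMap k[X] ↥(laurentBaseChange k (modularFunctionFieldFull N)) P
      = Polynomial.aeval (jBarN (k := k) N) P := fun P => by
    rw [← hcx]
    rfl
  have hrel := congrArg (realN ι N) hQ
  rw [map_sum, map_zero] at hrel
  have hrel' : ∑ i ∈ Finset.range (Q.natDegree + 1),
      Polynomial.aeval jM ((Q.coeff i).map ι) * (realN ι N x) ^ i = 0 := by
    rw [← hrel]
    refine Finset.sum_congr rfl fun i _ => ?_
    rw [Algebra.smul_def, map_mul, map_pow, hmap, realN_aeval_jBarN]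
  have hlc : Q.coeff Q.natDegree ≠ 0 := by
    rw [Polynomial.coeff_natDegree]
    exact Polynomial.leadingCoeff_ne_zero.mpr hQ0
  refine ordAt_nonneg_of_relation (n := Q.natDegree)
    (fun i => Polynomial.aeval jM ((Q.coeff i).map ι)) (fun i => aeval_jM_mem_regularAt τ₀ _)
    (aeval_jM_ne_zero ((Polynomial.map_ne_zero_iff ι.injective).mpr hlc)) ?_ hrel'
  apply ordAt_aeval_jM_eq_zero
  rw [jH_eq_jFun]
  exact eval_map_ne_zero_of_notMem_range ι hlc hτ₀

theorem ordAt_realN_eq_zero_of_notMem_range
    (c : Coord k ↥(laurentBaseChange k (modularFunctionFieldFull N))) (hcx : c.x = jBarN N)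
    {τ₀ : ℍ} (hτ₀ : jFun τ₀ ∉ Set.range ι)
    (x : ↥(laurentBaseChange k (modularFunctionFieldFull N))) :
    MerH.ordAt τ₀ (realN ι N x) = 0 := by
  have h1 := ordAt_realN_nonneg_of_notMem_range ι N c hcx hτ₀ x
  have h2 := ordAt_realN_nonneg_of_notMem_range ι N c hcx hτ₀ x⁻¹
  rw [map_inv₀, MerH.ordAt_inv] at h2
  omega

/-- **Holomorphy on `ℍ`** of the weight two form attached to a regular differential `h dj` of the
function field over `k`. -/
theorem ordAt_mul_jD_nonneg_of_mem
    (c : Coord k ↥(laurentBaseChange k (modularFunctionFieldFull N))) (hcx : c.x = jBarN N)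
    (W : Divisor k ↥(laurentBaseChange k (modularFunctionFieldFull N)))
    (hW : ∀ v : Place k ↥(laurentBaseChange k (modularFunctionFieldFull N)),
      W v = v.ordDifferential (KaehlerDifferential.D k _ c.x))
    {h : ↥(laurentBaseChange k (modularFunctionFieldFull N))} (hh : h ∈ riemannRochSpace W)
    (τ₀ : ℍ) :
    0 ≤ MerH.ordAt τ₀ (realN ι N h * MerH.ofHol jDHol) := by
  haveI : CharZero k := algebraRat.charZero k
  by_cases h0 : h = 0
  · rw [h0, map_zero, zero_mul, MerH.ordAt_zero]
  by_cases hτ₀ : jFun τ₀ ∈ Set.range ι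
  · obtain ⟨c₀, hc₀⟩ := hτ₀
    set o := ordFnAt ι N τ₀ c₀ hc₀ with ho
    set v := o.toPlace with hv
    obtain ⟨m, hm, hmul⟩ := o.exists_ord_eq_mul
    set y : ↥(laurentBaseChange k (modularFunctionFieldFull N)) :=
      jBarN N - algebraMap k _ c₀ with hy
    have hs : o.ord y = HolH.ord τ₀ (jHol - HolH.const (jFun τ₀)) :=
      ordFnAt_ord_jBarN_sub ι N τ₀ c₀ hc₀
    have hs1 := ord_jDHol_add_one τ₀
    have hy0 : y ≠ 0 := by
      intro hy0
      rw [hy0] at hs
      have : o.ord 0 = 0 := by
        rw [ho, ordFnAt_ord, map_zero, MerH.ordAt_zero]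
      rw [this] at hs
      omega
    have hvy := hmul y hy0
    have hvy0 : v.ord y ≠ 0 := by
      intro h1
      rw [h1, mul_zero] at hvy
      omega
    have hDy : KaehlerDifferential.D k ↥(laurentBaseChange k (modularFunctionFieldFull N)) y =
        KaehlerDifferential.D k _ c.x := by
      rw [hy, map_sub, hcx, Derivation.map_algebraMap, sub_zero]
    obtain ⟨-, hord⟩ := c.ordDifferential_D v hvy0
    rw [hDy] at hord
    rw [mem_riemannRochSpace_iff] at hh
    have hWv := (hh v).resolve_left h0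
    rw [hW v, hord] at hWv
    have hoh := hmul h h0
    rw [MerH.ordAt_mul (realN_ne_zero _ N h0) (MerH.ofHol_ne_zero jDHol_ne_zero),
      MerH.ordAt_ofHol jDHol_ne_zero]
    have hoh' : MerH.ordAt τ₀ (realN ι N h) = m * v.ord h := hoh
    rw [hoh']
    nlinarith
  · rw [MerH.ordAt_mul (realN_ne_zero _ N h0) (MerH.ofHol_ne_zero jDHol_ne_zero),
      ordAt_realN_eq_zero_of_notMem_range ι N c hcx hτ₀ h, zero_add,
      MerH.ordAt_ofHol jDHol_ne_zero]
    exact Int.natCast_nonneg _

end Fermat.Agent.MP
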