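/-
MP40 (row 38) — helper8 — [ROLD], package [RQ-A'], part 3: **the dictionary over an algebraically
closed subfield `k ⊆ ℂ`**: for `h ∈ L(div dj)` in the function field `F_k` of `X₀(N)` there is a
weight two cusp form `F` of level `Γ₀(N)` with `qexp F = ι(h) · θ(j(q))`.
-/
import Mathlib
import Fermat.Agent.MP.ROLDQ_helper8_DictK2
import Fermat.Agent.MP.ROLDQ_helper8_Dict

set_option autoImplicit false
set_option linter.unusedSectionVars false
set_option linter.style.haveILetI false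
set_option synthInstance.maxHeartbeats 400000

noncomputable section

namespace Fermat.Agent.MP

open UpperHalfPlane hiding I
open Complex Filter Function Topology ModularForm CongruenceSubgroup
open AlgebraicCurve ModularCurve KaehlerDifferential
open Fermat.Agent.RatStr Fermat.Agent.X0N Fermat.Agent.X0N.Dict Fermat.Agent.FF
  Fermat.Agent.X0N.Cusp Fermat.Agent.S36
open scoped Manifold MatrixGroups Real

variable {k : Type*} [Field k] [Algebra ℚ k] (ι : k →+* ℂ) (N : ℕ) [NeZero N]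

/-- If `ofHol f = ρ(h) · dj/dτ` then `f ∘ γ = (cτ+d)² f` for `γ ∈ Γ₀(N)`. -/
theorem comp_eq_of_ofHol_eqK {h : ↥(laurentBaseChange k (modularFunctionFieldFull N))} {f : HolH}
    (hf : MerH.ofHol f = realN ι N h * MerH.ofHol jDHol) {γ : SL(2, ℤ)}
    (hγ : γ ∈ Gamma0 N) : HolH.comp γ f = denomHol γ ^ 2 * f := by
  apply MerH.ofHol_injective
  have h1 : MerH.ofHol (HolH.comp γ f) = MerH.comp γ (MerH.ofHol f) :=
    (MerH.comp_algebraMap γ f).symm
  rw [h1, hf, map_mul, comp_realN_of_mem_Gamma0 _ N hγ]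
  have h2 : MerH.comp γ (MerH.ofHol jDHol) = MerH.ofHol (HolH.comp γ jDHol) :=
    MerH.comp_algebraMap γ jDHol
  rw [h2, comp_jDHol, map_mul, map_mul, hf]
  ring

/-- `f ∣[2] δ` corresponds to `(ρ(h) ∘ δ) · dj/dτ`. -/
theorem ofHol_slashHolK {h : ↥(laurentBaseChange k (modularFunctionFieldFull N))} {f : HolH}
    (hf : MerH.ofHol f = realN ι N h * MerH.ofHol jDHol) (δ : SL(2, ℤ)) :
    MerH.ofHol (slashHol f δ) = MerH.comp δ (realN ι N h) * MerH.ofHol jDHol := by
  have hd : MerH.ofHol (denomHol δ ^ 2) ≠ 0 :=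
    MerH.ofHol_ne_zero (pow_ne_zero _ (denomHol_ne_zero δ))
  apply mul_right_cancel₀ hd
  rw [← map_mul, slashHol_mul_denom]
  have h1 : MerH.ofHol (HolH.comp δ f) = MerH.comp δ (MerH.ofHol f) :=
    (MerH.comp_algebraMap δ f).symm
  rw [h1, hf, map_mul]
  have h2 : MerH.comp δ (MerH.ofHol jDHol) = MerH.ofHol (HolH.comp δ jDHol) :=
    MerH.comp_algebraMap δ jDHol
  rw [h2, comp_jDHol, map_mul]
  ring

theorem slash_eq_of_ofHol_eqK {h : ↥(laurentBaseChange k (modularFunctionFieldFull N))} {f : HolH}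
    (hf : MerH.ofHol f = realN ι N h * MerH.ofHol jDHol) {γ : SL(2, ℤ)}
    (hγ : γ ∈ Gamma0 N) : (f : ℍ → ℂ) ∣[(2 : ℤ)] γ = f := by
  have h1 := slashHol_mul_denom f γ
  rw [comp_eq_of_ofHol_eqK ι N hf hγ, mul_comm] at h1
  have h2 := mul_left_cancel₀ (pow_ne_zero 2 (denomHol_ne_zero γ)) h1
  exact congrArg Subtype.val h2

include ι in
theorem jBarN_eq_jK_K : jBarN (k := k) N = jK k N := by
  apply (realN ι N).injective
  rw [realN_jBarN, realN_jK, ofHol_jHol_eq_jM]

variable [IsAlgClosed k]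

/-- **the cusp condition** over `k`: the weight two form attached to a regular differential
vanishes at all cusps. -/
theorem isZeroAtImInfty_of_mem
    (c : Coord k ↥(laurentBaseChange k (modularFunctionFieldFull N))) (hcx : c.x = jBarN N)
    (W : Divisor k ↥(laurentBaseChange k (modularFunctionFieldFull N)))
    (hW : ∀ v : Place k ↥(laurentBaseChange k (modularFunctionFieldFull N)),
      W v = v.ordDifferential (KaehlerDifferential.D k _ c.x))
    (δ : SL(2, ℤ)) {h : ↥(laurentBaseChange k (modularFunctionFieldFull N))}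
    (hh : h ∈ riemannRochSpace W) (φ : HolH)
    (hφ : MerH.ofHol φ = MerH.comp δ (realN ι N h) * MerH.ofHol jDHol) :
    IsZeroAtImInfty (φ : ℍ → ℂ) := by
  haveI : CharZero k := algebraRat.charZero k
  by_cases h0 : h = 0
  · rw [h0, map_zero, map_zero, zero_mul] at hφ
    have : φ = 0 := MerH.ofHol_injective (hφ.trans (map_zero _).symm)
    rw [this]
    show Tendsto (fun _ : ℍ => (0 : ℂ)) atImInfty (𝓝 0)
    exact tendsto_const_nhds
  set q : SL(2, ℤ) ⧸ Gamma0 N := ((δ⁻¹ : SL(2, ℤ)) : SL(2, ℤ) ⧸ Gamma0 N) with hq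
  have hconj : cuspConj ι N q h = MerH.comp δ (realN ι N h) := by
    rw [cuspConj_apply, conjM_mk (isModFun_realN _ N h), inv_inv]
  set oc := cuspOrdFn ι N q with hoc
  set v := oc.toPlace with hv
  obtain ⟨m, hm, hmul⟩ := oc.exists_ord_eq_mul
  have hj : oc.ord (jK k N) = -(N : ℤ) := cuspOrdFn_ord_jK _ N q
  have hjx : c.x = jK k N := hcx.trans (jBarN_eq_jK_K ι N)
  have hj0 : jK k N ≠ 0 := jK_ne_zero ι N
  have hN : (0 : ℤ) < N := by exact_mod_cast NeZero.pos N
  have hvj := hmul (jK k N) hj0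
  have hvj0 : v.ord (jK k N) ≠ 0 := by
    intro h1
    rw [h1, mul_zero, hj] at hvj
    omega
  obtain ⟨-, hord⟩ := c.ordDifferential_D v hvj0
  rw [← hjx] at hord
  rw [mem_riemannRochSpace_iff] at hh
  have hWv := (hh v).resolve_left h0
  rw [hW v, hord, hjx] at hWv
  have hoh := hmul h h0
  have hord_h : (N : ℤ) + 1 ≤ MerH.ordInf N (MerH.comp δ (realN ι N h)) := by
    rw [← hconj]
    have : oc.ord h = MerH.ordInf N (cuspConj ι N q h) := rfl
    rw [← this, hoh]
    nlinarith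
  have hmer : IsMerInf N (MerH.comp δ (realN ι N h)) := by
    rw [← hconj]
    exact isMerInf_cuspConj _ N q h
  have hne : MerH.comp δ (realN ι N h) ≠ 0 := by
    rw [← hconj]
    exact cuspConj_ne_zero _ N q h0
  apply isZeroAtImInfty_of_ordInf_pos N
  · rw [hφ]
    exact hmer.mul (isMerInf_jDHol N)
  · rw [hφ, MerH.ordInf_mul hmer (isMerInf_jDHol N) hne (MerH.ofHol_ne_zero jDHol_ne_zero),
      ordInf_jDHol]
    omega

/-- **regular differentials over `k` give cusp forms.** -/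
theorem exists_cuspForm_of_mem
    (c : Coord k ↥(laurentBaseChange k (modularFunctionFieldFull N))) (hcx : c.x = jBarN N)
    (W : Divisor k ↥(laurentBaseChange k (modularFunctionFieldFull N)))
    (hW : ∀ v : Place k ↥(laurentBaseChange k (modularFunctionFieldFull N)),
      W v = v.ordDifferential (KaehlerDifferential.D k _ c.x))
    {h : ↥(laurentBaseChange k (modularFunctionFieldFull N))} (hh : h ∈ riemannRochSpace W) :
    ∃ (F : CuspForm (Gamma0 N) 2) (f : HolH), (F : ℍ → ℂ) = (f : ℍ → ℂ) ∧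
      MerH.ofHol f = realN ι N h * MerH.ofHol jDHol := by
  obtain ⟨f, hf⟩ := exists_ofHol_eq_of_ordAt_nonneg
    (ordAt_mul_jD_nonneg_of_mem ι N c hcx W hW hh)
  have hzero : ∀ δ : SL(2, ℤ), IsZeroAtImInfty ((f : ℍ → ℂ) ∣[(2 : ℤ)] δ) := fun δ =>
    isZeroAtImInfty_of_mem ι N c hcx W hW δ hh (slashHol f δ) (ofHol_slashHolK ι N hf δ)
  have hCF : IsCF (Gamma0 N) 2 (f : ℍ → ℂ) :=
    { holo := HolH.mdiff _
      inv := fun γ hγ => slash_eq_of_ofHol_eqK ι N hf hγ
      bdd := fun δ => (hzero δ).boundedAtFilter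
      zero := hzero }
  exact ⟨hCF.toCuspForm, f, rfl, hf⟩

end Fermat.Agent.MP
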