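/-
MP40 (row 38) — helper8 — [ROLD], package [RQ-A'], part 4: **`q`-expansions**: for
`h ∈ L(div dj)` in the function field `F_k` of `X₀(N)` (`k ⊆ ℂ` algebraically closed) there is a
weight two cusp form `F` of level `Γ₀(N)` with `qexp F = ι(h) · θ(j(q))`.
-/
import Mathlib
import Fermat.Agent.MP.ROLDQ_helper8_DictK3

set_option autoImplicit false
set_option linter.unusedSectionVars false
set_option linter.style.haveILetI false
set_option synthInstance.maxHeartbeats 400000

noncomputable section

namespace Fermat.Agent.MP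

open UpperHalfPlane hiding I
open Complex Filter Function Topology ModularForm CongruenceSubgroup
open AlgebraicCurve ModularCurve KaehlerDifferential
open Fermat.Agent.RatStr Fermat.Agent.X0N Fermat.Agent.X0N.Dict Fermat.Agent.FF
  Fermat.Agent.X0N.Cusp Fermat.Agent.S36
open scoped Manifold MatrixGroups Real

variable {k : Type*} [Field k] [Algebra ℚ k] (ι : k →+* ℂ) (N : ℕ) [NeZero N]

/-- if `f = ρ(h) · dj/dτ` is meromorphic at `i∞` then its Laurent expansion is `ι(h) · θ(j(q))`. -/
theorem laurent_eq_mul_of_ofHol_eqK {h : ↥(laurentBaseChange k (modularFunctionFieldFull N))}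
    {f : HolH} (hf : MerH.ofHol f = realN ι N h * MerH.ofHol jDHol)
    (hmer : IsMeroInfty 1 (f : ℍ → ℂ)) :
    laurent 1 (f : ℍ → ℂ) = coeffMap ι (h : LaurentSeries k) * coeffEmb ℂ (eulerD ℚ jq) := by
  obtain ⟨a, ha, b, hb, hab⟩ := (mem_merSeries ι).mp (inclN ι N h).2
  have hab' : a / b = (h : LaurentSeries k) := hab
  by_cases hb0 : b = 0
  · rw [hb0, div_zero] at hab'
    have hh0 : h = 0 := Subtype.ext hab'.symm
    rw [hh0, map_zero, zero_mul] at hf
    have hf0 : f = 0 := MerH.ofHol_injective (hf.trans (map_zero _).symm)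
    rw [hf0, hh0]
    show laurent 1 (0 : ℍ → ℂ) = _
    rw [laurent_zero]
    simp
  · set A : convSeries ι := ⟨a, ha⟩ with hA
    set B : convSeries ι := ⟨b, hb⟩ with hB
    have hB0 : B ≠ 0 := fun h0 => hb0 (congrArg Subtype.val h0)
    have hreal : realN ι N h * MerH.ofHol (convSeries.toHol _ B) =
        MerH.ofHol (convSeries.toHol _ A) := by
      have e1 : inclN ι N h * algebraMap (convSeries ι) (merSeries ι) B = algebraMap _ _ A := by
        apply Subtype.ext
        show (h : LaurentSeries k) * b = a
        rw [← hab', div_mul_cancel₀ _ hb0]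
      have e2 := congrArg (merSeries.real ι) e1
      rw [map_mul, merSeries.real_algebraMap, merSeries.real_algebraMap] at e2
      exact e2
    have hhol : f * convSeries.toHol _ B = convSeries.toHol _ A * jDHol := by
      apply MerH.ofHol_injective
      rw [map_mul, map_mul, hf, ← hreal]
      ring
    have hfun : (f : ℍ → ℂ) * convSeries.fn _ B = convSeries.fn _ A * jD :=
      congrArg Subtype.val hhol
    have hlaur := congrArg (laurent 1) hfun
    rw [laurent_mul one_pos hmer (convSeries.isMeroInfty_fn _ B),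
      laurent_mul one_pos (convSeries.isMeroInfty_fn _ A) isMeroInfty_jD, convSeries.laurent_fn,
      convSeries.laurent_fn, laurent_jD] at hlaur
    have hb' : coeffMap ι b ≠ 0 := (map_ne_zero (coeffMap ι)).mpr hb0
    rw [← hab', map_div₀]
    field_simp
    exact hlaur

variable [IsAlgClosed k]

/-- **the dictionary over `k`, in terms of `q`-expansions.** -/
theorem exists_cuspForm_qExpansion_of_mem
    (c : Coord k ↥(laurentBaseChange k (modularFunctionFieldFull N))) (hcx : c.x = jBarN N)
    (W : Divisor k ↥(laurentBaseChange k (modularFunctionFieldFull N)))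
    (hW : ∀ v : Place k ↥(laurentBaseChange k (modularFunctionFieldFull N)),
      W v = v.ordDifferential (KaehlerDifferential.D k _ c.x))
    {h : ↥(laurentBaseChange k (modularFunctionFieldFull N))} (hh : h ∈ riemannRochSpace W) :
    ∃ F : CuspForm (Gamma0 N) 2,
      HahnSeries.ofPowerSeries ℤ ℂ (qExpansion 1 F) =
        coeffMap ι (h : LaurentSeries k) * coeffEmb ℂ (eulerD ℚ jq) := by
  obtain ⟨F, f, hFf, hf⟩ := exists_cuspForm_of_mem ι N c hcx W hW hh
  refine ⟨F, ?_⟩
  have hper : (1 : ℝ) ∈ (Gamma0 N : Subgroup (GL (Fin 2) ℝ)).strictPeriods :=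
    CongruenceSubgroup.one_mem_strictPeriods_Gamma0 N
  have hmer : IsMeroInfty 1 (f : ℍ → ℂ) := by
    rw [← hFf]
    exact isMeroInfty_of_modularForm F one_pos hper
  have h1 := laurent_eq_mul_of_ofHol_eqK ι N hf hmer
  rw [← hFf, laurent_of_modularForm F one_pos hper] at h1
  exact h1

end Fermat.Agent.MP
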