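/-
MP40 — [ROLD-HOST], helper8: **the Hurwitz descent of regular differentials along a finite cover**
and the bridge `derCan (d/dx) = ord (dx)`.

* `mem_regSpace_of_map_mem` : if `φ h₀ · ω_E` is regular on `E` (`ω_E` the pull-back of `ω_F`),
  then `h₀ · ω_F` is regular on `F` (`κ_E = e κ_F + e − 1`, `(e − 1)/e < 1`);
* `derCan_eq_ordDifferential` : for a derivation `δ` with `δ x = 1`, `derCan δ v = ord_v (dx)`.
-/
import Mathlib
import Fermat.Agent.MP.ROLDGR_helper3_Dim
import Fermat.Agent.FG.EGAL_helper6_Gal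
import Fermat.Agent.MW.RRAPP_helper8_Can

set_option autoImplicit false
set_option linter.unusedSectionVars false
set_option linter.style.haveILetI false

open AlgebraicCurve IsLocalRing

namespace Fermat.Agent.MP

open Fermat.Agent.FF Fermat.Agent.JA Fermat.Agent.FG Fermat.Agent.MW

noncomputable section

section Bridge

variable {k F : Type*} [Field k] [Field F] [Algebra k F] [CharZero k] [IsAlgClosed k]

/-- for a derivation with `δ x = 1`, the canonical divisor of `δ` is the divisor of `dx`. -/
theorem derCan_eq_ordDifferential (c : Coord k F) {δ : Derivation k F F} (hδ : δ c.x = 1)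
    (v : Place k F) : derCan δ v = v.ordDifferential (KaehlerDifferential.D k F c.x) := by
  have hδ0 : δ ≠ 0 := by
    intro h0
    rw [h0] at hδ
    exact zero_ne_one hδ
  have hu := (isDerDatum_derCan c hδ0).spec v (derUnif v) (ord_derUnif v)
  have hcoef := c.differentialCoeff_D_x_ne_zero v
  have e := der_eq_differentialCoeff_mul c δ v c.x
  rw [hδ] at e
  have hord := congrArg v.ord e
  rw [v.ord_one, v.ord_mul hcoef hu.1] at hord
  show -v.ord (δ (derUnif v)) = v.ord (v.differentialCoeff (KaehlerDifferential.D k F c.x))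
  omega

end Bridge

section Hurwitz

variable {k F E : Type*} [Field k] [Field F] [Field E] [Algebra k F] [Algebra k E] [CharZero k]
  [IsAlgClosed k]

/-- **the Hurwitz descent of regular differentials.** -/
theorem mem_regSpace_of_map_mem (cF : Coord k F) (cE : Coord k E) (φ : F →ₐ[k] E)
    (hfin : FiniteAlong k φ) (hφ : φ.toRingHom.IsIntegral)
    {D₀ : Derivation k F F} (hD₀ : D₀ ≠ 0) {DE : Derivation k E E}
    (hDE : ∀ f : F, DE (φ f) = φ (D₀ f)) {h₀ : F} (h : φ h₀ ∈ regSpace (derCan DE)) :
    h₀ ∈ regSpace (derCan D₀) := by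
  intro P
  rcases eq_or_ne h₀ 0 with h0 | h0
  · exact Or.inl h0
  refine Or.inr ?_
  obtain ⟨W, hW⟩ := exists_restrictAlong_eq cF φ hfin hφ P
  have hφ0 : φ h₀ ≠ 0 := (map_ne_zero φ).mpr h0
  have h1 := (h W).resolve_left hφ0
  have h2 := derCan_extension cF cE φ hφ hD₀ hDE W
  have h3 := Place.ord_restrictAlong φ hφ W h₀
  rw [hW] at h2 h3
  have hepos : 0 < Place.ramificationIndexAlong φ W := by
    letI := algebraAlong φ
    haveI := isScalarTower_along φ
    haveI := isIntegral_along φ hφ
    exact Place.ramificationIndex_pos (F := F) W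
  set e : ℤ := (Place.ramificationIndexAlong φ W : ℤ) with he
  have hepos' : 0 < e := by rw [he]; exact_mod_cast hepos
  rw [h2, h3] at h1
  -- `-(e κ + e - 1) ≤ e · ord`, hence `-κ ≤ ord`
  by_contra hlt
  push Not at hlt
  have h4 : P.ord h₀ + derCan D₀ P ≤ -1 := by omega
  have h5 : e * (P.ord h₀ + derCan D₀ P) ≤ e * (-1) := mul_le_mul_of_nonneg_left h4 hepos'.le
  nlinarith

end Hurwitz

end

end Fermat.Agent.MP
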