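/-
MP40 — [ROLD-HOST], helper8: **from a regular differential of the Legendre host which comes from
`X₀(N)` to a cusp form**: if `h₀ ∈ FunN N` and `φ h₀ · ω_E` is regular on the host (`ω_E` the
pull-back of `dj`), then there is a weight two cusp form on `Γ₀(N)` with `q`-expansion
`ι(h₀) · θ(j(q))`.
-/
import Mathlib
import Fermat.Agent.MP.ROLDQ_helper8_HostDesc
import Fermat.Agent.MP.ROLDQ_helper8_HostSeriesB
import Fermat.Agent.MP.ROLDQ_helper8_DictK4
import Fermat.Agent.MW.RRAPP_helper8_Diff

set_option autoImplicit false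
set_option linter.unusedSectionVars false
set_option linter.style.haveILetI false
set_option synthInstance.maxHeartbeats 400000

open AlgebraicCurve IsLocalRing ModularCurve CongruenceSubgroup

namespace Fermat.Agent.MP

open Fermat.Agent.FF Fermat.Agent.JA Fermat.Agent.FG Fermat.Agent.MW Fermat.Agent.S36
  Fermat.Agent.X0N Fermat.Agent.X0N.Dict

local notation "Ω" => AlgebraicClosure ℚ

noncomputable section

variable (N : ℕ) [NeZero N]

theorem jCoordBar_x_eq_jBarN : (Fermat.Agent.X0N.jCoordBar N).x = jBarN (k := Ω) N := by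
  apply Subtype.ext
  show coeffEmb Ω jq = coeffEmb Ω (qExpand ℚ 1 jq)
  rw [qExpand_one_apply]

/-- **the cusp form of a regular differential of the host which descends to `X₀(N)`.** -/
theorem exists_cuspForm_of_regular (ι : Ω →+* ℂ)
    (DE : Derivation Ω ↥(legE Ω N) ↥(legE Ω N))
    (hext : ∀ f : FunN N, DE (fullToLegE Ω N f) = fullToLegE Ω N (derJ N f))
    {h₀ : FunN N} (h : fullToLegE Ω N h₀ ∈ regSpace (derCan DE)) :
    ∃ F : CuspForm (Gamma0 N) 2,
      HahnSeries.ofPowerSeries ℤ ℂ (UpperHalfPlane.qExpansion 1 F) =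
        coeffMap ι (h₀ : LaurentSeries Ω) * coeffEmb ℂ (eulerD ℚ jq) := by
  have h1 : h₀ ∈ regSpace (derCan (derJ N)) :=
    mem_regSpace_of_map_mem (cN N) (legECoordBar N) (fullToLegE Ω N) (finiteAlong_fullToLegE N)
      (isIntegral_fullToLegE_bar N) (derJ_ne_zero N) hext h
  obtain ⟨W, hW⟩ := (cN N).exists_divisor_D_x
  have h2 : regSpace (derCan (derJ N)) = riemannRochSpace W := by
    rw [← regSpace_coe_divisor W]
    congr 1
    funext P
    rw [hW P]
    exact derCan_eq_ordDifferential (cN N) (derJ_jBar N) P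
  rw [h2] at h1
  exact exists_cuspForm_qExpansion_of_mem ι N (cN N) (jCoordBar_x_eq_jBarN N) W hW h1

end

end Fermat.Agent.MP
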