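/-
MP40 (S44/S40) — helper4 — [ROLD-Q] RQ5, part (a): **an eigenvector modulo `p` in the lattice of
integral cusp forms gives `ResOccurs`**.

`X = CuspForm.intLattice M' 2`, `F ∈ X ∖ pX` with `T_ℓ F ≡ a_ℓ F mod pX` for all primes `ℓ ∉ S`
(`T_ℓ = heckeOpP M' ℓ`: `U_ℓ` if `ℓ ∣ M'`).  Then `ResOccurs M' p S a`
(`resOccurs_of_eigen_mod_p`): Deligne–Serre lifting (`LR.exists_eigenvector_lift`, ring of
operators `ℤ[X_ℓ : ℓ ∉ S]`, `𝔪 = ker (X_ℓ ↦ a_ℓ mod p)`), a common eigenvector of ALL Hecke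
operators in the eigenspace (`Helper2.exists_common_eigenvector`), and
`S49E.exists_isNormalizedEigenform_of_eigenvector`.
-/
import Mathlib
import Fermat.Agent.MP.IFACE_helper8_Defs
import Fermat.Agent.LR.RAISE_helper2_Top
import Fermat.Agent.S49_Eigenform
import Fermat.Prelude.Def_CuspForm_HeckeLocal

set_option autoImplicit false
set_option linter.unusedSectionVars false
set_option linter.style.haveILetI false

namespace Fermat.Agent.MP

open CongruenceSubgroup ModularFormClass MvPolynomial Fermat.Agent.GR Fermat.Agent.LR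

section Lift

variable (M' : ℕ) [NeZero M'] (S : Set ℕ)

/-- the primes outside `S`. -/
abbrev PIdx (S : Set ℕ) : Type := {ℓ : Nat.Primes // (ℓ : ℕ) ∉ S}

/-- the Hecke operator at `ℓ ∉ S` on the lattice of integral cusp forms. -/
noncomputable def latHecke (ℓ : PIdx S) : Module.End ℤ ↥(CuspForm.intLattice M' 2) :=
  CuspForm.latticeRestrict M' S (heckeOpP_mem_heckeAlgebra S ℓ.2)

theorem latHecke_coe (ℓ : PIdx S) (x : ↥(CuspForm.intLattice M' 2)) :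
    ((latHecke M' S ℓ x : ↥(CuspForm.intLattice M' 2)) : CuspForm (Gamma0 M') 2) =
      heckeOpP M' ℓ.1 x.1 := rfl

theorem latHecke_comm (ℓ ℓ' : PIdx S) : Commute (latHecke M' S ℓ) (latHecke M' S ℓ') := by
  apply LinearMap.ext
  intro x
  apply Subtype.ext
  rw [Module.End.mul_apply, Module.End.mul_apply, latHecke_coe, latHecke_coe, latHecke_coe,
    latHecke_coe]
  have := heckeOpP_comm (N := M') (ℓ := ℓ.1) ℓ'.1
  have h1 := congrArg (fun f : Module.End ℂ (CuspForm (Gamma0 M') 2) => f x.1) this.eq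
  simpa using h1

/-- the polynomial Hecke ring acting on the lattice. -/
noncomputable def latRingHom : MvPolynomial (PIdx S) ℤ →+* Module.End ℤ ↥(CuspForm.intLattice M' 2) :=
  polyHom (latHecke M' S) (latHecke_comm M' S)

/-- the polynomial Hecke ring acting on the cusp forms. -/
noncomputable def cuspRingHom :
    MvPolynomial (PIdx S) ℤ →+* Module.End ℂ (CuspForm (Gamma0 M') 2) :=
  polyHom (fun ℓ : PIdx S => heckeOpP M' ℓ.1) (fun ℓ ℓ' => heckeOpP_comm (N := M') (ℓ := ℓ.1) ℓ'.1)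

theorem latRingHom_coe (r : MvPolynomial (PIdx S) ℤ) (x : ↥(CuspForm.intLattice M' 2)) :
    ((latRingHom M' S r x : ↥(CuspForm.intLattice M' 2)) : CuspForm (Gamma0 M') 2) =
      cuspRingHom M' S r x.1 :=
  polyHom_intertwine (latHecke M' S) (latHecke_comm M' S) (fun ℓ : PIdx S => heckeOpP M' ℓ.1)
    (fun ℓ ℓ' => heckeOpP_comm (N := M') (ℓ := ℓ.1) ℓ'.1)
    (CuspForm.intLattice M' 2).subtype.toAddMonoidHom (fun ℓ x => latHecke_coe M' S ℓ x) r x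

variable {M' S}

/-- the residual character `X_ℓ ↦ a_ℓ mod p`. -/
noncomputable def resChar (p : ℕ) (a : ℕ → ℤ) : MvPolynomial (PIdx S) ℤ →+* ZMod p :=
  MvPolynomial.eval₂Hom (Int.castRingHom (ZMod p)) (fun ℓ : PIdx S => ((a ℓ.1 : ℤ) : ZMod p))

theorem resChar_surjective (p : ℕ) (a : ℕ → ℤ) : Function.Surjective (resChar (S := S) p a) := by
  intro z
  obtain ⟨m, rfl⟩ := ZMod.intCast_surjective z
  refine ⟨C m, ?_⟩
  rw [resChar, MvPolynomial.coe_eval₂Hom, MvPolynomial.eval₂_C, eq_intCast]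

/-- the action of the polynomial Hecke ring on an eigenvector modulo `p`. -/
theorem latRingHom_apply_eigen {p : ℕ} (a : ℕ → ℤ) (x : ↥(CuspForm.intLattice M' 2))
    (hE : ∀ ℓ : PIdx S, ∃ y : ↥(CuspForm.intLattice M' 2),
      latHecke M' S ℓ x = a ℓ.1 • x + (p : ℤ) • y)
    (r : MvPolynomial (PIdx S) ℤ) :
    ∃ (m : ℤ) (y : ↥(CuspForm.intLattice M' 2)), (m : ZMod p) = resChar p a r ∧
      latRingHom M' S r x = m • x + (p : ℤ) • y := by
  induction r using MvPolynomial.induction_on with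
  | C n =>
    refine ⟨n, 0, ?_, ?_⟩
    · rw [resChar, MvPolynomial.coe_eval₂Hom, MvPolynomial.eval₂_C, eq_intCast]
    · rw [latRingHom, polyHom_C, Module.End.intCast_apply, smul_zero, add_zero]
  | add r₁ r₂ h₁ h₂ =>
    obtain ⟨m₁, y₁, hm₁, hy₁⟩ := h₁
    obtain ⟨m₂, y₂, hm₂, hy₂⟩ := h₂
    refine ⟨m₁ + m₂, y₁ + y₂, ?_, ?_⟩
    · rw [map_add, ← hm₁, ← hm₂]
      push_cast
      rfl
    · rw [map_add, LinearMap.add_apply, hy₁, hy₂, add_smul, smul_add]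
      abel
  | mul_X r ℓ h =>
    obtain ⟨m, y, hm, hy⟩ := h
    obtain ⟨y₀, hy₀⟩ := hE ℓ
    refine ⟨m * a ℓ.1, a ℓ.1 • y + latRingHom M' S r y₀, ?_, ?_⟩
    · rw [map_mul, ← hm]
      have : resChar (S := S) p a (X ℓ) = ((a ℓ.1 : ℤ) : ZMod p) := by
        rw [resChar, MvPolynomial.coe_eval₂Hom, MvPolynomial.eval₂_X]
      rw [this]
      push_cast
      rfl
    · have hX : latRingHom M' S (X ℓ) = latHecke M' S ℓ := by
        rw [latRingHom, polyHom_X]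
      rw [map_mul, Module.End.mul_apply, hX, hy₀, map_add, map_zsmul, map_zsmul, hy, smul_add,
        smul_add, smul_smul, smul_smul, smul_smul, mul_comm (a ℓ.1) m, mul_comm (a ℓ.1) (p : ℤ)]
      abel

/-- **Deligne–Serre lifting in the lattice of integral cusp forms**: an eigenvector modulo `p`
of the `T_ℓ`, `ℓ ∉ S`, gives a complex eigenvector whose eigenvalues are algebraic integers
congruent to the `a_ℓ` modulo a maximal ideal `𝔪' ∋ p` of `ℤ̄`. -/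
theorem exists_eigen_lift_of_eigen_mod_p {p : ℕ} (hp : p.Prime) (a : ℕ → ℤ)
    (x : ↥(CuspForm.intLattice M' 2)) (hx : ∀ y : ↥(CuspForm.intLattice M' 2), x ≠ (p : ℤ) • y)
    (hE : ∀ ℓ : PIdx S, ∃ y : ↥(CuspForm.intLattice M' 2),
      latHecke M' S ℓ x = a ℓ.1 • x + (p : ℤ) • y) :
    ∃ (g : CuspForm (Gamma0 M') 2) (c : PIdx S → integralClosure ℤ ℂ)
      (𝔪' : Ideal (integralClosure ℤ ℂ)), g ≠ 0 ∧ 𝔪'.IsMaximal ∧
      (p : integralClosure ℤ ℂ) ∈ 𝔪' ∧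
      (∀ ℓ : PIdx S, heckeOpP M' ℓ.1 g = ((c ℓ : integralClosure ℤ ℂ) : ℂ) • g) ∧
      ∀ ℓ : PIdx S, c ℓ - ((a ℓ.1 : ℤ) : integralClosure ℤ ℂ) ∈ 𝔪' := by
  haveI : Fact p.Prime := ⟨hp⟩
  haveI : Module.Finite ℤ ↥(CuspForm.intLattice M' 2) := CuspForm.intLattice.moduleFinite M'
  letI : Module (MvPolynomial (PIdx S) ℤ) ↥(CuspForm.intLattice M' 2) :=
    Module.compHom _ (latRingHom M' S)
  have hsmul : ∀ (r : MvPolynomial (PIdx S) ℤ) (y : ↥(CuspForm.intLattice M' 2)),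
      r • y = latRingHom M' S r y := fun r y => rfl
  set 𝔪 : Ideal (MvPolynomial (PIdx S) ℤ) := RingHom.ker (resChar (S := S) p a) with h𝔪def
  have h𝔪 : 𝔪.IsMaximal := RingHom.ker_isMaximal_of_surjective _ (resChar_surjective p a)
  obtain ⟨g, χ, 𝔪', -, hg0, h𝔪', hgχ, hχ𝔪⟩ :=
    exists_eigenvector_lift (cuspRingHom M' S)
      (CuspForm.intLattice M' 2).subtype.toAddMonoidHom
      (fun r y => by
        rw [hsmul]
        exact latRingHom_coe M' S r y)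
      (fun y₁ y₂ h => Subtype.ext h) (p := p) 𝔪 h𝔪 x hx
      (fun r hr => by
        obtain ⟨m, y, hm, hy⟩ := latRingHom_apply_eigen a x hE r
        rw [h𝔪def, RingHom.mem_ker] at hr
        rw [hr, ZMod.intCast_zmod_eq_zero_iff_dvd] at hm
        obtain ⟨m', rfl⟩ := hm
        refine ⟨m' • x + y, ?_⟩
        rw [hsmul, hy, smul_add, smul_smul])
  refine ⟨g, fun ℓ => χ (X ℓ), 𝔪', hg0, h𝔪', ?_, ?_, ?_⟩
  · have hmem : (C (p : ℤ) : MvPolynomial (PIdx S) ℤ) ∈ 𝔪 := by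
      rw [h𝔪def, RingHom.mem_ker, resChar, MvPolynomial.coe_eval₂Hom, MvPolynomial.eval₂_C,
        eq_intCast]
      simp
    have := hχ𝔪 _ hmem
    rw [ringHom_C_int] at this
    exact_mod_cast this
  · intro ℓ
    have := hgχ (X ℓ)
    rw [cuspRingHom, polyHom_X] at this
    exact this
  · intro ℓ
    have hmem : (X ℓ - C (a ℓ.1) : MvPolynomial (PIdx S) ℤ) ∈ 𝔪 := by
      rw [h𝔪def, RingHom.mem_ker, map_sub, resChar, MvPolynomial.coe_eval₂Hom,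
        MvPolynomial.eval₂_X, MvPolynomial.eval₂_C, eq_intCast, sub_self]
    have := hχ𝔪 _ hmem
    rw [map_sub, ringHom_C_int] at this
    exact this

/-- **[ROLD-Q] RQ5 (a)**: an eigenvector modulo `p` of the `T_ℓ`, `ℓ ∉ S`, in the lattice of
integral cusp forms of level `M'` gives `ResOccurs M' p S a`. -/
theorem resOccurs_of_eigen_mod_p {p : ℕ} (hp : p.Prime) (a : ℕ → ℤ)
    (F : CuspForm (Gamma0 M') 2) (hF : F ∈ CuspForm.intLattice M' 2)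
    (hFp : ∀ G ∈ CuspForm.intLattice M' 2, F ≠ (p : ℤ) • G)
    (hE : ∀ ℓ : Nat.Primes, (ℓ : ℕ) ∉ S → ∃ G ∈ CuspForm.intLattice M' 2,
      heckeOpP M' ℓ F = a ℓ • F + (p : ℤ) • G) :
    ResOccurs M' p S a := by
  classical
  obtain ⟨g, c, 𝔪', hg0, h𝔪', hp𝔪', hgc, hca⟩ :=
    exists_eigen_lift_of_eigen_mod_p (S := S) hp a ⟨F, hF⟩
      (fun y h => hFp y.1 y.2 (congrArg Subtype.val h))
      (fun ℓ => by
        obtain ⟨G, hG, hFG⟩ := hE ℓ.1 ℓ.2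
        exact ⟨⟨G, hG⟩, Subtype.ext hFG⟩)
  haveI : FiniteDimensional ℂ (CuspForm (Gamma0 M') 2) :=
    Fermat.Agent.Helper2.cuspForm_Gamma0_finiteDimensional M' 2
  -- the eigenspace
  let Es : Submodule ℂ (CuspForm (Gamma0 M') 2) :=
    { carrier := {v | ∀ ℓ : PIdx S, heckeOpP M' ℓ.1 v = ((c ℓ : integralClosure ℤ ℂ) : ℂ) • v}
      add_mem' := by
        intro u v hu hv ℓ
        rw [map_add, hu ℓ, hv ℓ, smul_add]
      zero_mem' := fun ℓ => by rw [map_zero, smul_zero]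
      smul_mem' := by
        intro t v hv ℓ
        rw [map_smul, hv ℓ, smul_comm] }
  have hEs : ∀ v, v ∈ Es ↔
      ∀ ℓ : PIdx S, heckeOpP M' ℓ.1 v = ((c ℓ : integralClosure ℤ ℂ) : ℂ) • v := fun v => Iff.rfl
  have hEs0 : Es ≠ ⊥ := by
    intro h
    have : g ∈ Es := (hEs g).2 hgc
    rw [h, Submodule.mem_bot] at this
    exact hg0 this
  have hstab : ∀ t ∈ Set.range (heckeOpP M'), ∀ v ∈ Es, t v ∈ Es := by
    rintro _ ⟨ℓ', rfl⟩ v hv
    rw [hEs] at hv ⊢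
    intro ℓ
    have hc := heckeOpP_comm (N := M') (ℓ := ℓ.1) ℓ'
    have h1 : heckeOpP M' ℓ.1 (heckeOpP M' ℓ' v) = heckeOpP M' ℓ' (heckeOpP M' ℓ.1 v) := by
      rw [← Module.End.mul_apply, ← Module.End.mul_apply, hc.eq]
    rw [h1, hv ℓ, map_smul]
  obtain ⟨v, hvE, hv0, hv⟩ := Fermat.Agent.Helper2.exists_common_eigenvector
    (Set.range (heckeOpP M'))
    (by
      rintro _ ⟨ℓ₁, rfl⟩ _ ⟨ℓ₂, rfl⟩
      exact heckeOpP_comm (N := M') (ℓ := ℓ₁) ℓ₂) Es hEs0 hstab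
  have hv' : ∀ ℓ : Nat.Primes, ∃ μ : ℂ, heckeOpP M' ℓ v = μ • v := fun ℓ => hv _ ⟨ℓ, rfl⟩
  choose a' ha' using hv'
  rw [hEs] at hvE
  have haS : ∀ ℓ : PIdx S, a' ℓ.1 = ((c ℓ : integralClosure ℤ ℂ) : ℂ) := by
    intro ℓ
    have h5 : a' ℓ.1 • v = ((c ℓ : integralClosure ℤ ℂ) : ℂ) • v := (ha' ℓ.1).symm.trans (hvE ℓ)
    exact smul_left_injective ℂ hv0 h5
  set lam : ℕ → ℂ := fun n => if hn : n.Prime then a' ⟨n, hn⟩ else 0 with hlam
  have hlamp : ∀ (n : ℕ) (hn : n.Prime), lam n = a' ⟨n, hn⟩ := fun n hn => by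
    simp only [hlam, dif_pos hn]
  obtain ⟨g', hg', hg'q⟩ := Fermat.Agent.S49E.exists_isNormalizedEigenform_of_eigenvector v hv0 lam
    (fun ℓ hℓ hℓN => by
      have h1 := ha' ⟨ℓ, hℓ⟩
      rw [heckeOpP_of_not_dvd (ℓ := ⟨ℓ, hℓ⟩) hℓN] at h1
      rw [hlamp ℓ hℓ]
      exact h1)
    (fun ℓ hℓ hℓN => by
      have h1 := ha' ⟨ℓ, hℓ⟩
      rw [heckeOpP_of_dvd (ℓ := ⟨ℓ, hℓ⟩) hℓN] at h1
      rw [hlamp ℓ hℓ]
      exact h1)
  refine ⟨g', 𝔪', hg', h𝔪', hp𝔪', fun ℓ hℓ hℓS => ?_⟩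
  refine ⟨c ⟨⟨ℓ, hℓ⟩, hℓS⟩, ?_, hca ⟨⟨ℓ, hℓ⟩, hℓS⟩⟩
  rw [hg'q ℓ hℓ, hlamp ℓ hℓ]
  exact (haS ⟨⟨ℓ, hℓ⟩, hℓS⟩).symm

end Lift

end Fermat.Agent.MP
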