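/-
MP40 (S44/S40) — helper4 — [ROLD-Q] RQ5, part (b): **a formal eigen-series over a field `k` of
characteristic `p` in the `k`-span of the reductions of integral cusp forms gives `ResOccurs`**.

`b : ℕ → k` with `b n = ∑ i, c i * (m i n : k)` where `m i` are the (integral) `q`-coefficients of
cusp forms `F i` of level `M'`, `b ≠ 0`, and for all primes `ℓ ∉ S` (`S ⊇` primes of `M'`)
`b (n ℓ) + ℓ · b (n / ℓ) = a ℓ · b n` for all `n`.  Then `ResOccurs M' p S a`
(`resOccurs_of_formal_eigen`): apply an `𝔽_p`-linear functional `φ` of `k` with `φ (b n₀) ≠ 0`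
coefficientwise; `φ_* b` is the reduction of the integral form `∑ i, lift (φ (c i)) • F i`, which
is an eigenvector modulo `p` (the `q`-expansion principle), and RQ5 (a) applies.
-/
import Mathlib
import Fermat.Agent.MP.RQ5_helper4_Lift

set_option autoImplicit false
set_option linter.unusedSectionVars false
set_option linter.style.haveILetI false

namespace Fermat.Agent.MP

open CongruenceSubgroup ModularFormClass Fermat.Agent.GR Fermat.Agent.Helper2

section Formal

variable {M' : ℕ} [NeZero M'] {S : Set ℕ} {p : ℕ} {k : Type*} [Field k] [CharP k p]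

/-- **[ROLD-Q] RQ5 (b)**, elementary form. -/
theorem resOccurs_of_formal_eigen (hp : p.Prime) (hS : ∀ ℓ : ℕ, ℓ.Prime → ℓ ∣ M' → ℓ ∈ S)
    (a : ℕ → ℤ) {ι : Type*} (s : Finset ι) (c : ι → k) (F : ι → CuspForm (Gamma0 M') 2)
    (m : ι → ℕ → ℤ) (hm : ∀ i ∈ s, ∀ n, qCoeff (F i) n = (m i n : ℂ))
    (b : ℕ → k) (hb : ∀ n, b n = ∑ i ∈ s, c i * (m i n : k)) (hb0 : ∃ n, b n ≠ 0)
    (hE : ∀ ℓ : ℕ, ℓ.Prime → ℓ ∉ S → ∀ n,
      b (n * ℓ) + (if ℓ ∣ n then (ℓ : k) * b (n / ℓ) else 0) = (a ℓ : k) * b n) :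
    ResOccurs M' p S a := by
  classical
  haveI : Fact p.Prime := ⟨hp⟩
  letI : Algebra (ZMod p) k := ZMod.algebra k p
  obtain ⟨n₀, hn₀⟩ := hb0
  obtain ⟨φ, hφ⟩ : ∃ φ : Module.Dual (ZMod p) k, φ (b n₀) ≠ 0 := by
    by_contra h
    exact hn₀ ((Module.forall_dual_apply_eq_zero_iff (ZMod p) (b n₀)).mp
      (fun φ => by_contra fun hφ => h ⟨φ, hφ⟩))
  -- casts
  have hcast : ∀ z : ℤ, ((z : ℤ) : k) = algebraMap (ZMod p) k (z : ZMod p) := by
    intro z
    rw [map_intCast]
  have hφz : ∀ (z : ℤ) (u : k), φ (u * (z : k)) = (z : ZMod p) * φ u := by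
    intro z u
    rw [hcast, mul_comm, ← Algebra.smul_def, map_smul, smul_eq_mul]
  have hφz' : ∀ (z : ℤ) (u : k), φ ((z : k) * u) = (z : ZMod p) * φ u := by
    intro z u
    rw [mul_comm, hφz]
  have hφn : ∀ (z : ℕ) (u : k), φ ((z : k) * u) = (z : ZMod p) * φ u := by
    intro z u
    have := hφz' (z : ℤ) u
    exact_mod_cast this
  -- the integral form
  set d : ι → ℤ := fun i => ((φ (c i)).val : ℤ) with hd
  have hdz : ∀ i, ((d i : ℤ) : ZMod p) = φ (c i) := by
    intro i
    rw [hd]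
    simp
  set g : ℕ → ℤ := fun n => ∑ i ∈ s, d i * m i n with hg
  set G : CuspForm (Gamma0 M') 2 := ∑ i ∈ s, d i • F i with hG
  have hGq : ∀ n, qCoeff ⇑G n = (g n : ℂ) := by
    intro n
    have h1 : qCoeff ⇑G n = qCoeffLin M' 2 n G := rfl
    rw [h1, hG, map_sum, hg]
    push_cast
    refine Finset.sum_congr rfl fun i hi => ?_
    have h2 : qCoeffLin M' 2 n (d i • F i) = qCoeff ⇑(d i • F i) n := rfl
    rw [h2, qCoeff_cusp_zsmul, hm i hi n]
  have hφb : ∀ n, φ (b n) = ((g n : ℤ) : ZMod p) := by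
    intro n
    rw [hb n, map_sum, hg]
    push_cast
    refine Finset.sum_congr rfl fun i _ => ?_
    rw [hφz, hdz, mul_comm]
  have hGX : G ∈ CuspForm.intLattice M' 2 := by
    rw [mem_intLattice_iff']
    exact fun n => ⟨g n, hGq n⟩
  refine resOccurs_of_eigen_mod_p (S := S) hp a G hGX ?_ ?_
  · -- `G ∉ pX`
    intro G' hG' hGG'
    rw [mem_intLattice_iff'] at hG'
    obtain ⟨m', hm'⟩ := hG' n₀
    have h1 : qCoeff ⇑G n₀ = ((p : ℤ) : ℂ) * (m' : ℂ) := by
      rw [hGG', qCoeff_cusp_zsmul, hm']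
    rw [hGq] at h1
    have h2 : g n₀ = (p : ℤ) * m' := by exact_mod_cast h1
    apply hφ
    rw [hφb, h2]
    simp
  · -- eigenvector modulo `p`
    intro ℓ hℓS
    have hℓM : ¬ (ℓ : ℕ) ∣ M' := fun h => hℓS (hS ℓ ℓ.2 h)
    have hop : heckeOpP M' ℓ = CuspForm.heckeTLin 2 ℓ.2 hℓM := heckeOpP_of_not_dvd hℓM
    obtain ⟨y, hy, hyeq⟩ := exists_smul_eq_of_dvd_qCoeff p hp.ne_zero
      (heckeOpP M' ℓ G - a ℓ • G) (by
        intro n
        -- the integer coefficient
        set Nn : ℤ := g (n * ℓ) + (if (ℓ : ℕ) ∣ n then ((ℓ : ℕ) : ℤ) * g (n / ℓ) else 0) -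
          a ℓ * g n with hNn
        have hq : qCoeff ⇑(heckeOpP M' ℓ G - a ℓ • G) n = (Nn : ℂ) := by
          rw [qCoeff_cusp_sub, qCoeff_cusp_zsmul, hop, qCoeff_heckeTLin, ModularForm.coeffHeckeT_apply,
            hNn]
          simp only [hGq]
          split_ifs
          · push_cast
            norm_num
          · push_cast
            ring
        have hz : ((Nn : ℤ) : ZMod p) = 0 := by
          have h1 := congrArg φ (hE ℓ ℓ.2 hℓS n)
          rw [map_add, hφz', hφb, hφb] at h1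
          rw [hNn]
          split_ifs at h1 ⊢ with hdvd
          · rw [hφn, hφb] at h1
            push_cast
            rw [h1]
            ring
          · rw [map_zero] at h1
            push_cast
            rw [add_zero] at h1 ⊢
            rw [h1]
            ring
        obtain ⟨m', hm'⟩ := (ZMod.intCast_zmod_eq_zero_iff_dvd Nn p).mp hz
        exact ⟨m', by rw [hq, hm']⟩)
    refine ⟨y, hy, ?_⟩
    rw [← hyeq]
    abel

variable (M') in
/-- the integral `q`-coefficients of an element of the lattice. -/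
noncomputable def intCoeff (F : ↥(CuspForm.intLattice M' 2)) (n : ℕ) : ℤ :=
  Classical.choose ((mem_intLattice_iff' F.1).mp F.2 n)

theorem intCoeff_spec (F : ↥(CuspForm.intLattice M' 2)) (n : ℕ) :
    qCoeff ⇑F.1 n = (intCoeff M' F n : ℂ) :=
  Classical.choose_spec ((mem_intLattice_iff' F.1).mp F.2 n)

variable (M' k) in
/-- the reduction of the `q`-expansion of an integral cusp form, as a power series over `k`. -/
noncomputable def redSeries (F : ↥(CuspForm.intLattice M' 2)) : PowerSeries k :=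
  PowerSeries.mk fun n => (intCoeff M' F n : k)

/-- **[ROLD-Q] RQ5 (b)**, span form: a nonzero power series in the `k`-span of the reductions of
the integral cusp forms of level `M'` which is a formal eigenvector of the `T_ℓ`, `ℓ ∉ S`, with
eigenvalues `a ℓ`, gives `ResOccurs M' p S a`. -/
theorem resOccurs_of_mem_span_redSeries (hp : p.Prime)
    (hS : ∀ ℓ : ℕ, ℓ.Prime → ℓ ∣ M' → ℓ ∈ S) (a : ℕ → ℤ) (β : PowerSeries k)
    (hβ : β ∈ Submodule.span k (Set.range (redSeries M' k))) (hβ0 : β ≠ 0)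
    (hE : ∀ ℓ : ℕ, ℓ.Prime → ℓ ∉ S → ∀ n,
      PowerSeries.coeff (n * ℓ) β +
        (if ℓ ∣ n then (ℓ : k) * PowerSeries.coeff (n / ℓ) β else 0) =
          (a ℓ : k) * PowerSeries.coeff n β) :
    ResOccurs M' p S a := by
  classical
  obtain ⟨c, hc⟩ := Finsupp.mem_span_range_iff_exists_finsupp.mp hβ
  refine resOccurs_of_formal_eigen (k := k) hp hS a c.support (fun F => c F) (fun F => F.1)
    (fun F n => intCoeff M' F n) (fun F _ n => intCoeff_spec F n)
    (fun n => PowerSeries.coeff n β) ?_ ?_ hE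
  · intro n
    rw [← hc, Finsupp.sum, map_sum]
    refine Finset.sum_congr rfl fun F _ => ?_
    rw [map_smul, redSeries, PowerSeries.coeff_mk, smul_eq_mul]
  · by_contra h
    apply hβ0
    ext n
    rw [map_zero]
    by_contra hn
    exact h ⟨n, hn⟩

end Formal

end Fermat.Agent.MP
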