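/-
MP40 — [ROLD-HOST], helper8: **THE FINAL STATEMENT `resOccurs_of_dlog_host`** (contract of msg
1765): on the Legendre host of level `M'` at a prime `p ≥ 5`, `p ∤ M'`: a function
`f₃ ∈ keyFq Ω M'` which is Gauss-integral on the host, whose reduction `fb` is not a `p`-th power
and has all orders divisible by `p`, and whose logarithmic derivative `θ fb / fb` satisfies the
formal Hecke relations for the system `a`, produces `ResOccurs M' p S a`.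
-/
import Mathlib
import Fermat.Agent.MP.ROLDQ_helper8_HostCore
import Fermat.Agent.MP.ROLDGR_helper3_Host
import Fermat.Agent.MP.ROLDGR_helper3_DlogInv

set_option autoImplicit false
set_option linter.unusedSectionVars false
set_option linter.style.haveILetI false
set_option synthInstance.maxHeartbeats 400000
set_option maxHeartbeats 1600000

open AlgebraicCurve IsLocalRing ModularCurve CongruenceSubgroup ModularFormClass

namespace Fermat.Agent.MP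

open Fermat.Agent.FF Fermat.Agent.JA Fermat.Agent.FG Fermat.Agent.MW Fermat.Agent.S36
  Fermat.Agent.X0N Fermat.Agent.X0N.Dict Fermat.Agent.SS Fermat.Agent.DS48

local notation "Ω" => AlgebraicClosure ℚ

noncomputable section

section Fin

variable (M' : ℕ) [NeZero M'] {p : ℕ} [Fact p.Prime] {A : ValuationSubring Ω}
  (hA : A.LiesOverPrime p) (hpM : ¬ p ∣ M') (hp2 : p ≠ 2)

local notation "𝕏" => legGoodRed hA M' hpM hp2

/-- **from a Gauss-integral regular differential `φ h₀ · ω` of the host, `h₀ ∈ FunN M'`, whose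
reduction is `dlog fb`, to `ResOccurs`.** -/
theorem resOccurs_of_regular_lift
    {Γ₀ : Type*} [LinearOrderedCommGroupWithZero Γ₀] {v : Valuation Ω Γ₀}
    (hv : v.valuationSubring = A)
    (DE : Derivation Ω ↥(legE Ω M') ↥(legE Ω M'))
    (hext : ∀ f : FunN M', DE (fullToLegE Ω M' f) = fullToLegE Ω M' (derJ M' f))
    (hD : IsDerDatum DE (derCan DE)) (hκ : (Function.support (derCan DE)).Finite)
    (hn : IsNormalisedDer (legGoodRed hA M' hpM hp2) DE)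
    (S : Set ℕ) (a : ℕ → ℤ) (hS : ∀ ℓ : ℕ, ℓ.Prime → ℓ ∣ M' → ℓ ∈ S)
    (f₃ : ↥(keyFq Ω M')) (hW : fullToLegE Ω M' f₃ ∈ legWE hA M' hp2)
    (hnp : ¬ ∃ g : legEt hA M' hp2, legρ hA M' hp2 ⟨fullToLegE Ω M' f₃, hW⟩ = g ^ p)
    (b : ℕ → ResidueField ↥A)
    (hb : ∀ n : ℕ, b n =
      (eulerD (ResidueField ↥A) (legEtEmb hA M' hp2 (legρ hA M' hp2 ⟨fullToLegE Ω M' f₃, hW⟩)) /
        legEtEmb hA M' hp2 (legρ hA M' hp2 ⟨fullToLegE Ω M' f₃, hW⟩)).coeff (2 * (n : ℤ)))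
    (hE : ∀ ℓ : ℕ, ℓ.Prime → ℓ ∉ S → ∀ n,
      b (n * ℓ) + (if ℓ ∣ n then (ℓ : ResidueField ↥A) * b (n / ℓ) else 0) =
        (a ℓ : ResidueField ↥A) * b n)
    (h₀ : FunN M') (hhW : fullToLegE Ω M' h₀ ∈ legWE hA M' hp2)
    (hhV : fullToLegE Ω M' h₀ ∈ regSpace (derCan DE))
    (hhρ : legρ hA M' hp2 ⟨fullToLegE Ω M' h₀, hhW⟩ =
      derBar (legGoodRed hA M' hpM hp2) DE hv hD hn
          (legρ hA M' hp2 ⟨fullToLegE Ω M' f₃, hW⟩) /
        legρ hA M' hp2 ⟨fullToLegE Ω M' f₃, hW⟩) :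
    ResOccurs M' p S a := by
  classical
  have hp : p.Prime := Fact.out
  haveI : CharP (ResidueField ↥A) p := charP_residueField hA
  haveI : IsAlgClosed (ResidueField ↥A) := Fermat.Agent.DS48.VALSUB.isAlgClosed_residueField A
  set φ := fullToLegE Ω M' with hφdef
  set fb : legEt hA M' hp2 := legρ hA M' hp2 ⟨φ f₃, hW⟩ with hfb
  have hfb0 : fb ≠ 0 := by
    intro h0
    exact hnp ⟨0, by rw [h0, zero_pow hp.ne_zero]⟩
  set Db := derBar (𝕏) DE hv hD hn with hDb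
  have hDbρ : ∀ (f : ↥(legE Ω M')) (hf : f ∈ (𝕏).W) (hDf : DE f ∈ (𝕏).W),
      Db ((𝕏).ρ ⟨f, hf⟩) = (𝕏).ρ ⟨DE f, hDf⟩ := derBar_ρ hv hD hn
  have hDbdat : IsDerDatum Db (canBar (𝕏) (derCan DE)) :=
    isDerDatum_derBar hv hD hκ hn p Db hDbρ
  have hDW : DE (φ f₃) ∈ (𝕏).W := der_mem_W hv hD hn hW
  -- the cusp form
  set ι : Ω →+* ℂ := ((IsAlgClosed.lift : Ω →ₐ[ℚ] ℂ) : Ω →+* ℂ) with hι
  have hreg : φ h₀ ∈ regSpace (derCan DE) := hhV
  obtain ⟨F₀, hF₀⟩ := exists_cuspForm_of_regular M' ι DE hext hreg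
  -- integral basis
  obtain ⟨n, B, m, hm, hspan, hsat⟩ := exists_int_basis M' p hp
  obtain ⟨ct, hct⟩ := hspan F₀
  set G₀ : LaurentSeries Ω := (h₀ : LaurentSeries Ω) * eulerD Ω (jqModC Ω) with hG₀
  have hG₀ι : HahnSeries.ofPowerSeries ℤ ℂ (UpperHalfPlane.qExpansion 1 F₀) = coeffMap ι G₀ := by
    rw [hF₀, hG₀, map_mul, coeffEmb_eulerD_jq ℂ, ← eulerD_coeffMap ι]
    congr 2
    exact (map_jqModC ι).symm
  obtain ⟨c₀, hc₀⟩ := exists_coeff_expansion ι M' B m hm F₀ ct hct G₀ hG₀ι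
  -- the series in the variable `x`
  set Gx : LaurentSeries Ω :=
    ((φ h₀ : ↥(legE Ω M')) : LaurentSeries Ω) * eulerD Ω (jqNModC Ω 2) with hGx
  have hGxeq : Gx = ((2 : ℕ) : LaurentSeries Ω) * qExpand Ω 2 G₀ := by
    rw [hGx, hφdef, coe_fullToLegE, jqNModC, eulerD_qExpand, hG₀, map_mul]
    ring
  have hθJmem : eulerD Ω (jqNModC Ω 2) ∈ fracInt A := eulerD_mem_fracInt (jqNModC_mem_fracInt 2)
  have hhmem : ((φ h₀ : ↥(legE Ω M')) : LaurentSeries Ω) ∈ fracInt A := hhW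
  have hGxmem : Gx ∈ fracInt A := (fracInt A).mul_mem hhmem hθJmem
  have hGxcoeff : ∀ j : ℤ, Gx.coeff j = ∑ i, (2 * c₀ i) * ((extTwo m i j : ℤ) : Ω) := by
    intro j
    have h2 : ∀ Y : LaurentSeries Ω, (((2 : ℕ) : LaurentSeries Ω) * Y).coeff j = 2 * Y.coeff j := by
      intro Y
      rw [Nat.cast_ofNat, two_mul, HahnSeries.coeff_add, two_mul]
    rw [hGxeq, h2]
    by_cases hj : (2 : ℤ) ∣ j
    · obtain ⟨j', rfl⟩ := hj
      have : ((2 : ℕ) : ℤ) * j' = 2 * j' := by norm_num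
      rw [← this, qExpand_coeff_mul, hc₀ j', Finset.mul_sum, this]
      exact Finset.sum_congr rfl fun i _ => by rw [extTwo_two_mul, mul_assoc]
    · rw [qExpand_coeff_of_not_dvd 2 _ (by exact_mod_cast hj), mul_zero]
      symm
      exact Finset.sum_eq_zero fun i _ => by rw [extTwo_of_not_dvd m i hj, Int.cast_zero, mul_zero]
  obtain ⟨c', hc', hred⟩ := fracRed_coeff_of_mem_fracInt p (isSaturatedAt_two hsat)
    (fun i => 2 * c₀ i) Gx hGxcoeff hGxmem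
  -- the reduced logarithmic derivative
  have hDJ : DE (legJE Ω M') = 1 := der_legJE_eq_one M' DE hext
  have hN4 := eulerD_legEtEmb_legρ M' hA hp2 DE hDJ (φ f₃) hW hDW
  have hemb0 : legEtEmb hA M' hp2 fb ≠ 0 := (map_ne_zero (legEtEmb hA M' hp2)).mpr hfb0
  have hkey : eulerD (ResidueField ↥A) (legEtEmb hA M' hp2 fb) / legEtEmb hA M' hp2 fb =
      fracRed A ⟨Gx, hGxmem⟩ := by
    have e1 : (⟨Gx, hGxmem⟩ : fracInt A) =
        ⟨((φ h₀ : ↥(legE Ω M')) : LaurentSeries Ω), hhmem⟩ * ⟨eulerD Ω (jqNModC Ω 2), hθJmem⟩ := rfl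
    rw [e1, map_mul, fracRed_eulerD ⟨jqNModC Ω 2, jqNModC_mem_fracInt 2⟩, fracRed_jqNModC,
      ← legEtEmb_legρ hA M' hp2 ⟨φ h₀, hhW⟩]
    have e2 : legρ hA M' hp2 ⟨φ h₀, hhW⟩ = Db fb / fb := hhρ
    have hDbρ' : Db (legρ hA M' hp2 ⟨φ f₃, hW⟩) = legρ hA M' hp2 ⟨DE (φ f₃), hDW⟩ :=
      hDbρ _ hW hDW
    rw [e2, map_div₀, hfb, hN4, hDbρ', div_mul_eq_mul_div]
  have hbform : ∀ j : ℕ, b j = ∑ i, residue ↥A (c' i) * ((m i j : ℤ) : ResidueField ↥A) := by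
    intro j
    rw [hb j, hkey, hred, ]
    exact Finset.sum_congr rfl fun i _ => by rw [extTwo_two_mul, extZ_natCast]
  -- nonvanishing
  have hb0 : ∃ j, b j ≠ 0 := by
    by_contra hcon
    push Not at hcon
    have hz : ∀ i, residue ↥A (c' i) = 0 :=
      eq_zero_of_saturated p hsat (fun i => residue ↥A (c' i)) (fun j => by rw [← hbform j, hcon j])
    have hGx0 : fracRed A ⟨Gx, hGxmem⟩ = 0 := by
      ext j
      rw [hred, HahnSeries.coeff_zero]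
      exact Finset.sum_eq_zero fun i _ => by rw [hz i, zero_mul]
    rw [hGx0, div_eq_zero_iff] at hkey
    have hθ0 : eulerD (ResidueField ↥A) (legEtEmb hA M' hp2 fb) = 0 := hkey.resolve_right hemb0
    rw [hfb, hN4] at hθ0
    have hJ0 : eulerD (ResidueField ↥A) (jqNModC (ResidueField ↥A) 2) ≠ 0 := by
      rw [eulerD_apply]
      refine eulerFun_jqNModC_ne_zero 2 ?_
      intro h2
      have h3 : ((2 : ℕ) : ResidueField ↥A) = 0 := by exact_mod_cast h2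
      rw [CharP.cast_eq_zero_iff (ResidueField ↥A) p] at h3
      exact hp2 ((Nat.prime_dvd_prime_iff_eq hp Nat.prime_two).mp h3)
    have h4 := (mul_eq_zero.mp hθ0).resolve_right hJ0
    have h5 : legρ hA M' hp2 ⟨DE (φ f₃), hDW⟩ = 0 :=
      (map_eq_zero (legEtEmb hA M' hp2)).mp h4
    have h6 : Db fb = 0 := by
      rw [hfb]
      exact (hDbρ _ hW hDW).trans h5
    have hx : Db (coordRed 𝕏).x ≠ 0 := (hDbdat.spec (𝕏).cuspb (𝕏).τb (𝕏).ord_r_cusp_τ).1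
    exact hnp (exists_pow_eq_of_der_eq_zero p (coordRed 𝕏) (𝕏).τ_separable_red Db hx h6)
  exact resOccurs_of_formal_eigen hp hS a Finset.univ (fun i => residue ↥A (c' i)) B m
    (fun i _ j => hm i j) b (fun j => by rw [hbform j]) hb0 hE


include hpM in
/-- **[ROLD-HOST]** (contract of msg 1765). -/
theorem resOccurs_of_dlog_host (hp3 : p ≠ 3)
    (S : Set ℕ) (a : ℕ → ℤ) (hS : ∀ ℓ : ℕ, ℓ.Prime → ℓ ∣ M' → ℓ ∈ S)
    (f₃ : ↥(keyFq Ω M')) (hW : fullToLegE Ω M' f₃ ∈ legWE hA M' hp2)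
    (hnp : ¬ ∃ g : legEt hA M' hp2, legρ hA M' hp2 ⟨fullToLegE Ω M' f₃, hW⟩ = g ^ p)
    (hord : ∀ Q : Place (ResidueField ↥A) (legEt hA M' hp2),
      (p : ℤ) ∣ Q.ord (legρ hA M' hp2 ⟨fullToLegE Ω M' f₃, hW⟩))
    (b : ℕ → ResidueField ↥A)
    (hb : ∀ n : ℕ, b n =
      (eulerD (ResidueField ↥A) (legEtEmb hA M' hp2 (legρ hA M' hp2 ⟨fullToLegE Ω M' f₃, hW⟩)) /
        legEtEmb hA M' hp2 (legρ hA M' hp2 ⟨fullToLegE Ω M' f₃, hW⟩)).coeff (2 * (n : ℤ)))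
    (hE : ∀ ℓ : ℕ, ℓ.Prime → ℓ ∉ S → ∀ n,
      b (n * ℓ) + (if ℓ ∣ n then (ℓ : ResidueField ↥A) * b (n / ℓ) else 0) =
        (a ℓ : ResidueField ↥A) * b n) :
    ResOccurs M' p S a := by
  classical
  have hp : p.Prime := Fact.out
  haveI : CharP (ResidueField ↥A) p := charP_residueField hA
  haveI : IsAlgClosed (ResidueField ↥A) := Fermat.Agent.DS48.VALSUB.isAlgClosed_residueField A
  obtain ⟨DE, hext⟩ := exists_derivation_extension (fullToLegE Ω M')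
    (finiteAlong_fullToLegE M') (derJ M')
  obtain ⟨hD, hκ, hdeg, hfin, hdim⟩ := legHost_RR hA hpM hp2 hext
  have hn := legHost_isNormalisedDer hA hpM hp2 hext
  have hv : (A.valuation).valuationSubring = A := A.valuationSubring_valuation
  set φ := fullToLegE Ω M' with hφdef
  set fb : legEt hA M' hp2 := legρ hA M' hp2 ⟨φ f₃, hW⟩ with hfb
  have hfb0 : fb ≠ 0 := by
    intro h0
    exact hnp ⟨0, by rw [h0, zero_pow hp.ne_zero]⟩
  have hφ0 : φ f₃ ≠ 0 := (𝕏).ρ_ne_zero_imp_ne_zero hW hfb0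
  set Db := derBar (𝕏) DE hv hD hn with hDb
  have hDbρ : ∀ (f : ↥(legE Ω M')) (hf : f ∈ (𝕏).W) (hDf : DE f ∈ (𝕏).W),
      Db ((𝕏).ρ ⟨f, hf⟩) = (𝕏).ρ ⟨DE f, hDf⟩ := derBar_ρ hv hD hn
  have hDbdat : IsDerDatum Db (canBar (𝕏) (derCan DE)) :=
    isDerDatum_derBar hv hD hκ hn p Db hDbρ
  have hdlog : Db fb / fb ∈ regSpace (canBar (𝕏) (derCan DE)) :=
    dlog_mem_regSpace p hDbdat (𝕏).deg_red hfb0 hord
  -- the invariant Gauss-integral function `h₁ = dlog f₃`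
  have hDW : DE (φ f₃) ∈ (𝕏).W := der_mem_W hv hD hn hW
  have hinvW : (φ f₃)⁻¹ ∈ (𝕏).W := ((𝕏).inv_mem_W_iff hW hφ0).mpr hfb0
  set h₁ : ↥(legE Ω M') := φ (derJ M' f₃ / f₃) with hh₁def
  have hh₁ : h₁ = DE (φ f₃) * (φ f₃)⁻¹ := by
    rw [hh₁def, map_div₀, hext, div_eq_mul_inv]
  have h₁W : h₁ ∈ (𝕏).W := by
    rw [hh₁]
    exact (𝕏).W.mul_mem _ _ hDW hinvW
  have hρinv : (𝕏).ρ ⟨(φ f₃)⁻¹, hinvW⟩ = fb⁻¹ := by
    have h1 : (⟨φ f₃, hW⟩ : ↥(𝕏).W) * ⟨(φ f₃)⁻¹, hinvW⟩ = 1 :=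
      Subtype.ext (mul_inv_cancel₀ hφ0)
    have h2 := congrArg (𝕏).ρ h1
    rw [map_mul, map_one] at h2
    exact eq_inv_of_mul_eq_one_right h2
  have hρh₁ : (𝕏).ρ ⟨h₁, h₁W⟩ = Db fb / fb := by
    have h1 : (⟨h₁, h₁W⟩ : ↥(𝕏).W) = ⟨DE (φ f₃), hDW⟩ * ⟨(φ f₃)⁻¹, hinvW⟩ := Subtype.ext hh₁
    rw [h1, map_mul, ← hDbρ _ hW hDW, hρinv, div_eq_mul_inv]
    rfl
  have hinv : ∀ g ∈ deckGroup (fullToLegE Ω M'), ∀ (f : ↥(legE Ω M'))
      (hf : f ∈ legWE hA M' hp2) (hgf : g • f ∈ legWE hA M' hp2),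
      legρ hA M' hp2 ⟨f, hf⟩ = Db fb / fb → legρ hA M' hp2 ⟨g • f, hgf⟩ = Db fb / fb := by
    intro g hg f hf hgf hρf
    have hgh₁ : g • h₁ = h₁ := by
      obtain ⟨σ, hσ, rfl⟩ := mem_deckGroup.mp hg
      rw [ofAlgAut_smul]
      exact hσ _
    have hgh₁W : g • h₁ ∈ (𝕏).W := by rw [hgh₁]; exact h₁W
    have h1 := ρ_smul_congr (X := 𝕏) (isDeckAut_leg M' hA hpM hp2 hg) hf h₁W hgf hgh₁W
      (hρf.trans hρh₁.symm)
    have h2 : (⟨g • h₁, hgh₁W⟩ : ↥(𝕏).W) = ⟨h₁, h₁W⟩ := Subtype.ext hgh₁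
    rw [h2, hρh₁] at h1
    exact h1
  obtain ⟨h₀, hhW, hhV, hhρ⟩ := legHost_exists_invariant_lift hA hpM hp2 hp3 hext hdlog hinv
  exact resOccurs_of_regular_lift M' hA hpM hp2 hv DE hext hD hκ hn S a hS f₃ hW hnp b hb hE
    h₀ hhW hhV hhρ

end Fin

end

end Fermat.Agent.MP
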