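/-
MP40 — [ROLD-HOST], helper8: **`resOccurs_of_dlog_host` in `q`-currency**: the function
`f₃ ∈ keyFq Ω M' ⊂ Ω((q))` is coefficientwise Gauss-integral as a `q`-series, `F̄ ∈ k((q))` is its
reduction, and `b n` is the `n`-th coefficient of `θ_q F̄ / F̄`.
-/
import Mathlib
import Fermat.Agent.MP.ROLDQ_helper8_HostFin

set_option autoImplicit false
set_option linter.unusedSectionVars false
set_option linter.style.haveILetI false
set_option synthInstance.maxHeartbeats 400000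
set_option maxHeartbeats 800000

open AlgebraicCurve IsLocalRing ModularCurve

namespace Fermat.Agent.MP

open Fermat.Agent.FF Fermat.Agent.JA Fermat.Agent.FG Fermat.Agent.MW Fermat.Agent.S36
  Fermat.Agent.SS

local notation "Ω" => AlgebraicClosure ℚ

noncomputable section

section Gen

theorem coeffMap_qExpand_comm {R S : Type*} [CommRing R] [CommRing S] (f : R →+* S) (n : ℕ)
    [NeZero n] (x : LaurentSeries R) :
    coeffMap f (qExpand R n x) = qExpand S n (coeffMap f x) := by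
  ext k
  by_cases hk : (n : ℤ) ∣ k
  · obtain ⟨m, rfl⟩ := hk
    rw [coeffMap_coeff, qExpand_coeff_mul, qExpand_coeff_mul, coeffMap_coeff]
  · rw [coeffMap_coeff, qExpand_coeff_of_not_dvd n _ hk, qExpand_coeff_of_not_dvd n _ hk, map_zero]

variable {K : Type*} [Field K] {A : ValuationSubring K}

theorem qExpand_mem_fracInt (N : ℕ) [NeZero N] {x : LaurentSeries K} (hx : x ∈ fracInt A) :
    qExpand K N x ∈ fracInt A := by
  obtain ⟨f, g, hg, h⟩ := hx
  refine ⟨qExpand ↥A N f, qExpand ↥A N g, ?_, ?_⟩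
  · show coeffMap (residue ↥A) (qExpand ↥A N g) ≠ 0
    rw [coeffMap_qExpand_comm]
    exact (map_ne_zero (qExpand (ResidueField ↥A) N)).mpr hg
  · show qExpand K N x * coeffMap A.subtype (qExpand ↥A N g) = coeffMap A.subtype (qExpand ↥A N f)
    rw [coeffMap_qExpand_comm, coeffMap_qExpand_comm, ← map_mul]
    exact congrArg _ h

theorem fracRed_qExpand (N : ℕ) [NeZero N] (x : fracInt A) :
    fracRed A ⟨qExpand K N x, qExpand_mem_fracInt N x.2⟩ =
      qExpand (ResidueField ↥A) N (fracRed A x) := by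
  obtain ⟨f, g, hg, h⟩ := x.2
  have hg' : fRed A (qExpand ↥A N g) ≠ 0 := by
    show coeffMap (residue ↥A) (qExpand ↥A N g) ≠ 0
    rw [coeffMap_qExpand_comm]
    exact (map_ne_zero (qExpand (ResidueField ↥A) N)).mpr hg
  have h' : qExpand K N x * fEmb A (qExpand ↥A N g) = fEmb A (qExpand ↥A N f) := by
    show qExpand K N x * coeffMap A.subtype (qExpand ↥A N g) = coeffMap A.subtype (qExpand ↥A N f)
    rw [coeffMap_qExpand_comm, coeffMap_qExpand_comm, ← map_mul]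
    exact congrArg _ h
  rw [fracRed_eq ⟨qExpand K N x, qExpand_mem_fracInt N x.2⟩ _ _ hg' h', fracRed_eq x f g hg h,
    map_div₀]
  congr 1
  · exact coeffMap_qExpand_comm (residue ↥A) N f
  · exact coeffMap_qExpand_comm (residue ↥A) N g

end Gen

section Fin

variable (M' : ℕ) [NeZero M'] {p : ℕ} [Fact p.Prime] {A : ValuationSubring Ω}
  (hA : A.LiesOverPrime p) (hpM : ¬ p ∣ M') (hp2 : p ≠ 2)

/-- a `q`-series of `keyFq Ω M'` which is coefficientwise Gauss-integral is Gauss-integral on the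
host. -/
theorem fullToLegE_mem_legWE_of_mem_fracInt (f₃ : ↥(keyFq Ω M'))
    (hq : (f₃ : LaurentSeries Ω) ∈ fracInt A) : fullToLegE Ω M' f₃ ∈ legWE hA M' hp2 := by
  show ((fullToLegE Ω M' f₃ : ↥(legE Ω M')) : LaurentSeries Ω) ∈ fracInt A
  rw [coe_fullToLegE]
  exact qExpand_mem_fracInt 2 hq

theorem legEtEmb_legρ_fullToLegE (f₃ : ↥(keyFq Ω M'))
    (hq : (f₃ : LaurentSeries Ω) ∈ fracInt A) :
    legEtEmb hA M' hp2 (legρ hA M' hp2
        ⟨fullToLegE Ω M' f₃, fullToLegE_mem_legWE_of_mem_fracInt M' hA hp2 f₃ hq⟩) =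
      qExpand (ResidueField ↥A) 2 (fracRed A ⟨(f₃ : LaurentSeries Ω), hq⟩) := by
  rw [legEtEmb_legρ, ← fracRed_qExpand 2 ⟨(f₃ : LaurentSeries Ω), hq⟩]
  rfl

include hpM in
/-- **[ROLD-HOST] in `q`-currency.** -/
theorem resOccurs_of_dlog_host_q (hp3 : p ≠ 3)
    (S : Set ℕ) (a : ℕ → ℤ) (hS : ∀ ℓ : ℕ, ℓ.Prime → ℓ ∣ M' → ℓ ∈ S)
    (f₃ : ↥(keyFq Ω M')) (hq : (f₃ : LaurentSeries Ω) ∈ fracInt A)
    (hnp : ¬ ∃ g : legEt hA M' hp2, legρ hA M' hp2
      ⟨fullToLegE Ω M' f₃, fullToLegE_mem_legWE_of_mem_fracInt M' hA hp2 f₃ hq⟩ = g ^ p)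
    (hord : ∀ Q : Place (ResidueField ↥A) (legEt hA M' hp2),
      (p : ℤ) ∣ Q.ord (legρ hA M' hp2
        ⟨fullToLegE Ω M' f₃, fullToLegE_mem_legWE_of_mem_fracInt M' hA hp2 f₃ hq⟩))
    (b : ℕ → ResidueField ↥A)
    (hb : ∀ n : ℕ, b n =
      (eulerD (ResidueField ↥A) (fracRed A ⟨(f₃ : LaurentSeries Ω), hq⟩) /
        fracRed A ⟨(f₃ : LaurentSeries Ω), hq⟩).coeff (n : ℤ))
    (hE : ∀ ℓ : ℕ, ℓ.Prime → ℓ ∉ S → ∀ n,
      b (n * ℓ) + (if ℓ ∣ n then (ℓ : ResidueField ↥A) * b (n / ℓ) else 0) =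
        (a ℓ : ResidueField ↥A) * b n) :
    ResOccurs M' p S a := by
  classical
  set Fb := fracRed A ⟨(f₃ : LaurentSeries Ω), hq⟩ with hFb
  refine resOccurs_of_dlog_host M' hA hpM hp2 hp3 S a hS f₃
    (fullToLegE_mem_legWE_of_mem_fracInt M' hA hp2 f₃ hq) hnp hord (fun n => 2 * b n) ?_ ?_
  · intro n
    rw [legEtEmb_legρ_fullToLegE M' hA hp2 f₃ hq, ← hFb, eulerD_qExpand, mul_div_assoc,
      ← map_div₀, hb n]
    have h2 : ∀ (Y : LaurentSeries (ResidueField ↥A)) (j : ℤ),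
        (((2 : ℕ) : LaurentSeries (ResidueField ↥A)) * Y).coeff j = 2 * Y.coeff j := by
      intro Y j
      rw [Nat.cast_ofNat, two_mul, HahnSeries.coeff_add, two_mul]
    rw [h2]
    have : ((2 : ℕ) : ℤ) * (n : ℤ) = 2 * (n : ℤ) := by norm_num
    rw [← this, qExpand_coeff_mul]
  · intro ℓ hℓ hℓS n
    have := hE ℓ hℓ hℓS n
    split_ifs at this ⊢ with hdvd
    · rw [← mul_assoc, mul_comm (ℓ : ResidueField ↥A) 2, mul_assoc, ← mul_add, this]
      ring
    · rw [add_zero] at this ⊢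
      rw [this]
      ring

end Fin

end

end Fermat.Agent.MP
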