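/-
MP40 — [RED-DICT], helper8: the dictionary between the small base `K'` (Gauss valuation of
`R' = baseRing A K'`, reduction `gaussRed` into `k'((q))`) and the currency of [ROLD-HOST] over `Ω`
(`legWE`, `legρ`, `legEtEmb` into `k((x))`, `x ^ 2 = q`).
-/
import Mathlib
import Fermat.Agent.MP.ROLDQ_helper8_HostQ
import Fermat.Agent.MP.KPBASE_lead_Defs
import Fermat.Agent.MP.RQ4Q_helper3_Formal
import Fermat.Agent.FG.EDEF_helper6_Desc
import Fermat.Agent.S35.XPORT_helper7_Main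
import Fermat.Agent.SS.VAL2_helper7_HostTwo

set_option autoImplicit false
set_option linter.unusedSectionVars false
set_option linter.style.haveILetI false
set_option synthInstance.maxHeartbeats 400000
set_option maxHeartbeats 800000

open AlgebraicCurve IsLocalRing ModularCurve

namespace Fermat.Agent.MP

open Fermat.Agent.FF Fermat.Agent.JA Fermat.Agent.FG Fermat.Agent.MW Fermat.Agent.S36
  Fermat.Agent.SS Fermat.Agent.Igusa Fermat.Agent.S35

local notation "Ω" => AlgebraicClosure ℚ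

noncomputable section

section Dict

variable (M : ℕ) [NeZero M] {p : ℕ} [Fact p.Prime] {A : ValuationSubring Ω}
  (hA : A.LiesOverPrime p) (hp2 : p ≠ 2)
  (K' : IntermediateField ℚ Ω) [IsDiscreteValuationRing ↥(baseRing A K')]

/-- the base change of a Gauss-integral `q`-series of level `M` over `K'` is coefficientwise
`A`-integral. -/
theorem redDict_mem_fracInt (w₀ : ↥(keyFq ↥K' M))
    (hw : ((w₀ : ↥(keyFq ↥K' M)) : LaurentSeries ↥K') ∈ gaussInt ↥(baseRing A K') ↥K') :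
    ((keyFqBC M K' w₀ : ↥(keyFq Ω M)) : LaurentSeries Ω) ∈ fracInt A := by
  rw [coe_keyFqBC]
  exact coeffMap_mem_fracInt_of_mem_gaussInt hw

/-- its reduction is the base change of the reduction over `K'`. -/
theorem redDict_fracRed (w₀ : ↥(keyFq ↥K' M))
    (hw : ((w₀ : ↥(keyFq ↥K' M)) : LaurentSeries ↥K') ∈ gaussInt ↥(baseRing A K') ↥K') :
    fracRed A ⟨((keyFqBC M K' w₀ : ↥(keyFq Ω M)) : LaurentSeries Ω),
        redDict_mem_fracInt M K' w₀ hw⟩ =
      coeffMap (baseResidueMap A K')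
        (gaussRed ↥(baseRing A K') ↥K' ⟨((w₀ : ↥(keyFq ↥K' M)) : LaurentSeries ↥K'), hw⟩) :=
  fracRed_coeffMap_of_mem_gaussInt hw

/-- **(i)** the base change is integral on the host over `Ω`. -/
theorem redDict_mem_legWE (w₀ : ↥(keyFq ↥K' M))
    (hw : ((w₀ : ↥(keyFq ↥K' M)) : LaurentSeries ↥K') ∈ gaussInt ↥(baseRing A K') ↥K') :
    fullToLegE Ω M (keyFqBC M K' w₀) ∈ legWE hA M hp2 :=
  fullToLegE_mem_legWE_of_mem_fracInt M hA hp2 _ (redDict_mem_fracInt M K' w₀ hw)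

/-- **(ii)** the reduction on the host over `Ω`, as a series in `x`, is the dilation of the base
change of the reduction over `K'`. -/
theorem redDict_legEtEmb_legρ (w₀ : ↥(keyFq ↥K' M))
    (hw : ((w₀ : ↥(keyFq ↥K' M)) : LaurentSeries ↥K') ∈ gaussInt ↥(baseRing A K') ↥K')
    (hW : fullToLegE Ω M (keyFqBC M K' w₀) ∈ legWE hA M hp2) :
    legEtEmb hA M hp2 (legρ hA M hp2 ⟨fullToLegE Ω M (keyFqBC M K' w₀), hW⟩) =
      qExpand (ResidueField ↥A) 2 (coeffMap (baseResidueMap A K')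
        (gaussRed ↥(baseRing A K') ↥K' ⟨((w₀ : ↥(keyFq ↥K' M)) : LaurentSeries ↥K'), hw⟩)) := by
  rw [← redDict_fracRed M K' w₀ hw]
  exact legEtEmb_legρ_fullToLegE M hA hp2 (keyFqBC M K' w₀) (redDict_mem_fracInt M K' w₀ hw)

end Dict

section Formal

variable {k₁ k₂ : Type*} [Field k₁] [Field k₂]

/-- the logarithmic derivative commutes with coefficientwise maps. -/
theorem dlogθ_coeffMap (φ : k₁ →+* k₂) (Y : LaurentSeries k₁) :
    RQ4Q.dlogθ (coeffMap φ Y) = coeffMap φ (RQ4Q.dlogθ Y) := by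
  rw [RQ4Q.dlogθ_def, RQ4Q.dlogθ_def, eulerD_coeffMap, map_div₀]

/-- the coefficients of even index of the logarithmic derivative of a dilation by `2`. -/
theorem coeff_two_mul_dlogθ_qExpand_two (Y : LaurentSeries k₂) (n : ℤ) :
    (RQ4Q.dlogθ (qExpand k₂ 2 Y)).coeff (2 * n) = 2 * (RQ4Q.dlogθ Y).coeff n := by
  rw [RQ4Q.dlogθ_qExpand]
  have h2 : ∀ (Z : LaurentSeries k₂) (j : ℤ),
      (((2 : ℕ) : LaurentSeries k₂) * Z).coeff j = 2 * Z.coeff j := by
    intro Z j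
    rw [Nat.cast_ofNat, two_mul, HahnSeries.coeff_add, two_mul]
  rw [h2]
  have : ((2 : ℕ) : ℤ) * n = 2 * n := by norm_num
  rw [← this, qExpand_coeff_mul]

end Formal

section Dict2

variable (M : ℕ) [NeZero M] {p : ℕ} [Fact p.Prime] {A : ValuationSubring Ω}
  (hA : A.LiesOverPrime p) (hp2 : p ≠ 2)
  (K' : IntermediateField ℚ Ω) [IsDiscreteValuationRing ↥(baseRing A K')]

/-- **(iii)** the coefficients of the logarithmic derivative on the host over `Ω`, in terms of the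
logarithmic derivative of the reduction over `K'`. -/
theorem redDict_coeff_dlog (w₀ : ↥(keyFq ↥K' M))
    (hw : ((w₀ : ↥(keyFq ↥K' M)) : LaurentSeries ↥K') ∈ gaussInt ↥(baseRing A K') ↥K')
    (hW : fullToLegE Ω M (keyFqBC M K' w₀) ∈ legWE hA M hp2) (n : ℕ) :
    (eulerD (ResidueField ↥A)
        (legEtEmb hA M hp2 (legρ hA M hp2 ⟨fullToLegE Ω M (keyFqBC M K' w₀), hW⟩)) /
      legEtEmb hA M hp2 (legρ hA M hp2 ⟨fullToLegE Ω M (keyFqBC M K' w₀), hW⟩)).coeff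
        (2 * (n : ℤ)) =
      2 * baseResidueMap A K' ((RQ4Q.dlogθ (gaussRed ↥(baseRing A K') ↥K'
        ⟨((w₀ : ↥(keyFq ↥K' M)) : LaurentSeries ↥K'), hw⟩)).coeff (n : ℤ)) := by
  rw [redDict_legEtEmb_legρ M hA hp2 K' w₀ hw hW, ← RQ4Q.dlogθ_def,
    coeff_two_mul_dlogθ_qExpand_two, dlogθ_coeffMap, coeffMap_coeff]

end Dict2

section Bridge

variable (M : ℕ) [NeZero M] {A : ValuationSubring Ω}
  (K' : IntermediateField ℚ Ω) [IsDiscreteValuationRing ↥(baseRing A K')]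
  (h2 : IsUnit (2 : ↥(baseRing A K')))

/-- `x`- versus `q`-currency over the small base: integrality. -/
theorem redDict_val_le_one_iff (w₀ : ↥(keyFq ↥K' M)) :
    (legWinf ↥(baseRing A K') ↥K' h2 M).valuation (fullToLegE ↥K' M w₀) ≤ 1 ↔
      ((w₀ : ↥(keyFq ↥K' M)) : LaurentSeries ↥K') ∈ gaussInt ↥(baseRing A K') ↥K' := by
  rw [ValuationSubring.valuation_le_one_iff]
  show ((fullToLegE ↥K' M w₀ : ↥(legE ↥K' M)) : LaurentSeries ↥K') ∈
    gaussInt ↥(baseRing A K') ↥K' ↔ _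
  rw [coe_fullToLegE]
  exact xport_qExpand_mem_gaussInt_iff _ _ 2 M w₀

/-- `x`- versus `q`-currency over the small base: the maximal ideal. -/
theorem redDict_val_lt_one_iff (w₀ : ↥(keyFq ↥K' M))
    (hw : ((w₀ : ↥(keyFq ↥K' M)) : LaurentSeries ↥K') ∈ gaussInt ↥(baseRing A K') ↥K') :
    (legWinf ↥(baseRing A K') ↥K' h2 M).valuation (fullToLegE ↥K' M w₀) < 1 ↔
      gaussRed ↥(baseRing A K') ↥K' ⟨((w₀ : ↥(keyFq ↥K' M)) : LaurentSeries ↥K'), hw⟩ = 0 := by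
  have hq : qExpand ↥K' 2 ((w₀ : ↥(keyFq ↥K' M)) : LaurentSeries ↥K') ∈
      gaussInt ↥(baseRing A K') ↥K' := (xport_qExpand_mem_gaussInt_iff _ _ 2 M w₀).mpr hw
  have hred : gaussRed ↥(baseRing A K') ↥K'
      ⟨qExpand ↥K' 2 ((w₀ : ↥(keyFq ↥K' M)) : LaurentSeries ↥K'), hq⟩ =
      qExpand _ 2 (gaussRed ↥(baseRing A K') ↥K'
        ⟨((w₀ : ↥(keyFq ↥K' M)) : LaurentSeries ↥K'), hw⟩) := gaussRed_qExpand 2 hw
  unfold legWinf
  rw [gaussValSub_valuation_lt_one_iff]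
  constructor
  · rintro ⟨h, h0⟩
    have h0' : gaussRed ↥(baseRing A K') ↥K'
        ⟨qExpand ↥K' 2 ((w₀ : ↥(keyFq ↥K' M)) : LaurentSeries ↥K'), hq⟩ = 0 := h0
    rw [hred] at h0'
    exact (map_eq_zero _).mp h0'
  · intro h0
    refine ⟨hq, ?_⟩
    show gaussRed ↥(baseRing A K') ↥K'
        ⟨qExpand ↥K' 2 ((w₀ : ↥(keyFq ↥K' M)) : LaurentSeries ↥K'), hq⟩ = 0
    rw [hred, h0, map_zero]

/-- `x`- versus `q`-currency over the small base: units. -/
theorem redDict_val_eq_one_iff (w₀ : ↥(keyFq ↥K' M))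
    (hw : ((w₀ : ↥(keyFq ↥K' M)) : LaurentSeries ↥K') ∈ gaussInt ↥(baseRing A K') ↥K') :
    (legWinf ↥(baseRing A K') ↥K' h2 M).valuation (fullToLegE ↥K' M w₀) = 1 ↔
      gaussRed ↥(baseRing A K') ↥K' ⟨((w₀ : ↥(keyFq ↥K' M)) : LaurentSeries ↥K'), hw⟩ ≠ 0 := by
  rw [Ne, ← redDict_val_lt_one_iff M K' h2 w₀ hw]
  have hle := (redDict_val_le_one_iff M K' h2 w₀).mpr hw
  constructor
  · intro h1 hlt
    rw [h1] at hlt
    exact lt_irrefl _ hlt
  · intro hnlt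
    exact le_antisymm hle (not_lt.mp hnlt)

/-- a unit of `V_M` is Gauss-integral with non-zero reduction. -/
theorem redDict_exists_of_val_eq_one (w₀ : ↥(keyFq ↥K' M))
    (h1 : (legWinf ↥(baseRing A K') ↥K' h2 M).valuation (fullToLegE ↥K' M w₀) = 1) :
    ∃ hw : ((w₀ : ↥(keyFq ↥K' M)) : LaurentSeries ↥K') ∈ gaussInt ↥(baseRing A K') ↥K',
      gaussRed ↥(baseRing A K') ↥K' ⟨((w₀ : ↥(keyFq ↥K' M)) : LaurentSeries ↥K'), hw⟩ ≠ 0 := by
  have hw := (redDict_val_le_one_iff M K' h2 w₀).mp h1.le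
  exact ⟨hw, (redDict_val_eq_one_iff M K' h2 w₀ hw).mp h1⟩

end Bridge

end

end Fermat.Agent.MP
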