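/-
MP40 (row 38: S44 / S40) — helper2 — **[KEYPEU-DESC], base change of the sheet `W_0`, abstract form**.

Two two-sheeted charts (`SS.IsTwoSheet`) over discrete valuation rings `R₁ → R₂`, and a ring
homomorphism `ι : E₁ → E₂` of the hosts compatible with the coordinates `j`.  If `ι` pulls the
sheet `W_∞` back to the sheet `W_∞` and the Kronecker congruences hold upstairs for an element in
the image of `ι`, then `ι` pulls the sheet `W_0` back to the sheet `W_0`.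
(The pull-back of `W_0` restricts to the Gauss valuation ring of `K₁(j)`, hence is one of the two
sheets; it is not `W_∞` because `(j - b ^ q)⁻¹` lies in `W_∞` but not in `W_0`.)
-/
import Mathlib
import Fermat.Agent.SS.VERT_helper4
import Fermat.Agent.MP.KPBASE_lead_Norm

set_option autoImplicit false
set_option linter.unusedSectionVars false
set_option linter.unusedVariables false
set_option linter.style.haveILetI false

open Polynomial

namespace Fermat.Agent.MP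

open Fermat.Agent.SS Fermat.Agent.JA

section Poly

variable {R₁ R₂ E₁ E₂ : Type*} [CommRing R₁] [CommRing R₂] [Field E₁] [Field E₂]
  [Algebra R₁ E₁] [Algebra R₂ E₂]

/-- a ring homomorphism over `φ : R₁ → R₂` commutes with the evaluation of polynomials. -/
theorem map_aeval_eq_aeval_map (φ : R₁ →+* R₂) (ι : E₁ →+* E₂)
    (hιR : ∀ r, ι (algebraMap R₁ E₁ r) = algebraMap R₂ E₂ (φ r)) (x : E₁) (f : R₁[X]) :
    ι (aeval x f) = aeval (ι x) (f.map φ) := by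
  rw [aeval_def, aeval_def, hom_eval₂, eval₂_map]
  congr 1
  exact RingHom.ext hιR

end Poly

section TwoModels

variable {R₁ : Type*} [CommRing R₁] [IsDomain R₁] [IsDiscreteValuationRing R₁] [CharZero R₁]
  {K₁ : Type*} [Field K₁] [Algebra R₁ K₁] [IsFractionRing R₁ K₁]
  {F₁ : Type*} [Field F₁] [Algebra K₁ F₁] [Algebra R₁ F₁] [IsScalarTower R₁ K₁ F₁]
  {E₁ : Type*} [Field E₁] [Algebra F₁ E₁] [Algebra R₁ E₁] [IsScalarTower R₁ F₁ E₁]
  [FiniteDimensional F₁ E₁]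
  {R₂ : Type*} [CommRing R₂] [IsDomain R₂] [IsDiscreteValuationRing R₂] [CharZero R₂]
  {K₂ : Type*} [Field K₂] [Algebra R₂ K₂] [IsFractionRing R₂ K₂]
  {F₂ : Type*} [Field F₂] [Algebra K₂ F₂] [Algebra R₂ F₂] [IsScalarTower R₂ K₂ F₂]
  {E₂ : Type*} [Field E₂] [Algebra F₂ E₂] [Algebra R₂ E₂] [IsScalarTower R₂ F₂ E₂]
  [FiniteDimensional F₂ E₂]
  {π₁ : R₁} {j₁ : F₁} {Winf₁ W0₁ : ValuationSubring E₁}
  {π₂ : R₂} {j₂ : F₂} {Winf₂ W0₂ : ValuationSubring E₂}

/-- the pull-back of a valuation subring restricting to the Gauss valuation ring of `K₂(j₂)`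
restricts to the Gauss valuation ring of `K₁(j₁)`. -/
theorem isGaussAt_comap_of_isGaussAt (hπ₁ : Irreducible π₁) (hπ₂ : Irreducible π₂)
    (φ : R₁ →+* R₂) (hφ : Function.Injective φ) (hφπ : π₂ ∣ φ π₁) (ι : E₁ →+* E₂)
    (hιR : ∀ r, ι (algebraMap R₁ E₁ r) = algebraMap R₂ E₂ (φ r))
    (hinj₂ : Function.Injective (algebraMap R₂ E₂))
    (hιj : ι (algebraMap F₁ E₁ j₁) = algebraMap F₂ E₂ j₂) {W : ValuationSubring E₂}
    (hW : IsGaussAt R₂ π₂ j₂ (W.comap (algebraMap F₂ E₂))) :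
    IsGaussAt R₁ π₁ j₁ ((W.comap ι).comap (algebraMap F₁ E₁)) := by
  have key : ∀ f : R₁[X], ι (algebraMap F₁ E₁ (aeval j₁ f)) =
      algebraMap F₂ E₂ (aeval j₂ (f.map φ)) := by
    intro f
    rw [← aeval_algebraMap_apply, ← aeval_algebraMap_apply, map_aeval_eq_aeval_map φ ι hιR, hιj]
  refine ⟨fun f => ?_, ?_, fun f hf => ?_⟩
  · show ι (algebraMap F₁ E₁ (aeval j₁ f)) ∈ W
    rw [key]
    exact hW.1 (f.map φ)
  · intro hmem
    have h1 : ι (algebraMap F₁ E₁ (algebraMap R₁ F₁ π₁)⁻¹) ∈ W := hmem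
    rw [map_inv₀, map_inv₀, ← IsScalarTower.algebraMap_apply R₁ F₁ E₁, hιR] at h1
    obtain ⟨w, hw⟩ := hφπ
    have hφπ0 : φ π₁ ≠ 0 := fun h0 => hπ₁.ne_zero (hφ (by rw [h0, map_zero]))
    have hw0 : algebraMap R₂ E₂ (φ π₁) ≠ 0 := by
      intro h0
      exact hφπ0 (hinj₂ (by rw [h0, map_zero]))
    have h2 : algebraMap R₂ E₂ w ∈ W := by
      have := hW.1 (C w)
      rw [aeval_C] at this
      have h3 : algebraMap F₂ E₂ (algebraMap R₂ F₂ w) ∈ W := this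
      rwa [← IsScalarTower.algebraMap_apply R₂ F₂ E₂] at h3
    have h4 : (algebraMap R₂ E₂ π₂)⁻¹ = (algebraMap R₂ E₂ (φ π₁))⁻¹ * algebraMap R₂ E₂ w := by
      have hπ0 : algebraMap R₂ E₂ π₂ ≠ 0 := by
        intro h0
        apply hw0
        rw [hw, map_mul, h0, zero_mul]
      rw [hw, map_mul] at hw0 ⊢
      have hww : algebraMap R₂ E₂ w ≠ 0 := right_ne_zero_of_mul hw0
      field_simp
    apply hW.2.1
    show algebraMap F₂ E₂ (algebraMap R₂ F₂ π₂)⁻¹ ∈ W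
    rw [map_inv₀, ← IsScalarTower.algebraMap_apply R₂ F₂ E₂, h4]
    exact W.mul_mem _ _ h1 h2
  · show ι (algebraMap F₁ E₁ (aeval j₁ f)⁻¹) ∈ W
    rw [map_inv₀, map_inv₀, key, ← map_inv₀]
    refine hW.2.2 (f.map φ) ?_
    intro hdvd
    apply hf
    rw [C_dvd_iff_dvd_coeff] at hdvd ⊢
    intro i
    by_contra hni
    have hu : IsUnit (f.coeff i) := by
      by_contra hnu
      have hmem : f.coeff i ∈ IsLocalRing.maximalIdeal R₁ := (IsLocalRing.mem_maximalIdeal _).2 hnu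
      rw [hπ₁.maximalIdeal_eq, Ideal.mem_span_singleton] at hmem
      exact hni hmem
    have h1 := hdvd i
    rw [coeff_map] at h1
    exact hπ₂.not_isUnit (isUnit_of_dvd_unit h1 (hu.map φ))

/-- **base change of the sheet `W_0`**: if `ι` pulls `W_∞` back to `W_∞`, then it pulls `W_0` back
to `W_0`. -/
theorem comap_zero_eq_of_isTwoSheet (h₁ : IsTwoSheet π₁ j₁ Winf₁ W0₁)
    (h₂ : IsTwoSheet π₂ j₂ Winf₂ W0₂) (hπ₁ : Irreducible π₁) (hπ₂ : Irreducible π₂)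
    (φ : R₁ →+* R₂) (hφ : Function.Injective φ) (hφπ : π₂ ∣ φ π₁) (ι : E₁ →+* E₂)
    (hιR : ∀ r, ι (algebraMap R₁ E₁ r) = algebraMap R₂ E₂ (φ r))
    (hinj₂ : Function.Injective (algebraMap R₂ E₂))
    (hιj : ι (algebraMap F₁ E₁ j₁) = algebraMap F₂ E₂ j₂) {q : ℕ} (hq : 2 ≤ q) (b₁ : E₁)
    (hkinf : Winf₂.valuation (ι b₁ - algebraMap F₂ E₂ j₂ ^ q) < 1)
    (hkzero : W0₂.valuation (algebraMap F₂ E₂ j₂ - ι b₁ ^ q) < 1)
    (hinf : Winf₂.comap ι = Winf₁) : W0₂.comap ι = W0₁ := by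
  have hV := isGaussAt_comap_of_isGaussAt hπ₁ hπ₂ φ hφ hφπ ι hιR hinj₂ hιj h₂.gauss_zero
  rcases h₁.only _ hV with h | h
  · exfalso
    set a₂ : E₂ := algebraMap F₂ E₂ j₂ with ha₂
    set b₂ : E₂ := ι b₁ with hb₂
    -- `a₂`, `b₂` lie in `W_∞`
    have ha₂mem : a₂ ∈ Winf₂ := by
      have := h₂.gauss_inf.1 X
      rwa [aeval_X] at this
    have hb₂mem : b₂ ∈ Winf₂ := by
      have e : b₂ = (b₂ - a₂ ^ q) + a₂ ^ q := by ring
      rw [e]
      exact Winf₂.add_mem _ _ ((ValuationSubring.valuation_le_one_iff _ _).1 hkinf.le)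
        (pow_mem ha₂mem q)
    -- `a₂ - a₂ ^ (q * q)` is a unit of `W_∞`
    have hpoly : ¬ (C π₂ ∣ (X - X ^ (q * q) : R₂[X])) := by
      intro hdvd
      rw [C_dvd_iff_dvd_coeff] at hdvd
      have h1 := hdvd 1
      have hqq : 1 ≠ q * q := by nlinarith
      rw [coeff_sub, coeff_X_one, coeff_X_pow, if_neg hqq, sub_zero] at h1
      exact hπ₂.not_isUnit (isUnit_of_dvd_one h1)
    have hval1 : Winf₂.valuation (a₂ - a₂ ^ (q * q)) = 1 := by
      have e : a₂ - a₂ ^ (q * q) = algebraMap F₂ E₂ (aeval j₂ (X - X ^ (q * q) : R₂[X])) := by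
        rw [map_sub, map_pow, aeval_X, map_sub, map_pow]
      rw [e]
      have h1 := h₂.gauss_inf.1 (X - X ^ (q * q))
      have h2 := h₂.gauss_inf.2.2 _ hpoly
      have h3 : algebraMap F₂ E₂ (aeval j₂ (X - X ^ (q * q) : R₂[X])) ∈ Winf₂ := h1
      have h4 : (algebraMap F₂ E₂ (aeval j₂ (X - X ^ (q * q) : R₂[X])))⁻¹ ∈ Winf₂ := by
        have : algebraMap F₂ E₂ (aeval j₂ (X - X ^ (q * q) : R₂[X]))⁻¹ ∈ Winf₂ := h2
        rwa [map_inv₀] at this
      have hne : algebraMap F₂ E₂ (aeval j₂ (X - X ^ (q * q) : R₂[X])) ≠ 0 := by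
        intro h0
        have hpoly' : ¬ (C π₂ ∣ (X - X ^ (q * q) + C π₂ : R₂[X])) := by
          intro hdvd
          exact hpoly ((dvd_add_left (dvd_refl _)).1 hdvd)
        have h7 := h₂.gauss_inf.2.2 _ hpoly'
        have h8 : algebraMap F₂ E₂ (aeval j₂ (X - X ^ (q * q) + C π₂ : R₂[X]))⁻¹ ∈ Winf₂ := h7
        have h0' : aeval j₂ (X - X ^ (q * q) : R₂[X]) = 0 :=
          (map_eq_zero (algebraMap F₂ E₂)).1 h0
        rw [map_add, h0', zero_add, aeval_C] at h8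
        exact h₂.gauss_inf.2.1 h8
      refine le_antisymm ((ValuationSubring.valuation_le_one_iff _ _).2 h3) ?_
      have h5 := (ValuationSubring.valuation_le_one_iff _ _).2 h4
      rw [map_inv₀] at h5
      by_contra hlt
      rw [not_le] at hlt
      have h6 : Winf₂.valuation (algebraMap F₂ E₂ (aeval j₂ (X - X ^ (q * q) : R₂[X]))) ≠ 0 :=
        (_root_.map_ne_zero _).2 hne
      exact absurd h5 (not_le.2 ((one_lt_inv₀ (zero_lt_iff.2 h6)).2 hlt))
    -- `z = a₂ - b₂ ^ q` is a unit of `W_∞`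
    have hpow : Winf₂.valuation (b₂ ^ q - (a₂ ^ q) ^ q) < 1 :=
      kp_val_pow_sub_pow_lt Winf₂ hb₂mem (pow_mem ha₂mem q) hkinf q
    have hz1 : Winf₂.valuation (a₂ - b₂ ^ q) = 1 := by
      refine kp_val_eq_one_of_sub_lt Winf₂ hval1 ?_
      have e : a₂ - a₂ ^ (q * q) - (a₂ - b₂ ^ q) = b₂ ^ q - (a₂ ^ q) ^ q := by
        rw [pow_mul]
        ring
      rw [e]
      exact hpow
    -- the inverse of `z` comes from `E₁`
    set z₁ : E₁ := algebraMap F₁ E₁ j₁ - b₁ ^ q with hz₁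
    have hιz : ι z₁⁻¹ = (a₂ - b₂ ^ q)⁻¹ := by
      rw [map_inv₀, hz₁, map_sub, map_pow, hιj]
    have hmem1 : z₁⁻¹ ∈ Winf₂.comap ι := by
      show ι z₁⁻¹ ∈ Winf₂
      rw [hιz, ← ValuationSubring.valuation_le_one_iff, map_inv₀, hz1, inv_one]
    rw [hinf, ← h] at hmem1
    have hmem2 : ι z₁⁻¹ ∈ W0₂ := hmem1
    rw [hιz, ← ValuationSubring.valuation_le_one_iff, map_inv₀] at hmem2
    have hz0 : W0₂.valuation (a₂ - b₂ ^ q) ≠ 0 := by
      intro h0
      rw [map_eq_zero] at h0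
      rw [h0, map_zero] at hz1
      exact zero_ne_one hz1
    exact absurd hmem2 (not_le.2 ((one_lt_inv₀ (zero_lt_iff.2 hz0)).2 hkzero))
  · exact h

end TwoModels

end Fermat.Agent.MP
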