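/-
MP40 (row 38: S44 / S40) — helper2 — **[KEYPEU-DESC], base change of the two sheets of the Legendre
model between two bases `K' ≤ K₂`**.

`K' ≤ K₂` two bases at `p` inside `Ω`, `R' = A ∩ K'`, `R₂ = A ∩ K₂`; `legIncl N hle` the
coefficientwise map `E_N(K') → E_N(K₂)`.

* `comap_legWinf` : `W_∞(K₂)` pulls back to `W_∞(K')`;
* `comap_legW0` : `W_0(K₂)` pulls back to `W_0(K')` (through `comap_zero_eq_of_isTwoSheet`);
* `ValDepth.legIncl` : `ValDepth` along a sheet goes up from `K'` to `K₂` (`ϖ' = u ϖ₂ ^ e`, depth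
  `N ↦ e N`).
-/
import Mathlib
import Fermat.Agent.MP.KPDESC_helper2_SheetAbs
import Fermat.Agent.NP.NEWBASE_helper7_Main
import Fermat.Agent.JA.BCDEG_helper7

set_option autoImplicit false
set_option linter.unusedSectionVars false
set_option linter.unusedVariables false
set_option linter.style.haveILetI false
set_option synthInstance.maxHeartbeats 400000

open HahnSeries IntermediateField AlgebraicCurve ModularCurve IsLocalRing

namespace Fermat.Agent.MP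

open Fermat.Agent.JA Fermat.Agent.FF Fermat.Agent.SS Fermat.Agent.S35 Fermat.Agent.Igusa
  Fermat.Agent.NP

open scoped Fermat.Agent.JA.Host

/-- `Ω = AlgebraicClosure ℚ`. -/
local notation "Ω" => AlgebraicClosure ℚ

section Generic

variable {E₁ E₂ : Type*} [Field E₁] [Field E₂]

/-- a local homomorphism of valuation rings induces an equality of valuation subrings. -/
theorem comap_eq_of_local (ι : E₁ →+* E₂) (V₁ : ValuationSubring E₁) (V₂ : ValuationSubring E₂)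
    (h1 : ∀ x ∈ V₁, ι x ∈ V₂) (h2 : ∀ x : E₁, V₁.valuation x < 1 → V₂.valuation (ι x) < 1) :
    V₂.comap ι = V₁ := by
  ext x
  rw [ValuationSubring.mem_comap]
  refine ⟨fun hx => ?_, h1 x⟩
  by_contra hx1
  rw [← ValuationSubring.valuation_le_one_iff, not_le] at hx1
  have hx0 : x ≠ 0 := by
    rintro rfl
    rw [map_zero] at hx1
    exact absurd hx1 (by simp)
  have h3 : V₁.valuation x⁻¹ < 1 := by
    rw [map_inv₀]
    exact inv_lt_one_of_one_lt₀ hx1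
  have h4 := h2 _ h3
  rw [map_inv₀, map_inv₀] at h4
  have h5 : V₂.valuation (ι x) ≤ 1 := (ValuationSubring.valuation_le_one_iff _ _).2 hx
  have h6 : V₂.valuation (ι x) ≠ 0 := (_root_.map_ne_zero _).2 ((_root_.map_ne_zero ι).2 hx0)
  exact absurd h4 (not_lt.2 ((one_le_inv₀ (zero_lt_iff.2 h6)).2 h5))

end Generic

section Gauss

variable {R₁ : Type*} [CommRing R₁] [IsDomain R₁] [IsDiscreteValuationRing R₁]
  {L₁ : Type*} [Field L₁] [Algebra R₁ L₁] [IsFractionRing R₁ L₁]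
  {R₂ : Type*} [CommRing R₂] [IsDomain R₂] [IsDiscreteValuationRing R₂]
  {L₂ : Type*} [Field L₂] [Algebra R₂ L₂] [IsFractionRing R₂ L₂]
  (τ : L₁ →+* L₂) (τR : R₁ →+* R₂)
  (hτ : ∀ r : R₁, τ (algebraMap R₁ L₁ r) = algebraMap R₂ L₂ (τR r))

include hτ in
theorem coeffMap_emb_hom (f : LaurentSeries R₁) :
    coeffMap τ (emb R₁ L₁ f) = emb R₂ L₂ (coeffMap τR f) := by
  rw [emb, emb, coeffMap_coeffMap, coeffMap_coeffMap]
  exact coeffMap_congr (RingHom.ext hτ) f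

theorem red_coeffMap_ne_zero (g : LaurentSeries R₁) (hg : red R₁ g ≠ 0) :
    red R₂ (coeffMap τR g) ≠ 0 := by
  intro h0
  apply hg
  ext n
  have h1 := congrArg (fun s => HahnSeries.coeff s n) h0
  simp only [red_coeff, coeffMap_coeff, HahnSeries.coeff_zero] at h1 ⊢
  by_contra hne
  have hu : IsUnit (g.coeff n) := by
    by_contra hnu
    exact hne ((IsLocalRing.residue_eq_zero_iff _).2 ((IsLocalRing.mem_maximalIdeal _).2 hnu))
  have hu2 : IsUnit (τR (g.coeff n)) := hu.map τR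
  have h2 := (IsLocalRing.residue_eq_zero_iff _).1 h1
  exact (IsLocalRing.mem_maximalIdeal _).1 h2 hu2

include hτ in
/-- the coefficientwise map of a local homomorphism of discrete valuation rings preserves the
Gauss valuation rings. -/
theorem coeffMap_mem_gaussInt_hom {x : LaurentSeries L₁} (hx : x ∈ gaussInt R₁ L₁) :
    coeffMap τ x ∈ gaussInt R₂ L₂ := by
  obtain ⟨f, g, hg, h⟩ := hx
  refine ⟨coeffMap τR f, coeffMap τR g, red_coeffMap_ne_zero τR g hg, ?_⟩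
  rw [← coeffMap_emb_hom τ τR hτ, ← coeffMap_emb_hom τ τR hτ, ← map_mul, h]

end Gauss

section Incl

variable {K' K₂ : IntermediateField ℚ Ω} (hle : K' ≤ K₂)

/-- the inclusion of two intermediate fields as a ring homomorphism. -/
noncomputable def baseIncl : ↥K' →+* ↥K₂ := (IntermediateField.inclusion hle).toRingHom

@[simp] theorem coe_baseIncl (c : ↥K') : ((baseIncl hle c : ↥K₂) : Ω) = (c : Ω) := rfl

theorem algebraMap_baseIncl (c : ↥K') : algebraMap ↥K₂ Ω (baseIncl hle c) = algebraMap ↥K' Ω c :=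
  rfl

variable (A : ValuationSubring Ω)

/-- the inclusion of the base rings. -/
noncomputable def baseRingIncl : ↥(baseRing A K') →+* ↥(baseRing A K₂) where
  toFun r := ⟨baseIncl hle (r : ↥K'), mem_baseRing_iff.2 (mem_baseRing_iff.1 r.2)⟩
  map_one' := rfl
  map_mul' _ _ := rfl
  map_zero' := rfl
  map_add' _ _ := rfl

@[simp] theorem coe_baseRingIncl (r : ↥(baseRing A K')) :
    ((baseRingIncl hle A r : ↥(baseRing A K₂)) : ↥K₂) = baseIncl hle (r : ↥K') := rfl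

theorem baseRingIncl_injective : Function.Injective (baseRingIncl hle A) := by
  intro a b h
  apply Subtype.ext
  apply Subtype.ext
  have := congrArg (fun r : ↥(baseRing A K₂) => (((r : ↥K₂)) : Ω)) h
  exact this

theorem baseIncl_algebraMap_baseRing (r : ↥(baseRing A K')) :
    baseIncl hle (algebraMap ↥(baseRing A K') ↥K' r) =
      algebraMap ↥(baseRing A K₂) ↥K₂ (baseRingIncl hle A r) := rfl

variable (N : ℕ) [NeZero N]

/-- the coefficientwise map `E_N(K') → E_N(K₂)` of the Legendre hosts. -/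
noncomputable def legIncl : ↥(legE ↥K' N) →+* ↥(legE ↥K₂ N) :=
  coeffHom (baseIncl hle) (legE ↥K' N) (legE ↥K₂ N)
    (fun _ hx => coeffMap_mem_legE (baseIncl hle) N hx)

theorem coe_legIncl (x : ↥(legE ↥K' N)) :
    ((legIncl hle N x : ↥(legE ↥K₂ N)) : LaurentSeries ↥K₂) =
      coeffMap (baseIncl hle) (x : LaurentSeries ↥K') := rfl

theorem legIncl_algebraMap (c : ↥K') :
    legIncl hle N (algebraMap ↥K' ↥(legE ↥K' N) c) =
      algebraMap ↥K₂ ↥(legE ↥K₂ N) (baseIncl hle c) :=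
  coeffHom_algebraMap _ _ _ _ c

/-- base change to `Ω` factors through `legIncl`. -/
theorem legBC_legIncl (x : ↥(legE ↥K' N)) : legBC N K₂ (legIncl hle N x) = legBC N K' x := by
  apply Subtype.ext
  rw [coe_legBC, coe_legIncl, coe_legBC, coeffMap_coeffMap]
  rfl

theorem legIncl_injective : Function.Injective (legIncl hle N) := (legIncl hle N).injective

end Incl

section Sheets

variable {K' K₂ : IntermediateField ℚ Ω} (hle : K' ≤ K₂) (A : ValuationSubring Ω)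
  [IsDiscreteValuationRing ↥(baseRing A K')] [IsDiscreteValuationRing ↥(baseRing A K₂)]

/-- the image of a uniformizer of `R'` is divisible by a uniformizer of `R₂`. -/
theorem dvd_baseRingIncl_of_irreducible {ϖ' : ↥(baseRing A K')} (hϖ' : Irreducible ϖ')
    {ϖ₂ : ↥(baseRing A K₂)} (hϖ₂ : Irreducible ϖ₂) : ϖ₂ ∣ baseRingIncl hle A ϖ' := by
  have h1 : ϖ' ∈ IsLocalRing.maximalIdeal ↥(baseRing A K') :=
    (IsLocalRing.mem_maximalIdeal _).2 hϖ'.not_isUnit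
  rw [mem_maximalIdeal_baseRing_iff] at h1
  have h2 : baseRingIncl hle A ϖ' ∈ IsLocalRing.maximalIdeal ↥(baseRing A K₂) := by
    rw [mem_maximalIdeal_baseRing_iff]
    exact h1
  rw [hϖ₂.maximalIdeal_eq, Ideal.mem_span_singleton] at h2
  exact h2

variable (h2' : IsUnit (2 : ↥(baseRing A K'))) (h2 : IsUnit (2 : ↥(baseRing A K₂)))
  (N : ℕ) [NeZero N]

theorem legIncl_mem_legWinf {x : ↥(legE ↥K' N)}
    (hx : x ∈ legWinf ↥(baseRing A K') ↥K' h2' N) :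
    legIncl hle N x ∈ legWinf ↥(baseRing A K₂) ↥K₂ h2 N := by
  show ((legIncl hle N x : ↥(legE ↥K₂ N)) : LaurentSeries ↥K₂) ∈ gaussInt ↥(baseRing A K₂) ↥K₂
  rw [coe_legIncl]
  exact coeffMap_mem_gaussInt_hom (baseIncl hle) (baseRingIncl hle A) (fun r => rfl) hx

/-- **base change of the sheet `W_∞`.** -/
theorem comap_legWinf :
    (legWinf ↥(baseRing A K₂) ↥K₂ h2 N).comap (legIncl hle N) =
      legWinf ↥(baseRing A K') ↥K' h2' N := by
  obtain ⟨ϖ', hϖ'⟩ := IsDiscreteValuationRing.exists_irreducible ↥(baseRing A K')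
  obtain ⟨ϖ₂, hϖ₂⟩ := IsDiscreteValuationRing.exists_irreducible ↥(baseRing A K₂)
  refine comap_eq_of_local _ _ _ (fun x hx => legIncl_mem_legWinf hle A h2' h2 N hx) ?_
  intro x hx
  have hxmem : x ∈ legWinf ↥(baseRing A K') ↥K' h2' N :=
    (ValuationSubring.valuation_le_one_iff _ _).1 hx.le
  have h1 : (⟨x, hxmem⟩ : ↥(legWinf ↥(baseRing A K') ↥K' h2' N)) ∈
      IsLocalRing.maximalIdeal ↥(legWinf ↥(baseRing A K') ↥K' h2' N) :=
    (ValuationSubring.valuation_lt_one_iff _ _).2 hx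
  have hmax := maximalIdeal_gaussValSub hϖ' (legE ↥K' N)
    (legE_le_gaussField ↥(baseRing A K') ↥K' h2' N)
  have h1' : (⟨x, hxmem⟩ : ↥(gaussValSub ↥(baseRing A K') ↥K' (legE ↥K' N)
      (legE_le_gaussField ↥(baseRing A K') ↥K' h2' N))) ∈ IsLocalRing.maximalIdeal _ := h1
  rw [hmax, Ideal.mem_span_singleton] at h1'
  obtain ⟨y, hy⟩ := h1'
  have hxy : x = algebraMap ↥K' ↥(legE ↥K' N) (algebraMap ↥(baseRing A K') ↥K' ϖ') * (y : ↥(legE ↥K' N)) :=
    congrArg Subtype.val hy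
  obtain ⟨w, hw⟩ := dvd_baseRingIncl_of_irreducible hle A hϖ' hϖ₂
  have hιx : legIncl hle N x =
      algebraMap ↥K₂ ↥(legE ↥K₂ N) (algebraMap ↥(baseRing A K₂) ↥K₂ ϖ₂) *
        (algebraMap ↥K₂ ↥(legE ↥K₂ N) (algebraMap ↥(baseRing A K₂) ↥K₂ w) *
          legIncl hle N (y : ↥(legE ↥K' N))) := by
    rw [hxy, map_mul, legIncl_algebraMap, baseIncl_algebraMap_baseRing, hw, map_mul, map_mul,
      mul_assoc]
  have hmem2 : (algebraMap ↥K₂ ↥(legE ↥K₂ N) (algebraMap ↥(baseRing A K₂) ↥K₂ w) *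
      legIncl hle N (y : ↥(legE ↥K' N))) ∈ legWinf ↥(baseRing A K₂) ↥K₂ h2 N :=
    (legWinf ↥(baseRing A K₂) ↥K₂ h2 N).mul_mem _ _
      (gaussValSubC (legE ↥K₂ N) (legE_le_gaussField ↥(baseRing A K₂) ↥K₂ h2 N) w).2
      (legIncl_mem_legWinf hle A h2' h2 N y.2)
  have hmax₂ := maximalIdeal_gaussValSub hϖ₂ (legE ↥K₂ N)
    (legE_le_gaussField ↥(baseRing A K₂) ↥K₂ h2 N)
  have hmem3 : legIncl hle N x ∈ legWinf ↥(baseRing A K₂) ↥K₂ h2 N :=
    legIncl_mem_legWinf hle A h2' h2 N hxmem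
  have h3 : (⟨legIncl hle N x, hmem3⟩ : ↥(gaussValSub ↥(baseRing A K₂) ↥K₂ (legE ↥K₂ N)
      (legE_le_gaussField ↥(baseRing A K₂) ↥K₂ h2 N))) ∈ IsLocalRing.maximalIdeal _ := by
    rw [hmax₂, Ideal.mem_span_singleton]
    exact ⟨⟨_, hmem2⟩, Subtype.ext hιx⟩
  exact (ValuationSubring.valuation_lt_one_iff (legWinf ↥(baseRing A K₂) ↥K₂ h2 N)
    ⟨legIncl hle N x, hmem3⟩).1 h3

end Sheets

section W0

variable {M p : ℕ} [NeZero M] [NeZero p] [NeZero (M * p)]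

set_option maxHeartbeats 1600000 in
/-- **base change of the sheet `W_0`.** -/
theorem comap_legW0 (hp : p.Prime) (hp2 : p ≠ 2) (hpM : ¬ p ∣ M) {A : ValuationSubring Ω}
    (hA : A.LiesOverPrime p) {K' K₂ : IntermediateField ℚ Ω} (hle : K' ≤ K₂) (hK' : IsBase p K')
    (hK₂ : IsBase p K₂) [IsDiscreteValuationRing ↥(baseRing A K')]
    [IsDiscreteValuationRing ↥(baseRing A K₂)] {x y : ℤ} (hbez : (p : ℤ) * x + M * y = 1) :
    (letI := baseToComplex K₂; legW0 ↥(baseRing A K₂) ↥K₂ hbez hp).comap (legIncl hle (M * p)) =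
      (letI := baseToComplex K'; legW0 ↥(baseRing A K') ↥K' hbez hp) := by
  classical
  haveI : Fact p.Prime := ⟨hp⟩
  haveI : CharZero ↥(baseRing A K') := charZero_valuationSubring_of_algebraRat _
  haveI : CharZero ↥(baseRing A K₂) := charZero_valuationSubring_of_algebraRat _
  obtain ⟨ϖ', hϖ'⟩ := IsDiscreteValuationRing.exists_irreducible ↥(baseRing A K')
  obtain ⟨ϖ₂, hϖ₂⟩ := IsDiscreteValuationRing.exists_irreducible ↥(baseRing A K₂)
  have h2' : IsUnit (2 : ↥(baseRing A K')) := isUnit_ofNat_baseRing hA K' Nat.prime_two hp2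
  have h2 : IsUnit (2 : ↥(baseRing A K₂)) := isUnit_ofNat_baseRing hA K₂ Nat.prime_two hp2
  letI := baseToComplex K'
  letI := baseToComplex K₂
  have hmodel' : SSModelLeg ↥(baseRing A K') ↥K' ϖ' h2' hbez hp hp2 :=
    ssModelLeg ↥(baseRing A K') ↥K' hϖ' h2' hbez hp hp2
      (natCast_mem_span_uniformizer_baseRing hA K' hϖ')
      (geoHyps_legE_baseRing hA M hpM hK' hp2 hϖ')
  have hmodel₂ : SSModelLeg ↥(baseRing A K₂) ↥K₂ ϖ₂ h2 hbez hp hp2 :=
    ssModelLeg ↥(baseRing A K₂) ↥K₂ hϖ₂ h2 hbez hp hp2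
      (natCast_mem_span_uniformizer_baseRing hA K₂ hϖ₂)
      (geoHyps_legE_baseRing hA M hpM hK₂ hp2 hϖ₂)
  haveI : FiniteDimensional ↥(↥K')⟮jqNModC ↥K' 2⟯ ↥(legE ↥K' (M * p)) :=
    finite_legE_adjoin_j ↥K' (M * p)
  haveI : FiniteDimensional ↥(↥K₂)⟮jqNModC ↥K₂ 2⟯ ↥(legE ↥K₂ (M * p)) :=
    finite_legE_adjoin_j ↥K₂ (M * p)
  have h' := SSModelLeg.ssModel ↥(baseRing A K') ↥K' hmodel'
  have h₂ := SSModelLeg.ssModel ↥(baseRing A K₂) ↥K₂ hmodel₂
  have hιR : ∀ r : ↥(baseRing A K'),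
      legIncl hle (M * p) (algebraMap ↥(baseRing A K') ↥(legE ↥K' (M * p)) r) =
        algebraMap ↥(baseRing A K₂) ↥(legE ↥K₂ (M * p)) (baseRingIncl hle A r) := by
    intro r
    rw [IsScalarTower.algebraMap_apply ↥(baseRing A K') ↥K' ↥(legE ↥K' (M * p)),
      legIncl_algebraMap, baseIncl_algebraMap_baseRing,
      ← IsScalarTower.algebraMap_apply ↥(baseRing A K₂) ↥K₂ ↥(legE ↥K₂ (M * p))]
  have hinj₂ : Function.Injective (algebraMap ↥(baseRing A K₂) ↥(legE ↥K₂ (M * p))) := by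
    rw [IsScalarTower.algebraMap_eq ↥(baseRing A K₂) ↥K₂ ↥(legE ↥K₂ (M * p))]
    exact (algebraMap ↥K₂ ↥(legE ↥K₂ (M * p))).injective.comp
      (IsFractionRing.injective ↥(baseRing A K₂) ↥K₂)
  have hιj : legIncl hle (M * p) (algebraMap ↥(↥K')⟮jqNModC ↥K' 2⟯ ↥(legE ↥K' (M * p))
      (AdjoinSimple.gen ↥K' (jqNModC ↥K' 2))) =
      algebraMap ↥(↥K₂)⟮jqNModC ↥K₂ 2⟯ ↥(legE ↥K₂ (M * p))
        (AdjoinSimple.gen ↥K₂ (jqNModC ↥K₂ 2)) :=
    Subtype.ext (coeffMap_jqNModC (baseIncl hle) 2)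
  have hιb : legIncl hle (M * p) (legHostB ↥K' M p hp hp2 (legJE ↥K' M)) =
      legHostB ↥K₂ M p hp hp2 (legJE ↥K₂ M) := by
    apply Subtype.ext
    rw [coe_legIncl, coe_legHostB, coe_legHostB, coe_legJE, coe_legJE, coeffMap_qExpand,
      coeffMap_jqNModC]
  have hkinf : (legWinf ↥(baseRing A K₂) ↥K₂ h2 (M * p)).valuation
      (legIncl hle (M * p) (legHostB ↥K' M p hp hp2 (legJE ↥K' M)) -
        algebraMap ↥(↥K₂)⟮jqNModC ↥K₂ 2⟯ ↥(legE ↥K₂ (M * p))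
          (AdjoinSimple.gen ↥K₂ (jqNModC ↥K₂ 2)) ^ p) < 1 := by
    rw [hιb]
    have := h₂.kron_j_inf
    rw [h₂.A_j] at this
    exact this
  have hkzero : (legW0 ↥(baseRing A K₂) ↥K₂ hbez hp).valuation
      (algebraMap ↥(↥K₂)⟮jqNModC ↥K₂ 2⟯ ↥(legE ↥K₂ (M * p))
          (AdjoinSimple.gen ↥K₂ (jqNModC ↥K₂ 2)) -
        legIncl hle (M * p) (legHostB ↥K' M p hp hp2 (legJE ↥K' M)) ^ p) < 1 := by
    rw [hιb]
    have := h₂.kron_j_zero
    rw [h₂.A_j] at this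
    exact this
  exact comap_zero_eq_of_isTwoSheet h'.two h₂.two hϖ' hϖ₂ (baseRingIncl hle A)
    (baseRingIncl_injective hle A) (dvd_baseRingIncl_of_irreducible hle A hϖ' hϖ₂)
    (legIncl hle (M * p)) hιR hinj₂ hιj hp.two_le _ hkinf hkzero
    (comap_legWinf hle A h2' h2 (M * p))

end W0

section Depth

variable {R₁ : Type*} [CommRing R₁] {K₁ : Type*} [Field K₁] {E₁ : Type*} [Field E₁]
  [Algebra R₁ E₁] [Algebra K₁ E₁]
  {R₂ : Type*} [CommRing R₂] {K₂ : Type*} [Field K₂] {E₂ : Type*} [Field E₂]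
  [Algebra R₂ E₂] [Algebra K₂ E₂]

/-- `ValDepth` is monotone in the depth. -/
theorem ValDepth.mono_depth {π : R₁} {p : ℕ} {W : ValuationSubring E₁}
    (hπW : algebraMap R₁ E₁ π ∈ W) {n m : ℕ} (hmn : m ≤ n) {g : E₁} {c : K₁}
    (hd : ValDepth π p W n g c) : ValDepth π p W m g c := by
  obtain ⟨γ, hγ, s, hs, e⟩ := hd
  refine ⟨γ, hγ, algebraMap R₁ E₁ π ^ (n - m) * s, W.mul_mem _ _ (pow_mem hπW _) hs, ?_⟩
  rw [e, ← mul_assoc, ← _root_.pow_add, Nat.add_sub_cancel' hmn]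

/-- **`ValDepth` along a ring homomorphism**: `π₁ ↦ u π₂ ^ e` multiplies the depth by `e`. -/
theorem ValDepth.map_hom (φR : R₁ →+* R₂) (φK : K₁ →+* K₂) (ι : E₁ →+* E₂)
    (hιK : ∀ c, ι (algebraMap K₁ E₁ c) = algebraMap K₂ E₂ (φK c))
    (hιR : ∀ r, ι (algebraMap R₁ E₁ r) = algebraMap R₂ E₂ (φR r))
    {W₁ : ValuationSubring E₁} {W₂ : ValuationSubring E₂} (hW : ∀ x ∈ W₁, ι x ∈ W₂)
    (hR : ∀ r : R₂, algebraMap R₂ E₂ r ∈ W₂) {π₁ : R₁} {π₂ u : R₂} {e : ℕ}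
    (hu : φR π₁ = u * π₂ ^ e) {p n : ℕ} {g : E₁} {c : K₁} (hd : ValDepth π₁ p W₁ n g c) :
    ValDepth π₂ p W₂ (e * n) (ι g) (φK c) := by
  obtain ⟨γ, hγ, s, hs, eq⟩ := hd
  refine ⟨ι γ, (_root_.map_ne_zero ι).2 hγ, algebraMap R₂ E₂ (u ^ n) * ι s,
    W₂.mul_mem _ _ (hR _) (hW s hs), ?_⟩
  rw [eq, map_mul, map_mul, map_add, map_one, map_mul, map_pow, map_pow, hιK, hιR, hu, map_mul,
    map_pow, map_pow, mul_pow, ← pow_mul]
  ring

end Depth

section DepthLeg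

variable {K' K₁ : IntermediateField ℚ Ω} (hle : K' ≤ K₁) (A : ValuationSubring Ω)
  [IsDiscreteValuationRing ↥(baseRing A K')] [IsDiscreteValuationRing ↥(baseRing A K₁)]
  (N : ℕ) [NeZero N]

/-- the functions over `K'` and over `K₁` with the same base change to `Ω` correspond under
`legIncl`. -/
theorem legIncl_fullToLegE_of_keyFqBC_eq (F' : ↥(keyFq ↥K' N)) (F₁ : ↥(keyFq ↥K₁ N))
    (hBC : keyFqBC N K₁ F₁ = keyFqBC N K' F') :
    legIncl hle N (fullToLegE ↥K' N F') = fullToLegE ↥K₁ N F₁ := by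
  apply (legBC N K₁).injective
  rw [legBC_legIncl, bcdeg_legBC_fullToLegE, bcdeg_legBC_fullToLegE, hBC]

/-- **depth along `W_∞` goes up from `K'` to `K₁`.** -/
theorem ValDepth.legIncl_inf (h2' : IsUnit (2 : ↥(baseRing A K')))
    (h2 : IsUnit (2 : ↥(baseRing A K₁))) {ϖ' : ↥(baseRing A K')} {ϖ₁ u : ↥(baseRing A K₁)}
    {e : ℕ} (hu : baseRingIncl hle A ϖ' = u * ϖ₁ ^ e) {p n : ℕ} {g : ↥(legE ↥K' N)} {c : ↥K'}
    (hd : ValDepth ϖ' p (legWinf ↥(baseRing A K') ↥K' h2' N) n g c) :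
    ValDepth ϖ₁ p (legWinf ↥(baseRing A K₁) ↥K₁ h2 N) (e * n) (legIncl hle N g)
      (baseIncl hle c) := by
  refine ValDepth.map_hom (baseRingIncl hle A) (baseIncl hle) (legIncl hle N)
    (legIncl_algebraMap hle N) ?_ (fun x hx => legIncl_mem_legWinf hle A h2' h2 N hx) ?_ hu hd
  · intro r
    rw [IsScalarTower.algebraMap_apply ↥(baseRing A K') ↥K' ↥(legE ↥K' N), legIncl_algebraMap,
      baseIncl_algebraMap_baseRing,
      ← IsScalarTower.algebraMap_apply ↥(baseRing A K₁) ↥K₁ ↥(legE ↥K₁ N)]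
  · intro r
    rw [IsScalarTower.algebraMap_apply ↥(baseRing A K₁) ↥K₁ ↥(legE ↥K₁ N)]
    exact (gaussValSubC (legE ↥K₁ N) (legE_le_gaussField ↥(baseRing A K₁) ↥K₁ h2 N) r).2

/-- **(2a) ⇒ the hypothesis of (2b)**: depth `≥ 1` along `W_∞` goes up from `K'` to `K₁`. -/
theorem exists_valDepth_legWinf_of_le (hle : K' ≤ K₁) {p : ℕ} (F' : ↥(keyFq ↥K' N))
    (F₁ : ↥(keyFq ↥K₁ N)) (hBC : keyFqBC N K₁ F₁ = keyFqBC N K' F')
    (h : ∃ (ϖ : ↥(baseRing A K')) (h2 : IsUnit (2 : ↥(baseRing A K'))) (c : ↥K'),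
      Irreducible ϖ ∧ c ≠ 0 ∧
      ValDepth ϖ p (legWinf ↥(baseRing A K') ↥K' h2 N) 1 (fullToLegE ↥K' N F') c) :
    ∃ (ϖ : ↥(baseRing A K₁)) (h2 : IsUnit (2 : ↥(baseRing A K₁))) (c : ↥K₁),
      Irreducible ϖ ∧ c ≠ 0 ∧
      ValDepth ϖ p (legWinf ↥(baseRing A K₁) ↥K₁ h2 N) 1 (fullToLegE ↥K₁ N F₁) c := by
  obtain ⟨ϖ', h2', c, hϖ', hc, hd⟩ := h
  obtain ⟨ϖ₁, hϖ₁⟩ := IsDiscreteValuationRing.exists_irreducible ↥(baseRing A K₁)
  have h2 : IsUnit (2 : ↥(baseRing A K₁)) := by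
    have := h2'.map (baseRingIncl hle A)
    rwa [map_ofNat] at this
  have hne : baseRingIncl hle A ϖ' ≠ 0 := fun h0 =>
    hϖ'.ne_zero (baseRingIncl_injective hle A (by rw [h0, map_zero]))
  obtain ⟨e, u, hu⟩ := IsDiscreteValuationRing.eq_unit_mul_pow_irreducible hne hϖ₁
  have he : 1 ≤ e := by
    rcases Nat.eq_zero_or_pos e with h0 | h0
    · exfalso
      obtain ⟨w, hw⟩ := dvd_baseRingIncl_of_irreducible hle A hϖ' hϖ₁
      rw [h0, pow_zero, mul_one] at hu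
      rw [hu] at hw
      exact hϖ₁.not_isUnit (isUnit_of_dvd_unit ⟨w, hw⟩ u.isUnit)
    · exact h0
  have hd₁ := ValDepth.legIncl_inf hle A N h2' h2 hu hd
  rw [legIncl_fullToLegE_of_keyFqBC_eq hle N F' F₁ hBC, mul_one] at hd₁
  refine ⟨ϖ₁, h2, baseIncl hle c, hϖ₁, (_root_.map_ne_zero _).2 hc,
    ValDepth.mono_depth ?_ he hd₁⟩
  rw [IsScalarTower.algebraMap_apply ↥(baseRing A K₁) ↥K₁ ↥(legE ↥K₁ N)]
  exact (gaussValSubC (legE ↥K₁ N) (legE_le_gaussField ↥(baseRing A K₁) ↥K₁ h2 N) ϖ₁).2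

end DepthLeg

end Fermat.Agent.MP
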