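/-
MP40 T3 [KEYPEU-DESC] — helper2 — **the base `K' := Fix_{K₁}(H)`**: the subfield of a Galois base
`K₁` fixed by a subgroup `H` of the inertia group `I_A` (helper1's recipe 1761 (2), adopted in
helper8's 1765: our bases are not henselian, so the small base must be taken INSIDE a Galois base,
with `Gal(K₁ / K')` the image of a subgroup of inertia).

* `fixIn K₁ H = K₁ ⊓ Ω^H`; `mem_fixIn`, `fixIn_le`, `apply_eq_of_mem_fixIn`, `flatBase_le_fixIn`;
* `isBase_of_le` : an intermediate field `K^♭ ≤ K' ≤ K₁` of a base is a base; `isBase_fixIn`;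
* `map_mem_fixIn` : `σ K' = K'` for `σ` normalising `H` (`K₁` normal);
* `exists_mem_eq_of_fixing_fixIn` (Artin): an automorphism of `Ω` fixing `K'` pointwise acts on `K₁`
  as an element of `H` (the image of `H` in `Aut(K₁)` being finite);
* `mem_iff_map_mem_of_fixing_fixIn` : **(h1)** `∀ σ, (∀ c ∈ K', σ c = c) → ∀ c ∈ K₁, (c ∈ A ↔ σ c ∈ A)`;
* `exists_descent_fixIn` : an element of `K₁·F₀` fixed by `H` is defined over `K'`.
-/
import Mathlib
import Fermat.Agent.MP.KPDESC_helper2_Field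
import Fermat.Agent.SS.IBASE_helper1_Core
import Fermat.Agent.SS.IBASE_helper1_Act
import Fermat.Agent.JA.BCD_helper9_HostRat

set_option autoImplicit false
set_option linter.unusedSectionVars false
set_option linter.unusedVariables false
set_option linter.style.haveILetI false
set_option synthInstance.maxHeartbeats 400000

open HahnSeries IntermediateField ModularCurve

namespace Fermat.Agent.MP

open Fermat.Agent.X0N Fermat.Agent.JA Fermat.Agent.SS Fermat.Agent.S35 Fermat.Agent.NP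

/-- `Ω = AlgebraicClosure ℚ`. -/
local notation "Ω" => AlgebraicClosure ℚ

/-- the absolute Galois group. -/
local notation "GQ" => (AlgebraicClosure ℚ ≃ₐ[ℚ] AlgebraicClosure ℚ)

section Def

variable (K₁ : IntermediateField ℚ Ω) (H : Subgroup GQ)

/-- **the subfield of `K₁` fixed by `H`.** -/
noncomputable def fixIn : IntermediateField ℚ Ω := K₁ ⊓ IntermediateField.fixedField H

variable {K₁ H}

theorem mem_fixIn {c : Ω} : c ∈ fixIn K₁ H ↔ c ∈ K₁ ∧ ∀ τ ∈ H, τ c = c := by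
  rw [fixIn, IntermediateField.mem_inf, IntermediateField.mem_fixedField_iff]

variable (K₁ H)

theorem fixIn_le : fixIn K₁ H ≤ K₁ := inf_le_left

variable {K₁ H}

theorem apply_eq_of_mem_fixIn {τ : GQ} (hτ : τ ∈ H) {c : Ω} (hc : c ∈ fixIn K₁ H) : τ c = c :=
  (mem_fixIn.1 hc).2 τ hτ

theorem le_fixIn {K₀ : IntermediateField ℚ Ω} (h1 : K₀ ≤ K₁) (h2 : ∀ τ ∈ H, ∀ a ∈ K₀, τ a = a) :
    K₀ ≤ fixIn K₁ H := fun a ha => mem_fixIn.2 ⟨h1 ha, fun τ hτ => h2 τ hτ a ha⟩

/-- `σ K' ⊆ K'` for `σ` normalising `H`. -/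
theorem map_mem_fixIn [Normal ℚ ↥K₁] {σ : GQ} (hσ : ∀ τ ∈ H, σ⁻¹ * τ * σ ∈ H) {c : Ω}
    (hc : c ∈ fixIn K₁ H) : σ c ∈ fixIn K₁ H := by
  obtain ⟨hc1, hc2⟩ := mem_fixIn.1 hc
  refine mem_fixIn.2 ⟨?_, fun τ hτ => ?_⟩
  · have h := coe_resGal K₁ σ ⟨c, hc1⟩
    rw [← h]
    exact (resGal K₁ σ ⟨c, hc1⟩).2
  · have h1 := hc2 _ (hσ τ hτ)
    rw [AlgEquiv.mul_apply, AlgEquiv.mul_apply] at h1
    have h2 := congrArg σ h1
    rwa [← AlgEquiv.mul_apply, mul_inv_cancel, AlgEquiv.one_apply] at h2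

end Def

section Gen

/-- an intermediate field `L ≤ K' ≤ L ⊔ F₁`, `F₁ / F` finite, is `L ⊔ F'` with `F' / F` finite. -/
theorem exists_finiteDimensional_sup_eq {F E : Type*} [Field F] [Field E] [Algebra F E] [CharZero F]
    [Algebra.IsAlgebraic F E] (L F₁ K' : IntermediateField F E) [FiniteDimensional F ↥F₁]
    (h1 : L ≤ K') (h2 : K' ≤ L ⊔ F₁) :
    ∃ F' : IntermediateField F E, FiniteDimensional F ↥F' ∧ K' = L ⊔ F' := by
  classical
  -- `F₁ = F(α)`
  obtain ⟨α, hα⟩ := Field.exists_primitive_element F ↥F₁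
  have hF₁α : F₁ = IntermediateField.adjoin F {(α : E)} := by
    have h := congrArg IntermediateField.lift hα
    rw [IntermediateField.lift_adjoin_simple, IntermediateField.lift_top] at h
    exact h.symm
  -- `K₁ = L(α)` is finite over `L`
  have hK₁ : L ⊔ F₁ = IntermediateField.restrictScalars F
      (IntermediateField.adjoin ↥L {(α : E)}) := by
    rw [IntermediateField.restrictScalars_adjoin_eq_sup, ← hF₁α]
  haveI : FiniteDimensional ↥L ↥(IntermediateField.adjoin ↥L {(α : E)}) :=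
    IntermediateField.adjoin.finiteDimensional
      ((Algebra.IsAlgebraic.isAlgebraic (α : E)).isIntegral)
  -- `K'` over `L`
  have hle : IntermediateField.extendScalars h1 ≤
      IntermediateField.adjoin ↥L {(α : E)} := by
    intro x hx
    have hx' : x ∈ K' := hx
    have h3 := h2 hx'
    rw [hK₁] at h3
    exact h3
  haveI : FiniteDimensional ↥L ↥(IntermediateField.extendScalars h1) :=
    FiniteDimensional.of_injective (IntermediateField.inclusion hle).toLinearMap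
      (IntermediateField.inclusion hle).injective
  -- `K' = L(β)`
  obtain ⟨β, hβ⟩ := Field.exists_primitive_element ↥L ↥(IntermediateField.extendScalars h1)
  have hK'β : IntermediateField.extendScalars h1 =
      IntermediateField.adjoin ↥L {(β : E)} := by
    have h := congrArg IntermediateField.lift hβ
    rw [IntermediateField.lift_adjoin_simple, IntermediateField.lift_top] at h
    exact h.symm
  haveI : FiniteDimensional F ↥(IntermediateField.adjoin F {(β : E)}) :=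
    IntermediateField.adjoin.finiteDimensional
      ((Algebra.IsAlgebraic.isAlgebraic (β : E)).isIntegral)
  refine ⟨IntermediateField.adjoin F {(β : E)}, inferInstance, ?_⟩
  have h4 : K' = IntermediateField.restrictScalars F (IntermediateField.extendScalars h1) :=
    (IntermediateField.extendScalars_restrictScalars h1).symm
  have h5 := congrArg (IntermediateField.restrictScalars F) hK'β
  rw [IntermediateField.restrictScalars_adjoin_eq_sup] at h5
  exact h4.trans h5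

end Gen

section Base

variable {q : ℕ}

/-- **an intermediate field `K^♭ ≤ K' ≤ K₁` of a base `K₁` is a base.** -/
theorem isBase_of_le {K₁ K' : IntermediateField ℚ Ω} (hK₁ : IsBase q K₁)
    (h1 : flatBase q ≤ K') (h2 : K' ≤ K₁) : IsBase q K' := by
  obtain ⟨F₁, hF₁, rfl⟩ := hK₁
  haveI := hF₁
  obtain ⟨F', hF', h⟩ := exists_finiteDimensional_sup_eq (flatBase q) F₁ K' h1 h2
  exact ⟨F', hF', h⟩

end Base

section Artin

variable {K₁ : IntermediateField ℚ Ω} [Normal ℚ ↥K₁] {H : Subgroup GQ}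

/-- **Artin**: an automorphism of `Ω` fixing `K' = Fix_{K₁}(H)` pointwise acts on `K₁` as an element
of `H`, as soon as the image of `H` in `Aut(K₁)` is finite. -/
theorem exists_mem_eq_of_fixing_fixIn (hfin : Finite ↥(H.map (resGal K₁))) (σ : GQ)
    (hσ : ∀ c ∈ fixIn K₁ H, σ c = c) : ∃ τ ∈ H, ∀ c ∈ K₁, σ c = τ c := by
  classical
  haveI := hfin
  set G : Subgroup (↥K₁ ≃ₐ[ℚ] ↥K₁) := H.map (resGal K₁) with hG
  have hbij := FixedPoints.toAlgHom_bijective ↥G ↥K₁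
  -- `σ` restricted to `K₁` is an algebra homomorphism over the fixed field of `G`
  have hfix : ∀ c : ↥(FixedPoints.subfield ↥G ↥K₁), resGal K₁ σ (c : ↥K₁) = (c : ↥K₁) := by
    intro c
    apply Subtype.ext
    rw [coe_resGal]
    refine hσ _ (mem_fixIn.2 ⟨(c : ↥K₁).2, fun τ hτ => ?_⟩)
    have h1 : (⟨resGal K₁ τ, Subgroup.mem_map_of_mem _ hτ⟩ : ↥G) • (c : ↥K₁) = (c : ↥K₁) :=
      c.2 _
    have h2 := congrArg (fun x : ↥K₁ => (x : Ω)) h1
    have h3 : (((⟨resGal K₁ τ, Subgroup.mem_map_of_mem _ hτ⟩ : ↥G) • (c : ↥K₁) : ↥K₁) : Ω) =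
        τ ((c : ↥K₁) : Ω) := coe_resGal K₁ τ (c : ↥K₁)
    rw [← h3]
    exact h2
  let φ : ↥K₁ →ₐ[↥(FixedPoints.subfield ↥G ↥K₁)] ↥K₁ :=
    { ((resGal K₁ σ : ↥K₁ ≃ₐ[ℚ] ↥K₁) : ↥K₁ →+* ↥K₁) with
      commutes' := fun c => hfix c }
  obtain ⟨g, hg⟩ := hbij.2 φ
  obtain ⟨τ, hτ, hτg⟩ := Subgroup.mem_map.1 g.2
  refine ⟨τ, hτ, fun c hc => ?_⟩
  have h1 := DFunLike.congr_fun hg ⟨c, hc⟩
  have h2 : (g : ↥K₁ ≃ₐ[ℚ] ↥K₁) ⟨c, hc⟩ = resGal K₁ σ ⟨c, hc⟩ := h1
  rw [← hτg] at h2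
  have h3 := congrArg (fun x : ↥K₁ => (x : Ω)) h2
  simp only [coe_resGal] at h3
  exact h3.symm

end Artin

section Inertia

variable {p : ℕ} [hp : Fact p.Prime] {A : ValuationSubring Ω} {K₁ : IntermediateField ℚ Ω}
  {H : Subgroup GQ}

theorem flatBase_le_fixIn (hA : A.LiesOverPrime p) (hH : H ≤ A.inertiaSubgroupIn ℚ)
    (hK₁ : flatBase p ≤ K₁) : flatBase p ≤ fixIn K₁ H :=
  le_fixIn hK₁ fun τ hτ a ha => inertia_apply_of_mem_flatBase hA (hH hτ) ha

/-- **`K' = Fix_{K₁}(H)` is a base**, for `H ≤ I_A` and `K₁` a base. -/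
theorem isBase_fixIn (hA : A.LiesOverPrime p) (hH : H ≤ A.inertiaSubgroupIn ℚ)
    (hK₁ : IsBase p K₁) : IsBase p (fixIn K₁ H) :=
  isBase_of_le hK₁ (flatBase_le_fixIn hA hH hK₁.flatBase_le) (fixIn_le K₁ H)

/-- the image of a subgroup of inertia in `Aut(K₁)` is finite. -/
theorem finite_map_resGal_of_le_inertia [Normal ℚ ↥K₁] (hA : A.LiesOverPrime p)
    (hH : H ≤ A.inertiaSubgroupIn ℚ) (hK₁ : IsBase p K₁) : Finite ↥(H.map (resGal K₁)) := by
  haveI := finite_inertiaImg (K₁ := K₁) hA hK₁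
  have hle : H.map (resGal K₁) ≤ inertiaImg K₁ A := Subgroup.map_mono hH
  exact Finite.of_injective (Subgroup.inclusion hle) (Subgroup.inclusion_injective hle)

/-- **(h1)**: an automorphism of `Ω` fixing `K' = Fix_{K₁}(H)` pointwise preserves `A ∩ K₁`. -/
theorem mem_iff_map_mem_of_fixing_fixIn [Normal ℚ ↥K₁] (hA : A.LiesOverPrime p)
    (hH : H ≤ A.inertiaSubgroupIn ℚ) (hK₁ : IsBase p K₁) (σ : GQ)
    (hσ : ∀ c ∈ fixIn K₁ H, σ c = c) : ∀ c ∈ K₁, (c ∈ A ↔ σ c ∈ A) := by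
  obtain ⟨τ, hτ, hτσ⟩ := exists_mem_eq_of_fixing_fixIn
    (finite_map_resGal_of_le_inertia hA hH hK₁) σ hσ
  intro c hc
  rw [hτσ c hc]
  constructor
  · intro h
    exact (Fermat.Agent.Tate.inertia_map_mem_and_sub_mem (hH hτ) h).1
  · intro h
    have h1 := (Fermat.Agent.Tate.inertia_map_mem_and_sub_mem (inv_mem (hH hτ)) h).1
    rwa [← AlgEquiv.mul_apply, inv_mul_cancel, AlgEquiv.one_apply] at h1

end Inertia

section Descent

variable (q : ℕ) {K₁ : IntermediateField ℚ Ω} {H : Subgroup GQ}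

set_option maxHeartbeats 800000 in
/-- **descent to `K' = Fix_{K₁}(H)`**: an element of `K₁·F₀` whose image in `Ω·F₀` is fixed by `H`
(fixing `K^♭` pointwise) is defined over `K'`. -/
theorem exists_descent_fixIn (hK₁ : flatBase q ≤ K₁)
    (hH : ∀ τ ∈ H, ∀ a ∈ flatBase q, τ a = a)
    (F₀ : IntermediateField ℚ (LaurentSeries ℚ)) {f₁ : LaurentSeries ↥K₁}
    (hf₁ : f₁ ∈ laurentBaseChange ↥K₁ F₀)
    (hfix : ∀ τ ∈ H, coeffMap ((τ : GQ) : Ω →+* Ω) (coeffMap (algebraMap ↥K₁ Ω) f₁) =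
      coeffMap (algebraMap ↥K₁ Ω) f₁) :
    ∃ f₀ ∈ laurentBaseChange ↥(fixIn K₁ H) F₀,
      coeffMap (algebraMap ↥(fixIn K₁ H) Ω) f₀ = coeffMap (algebraMap ↥K₁ Ω) f₁ := by
  classical
  set f : LaurentSeries Ω := coeffMap (algebraMap ↥K₁ Ω) f₁ with hf
  have hfmem : f ∈ laurentBaseChange Ω F₀ :=
    coeffMap_hom_mem_laurentBaseChange (algebraMap ↥K₁ Ω) F₀ hf₁
  set H' : Set GQ := (H : Set GQ) ∪ {σ | ∀ c ∈ K₁, σ c = c} with hH'
  have hH'flat : ∀ σ ∈ H', ∀ a ∈ flatBase q, σ a = a := by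
    rintro σ (hσ | hσ) a ha
    · exact hH σ hσ a ha
    · exact hσ a (hK₁ ha)
  have hH'fix : ∀ σ ∈ H', coeffMap ((σ : GQ) : Ω →+* Ω) f = f := by
    rintro σ (hσ | hσ)
    · exact hfix σ hσ
    · rw [hf, coeffMap_coeffMap]
      refine coeffMap_congr (RingHom.ext fun c => ?_) _
      exact hσ _ c.2
  obtain ⟨s, hsfix, hsdesc⟩ := exists_descent_finset_of_fixing q F₀ hfmem H' hH'flat hH'fix
  refine hsdesc (fixIn K₁ H) (le_fixIn hK₁ hH) fun y hy => mem_fixIn.2 ⟨?_, fun τ hτ => ?_⟩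
  · -- `y ∈ K₁`: fixed by `Gal(Ω / K₁)`
    have h1 : y ∈ Set.range (algebraMap ↥K₁ Ω) := by
      rw [InfiniteGalois.mem_range_algebraMap_iff_fixed]
      intro σ
      have h2 := hsfix y hy (σ.restrictScalars ℚ) (Or.inr fun c hc => σ.commutes ⟨c, hc⟩)
      exact h2
    obtain ⟨z, rfl⟩ := h1
    exact z.2
  · exact hsfix y hy τ (Or.inl hτ)

/-- the same at the level of the function fields `F_K(N)`. -/
theorem exists_keyFq_descent_fixIn (N : ℕ) [NeZero N] (hK₁ : flatBase q ≤ K₁)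
    (hH : ∀ τ ∈ H, ∀ a ∈ flatBase q, τ a = a) (F₁ : ↥(keyFq ↥K₁ N))
    (hfix : ∀ τ ∈ H, keyFqGalois Ω N τ • keyFqBC N K₁ F₁ = keyFqBC N K₁ F₁) :
    ∃ F' : ↥(keyFq ↥(fixIn K₁ H) N), keyFqBC N (fixIn K₁ H) F' = keyFqBC N K₁ F₁ := by
  obtain ⟨f₀, hf₀, h⟩ := exists_descent_fixIn q hK₁ hH (modularFunctionFieldFull N) F₁.2
    (fun τ hτ => by
      have h1 := congrArg Subtype.val (hfix τ hτ)
      rw [← coe_keyFqBC]
      exact h1)
  refine ⟨⟨f₀, hf₀⟩, Subtype.ext ?_⟩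
  rw [coe_keyFqBC, coe_keyFqBC]
  exact h

end Descent

end Fermat.Agent.MP
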