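/-
MP40 (S44/S40) — helper3 — [RQ4-Q], part 3: **the `q`-expansion of the Hecke operator
`T_ℓ f = N_α (β^* f)` on functions, and the formal eigen-relation from a Hecke relation
`T_ℓ Y = c · Y^a · u^p` over a base `K'`.**

* `normAlong_alpha_beta` : `N_α (β Y) = N_β (α Y)` (Atkin–Lehner);
* `qExpand_heckeFunK_bar` : over `Ω = ℚ̄`, `(T_ℓ Y)(q^ℓ) = ∏_{b<ℓ} Y(ζ^b q) · Y(q^{ℓ²})`;
* `qExpand_heckeFunK` : the same over any intermediate field `K' ⊆ Ω` containing `ζ`;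
* `coeff_dlogθ_heckeFunK` : `coeff n (θG/G) = coeff (nℓ) (θY/Y) + [ℓ ∣ n] ℓ · coeff (n/ℓ) (θY/Y)` for
  `G = T_ℓ Y` over ANY intermediate field `K' ⊆ Ω` (characteristic `0`, no `ζ` needed);
* `eigen_of_norm_shape_gaussField` : the Gauss form of [RQ4-Q] for `G = c · S^a · u^p`, `c ≠ 0`
  arbitrary, `S = c₁ · Y'` (`Y'` a Gauss unit), `u` in the Gauss field;
* `eigen_of_heckeFunK_frac` (over `ℚ̄`, currency `fracRed A`) and `eigen_of_heckeFunK_base` (over a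
  base `K'`, currency `gaussRed (A ∩ K') K'`): `T_ℓ f = c · f^a · u^p`, `ℓ ∤ N p`, `f = c₁ · Y'` with
  `Y'` a Gauss unit: the coefficients `b n` of `θȲ'/Ȳ'` satisfy
  `b (nℓ) + [ℓ ∣ n] ℓ · b (n/ℓ) = a · b n`.
-/
import Mathlib
import Fermat.Agent.MP.RQ4Q_helper3_Red
import Fermat.Agent.MP.RQ4Q_helper3_Frac
import Fermat.Agent.FG.EDEF_helper6_Desc
import Fermat.Agent.JA.BC_helper9_DescBase
import Fermat.Agent.JA.BASE_helper1_Main
import Fermat.Agent.JA.ES1_helper2_Shape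
import Fermat.Agent.NP.BASEP_helper2_Deg
import Fermat.Agent.JA.G1_helper5_Bases

set_option autoImplicit false
set_option linter.unusedSectionVars false
set_option linter.style.haveILetI false

namespace Fermat.Agent.MP.RQ4Q

open ModularCurve AlgebraicCurve IntermediateField Fermat.Agent.X0N Fermat.Agent.Igusa
  Fermat.Agent.JA Fermat.Agent.S36 Fermat.Agent.NP Fermat.Agent.FG IsLocalRing

local notation "Ω" => AlgebraicClosure ℚ

noncomputable section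

section Abstract

variable {K F F' : Type*} [Field K] [Field F] [Field F'] [Algebra K F] [Algebra K F']

/-- the norm along `ψ = W ∘ φ` of `W z` is the norm along `φ` of `z`, for a ring automorphism `W`
of the upper field. -/
theorem normAlong_ringEquiv_aux (φ ψ : F →ₐ[K] F') (W : F' ≃+* F') (hW : ∀ x, W (φ x) = ψ x)
    (z : F') : normAlong ψ (W z) = normAlong φ z := by
  unfold normAlong
  have he : RingHom.comp (@algebraMap F F' _ _ (algebraAlong ψ)) ((RingEquiv.refl F : F ≃+* F) :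
      F →+* F) = RingHom.comp (W : F' →+* F') (@algebraMap F F' _ _ (algebraAlong φ)) := by
    ext x
    exact (hW x).symm
  have h := @Algebra.norm_eq_of_equiv_equiv F F' F F' _ _ _ _ (algebraAlong φ) (algebraAlong ψ)
    (RingEquiv.refl F) W he z
  exact h.symm

end Abstract

variable {N ℓ : ℕ} [NeZero N] [NeZero ℓ] (hℓ : ℓ.Prime) (hℓN : ¬ ℓ ∣ N)

include hℓ hℓN in
/-- `N_α (β Y) = N_β (α Y)` by the Atkin–Lehner involution. -/
theorem normAlong_alpha_beta (Y : ↥(laurentBaseChange Ω (modularFunctionFieldFull N))) :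
    normAlong (heckeAlphaBar Ω N ℓ) (heckeBetaBar Ω N ℓ Y) =
      normAlong (heckeBetaBar Ω N ℓ) (heckeAlphaBar Ω N ℓ Y) := by
  have h := normAlong_ringEquiv_aux (heckeBetaBar Ω N ℓ) (heckeAlphaBar Ω N ℓ)
    (atkinLehnerBarEquiv hℓ hℓN) (fun x => atkinLehnerBar_beta hℓ hℓN x) (heckeAlphaBar Ω N ℓ Y)
  have e : atkinLehnerBarEquiv hℓ hℓN (heckeAlphaBar Ω N ℓ Y) = heckeBetaBar Ω N ℓ Y :=
    atkinLehnerBar_alpha hℓ hℓN Y
  rwa [e] at h

include hℓ hℓN in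
/-- **the `q`-expansion of `T_ℓ Y` over `ℚ̄`**: `(T_ℓ Y)(q^ℓ) = ∏_{b<ℓ} Y(ζ^b q) · Y(q^{ℓ²})`. -/
theorem qExpand_heckeFunK_bar [NeZero (N * ℓ)] (ζ : Ωˣ) (hζ : IsPrimitiveRoot ζ ℓ)
    (Y : ↥(keyFq Ω N)) :
    qExpand Ω ℓ ((heckeFunK Ω N ℓ Y : ↥(keyFq Ω N)) : LaurentSeries Ω) =
      (∏ b ∈ Finset.range ℓ, twist (ζ ^ b) (Y : LaurentSeries Ω)) *
        qExpand Ω (ℓ * ℓ) (Y : LaurentSeries Ω) := by
  have h1 : heckeFunK Ω N ℓ Y = normAlong (heckeBetaBar Ω N ℓ) (heckeAlphaBar Ω N ℓ Y) :=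
    normAlong_alpha_beta hℓ hℓN Y
  have h2 := qExpand_norm_heckeBetaBar_range hℓ hℓN ζ hζ (heckeAlphaBar Ω N ℓ Y)
  rw [sigmaInf_alpha, coe_heckeAlphaBar] at h2
  rw [h1]
  exact h2

/-! ### over an intermediate field `K' ⊆ Ω` -/

/-- `dlogθ` commutes with coefficient maps of fields. -/
theorem coeffMap_dlogθ {K L : Type*} [Field K] [Field L] (φ : K →+* L) (f : LaurentSeries K) :
    coeffMap φ (dlogθ f) = dlogθ (coeffMap φ f) := by
  rw [dlogθ_def, dlogθ_def, map_div₀, eulerD_coeffMap]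

include hℓ hℓN in
/-- **the `q`-expansion of `T_ℓ Y` over an intermediate field containing `ζ`.** -/
theorem qExpand_heckeFunK [NeZero (N * ℓ)] (K' : IntermediateField ℚ Ω) (ζ : (↥K')ˣ)
    (hζ : IsPrimitiveRoot ζ ℓ) (Y : ↥(keyFq ↥K' N)) :
    qExpand ↥K' ℓ ((heckeFunK ↥K' N ℓ Y : ↥(keyFq ↥K' N)) : LaurentSeries ↥K') =
      (∏ b ∈ Finset.range ℓ, twist (ζ ^ b) (Y : LaurentSeries ↥K')) *
        qExpand ↥K' (ℓ * ℓ) (Y : LaurentSeries ↥K') := by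
  apply coeffMapV_injective (algebraMap ↥K' Ω).injective
  have hζ' : IsPrimitiveRoot (Units.map (algebraMap ↥K' Ω : ↥K' →* Ω) ζ) ℓ := by
    have h1 : IsPrimitiveRoot ((ζ : ↥K')) ℓ := IsPrimitiveRoot.coe_units_iff.mpr hζ
    have h2 := h1.map_of_injective (algebraMap ↥K' Ω).injective
    exact IsPrimitiveRoot.coe_units_iff.mp h2
  have h := qExpand_heckeFunK_bar hℓ hℓN _ hζ' (keyFqBC N K' Y)
  rw [← keyFqBC_heckeFunK N ℓ hℓ K' Y, coe_keyFqBC, coe_keyFqBC] at h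
  rw [coeffMap_qExpand, h, map_mul, map_prod, coeffMap_qExpand]
  congr 1
  refine Finset.prod_congr rfl fun b _ => ?_
  rw [coeffMap_twist, map_pow]

include hℓ hℓN in
/-- **[RQ4-Q] for `T_ℓ`, characteristic `0`**: for `G = T_ℓ Y` over ANY intermediate field,
`coeff n (θG/G) = coeff (nℓ) (θY/Y) + [ℓ ∣ n] ℓ · coeff (n/ℓ) (θY/Y)`. -/
theorem coeff_dlogθ_heckeFunK [NeZero (N * ℓ)] (K' : IntermediateField ℚ Ω)
    (Y : ↥(keyFq ↥K' N)) (hY : Y ≠ 0) (n : ℤ) :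
    (dlogθ ((heckeFunK ↥K' N ℓ Y : ↥(keyFq ↥K' N)) : LaurentSeries ↥K')).coeff n =
      (dlogθ (Y : LaurentSeries ↥K')).coeff (n * ℓ) +
        if (ℓ : ℤ) ∣ n then (ℓ : ↥K') * (dlogθ (Y : LaurentSeries ↥K')).coeff (n / ℓ) else 0 := by
  obtain ⟨ζ₀, hζ₀⟩ := HasEnoughRootsOfUnity.exists_primitiveRoot Ω ℓ
  have hζ₀0 : ζ₀ ≠ 0 := hζ₀.ne_zero (NeZero.ne ℓ)
  set ζ : Ωˣ := Units.mk0 ζ₀ hζ₀0 with hζdef
  have hζ : IsPrimitiveRoot ζ ℓ := IsPrimitiveRoot.coe_units_iff.mp hζ₀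
  have hYΩ : ((keyFqBC N K' Y : ↥(keyFq Ω N)) : LaurentSeries Ω) ≠ 0 := by
    rw [coe_keyFqBC]
    intro h0
    apply hY
    apply Subtype.ext
    apply coeffMapV_injective (algebraMap ↥K' Ω).injective
    rw [h0]
    exact (map_zero _).symm
  have hℓΩ : ((ℓ : ℕ) : Ω) ≠ 0 := by exact_mod_cast NeZero.ne ℓ
  have h := coeff_dlogθ_of_norm_shape hℓΩ ζ hζ.pow_eq_one hYΩ
    (qExpand_heckeFunK_bar hℓ hℓN ζ hζ (keyFqBC N K' Y)) n
  rw [← keyFqBC_heckeFunK N ℓ hℓ K' Y, coe_keyFqBC, coe_keyFqBC, ← coeffMap_dlogθ,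
    ← coeffMap_dlogθ, coeffMap_coeff, coeffMap_coeff, coeffMap_coeff] at h
  apply (algebraMap ↥K' Ω).injective
  rw [h, map_add]
  congr 1
  split_ifs
  · rw [map_mul, map_natCast]
  · rw [map_zero]

/-! ### the Gauss form over a base -/

section Gauss

variable {R : Type*} [CommRing R] [IsDomain R] [IsDiscreteValuationRing R]
  {L : Type*} [Field L] [Algebra R L] [IsFractionRing R L]

/-- a constant which is a Gauss unit is a unit of `R`. -/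
theorem exists_unit_of_C_gauss_unit {c : L} (h1 : (HahnSeries.C c : LaurentSeries L) ∈ gaussInt R L)
    (h2 : (HahnSeries.C c⁻¹ : LaurentSeries L) ∈ gaussInt R L) (hc : c ≠ 0) :
    ∃ c₀ : Rˣ, algebraMap R L c₀ = c := by
  obtain ⟨ϖ, hϖ⟩ := IsDiscreteValuationRing.exists_irreducible R
  -- `c = ϖ^n · unit`
  obtain ⟨n, w, hw⟩ : ∃ (n : ℤ) (w : Rˣ), c = algebraMap R L ϖ ^ n * algebraMap R L w := by
    obtain ⟨x, y, hy, rfl⟩ := IsFractionRing.div_surjective (A := R) c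
    have hy0 : y ≠ 0 := nonZeroDivisors.ne_zero hy
    have hx0 : x ≠ 0 := by
      rintro rfl
      rw [map_zero, zero_div] at hc
      exact hc rfl
    obtain ⟨m, wx, hx⟩ := IsDiscreteValuationRing.eq_unit_mul_pow_irreducible hx0 hϖ
    obtain ⟨m', wy, hy'⟩ := IsDiscreteValuationRing.eq_unit_mul_pow_irreducible hy0 hϖ
    refine ⟨(m : ℤ) - m', wx * wy⁻¹, ?_⟩
    have hϖL : algebraMap R L ϖ ≠ 0 :=
      (map_ne_zero_iff _ (IsFractionRing.injective R L)).mpr hϖ.ne_zero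
    have hwyL : algebraMap R L (wy : R) ≠ 0 :=
      (map_ne_zero_iff _ (IsFractionRing.injective R L)).mpr wy.ne_zero
    rw [hx, hy', map_mul, map_mul, map_pow, map_pow, zpow_sub₀ hϖL, zpow_natCast, zpow_natCast,
      Units.val_mul, map_mul]
    have hinv : algebraMap R L ((wy⁻¹ : Rˣ) : R) = (algebraMap R L (wy : R))⁻¹ := by
      apply eq_inv_of_mul_eq_one_left
      rw [← map_mul, ← Units.val_mul, inv_mul_cancel, Units.val_one, map_one]
    rw [hinv]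
    field_simp
  have hϖL : algebraMap R L ϖ ≠ 0 :=
    (map_ne_zero_iff _ (IsFractionRing.injective R L)).mpr hϖ.ne_zero
  have hCw : ∀ v : Rˣ, (HahnSeries.C (algebraMap R L (v : R)) : LaurentSeries L) ∈ gaussInt R L :=
    fun v => C_algebraMap_mem_gaussInt (v : R)
  -- the Gauss norm of `C (ϖ^n)`
  have key : ∀ k : ℕ, 0 < k →
      (HahnSeries.C ((algebraMap R L ϖ ^ k)⁻¹) : LaurentSeries L) ∉ gaussInt R L := by
    intro k hk hmem
    have hmem2 : (HahnSeries.C (algebraMap R L ϖ ^ k) : LaurentSeries L) ∈ gaussInt R L := by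
      rw [← map_pow]
      exact C_algebraMap_mem_gaussInt (ϖ ^ k)
    have hprod : (⟨_, hmem⟩ : gaussInt R L) * ⟨_, hmem2⟩ = 1 := by
      apply Subtype.ext
      show HahnSeries.C ((algebraMap R L ϖ ^ k)⁻¹) * HahnSeries.C (algebraMap R L ϖ ^ k) = 1
      rw [← map_mul, inv_mul_cancel₀ (pow_ne_zero k hϖL), map_one]
    have hred : gaussRed R L ⟨_, hmem2⟩ = 0 := by
      rw [gaussRed_eq_zero_iff hϖ]
      refine ⟨⟨HahnSeries.C (algebraMap R L (ϖ ^ (k - 1))),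
        C_algebraMap_mem_gaussInt (ϖ ^ (k - 1))⟩, ?_⟩
      show HahnSeries.C (algebraMap R L ϖ ^ k) = HahnSeries.C (algebraMap R L ϖ) *
        HahnSeries.C (algebraMap R L (ϖ ^ (k - 1)))
      have e : algebraMap R L ϖ ^ k = algebraMap R L ϖ * algebraMap R L (ϖ ^ (k - 1)) := by
        rw [map_pow (algebraMap R L), ← pow_succ', Nat.sub_add_cancel hk]
      rw [e, map_mul]
    have := congrArg (gaussRed R L) hprod
    rw [map_mul, hred, mul_zero, map_one] at this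
    exact zero_ne_one this
  have hwinv : ∀ v : Rˣ, (algebraMap R L (v : R))⁻¹ = algebraMap R L ((v⁻¹ : Rˣ) : R) := by
    intro v
    symm
    apply eq_inv_of_mul_eq_one_left
    rw [← map_mul, ← Units.val_mul, inv_mul_cancel, Units.val_one, map_one]
  rcases lt_trichotomy n 0 with hn | hn | hn
  · -- `c⁻¹ = ϖ^{-n} w⁻¹` would be fine but `c ∈ gaussInt` fails
    exfalso
    obtain ⟨k, hk⟩ : ∃ k : ℕ, n = -(k : ℤ) := ⟨(-n).toNat, by omega⟩
    have hk0 : 0 < k := by omega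
    apply key k hk0
    have e : (HahnSeries.C ((algebraMap R L ϖ ^ k)⁻¹) : LaurentSeries L)
        = HahnSeries.C c * HahnSeries.C (algebraMap R L ((w⁻¹ : Rˣ) : R)) := by
      rw [← map_mul, hw, hk, zpow_neg, zpow_natCast, ← hwinv, mul_assoc,
        mul_inv_cancel₀ ((map_ne_zero_iff _ (IsFractionRing.injective R L)).mpr w.ne_zero),
        mul_one]
    rw [e]
    exact (gaussInt R L).mul_mem h1 (hCw w⁻¹)
  · refine ⟨w, ?_⟩
    rw [hw, hn, zpow_zero, one_mul]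
  · exfalso
    obtain ⟨k, hk⟩ : ∃ k : ℕ, n = (k : ℤ) := ⟨n.toNat, by omega⟩
    have hk0 : 0 < k := by omega
    apply key k hk0
    have e : (HahnSeries.C ((algebraMap R L ϖ ^ k)⁻¹) : LaurentSeries L)
        = HahnSeries.C c⁻¹ * HahnSeries.C (algebraMap R L (w : R)) := by
      rw [← map_mul, hw, hk, zpow_natCast, mul_inv, mul_assoc,
        inv_mul_cancel₀ ((map_ne_zero_iff _ (IsFractionRing.injective R L)).mpr w.ne_zero),
        mul_one]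
    rw [e]
    exact (gaussInt R L).mul_mem h2 (hCw w)

/-- a constant relating two Gauss units is a unit of `R`. -/
theorem exists_unit_of_C_mul_eq {c : L} (hc : c ≠ 0) {V P : LaurentSeries L}
    (hV : V ∈ gaussInt R L) (hVr : gaussRed R L ⟨V, hV⟩ ≠ 0)
    (hP : P ∈ gaussInt R L) (hPr : gaussRed R L ⟨P, hP⟩ ≠ 0)
    (h : HahnSeries.C c * V = P) : ∃ c₀ : Rˣ, algebraMap R L c₀ = c := by
  have hV0 : V ≠ 0 := by
    rintro rfl
    exact hVr (map_zero (gaussRed R L))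
  have hP0 : P ≠ 0 := by
    rintro rfl
    exact hPr (map_zero (gaussRed R L))
  have hVinv := inv_mem_gaussInt_of_gaussRed_ne_zero ⟨V, hV⟩ hVr
  have hPinv := inv_mem_gaussInt_of_gaussRed_ne_zero ⟨P, hP⟩ hPr
  refine exists_unit_of_C_gauss_unit ?_ ?_ hc
  · have e : (HahnSeries.C c : LaurentSeries L) = P * V⁻¹ := by
      rw [← h, mul_assoc, mul_inv_cancel₀ hV0, mul_one]
    rw [e]
    exact (gaussInt R L).mul_mem hP hVinv
  · have e : (HahnSeries.C c⁻¹ : LaurentSeries L) = V * P⁻¹ := by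
      have hC0 : (HahnSeries.C c : LaurentSeries L) ≠ 0 :=
        (map_ne_zero_iff _ HahnSeries.C_injective).mpr hc
      rw [← h, mul_inv, map_inv₀]
      field_simp
    rw [e]
    exact (gaussInt R L).mul_mem hV hPinv

/-- **[RQ4-Q], Gauss-field form**: the formal eigen-relation from a Hecke relation
`G = c · S^a · u^p` with `G` of the norm shape w.r.t. `S`, for arbitrary non-zero `S = c₁ · Y'`
(`Y'` a Gauss unit), `u` in the Gauss field, `c ≠ 0`. -/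
theorem eigen_of_norm_shape_gaussField (p : ℕ) [CharP (ResidueField R) p] {ℓ : ℕ} [NeZero ℓ]
    (hℓ : (ℓ : ResidueField R) ≠ 0) (ζ : Rˣ) (hζ : ζ ^ ℓ = 1) {G S u : LaurentSeries L}
    (hu : u ∈ gaussField R L) (hu0 : u ≠ 0) {c : L} (hc : c ≠ 0) (a : ℤ)
    (h : qExpand L ℓ G = (∏ b ∈ Finset.range ℓ,
      twist (Units.map (algebraMap R L : R →* L) ζ ^ b) S) * qExpand L (ℓ * ℓ) S)
    (hG : G = HahnSeries.C c * S ^ a * u ^ p)
    {c₁ : L} (hc₁ : c₁ ≠ 0) {Y' : LaurentSeries L} (hY' : Y' ∈ gaussInt R L)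
    (hY'u : gaussRed R L ⟨Y', hY'⟩ ≠ 0) (hS : S = HahnSeries.C c₁ * Y') (n : ℕ) :
    (dlogθ (gaussRed R L ⟨Y', hY'⟩)).coeff ((n * ℓ : ℕ) : ℤ) +
      (if ℓ ∣ n then (ℓ : ResidueField R) *
        (dlogθ (gaussRed R L ⟨Y', hY'⟩)).coeff ((n / ℓ : ℕ) : ℤ) else 0) =
      (a : ResidueField R) * (dlogθ (gaussRed R L ⟨Y', hY'⟩)).coeff (n : ℤ) := by
  obtain ⟨ϖ, hϖ⟩ := IsDiscreteValuationRing.exists_irreducible R
  obtain ⟨m, u', hu', hu'inv, huu'⟩ := exists_zpow_mul_unit hϖ hu hu0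
  have hu'0 : u' ≠ 0 := by
    rintro rfl
    rw [mul_zero] at huu'
    exact hu0 huu'
  have hu'u : gaussRed R L ⟨u', hu'⟩ ≠ 0 := by
    rw [← isUnit_gaussInt_iff]
    exact IsUnit.of_mul_eq_one ⟨u'⁻¹, hu'inv⟩ (Subtype.ext (mul_inv_cancel₀ hu'0))
  set c₂ : L := algebraMap R L ϖ ^ m with hc₂
  have hϖL : algebraMap R L ϖ ≠ 0 :=
    (map_ne_zero_iff _ (IsFractionRing.injective R L)).mpr hϖ.ne_zero
  have hc₂0 : c₂ ≠ 0 := zpow_ne_zero m hϖL
  have huu'' : u = HahnSeries.C c₂ * u' := by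
    rw [huu', hc₂, map_zpow₀]
  set c'' : L := c * c₁ ^ a * c₂ ^ p * (c₁ ^ (ℓ + 1))⁻¹ with hc''
  have hc''0 : c'' ≠ 0 :=
    mul_ne_zero (mul_ne_zero (mul_ne_zero hc (zpow_ne_zero a hc₁)) (pow_ne_zero p hc₂0))
      (inv_ne_zero (pow_ne_zero _ hc₁))
  set G' : LaurentSeries L := HahnSeries.C (c₁ ^ (ℓ + 1))⁻¹ * G with hG'
  -- (ii) the Hecke relation for `G'`
  have hii : G' = HahnSeries.C c'' * Y' ^ a * u' ^ p := by
    rw [hG', hG, hS, huu'', mul_zpow, mul_pow, ← map_zpow₀, ← map_pow, hc'', map_mul, map_mul,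
      map_mul]
    ring
  -- (i) the norm shape for `G'`
  have hi : qExpand L ℓ G' = (∏ b ∈ Finset.range ℓ,
      twist (Units.map (algebraMap R L : R →* L) ζ ^ b) Y') * qExpand L (ℓ * ℓ) Y' := by
    rw [hG', map_mul, qExpand_C, h, hS, map_mul, qExpand_C]
    have e : ∀ b ∈ Finset.range ℓ,
        twist (Units.map (algebraMap R L : R →* L) ζ ^ b) (HahnSeries.C c₁ * Y')
          = HahnSeries.C c₁ * twist (Units.map (algebraMap R L : R →* L) ζ ^ b) Y' := by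
      intro b _
      rw [map_mul, twist_C]
    rw [Finset.prod_congr rfl e, Finset.prod_mul_distrib, Finset.prod_const, Finset.card_range,
      map_inv₀]
    have hC0 : (HahnSeries.C (c₁ ^ (ℓ + 1)) : LaurentSeries L) ≠ 0 :=
      (map_ne_zero_iff _ HahnSeries.C_injective).mpr (pow_ne_zero _ hc₁)
    have hCe : (HahnSeries.C c₁ : LaurentSeries L) ^ ℓ * HahnSeries.C c₁
        = HahnSeries.C (c₁ ^ (ℓ + 1)) := by
      rw [pow_succ, map_mul, map_pow]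
    calc (HahnSeries.C (c₁ ^ (ℓ + 1)) : LaurentSeries L)⁻¹ *
          (HahnSeries.C c₁ ^ ℓ * (∏ b ∈ Finset.range ℓ,
              twist (Units.map (algebraMap R L : R →* L) ζ ^ b) Y') *
            (HahnSeries.C c₁ * qExpand L (ℓ * ℓ) Y'))
        = (HahnSeries.C (c₁ ^ (ℓ + 1)) : LaurentSeries L)⁻¹ *
            ((HahnSeries.C c₁ : LaurentSeries L) ^ ℓ * HahnSeries.C c₁) *
          ((∏ b ∈ Finset.range ℓ,
              twist (Units.map (algebraMap R L : R →* L) ζ ^ b) Y') *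
            qExpand L (ℓ * ℓ) Y') := by ring
      _ = _ := by rw [hCe, inv_mul_cancel₀ hC0, one_mul]
  -- the constant is a unit
  have hU : Y' ^ a * u' ^ p ∈ gaussInt R L :=
    (gaussInt R L).mul_mem (zpow_mem_gaussInt hY' hY'u a) ((gaussInt R L).pow_mem hu' p)
  have hUr : gaussRed R L ⟨Y' ^ a * u' ^ p, hU⟩ ≠ 0 := by
    have e : (⟨Y' ^ a * u' ^ p, hU⟩ : gaussInt R L)
        = ⟨Y' ^ a, zpow_mem_gaussInt hY' hY'u a⟩ * ⟨u', hu'⟩ ^ p := rfl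
    rw [e, map_mul, map_pow, gaussRed_zpow hY' hY'u a]
    exact mul_ne_zero (zpow_ne_zero a hY'u) (pow_ne_zero p hu'u)
  have hV : qExpand L ℓ (Y' ^ a * u' ^ p) ∈ gaussInt R L :=
    (gaussHomQExpand R L ℓ).map_mem_gaussInt hU
  have hVr : gaussRed R L ⟨qExpand L ℓ (Y' ^ a * u' ^ p), hV⟩ ≠ 0 := by
    have e1 : gaussRed R L ⟨qExpand L ℓ (Y' ^ a * u' ^ p), hV⟩ =
        qExpand (ResidueField R) ℓ (gaussRed R L ⟨Y' ^ a * u' ^ p, hU⟩) :=
      (gaussHomQExpand R L ℓ).gaussRed_map hU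
    rw [e1]
    exact (map_ne_zero_iff _ (qExpand_injective (R := ResidueField R) ℓ)).mpr hUr
  have hPm : (∏ b ∈ Finset.range ℓ,
      twist (Units.map (algebraMap R L : R →* L) ζ ^ b) Y') * qExpand L (ℓ * ℓ) Y' ∈ gaussInt R L :=
    (gaussInt R L).mul_mem
      (Subring.prod_mem _ fun b _ => twist_pow_mem_gaussInt ζ b hY')
      ((gaussHomQExpand R L (ℓ * ℓ)).map_mem_gaussInt hY')
  have hPr : gaussRed R L ⟨_, hPm⟩ ≠ 0 := by
    have e2 : gaussRed R L ⟨qExpand L (ℓ * ℓ) Y',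
        (gaussHomQExpand R L (ℓ * ℓ)).map_mem_gaussInt hY'⟩ =
        qExpand (ResidueField R) (ℓ * ℓ) (gaussRed R L ⟨Y', hY'⟩) :=
      (gaussHomQExpand R L (ℓ * ℓ)).gaussRed_map hY'
    have e3 : (⟨_, hPm⟩ : gaussInt R L) =
        (∏ b ∈ Finset.range ℓ, (⟨twist (Units.map (algebraMap R L : R →* L) ζ ^ b) Y',
          twist_pow_mem_gaussInt ζ b hY'⟩ : gaussInt R L)) *
        ⟨qExpand L (ℓ * ℓ) Y', (gaussHomQExpand R L (ℓ * ℓ)).map_mem_gaussInt hY'⟩ := by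
      apply Subtype.ext
      rw [Subring.coe_mul, SubmonoidClass.coe_finsetProd]
    rw [e3, map_mul, map_prod, e2]
    refine mul_ne_zero (Finset.prod_ne_zero_iff.mpr fun b _ => ?_)
      ((map_ne_zero_iff _ (qExpand_injective (R := ResidueField R) (ℓ * ℓ))).mpr hY'u)
    rw [gaussRed_twist_pow ζ b hY']
    exact (map_ne_zero_iff _ (twist _).injective).mpr hY'u
  have hrel : HahnSeries.C c'' * qExpand L ℓ (Y' ^ a * u' ^ p) =
      (∏ b ∈ Finset.range ℓ,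
        twist (Units.map (algebraMap R L : R →* L) ζ ^ b) Y') * qExpand L (ℓ * ℓ) Y' := by
    have e : qExpand L ℓ G' = HahnSeries.C c'' * qExpand L ℓ (Y' ^ a * u' ^ p) := by
      rw [hii, mul_assoc, map_mul, qExpand_C]
    rw [← e, hi]
  obtain ⟨c₀, hc₀⟩ := exists_unit_of_C_mul_eq hc''0 hV hVr hPm hPr hrel
  exact eigen_of_norm_shape_gauss p hℓ ζ hζ hY' hY'u hu' hu'u c₀ a hi (by rw [hc₀]; exact hii) n

end Gauss

/-! ### the final forms: `T_ℓ f = c · f^a · u^p` gives the formal eigen-relation -/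

section Final

variable {p : ℕ} [hp : Fact p.Prime] {A : ValuationSubring Ω}

omit [NeZero ℓ] in
/-- every non-zero function of level `N` over `ℚ̄` is a constant times a unit of the coefficientwise
Gauss ring of `A`. -/
theorem exists_frac_normalisation (hA : A.LiesOverPrime p) (u : ↥(keyFq Ω N)) (hu : u ≠ 0) :
    ∃ (c₂ : Ω) (u' : LaurentSeries Ω) (hu' : u' ∈ fracInt A), c₂ ≠ 0 ∧
      fracRed A ⟨u', hu'⟩ ≠ 0 ∧ (u : LaurentSeries Ω) = HahnSeries.C c₂ * u' := by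
  obtain ⟨K₁, hK₁, u₁, hu₁, hu₁u⟩ :=
    exists_isBase_descent (F₀ := modularFunctionFieldFull N) p u.2
  haveI := hK₁.isDiscreteValuationRing hA
  have hu₁0 : u₁ ≠ 0 := by
    rintro rfl
    rw [map_zero] at hu₁u
    exact hu (Subtype.ext hu₁u.symm)
  obtain ⟨ϖ, hϖ⟩ := IsDiscreteValuationRing.exists_irreducible ↥(baseRing A K₁)
  have hg : u₁ ∈ gaussField ↥(baseRing A K₁) ↥K₁ :=
    laurentBaseChange_full_le_gaussField ↥(baseRing A K₁) ↥K₁ N hu₁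
  obtain ⟨m, u₁', hu₁', hu₁'inv, he⟩ := exists_zpow_mul_unit hϖ hg hu₁0
  have hu₁'0 : u₁' ≠ 0 := by
    rintro rfl
    rw [mul_zero] at he
    exact hu₁0 he
  have hred : gaussRed ↥(baseRing A K₁) ↥K₁ ⟨u₁', hu₁'⟩ ≠ 0 := by
    rw [← isUnit_gaussInt_iff]
    exact IsUnit.of_mul_eq_one ⟨u₁'⁻¹, hu₁'inv⟩ (Subtype.ext (mul_inv_cancel₀ hu₁'0))
  have hϖL : algebraMap ↥(baseRing A K₁) ↥K₁ ϖ ≠ 0 :=
    (map_ne_zero_iff _ (IsFractionRing.injective ↥(baseRing A K₁) ↥K₁)).mpr hϖ.ne_zero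
  refine ⟨algebraMap ↥K₁ Ω (algebraMap ↥(baseRing A K₁) ↥K₁ ϖ ^ m),
    coeffMap (algebraMap ↥K₁ Ω) u₁', coeffMap_mem_fracInt_of_mem_gaussInt hu₁', ?_, ?_, ?_⟩
  · exact (map_ne_zero_iff _ (algebraMap ↥K₁ Ω).injective).mpr (zpow_ne_zero m hϖL)
  · rw [fracRed_coeffMap_of_mem_gaussInt hu₁']
    exact (map_ne_zero_iff _ (coeffMapV_injective (baseResidueMap_injective A K₁))).mpr hred
  · rw [← hu₁u, he, map_mul, ← map_zpow₀, coeffMapV_C]

include hℓ hℓN in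
/-- **[RQ4-Q], final form over `ℚ̄`** (currency of `fracRed A`, `A` any valuation ring of `ℚ̄` over
`p`): a Hecke relation `T_ℓ f = c · f^a · u^p` in `F_N(ℚ̄)`, `ℓ ∤ N p`, and a normalisation
`f = c₁ · Y'` with `Y'` a unit of the coefficientwise Gauss ring: the coefficients `b n` of
`θȲ'/Ȳ'` satisfy `b (nℓ) + [ℓ ∣ n] ℓ · b (n/ℓ) = a · b n`. -/
theorem eigen_of_heckeFunK_frac [NeZero (N * ℓ)] (hA : A.LiesOverPrime p) (hℓp : ℓ ≠ p)
    (f u : ↥(keyFq Ω N)) (hu : u ≠ 0) {c : Ω} (hc : c ≠ 0) (a : ℤ)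
    (hT : heckeFunK Ω N ℓ f = algebraMap Ω ↥(keyFq Ω N) c * f ^ a * u ^ p)
    {c₁ : Ω} (hc₁ : c₁ ≠ 0) {Y' : LaurentSeries Ω} (hY' : Y' ∈ fracInt A)
    (hY'u : fracRed A ⟨Y', hY'⟩ ≠ 0) (hS : (f : LaurentSeries Ω) = HahnSeries.C c₁ * Y') (n : ℕ) :
    (dlogθ (fracRed A ⟨Y', hY'⟩)).coeff ((n * ℓ : ℕ) : ℤ) +
      (if ℓ ∣ n then (ℓ : ResidueField ↥A) *
        (dlogθ (fracRed A ⟨Y', hY'⟩)).coeff ((n / ℓ : ℕ) : ℤ) else 0) =
      (a : ResidueField ↥A) * (dlogθ (fracRed A ⟨Y', hY'⟩)).coeff (n : ℤ) := by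
  haveI : CharP (ResidueField ↥A) p := Fermat.Agent.JA.charP_residueField hA
  have hℓk : (ℓ : ResidueField ↥A) ≠ 0 := by
    intro h0
    have h1 : p ∣ ℓ := (CharP.cast_eq_zero_iff (ResidueField ↥A) p ℓ).mp h0
    rcases (Nat.dvd_prime hℓ).mp h1 with h2 | h2
    · exact hp.out.ne_one h2
    · exact hℓp h2.symm
  obtain ⟨ζ₀, hζ₀⟩ := HasEnoughRootsOfUnity.exists_primitiveRoot Ω ℓ
  have hζ₀0 : ζ₀ ≠ 0 := hζ₀.ne_zero (NeZero.ne ℓ)
  set ζ : Ωˣ := Units.mk0 ζ₀ hζ₀0 with hζdef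
  have hζ : IsPrimitiveRoot ζ ℓ := IsPrimitiveRoot.coe_units_iff.mp hζ₀
  obtain ⟨c₂, u', hu', hc₂, hu'u, hue⟩ := exists_frac_normalisation hA u hu
  have hG : ((heckeFunK Ω N ℓ f : ↥(keyFq Ω N)) : LaurentSeries Ω) =
      HahnSeries.C c * (f : LaurentSeries Ω) ^ a * (u : LaurentSeries Ω) ^ p := by
    have h1 := congrArg (keyFq Ω N).val hT
    rw [map_mul, map_mul, map_pow, map_zpow₀, AlgHom.commutes, algebraMap_laurent_eq_C] at h1
    exact h1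
  exact eigen_of_norm_shape_fracField p hℓk ζ hζ.pow_eq_one hc a
    (qExpand_heckeFunK_bar hℓ hℓN ζ hζ f) hG hc₁ hY' hY'u hS hc₂ hu' hu'u hue n

include hℓ hℓN in
/-- **[RQ4-Q], final form over a base** (currency of `gaussRed R' K'`, `R' = A ∩ K'`): a Hecke
relation `T_ℓ f₀ = c · f₀^a · u^p` in `F_N(K')`, `ℓ ∤ N p`, and a normalisation `f₀ = c₁ · Y'` with
`Y'` a unit of the Gauss ring: the coefficients `b n` of `θȲ'/Ȳ'` satisfy
`b (nℓ) + [ℓ ∣ n] ℓ · b (n/ℓ) = a · b n`. -/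
theorem eigen_of_heckeFunK_base [NeZero (N * ℓ)] (hA : A.LiesOverPrime p) (hℓp : ℓ ≠ p)
    {K' : IntermediateField ℚ Ω} (hK' : IsBase p K') [IsDiscreteValuationRing ↥(baseRing A K')]
    (f₀ u : ↥(keyFq ↥K' N)) (hu : u ≠ 0) {c : ↥K'} (hc : c ≠ 0) (a : ℤ)
    (hT : heckeFunK ↥K' N ℓ f₀ = algebraMap ↥K' ↥(keyFq ↥K' N) c * f₀ ^ a * u ^ p)
    {c₁ : ↥K'} (hc₁ : c₁ ≠ 0) {Y' : LaurentSeries ↥K'}
    (hY' : Y' ∈ gaussInt ↥(baseRing A K') ↥K')
    (hY'u : gaussRed ↥(baseRing A K') ↥K' ⟨Y', hY'⟩ ≠ 0)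
    (hS : (f₀ : LaurentSeries ↥K') = HahnSeries.C c₁ * Y') (n : ℕ) :
    (dlogθ (gaussRed ↥(baseRing A K') ↥K' ⟨Y', hY'⟩)).coeff ((n * ℓ : ℕ) : ℤ) +
      (if ℓ ∣ n then (ℓ : ResidueField ↥(baseRing A K')) *
        (dlogθ (gaussRed ↥(baseRing A K') ↥K' ⟨Y', hY'⟩)).coeff ((n / ℓ : ℕ) : ℤ) else 0) =
      (a : ResidueField ↥(baseRing A K')) *
        (dlogθ (gaussRed ↥(baseRing A K') ↥K' ⟨Y', hY'⟩)).coeff (n : ℤ) := by
  haveI : CharP (ResidueField ↥(baseRing A K')) p := charP_residueField_baseRing hA K'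
  have hℓk : (ℓ : ResidueField ↥(baseRing A K')) ≠ 0 := by
    intro h0
    have h1 : p ∣ ℓ := (CharP.cast_eq_zero_iff (ResidueField ↥(baseRing A K')) p ℓ).mp h0
    rcases (Nat.dvd_prime hℓ).mp h1 with h2 | h2
    · exact hp.out.ne_one h2
    · exact hℓp h2.symm
  have hℓp' : ¬ p ∣ ℓ := by
    intro h1
    rcases (Nat.dvd_prime hℓ).mp h1 with h2 | h2
    · exact hp.out.ne_one h2
    · exact hℓp h2.symm
  obtain ⟨ζ₀, hζ₀⟩ := hK'.exists_isPrimitiveRoot_baseRing A hℓ.pos hℓp'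
  have hζ₀u : IsUnit ζ₀ := IsUnit.of_pow_eq_one hζ₀.pow_eq_one hℓ.ne_zero
  obtain ⟨ζ, rfl⟩ := hζ₀u
  have hζ : IsPrimitiveRoot ζ ℓ := IsPrimitiveRoot.coe_units_iff.mp hζ₀
  have hζL : IsPrimitiveRoot (Units.map (algebraMap ↥(baseRing A K') ↥K' :
      ↥(baseRing A K') →* ↥K') ζ) ℓ := by
    have h2 := hζ₀.map_of_injective (IsFractionRing.injective ↥(baseRing A K') ↥K')
    exact IsPrimitiveRoot.coe_units_iff.mp h2
  have hu0 : (u : LaurentSeries ↥K') ≠ 0 := fun h0 => hu (Subtype.ext h0)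
  have hug : (u : LaurentSeries ↥K') ∈ gaussField ↥(baseRing A K') ↥K' :=
    laurentBaseChange_full_le_gaussField ↥(baseRing A K') ↥K' N u.2
  have hG : ((heckeFunK ↥K' N ℓ f₀ : ↥(keyFq ↥K' N)) : LaurentSeries ↥K') =
      HahnSeries.C c * (f₀ : LaurentSeries ↥K') ^ a * (u : LaurentSeries ↥K') ^ p := by
    have h1 := congrArg (keyFq ↥K' N).val hT
    rw [map_mul, map_mul, map_pow, map_zpow₀, AlgHom.commutes, algebraMap_laurent_eq_C] at h1
    exact h1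
  exact eigen_of_norm_shape_gaussField p hℓk ζ hζ.pow_eq_one hug hu0 hc a
    (qExpand_heckeFunK hℓ hℓN K' _ hζL f₀) hG hc₁ hY' hY'u hS n

end Final

end

end Fermat.Agent.MP.RQ4Q
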