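/-
MP40 (row 38: S44 / S40) — helper4 — **[IFACE2]: the revised contract for (KEY-PEU)** (helper8's
design correction, message 1740 (0)/(3a)).

The landed `KeyPeuAt` (arbitrary class `x`) is too strong for the first-order Picard–Lefschetz
method: the base over which `x` is rational must have wild ramification index at most `p`.  In the
situation of [TOP-L] the orbit of `x` under the inertia group at `A` lies in `x + 𝔽_p y` for a class
`y` of multiplicative type (`InertiaLineAt`); this is added as a hypothesis.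

* `InertiaLineAt M' p A x` : `∃ y`, `p y = 0`, `τ x ∈ x + ℕ y` for all `τ ∈ I_A`, and `I_A` acts on
  `y` through the mod `p` cyclotomic character.
* `KeyPeuAt₂`, `KeyPeu₂`, `KeyPeuFrom₂` : `KeyPeuAt` etc. with the extra hypothesis.
-/
import Mathlib
import Fermat.Agent.MP.IFACE_helper8_Defs

set_option autoImplicit false
set_option linter.unusedSectionVars false
set_option linter.unusedVariables false

open AlgebraicCurve ModularCurve

namespace Fermat.Agent.MP

open Fermat.Agent.S35 Fermat.Agent.NP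

/-- `Ω = AlgebraicClosure ℚ`. -/
local notation "Ω" => AlgebraicClosure ℚ

/-- the absolute Galois group. -/
local notation "GQ" => (AlgebraicClosure ℚ ≃ₐ[ℚ] AlgebraicClosure ℚ)

/-- **the inertia orbit of `x` lies on a line of multiplicative type**: there is a class `y` killed
by `p`, on which the inertia group at `A` acts through the mod `p` cyclotomic character, such that
`τ x ∈ x + ℕ y` for every `τ` in the inertia group. -/
def InertiaLineAt (M' p : ℕ) [NeZero (M' * p)] (A : ValuationSubring Ω) (x : JZero (M' * p)) :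
    Prop :=
  ∃ y : JZero (M' * p), p • y = 0 ∧
    (∀ τ ∈ A.inertiaSubgroupIn ℚ, ∃ n : ℕ, τ • x = x + n • y) ∧
    ∀ τ ∈ A.inertiaSubgroupIn ℚ, ∀ c : ℕ, CycAct p τ c → τ • y = c • y

/-- **(KEY-PEU), revised**, at one place `A ∣ p`. -/
def KeyPeuAt₂ (M' p : ℕ) [NeZero M'] [NeZero p] [NeZero (M' * p)] (A : ValuationSubring Ω) :
    Prop :=
  ∀ (S : Set ℕ) (a : ℕ → ℤ), (∀ ℓ : ℕ, ℓ.Prime → ℓ ∣ M' * p → ℓ ∈ S) →
    (∃ ℓ : ℕ, ℓ.Prime ∧ ℓ ∉ S ∧ ¬ (a ℓ ≡ (ℓ : ℤ) + 1 [ZMOD (p : ℤ)])) →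
    ∀ x : JZero (M' * p), p • x = 0 → degPushAlpha M' p x = 0 → degPushBeta M' p x = 0 →
      (∀ (ℓ : ℕ) (hℓ : ℓ.Prime), ℓ ∉ S → heckeOperatorBar (M' * p) ⟨ℓ, hℓ⟩ x = a ℓ • x) →
      PeuAt M' p A x → InertiaLineAt M' p A x →
      (∀ σ ∈ A.inertiaSubgroupIn ℚ, ∀ c : ℕ, CycAct p σ c → σ • x = c • x) ∨
        ResOccurs M' p S a

/-- **(KEY-PEU), revised**, at all places above `p`. -/
def KeyPeu₂ (M' p : ℕ) [NeZero M'] [NeZero p] [NeZero (M' * p)] : Prop :=
  ∀ A : ValuationSubring Ω, A.LiesOverPrime p → KeyPeuAt₂ M' p A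

/-- **the geometric input of MP40, revised, all levels, all primes `p ≥ p₀`**. -/
def KeyPeuFrom₂ (p₀ : ℕ) : Prop :=
  ∀ (M' p : ℕ) [NeZero M'] [NeZero p] [NeZero (M' * p)], p.Prime → p₀ ≤ p → ¬ p ∣ M' →
    KeyPeu₂ M' p

theorem KeyPeuFrom₂.mono {p₀ p₁ : ℕ} (h : KeyPeuFrom₂ p₀) (h01 : p₀ ≤ p₁) : KeyPeuFrom₂ p₁ :=
  fun M' p _ _ _ hp hp1 hpM => h M' p hp (h01.trans hp1) hpM

/-- the landed interface implies the revised one. -/
theorem KeyPeuAt.toKeyPeuAt₂ {M' p : ℕ} [NeZero M'] [NeZero p] [NeZero (M' * p)]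
    {A : ValuationSubring Ω} (h : KeyPeuAt M' p A) : KeyPeuAt₂ M' p A :=
  fun S a hS hnE x hpx hα hβ hT hpeu _ => h S a hS hnE x hpx hα hβ hT hpeu

end Fermat.Agent.MP
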