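/-
MP40 T3 [KEYPEU-DESC] — helper2 — **the small base of a function fixed by a subgroup `H ≤ G_ℚ`
normalised by a subgroup `G`** (generalisation of `NP/BASEP_helper2_TopField`, where
`G = I_A`, `H = {τ ∈ I_A | τ ζ_p = ζ_p}`).

* `exists_descent_finset_of_fixing` : an element of `Ω·F₀` fixed by a set `H` of automorphisms
  fixing `K^♭` pointwise is defined over every field `K₀ ⊇ K^♭` containing a certain finite set of
  `H`-fixed constants;
* `exists_stable_base` : finitely many `H`-fixed constants lie in a base `K'` stable under `G` and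
  fixed by `H` (`H` fixes `K^♭` pointwise, `G` normalises `H`);
* `exists_stable_descent` : both together.
-/
import Mathlib
import Fermat.Agent.NP.BASEP_helper2_TopField

set_option autoImplicit false
set_option linter.unusedSectionVars false
set_option linter.unusedVariables false
set_option linter.style.haveILetI false
set_option synthInstance.maxHeartbeats 400000

open HahnSeries IntermediateField ModularCurve

namespace Fermat.Agent.MP

open Fermat.Agent.X0N Fermat.Agent.JA Fermat.Agent.SS Fermat.Agent.S35 Fermat.Agent.NP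

/-- `Ω = AlgebraicClosure ℚ`. -/
local notation "Ω" => AlgebraicClosure ℚ

/-- the absolute Galois group. -/
local notation "GQ" => (AlgebraicClosure ℚ ≃ₐ[ℚ] AlgebraicClosure ℚ)

section Desc

variable (q : ℕ)

set_option maxHeartbeats 800000 in
/-- **descent to the fields containing finitely many fixed constants**: an element of `Ω·F₀` fixed
by a set `H` of automorphisms fixing `K^♭` pointwise is defined over every `K₀ ⊇ K^♭` containing
a certain finite set of `H`-fixed elements. -/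
theorem exists_descent_finset_of_fixing
    (F₀ : IntermediateField ℚ (LaurentSeries ℚ)) {f : LaurentSeries Ω}
    (hf : f ∈ laurentBaseChange Ω F₀) (H : Set GQ)
    (hH : ∀ σ ∈ H, ∀ a ∈ flatBase q, σ a = a)
    (hfix : ∀ σ ∈ H, coeffMap ((σ : GQ) : Ω →+* Ω) f = f) :
    ∃ s : Finset Ω, (∀ y ∈ s, ∀ σ ∈ H, σ y = y) ∧
      ∀ K₀ : IntermediateField ℚ Ω, flatBase q ≤ K₀ → (∀ y ∈ s, y ∈ K₀) →
        ∃ f₀ ∈ laurentBaseChange ↥K₀ F₀, coeffMap (algebraMap ↥K₀ Ω) f₀ = f := by
  classical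
  set B := Module.Basis.ofVectorSpace ↥(flatBase q) ↥(laurentBaseChange ↥(flatBase q) F₀) with hB
  obtain ⟨c, hc⟩ := mem_range_iotaSum_of_mem (K := ↥(flatBase q)) (L := Ω) F₀ B hf
  -- the coordinates are fixed by `H`
  have hcfix : ∀ σ ∈ H, ∀ i, σ (c i) = c i := by
    intro σ hσ i
    refine apply_coord_eq F₀ B ((σ : GQ) : Ω →+* Ω)
      (fun a => hH σ hσ _ a.2) c ?_ i
    rw [hc]
    exact hfix σ hσ
  refine ⟨c.support.image c, ?_, ?_⟩
  · intro y hy σ hσ
    obtain ⟨i, -, rfl⟩ := Finset.mem_image.mp hy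
    exact hcfix σ hσ i
  intro K₀ hle hs
  have hcK₀ : ∀ i, c i ∈ K₀ := by
    intro i
    by_cases hi : i ∈ c.support
    · exact hs _ (Finset.mem_image_of_mem c hi)
    · rw [Finsupp.notMem_support_iff.mp hi]
      exact zero_mem _
  -- the descended element
  set φ : ↥(flatBase q) →+* ↥K₀ := (IntermediateField.inclusion hle).toRingHom with hφ
  set c₀ : _ →₀ ↥K₀ := c.mapRange (fun a => if h : a ∈ K₀ then (⟨a, h⟩ : ↥K₀) else 0)
    (by rw [dif_pos (zero_mem K₀)]; rfl) with hc₀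
  set v₀ : _ → LaurentSeries ↥K₀ := fun i =>
    coeffMap φ ((B i : ↥(laurentBaseChange ↥(flatBase q) F₀)) : LaurentSeries ↥(flatBase q))
    with hv₀
  refine ⟨iotaSum v₀ c₀, iotaSum_mem _ v₀ (fun i =>
    coeffMap_hom_mem_laurentBaseChange φ F₀ (B i).2) c₀, ?_⟩
  rw [coeffMap_iotaSum, ← hc]
  have h1 : (fun i => coeffMap (algebraMap ↥K₀ Ω) (v₀ i)) = iotaVec (L := Ω) F₀ B := by
    funext i
    rw [hv₀]
    show coeffMap (algebraMap ↥K₀ Ω) (coeffMap φ _) = _
    rw [coeffMap_coeffMap]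
    rfl
  have h2 : c₀.mapRange (algebraMap ↥K₀ Ω) (map_zero _) = c := by
    ext i
    rw [Finsupp.mapRange_apply, hc₀, Finsupp.mapRange_apply, dif_pos (hcK₀ i)]
    rfl
  rw [h1, h2]

set_option maxHeartbeats 800000 in
/-- **the stable base**: `H ≤ G_ℚ` fixing `K^♭` pointwise, normalised by `G ≤ G_ℚ`; finitely many
constants fixed by `H` lie in a base `K'` stable under `G` and fixed by `H`. -/
theorem exists_stable_base (G H : Subgroup GQ)
    (hH : ∀ τ ∈ H, ∀ a ∈ flatBase q, τ a = a)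
    (hnorm : ∀ σ ∈ G, ∀ τ ∈ H, σ⁻¹ * τ * σ ∈ H) (s : Finset Ω)
    (hs : ∀ y ∈ s, ∀ τ ∈ H, τ y = y) :
    ∃ K' : IntermediateField ℚ Ω, IsBase q K' ∧ (∀ y ∈ s, y ∈ K') ∧
      (∀ σ ∈ G, ∀ x ∈ K', σ x ∈ K') ∧ (∀ τ ∈ H, ∀ x ∈ K', τ x = x) := by
  classical
  set T : Set Ω := {z | ∃ σ ∈ G, ∃ y ∈ s, σ y = z} with hT
  have hTfin : T.Finite := by
    refine Set.Finite.subset (Set.Finite.biUnion s.finite_toSet
      (fun y _ => (minpoly ℚ y).rootSet_finite Ω)) ?_
    rintro z ⟨σ, -, y, hy, rfl⟩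
    refine Set.mem_biUnion (Finset.mem_coe.2 hy) ?_
    rw [Polynomial.mem_rootSet]
    have hint : IsIntegral ℚ y := (Algebra.IsAlgebraic.isAlgebraic y).isIntegral
    refine ⟨minpoly.ne_zero hint, ?_⟩
    rw [← minpoly.algEquiv_eq σ y]
    exact minpoly.aeval ℚ (σ y)
  haveI : Finite T := hTfin.to_subtype
  set F : IntermediateField ℚ Ω := IntermediateField.adjoin ℚ T with hF
  haveI : FiniteDimensional ℚ ↥F :=
    IntermediateField.finiteDimensional_adjoin
      (fun x _ => (Algebra.IsAlgebraic.isAlgebraic x).isIntegral)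
  set K' : IntermediateField ℚ Ω := flatBase q ⊔ F with hK'
  have hTK : ∀ z ∈ T, z ∈ K' := fun z hz =>
    (le_sup_right : F ≤ K') (IntermediateField.subset_adjoin ℚ _ hz)
  have hsT : ∀ y ∈ s, y ∈ T := fun y hy => ⟨1, one_mem _, y, hy, rfl⟩
  refine ⟨K', ⟨F, inferInstance, rfl⟩, fun y hy => hTK y (hsT y hy), ?_, ?_⟩
  · -- stability
    intro σ hσ
    have hle : K' ≤ K'.comap (σ : Ω →ₐ[ℚ] Ω) := by
      refine sup_le ?_ ?_
      · intro x hx
        show σ x ∈ K'
        exact (le_sup_left : flatBase q ≤ K') (map_flatBase_le σ ⟨x, hx, rfl⟩)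
      · rw [hF, IntermediateField.adjoin_le_iff]
        rintro z ⟨σ', hσ', y, hy, rfl⟩
        show σ (σ' y) ∈ K'
        exact hTK _ ⟨σ * σ', mul_mem hσ hσ', y, hy, rfl⟩
    exact fun x hx => hle hx
  · -- fixed by `H`
    have hle : K' ≤ IntermediateField.fixedField H := by
      refine sup_le ?_ ?_
      · intro x hx
        rw [IntermediateField.mem_fixedField_iff]
        exact fun τ hτ => hH τ hτ x hx
      · rw [hF, IntermediateField.adjoin_le_iff]
        rintro z ⟨σ, hσ, y, hy, rfl⟩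
        show σ y ∈ IntermediateField.fixedField H
        rw [IntermediateField.mem_fixedField_iff]
        intro τ hτ
        have h1 := hs y hy _ (hnorm σ hσ τ hτ)
        rw [AlgEquiv.mul_apply, AlgEquiv.mul_apply] at h1
        have h2 := congrArg σ h1
        rwa [← AlgEquiv.mul_apply, mul_inv_cancel, AlgEquiv.one_apply] at h2
    intro τ hτ x hx
    exact (IntermediateField.mem_fixedField_iff _ _).1 (hle hx) τ hτ

/-- **the stable base of definition**: an element of `Ω·F₀` fixed by `H` (fixing `K^♭` pointwise,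
normalised by `G`) is defined over a base `K'`, stable under `G` and fixed by `H`, containing a
given finite set of `H`-fixed constants. -/
theorem exists_stable_descent (G H : Subgroup GQ)
    (hH : ∀ τ ∈ H, ∀ a ∈ flatBase q, τ a = a)
    (hnorm : ∀ σ ∈ G, ∀ τ ∈ H, σ⁻¹ * τ * σ ∈ H) (s : Finset Ω)
    (hs : ∀ y ∈ s, ∀ τ ∈ H, τ y = y)
    (F₀ : IntermediateField ℚ (LaurentSeries ℚ)) {f : LaurentSeries Ω}
    (hf : f ∈ laurentBaseChange Ω F₀)
    (hfix : ∀ σ ∈ H, coeffMap ((σ : GQ) : Ω →+* Ω) f = f) :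
    ∃ K' : IntermediateField ℚ Ω, IsBase q K' ∧ (∀ y ∈ s, y ∈ K') ∧
      (∀ σ ∈ G, ∀ x ∈ K', σ x ∈ K') ∧ (∀ τ ∈ H, ∀ x ∈ K', τ x = x) ∧
      ∃ f₀ ∈ laurentBaseChange ↥K' F₀, coeffMap (algebraMap ↥K' Ω) f₀ = f := by
  classical
  obtain ⟨s₀, hs₀fix, hs₀desc⟩ := exists_descent_finset_of_fixing q F₀ hf (H : Set GQ) hH hfix
  obtain ⟨K', hK', hsK', hstab, hK'fix⟩ := exists_stable_base q G H hH hnorm (s ∪ s₀)
    (fun y hy τ hτ => by
      rcases Finset.mem_union.1 hy with hy | hy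
      · exact hs y hy τ hτ
      · exact hs₀fix y hy τ hτ)
  exact ⟨K', hK', fun y hy => hsK' y (Finset.mem_union_left _ hy), hstab, hK'fix,
    hs₀desc K' hK'.flatBase_le fun y hy => hsK' y (Finset.mem_union_right _ hy)⟩

end Desc

end Fermat.Agent.MP
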