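/-
MP40 (row 38: S44 / S40) — helper4 — **[KEYPEU-DESC], part 1: the small base of (KEY-PEU)**.

Situation of `InertiaLineAt`: `x ∈ J₀(N)[p]`, `τ x ∈ x + ℕ y` for `τ` in the inertia group `I = I_A`,
`I` acting on `y` through the mod `p` cyclotomic character.
`H = {τ ∈ I | τ ζ_p = ζ_p, τ x = x}` (`peuStab`) is normalised by `I`, so that finitely many `H`-fixed
constants lie in a base `K' ∋ ζ_p` which is stable under `I` and fixed by `H`
(helper2's `exists_stable_descent`).  The wild ramification index of such a base is at most `p`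
(`exists_pow_valuation_eq_of_peuFixed`, `exists_zeta_sub_one_eq_unit_mul_pow`): `ζ_p - 1 = u ϖ ^ m`
with `1 ≤ m ≤ p`.  The restriction `s` to `K'` of an element of `I` fixing `ζ_p` is of inertia type
and `s ^ p = 1`; the witness of `PeuAt` gives (peu) over `R' = A ∩ K'`.
-/
import Mathlib
import Fermat.Agent.NP.BASEP_helper2_TopField
import Fermat.Agent.MP.KPDESC_helper2_Field
import Fermat.Agent.MP.IFACE2_helper4_Defs

set_option autoImplicit false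
set_option linter.unusedSectionVars false
set_option linter.unusedVariables false
set_option linter.style.haveILetI false
set_option synthInstance.maxHeartbeats 400000

open HahnSeries IntermediateField AlgebraicCurve ModularCurve

namespace Fermat.Agent.MP

open Fermat.Agent.X0N Fermat.Agent.JA Fermat.Agent.SS Fermat.Agent.S35 Fermat.Agent.NP

/-- `Ω = AlgebraicClosure ℚ`. -/
local notation "Ω" => AlgebraicClosure ℚ

/-- the absolute Galois group. -/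
local notation "GQ" => (AlgebraicClosure ℚ ≃ₐ[ℚ] AlgebraicClosure ℚ)

section Stab

variable {N : ℕ} [NeZero N]

/-- `H = {τ ∈ I_A | τ ζ = ζ, τ x = x}`. -/
def peuStab (A : ValuationSubring Ω) (ζ : Ω) (x : JZero N) : Subgroup GQ where
  carrier := {τ | τ ∈ A.inertiaSubgroupIn ℚ ∧ τ ζ = ζ ∧ τ • x = x}
  mul_mem' := by
    rintro a b ⟨ha, haζ, hax⟩ ⟨hb, hbζ, hbx⟩
    exact ⟨mul_mem ha hb, by rw [AlgEquiv.mul_apply, hbζ, haζ], by rw [mul_smul, hbx, hax]⟩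
  one_mem' := ⟨one_mem _, rfl, one_smul _ _⟩
  inv_mem' := by
    rintro a ⟨ha, haζ, hax⟩
    refine ⟨inv_mem ha, ?_, ?_⟩
    · have h1 : a⁻¹ (a ζ) = ζ := by rw [← AlgEquiv.mul_apply, inv_mul_cancel, AlgEquiv.one_apply]
      rwa [haζ] at h1
    · have h1 : a⁻¹ • (a • x) = x := inv_smul_smul a x
      rwa [hax] at h1

theorem mem_peuStab {A : ValuationSubring Ω} {ζ : Ω} {x : JZero N} {τ : GQ} :
    τ ∈ peuStab A ζ x ↔ τ ∈ A.inertiaSubgroupIn ℚ ∧ τ ζ = ζ ∧ τ • x = x := Iff.rfl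

theorem peuStab_le_cycStab (A : ValuationSubring Ω) (ζ : Ω) (x : JZero N) :
    peuStab A ζ x ≤ cycStab A ζ := fun τ hτ => ⟨hτ.1, hτ.2.1⟩

/-- an element fixing `ζ_p` acts trivially on `μ_p`. -/
theorem cycAct_one_of_apply_eq {p : ℕ} {ζ : Ω} (hζ : IsPrimitiveRoot ζ p) (hp : p.Prime) {τ : GQ}
    (hτ : τ ζ = ζ) : CycAct p τ 1 := by
  haveI : NeZero p := ⟨hp.ne_zero⟩
  intro μ hμ
  obtain ⟨i, -, rfl⟩ := hζ.eq_pow_of_pow_eq_one hμ
  rw [map_pow, hτ, pow_one]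

/-- **`H` is normalised by the inertia group.** -/
theorem conj_mem_peuStab {p : ℕ} {A : ValuationSubring Ω} {ζ : Ω} (hζ : IsPrimitiveRoot ζ p)
    (hp : p.Prime) {x y : JZero N}
    (hx : ∀ τ ∈ A.inertiaSubgroupIn ℚ, ∃ n : ℕ, τ • x = x + n • y)
    (hy : ∀ τ ∈ A.inertiaSubgroupIn ℚ, ∀ c : ℕ, CycAct p τ c → τ • y = c • y)
    {σ τ : GQ} (hσ : σ ∈ A.inertiaSubgroupIn ℚ) (hτ : τ ∈ peuStab A ζ x) :
    σ⁻¹ * τ * σ ∈ peuStab A ζ x := by
  have h1 := conj_mem_cycStab hζ hp hσ (peuStab_le_cycStab A ζ x hτ)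
  refine ⟨h1.1, h1.2, ?_⟩
  obtain ⟨n, hn⟩ := hx σ hσ
  have hτy : τ • y = y := by
    have := hy τ hτ.1 1 (cycAct_one_of_apply_eq hζ hp hτ.2.1)
    rwa [one_smul] at this
  have hτn : τ • (n • y) = n • (τ • y) :=
    map_nsmul (DistribSMul.toAddMonoidHom (JZero N) τ) n y
  rw [mul_smul, mul_smul, hn, smul_add, hτn, hτ.2.2, hτy, ← hn, inv_smul_smul]

end Stab


section Wild

variable {N : ℕ} [NeZero N] {p : ℕ} {A : ValuationSubring Ω}

/-- the orbit of `x` under the inertia group lies in `{x + n y | n < p}`. -/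
theorem exists_lt_smul_eq_add_nsmul {x y : JZero N} (hp : p.Prime) (hpy : p • y = 0)
    (hx : ∀ τ ∈ A.inertiaSubgroupIn ℚ, ∃ n : ℕ, τ • x = x + n • y) {τ : GQ}
    (hτ : τ ∈ A.inertiaSubgroupIn ℚ) : ∃ n : ℕ, n < p ∧ τ • x = x + n • y := by
  obtain ⟨n, hn⟩ := hx τ hτ
  refine ⟨n % p, Nat.mod_lt _ hp.pos, ?_⟩
  have h1 : n • y = (n % p) • y := by
    conv_lhs => rw [← Nat.div_add_mod n p, add_nsmul, mul_nsmul, hpy, nsmul_zero, zero_add]
  rw [hn, h1]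

set_option maxHeartbeats 800000 in
/-- **the wild orbit product**: there is `1 ≤ m ≤ p` such that the `m`-th power of the value of
every non-zero constant fixed by `H = peuStab A ζ x` is an integral power of `v (ζ_p - 1)`. -/
theorem exists_pow_valuation_eq_of_peuFixed (hp : p.Prime) (hA : A.LiesOverPrime p) {ζ : Ω}
    (hζ : IsPrimitiveRoot ζ p) {x y : JZero N} (hpy : p • y = 0)
    (hx : ∀ τ ∈ A.inertiaSubgroupIn ℚ, ∃ n : ℕ, τ • x = x + n • y) :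
    ∃ m : ℕ, 0 < m ∧ m ≤ p ∧ ∀ z : Ω, z ≠ 0 → (∀ τ ∈ peuStab A ζ x, τ z = z) →
      ∃ j : ℤ, A.valuation z ^ m = A.valuation (ζ - 1) ^ j := by
  classical
  set I' := cycStab A ζ with hI'
  set C : Set (JZero N) := {c | ∃ σ ∈ I', σ • x = c} with hC
  have hCsub : C ⊆ ((Finset.range p).image (fun n : ℕ => x + n • y) : Finset (JZero N)) := by
    rintro c ⟨σ, hσ, rfl⟩
    obtain ⟨n, hn, hn'⟩ := exists_lt_smul_eq_add_nsmul hp hpy hx hσ.1
    exact Finset.mem_coe.2 (Finset.mem_image.2 ⟨n, Finset.mem_range.2 hn, hn'.symm⟩)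
  have hCfin : C.Finite := Set.Finite.subset (Finset.finite_toSet _) hCsub
  set Cf : Finset (JZero N) := hCfin.toFinset with hCf
  have hmemCf : ∀ c, c ∈ Cf ↔ c ∈ C := fun c => hCfin.mem_toFinset
  have hxC : x ∈ C := ⟨1, one_mem _, one_smul _ _⟩
  have hcard_pos : 0 < Cf.card := Finset.card_pos.2 ⟨x, (hmemCf x).2 hxC⟩
  have hcard_le : Cf.card ≤ p := by
    have h1 : Cf ⊆ (Finset.range p).image (fun n : ℕ => x + n • y) := fun c hc =>
      Finset.mem_coe.1 (hCsub ((hmemCf c).1 hc))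
    calc Cf.card ≤ ((Finset.range p).image (fun n : ℕ => x + n • y)).card :=
          Finset.card_le_card h1
      _ ≤ (Finset.range p).card := Finset.card_image_le
      _ = p := Finset.card_range p
  -- representatives
  have hrep : ∀ c : JZero N, ∃ σ : GQ, c ∈ C → σ ∈ I' ∧ σ • x = c := by
    intro c
    by_cases hc : c ∈ C
    · obtain ⟨σ, hσ, hσc⟩ := hc
      exact ⟨σ, fun _ => ⟨hσ, hσc⟩⟩
    · exact ⟨1, fun h => absurd h hc⟩
  choose rep hrep using hrep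
  refine ⟨Cf.card, hcard_pos, hcard_le, fun z hz hfix => ?_⟩
  set Nz : Ω := ∏ c ∈ Cf, rep c z with hNz
  have hN0 : Nz ≠ 0 := Finset.prod_ne_zero_iff.2 fun c _ => (map_ne_zero _).2 hz
  have hmapC : ∀ τ ∈ I', ∀ c ∈ C, τ • c ∈ C := by
    intro τ hτ c hc
    obtain ⟨σ, hσ, rfl⟩ := hc
    exact ⟨τ * σ, mul_mem hτ hσ, mul_smul _ _ _⟩
  -- the key relation
  have hkey : ∀ τ ∈ I', ∀ c ∈ C, τ (rep c z) = rep (τ • c) z := by
    intro τ hτ c hc
    have hτc : τ • c ∈ C := hmapC τ hτ c hc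
    obtain ⟨h1, h2⟩ := hrep c hc
    obtain ⟨h3, h4⟩ := hrep (τ • c) hτc
    have hρ' : ((rep (τ • c))⁻¹ * τ * rep c) ∈ I' := mul_mem (mul_mem (inv_mem h3) hτ) h1
    have hρ : ((rep (τ • c))⁻¹ * τ * rep c) ∈ peuStab A ζ x := by
      refine ⟨hρ'.1, hρ'.2, ?_⟩
      rw [mul_smul, mul_smul, h2]
      calc (rep (τ • c))⁻¹ • (τ • c) = (rep (τ • c))⁻¹ • (rep (τ • c) • x) := by rw [h4]
        _ = x := inv_smul_smul _ _
    have h5 := hfix _ hρ
    rw [AlgEquiv.mul_apply, AlgEquiv.mul_apply] at h5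
    have h6 := congrArg (rep (τ • c)) h5
    rwa [← AlgEquiv.mul_apply, mul_inv_cancel, AlgEquiv.one_apply] at h6
  have hfixN : ∀ τ ∈ I', τ Nz = Nz := by
    intro τ hτ
    rw [hNz, map_prod]
    refine Finset.prod_bij' (fun c _ => τ • c) (fun c _ => τ⁻¹ • c) ?_ ?_ ?_ ?_ ?_
    · intro c hc
      exact (hmemCf _).2 (hmapC τ hτ c ((hmemCf c).1 hc))
    · intro c hc
      exact (hmemCf _).2 (hmapC τ⁻¹ (inv_mem hτ) c ((hmemCf c).1 hc))
    · intro c hc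
      exact inv_smul_smul τ c
    · intro c hc
      exact smul_inv_smul τ c
    · intro c hc
      exact hkey τ hτ c ((hmemCf c).1 hc)
  obtain ⟨j, hj⟩ := exists_zpow_valuation_eq_of_cycFixed hp hA hζ Nz hN0
    (fun τ hτ hτζ => hfixN τ ⟨hτ, hτζ⟩)
  refine ⟨j, ?_⟩
  rw [← hj, hNz, map_prod]
  rw [Finset.prod_congr rfl (fun c hc =>
    Fermat.Agent.EC.valuation_map_eq_of_mem_decompositionSubgroup hp hA
      (Fermat.Agent.EC.inertiaSubgroupIn_le_decompositionSubgroup' A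
        (hrep c ((hmemCf c).1 hc)).1.1) z), Finset.prod_const]

/-- **the wild ramification index of a base fixed by `H` is at most `p`**: for a uniformizer `ϖ` of
`R' = A ∩ K'`: `ζ - 1 = u ϖ ^ m` with `1 ≤ m ≤ p`. -/
theorem exists_zeta_sub_one_eq_unit_mul_pow (hp : p.Prime) (hA : A.LiesOverPrime p) {ζ : Ω}
    (hζ : IsPrimitiveRoot ζ p) {x y : JZero N} (hpy : p • y = 0)
    (hx : ∀ τ ∈ A.inertiaSubgroupIn ℚ, ∃ n : ℕ, τ • x = x + n • y)
    (K' : IntermediateField ℚ Ω) (hK' : IsBase p K')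
    (hfix : ∀ τ ∈ peuStab A ζ x, ∀ z ∈ K', τ z = z)
    (ζR : ↥(baseRing A K')) (hζR : ((ζR : ↥K') : Ω) = ζ)
    {ϖ : ↥(baseRing A K')} (hϖ : Irreducible ϖ) :
    ∃ (m : ℕ) (u : (↥(baseRing A K'))ˣ), 0 < m ∧ m ≤ p ∧ ζR - 1 = u * ϖ ^ m := by
  haveI : Fact p.Prime := ⟨hp⟩
  haveI : IsDiscreteValuationRing ↥(baseRing A K') := hK'.isDiscreteValuationRing hA
  have hζ1 : ζ - 1 ≠ 0 := sub_ne_zero.2 (hζ.ne_one hp.one_lt)
  have hcoe : ((((ζR - 1 : ↥(baseRing A K')) : ↥K')) : Ω) = ζ - 1 := by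
    rw [← hζR]
    rfl
  have h0 : ζR - 1 ≠ 0 := by
    intro h
    rw [h] at hcoe
    exact hζ1 hcoe.symm
  obtain ⟨n, u, hu⟩ := IsDiscreteValuationRing.eq_unit_mul_pow_irreducible h0 hϖ
  set c := A.valuation (((ϖ : ↥K') : Ω)) with hc
  have hϖ0 : (((ϖ : ↥K') : Ω)) ≠ 0 := by
    intro h
    apply hϖ.ne_zero
    apply Subtype.ext
    apply Subtype.ext
    exact h
  have hc0 : c ≠ 0 := (Valuation.ne_zero_iff _).2 hϖ0
  have hcpos : 0 < c := zero_lt_iff.2 hc0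
  have hc1 : c < 1 := by
    rw [hc, ← mem_maximalIdeal_baseRing_iff]
    exact (IsLocalRing.mem_maximalIdeal _).2 hϖ.not_isUnit
  have hvu : A.valuation ((((u : ↥(baseRing A K')) : ↥K')) : Ω) = 1 :=
    (isUnit_baseRing_iff _).1 u.isUnit
  have hvζ : A.valuation (ζ - 1) = c ^ n := by
    rw [← hcoe, hu]
    show A.valuation (((((u : ↥(baseRing A K')) : ↥K')) : Ω) * (((ϖ : ↥K') : Ω)) ^ n) = _
    rw [map_mul, map_pow, hvu, one_mul]
  have hvζ1 : A.valuation (ζ - 1) < 1 := by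
    by_contra hge
    rw [not_lt] at hge
    have h1 : 1 ≤ A.valuation (ζ - 1) ^ (p - 1) := one_le_pow₀ hge
    rw [Fermat.Agent.TW.valuation_sub_one_pow_eq hp hζ] at h1
    exact absurd (valuation_prime_lt_one (ℓ := p) hA) (not_lt.2 h1)
  have hn0 : 0 < n := by
    rcases Nat.eq_zero_or_pos n with h | h
    · rw [h, pow_zero] at hvζ
      exact absurd hvζ (ne_of_lt hvζ1)
    · exact h
  obtain ⟨m₀, hm₀pos, hm₀le, hm₀⟩ := exists_pow_valuation_eq_of_peuFixed hp hA hζ hpy hx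
  obtain ⟨j, hj⟩ := hm₀ _ hϖ0 (fun τ hτ => hfix τ hτ _ (ϖ : ↥K').2)
  have hinj : Function.Injective (fun k : ℤ => c ^ k) :=
    zpow_right_injective₀ hcpos (ne_of_lt hc1)
  have hnm : (m₀ : ℤ) = (n : ℤ) * j := by
    apply hinj
    show c ^ (m₀ : ℤ) = c ^ ((n : ℤ) * j)
    rw [zpow_natCast, zpow_mul, zpow_natCast, ← hvζ, ← hj]
  have hjpos : 0 < j := by
    by_contra h
    rw [not_lt] at h
    have h1 : (0 : ℤ) < m₀ := by exact_mod_cast hm₀pos
    have h2 : (0 : ℤ) < n := by exact_mod_cast hn0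
    nlinarith
  have hnle : n ≤ m₀ := by
    have h2 : (0 : ℤ) < n := by exact_mod_cast hn0
    have h3 : (n : ℤ) ≤ m₀ := by
      rw [hnm]
      nlinarith
    exact_mod_cast h3
  exact ⟨n, u, hn0, hnle.trans hm₀le, hu⟩

end Wild

section Aut

variable {N : ℕ} [NeZero N] {p : ℕ} {A : ValuationSubring Ω}

/-- the powers of an element of the inertia group fixing `ζ_p` act on `x` by translations. -/
theorem pow_smul_eq_add_nsmul {ζ : Ω} (hζ : IsPrimitiveRoot ζ p) (hp : p.Prime) {x y : JZero N}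
    (hy : ∀ τ ∈ A.inertiaSubgroupIn ℚ, ∀ c : ℕ, CycAct p τ c → τ • y = c • y)
    {τ : GQ} (hτ : τ ∈ A.inertiaSubgroupIn ℚ) (hτζ : τ ζ = ζ) {n : ℕ} (hn : τ • x = x + n • y)
    (k : ℕ) : (τ ^ k) • x = x + (k * n) • y := by
  have hτy : τ • y = y := by
    have := hy τ hτ 1 (cycAct_one_of_apply_eq hζ hp hτζ)
    rwa [one_smul] at this
  have hτn : ∀ m : ℕ, τ • (m • y) = m • y := by
    intro m
    have h1 : τ • (m • y) = m • (τ • y) := map_nsmul (DistribSMul.toAddMonoidHom (JZero N) τ) m y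
    rw [h1, hτy]
  induction k with
  | zero => rw [pow_zero, one_smul, zero_mul, zero_nsmul, add_zero]
  | succ k ih =>
    rw [pow_succ', mul_smul, ih, smul_add, hτn, hn, add_assoc, ← add_nsmul]
    congr 2
    ring

/-- the `p`-th power of an element of the inertia group fixing `ζ_p` lies in `H`. -/
theorem pow_prime_mem_peuStab {ζ : Ω} (hζ : IsPrimitiveRoot ζ p) (hp : p.Prime) {x y : JZero N}
    (hpy : p • y = 0) (hx : ∀ τ ∈ A.inertiaSubgroupIn ℚ, ∃ n : ℕ, τ • x = x + n • y)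
    (hy : ∀ τ ∈ A.inertiaSubgroupIn ℚ, ∀ c : ℕ, CycAct p τ c → τ • y = c • y)
    {τ : GQ} (hτ : τ ∈ A.inertiaSubgroupIn ℚ) (hτζ : τ ζ = ζ) : τ ^ p ∈ peuStab A ζ x := by
  refine ⟨pow_mem hτ p, ?_, ?_⟩
  · have h1 : ∀ k : ℕ, (τ ^ k) ζ = ζ := by
      intro k
      induction k with
      | zero => rfl
      | succ k ih => rw [pow_succ', AlgEquiv.mul_apply, ih, hτζ]
    exact h1 p
  · obtain ⟨n, hn⟩ := hx τ hτ
    rw [pow_smul_eq_add_nsmul hζ hp hy hτ hτζ hn p, mul_nsmul, hpy, nsmul_zero, add_zero]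

/-- the restriction of a power. -/
theorem coe_resStable_pow (K' : IntermediateField ℚ Ω) (σ : GQ) (h1 : ∀ x ∈ K', σ x ∈ K')
    (h2 : ∀ x ∈ K', σ⁻¹ x ∈ K') (k : ℕ) (a : ↥K') :
    ((((resStable K' σ h1 h2) ^ k) a : ↥K') : Ω) = (σ ^ k) (a : Ω) := by
  induction k generalizing a with
  | zero => rfl
  | succ k ih =>
    rw [pow_succ', pow_succ', AlgEquiv.mul_apply, AlgEquiv.mul_apply, coe_resStable, ih]

/-- **`s ^ p = 1`** for the restriction `s` to `K'` of an element of the inertia group fixing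
`ζ_p`, when `K'` is fixed by `H`. -/
theorem resStable_pow_prime_eq_one {ζ : Ω} (hζ : IsPrimitiveRoot ζ p) (hp : p.Prime)
    {x y : JZero N} (hpy : p • y = 0)
    (hx : ∀ τ ∈ A.inertiaSubgroupIn ℚ, ∃ n : ℕ, τ • x = x + n • y)
    (hy : ∀ τ ∈ A.inertiaSubgroupIn ℚ, ∀ c : ℕ, CycAct p τ c → τ • y = c • y)
    (K' : IntermediateField ℚ Ω) (hfix : ∀ τ ∈ peuStab A ζ x, ∀ z ∈ K', τ z = z)
    {τ : GQ} (hτ : τ ∈ A.inertiaSubgroupIn ℚ) (hτζ : τ ζ = ζ) (h1 : ∀ x ∈ K', τ x ∈ K')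
    (h2 : ∀ x ∈ K', τ⁻¹ x ∈ K') : (resStable K' τ h1 h2) ^ p = 1 := by
  apply AlgEquiv.ext
  intro a
  apply Subtype.ext
  rw [coe_resStable_pow]
  exact hfix _ (pow_prime_mem_peuStab hζ hp hpy hx hy hτ hτζ) _ a.2

/-- **inertia type**: the restriction to `K'` of an element of the inertia group preserves
`R' = A ∩ K'` and is the identity modulo the maximal ideal. -/
theorem resStable_inertia_type (K' : IntermediateField ℚ Ω) {σ : GQ}
    (hσ : σ ∈ A.inertiaSubgroupIn ℚ) (h1 : ∀ x ∈ K', σ x ∈ K') (h2 : ∀ x ∈ K', σ⁻¹ x ∈ K')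
    (r : ↥(baseRing A K')) :
    ∃ r' : ↥(baseRing A K'), resStable K' σ h1 h2 (r : ↥K') = (r' : ↥K') ∧
      r' - r ∈ IsLocalRing.maximalIdeal ↥(baseRing A K') := by
  have hrA : (((r : ↥K') : Ω)) ∈ A := (A.valuation_le_one_iff _).1 (valuation_coe_le_one r)
  have h3 := Fermat.Agent.Tate.inertia_map_mem_and_sub_mem hσ hrA
  have hmem : resStable K' σ h1 h2 (r : ↥K') ∈ baseRing A K' := by
    rw [mem_baseRing_iff]
    exact (A.valuation_le_one_iff _).2 h3.1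
  refine ⟨⟨resStable K' σ h1 h2 (r : ↥K'), hmem⟩, rfl, ?_⟩
  rw [mem_maximalIdeal_baseRing_iff]
  exact (ValuationSubring.mem_nonunits_iff A).1 h3.2

/-- **(peu) over the base**: the witness `r` of `PeuAt` gives `r, d ∈ R'` with `s r ≠ r` and
`ζ - 1 = (s r - r) d`. -/
theorem exists_peu_baseRing (K' : IntermediateField ℚ Ω) {τ : GQ} (h1 : ∀ x ∈ K', τ x ∈ K')
    (h2 : ∀ x ∈ K', τ⁻¹ x ∈ K') {ζ r : Ω} (hζK : ζ ∈ K') (hrK : r ∈ K') (hrA : r ∈ A)
    (hτr : τ r - r ≠ 0) (hd : (ζ - 1) / (τ r - r) ∈ A) :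
    ∃ rR dR : ↥(baseRing A K'), ((rR : ↥K') : Ω) = r ∧
      resStable K' τ h1 h2 (rR : ↥K') ≠ (rR : ↥K') ∧
      (⟨ζ, hζK⟩ : ↥K') - 1 = (resStable K' τ h1 h2 (rR : ↥K') - (rR : ↥K')) * (dR : ↥K') := by
  have hrR : (⟨r, hrK⟩ : ↥K') ∈ baseRing A K' :=
    mem_baseRing_iff.2 ((A.valuation_le_one_iff _).2 hrA)
  have hdK : (ζ - 1) / (τ r - r) ∈ K' :=
    div_mem (sub_mem hζK (one_mem _)) (sub_mem (h1 r hrK) hrK)
  have hdR : (⟨(ζ - 1) / (τ r - r), hdK⟩ : ↥K') ∈ baseRing A K' :=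
    mem_baseRing_iff.2 ((A.valuation_le_one_iff _).2 hd)
  refine ⟨⟨⟨r, hrK⟩, hrR⟩, ⟨⟨(ζ - 1) / (τ r - r), hdK⟩, hdR⟩, rfl, ?_, ?_⟩
  · intro h
    apply hτr
    have h3 := congrArg (fun z : ↥K' => (z : Ω)) h
    exact sub_eq_zero.2 h3
  · apply Subtype.ext
    show ζ - 1 = (τ r - r) * ((ζ - 1) / (τ r - r))
    rw [mul_div_cancel₀ _ hτr]

end Aut

end Fermat.Agent.MP
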