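/-
MP40 T3 [KEYPEU-DESC] — helper2 — **the (J)/(Ω) side: a Hecke eigen-relation on a torsion class
gives a norm relation on its Kummer function**, over `Ω` and over every field of definition.

* `IsDivOf.zpow`;
* `exists_hecke_kummer` : `T_ℓ [D] = a • [D]` (`a : ℤ`), `div f = m · D`
  ⇒ `N_α (β^* f) = c · f ^ a · u ^ m` over `Ω` (`heckeFunBar N ℓ f`);
* `exists_hecke_kummer_base` : the same relation over any subfield `K'` of `Ω` over which `f` is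
  defined (`heckeFunK ↥K' N ℓ F₁`), by descent of `m`-th roots.
-/
import Mathlib
import Fermat.Agent.NP.BASEP_helper2_OldDesc
import Fermat.Agent.S36.T3_helper2_Root
import Fermat.Agent.NP.BASEP_helper2_DegGen

set_option autoImplicit false
set_option linter.unusedSectionVars false
set_option linter.unusedVariables false
set_option linter.style.haveILetI false
set_option synthInstance.maxHeartbeats 400000

open HahnSeries IntermediateField AlgebraicCurve ModularCurve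

namespace Fermat.Agent.MP

open Fermat.Agent.JA Fermat.Agent.FF Fermat.Agent.SS Fermat.Agent.X0N Fermat.Agent.S35
  Fermat.Agent.S36 Fermat.Agent.NP Fermat.Agent.GR

/-- `Ω = AlgebraicClosure ℚ`. -/
local notation "Ω" => AlgebraicClosure ℚ

section Abs

variable {K F : Type*} [Field K] [Field F] [Algebra K F]

theorem _root_.Fermat.Agent.S35.IsDivOf.zpow {f : F} {D : Divisor K F} (h : IsDivOf f D) (a : ℤ) :
    IsDivOf (f ^ a) (a • D) := by
  obtain ⟨n, rfl | rfl⟩ := Int.eq_nat_or_neg a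
  · rw [zpow_natCast, natCast_zsmul]
    exact h.pow n
  · rw [zpow_neg, zpow_natCast, neg_smul, natCast_zsmul]
    exact (h.pow n).inv'

end Abs

section Omega

variable (N ℓ : ℕ) [NeZero N] [NeZero ℓ]

/-- **a Hecke eigen-relation gives a norm relation**: `T_ℓ [D] = a [D]`, `div f = m D` ⇒
`T_ℓ f = c · f ^ a · u ^ m`. -/
theorem exists_hecke_kummer (hℓ : ℓ.Prime) {m : ℕ} (a : ℤ)
    (D : Divisor.degZero (K := Ω) (F := ↥(modularFunctionFieldBar N)))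
    {f : ↥(modularFunctionFieldBar N)}
    (hf : IsDivOf f (m • (D : Divisor Ω ↥(modularFunctionFieldBar N))))
    (h : heckeOperatorBar N ⟨ℓ, hℓ⟩ (Pic0.mk D : JZero N) = a • (Pic0.mk D : JZero N)) :
    ∃ (c : Ω) (u : ↥(modularFunctionFieldBar N)), c ≠ 0 ∧ u ≠ 0 ∧
      heckeFunBar N ℓ f = algebraMap Ω ↥(modularFunctionFieldBar N) c * f ^ a * u ^ m := by
  have hconst : ∀ u : ↥(modularFunctionFieldBar N), u ≠ 0 →
      (∀ v : Place Ω ↥(modularFunctionFieldBar N), v.ord u = 0) →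
      ∃ a : Ω, u = algebraMap Ω ↥(modularFunctionFieldBar N) a :=
    fun u _ hu => exists_const_of_forall_ord_eq_zero (jCoordBar N) u hu
  obtain ⟨D', hD', hdiv'⟩ := heckeOperatorBar_mk N ℓ hℓ D
  set E : Divisor.degZero (K := Ω) (F := ↥(modularFunctionFieldBar N)) := D' - a • D with hE
  have hE0 : (Pic0.mk E : JZero N) = 0 := by
    have h4 : (Pic0.mk D' : JZero N) - a • Pic0.mk D = Pic0.mk E := rfl
    rw [← h4, ← hD', h, sub_self]
  have hg : IsDivOf (heckeFunBar N ℓ f / f ^ a)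
      (m • (E : Divisor Ω ↥(modularFunctionFieldBar N))) := by
    refine ((hdiv' m f hf).div (hf.zpow a)).congr ?_
    show m • (D' : Divisor Ω ↥(modularFunctionFieldBar N)) -
        a • (m • (D : Divisor Ω ↥(modularFunctionFieldBar N))) =
      m • ((D' : Divisor Ω ↥(modularFunctionFieldBar N)) -
        a • (D : Divisor Ω ↥(modularFunctionFieldBar N)))
    rw [smul_sub, smul_comm a m]
  obtain ⟨c, u, hc, hu, hrel⟩ := exists_const_mul_pow_of_mk_eq_zero hconst E hE0 hg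
  refine ⟨c, u, hc, hu, ?_⟩
  have hfa : f ^ a ≠ 0 := zpow_ne_zero a hf.1
  rw [div_eq_iff hfa] at hrel
  rw [hrel]
  ring

end Omega

section Base

variable (N ℓ : ℕ) [NeZero N] [NeZero ℓ] [NeZero (N * ℓ)]

/-- **the norm relation over a field of definition**: if `F₁ ∈ F_{K'}(N)` becomes `f` over `Ω` and
`T_ℓ f = c · f ^ a · u ^ m` over `Ω`, then `T_ℓ F₁ = c₀ · F₁ ^ a · u₀ ^ m` over `K'`. -/
theorem exists_hecke_kummer_base (hℓ : ℓ.Prime) {m : ℕ} (hm : 0 < m) (a : ℤ)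
    (K' : IntermediateField ℚ Ω) (F₁ : ↥(keyFq ↥K' N)) (hF₁ : F₁ ≠ 0)
    (c : Ω) (u : ↥(modularFunctionFieldBar N)) (hc : c ≠ 0) (hu : u ≠ 0)
    (h : heckeFunBar N ℓ (keyFqBC N K' F₁) =
      algebraMap Ω ↥(modularFunctionFieldBar N) c * keyFqBC N K' F₁ ^ a * u ^ m) :
    ∃ (c₀ : ↥K') (u₀ : ↥(keyFq ↥K' N)), c₀ ≠ 0 ∧ u₀ ≠ 0 ∧
      heckeFunK ↥K' N ℓ F₁ = algebraMap ↥K' ↥(keyFq ↥K' N) c₀ * F₁ ^ a * u₀ ^ m := by
  have hfa : F₁ ^ a ≠ 0 := zpow_ne_zero a hF₁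
  have hBCa : keyFqBC N K' F₁ ^ a ≠ 0 := zpow_ne_zero a ((map_ne_zero _).2 hF₁)
  obtain ⟨c₀, u₀, hc₀, hu₀, hX⟩ := exists_base_root K' N hm
    (heckeFunK ↥K' N ℓ F₁ / F₁ ^ a) c u hc hu (by
      rw [map_div₀, keyFqBC_heckeFunK N ℓ hℓ, map_zpow₀, ← heckeFunBar_eq_heckeFunK, h]
      field_simp)
  refine ⟨c₀, u₀, hc₀, hu₀, ?_⟩
  rw [div_eq_iff hfa] at hX
  rw [hX]
  ring

/-- **the norm relation on the Legendre host over a field of definition** (`ℓ ∤ N` odd):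
`T_ℓ (π^* F₁) = c₀ · (π^* F₁) ^ a · u₀ ^ m` in `legE ↥K' N`. -/
theorem exists_hecke_kummer_host (hℓ : ℓ.Prime) (hℓ2 : ℓ ≠ 2) (hℓN : ¬ ℓ ∣ N) {m : ℕ} (hm : 0 < m)
    (a : ℤ) (K' : IntermediateField ℚ Ω) (F₁ : ↥(keyFq ↥K' N)) (hF₁ : F₁ ≠ 0)
    (c : Ω) (u : ↥(modularFunctionFieldBar N)) (hc : c ≠ 0) (hu : u ≠ 0)
    (h : heckeFunBar N ℓ (keyFqBC N K' F₁) =
      algebraMap Ω ↥(modularFunctionFieldBar N) c * keyFqBC N K' F₁ ^ a * u ^ m) :
    ∃ (c₀ : ↥K') (u₀ : ↥(legE ↥K' N)), c₀ ≠ 0 ∧ u₀ ≠ 0 ∧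
      legHeckeP ↥K' N ℓ hℓ hℓ2 (fullToLegE ↥K' N F₁) =
        algebraMap ↥K' ↥(legE ↥K' N) c₀ * fullToLegE ↥K' N F₁ ^ a * u₀ ^ m := by
  obtain ⟨c₀, u₀, hc₀, hu₀, hrel⟩ := exists_hecke_kummer_base N ℓ hℓ hm a K' F₁ hF₁ c u hc hu h
  refine ⟨c₀, fullToLegE ↥K' N u₀, hc₀, (map_ne_zero _).2 hu₀, ?_⟩
  rw [legHeckeP_fullToLegE_base N ℓ hℓ hℓ2 hℓN K', hrel, map_mul, map_mul, map_pow, map_zpow₀,
    AlgHom.commutes]

end Base

end Fermat.Agent.MP
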