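/-
MP40 (row 38: S44) — helper4 — **[KEYPEU-DESC], part 3: the relations over an arbitrary field of
definition**.

`x = [D] ∈ J₀(M p)[p]`, `div f = p D`, `f` monic; `K₀ ⊆ Ω` any intermediate field and
`F₀ ∈ F_{Mp}(K₀)` with base change `f`.  Then over `K₀`: `F₀` is monic, all its orders on the
Legendre host are divisible by `p`, the two degeneracy norms are constants times `p`-th powers
(`α_* x = β_* x = 0`), and the Hecke relations `T_ℓ F₀ = c F₀ ^ (a ℓ) u ^ p` hold for all `ℓ ∉ S`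
(`T_ℓ x = a ℓ • x`) — descent of `p`-th roots (helper2's `exists_base_root`,
`exists_hecke_kummer_base`).
-/
import Mathlib
import Fermat.Agent.MP.KPBASE_helper4_Iface
import Fermat.Agent.MP.KPDESC_helper2_Hecke
import Fermat.Agent.NP.BASEP_helper2_NewDesc
import Fermat.Agent.NP.BASEP_helper2_OldTopDesc

set_option autoImplicit false
set_option linter.unusedSectionVars false
set_option linter.unusedVariables false
set_option linter.style.haveILetI false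
set_option synthInstance.maxHeartbeats 400000

open HahnSeries IntermediateField AlgebraicCurve ModularCurve IsLocalRing

namespace Fermat.Agent.MP

open Fermat.Agent.JA Fermat.Agent.FF Fermat.Agent.SS Fermat.Agent.X0N Fermat.Agent.S35
  Fermat.Agent.S36 Fermat.Agent.NP

/-- `Ω = AlgebraicClosure ℚ`. -/
local notation "Ω" => AlgebraicClosure ℚ

/-- the absolute Galois group. -/
local notation "GQ" => (AlgebraicClosure ℚ ≃ₐ[ℚ] AlgebraicClosure ℚ)

section Rel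

variable (M p : ℕ) [NeZero M] [NeZero p] [NeZero (M * p)]
  (K₀ : IntermediateField ℚ Ω) (F₀ : ↥(keyFq ↥K₀ (M * p)))
  {f : ↥(modularFunctionFieldBar (M * p))} (hBC : keyFqBC (M * p) K₀ F₀ = f)

include hBC

theorem keyFq_ne_zero_of_bc (hf : f ≠ 0) : F₀ ≠ 0 := by
  intro h0
  apply hf
  rw [← hBC, h0, map_zero]

theorem leadingCoeff_eq_one_of_bc
    (hlc : ((f : ↥(modularFunctionFieldBar (M * p))) : LaurentSeries Ω).leadingCoeff = 1) :
    ((F₀ : ↥(keyFq ↥K₀ (M * p))) : LaurentSeries ↥K₀).leadingCoeff = 1 := by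
  have h1 := leadingCoeff_coeffMap_of_injective (f := algebraMap ↥K₀ Ω)
    (algebraMap ↥K₀ Ω).injective ((F₀ : ↥(keyFq ↥K₀ (M * p))) : LaurentSeries ↥K₀)
  have h2 : coeffMap (algebraMap ↥K₀ Ω) ((F₀ : ↥(keyFq ↥K₀ (M * p))) : LaurentSeries ↥K₀) =
      ((f : ↥(modularFunctionFieldBar (M * p))) : LaurentSeries Ω) := by
    rw [← coe_keyFqBC, hBC]
  rw [h2, hlc] at h1
  exact (algebraMap ↥K₀ Ω).injective (by rw [← h1, map_one])

theorem dvd_ord_fullToLegE_of_bc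
    (D : Divisor.degZero (K := Ω) (F := ↥(modularFunctionFieldBar (M * p))))
    (hfD : ∀ v : Place Ω ↥(modularFunctionFieldBar (M * p)),
      v.ord f = (p : ℤ) * (D : Divisor Ω ↥(modularFunctionFieldBar (M * p))) v)
    (P : Place ↥K₀ ↥(legE ↥K₀ (M * p))) : (p : ℤ) ∣ P.ord (fullToLegE ↥K₀ (M * p) F₀) :=
  dvd_ord_fullToLegE_of_keyFqBC (M * p) K₀ F₀ (fun v => by rw [hBC]; exact ⟨_, hfD v⟩) P

theorem exists_normA_of_bc (hp : p.Prime)
    (D : Divisor.degZero (K := Ω) (F := ↥(modularFunctionFieldBar (M * p)))) (hf : f ≠ 0)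
    (hfD : ∀ v : Place Ω ↥(modularFunctionFieldBar (M * p)),
      v.ord f = (p : ℤ) * (D : Divisor Ω ↥(modularFunctionFieldBar (M * p))) v)
    (hα : degPushAlpha M p (Pic0.mk D : JZero (M * p)) = 0) :
    ∃ (c : ↥K₀) (h : ↥(keyFq ↥K₀ M)), c ≠ 0 ∧ h ≠ 0 ∧
      (letI := (keyFqA ↥K₀ M p).toRingHom.toAlgebra; Algebra.norm ↥(keyFq ↥K₀ M) F₀) =
        algebraMap ↥K₀ ↥(keyFq ↥K₀ M) c * h ^ p := by
  obtain ⟨b, h, hb, hh, hN⟩ := exists_normAlong_eq_of_degPush_eq_zero M p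
    (heckeAlphaBar Ω M p) D f hf hfD hα
  rw [norm_keyFqA_eq_normAlong]
  exact exists_base_root K₀ M hp.pos (normAlong (heckeAlphaBar ↥K₀ M p) F₀) b h hb hh (by
    rw [keyFqBC_normAlong_heckeAlphaBar M p K₀ hp, hBC]
    exact hN)

theorem exists_normB_of_bc (hp : p.Prime)
    (D : Divisor.degZero (K := Ω) (F := ↥(modularFunctionFieldBar (M * p)))) (hf : f ≠ 0)
    (hfD : ∀ v : Place Ω ↥(modularFunctionFieldBar (M * p)),
      v.ord f = (p : ℤ) * (D : Divisor Ω ↥(modularFunctionFieldBar (M * p))) v)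
    (hβ : degPushBeta M p (Pic0.mk D : JZero (M * p)) = 0) :
    ∃ (c : ↥K₀) (h : ↥(keyFq ↥K₀ M)), c ≠ 0 ∧ h ≠ 0 ∧
      (letI := (keyFqB ↥K₀ M p).toRingHom.toAlgebra; Algebra.norm ↥(keyFq ↥K₀ M) F₀) =
        algebraMap ↥K₀ ↥(keyFq ↥K₀ M) c * h ^ p := by
  obtain ⟨b, h, hb, hh, hN⟩ := exists_normAlong_eq_of_degPush_eq_zero M p
    (heckeBetaBar Ω M p) D f hf hfD hβ
  rw [norm_keyFqB_eq_normAlong]
  exact exists_base_root K₀ M hp.pos (normAlong (heckeBetaBar ↥K₀ M p) F₀) b h hb hh (by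
    rw [keyFqBC_normAlong_heckeBetaBar M p K₀ hp, hBC]
    exact hN)

theorem heckeRelK_of_bc (hp : p.Prime) (S : Set ℕ) (a : ℕ → ℤ)
    (D : Divisor.degZero (K := Ω) (F := ↥(modularFunctionFieldBar (M * p)))) (hf : f ≠ 0)
    (hfD : ∀ v : Place Ω ↥(modularFunctionFieldBar (M * p)),
      v.ord f = (p : ℤ) * (D : Divisor Ω ↥(modularFunctionFieldBar (M * p))) v)
    (hT : ∀ (ℓ : ℕ) (hℓ : ℓ.Prime), ℓ ∉ S →
      heckeOperatorBar (M * p) ⟨ℓ, hℓ⟩ (Pic0.mk D : JZero (M * p)) =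
        a ℓ • (Pic0.mk D : JZero (M * p))) :
    HeckeRelK ↥K₀ (M * p) p S a F₀ := by
  intro ℓ hℓ hℓS
  haveI : NeZero ℓ := ⟨hℓ.ne_zero⟩
  haveI : NeZero (M * p * ℓ) := ⟨Nat.mul_ne_zero (NeZero.ne (M * p)) hℓ.ne_zero⟩
  have hdiv : IsDivOf f (p • (D : Divisor Ω ↥(modularFunctionFieldBar (M * p)))) :=
    ⟨hf, fun v => by rw [Finsupp.smul_apply, nsmul_eq_mul, hfD v]⟩
  obtain ⟨c, u, hc, hu, hrel⟩ := exists_hecke_kummer (M * p) ℓ hℓ (a ℓ) D hdiv (hT ℓ hℓ hℓS)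
  exact exists_hecke_kummer_base (M * p) ℓ hℓ hp.pos (a ℓ) K₀ F₀
    (keyFq_ne_zero_of_bc M p K₀ F₀ hBC hf) c u hc hu (by rw [hBC]; exact hrel)

end Rel

end Fermat.Agent.MP
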