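/-
MP40 (row 38: S44) — helper4 — **[KEYPEU-DESC], part 4: the base package of (KEY-PEU)** (helper1's
base recipe, message 1761 (2)).

For `x ∈ J₀(M p)[p]` with `PeuAt` and `InertiaLineAt`: the invariant pair `(D, f)` of `x`; a Galois
base `K₁ ∋ ζ_p` over which `f` is defined and the support of `f` on the Legendre host is rational;
the small base `K' = Fix_{K₁}(H)`, `H = {τ ∈ I_A | τ ζ = ζ, τ x = x}` (helper2's `fixIn`): a base,
stable under `I_A`, fixed by `H`, with (h1); `f` is defined over `K'`; the wild ramification index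
of `K'` is at most `p`; the wild alternative `PeuBaseAlt` over `K'`.
-/
import Mathlib
import Fermat.Agent.MP.DESC_helper4_Base
import Fermat.Agent.MP.DESC_helper4_Rel
import Fermat.Agent.MP.KPDESC_helper2_Fix
import Fermat.Agent.MP.IFACE2_helper4_Defs

set_option autoImplicit false
set_option linter.unusedSectionVars false
set_option linter.unusedVariables false
set_option linter.style.haveILetI false
set_option synthInstance.maxHeartbeats 400000

open HahnSeries IntermediateField AlgebraicCurve ModularCurve IsLocalRing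

namespace Fermat.Agent.MP

open Fermat.Agent.JA Fermat.Agent.FF Fermat.Agent.SS Fermat.Agent.X0N Fermat.Agent.S35
  Fermat.Agent.S36 Fermat.Agent.NP

/-- `Ω = AlgebraicClosure ℚ`. -/
local notation "Ω" => AlgebraicClosure ℚ

/-- the absolute Galois group. -/
local notation "GQ" => (AlgebraicClosure ℚ ≃ₐ[ℚ] AlgebraicClosure ℚ)

/-- **the base package of (KEY-PEU)** for a class `x ∈ J₀(M p)[p]`. -/
structure PeuPackage (M p : ℕ) [NeZero M] [NeZero p] [NeZero (M * p)] (A : ValuationSubring Ω)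
    (x : JZero (M * p)) where
  /-- the invariant divisor of `x`. -/
  D : Divisor.degZero (K := Ω) (F := ↥(modularFunctionFieldBar (M * p)))
  /-- the monic function with divisor `p D`. -/
  f : ↥(modularFunctionFieldBar (M * p))
  hf : f ≠ 0
  hDx : (Pic0.mk D : JZero (M * p)) = x
  hfD : ∀ v : Place Ω ↥(modularFunctionFieldBar (M * p)),
    v.ord f = (p : ℤ) * (D : Divisor Ω ↥(modularFunctionFieldBar (M * p))) v
  hlc : ((f : ↥(modularFunctionFieldBar (M * p))) : LaurentSeries Ω).leadingCoeff = 1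
  /-- a primitive `p`-th root of unity. -/
  ζ : Ω
  hζ : IsPrimitiveRoot ζ p
  /-- the Galois base. -/
  K₁ : IntermediateField ℚ Ω
  hK₁ : IsGalBase p K₁
  /-- the small base. -/
  K' : IntermediateField ℚ Ω
  hK' : IsBase p K'
  hle : K' ≤ K₁
  h1 : ∀ σ : GQ, (∀ c ∈ K', σ c = c) → ∀ c ∈ K₁, (c ∈ A ↔ σ c ∈ A)
  hstab : ∀ σ ∈ A.inertiaSubgroupIn ℚ, ∀ z ∈ K', σ z ∈ K'
  hfixH : ∀ τ ∈ peuStab A ζ x, ∀ z ∈ K', τ z = z
  /-- `ζ` in the base ring. -/
  ζR : ↥(baseRing A K')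
  hζR : ((ζR : ↥K') : Ω) = ζ
  hwild : ∀ ϖ : ↥(baseRing A K'), Irreducible ϖ →
    ∃ (m : ℕ) (u : (↥(baseRing A K'))ˣ), 0 < m ∧ m ≤ p ∧ ζR - 1 = u * ϖ ^ m
  halt : PeuBaseAlt p A K' hstab ζR
  /-- `f` over the Galois base. -/
  F₁ : ↥(keyFq ↥K₁ (M * p))
  hF₁ : keyFqBC (M * p) K₁ F₁ = f
  hrat : LegOrdCond K₁ (M * p) p (fullToLegE ↥K₁ (M * p) F₁)
  /-- `f` over the small base. -/
  F' : ↥(keyFq ↥K' (M * p))
  hF' : keyFqBC (M * p) K' F' = f

namespace PeuPackage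

variable {M p : ℕ} [NeZero M] [NeZero p] [NeZero (M * p)] {A : ValuationSubring Ω}
  {x : JZero (M * p)} (Pk : PeuPackage M p A x)

theorem isPrimitiveRoot_ζR : IsPrimitiveRoot Pk.ζR p := by
  refine IsPrimitiveRoot.of_map_of_injective
    (f := (algebraMap ↥Pk.K' Ω).comp (baseRing A Pk.K').subtype) ?_ ?_
  · show IsPrimitiveRoot (((Pk.ζR : ↥Pk.K') : Ω)) p
    rw [Pk.hζR]
    exact Pk.hζ
  · exact (algebraMap ↥Pk.K' Ω).injective.comp Subtype.val_injective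

theorem F'_ne_zero : Pk.F' ≠ 0 := keyFq_ne_zero_of_bc M p Pk.K' Pk.F' Pk.hF' Pk.hf

theorem F₁_ne_zero : Pk.F₁ ≠ 0 := keyFq_ne_zero_of_bc M p Pk.K₁ Pk.F₁ Pk.hF₁ Pk.hf

end PeuPackage

section Exists

variable (M p : ℕ) [NeZero M] [NeZero p] [NeZero (M * p)]

set_option maxHeartbeats 3200000 in
/-- the construction of the package from a primitive root `ζ`, a finite set `s` of `H`-fixed
constants and the wild alternative over every suitable base. -/
theorem nonempty_peuPackage_core (hp : p.Prime) (A : ValuationSubring Ω)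
    (hA : A.LiesOverPrime p) (x : JZero (M * p)) (hpx : p • x = 0)
    (y : JZero (M * p)) (hpy : p • y = 0)
    (hxy : ∀ τ ∈ A.inertiaSubgroupIn ℚ, ∃ n : ℕ, τ • x = x + n • y)
    (hyc : ∀ τ ∈ A.inertiaSubgroupIn ℚ, ∀ c : ℕ, CycAct p τ c → τ • y = c • y)
    (ζ : Ω) (hζ : IsPrimitiveRoot ζ p) (s : Finset Ω)
    (hs : ∀ z ∈ s, ∀ τ ∈ peuStab A ζ x, τ z = z)
    (halt : ∀ (K' : IntermediateField ℚ Ω)
      (hstab : ∀ σ ∈ A.inertiaSubgroupIn ℚ, ∀ z ∈ K', σ z ∈ K') (ζR : ↥(baseRing A K')),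
      ((ζR : ↥K') : Ω) = ζ → (∀ z ∈ s, z ∈ K') →
      (∀ τ ∈ peuStab A ζ x, ∀ z ∈ K', τ z = z) → PeuBaseAlt p A K' hstab ζR) :
    Nonempty (PeuPackage M p A x) := by
  classical
  haveI : Fact p.Prime := ⟨hp⟩
  -- the invariant pair
  obtain ⟨D, f, hf, hDx, hfD, hlc, -, hfinv⟩ := exists_invariant_pair (M * p) p x hpx
    {σ : GQ | σ • x = x} (fun σ hσ => hσ)
  have hdiv : ∀ v : Place Ω ↥(modularFunctionFieldBar (M * p)), ((p : ℕ) : ℤ) ∣ v.ord f :=
    fun v => ⟨_, hfD v⟩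
  -- the divisor of `f` on the host over `Ω`
  haveI : HasPrincipalDivisors Ω ↥(legE Ω (M * p)) := up_hasPrincipalDivisors_legE (M * p)
  have hfE : fullToLegE Ω (M * p) f ≠ 0 := (map_ne_zero _).2 hf
  obtain ⟨DE, hDE, -⟩ := HasPrincipalDivisors.exists_divisor (K := Ω) (fullToLegE Ω (M * p) f) hfE
  -- the Galois base
  obtain ⟨K₁, hK₁, -, htK, hdesc, hrat⟩ :=
    (isBase_flatBase (ℓ := p)).exists_ge_isGalBase_legE (M * p) (insert ζ s)
      (f := fun _ : Unit => ((f : ↥(modularFunctionFieldBar (M * p))) : LaurentSeries Ω))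
      (fun _ => f.2) DE.support
  haveI := hK₁.normal
  obtain ⟨f₁, hf₁mem, hf₁⟩ := hdesc ()
  set F₁ : ↥(keyFq ↥K₁ (M * p)) := ⟨f₁, hf₁mem⟩ with hF₁def
  have hBC1 : keyFqBC (M * p) K₁ F₁ = f := Subtype.ext hf₁
  -- rationality of the support over `K₁`
  have hg₁BC : legBC (M * p) K₁ (fullToLegE ↥K₁ (M * p) F₁) =
      algebraMap Ω ↥(legE Ω (M * p)) 1 * fullToLegE Ω (M * p) f := by
    rw [bcdeg_legBC_fullToLegE, hBC1, map_one, one_mul]
  have hord₁ : LegOrdCond K₁ (M * p) p (fullToLegE ↥K₁ (M * p) F₁) := by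
    intro P
    have h1 := ord_descended_leg (M * p) f hdiv DE hDE K₁ hrat (fullToLegE ↥K₁ (M * p) F₁) 1
      one_ne_zero hg₁BC P
    by_cases h0 : P.ord (fullToLegE ↥K₁ (M * p) F₁) = 0
    · exact Or.inl h0
    · exact Or.inr ⟨h1.2 h0, h1.1⟩
  -- the small base
  set H := peuStab A ζ x with hHdef
  have hHI : H ≤ A.inertiaSubgroupIn ℚ := fun τ hτ => hτ.1
  have hHflat : ∀ τ ∈ H, ∀ b ∈ flatBase p, τ b = b :=
    fun τ hτ b hb => inertia_apply_of_mem_flatBase hA hτ.1 hb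
  set K' : IntermediateField ℚ Ω := fixIn K₁ H with hK'def
  have hK' : IsBase p K' := isBase_fixIn hA hHI hK₁.isBase
  have hstab : ∀ σ ∈ A.inertiaSubgroupIn ℚ, ∀ z ∈ K', σ z ∈ K' := fun σ hσ z hz =>
    map_mem_fixIn (fun τ hτ => conj_mem_peuStab hζ hp hxy hyc hσ hτ) hz
  have hfixH : ∀ τ ∈ H, ∀ z ∈ K', τ z = z := fun τ hτ z hz => apply_eq_of_mem_fixIn hτ hz
  have hmemK' : ∀ z ∈ insert ζ s, z ∈ K' := by
    intro z hz
    refine mem_fixIn.2 ⟨htK z hz, fun τ hτ => ?_⟩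
    rcases Finset.mem_insert.1 hz with rfl | hz
    · exact hτ.2.1
    · exact hs z hz τ hτ
  have hζK' : ζ ∈ K' := hmemK' ζ (Finset.mem_insert_self _ _)
  -- `f` over the small base
  obtain ⟨F', hF'⟩ := exists_keyFq_descent_fixIn p (M * p) hK₁.flatBase_le hHflat F₁
    (fun τ hτ => by
      rw [hBC1]
      exact hfinv τ hτ.2.2)
  rw [hBC1] at hF'
  -- the primitive root in the base ring
  have hvζ : A.valuation ζ = 1 := by
    have h1 : A.valuation ζ ^ p = 1 := by rw [← map_pow, hζ.pow_eq_one, map_one]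
    exact (pow_eq_one_iff.1 h1).resolve_right hp.ne_zero
  set ζR : ↥(baseRing A K') := ⟨⟨ζ, hζK'⟩, mem_baseRing_iff.2 (le_of_eq hvζ)⟩ with hζRdef
  exact ⟨{
    D := D, f := f, hf := hf, hDx := hDx, hfD := hfD, hlc := hlc, ζ := ζ, hζ := hζ
    K₁ := K₁, hK₁ := hK₁, K' := K', hK' := hK', hle := fixIn_le K₁ H
    h1 := mem_iff_map_mem_of_fixing_fixIn hA hHI hK₁.isBase
    hstab := hstab, hfixH := hfixH, ζR := ζR, hζR := rfl
    hwild := fun ϖ hϖ =>
      exists_zeta_sub_one_eq_unit_mul_pow hp hA hζ hpy hxy K' hK' hfixH ζR rfl hϖ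
    halt := halt K' hstab ζR rfl (fun z hz => hmemK' z (Finset.mem_insert_of_mem hz)) hfixH
    F₁ := F₁, hF₁ := hBC1, hrat := hord₁, F' := F', hF' := hF' }⟩

set_option maxHeartbeats 1600000 in
/-- **the base package exists.** -/
theorem nonempty_peuPackage (hp : p.Prime) (A : ValuationSubring Ω) (hA : A.LiesOverPrime p)
    (x : JZero (M * p)) (hpx : p • x = 0) (hpeu : PeuAt M p A x)
    (hline : InertiaLineAt M p A x) : Nonempty (PeuPackage M p A x) := by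
  obtain ⟨y, hpy, hxy, hyc⟩ := hline
  haveI : NeZero ((p : ℕ) : Ω) := ⟨by exact_mod_cast hp.ne_zero⟩
  by_cases hw : ∃ τ ∈ A.inertiaSubgroupIn ℚ, CycAct p τ 1 ∧ τ • x ≠ x
  · -- a wild element moving `x`
    obtain ⟨τ, hτ, hτ1, hτx⟩ := hw
    obtain ⟨r, hrA, hrfix, hτr, ζ, hζ, hd⟩ := hpeu τ hτ hτ1 hτx
    have hτζ : τ ζ = ζ := by
      have h := hτ1 ζ hζ.pow_eq_one
      rwa [pow_one] at h
    refine nonempty_peuPackage_core M p hp A hA x hpx y hpy hxy hyc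
      ζ hζ {r} (fun z hz σ hσ => by
        rw [Finset.mem_singleton.1 hz]
        exact hrfix σ hσ.2.2) ?_
    intro K' hstab ζR hζR hsK hK'fix
    have hζK : ζ ∈ K' := by
      rw [← hζR]
      exact (ζR : ↥K').2
    obtain ⟨rR, dR, -, hne, heq⟩ := exists_peu_baseRing K' (hstab τ hτ)
      (hstab τ⁻¹ (inv_mem hτ)) hζK (hsK r (Finset.mem_singleton_self r)) hrA hτr hd
    refine Or.inr ⟨τ, hτ, by rw [hζR]; exact hτζ,
      resStable_pow_prime_eq_one hζ hp hpy hxy hyc K' hK'fix hτ hτζ _ _, rR, dR, hne, ?_⟩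
    have h1 : (ζR : ↥K') = ⟨ζ, hζK⟩ := Subtype.ext hζR
    rw [h1]
    exact heq
  · -- the wild inertia fixes `x`
    obtain ⟨ζ, hζ⟩ : ∃ ζ : Ω, IsPrimitiveRoot ζ p :=
      HasEnoughRootsOfUnity.exists_primitiveRoot Ω p
    refine nonempty_peuPackage_core M p hp A hA x hpx y hpy hxy hyc
      ζ hζ ∅ (fun z hz => absurd hz (Finset.notMem_empty z)) ?_
    intro K' hstab ζR hζR hsK hK'fix
    refine Or.inl fun τ hτ hτζ z hz => ?_
    rw [hζR] at hτζ
    refine hK'fix τ ⟨hτ, hτζ, ?_⟩ z hz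
    by_contra hne
    exact hw ⟨τ, hτ, cycAct_one_of_apply_eq hζ hp hτζ, hne⟩

end Exists

end Fermat.Agent.MP
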