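/-
MP40 (row 38: S44 / S40) — helper4 — **[SHEET0-ℓ], part 1: the sheet `W_0` is characterised by
the Kronecker congruence** (for helper7's C5 [HECKE-R], (A) [DELTA]).

* `exists_gaussRed_atkinLehnerN_kron_gen`, `kron_zero_legE_gen` : the Kronecker congruence
  `A_p Z ≡ (B_p Z) ^ p` along `W_0` for every `Z ∈ F_M(K)` whose `q`-expansion is a prime series
  (the generalisation of `SS.kron_j_zero_legE` from `j` to e.g. `j(q^ℓ)`);
* `not_legWinf_valuation_kron_lt_one` : `A_p j - (B_p j) ^ p` is a unit along `W_∞`;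
* `SSModelLeg.eq_legW0_of_isGaussAt_of_kron` : a valuation subring of the host of level `M p` with
  Gauss restriction to `K(j)` along which `A_p j ≡ (B_p j) ^ p` is `W_0`.
-/
import Mathlib
import Fermat.Agent.SS.MODEL_helper7_Leg

set_option autoImplicit false
set_option linter.unusedSectionVars false
set_option linter.unusedVariables false
set_option linter.style.haveILetI false
set_option synthInstance.maxHeartbeats 200000

open Polynomial ModularCurve IntermediateField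

namespace Fermat.Agent.MP

open Fermat.Agent.SS Fermat.Agent.JA Fermat.Agent.Igusa Fermat.Agent.X0N

open scoped Fermat.Agent.JA.Host

section Zero

variable {R : Type*} [CommRing R] [IsDomain R] [IsDiscreteValuationRing R]
variable {K₁ : Type*} [Field K₁] [Algebra R K₁] [IsFractionRing R K₁] [Algebra ℚ K₁]
  (ι : K₁ →+* ℂ)
variable {M ℓ : ℕ} [NeZero M] [NeZero ℓ] [NeZero (M * ℓ)] {x y : ℤ}
  (h : (ℓ : ℤ) * x + M * y = 1)

/-- **the Kronecker congruence along `W_0` at the level of the function field of `X₀(M ℓ)`**, for a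
function `Z` of level `M` whose `q`-expansion is a prime series: the Atkin–Lehner transform of
`Z(q) − Z(q^ℓ)^ℓ` is `Z(q^ℓ) − Z(q)^ℓ`, which is Gauss-integral with reduction `0`. -/
theorem exists_gaussRed_atkinLehnerN_kron_gen {ϖ : R} (hϖ : Irreducible ϖ) (hℓ : ℓ.Prime)
    (hℓϖ : (ℓ : R) ∈ Ideal.span {ϖ}) (Z : ↥(keyFq K₁ M))
    (hT : IsPrimeSeries R K₁ ((Z : ↥(keyFq K₁ M)) : LaurentSeries K₁)) :
    ∃ hmem : ((atkinLehnerN ι h hℓ (heckeAlphaBar K₁ M ℓ Z -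
        heckeBetaBar K₁ M ℓ Z ^ ℓ) : ↥(keyFq K₁ (M * ℓ))) : LaurentSeries K₁) ∈
        gaussInt R K₁, gaussRed R K₁ ⟨_, hmem⟩ = 0 := by
  haveI : CharP (IsLocalRing.ResidueField R) ℓ := charP_residueField_of_mem_span hϖ hℓ hℓϖ
  haveI : ExpChar (IsLocalRing.ResidueField R) ℓ := ExpChar.prime hℓ
  obtain ⟨hk, hk0⟩ := hT.kronecker_gaussRed ℓ
  have hcoe : ((atkinLehnerN ι h hℓ (heckeAlphaBar K₁ M ℓ Z -
      heckeBetaBar K₁ M ℓ Z ^ ℓ) : ↥(keyFq K₁ (M * ℓ))) : LaurentSeries K₁) =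
      qExpand K₁ ℓ ((Z : ↥(keyFq K₁ M)) : LaurentSeries K₁) -
        ((Z : ↥(keyFq K₁ M)) : LaurentSeries K₁) ^ ℓ := by
    rw [map_sub, map_pow, atkinLehnerN_alpha, atkinLehnerN_beta, AddSubgroupClass.coe_sub,
      IntermediateField.coe_pow, coe_heckeBetaBar, coe_heckeAlphaBar]
  refine ⟨by rw [hcoe]; exact hk, ?_⟩
  have e : (⟨((atkinLehnerN ι h hℓ (heckeAlphaBar K₁ M ℓ Z -
      heckeBetaBar K₁ M ℓ Z ^ ℓ) : ↥(keyFq K₁ (M * ℓ))) : LaurentSeries K₁),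
      by rw [hcoe]; exact hk⟩ : gaussInt R K₁) =
      ⟨qExpand K₁ ℓ ((Z : ↥(keyFq K₁ M)) : LaurentSeries K₁) -
        ((Z : ↥(keyFq K₁ M)) : LaurentSeries K₁) ^ ℓ, hk⟩ :=
    Subtype.ext hcoe
  rw [e]
  exact hk0

/-- **the Kronecker congruence along `W_0` on the Legendre host**, for a function `Z` of level `M`
whose `q`-expansion is a prime series. -/
theorem kron_zero_legE_gen {ϖ : R} (hϖ : Irreducible ϖ) (hℓ : ℓ.Prime)
    (hℓϖ : (ℓ : R) ∈ Ideal.span {ϖ}) (W0 : ValuationSubring ↥(legE K₁ (M * ℓ)))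
    (hW0 : ∀ f : ↥(keyFq K₁ (M * ℓ)),
      ((atkinLehnerN ι h hℓ f : ↥(keyFq K₁ (M * ℓ))) : LaurentSeries K₁) ∈ gaussInt R K₁ →
        fullToLegE K₁ (M * ℓ) f ∈ W0)
    (hϖW0 : (algebraMap K₁ ↥(legE K₁ (M * ℓ)) (algebraMap R K₁ ϖ))⁻¹ ∉ W0)
    (Z : ↥(keyFq K₁ M)) (hT : IsPrimeSeries R K₁ ((Z : ↥(keyFq K₁ M)) : LaurentSeries K₁))
    (a b : ↥(legE K₁ (M * ℓ)))
    (ha : (a : LaurentSeries K₁) = qExpand K₁ 2 ((Z : ↥(keyFq K₁ M)) : LaurentSeries K₁))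
    (hb : (b : LaurentSeries K₁) =
      qExpand K₁ ℓ (qExpand K₁ 2 ((Z : ↥(keyFq K₁ M)) : LaurentSeries K₁))) :
    W0.valuation (a - b ^ ℓ) < 1 := by
  obtain ⟨hmem, h0⟩ := exists_gaussRed_atkinLehnerN_kron_gen ι h hϖ hℓ hℓϖ Z hT
  have hab : a - b ^ ℓ = fullToLegE K₁ (M * ℓ) (heckeAlphaBar K₁ M ℓ Z -
      heckeBetaBar K₁ M ℓ Z ^ ℓ) := by
    apply Subtype.ext
    have e1 : qExpand K₁ 2 (qExpand K₁ ℓ ((Z : ↥(keyFq K₁ M)) : LaurentSeries K₁)) =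
        qExpand K₁ ℓ (qExpand K₁ 2 ((Z : ↥(keyFq K₁ M)) : LaurentSeries K₁)) := by
      rw [qExpand_qExpand, qExpand_qExpand]
      exact qExpand_congr (R := K₁) (mul_comm 2 ℓ) _
    rw [coe_fullToLegE, AddSubgroupClass.coe_sub, IntermediateField.coe_pow, ha, hb,
      AddSubgroupClass.coe_sub, IntermediateField.coe_pow, coe_heckeBetaBar, coe_heckeAlphaBar,
      map_sub, map_pow, e1]
  rw [hab]
  exact valuation_lt_one_of_gaussRed_eq_zero_of_ringHom hϖ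
    (((keyFq K₁ (M * ℓ)).val : ↥(keyFq K₁ (M * ℓ)) →+* LaurentSeries K₁).comp
      (atkinLehnerN ι h hℓ))
    (fullToLegE K₁ (M * ℓ) : ↥(keyFq K₁ (M * ℓ)) →+* ↥(legE K₁ (M * ℓ))) W0 hW0
    (algebraMap K₁ _ (algebraMap R K₁ ϖ))
    (by
      show ((atkinLehnerN ι h hℓ (algebraMap K₁ _ (algebraMap R K₁ ϖ)) :
        ↥(keyFq K₁ (M * ℓ))) : LaurentSeries K₁) = _
      rw [atkinLehnerN_algebraMap]
      show algebraMap K₁ (LaurentSeries K₁) (algebraMap R K₁ ϖ) = _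
      rw [algebraMap_laurentSeries_eq_single, ← HahnSeries.C_apply])
    (by
      have : (fullToLegE K₁ (M * ℓ) : ↥(keyFq K₁ (M * ℓ)) →+* ↥(legE K₁ (M * ℓ)))
          (algebraMap K₁ _ (algebraMap R K₁ ϖ)) =
          algebraMap K₁ ↥(legE K₁ (M * ℓ)) (algebraMap R K₁ ϖ) :=
        (fullToLegE K₁ (M * ℓ)).commutes _
      rw [this]
      exact hϖW0)
    _ hmem h0

end Zero

end Fermat.Agent.MP
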