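/-
MP40 C5 [HECKE-R] — helper7 — part 2 (abstract): **the three-level datum**
`(M', M'ℓ)` (good reduction, fields `E₀ ⊆ E₀'`) and `(M'p, M'pℓ)` (one sheet `W ⊆ E`, `W' ⊆ E'`).

`A₀ B₀ : E₀ → E₀'`, `A B : E → E'` the two `ℓ`-degeneracy maps, `P : E₀ → E`, `P' : E₀' → E'` the
parametrisation of the sheet (`A_p` for the sheet `∞`, `B_p` for the sheet `0`), commuting with the
`ℓ`-degeneracies; `V₀ = W ∩ P E₀`, `V₀' = W' ∩ P' E₀'` of residue degree one, `W' ∩ A E = W = `
`W' ∩ B E`, and a residually independent family `c` of `V₀' / V₀` (along `A₀`) of length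
`n = [E₀' : E₀] = [E' : E]`.  Then

* `P' ∘ c` is residually independent for `W' / W` (`ThreeHyps.resIndep_sheet`);
* `N_{E'/E} (P' y) = P (N_{E₀'/E₀} y)` (`ThreeHyps.norm_P'`), **exactly**;
* `N_{E'/E}` maps units of `W'` to units of `W` (`ThreeHyps.norm_unit`);
* **the Hecke operator commutes with the reduction along the sheet**: if `h ∈ Wˣ`, `h ≡ P h₀` mod
  `𝔪_W`, then `N_A (B h) ≡ P (N_{A₀} (B₀ h₀))` mod `𝔪_W` (`ThreeHyps.hecke_red`).
-/
import Mathlib
import Fermat.Agent.MP.HECKER_helper7_OB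
import Fermat.Agent.S35.NORMBC_helper8

set_option autoImplicit false
set_option linter.unusedSectionVars false
set_option linter.unusedVariables false
set_option linter.style.haveILetI false

open IsLocalRing

namespace Fermat.Agent.MP

section Three

variable {E₀ E₀' E E' : Type*} [Field E₀] [Field E₀'] [Field E] [Field E']

/-- **the hypotheses of the three-level datum** (see the file header). -/
structure ThreeHyps (A₀ B₀ : E₀ →+* E₀') (A B : E →+* E') (P : E₀ →+* E) (P' : E₀' →+* E')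
    (V₀ : ValuationSubring E₀) (V₀' : ValuationSubring E₀') (W : ValuationSubring E)
    (W' : ValuationSubring E') (n : ℕ) (c : Fin n → E₀') : Prop where
  hAP : ∀ x, A (P x) = P' (A₀ x)
  hBP : ∀ x, B (P x) = P' (B₀ x)
  comap_P : W.comap P = V₀
  comap_P' : W'.comap P' = V₀'
  comap_A : W'.comap A = W
  comap_B : W'.comap B = W
  comap_A₀ : V₀'.comap A₀ = V₀
  comap_B₀ : V₀'.comap B₀ = V₀
  res : ∀ x ∈ W, ∃ a ∈ V₀, W.valuation (x - P a) < 1
  finA₀ : letI := A₀.toAlgebra; FiniteDimensional E₀ E₀'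
  degA₀ : letI := A₀.toAlgebra; Module.finrank E₀ E₀' = n
  finA : letI := A.toAlgebra; FiniteDimensional E E'
  degA : letI := A.toAlgebra; Module.finrank E E' = n
  indep : letI := A₀.toAlgebra; ResIndep V₀ V₀' c

variable {A₀ B₀ : E₀ →+* E₀'} {A B : E →+* E'} {P : E₀ →+* E} {P' : E₀' →+* E'}
  {V₀ : ValuationSubring E₀} {V₀' : ValuationSubring E₀'} {W : ValuationSubring E}
  {W' : ValuationSubring E'} {n : ℕ} {c : Fin n → E₀'}

theorem hecker_val_sub_lt_one_mem {F : Type*} [Field F] (V : ValuationSubring F) {x y : F}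
    (h : V.valuation (x - y) < 1) (hx : x ∈ V) : y ∈ V := by
  have h1 : x - y ∈ V := (ValuationSubring.valuation_le_one_iff _ _).mp h.le
  have : y = x - (x - y) := by ring
  rw [this]
  exact sub_mem hx h1

theorem hecker_val_lt_one_of_sub {F : Type*} [Field F] (V : ValuationSubring F) {x y : F}
    (h : V.valuation (x - y) < 1) (hy : V.valuation y < 1) : V.valuation x < 1 := by
  have : x = (x - y) + y := by ring
  rw [this]
  exact lt_of_le_of_lt (V.valuation.map_add _ _) (max_lt h hy)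

theorem hecker_val_mul_lt_one {F : Type*} [Field F] (V : ValuationSubring F) {x y : F}
    (hx : V.valuation x < 1) (hy : y ∈ V) : V.valuation (x * y) < 1 := by
  rw [map_mul]
  calc V.valuation x * V.valuation y ≤ V.valuation x * 1 := by
        gcongr
        exact (ValuationSubring.valuation_le_one_iff _ _).mpr hy
    _ < 1 := by rw [mul_one]; exact hx

/-- **the family `P' ∘ c` is residually independent for the sheet.** -/
theorem ThreeHyps.resIndep_sheet (h : ThreeHyps A₀ B₀ A B P P' V₀ V₀' W W' n c) :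
    letI := A.toAlgebra
    ResIndep W W' (fun i => P' (c i)) := by
  letI algA := A.toAlgebra
  letI algA₀ := A₀.toAlgebra
  have hind := h.indep
  have hc' : ∀ i, P' (c i) ∈ W' := fun i =>
    (hecker_comap_mem_iff V₀' P' h.comap_P' _).mpr (hind.1 i)
  refine ⟨hc', ?_⟩
  intro a ha hval
  choose α hα hαa using fun i => h.res (a i) (ha i)
  -- the combination of the approximants
  have hsplit : ∑ i, A (a i) * P' (c i) =
      P' (∑ i, A₀ (α i) * c i) + ∑ i, A (a i - P (α i)) * P' (c i) := by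
    rw [map_sum, ← Finset.sum_add_distrib]
    refine Finset.sum_congr rfl fun i _ => ?_
    rw [map_mul, ← h.hAP, map_sub]
    ring
  have herr : W'.valuation (∑ i, A (a i - P (α i)) * P' (c i)) < 1 := by
    refine W'.valuation.map_sum_lt one_ne_zero fun i _ => ?_
    exact hecker_val_mul_lt_one W' ((hecker_comap_val_lt_one_iff W A h.comap_A _).mpr (hαa i)) (hc' i)
  have hmain : W'.valuation (P' (∑ i, A₀ (α i) * c i)) < 1 := by
    have e : P' (∑ i, A₀ (α i) * c i) =
        (∑ i, A (a i) * P' (c i)) - ∑ i, A (a i - P (α i)) * P' (c i) := by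
      rw [hsplit]; ring
    rw [e]
    exact lt_of_le_of_lt (W'.valuation.map_sub _ _) (max_lt hval herr)
  rw [hecker_comap_val_lt_one_iff V₀' P' h.comap_P'] at hmain
  have hα' := hind.2 α hα hmain
  intro i
  have h1 : W.valuation (P (α i)) < 1 :=
    (hecker_comap_val_lt_one_iff V₀ P h.comap_P _).mpr (hα' i)
  exact hecker_val_lt_one_of_sub W (hαa i) h1

/-- **exact compatibility of the norms with the parametrisation of the sheet.** -/
theorem ThreeHyps.norm_P' (h : ThreeHyps A₀ B₀ A B P P' V₀ V₀' W W' n c) (y : E₀') :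
    (letI := A.toAlgebra; Algebra.norm E (P' y)) =
      P (letI := A₀.toAlgebra; Algebra.norm E₀ y) := by
  classical
  letI algA := A.toAlgebra
  letI algA₀ := A₀.toAlgebra
  haveI := h.finA
  haveI := h.finA₀
  have hind := h.indep
  have hind' := h.resIndep_sheet
  refine (Fermat.Agent.S35.norm_map_of_basis (hind.basis h.degA₀) (hind'.basis h.degA) P P'
    (fun a => (h.hAP a).symm) (fun i => ?_) y).symm
  rw [hind.basis_apply, hind'.basis_apply]

/-- the norm maps `W'` to `W`. -/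
theorem ThreeHyps.norm_mem (h : ThreeHyps A₀ B₀ A B P P' V₀ V₀' W W' n c) {y : E'}
    (hy : y ∈ W') : (letI := A.toAlgebra; Algebra.norm E y) ∈ W := by
  letI algA := A.toAlgebra
  haveI := h.finA
  exact h.resIndep_sheet.norm_mem h.comap_A h.degA hy

/-- **the norm maps units of `W'` to units of `W`.** -/
theorem ThreeHyps.norm_inv_mem (h : ThreeHyps A₀ B₀ A B P P' V₀ V₀' W W' n c) {y : E'}
    (hy : y⁻¹ ∈ W') : (letI := A.toAlgebra; Algebra.norm E y)⁻¹ ∈ W := by
  letI algA := A.toAlgebra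
  haveI := h.finA
  exact h.resIndep_sheet.norm_inv_mem h.comap_A h.degA hy

/-- the norm at the good level maps `V₀'` to `V₀`. -/
theorem ThreeHyps.norm₀_mem (h : ThreeHyps A₀ B₀ A B P P' V₀ V₀' W W' n c) {y : E₀'}
    (hy : y ∈ V₀') : (letI := A₀.toAlgebra; Algebra.norm E₀ y) ∈ V₀ := by
  letI algA₀ := A₀.toAlgebra
  haveI := h.finA₀
  exact h.indep.norm_mem h.comap_A₀ h.degA₀ hy

theorem ThreeHyps.norm₀_inv_mem (h : ThreeHyps A₀ B₀ A B P P' V₀ V₀' W W' n c) {y : E₀'}
    (hy : y⁻¹ ∈ V₀') : (letI := A₀.toAlgebra; Algebra.norm E₀ y)⁻¹ ∈ V₀ := by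
  letI algA₀ := A₀.toAlgebra
  haveI := h.finA₀
  exact h.indep.norm_inv_mem h.comap_A₀ h.degA₀ hy

/-- **the Hecke operator commutes with the reduction along the sheet.** -/
theorem ThreeHyps.hecke_red (h : ThreeHyps A₀ B₀ A B P P' V₀ V₀' W W' n c) {x : E} {x₀ : E₀}
    (hx : x ∈ W) (hx' : x⁻¹ ∈ W) (hx0 : x ≠ 0) (hx₀ : x₀ ∈ V₀)
    (hlink : W.valuation (x - P x₀) < 1) :
    W.valuation ((letI := A.toAlgebra; Algebra.norm E (B x)) -
      P (letI := A₀.toAlgebra; Algebra.norm E₀ (B₀ x₀))) < 1 := by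
  letI algA := A.toAlgebra
  letI algA₀ := A₀.toAlgebra
  haveI := h.finA
  haveI := h.finA₀
  -- `x₀` is a unit of `V₀`
  have hPx₀ : W.valuation (P x₀) = 1 := by
    have h1 : W.valuation x = 1 := by
      apply le_antisymm ((ValuationSubring.valuation_le_one_iff _ _).mpr hx)
      have h2 : W.valuation x⁻¹ ≤ 1 := (ValuationSubring.valuation_le_one_iff _ _).mpr hx'
      rw [map_inv₀] at h2
      have h0 : (0 : W.ValueGroup) < W.valuation x := by
        rw [zero_lt_iff]; exact (map_ne_zero _).mpr hx0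
      exact (inv_le_one₀ h0).mp h2
    have h3 : P x₀ = x - (x - P x₀) := by ring
    rw [h3, Valuation.map_sub_eq_of_lt_left _ (by rw [h1]; exact hlink), h1]
  have hx₀0 : x₀ ≠ 0 := by
    rintro rfl
    rw [map_zero, map_zero] at hPx₀
    exact zero_ne_one hPx₀
  have hx₀' : x₀⁻¹ ∈ V₀ := by
    rw [← hecker_comap_mem_iff V₀ P h.comap_P, map_inv₀,
      ← ValuationSubring.valuation_le_one_iff, map_inv₀, hPx₀, inv_one]
  -- `y = P' (B₀ x₀)` is a unit of `W'`
  set y₀ : E₀' := B₀ x₀ with hy₀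
  have hy₀m : y₀ ∈ V₀' := (hecker_comap_mem_iff V₀ B₀ h.comap_B₀ _).mpr hx₀
  have hy₀i : y₀⁻¹ ∈ V₀' := by
    rw [hy₀, ← map_inv₀]; exact (hecker_comap_mem_iff V₀ B₀ h.comap_B₀ _).mpr hx₀'
  have hy₀0 : y₀ ≠ 0 := (map_ne_zero B₀).mpr hx₀0
  set y : E' := P' y₀ with hy
  have hy0 : y ≠ 0 := (map_ne_zero P').mpr hy₀0
  have hyi : y⁻¹ ∈ W' := by
    rw [hy, ← map_inv₀]; exact (hecker_comap_mem_iff V₀' P' h.comap_P' _).mpr hy₀i
  -- `B x = y (1 + ε)`
  set δ : E' := B (x - P x₀) with hδ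
  have hδv : W'.valuation δ < 1 := (hecker_comap_val_lt_one_iff W B h.comap_B _).mpr hlink
  have hBx : B x = y * (1 + δ * y⁻¹) := by
    have : B x = y + δ := by rw [hy, hy₀, ← h.hBP, hδ, map_sub]; ring
    rw [this]
    field_simp
  have hε : W'.valuation (δ * y⁻¹) < 1 := hecker_val_mul_lt_one W' hδv hyi
  have hN1 := h.resIndep_sheet.val_norm_one_add_sub_one_lt h.comap_A h.degA hε
  have hNy : Algebra.norm E y = P (Algebra.norm E₀ y₀) := h.norm_P' y₀
  have hN0 : Algebra.norm E₀ y₀ ∈ V₀ := h.norm₀_mem hy₀m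
  have hN0' : P (Algebra.norm E₀ y₀) ∈ W := (hecker_comap_mem_iff V₀ P h.comap_P _).mpr hN0
  have e : Algebra.norm E (B x) - P (Algebra.norm E₀ y₀) =
      (Algebra.norm E (1 + δ * y⁻¹) - 1) * P (Algebra.norm E₀ y₀) := by
    rw [hBx, map_mul, hNy]; ring
  rw [e]
  exact hecker_val_mul_lt_one W hN1 hN0'

/-- the image of a `W`-unit under the Hecke correspondence is a `W`-unit. -/
theorem ThreeHyps.hecke_unit (h : ThreeHyps A₀ B₀ A B P P' V₀ V₀' W W' n c) {x : E}
    (hx : x ∈ W) (hx' : x⁻¹ ∈ W) :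
    (letI := A.toAlgebra; Algebra.norm E (B x)) ∈ W ∧
      (letI := A.toAlgebra; Algebra.norm E (B x))⁻¹ ∈ W := by
  refine ⟨h.norm_mem ((hecker_comap_mem_iff W B h.comap_B _).mpr hx), h.norm_inv_mem ?_⟩
  rw [← map_inv₀]
  exact (hecker_comap_mem_iff W B h.comap_B _).mpr hx'

end Three

end Fermat.Agent.MP
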