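/-
MP40 C5 [HECKE-R] — helper4 — **[SHEET0-ℓ], part 3: the three-level data of the two sheets on the
Legendre hosts** (helper7's `ThreeHyps`).  Levels `M`, `M ℓ` (good reduction) and `M p`, `M p ℓ`.

* sheet `∞` (`threeHyps_legInf₄`): the coefficientwise Gauss valuation rings, parametrised by the
  inclusions `A_p` (`legHostA`, `legHostAmid₄ : E_{Mℓ} → E_{Mpℓ}`);
* sheet `0` (`threeHyps_legZero`): the sheet `W_0` of level `M p` is parametrised by the dilation
  `B_p`, the sheet `W_0` of level `M p ℓ` is the sheet `W_0` of the model of level `(M ℓ) p`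
  transported by `legLevelCast`, parametrised by the dilation `legHostBmid : E_{Mℓ} → E_{Mpℓ}`.
-/
import Mathlib
import Fermat.Agent.MP.HECKER_helper7_Three
import Fermat.Agent.SS.BASE_helper1_Leg
import Fermat.Agent.MP.HECKERS0_helper4_Sheet

set_option autoImplicit false
set_option linter.unusedSectionVars false
set_option linter.unusedVariables false
set_option linter.style.haveILetI false
set_option synthInstance.maxHeartbeats 200000

open Polynomial ModularCurve IntermediateField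

namespace Fermat.Agent.MP

open Fermat.Agent.JA Fermat.Agent.Igusa Fermat.Agent.SS

open scoped Fermat.Agent.JA.Host

noncomputable section

section Leg

variable (R : Type*) [CommRing R] [IsDomain R] [IsDiscreteValuationRing R] [CharZero R]
  [DecidableEq R]
  (K : Type*) [Field K] [Algebra R K] [IsFractionRing R K] [Algebra ℚ K] [Algebra K ℂ]
  (M p ℓ : ℕ) [NeZero M] [NeZero p] [NeZero ℓ] [NeZero (M * p)] [NeZero (M * ℓ)]
  [NeZero (M * p * ℓ)] [NeZero (M * ℓ * p)]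

/-- the dilation `E_{Mℓ} → E_{Mpℓ}`, `x ↦ x ^ p` (the degeneracy map `B_p` of level `M ℓ`, with
the level written `M p ℓ`). -/
def legHostBmid (hp : p.Prime) (hp2 : p ≠ 2) : ↥(legE K (M * ℓ)) →ₐ[K] ↥(legE K (M * p * ℓ)) :=
  dilateAlgHom K p (legE K (M * ℓ)) (legE K (M * p * ℓ))
    (fun _ hf => qExpand_mem_legE_of_mem K hp hp2 ⟨1, by ring⟩ hf)

@[simp] theorem coe_legHostBmid (hp : p.Prime) (hp2 : p ≠ 2) (f : ↥(legE K (M * ℓ))) :
    ((legHostBmid K M p ℓ hp hp2 f : ↥(legE K (M * p * ℓ))) : LaurentSeries K) =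
      qExpand K p (f : LaurentSeries K) := rfl

/-- the inclusion `E_{Mℓ} → E_{Mpℓ}` (the degeneracy map `A_p` of level `M ℓ`, with the level
written `M p ℓ`). -/
def legHostAmid₄ : ↥(legE K (M * ℓ)) →ₐ[K] ↥(legE K (M * p * ℓ)) :=
  IntermediateField.inclusion (legE_le_of_dvd K ⟨p, by ring⟩)

@[simp] theorem coe_legHostAmid₄ (f : ↥(legE K (M * ℓ))) :
    ((legHostAmid₄ K M p ℓ f : ↥(legE K (M * p * ℓ))) : LaurentSeries K) = f :=
  IntermediateField.coe_inclusion _ f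

/-- `A_ℓ ∘ A_p = A_p ∘ A_ℓ` (all inclusions). -/
theorem legHost_comm_AA (x : ↥(legE K M)) :
    (legHostA K (M * p) ℓ).toRingHom ((legHostA K M p).toRingHom x) =
      (legHostAmid₄ K M p ℓ).toRingHom ((legHostA K M ℓ).toRingHom x) := by
  apply Subtype.ext
  simp only [AlgHom.toRingHom_eq_coe, RingHom.coe_coe]
  rw [coe_legHostA, coe_legHostA, coe_legHostAmid₄, coe_legHostA]

/-- `B_ℓ ∘ A_p = A_p ∘ B_ℓ`. -/
theorem legHost_comm_BA (hℓ : ℓ.Prime) (hℓ2 : ℓ ≠ 2) (x : ↥(legE K M)) :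
    (legHostB K (M * p) ℓ hℓ hℓ2).toRingHom ((legHostA K M p).toRingHom x) =
      (legHostAmid₄ K M p ℓ).toRingHom ((legHostB K M ℓ hℓ hℓ2).toRingHom x) := by
  apply Subtype.ext
  simp only [AlgHom.toRingHom_eq_coe, RingHom.coe_coe]
  rw [coe_legHostB, coe_legHostA, coe_legHostAmid₄, coe_legHostB]

/-- `A_ℓ ∘ B_p = B_p ∘ A_ℓ`. -/
theorem legHost_comm_AB (hp : p.Prime) (hp2 : p ≠ 2) (x : ↥(legE K M)) :
    (legHostA K (M * p) ℓ).toRingHom ((legHostB K M p hp hp2).toRingHom x) =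
      (legHostBmid K M p ℓ hp hp2).toRingHom ((legHostA K M ℓ).toRingHom x) := by
  apply Subtype.ext
  simp only [AlgHom.toRingHom_eq_coe, RingHom.coe_coe]
  rw [coe_legHostA, coe_legHostB, coe_legHostBmid, coe_legHostA]

/-- `B_ℓ ∘ B_p = B_p ∘ B_ℓ`. -/
theorem legHost_comm_BB (hp : p.Prime) (hp2 : p ≠ 2) (hℓ : ℓ.Prime) (hℓ2 : ℓ ≠ 2)
    (x : ↥(legE K M)) :
    (legHostB K (M * p) ℓ hℓ hℓ2).toRingHom ((legHostB K M p hp hp2).toRingHom x) =
      (legHostBmid K M p ℓ hp hp2).toRingHom ((legHostB K M ℓ hℓ hℓ2).toRingHom x) := by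
  apply Subtype.ext
  simp only [AlgHom.toRingHom_eq_coe, RingHom.coe_coe]
  rw [coe_legHostB, coe_legHostB, coe_legHostBmid, coe_legHostB, qExpand_qExpand, qExpand_qExpand]
  exact qExpand_congr (R := K) (mul_comm ℓ p) _

/-- the Gauss ring of level `M p ℓ` restricts to the Gauss ring of level `M ℓ`. -/
theorem legWinf_comap_legHostAmid₄ (h2 : IsUnit (2 : R)) :
    (legWinf R K h2 (M * p * ℓ)).comap (legHostAmid₄ K M p ℓ).toRingHom =
      legWinf R K h2 (M * ℓ) := by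
  ext f
  rw [ValuationSubring.mem_comap]
  show ((legHostAmid₄ K M p ℓ f : ↥(legE K (M * p * ℓ))) : LaurentSeries K) ∈ gaussInt R K ↔
      (f : LaurentSeries K) ∈ gaussInt R K
  rw [coe_legHostAmid₄]

/-- `legLevelCast ∘ B_p^{mid} = B_p` of level `M ℓ`. -/
theorem legLevelCast_comp_legHostBmid (hp : p.Prime) (hp2 : p ≠ 2) :
    ((legLevelCast K (Nat.mul_right_comm M p ℓ) :
        ↥(legE K (M * p * ℓ)) ≃ₐ[K] ↥(legE K (M * ℓ * p))) :
        ↥(legE K (M * p * ℓ)) →+* ↥(legE K (M * ℓ * p))).comp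
        (legHostBmid K M p ℓ hp hp2).toRingHom =
      (legHostB K (M * ℓ) p hp hp2 : ↥(legE K (M * ℓ)) →+* ↥(legE K (M * ℓ * p))) := by
  apply RingHom.ext
  intro f
  apply Subtype.ext
  rw [RingHom.comp_apply, RingHom.coe_coe, coe_legLevelCast]
  simp only [AlgHom.toRingHom_eq_coe, RingHom.coe_coe]
  rw [coe_legHostBmid, coe_legHostB]

variable {M p ℓ} {x₁ y₁ x₂ y₂ : ℤ} {π : R}

/-- **the three-level datum of the sheet `∞`.** -/
theorem threeHyps_legInf₄ {h2 : IsUnit (2 : R)} {hbez₁ : (p : ℤ) * x₁ + M * y₁ = 1}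
    {hp : p.Prime} {hp2 : p ≠ 2}
    (h₁ : SSModelLeg R K (M := M) (q := p) π h2 hbez₁ hp hp2) (hℓ : ℓ.Prime) (hℓ2 : ℓ ≠ 2)
    {n : ℕ} (hn : 0 < n)
    (hdeg₀ : letI := (legHostA K M ℓ).toRingHom.toAlgebra;
      Module.finrank ↥(legE K M) ↥(legE K (M * ℓ)) = n)
    (hdeg : letI := (legHostA K (M * p) ℓ).toRingHom.toAlgebra;
      Module.finrank ↥(legE K (M * p)) ↥(legE K (M * p * ℓ)) = n)
    (c : Fin n → ↥(legE K (M * ℓ)))
    (hc : letI := (legHostA K M ℓ).toRingHom.toAlgebra;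
      ResIndep (legWinf R K h2 M) (legWinf R K h2 (M * ℓ)) c) :
    ThreeHyps (legHostA K M ℓ).toRingHom (legHostB K M ℓ hℓ hℓ2).toRingHom
      (legHostA K (M * p) ℓ).toRingHom (legHostB K (M * p) ℓ hℓ hℓ2).toRingHom
      (legHostA K M p).toRingHom (legHostAmid₄ K M p ℓ).toRingHom
      (legWinf R K h2 M) (legWinf R K h2 (M * ℓ)) (legWinf R K h2 (M * p))
      (legWinf R K h2 (M * p * ℓ)) n c := by
  haveI : FiniteDimensional ↥K⟮jqNModC K 2⟯ ↥(legE K (M * p)) := finite_legE_adjoin_j K (M * p)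
  have h₁' := SSModelLeg.ssModel R K h₁
  refine
    { hAP := legHost_comm_AA K M p ℓ
      hBP := legHost_comm_BA K M p ℓ hℓ hℓ2
      comap_P := ssModelLeg_comap_A_inf R K (M := M) (q := p) h2
      comap_P' := legWinf_comap_legHostAmid₄ R K M p ℓ h2
      comap_A := ssModelLeg_comap_A_inf R K (M := M * p) (q := ℓ) h2
      comap_B := ssModelLeg_comap_B_inf R K (M := M * p) h2 hℓ hℓ2
      comap_A₀ := ssModelLeg_comap_A_inf R K (M := M) (q := ℓ) h2
      comap_B₀ := ssModelLeg_comap_B_inf R K (M := M) h2 hℓ hℓ2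
      res := h₁'.res_inf
      finA₀ := ?_
      degA₀ := hdeg₀
      finA := ?_
      degA := hdeg
      indep := hc }
  · letI := (legHostA K M ℓ).toRingHom.toAlgebra
    exact Module.finite_of_finrank_pos (by rw [hdeg₀]; exact hn)
  · letI := (legHostA K (M * p) ℓ).toRingHom.toAlgebra
    exact Module.finite_of_finrank_pos (by rw [hdeg]; exact hn)

/-- **the three-level datum of the sheet `0`.** -/
theorem threeHyps_legZero {h2 : IsUnit (2 : R)} {hbez₁ : (p : ℤ) * x₁ + M * y₁ = 1}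
    {hbez₂ : (p : ℤ) * x₂ + ((M * ℓ : ℕ) : ℤ) * y₂ = 1} {hp : p.Prime} {hp2 : p ≠ 2}
    (h₁ : SSModelLeg R K (M := M) (q := p) π h2 hbez₁ hp hp2)
    (h₂ : SSModelLeg R K (M := M * ℓ) (q := p) π h2 hbez₂ hp hp2)
    (hπ : Irreducible π) (hℓ : ℓ.Prime) (hℓ2 : ℓ ≠ 2) {n : ℕ} (hn : 0 < n)
    (hdeg₀ : letI := (legHostA K M ℓ).toRingHom.toAlgebra;
      Module.finrank ↥(legE K M) ↥(legE K (M * ℓ)) = n)
    (hdeg : letI := (legHostA K (M * p) ℓ).toRingHom.toAlgebra;
      Module.finrank ↥(legE K (M * p)) ↥(legE K (M * p * ℓ)) = n)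
    (c : Fin n → ↥(legE K (M * ℓ)))
    (hc : letI := (legHostA K M ℓ).toRingHom.toAlgebra;
      ResIndep (legWinf R K h2 M) (legWinf R K h2 (M * ℓ)) c) :
    ThreeHyps (legHostA K M ℓ).toRingHom (legHostB K M ℓ hℓ hℓ2).toRingHom
      (legHostA K (M * p) ℓ).toRingHom (legHostB K (M * p) ℓ hℓ hℓ2).toRingHom
      (legHostB K M p hp hp2).toRingHom (legHostBmid K M p ℓ hp hp2).toRingHom
      (legWinf R K h2 M) (legWinf R K h2 (M * ℓ)) (legW0 R K hbez₁ hp)
      ((legW0 R K hbez₂ hp).comap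
        ((legLevelCast K (Nat.mul_right_comm M p ℓ) :
          ↥(legE K (M * p * ℓ)) ≃ₐ[K] ↥(legE K (M * ℓ * p))) :
          ↥(legE K (M * p * ℓ)) →+* ↥(legE K (M * ℓ * p)))) n c := by
  haveI : FiniteDimensional ↥K⟮jqNModC K 2⟯ ↥(legE K (M * p)) := finite_legE_adjoin_j K (M * p)
  haveI : FiniteDimensional ↥K⟮jqNModC K 2⟯ ↥(legE K (M * ℓ * p)) :=
    finite_legE_adjoin_j K (M * ℓ * p)
  have h₁' := SSModelLeg.ssModel R K h₁
  have h₂' := SSModelLeg.ssModel R K h₂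
  refine
    { hAP := legHost_comm_AB K M p ℓ hp hp2
      hBP := legHost_comm_BB K M p ℓ hp hp2 hℓ hℓ2
      comap_P := h₁'.comap_B_zero
      comap_P' := ?_
      comap_A := legW0_comap_legLevelCast_comap_legHostA R K h₁ h₂
      comap_B := legW0_comap_legLevelCast_comap_legHostB R K h₁ h₂ hπ hℓ hℓ2
      comap_A₀ := ssModelLeg_comap_A_inf R K (M := M) (q := ℓ) h2
      comap_B₀ := ssModelLeg_comap_B_inf R K (M := M) h2 hℓ hℓ2
      res := h₁'.res_zero
      finA₀ := ?_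
      degA₀ := hdeg₀
      finA := ?_
      degA := hdeg
      indep := hc }
  · rw [ValuationSubring.comap_comap, legLevelCast_comp_legHostBmid K M p ℓ hp hp2]
    exact h₂'.comap_B_zero
  · letI := (legHostA K M ℓ).toRingHom.toAlgebra
    exact Module.finite_of_finrank_pos (by rw [hdeg₀]; exact hn)
  · letI := (legHostA K (M * p) ℓ).toRingHom.toAlgebra
    exact Module.finite_of_finrank_pos (by rw [hdeg]; exact hn)

end Leg

end

end Fermat.Agent.MP
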