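/-
MP40 C5 [HECKE-R] — helper7 — part 4 (abstract): **the `δ`-argument.**

`W_∞`, `W_0` two discrete valuation subrings of `E` with the common uniformizer `ϖ`, `T` an
operator with `v_•(T f) = n · v_•(f)` on both sheets (from `ThreeHyps.hecke_unit`).  If
`T f = c f ^ a u ^ p` with `c` a constant (same valuation on both sheets), then
`p ∣ (n - a) (v_0 f - v_∞ f)`.
-/
import Mathlib
import Fermat.Agent.MP.HECKER_helper7_Three

set_option autoImplicit false
set_option linter.unusedSectionVars false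
set_option linter.unusedVariables false
set_option linter.style.haveILetI false

open IsLocalRing

namespace Fermat.Agent.MP

section Val

variable {E : Type*} [Field E] (W : ValuationSubring E)

/-- `x ϖ^{-k}` is a unit iff `v x = v ϖ ^ k`. -/
theorem hecker_val_eq_zpow_iff {ϖ : E} (hϖ : ϖ ≠ 0) (x : E) (k : ℤ) :
    W.valuation (x * ϖ ^ (-k)) = 1 ↔ W.valuation x = W.valuation ϖ ^ k := by
  have h0 : W.valuation ϖ ≠ 0 := (map_ne_zero _).mpr hϖ
  rw [map_mul, map_zpow₀, zpow_neg, mul_inv_eq_one₀ (zpow_ne_zero _ h0)]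

/-- `v x = 1 ↔ x ≠ 0 ∧ x, x⁻¹ ∈ W`. -/
theorem hecker_val_eq_one_iff {x : E} :
    W.valuation x = 1 ↔ x ≠ 0 ∧ x ∈ W ∧ x⁻¹ ∈ W := by
  constructor
  · intro h
    refine ⟨?_, (ValuationSubring.valuation_le_one_iff _ _).mp h.le, ?_⟩
    · rintro rfl
      rw [map_zero] at h
      exact zero_ne_one h
    · rw [← ValuationSubring.valuation_le_one_iff, map_inv₀, h, inv_one]
  · rintro ⟨hx0, h1, h2⟩
    apply le_antisymm ((ValuationSubring.valuation_le_one_iff _ _).mpr h1)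
    have h3 : W.valuation x⁻¹ ≤ 1 := (ValuationSubring.valuation_le_one_iff _ _).mpr h2
    rw [map_inv₀] at h3
    have h0 : (0 : W.ValueGroup) < W.valuation x := by
      rw [zero_lt_iff]; exact (map_ne_zero _).mpr hx0
    exact (inv_le_one₀ h0).mp h3

/-- the exponent of a uniformizer is unique. -/
theorem hecker_zpow_inj {ϖ : E} (hϖ : ϖ ≠ 0) (hlt : W.valuation ϖ < 1) {k l : ℤ}
    (h : W.valuation ϖ ^ k = W.valuation ϖ ^ l) : k = l := by
  have h0 : (0 : W.ValueGroup) < W.valuation ϖ := by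
    rw [zero_lt_iff]; exact (map_ne_zero _).mpr hϖ
  exact zpow_right_injective₀ h0 hlt.ne h

end Val

section Delta

variable {E : Type*} [Field E] (Winf W0 : ValuationSubring E)

/-- **the `δ`-argument, abstract form.** -/
theorem hecker_delta_abstract {ϖ : E} (hϖ : ϖ ≠ 0) (hinf : Winf.valuation ϖ < 1)
    (h0 : W0.valuation ϖ < 1) {T f c u : E} {n p : ℕ} {a : ℤ}
    (hrel : T = c * f ^ a * u ^ p) {ainf a0 γ binf b0 : ℤ}
    (hfinf : Winf.valuation (f * ϖ ^ (-ainf)) = 1) (hf0 : W0.valuation (f * ϖ ^ (-a0)) = 1)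
    (hcinf : Winf.valuation (c * ϖ ^ (-γ)) = 1) (hc0 : W0.valuation (c * ϖ ^ (-γ)) = 1)
    (huinf : Winf.valuation (u * ϖ ^ (-binf)) = 1) (hu0 : W0.valuation (u * ϖ ^ (-b0)) = 1)
    (hTinf : Winf.valuation (T * ϖ ^ (-((n : ℤ) * ainf))) = 1)
    (hT0 : W0.valuation (T * ϖ ^ (-((n : ℤ) * a0))) = 1) :
    (p : ℤ) ∣ ((n : ℤ) - a) * (a0 - ainf) := by
  have key : ∀ (W : ValuationSubring E) (hW : W.valuation ϖ < 1) (α β : ℤ),
      W.valuation (f * ϖ ^ (-α)) = 1 → W.valuation (c * ϖ ^ (-γ)) = 1 →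
      W.valuation (u * ϖ ^ (-β)) = 1 → W.valuation (T * ϖ ^ (-((n : ℤ) * α))) = 1 →
      (n : ℤ) * α = γ + a * α + (p : ℤ) * β := by
    intro W hW α β hf hc hu hT
    rw [hecker_val_eq_zpow_iff W hϖ] at hf hc hu hT
    have hg : W.valuation ϖ ≠ 0 := (map_ne_zero _).mpr hϖ
    have hT' : W.valuation T = W.valuation ϖ ^ (γ + α * a + β * (p : ℤ)) := by
      rw [hrel, map_mul, map_mul, map_zpow₀, map_pow, hf, hc, hu, zpow_add₀ hg, zpow_add₀ hg,
        zpow_mul, zpow_mul, zpow_natCast]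
    have := hecker_zpow_inj W hϖ hW (hT.symm.trans hT')
    rw [this]
    ring
  have e1 := key Winf hinf ainf binf hfinf hcinf huinf hTinf
  have e2 := key W0 h0 a0 b0 hf0 hc0 hu0 hT0
  refine ⟨b0 - binf, ?_⟩
  linear_combination e2 - e1

/-- the final arithmetic: `p ∣ (n - a)(a0 - a∞)` and `a ≢ n` mod `p` give `p ∣ a0 - a∞`. -/
theorem hecker_dvd_of_delta {p : ℕ} (hp : p.Prime) {n : ℕ} {a d : ℤ}
    (hna : ¬ a ≡ (n : ℤ) [ZMOD (p : ℤ)]) (h : (p : ℤ) ∣ ((n : ℤ) - a) * d) : (p : ℤ) ∣ d := by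
  have hp' : Prime (p : ℤ) := Nat.prime_iff_prime_int.mp hp
  rcases hp'.dvd_or_dvd h with h1 | h1
  · exfalso
    apply hna
    exact (Int.modEq_iff_dvd.mpr h1)
  · exact h1

end Delta

section Unit

/-- the norm of a field extension commutes with inverses. -/
theorem hecker_norm_inv {F F' : Type*} [Field F] [Field F'] [Algebra F F'] (x : F') :
    Algebra.norm F x⁻¹ = (Algebra.norm F x)⁻¹ := by
  by_cases hx : x = 0
  · subst hx
    rw [inv_zero]
    have h1 : Algebra.norm F (0 : F') * Algebra.norm F (0 : F') = Algebra.norm F (0 : F') := by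
      rw [← map_mul, mul_zero]
    by_cases h2 : Algebra.norm F (0 : F') = 0
    · rw [h2, inv_zero]
    · have h3 : Algebra.norm F (0 : F') = 1 := by
        have := mul_right_cancel₀ h2 (h1.trans (one_mul _).symm)
        exact this
      rw [h3, inv_one]
  · apply eq_inv_of_mul_eq_one_left
    rw [← map_mul, inv_mul_cancel₀ hx, map_one]

theorem hecker_norm_zpow {F F' : Type*} [Field F] [Field F'] [Algebra F F'] (x : F') (k : ℤ) :
    Algebra.norm F (x ^ k) = Algebra.norm F x ^ k :=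
  map_zpow' (Algebra.norm F) hecker_norm_inv x k

variable {E₀ E₀' E E' : Type*} [Field E₀] [Field E₀'] [Field E] [Field E']
  {A₀ B₀ : E₀ →+* E₀'} {A B : E →+* E'} {P : E₀ →+* E} {P' : E₀' →+* E'}
  {V₀ : ValuationSubring E₀} {V₀' : ValuationSubring E₀'} {W : ValuationSubring E}
  {W' : ValuationSubring E'} {n : ℕ} {c : Fin n → E₀'}

/-- **`v (T f) = n · v f`** for the Hecke correspondence of a three-level datum: if `f ϖ^{-k}` is
a `W`-unit (`ϖ` a constant: `B ϖ = A ϖ`), then `T f · ϖ^{-n k}` is a `W`-unit. -/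
theorem ThreeHyps.hecke_val (h : ThreeHyps A₀ B₀ A B P P' V₀ V₀' W W' n c) {ϖ : E}
    (hBϖ : B ϖ = A ϖ) {f : E} {k : ℤ}
    (hf : W.valuation (f * ϖ ^ (-k)) = 1) :
    W.valuation ((letI := A.toAlgebra; Algebra.norm E (B f)) * ϖ ^ (-((n : ℤ) * k))) = 1 := by
  letI algA := A.toAlgebra
  haveI := h.finA
  obtain ⟨h0, h1, h2⟩ := (hecker_val_eq_one_iff W).mp hf
  obtain ⟨h3, h4⟩ := h.hecke_unit h1 h2
  have hN0 : Algebra.norm E (B (f * ϖ ^ (-k))) ≠ 0 :=
    Algebra.norm_ne_zero_iff.mpr ((map_ne_zero B).mpr h0)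
  have e : Algebra.norm E (B (f * ϖ ^ (-k))) =
      Algebra.norm E (B f) * ϖ ^ (-((n : ℤ) * k)) := by
    rw [map_mul, map_zpow₀, hBϖ, map_mul, hecker_norm_zpow]
    have : Algebra.norm E (A ϖ) = ϖ ^ n := by
      have := Algebra.norm_algebraMap (S := E') ϖ
      rw [h.degA] at this
      exact this
    rw [this, ← zpow_natCast, ← zpow_mul, mul_neg]
  rw [← e]
  exact (hecker_val_eq_one_iff W).mpr ⟨hN0, h3, h4⟩

end Unit

end Fermat.Agent.MP
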