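/-
MP40 C5 [HECKE-R] — helper4 — **[DELTA] on the Legendre hosts, generic base.**

`R` a discrete valuation ring of residue characteristic `p` (algebraically closed residue field),
`K = Frac R`, the models of levels `M p` and `(M ℓ) p`, a residually independent family of
`E_{Mℓ} / E_M` of length `ℓ + 1 = [E_{Mℓ} : E_M] = [E_{Mpℓ} : E_{Mp}]`.  A Hecke relation
`T_ℓ f = c f ^ a u ^ p` with `a ≢ ℓ + 1` mod `p` forces `p ∣ a_0 - a_∞`, where `a_∞`, `a_0` are the
orders of `f` along the two sheets (helper7's `ThreeHyps.hecke_val` on both sheets and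
`hecker_delta_abstract`).
-/
import Mathlib
import Fermat.Agent.MP.HECKERS0_helper4_Three
import Fermat.Agent.MP.HECKER_helper7_Delta
import Fermat.Agent.MP.KPBASE_lead_Norm
import Fermat.Agent.NP.BASEP_helper2_Iface

set_option autoImplicit false
set_option linter.unusedSectionVars false
set_option linter.unusedVariables false
set_option linter.style.haveILetI false
set_option synthInstance.maxHeartbeats 200000

open Polynomial ModularCurve IntermediateField IsLocalRing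

namespace Fermat.Agent.MP

open Fermat.Agent.JA Fermat.Agent.Igusa Fermat.Agent.SS Fermat.Agent.NP

open scoped Fermat.Agent.JA.Host

noncomputable section

/-- a non-zero element of the fraction field of a discrete valuation ring is a unit times a power
of the uniformizer. -/
theorem exists_units_mul_zpow_of_fraction₄ {R K : Type*} [CommRing R] [IsDomain R]
    [IsDiscreteValuationRing R] [Field K] [Algebra R K] [IsFractionRing R K] {π : R}
    (hπ : Irreducible π) {c : K} (hc : c ≠ 0) :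
    ∃ (ε : Rˣ) (γ : ℤ), c = algebraMap R K (ε : R) * algebraMap R K π ^ γ := by
  obtain ⟨a, b, hb, rfl⟩ := IsFractionRing.div_surjective (A := R) c
  have hb0 : b ≠ 0 := nonZeroDivisors.ne_zero hb
  have ha0 : a ≠ 0 := by
    rintro rfl
    rw [map_zero, zero_div] at hc
    exact hc rfl
  obtain ⟨m, εa, ha⟩ := IsDiscreteValuationRing.eq_unit_mul_pow_irreducible ha0 hπ
  obtain ⟨n, εb, hb'⟩ := IsDiscreteValuationRing.eq_unit_mul_pow_irreducible hb0 hπ
  have hπ0 : algebraMap R K π ≠ 0 := by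
    rw [Ne, map_eq_zero_iff _ (IsFractionRing.injective R K)]
    exact hπ.ne_zero
  have hεb0 : algebraMap R K (εb : R) ≠ 0 := by
    rw [Ne, map_eq_zero_iff _ (IsFractionRing.injective R K)]
    exact εb.ne_zero
  have hinv : algebraMap R K ((εb⁻¹ : Rˣ) : R) = (algebraMap R K (εb : R))⁻¹ := by
    apply eq_inv_of_mul_eq_one_left
    rw [← map_mul, ← Units.val_mul, inv_mul_cancel, Units.val_one, map_one]
  refine ⟨εa * εb⁻¹, (m : ℤ) - n, ?_⟩
  rw [ha, hb', map_mul, map_mul, map_pow, map_pow, Units.val_mul, map_mul, hinv,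
    zpow_sub₀ hπ0, zpow_natCast, zpow_natCast]
  field_simp

/-- a unit of the base has valuation one along any valuation subring containing the base. -/
theorem val_algebraMap_units_eq_one₄ {R E : Type*} [CommRing R] [Field E] [Algebra R E]
    (W : ValuationSubring E) (hW : ∀ r : R, algebraMap R E r ∈ W) (r : Rˣ) :
    W.valuation (algebraMap R E (r : R)) = 1 := by
  have hmul : algebraMap R E (r : R) * algebraMap R E ((r⁻¹ : Rˣ) : R) = 1 := by
    rw [← map_mul, ← Units.val_mul, mul_inv_cancel, Units.val_one, map_one]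
  have hne : algebraMap R E (r : R) ≠ 0 := left_ne_zero_of_mul_eq_one hmul
  refine valuation_eq_one_of_mem_of_inv_mem hne (hW _) ?_
  rw [← eq_inv_of_mul_eq_one_right hmul]
  exact hW _

section Leg

variable (R : Type*) [CommRing R] [IsDomain R] [IsDiscreteValuationRing R] [CharZero R]
  [DecidableEq R]
  (K : Type*) [Field K] [Algebra R K] [IsFractionRing R K] [Algebra ℚ K] [Algebra K ℂ]
  {M p ℓ : ℕ} [NeZero M] [NeZero p] [NeZero ℓ] [NeZero (M * p)] [NeZero (M * ℓ)]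
  [NeZero (M * p * ℓ)] [NeZero (M * ℓ * p)] {x₁ y₁ x₂ y₂ : ℤ} {π : R}

/-- the two `ℓ`-degeneracy maps agree on the constants of the base ring. -/
theorem legHostB_algebraMap_base₄ (hℓ : ℓ.Prime) (hℓ2 : ℓ ≠ 2) (r : R) :
    (legHostB K (M * p) ℓ hℓ hℓ2).toRingHom (algebraMap R ↥(legE K (M * p)) r) =
      (legHostA K (M * p) ℓ).toRingHom (algebraMap R ↥(legE K (M * p)) r) := by
  rw [IsScalarTower.algebraMap_apply R K ↥(legE K (M * p))]
  simp only [AlgHom.toRingHom_eq_coe, RingHom.coe_coe, AlgHom.commutes]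

set_option maxHeartbeats 1600000 in
/-- **[DELTA] on the Legendre hosts, generic base.** -/
theorem legDelta_of_models [IsAlgClosed (ResidueField R)] {h2 : IsUnit (2 : R)}
    {hbez₁ : (p : ℤ) * x₁ + M * y₁ = 1}
    {hbez₂ : (p : ℤ) * x₂ + ((M * ℓ : ℕ) : ℤ) * y₂ = 1} {hp : p.Prime} {hp2 : p ≠ 2}
    (h₁ : SSModelLeg R K (M := M) (q := p) π h2 hbez₁ hp hp2)
    (h₂ : SSModelLeg R K (M := M * ℓ) (q := p) π h2 hbez₂ hp hp2)
    (hπ : Irreducible π) (hℓ : ℓ.Prime) (hℓ2 : ℓ ≠ 2)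
    (hdeg₀ : letI := (legHostA K M ℓ).toRingHom.toAlgebra;
      Module.finrank ↥(legE K M) ↥(legE K (M * ℓ)) = ℓ + 1)
    (hdeg : letI := (legHostA K (M * p) ℓ).toRingHom.toAlgebra;
      Module.finrank ↥(legE K (M * p)) ↥(legE K (M * p * ℓ)) = ℓ + 1)
    (c : Fin (ℓ + 1) → ↥(legE K (M * ℓ)))
    (hc : letI := (legHostA K M ℓ).toRingHom.toAlgebra;
      ResIndep (legWinf R K h2 M) (legWinf R K h2 (M * ℓ)) c)
    {a : ℤ} (hna : ¬ a ≡ (ℓ : ℤ) + 1 [ZMOD (p : ℤ)])
    {f : ↥(legE K (M * p))} (hf : f ≠ 0)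
    (hrel : ∃ (c₀ : K) (u : ↥(legE K (M * p))), c₀ ≠ 0 ∧ u ≠ 0 ∧
      legHeckeP K (M * p) ℓ hℓ hℓ2 f = algebraMap K ↥(legE K (M * p)) c₀ * f ^ a * u ^ p)
    {ainf a0 : ℤ}
    (hfinf : (legWinf R K h2 (M * p)).valuation
      (f * (algebraMap R ↥(legE K (M * p)) π ^ ainf)⁻¹) = 1)
    (hf0 : (legW0 R K hbez₁ hp).valuation
      (f * (algebraMap R ↥(legE K (M * p)) π ^ a0)⁻¹) = 1) :
    (p : ℤ) ∣ a0 - ainf := by
  haveI : FiniteDimensional ↥K⟮jqNModC K 2⟯ ↥(legE K (M * p)) := finite_legE_adjoin_j K (M * p)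
  have h₁' := SSModelLeg.ssModel R K h₁
  have hTinf := threeHyps_legInf₄ R K h₁ hℓ hℓ2 (Nat.succ_pos ℓ) hdeg₀ hdeg c hc
  have hT0 := threeHyps_legZero R K h₁ h₂ hπ hℓ hℓ2 (Nat.succ_pos ℓ) hdeg₀ hdeg c hc
  obtain ⟨c₀, u, hc₀, hu, hrel⟩ := hrel
  -- `p = ε π ^ e₁`
  have hp0' : ((p : ℕ) : R) ≠ 0 := Nat.cast_ne_zero.mpr hp.ne_zero
  obtain ⟨e₁, ε, hpe⟩ := IsDiscreteValuationRing.eq_unit_mul_pow_irreducible hp0' hπ
  have hpπ := h₁'.q_mem
  have he₁ : 0 < e₁ := by
    rcases Nat.eq_zero_or_pos e₁ with h0 | h0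
    · exfalso
      rw [h0, pow_zero, mul_one] at hpe
      have hu' : IsUnit ((p : ℕ) : R) := hpe ▸ Units.isUnit _
      obtain ⟨z, hz⟩ := Ideal.mem_span_singleton.mp hpπ
      rw [hz] at hu'
      exact hπ.not_isUnit (isUnit_of_mul_isUnit_left hu')
    · exact h0
  set ϖ : ↥(legE K (M * p)) := algebraMap R ↥(legE K (M * p)) π with hϖdef
  have hϖ0 : ϖ ≠ 0 := SSModel_pi_ne_zero h₁'
  have hϖinf : (legWinf R K h2 (M * p)).valuation ϖ < 1 := SSModel.val_pi_lt_one_inf h₁'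
  have hϖ0' : (legW0 R K hbez₁ hp).valuation ϖ < 1 := SSModel.val_pi_lt_one_zero h₁'
  have hBϖ : (legHostB K (M * p) ℓ hℓ hℓ2).toRingHom ϖ = (legHostA K (M * p) ℓ).toRingHom ϖ :=
    legHostB_algebraMap_base₄ R K hℓ hℓ2 π
  -- the orders of `u`
  obtain ⟨binf, hubinf⟩ := SSModel.exists_zpow_val_eq_one_inf h₁' he₁ hpe hu
  obtain ⟨b0, hub0⟩ := SSModel.exists_zpow_val_eq_one_zero h₁' he₁ hpe hu
  -- the constant
  obtain ⟨εc, γ, hcγ⟩ := exists_units_mul_zpow_of_fraction₄ (K := K) hπ hc₀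
  have hcE : algebraMap K ↥(legE K (M * p)) c₀ * ϖ ^ (-γ) =
      algebraMap R ↥(legE K (M * p)) (εc : R) := by
    rw [hcγ, map_mul, map_zpow₀, ← IsScalarTower.algebraMap_apply R K ↥(legE K (M * p)),
      ← IsScalarTower.algebraMap_apply R K ↥(legE K (M * p)), ← hϖdef, mul_assoc,
      ← zpow_add₀ hϖ0, add_neg_cancel, zpow_zero, mul_one]
  have hcinf : (legWinf R K h2 (M * p)).valuation
      (algebraMap K ↥(legE K (M * p)) c₀ * ϖ ^ (-γ)) = 1 := by
    rw [hcE]
    exact val_algebraMap_units_eq_one₄ _ (SSModel.algebraMap_R_mem_inf h₁') εc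
  have hc0 : (legW0 R K hbez₁ hp).valuation
      (algebraMap K ↥(legE K (M * p)) c₀ * ϖ ^ (-γ)) = 1 := by
    rw [hcE]
    exact val_algebraMap_units_eq_one₄ _ (SSModel.algebraMap_R_mem_zero h₁') εc
  -- the shapes
  have hfinf' : (legWinf R K h2 (M * p)).valuation (f * ϖ ^ (-ainf)) = 1 := by
    rw [zpow_neg]; exact hfinf
  have hf0' : (legW0 R K hbez₁ hp).valuation (f * ϖ ^ (-a0)) = 1 := by
    rw [zpow_neg]; exact hf0
  have huinf' : (legWinf R K h2 (M * p)).valuation (u * ϖ ^ (-binf)) = 1 := by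
    rw [zpow_neg]; exact hubinf
  have hu0' : (legW0 R K hbez₁ hp).valuation (u * ϖ ^ (-b0)) = 1 := by
    rw [zpow_neg]; exact hub0
  have hTi := hTinf.hecke_val hBϖ hfinf'
  have hTz := hT0.hecke_val hBϖ hf0'
  have hrel' : (letI := (legHostA K (M * p) ℓ).toRingHom.toAlgebra;
      Algebra.norm ↥(legE K (M * p)) ((legHostB K (M * p) ℓ hℓ hℓ2).toRingHom f)) =
      algebraMap K ↥(legE K (M * p)) c₀ * f ^ a * u ^ p := hrel
  have key := hecker_delta_abstract (legWinf R K h2 (M * p)) (legW0 R K hbez₁ hp) hϖ0 hϖinf hϖ0'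
    hrel' hfinf' hf0' hcinf hc0 huinf' hu0' hTi hTz
  refine hecker_dvd_of_delta hp (n := ℓ + 1) ?_ key
  rw [Nat.cast_add, Nat.cast_one]
  exact hna

end Leg

end

end Fermat.Agent.MP
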