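/-
MP40 C5 [HECKE-R] — helper3 — [RED∞], abstract form: **the Hecke relation reduced along a sheet**,
on top of helper7's three-level datum `ThreeHyps`.

`f ∈ E` with a Hecke relation `N_A (B f) = (P c₁ · ϖ^γ) · f^a · u^p` (`c₁` a unit of `V₀`, i.e. the
constant is a unit times a power of the uniformizer), normalised along the sheet `W`:
`g = f ϖ^{-a∞}` is a `W`-unit, `g ≡ P x₀` mod `𝔪_W`.  Then at the good level
`N_{A₀} (B₀ x₀) ≡ c₁ · x₀^a · u₀^p` mod `𝔪_{V₀}` for a unit `u₀` of `V₀`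
(`ThreeHyps.hecke_rel_red`), and after any compatible reduction `ρ : V₀ → κ`, `ρ' : V₀' → κ'`:
`N_ᾱ (β̄ (ρ x₀)) = ρ c₁ · (ρ x₀)^a · (ρ u₀)^p` (`hecke_rel_residue`).
-/
import Mathlib
import Fermat.Agent.MP.HECKER_helper7_Delta

set_option autoImplicit false
set_option linter.unusedSectionVars false
set_option linter.unusedVariables false
set_option linter.style.haveILetI false

open IsLocalRing

namespace Fermat.Agent.MP

section Val

variable {E : Type*} [Field E] (W : ValuationSubring E)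

theorem redinf_ne_zero_of_val_eq_one {x : E} (hx : W.valuation x = 1) : x ≠ 0 := by
  rintro rfl
  rw [map_zero] at hx
  exact zero_ne_one hx

theorem redinf_mem_of_val_eq_one {x : E} (hx : W.valuation x = 1) : x ∈ W :=
  (ValuationSubring.valuation_le_one_iff _ _).mp hx.le

/-- a `W`-unit congruent to `y` modulo the maximal ideal: `y` is a `W`-unit. -/
theorem redinf_val_eq_one_of_sub_lt {x y : E} (hx : W.valuation x = 1)
    (h : W.valuation (x - y) < 1) : W.valuation y = 1 := by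
  have e : y = x - (x - y) := by ring
  rw [e, Valuation.map_sub_eq_of_lt_left _ (by rw [hx]; exact h), hx]

theorem redinf_val_mul_sub_mul_lt {x y x' y' : E} (hx : x ∈ W) (hy' : y' ∈ W)
    (h1 : W.valuation (x - x') < 1) (h2 : W.valuation (y - y') < 1) :
    W.valuation (x * y - x' * y') < 1 := by
  have e : x * y - x' * y' = x * (y - y') + (x - x') * y' := by ring
  rw [e]
  refine lt_of_le_of_lt (W.valuation.map_add _ _) (max_lt ?_ ?_)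
  · rw [mul_comm]
    exact hecker_val_mul_lt_one W h2 hx
  · exact hecker_val_mul_lt_one W h1 hy'

theorem redinf_val_pow_sub_pow_lt {x y : E} (hx : x ∈ W) (hy : y ∈ W)
    (h : W.valuation (x - y) < 1) (n : ℕ) : W.valuation (x ^ n - y ^ n) < 1 := by
  induction n with
  | zero =>
    rw [pow_zero, pow_zero, sub_self, map_zero]
    exact zero_lt_one
  | succ n ih =>
    rw [pow_succ, pow_succ]
    exact redinf_val_mul_sub_mul_lt W (pow_mem hx n) hy ih h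

theorem redinf_val_inv_sub_inv_lt {x y : E} (hx : W.valuation x = 1) (hy : W.valuation y = 1)
    (h : W.valuation (x - y) < 1) : W.valuation (x⁻¹ - y⁻¹) < 1 := by
  have hx0 := redinf_ne_zero_of_val_eq_one W hx
  have hy0 := redinf_ne_zero_of_val_eq_one W hy
  have e : x⁻¹ - y⁻¹ = (y - x) * (x⁻¹ * y⁻¹) := by
    field_simp
  rw [e, map_mul, map_mul, map_inv₀, map_inv₀, hx, hy, inv_one, mul_one, mul_one,
    Valuation.map_sub_swap]
  exact h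

theorem redinf_val_zpow_sub_zpow_lt {x y : E} (hx : W.valuation x = 1) (hy : W.valuation y = 1)
    (h : W.valuation (x - y) < 1) (a : ℤ) : W.valuation (x ^ a - y ^ a) < 1 := by
  obtain ⟨m, rfl | rfl⟩ := a.eq_nat_or_neg
  · rw [zpow_natCast, zpow_natCast]
    exact redinf_val_pow_sub_pow_lt W (redinf_mem_of_val_eq_one W hx)
      (redinf_mem_of_val_eq_one W hy) h m
  · rw [zpow_neg, zpow_neg, zpow_natCast, zpow_natCast, ← inv_pow, ← inv_pow]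
    have hx' : W.valuation x⁻¹ = 1 := by rw [map_inv₀, hx, inv_one]
    have hy' : W.valuation y⁻¹ = 1 := by rw [map_inv₀, hy, inv_one]
    exact redinf_val_pow_sub_pow_lt W (redinf_mem_of_val_eq_one W hx')
      (redinf_mem_of_val_eq_one W hy') (redinf_val_inv_sub_inv_lt W hx hy h) m

theorem redinf_val_zpow_eq_one {x : E} (hx : W.valuation x = 1) (a : ℤ) :
    W.valuation (x ^ a) = 1 := by
  rw [map_zpow₀, hx, one_zpow]

theorem redinf_val_sub_lt_trans {x y z : E} (h1 : W.valuation (x - y) < 1)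
    (h2 : W.valuation (y - z) < 1) : W.valuation (x - z) < 1 := by
  have e : x - z = (x - y) + (y - z) := by ring
  rw [e]
  exact lt_of_le_of_lt (W.valuation.map_add _ _) (max_lt h1 h2)

end Val

section Three

variable {E₀ E₀' E E' : Type*} [Field E₀] [Field E₀'] [Field E] [Field E']
  {A₀ B₀ : E₀ →+* E₀'} {A B : E →+* E'} {P : E₀ →+* E} {P' : E₀' →+* E'}
  {V₀ : ValuationSubring E₀} {V₀' : ValuationSubring E₀'} {W : ValuationSubring E}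
  {W' : ValuationSubring E'} {n : ℕ} {c : Fin n → E₀'}

/-- transfer of `valuation = 1` along the parametrisation of the sheet. -/
theorem ThreeHyps.val_P_eq_one_iff (h : ThreeHyps A₀ B₀ A B P P' V₀ V₀' W W' n c) (x : E₀) :
    W.valuation (P x) = 1 ↔ V₀.valuation x = 1 := by
  rw [hecker_val_eq_one_iff, hecker_val_eq_one_iff, map_ne_zero, ← map_inv₀,
    hecker_comap_mem_iff V₀ P h.comap_P, hecker_comap_mem_iff V₀ P h.comap_P]

/-- **[RED∞], abstract form: the Hecke relation reduced along the sheet.** -/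
theorem ThreeHyps.hecke_rel_red (h : ThreeHyps A₀ B₀ A B P P' V₀ V₀' W W' n c) {ϖ : E}
    (hϖ : ϖ ≠ 0) (hϖW : W.valuation ϖ < 1) (hBϖ : B ϖ = A ϖ)
    (hunif : ∀ x : E, x ≠ 0 → ∃ k : ℤ, W.valuation (x * ϖ ^ (-k)) = 1)
    {f u : E} (hu : u ≠ 0) {a : ℤ} {p : ℕ} {γ : ℤ} {c₁ : E₀} (hc₁ : V₀.valuation c₁ = 1)
    (hrel : (letI := A.toAlgebra; Algebra.norm E (B f)) = (P c₁ * ϖ ^ γ) * f ^ a * u ^ p)
    {ainf : ℤ} {x₀ : E₀} (hfu : W.valuation (f * ϖ ^ (-ainf)) = 1)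
    (hlink : W.valuation (f * ϖ ^ (-ainf) - P x₀) < 1) :
    ∃ u₀ : E₀, V₀.valuation u₀ = 1 ∧
      V₀.valuation ((letI := A₀.toAlgebra; Algebra.norm E₀ (B₀ x₀)) -
        c₁ * x₀ ^ a * u₀ ^ p) < 1 := by
  letI algA := A.toAlgebra
  letI algA₀ := A₀.toAlgebra
  haveI := h.finA
  haveI := h.finA₀
  set g : E := f * ϖ ^ (-ainf) with hg
  have hg0 : g ≠ 0 := redinf_ne_zero_of_val_eq_one W hfu
  have hf0 : f ≠ 0 := by
    rintro rfl
    rw [hg, zero_mul] at hg0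
    exact hg0 rfl
  obtain ⟨-, hgm, hgi⟩ := (hecker_val_eq_one_iff W).mp hfu
  -- `x₀` is a unit of `V₀`
  have hPx₀ : W.valuation (P x₀) = 1 := redinf_val_eq_one_of_sub_lt W hfu hlink
  have hx₀u : V₀.valuation x₀ = 1 := (h.val_P_eq_one_iff x₀).mp hPx₀
  have hx₀m : x₀ ∈ V₀ := redinf_mem_of_val_eq_one V₀ hx₀u
  -- (2) `hecke_red`
  have h2 := h.hecke_red hgm hgi hg0 hx₀m hlink
  -- (3) normalise `u`
  obtain ⟨b, hb⟩ := hunif u hu
  set u₁ : E := u * ϖ ^ (-b) with hu₁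
  obtain ⟨-, hu₁m, -⟩ := (hecker_val_eq_one_iff W).mp hb
  obtain ⟨u₀, hu₀m, hu₀⟩ := h.res u₁ hu₁m
  have hPu₀ : W.valuation (P u₀) = 1 := redinf_val_eq_one_of_sub_lt W hb hu₀
  have hu₀u : V₀.valuation u₀ = 1 := (h.val_P_eq_one_iff u₀).mp hPu₀
  refine ⟨u₀, hu₀u, ?_⟩
  -- (4) the relation for `g`
  have hTg : Algebra.norm E (B g) = Algebra.norm E (B f) * ϖ ^ (-((n : ℤ) * ainf)) := by
    rw [hg, map_mul, map_zpow₀, hBϖ, map_mul, hecker_norm_zpow]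
    have : Algebra.norm E (A ϖ) = ϖ ^ n := by
      have := Algebra.norm_algebraMap (S := E') ϖ
      rw [h.degA] at this
      exact this
    rw [this, ← zpow_natCast, ← zpow_mul, mul_neg]
  have hTgu := h.hecke_val hBϖ hfu
  rw [← hTg] at hTgu
  have hPc₁ : W.valuation (P c₁) = 1 := (h.val_P_eq_one_iff c₁).mpr hc₁
  set e : ℤ := γ + a * ainf + (p : ℤ) * b - (n : ℤ) * ainf with he
  have hfg : f = g * ϖ ^ ainf := by
    rw [hg, mul_assoc, ← zpow_add₀ hϖ, neg_add_cancel, zpow_zero, mul_one]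
  have huu : u = u₁ * ϖ ^ b := by
    rw [hu₁, mul_assoc, ← zpow_add₀ hϖ, neg_add_cancel, zpow_zero, mul_one]
  have hTg' : Algebra.norm E (B g) = P c₁ * g ^ a * u₁ ^ p * ϖ ^ e := by
    rw [hTg, hrel]
    conv_lhs => rw [hfg, huu]
    rw [mul_zpow, mul_pow, ← zpow_mul, ← zpow_natCast (ϖ ^ b) p, ← zpow_mul, he,
      sub_eq_add_neg, zpow_add₀ hϖ, zpow_add₀ hϖ, zpow_add₀ hϖ]
    have e1 : ainf * a = a * ainf := mul_comm _ _
    have e2 : b * (p : ℤ) = (p : ℤ) * b := mul_comm _ _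
    rw [e1, e2]
    ring
  have hga : W.valuation (g ^ a) = 1 := redinf_val_zpow_eq_one W hfu a
  have hu₁p : W.valuation (u₁ ^ p) = 1 := by rw [map_pow, hb, one_pow]
  have he0 : e = 0 := by
    have h3 : W.valuation (ϖ ^ e) = 1 := by
      have h4 := hTgu
      rw [hTg', map_mul, map_mul, map_mul, hPc₁, hga, hu₁p, one_mul, one_mul, one_mul] at h4
      exact h4
    rw [map_zpow₀] at h3
    have h5 : W.valuation ϖ ^ e = W.valuation ϖ ^ (0 : ℤ) := by rw [h3, zpow_zero]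
    exact hecker_zpow_inj W hϖ hϖW h5
  rw [he0, zpow_zero, mul_one] at hTg'
  -- (5) congruences
  have hc5 : W.valuation (P c₁ * g ^ a * u₁ ^ p - P (c₁ * x₀ ^ a * u₀ ^ p)) < 1 := by
    rw [map_mul, map_mul, map_zpow₀, map_pow]
    have hPx₀a : P x₀ ^ a ∈ W :=
      redinf_mem_of_val_eq_one W (redinf_val_zpow_eq_one W hPx₀ a)
    have hPu₀p : P u₀ ^ p ∈ W := pow_mem (redinf_mem_of_val_eq_one W hPu₀) p
    have hc6 : W.valuation (P c₁ * g ^ a - P c₁ * P x₀ ^ a) < 1 := by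
      rw [← mul_sub, mul_comm]
      exact hecker_val_mul_lt_one W (redinf_val_zpow_sub_zpow_lt W hfu hPx₀ hlink a)
        (redinf_mem_of_val_eq_one W hPc₁)
    refine redinf_val_mul_sub_mul_lt W ?_ hPu₀p hc6
      (redinf_val_pow_sub_pow_lt W hu₁m (redinf_mem_of_val_eq_one W hPu₀) hu₀ p)
    exact W.mul_mem _ _ (redinf_mem_of_val_eq_one W hPc₁) (redinf_mem_of_val_eq_one W hga)
  -- (6) combine
  have h7 : W.valuation (P (Algebra.norm E₀ (B₀ x₀)) - P (c₁ * x₀ ^ a * u₀ ^ p)) < 1 := by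
    have h8 : W.valuation (P (Algebra.norm E₀ (B₀ x₀)) - Algebra.norm E (B g)) < 1 := by
      rw [Valuation.map_sub_swap]
      exact h2
    rw [hTg'] at h8
    exact redinf_val_sub_lt_trans W h8 hc5
  rw [← map_sub, hecker_comap_val_lt_one_iff V₀ P h.comap_P] at h7
  exact h7

end Three

section Residue

variable {E₀ E₀' E E' : Type*} [Field E₀] [Field E₀'] [Field E] [Field E']
  {A₀ B₀ : E₀ →+* E₀'} {A B : E →+* E'} {P : E₀ →+* E} {P' : E₀' →+* E'}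
  {V₀ : ValuationSubring E₀} {V₀' : ValuationSubring E₀'} {W : ValuationSubring E}
  {W' : ValuationSubring E'} {n : ℕ} {c : Fin n → E₀'}
  {κ κ' : Type*} [Field κ] [Field κ'] [Algebra κ κ']

/-- a ring hom from a valuation subring to a field sends the inverse of a unit to the inverse. -/
theorem redinf_ρ_inv (ρ : ↥V₀ →+* κ) {x : E₀} (hx0 : x ≠ 0) (hx : x ∈ V₀) (hxi : x⁻¹ ∈ V₀) :
    ρ ⟨x⁻¹, hxi⟩ = (ρ ⟨x, hx⟩)⁻¹ := by
  apply eq_inv_of_mul_eq_one_left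
  rw [← map_mul]
  have : (⟨x⁻¹, hxi⟩ : ↥V₀) * ⟨x, hx⟩ = 1 := Subtype.ext (inv_mul_cancel₀ hx0)
  rw [this, map_one]

/-- a ring hom from a valuation subring to a field commutes with integral powers of units. -/
theorem redinf_ρ_zpow (ρ : ↥V₀ →+* κ) {x : E₀} (hx : V₀.valuation x = 1) (a : ℤ) :
    ρ ⟨x ^ a, redinf_mem_of_val_eq_one V₀ (redinf_val_zpow_eq_one V₀ hx a)⟩ =
      ρ ⟨x, redinf_mem_of_val_eq_one V₀ hx⟩ ^ a := by
  have hx0 := redinf_ne_zero_of_val_eq_one V₀ hx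
  have hxm := redinf_mem_of_val_eq_one V₀ hx
  have hxi : x⁻¹ ∈ V₀ := by
    apply redinf_mem_of_val_eq_one V₀
    rw [map_inv₀, hx, inv_one]
  obtain ⟨m, rfl | rfl⟩ := a.eq_nat_or_neg
  · have e : (⟨x ^ (m : ℤ), redinf_mem_of_val_eq_one V₀ (redinf_val_zpow_eq_one V₀ hx m)⟩ : ↥V₀) =
        ⟨x, hxm⟩ ^ m := Subtype.ext (zpow_natCast x m)
    rw [e, map_pow, zpow_natCast]
  · have e : (⟨x ^ (-(m : ℤ)), redinf_mem_of_val_eq_one V₀
        (redinf_val_zpow_eq_one V₀ hx (-(m : ℤ)))⟩ : ↥V₀) = ⟨x⁻¹, hxi⟩ ^ m := by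
      apply Subtype.ext
      change x ^ (-(m : ℤ)) = (x⁻¹) ^ m
      rw [zpow_neg, zpow_natCast, inv_pow]
    rw [e, map_pow, redinf_ρ_inv ρ hx0 hxm hxi, zpow_neg, zpow_natCast, inv_pow]

/-- **the reduced Hecke relation in the residue fields**: a congruence
`N_{A₀} (B₀ x₀) ≡ c₁ · x₀^a · u₀^p` modulo the maximal ideal of `V₀` becomes the identity
`N_ᾱ (β̄ (ρ x₀)) = ρ c₁ · (ρ x₀)^a · (ρ u₀)^p` under compatible reductions. -/
theorem ThreeHyps.residue_of_congr (h : ThreeHyps A₀ B₀ A B P P' V₀ V₀' W W' n c)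
    (ρ : ↥V₀ →+* κ) (ρ' : ↥V₀' →+* κ') (β' : κ →+* κ')
    (hρ : Function.Surjective ρ) (hρ' : Function.Surjective ρ')
    (hker : ∀ x : ↥V₀, ρ x = 0 ↔ V₀.valuation (x : E₀) < 1)
    (hker' : ∀ x : ↥V₀', ρ' x = 0 ↔ V₀'.valuation (x : E₀') < 1)
    (hcompatA : ∀ (x : ↥V₀) (hx : A₀ (x : E₀) ∈ V₀'),
      ρ' ⟨A₀ (x : E₀), hx⟩ = algebraMap κ κ' (ρ x))
    (hcompatB : ∀ (x : ↥V₀) (hx : B₀ (x : E₀) ∈ V₀'), ρ' ⟨B₀ (x : E₀), hx⟩ = β' (ρ x))
    {a : ℤ} {p : ℕ} {c₁ x₀ u₀ : E₀} (hc₁ : V₀.valuation c₁ = 1) (hx₀ : V₀.valuation x₀ = 1)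
    (hu₀ : V₀.valuation u₀ = 1)
    (hcong : V₀.valuation ((letI := A₀.toAlgebra; Algebra.norm E₀ (B₀ x₀)) -
        c₁ * x₀ ^ a * u₀ ^ p) < 1) :
    Algebra.norm κ (β' (ρ ⟨x₀, redinf_mem_of_val_eq_one V₀ hx₀⟩)) =
      ρ ⟨c₁, redinf_mem_of_val_eq_one V₀ hc₁⟩ * ρ ⟨x₀, redinf_mem_of_val_eq_one V₀ hx₀⟩ ^ a *
        ρ ⟨u₀, redinf_mem_of_val_eq_one V₀ hu₀⟩ ^ p := by
  letI algA₀ := A₀.toAlgebra
  haveI := h.finA₀
  have hx₀m := redinf_mem_of_val_eq_one V₀ hx₀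
  have hc₁m := redinf_mem_of_val_eq_one V₀ hc₁
  have hu₀m := redinf_mem_of_val_eq_one V₀ hu₀
  have hBx : B₀ x₀ ∈ V₀' := (hecker_comap_mem_iff V₀ B₀ h.comap_B₀ _).mpr hx₀m
  have hnorm := h.indep.ρ_norm ρ ρ' hρ hρ' hker hker' h.comap_A₀ hcompatA h.degA₀ ⟨B₀ x₀, hBx⟩
  rw [hcompatB ⟨x₀, hx₀m⟩ hBx] at hnorm
  rw [← hnorm]
  have hxa := redinf_mem_of_val_eq_one V₀ (redinf_val_zpow_eq_one V₀ hx₀ a)
  have hrhs : ρ ⟨c₁, hc₁m⟩ * ρ ⟨x₀, hx₀m⟩ ^ a * ρ ⟨u₀, hu₀m⟩ ^ p =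
      ρ ⟨c₁ * x₀ ^ a * u₀ ^ p, V₀.mul_mem _ _ (V₀.mul_mem _ _ hc₁m hxa) (pow_mem hu₀m p)⟩ := by
    rw [← redinf_ρ_zpow ρ hx₀ a, ← map_pow, ← map_mul, ← map_mul]
    rfl
  rw [hrhs, ← sub_eq_zero, ← map_sub, hker]
  exact hcong

/-- **[RED∞], residue form**: `hecke_rel_red` followed by `residue_of_congr`. -/
theorem ThreeHyps.hecke_rel_residue (h : ThreeHyps A₀ B₀ A B P P' V₀ V₀' W W' n c)
    (ρ : ↥V₀ →+* κ) (ρ' : ↥V₀' →+* κ') (β' : κ →+* κ')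
    (hρ : Function.Surjective ρ) (hρ' : Function.Surjective ρ')
    (hker : ∀ x : ↥V₀, ρ x = 0 ↔ V₀.valuation (x : E₀) < 1)
    (hker' : ∀ x : ↥V₀', ρ' x = 0 ↔ V₀'.valuation (x : E₀') < 1)
    (hcompatA : ∀ (x : ↥V₀) (hx : A₀ (x : E₀) ∈ V₀'),
      ρ' ⟨A₀ (x : E₀), hx⟩ = algebraMap κ κ' (ρ x))
    (hcompatB : ∀ (x : ↥V₀) (hx : B₀ (x : E₀) ∈ V₀'), ρ' ⟨B₀ (x : E₀), hx⟩ = β' (ρ x))
    {ϖ : E} (hϖ : ϖ ≠ 0) (hϖW : W.valuation ϖ < 1) (hBϖ : B ϖ = A ϖ)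
    (hunif : ∀ x : E, x ≠ 0 → ∃ k : ℤ, W.valuation (x * ϖ ^ (-k)) = 1)
    {f u : E} (hu : u ≠ 0) {a : ℤ} {p : ℕ} {γ : ℤ} {c₁ : E₀} (hc₁ : V₀.valuation c₁ = 1)
    (hrel : (letI := A.toAlgebra; Algebra.norm E (B f)) = (P c₁ * ϖ ^ γ) * f ^ a * u ^ p)
    {ainf : ℤ} {x₀ : E₀} (hx₀ : V₀.valuation x₀ = 1)
    (hfu : W.valuation (f * ϖ ^ (-ainf)) = 1)
    (hlink : W.valuation (f * ϖ ^ (-ainf) - P x₀) < 1) :
    ∃ v : κ, v ≠ 0 ∧ Algebra.norm κ (β' (ρ ⟨x₀, redinf_mem_of_val_eq_one V₀ hx₀⟩)) =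
      ρ ⟨c₁, redinf_mem_of_val_eq_one V₀ hc₁⟩ *
        ρ ⟨x₀, redinf_mem_of_val_eq_one V₀ hx₀⟩ ^ a * v ^ p := by
  obtain ⟨u₀, hu₀, hcong⟩ := h.hecke_rel_red hϖ hϖW hBϖ hunif hu hc₁ hrel hfu hlink
  refine ⟨ρ ⟨u₀, redinf_mem_of_val_eq_one V₀ hu₀⟩, ?_, ?_⟩
  · intro h0
    rw [hker] at h0
    change V₀.valuation u₀ < 1 at h0
    rw [hu₀] at h0
    exact lt_irrefl _ h0
  · exact h.residue_of_congr ρ ρ' β' hρ hρ' hker hker' hcompatA hcompatB hc₁ hx₀ hu₀ hcong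

end Residue

end Fermat.Agent.MP
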