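/-
MP40 C5 [HECKE-R] — helper7 — part 1 (abstract): **orthogonal bases of an extension of valuation
rings and the reduction of norms.**

`E ⊆ E'` a finite extension of fields, `W ⊆ E`, `W' ⊆ E'` valuation subrings with `W' ∩ E = W`, and
`b : Fin n → W'`, `n = [E' : E]`, a *residually independent* family (`ResIndep`): a combination
`∑ aᵢ bᵢ` with `aᵢ ∈ W` lies in the maximal ideal of `W'` only if all `aᵢ` lie in the maximal ideal
of `W`.  Then `b` is a basis of `E' / E` with `W' = ⊕ W bᵢ`, the matrix of the multiplication by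
`y ∈ W'` is integral, its reduction is the matrix of the multiplication by the residue of `y` in the
basis of the residue field extension given by the residues of the `bᵢ`, hence
**`residue (N_{E'/E} y) = N_{κ'/κ} (residue y)`**, `[κ' : κ] = n`.
-/
import Mathlib

set_option autoImplicit false
set_option linter.unusedSectionVars false
set_option linter.unusedVariables false
set_option linter.style.haveILetI false

open IsLocalRing

namespace Fermat.Agent.MP

section Val

variable {F : Type*} [Field F] (V : ValuationSubring F)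

theorem hecker_val_lt_one_iff_inv_notMem {x : F} (hx : x ≠ 0) :
    V.valuation x < 1 ↔ x⁻¹ ∉ V := by
  rw [← ValuationSubring.valuation_le_one_iff, map_inv₀, not_le]
  have h0 : (0 : V.ValueGroup) < V.valuation x := by
    rw [zero_lt_iff]; exact (map_ne_zero _).mpr hx
  constructor
  · intro h
    exact (one_lt_inv₀ h0).mpr h
  · intro h
    exact (one_lt_inv₀ h0).mp h

variable {F' : Type*} [Field F'] (ι : F →+* F') {V' : ValuationSubring F'}

theorem hecker_comap_mem_iff (h : V'.comap ι = V) (a : F) : ι a ∈ V' ↔ a ∈ V := by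
  rw [← h]; rfl

theorem hecker_comap_val_lt_one_iff (h : V'.comap ι = V) (a : F) :
    V'.valuation (ι a) < 1 ↔ V.valuation a < 1 := by
  by_cases ha : a = 0
  · subst ha; simp
  · have ha' : ι a ≠ 0 := (map_ne_zero ι).mpr ha
    rw [hecker_val_lt_one_iff_inv_notMem V' ha', hecker_val_lt_one_iff_inv_notMem V ha,
      ← map_inv₀, hecker_comap_mem_iff V ι h]

theorem hecker_comap_val_le_one_iff (h : V'.comap ι = V) (a : F) :
    V'.valuation (ι a) ≤ 1 ↔ V.valuation a ≤ 1 := by
  rw [ValuationSubring.valuation_le_one_iff, ValuationSubring.valuation_le_one_iff,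
    hecker_comap_mem_iff V ι h]

end Val

section OB

variable {E E' : Type*} [Field E] [Field E'] [Algebra E E']

/-- **a residually independent family** of `W'` over `W`. -/
def ResIndep (W : ValuationSubring E) (W' : ValuationSubring E') {n : ℕ} (b : Fin n → E') :
    Prop :=
  (∀ i, b i ∈ W') ∧ ∀ a : Fin n → E, (∀ i, a i ∈ W) →
    W'.valuation (∑ i, algebraMap E E' (a i) * b i) < 1 → ∀ i, W.valuation (a i) < 1

variable {W : ValuationSubring E} {W' : ValuationSubring E'} {n : ℕ} {b : Fin n → E'}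

/-- a family of elements of `E`, not all zero, has an entry of maximal valuation. -/
theorem hecker_exists_max_val (a : Fin n → E) (ha : ∃ i, a i ≠ 0) :
    ∃ j, a j ≠ 0 ∧ ∀ i, W.valuation (a i) ≤ W.valuation (a j) := by
  obtain ⟨i₀, hi₀⟩ := ha
  obtain ⟨j, -, hj⟩ := Finset.exists_max_image Finset.univ (fun i => W.valuation (a i))
    ⟨i₀, Finset.mem_univ _⟩
  refine ⟨j, ?_, fun i => hj i (Finset.mem_univ _)⟩
  intro h0
  have h1 := hj i₀ (Finset.mem_univ _)
  rw [h0, map_zero, le_zero_iff, map_eq_zero] at h1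
  exact hi₀ h1

theorem hecker_div_mem_of_val_le {x y : E} (hy : y ≠ 0) (h : W.valuation x ≤ W.valuation y) :
    x / y ∈ W := by
  rw [← ValuationSubring.valuation_le_one_iff, map_div₀]
  have h0 : (0 : W.ValueGroup) < W.valuation y := by
    rw [zero_lt_iff]; exact (map_ne_zero _).mpr hy
  exact (div_le_one₀ h0).mpr h

theorem ResIndep.eq_zero (hb : ResIndep W W' b) (a : Fin n → E)
    (h : ∑ i, algebraMap E E' (a i) * b i = 0) : ∀ i, a i = 0 := by
  by_contra hne
  rw [not_forall] at hne
  obtain ⟨j, hj0, hj⟩ := hecker_exists_max_val (W := W) a hne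
  have h1 : ∑ i, algebraMap E E' (a i / a j) * b i = 0 := by
    have : ∀ i, algebraMap E E' (a i / a j) * b i =
        (algebraMap E E' (a j))⁻¹ * (algebraMap E E' (a i) * b i) := by
      intro i
      rw [map_div₀]
      ring
    rw [Finset.sum_congr rfl (fun i _ => this i), ← Finset.mul_sum, h, mul_zero]
  have h2 := hb.2 (fun i => a i / a j) (fun i => hecker_div_mem_of_val_le hj0 (hj i))
    (by rw [h1, map_zero]; exact zero_lt_one) j
  rw [div_self hj0, map_one] at h2
  exact lt_irrefl _ h2

theorem ResIndep.linearIndependent (hb : ResIndep W W' b) : LinearIndependent E b := by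
  rw [Fintype.linearIndependent_iff]
  intro a h
  apply hb.eq_zero a
  rw [← h]
  exact Finset.sum_congr rfl fun i _ => (Algebra.smul_def _ _).symm

/-- the coordinates of an element of `W'` lie in `W`. -/
theorem ResIndep.coord_mem (hcomap : W'.comap (algebraMap E E') = W) (hb : ResIndep W W' b)
    (a : Fin n → E) (h : ∑ i, algebraMap E E' (a i) * b i ∈ W') : ∀ i, a i ∈ W := by
  by_contra hne
  rw [not_forall] at hne
  obtain ⟨i₀, hi₀⟩ := hne
  have hne' : ∃ i, a i ≠ 0 := ⟨i₀, fun h0 => hi₀ (h0 ▸ W.zero_mem)⟩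
  obtain ⟨j, hj0, hj⟩ := hecker_exists_max_val (W := W) a hne'
  have hjW : a j ∉ W := by
    intro hmem
    apply hi₀
    rw [← ValuationSubring.valuation_le_one_iff] at hmem ⊢
    exact (hj i₀).trans hmem
  have hinv : W.valuation (a j)⁻¹ < 1 := by
    rw [hecker_val_lt_one_iff_inv_notMem W (inv_ne_zero hj0), inv_inv]
    exact hjW
  have hinv' : W'.valuation (algebraMap E E' (a j)⁻¹) < 1 :=
    (hecker_comap_val_lt_one_iff W (algebraMap E E') hcomap _).mpr hinv
  have h1 : ∑ i, algebraMap E E' (a i / a j) * b i =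
      algebraMap E E' (a j)⁻¹ * ∑ i, algebraMap E E' (a i) * b i := by
    rw [Finset.mul_sum]
    refine Finset.sum_congr rfl fun i _ => ?_
    rw [map_div₀, map_inv₀]
    ring
  have h2 : W'.valuation (∑ i, algebraMap E E' (a i / a j) * b i) < 1 := by
    rw [h1, map_mul]
    have h3 : W'.valuation (∑ i, algebraMap E E' (a i) * b i) ≤ 1 :=
      (ValuationSubring.valuation_le_one_iff _ _).mpr h
    calc W'.valuation (algebraMap E E' (a j)⁻¹) * W'.valuation (∑ i, algebraMap E E' (a i) * b i)
        ≤ W'.valuation (algebraMap E E' (a j)⁻¹) * 1 := by gcongr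
      _ < 1 := by rw [mul_one]; exact hinv'
  have h4 := hb.2 (fun i => a i / a j) (fun i => hecker_div_mem_of_val_le hj0 (hj i)) h2 j
  rw [div_self hj0, map_one] at h4
  exact lt_irrefl _ h4

/-- the coordinates of an element of the maximal ideal of `W'` lie in the maximal ideal of `W`. -/
theorem ResIndep.coord_lt (hcomap : W'.comap (algebraMap E E') = W) (hb : ResIndep W W' b)
    (a : Fin n → E) (h : W'.valuation (∑ i, algebraMap E E' (a i) * b i) < 1) :
    ∀ i, W.valuation (a i) < 1 :=
  hb.2 a (hb.coord_mem hcomap a ((ValuationSubring.valuation_le_one_iff _ _).mp h.le)) h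

variable [FiniteDimensional E E']

/-- **the basis of `E' / E` given by a residually independent family of full length.** -/
noncomputable def ResIndep.basis (hb : ResIndep W W' b) (hn : Module.finrank E E' = n) :
    Module.Basis (Fin n) E E' :=
  Module.Basis.mk hb.linearIndependent
    (ge_of_eq (hb.linearIndependent.span_eq_top_of_card_eq_finrank'
      (by rw [Fintype.card_fin, hn])))

@[simp] theorem ResIndep.basis_apply (hb : ResIndep W W' b) (hn : Module.finrank E E' = n)
    (i : Fin n) : hb.basis hn i = b i := by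
  rw [ResIndep.basis, Module.Basis.mk_apply]

theorem ResIndep.sum_repr (hb : ResIndep W W' b) (hn : Module.finrank E E' = n) (x : E') :
    ∑ i, algebraMap E E' ((hb.basis hn).repr x i) * b i = x := by
  conv_rhs => rw [← (hb.basis hn).sum_repr x]
  refine Finset.sum_congr rfl fun i _ => ?_
  rw [Algebra.smul_def, hb.basis_apply]

theorem ResIndep.repr_mem (hcomap : W'.comap (algebraMap E E') = W) (hb : ResIndep W W' b)
    (hn : Module.finrank E E' = n) {x : E'} (hx : x ∈ W') (i : Fin n) :
    (hb.basis hn).repr x i ∈ W :=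
  hb.coord_mem hcomap _ (by rw [hb.sum_repr hn x]; exact hx) i

theorem ResIndep.repr_lt (hcomap : W'.comap (algebraMap E E') = W) (hb : ResIndep W W' b)
    (hn : Module.finrank E E' = n) {x : E'} (hx : W'.valuation x < 1) (i : Fin n) :
    W.valuation ((hb.basis hn).repr x i) < 1 :=
  hb.coord_lt hcomap _ (by rw [hb.sum_repr hn x]; exact hx) i

/-- the integral matrix of the multiplication by `y ∈ W'`. -/
noncomputable def ResIndep.mulMat (hcomap : W'.comap (algebraMap E E') = W) (hb : ResIndep W W' b)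
    (hn : Module.finrank E E' = n) (y : ↥W') : Matrix (Fin n) (Fin n) ↥W :=
  fun i j => ⟨(hb.basis hn).repr ((y : E') * b j) i,
    hb.repr_mem hcomap hn (W'.mul_mem _ _ y.2 (hb.1 j)) i⟩

theorem ResIndep.mulMat_map_subtype (hcomap : W'.comap (algebraMap E E') = W)
    (hb : ResIndep W W' b) (hn : Module.finrank E E' = n) (y : ↥W') :
    (hb.mulMat hcomap hn y).map W.subtype = Algebra.leftMulMatrix (hb.basis hn) (y : E') := by
  ext i j
  rw [Matrix.map_apply, Algebra.leftMulMatrix_eq_repr_mul, hb.basis_apply]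
  rfl

/-- **the norm of an element of `W'` is the determinant of its integral matrix.** -/
theorem ResIndep.norm_eq_det (hcomap : W'.comap (algebraMap E E') = W) (hb : ResIndep W W' b)
    (hn : Module.finrank E E' = n) (y : ↥W') :
    Algebra.norm E (y : E') = ((hb.mulMat hcomap hn y).det : E) := by
  rw [Algebra.norm_eq_matrix_det (hb.basis hn), ← hb.mulMat_map_subtype hcomap hn,
    ← RingHom.mapMatrix_apply, ← RingHom.map_det]
  rfl

theorem ResIndep.norm_mem (hcomap : W'.comap (algebraMap E E') = W) (hb : ResIndep W W' b)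
    (hn : Module.finrank E E' = n) {y : E'} (hy : y ∈ W') : Algebra.norm E y ∈ W := by
  have := hb.norm_eq_det hcomap hn ⟨y, hy⟩
  rw [this]
  exact Subtype.coe_prop _

/-- the norm of a unit of `W'` is a unit of `W`. -/
theorem ResIndep.norm_inv_mem (hcomap : W'.comap (algebraMap E E') = W) (hb : ResIndep W W' b)
    (hn : Module.finrank E E' = n) {y : E'} (hy : y⁻¹ ∈ W') : (Algebra.norm E y)⁻¹ ∈ W := by
  by_cases hy0 : y = 0
  · subst hy0
    rw [Algebra.norm_zero, inv_zero]
    exact W.zero_mem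
  · have h1 : Algebra.norm E y⁻¹ = (Algebra.norm E y)⁻¹ := by
      apply eq_inv_of_mul_eq_one_left
      rw [← map_mul, inv_mul_cancel₀ hy0, map_one]
    rw [← h1]
    exact hb.norm_mem hcomap hn hy

/-- **the norm of a `1`-unit of `W'` is a `1`-unit of `W`.** -/
theorem ResIndep.val_norm_one_add_sub_one_lt (hcomap : W'.comap (algebraMap E E') = W)
    (hb : ResIndep W W' b) (hn : Module.finrank E E' = n) {ε : E'} (hε : W'.valuation ε < 1) :
    W.valuation (Algebra.norm E (1 + ε) - 1) < 1 := by
  classical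
  have hεW : ε ∈ W' := (ValuationSubring.valuation_le_one_iff _ _).mp hε.le
  have hy : 1 + ε ∈ W' := W'.add_mem _ _ W'.one_mem hεW
  set M := hb.mulMat hcomap hn ⟨1 + ε, hy⟩ with hM
  have hmap : M.map (IsLocalRing.residue ↥W) = 1 := by
    ext i j
    rw [Matrix.map_apply, Matrix.one_apply]
    have h1 : ((M i j : ↥W) : E) =
        (hb.basis hn).repr (b j) i + (hb.basis hn).repr (ε * b j) i := by
      show (hb.basis hn).repr ((1 + ε) * b j) i = _
      rw [add_mul, one_mul, map_add, Finsupp.add_apply]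
    have h2 : (hb.basis hn).repr (b j) i = if i = j then (1 : E) else 0 := by
      have : b j = hb.basis hn j := (hb.basis_apply hn j).symm
      rw [this, Module.Basis.repr_self, Finsupp.single_apply]
      simp only [eq_comm]
    have h3 : W.valuation ((hb.basis hn).repr (ε * b j) i) < 1 := by
      refine hb.repr_lt hcomap hn ?_ i
      rw [map_mul]
      calc W'.valuation ε * W'.valuation (b j) ≤ W'.valuation ε * 1 := by
            gcongr
            exact (ValuationSubring.valuation_le_one_iff _ _).mpr (hb.1 j)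
        _ < 1 := by rw [mul_one]; exact hε
    have h3W : (hb.basis hn).repr (ε * b j) i ∈ W :=
      (ValuationSubring.valuation_le_one_iff _ _).mp h3.le
    have h4 : M i j = (if i = j then (1 : ↥W) else 0) + ⟨_, h3W⟩ := by
      apply Subtype.ext
      rw [h1, h2]
      split_ifs <;> rfl
    rw [h4, map_add]
    have h5 : IsLocalRing.residue ↥W ⟨_, h3W⟩ = 0 := by
      rw [IsLocalRing.residue_eq_zero_iff, ValuationSubring.valuation_lt_one_iff]
      exact h3
    rw [h5, add_zero]
    split_ifs <;> simp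
  have hdet : IsLocalRing.residue ↥W M.det = 1 := by
    rw [RingHom.map_det, RingHom.mapMatrix_apply, hmap, Matrix.det_one]
  have h6 : M.det - 1 ∈ IsLocalRing.maximalIdeal ↥W := by
    rw [← IsLocalRing.residue_eq_zero_iff, map_sub, hdet, map_one, sub_self]
  rw [ValuationSubring.valuation_lt_one_iff] at h6
  have h7 := hb.norm_eq_det hcomap hn ⟨1 + ε, hy⟩
  rw [show ((⟨1 + ε, hy⟩ : ↥W') : E') = 1 + ε from rfl] at h7
  rw [h7]
  exact h6

end OB

section Red

variable {E E' : Type*} [Field E] [Field E'] [Algebra E E'] [FiniteDimensional E E']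
  {W : ValuationSubring E} {W' : ValuationSubring E'} {n : ℕ} {b : Fin n → E'}
  {κ κ' : Type*} [Field κ] [Field κ'] [Algebra κ κ']
  (ρ : ↥W →+* κ) (ρ' : ↥W' →+* κ')
  (hρ : Function.Surjective ρ) (hρ' : Function.Surjective ρ')
  (hker : ∀ x : ↥W, ρ x = 0 ↔ W.valuation (x : E) < 1)
  (hker' : ∀ x : ↥W', ρ' x = 0 ↔ W'.valuation (x : E') < 1)
  (hcomap : W'.comap (algebraMap E E') = W)
  (hcompat : ∀ (x : ↥W) (hx : algebraMap E E' (x : E) ∈ W'),
    ρ' ⟨algebraMap E E' (x : E), hx⟩ = algebraMap κ κ' (ρ x))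
  (hb : ResIndep W W' b) (hn : Module.finrank E E' = n)

include hcomap in
theorem hecker_algebraMap_mem_of_mem (x : ↥W) : algebraMap E E' (x : E) ∈ W' :=
  (hecker_comap_mem_iff W (algebraMap E E') hcomap _).mpr x.2

include hcomap hcompat in
/-- the reduction of a combination with integral coefficients. -/
theorem hecker_ρ'_sum (a : Fin n → ↥W) (hmem : ∑ i, algebraMap E E' (a i : E) * b i ∈ W') :
    ρ' ⟨∑ i, algebraMap E E' (a i : E) * b i, hmem⟩ =
      ∑ i, algebraMap κ κ' (ρ (a i)) * ρ' ⟨b i, hb.1 i⟩ := by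
  have h1 : (⟨∑ i, algebraMap E E' (a i : E) * b i, hmem⟩ : ↥W') =
      ∑ i, (⟨algebraMap E E' (a i : E), hecker_algebraMap_mem_of_mem hcomap (a i)⟩ : ↥W') *
        ⟨b i, hb.1 i⟩ := by
    apply Subtype.ext
    simp only [AddSubmonoidClass.coe_finsetSum, MulMemClass.coe_mul]
  rw [h1, map_sum]
  refine Finset.sum_congr rfl fun i _ => ?_
  rw [map_mul, hcompat]

include hρ hker hker' hcomap hcompat in
/-- the residues of a residually independent family are linearly independent. -/
theorem ResIndep.linearIndependent_res :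
    LinearIndependent κ (fun i => ρ' ⟨b i, hb.1 i⟩) := by
  rw [Fintype.linearIndependent_iff]
  intro c hc i
  choose a ha using fun i => hρ (c i)
  have hmem : ∑ i, algebraMap E E' (a i : E) * b i ∈ W' :=
    W'.toSubring.sum_mem fun i _ =>
      W'.mul_mem _ _ (hecker_algebraMap_mem_of_mem hcomap (a i)) (hb.1 i)
  have h1 := hecker_ρ'_sum ρ ρ' hcomap hcompat hb a hmem
  have h2 : ρ' ⟨∑ i, algebraMap E E' (a i : E) * b i, hmem⟩ = 0 := by
    rw [h1, ← hc]
    refine Finset.sum_congr rfl fun i _ => ?_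
    rw [ha, Algebra.smul_def]
  rw [hker'] at h2
  have h3 := hb.2 (fun i => (a i : E)) (fun i => (a i).2) h2 i
  rw [← ha i, hker]
  exact h3

include hρ hρ' hker hker' hcomap hcompat hn in
/-- **the residues of a residually independent family of full length form a basis of the residue
field extension.** -/
theorem ResIndep.span_res :
    ⊤ ≤ Submodule.span κ (Set.range fun i => ρ' ⟨b i, hb.1 i⟩) := by
  intro z _
  obtain ⟨y, rfl⟩ := hρ' z
  set a : Fin n → ↥W := fun i => ⟨(hb.basis hn).repr (y : E') i, hb.repr_mem hcomap hn y.2 i⟩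
  have hsum : ∑ i, algebraMap E E' (a i : E) * b i = (y : E') := hb.sum_repr hn (y : E')
  have hmem : ∑ i, algebraMap E E' (a i : E) * b i ∈ W' := by rw [hsum]; exact y.2
  have h1 := hecker_ρ'_sum ρ ρ' hcomap hcompat hb a hmem
  have h2 : (⟨∑ i, algebraMap E E' (a i : E) * b i, hmem⟩ : ↥W') = y := Subtype.ext hsum
  rw [h2] at h1
  rw [h1]
  refine Submodule.sum_mem _ fun i _ => ?_
  rw [← Algebra.smul_def]
  exact Submodule.smul_mem _ _ (Submodule.subset_span ⟨i, rfl⟩)

/-- the basis of `κ' / κ` given by the residues. -/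
noncomputable def ResIndep.basisRes : Module.Basis (Fin n) κ κ' :=
  Module.Basis.mk (hb.linearIndependent_res ρ ρ' hρ hker hker' hcomap hcompat)
    (hb.span_res ρ ρ' hρ hρ' hker hker' hcomap hcompat hn)

theorem ResIndep.basisRes_apply (i : Fin n) :
    hb.basisRes ρ ρ' hρ hρ' hker hker' hcomap hcompat hn i = ρ' ⟨b i, hb.1 i⟩ := by
  rw [ResIndep.basisRes, Module.Basis.mk_apply]

include hρ hρ' hker hker' hcomap hcompat hn hb in
theorem ResIndep.finrank_res : Module.finrank κ κ' = n := by
  rw [Module.finrank_eq_card_basis (hb.basisRes ρ ρ' hρ hρ' hker hker' hcomap hcompat hn),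
    Fintype.card_fin]

include hρ hρ' hker hker' hcomap hcompat hn hb in
theorem ResIndep.finite_res : Module.Finite κ κ' :=
  Module.Finite.of_basis (hb.basisRes ρ ρ' hρ hρ' hker hker' hcomap hcompat hn)

/-- the reduction of the integral matrix of `y` is the matrix of the residue of `y`. -/
theorem ResIndep.mulMat_map_ρ (y : ↥W') :
    (hb.mulMat hcomap hn y).map ρ =
      Algebra.leftMulMatrix (hb.basisRes ρ ρ' hρ hρ' hker hker' hcomap hcompat hn) (ρ' y) := by
  ext i j
  rw [Matrix.map_apply, Algebra.leftMulMatrix_eq_repr_mul, hb.basisRes_apply]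
  -- expand `y * b j` in the basis and reduce
  set a : Fin n → ↥W := fun k => hb.mulMat hcomap hn y k j with ha
  have hsum : ∑ k, algebraMap E E' (a k : E) * b k = (y : E') * b j :=
    hb.sum_repr hn ((y : E') * b j)
  have hmem : ∑ k, algebraMap E E' (a k : E) * b k ∈ W' := by
    rw [hsum]; exact W'.mul_mem _ _ y.2 (hb.1 j)
  have h1 := hecker_ρ'_sum ρ ρ' hcomap hcompat hb a hmem
  have h2 : (⟨∑ k, algebraMap E E' (a k : E) * b k, hmem⟩ : ↥W') = y * ⟨b j, hb.1 j⟩ :=
    Subtype.ext hsum
  rw [h2, map_mul] at h1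
  rw [h1]
  have h3 : ∑ k, algebraMap κ κ' (ρ (a k)) * ρ' ⟨b k, hb.1 k⟩ =
      ∑ k, ρ (a k) • hb.basisRes ρ ρ' hρ hρ' hker hker' hcomap hcompat hn k := by
    refine Finset.sum_congr rfl fun k _ => ?_
    rw [hb.basisRes_apply, Algebra.smul_def]
  rw [h3, Module.Basis.repr_sum_self]

include hρ hρ' hker hker' hcompat in
/-- **norms commute with reduction.** -/
theorem ResIndep.ρ_norm (y : ↥W') :
    ρ ⟨Algebra.norm E (y : E'), hb.norm_mem hcomap hn y.2⟩ = Algebra.norm κ (ρ' y) := by
  rw [Algebra.norm_eq_matrix_det (hb.basisRes ρ ρ' hρ hρ' hker hker' hcomap hcompat hn),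
    ← hb.mulMat_map_ρ ρ ρ' hρ hρ' hker hker' hcomap hcompat hn, ← RingHom.mapMatrix_apply,
    ← RingHom.map_det]
  congr 1
  exact Subtype.ext (hb.norm_eq_det hcomap hn y)

end Red

section Conv

variable {E E' : Type*} [Field E] [Field E'] [Algebra E E']
  {W : ValuationSubring E} {W' : ValuationSubring E'} {n : ℕ} {b : Fin n → E'}
  {κ κ' : Type*} [Field κ] [Field κ'] [Algebra κ κ']
  (ρ : ↥W →+* κ) (ρ' : ↥W' →+* κ')
  (hker : ∀ x : ↥W, ρ x = 0 ↔ W.valuation (x : E) < 1)
  (hker' : ∀ x : ↥W', ρ' x = 0 ↔ W'.valuation (x : E') < 1)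
  (hcomap : W'.comap (algebraMap E E') = W)
  (hcompat : ∀ (x : ↥W) (hx : algebraMap E E' (x : E) ∈ W'),
    ρ' ⟨algebraMap E E' (x : E), hx⟩ = algebraMap κ κ' (ρ x))

include hker hker' hcomap hcompat in
/-- **converse**: a family of `W'` whose residues are linearly independent over the residue field
of `W` is residually independent. -/
theorem resIndep_of_linearIndependent_res (hb1 : ∀ i, b i ∈ W')
    (hlin : LinearIndependent κ (fun i => ρ' ⟨b i, hb1 i⟩)) : ResIndep W W' b := by
  refine ⟨hb1, ?_⟩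
  intro a ha hval i
  have hmemi : ∀ i, algebraMap E E' (a i) ∈ W' := fun i =>
    (hecker_comap_mem_iff W (algebraMap E E') hcomap _).mpr (ha i)
  have hmem : ∑ i, algebraMap E E' (a i) * b i ∈ W' :=
    W'.toSubring.sum_mem fun i _ => W'.mul_mem _ _ (hmemi i) (hb1 i)
  have h1 : (⟨∑ i, algebraMap E E' (a i) * b i, hmem⟩ : ↥W') =
      ∑ i, (⟨algebraMap E E' (a i), hmemi i⟩ : ↥W') * ⟨b i, hb1 i⟩ := by
    apply Subtype.ext
    simp only [AddSubmonoidClass.coe_finsetSum, MulMemClass.coe_mul]
  have h2 : ρ' ⟨∑ i, algebraMap E E' (a i) * b i, hmem⟩ = 0 := (hker' _).mpr hval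
  rw [h1, map_sum] at h2
  have h3 : ∑ i, ρ ⟨a i, ha i⟩ • ρ' ⟨b i, hb1 i⟩ = 0 := by
    rw [← h2]
    refine Finset.sum_congr rfl fun i _ => ?_
    rw [map_mul, hcompat ⟨a i, ha i⟩ (hmemi i), Algebra.smul_def]
  have h4 := Fintype.linearIndependent_iff.mp hlin (fun i => ρ ⟨a i, ha i⟩) h3 i
  exact (hker ⟨a i, ha i⟩).mp h4

end Conv

end Fermat.Agent.MP
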