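/-
MP40 C5 [RHECKE-Ω] (Ω4) — helper8 — abstract part: **norms commute with reduction as soon as the
residue degree equals the degree** (helper7's `ResIndep.ρ_norm` fed with a lifted basis of the
residue field extension).
-/
import Mathlib
import Fermat.Agent.MP.HECKER_helper7_OB

set_option autoImplicit false
set_option linter.unusedSectionVars false
set_option linter.unusedVariables false
set_option linter.style.haveILetI false

open IsLocalRing

namespace Fermat.Agent.MP

section Abs

variable {E E' : Type*} [Field E] [Field E'] [Algebra E E'] [FiniteDimensional E E']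
  {W : ValuationSubring E} {W' : ValuationSubring E'}
  {κ κ' : Type*} [Field κ] [Field κ'] [Algebra κ κ']
  (ρ : ↥W →+* κ) (ρ' : ↥W' →+* κ')
  (hρ : Function.Surjective ρ) (hρ' : Function.Surjective ρ')
  (hker : ∀ x : ↥W, ρ x = 0 ↔ W.valuation (x : E) < 1)
  (hker' : ∀ x : ↥W', ρ' x = 0 ↔ W'.valuation (x : E') < 1)
  (hcomap : W'.comap (algebraMap E E') = W)
  (hcompat : ∀ (x : ↥W) (hx : algebraMap E E' (x : E) ∈ W'),
    ρ' ⟨algebraMap E E' (x : E), hx⟩ = algebraMap κ κ' (ρ x))

include hρ' hker hker' hcomap hcompat in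
/-- a residually independent family of cardinality `[κ' : κ]`, lifted from a basis of the residue
field extension. -/
theorem exists_resIndep_of_finrank_res [FiniteDimensional κ κ'] :
    ∃ b : Fin (Module.finrank κ κ') → E', ResIndep W W' b := by
  classical
  let B := Module.finBasis κ κ'
  choose c hc using fun i => hρ' (B i)
  refine ⟨fun i => (c i : E'), ?_⟩
  refine resIndep_of_linearIndependent_res ρ ρ' hker hker' hcomap hcompat (fun i => (c i).2) ?_
  have : (fun i => ρ' ⟨(c i : E'), (c i).2⟩) = B := by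
    funext i
    exact hc i
  rw [this]
  exact B.linearIndependent

include hρ hρ' hker hker' hcomap hcompat in
/-- **norms commute with reduction** when `[κ' : κ] = [E' : E]`. -/
theorem ρ_norm_of_finrank_res_eq [FiniteDimensional κ κ']
    (hdeg : Module.finrank κ κ' = Module.finrank E E') (y : ↥W') :
    ∃ hN : Algebra.norm E (y : E') ∈ W, ρ ⟨Algebra.norm E (y : E'), hN⟩ = Algebra.norm κ (ρ' y) := by
  obtain ⟨b, hb⟩ := exists_resIndep_of_finrank_res ρ ρ' hρ' hker hker' hcomap hcompat
  exact ⟨hb.norm_mem hcomap hdeg.symm y.2,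
    hb.ρ_norm ρ ρ' hρ hρ' hker hker' hcomap hcompat hdeg.symm y⟩

include hρ hρ' hker hker' hcomap hcompat in
/-- the norm of a unit of `W'` is a unit of `W`. -/
theorem norm_inv_mem_of_finrank_res_eq [FiniteDimensional κ κ']
    (hdeg : Module.finrank κ κ' = Module.finrank E E') {y : E'} (hy : y ∈ W') (hy' : y⁻¹ ∈ W') :
    Algebra.norm E y ∈ W ∧ (Algebra.norm E y)⁻¹ ∈ W := by
  obtain ⟨b, hb⟩ := exists_resIndep_of_finrank_res ρ ρ' hρ' hker hker' hcomap hcompat
  exact ⟨hb.norm_mem hcomap hdeg.symm hy, hb.norm_inv_mem hcomap hdeg.symm hy'⟩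

end Abs

end Fermat.Agent.MP
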