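/-
MP40 [RESINDEP-K'] — helper8 — **the reduction map `legRhoBase` of a base is onto, and the
residually independent family of `V_{Mℓ}(K') / V_M(K')` along `A_ℓ`** (the hypothesis `hc` of
`threeHyps_legInf`), together with the compatibility of `legRhoBase` with norms along `A_ℓ`.
-/
import Mathlib
import Fermat.Agent.MP.REDINF_helper8_Host
import Fermat.Agent.MP.HECKERO_helper8_Norm
import Fermat.Agent.MP.HECKERO_helper6_Deg
import Fermat.Agent.FG.EDEF_helper6_PsiBij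
import Fermat.Agent.NP.BASEP_helper2_DegGen

set_option autoImplicit false
set_option linter.unusedSectionVars false
set_option linter.unusedVariables false
set_option linter.style.haveILetI false
set_option synthInstance.maxHeartbeats 400000

open HahnSeries IntermediateField ModularCurve IsLocalRing

namespace Fermat.Agent.MP

open Fermat.Agent.JA Fermat.Agent.Igusa Fermat.Agent.SS Fermat.Agent.FG Fermat.Agent.S36
  Fermat.Agent.NP Fermat.Agent.FF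

open scoped Fermat.Agent.JA.Host

/-- `Ω = AlgebraicClosure ℚ`. -/
local notation "Ω" => AlgebraicClosure ℚ

noncomputable section

section Surj

variable {p : ℕ} [Fact p.Prime] {A : ValuationSubring Ω} (hA : A.LiesOverPrime p)
  (N : ℕ) [NeZero N] (hp2 : p ≠ 2)
  (K' : IntermediateField ℚ Ω) [IsDiscreteValuationRing ↥(baseRing A K')]
  (h2 : IsUnit (2 : ↥(baseRing A K')))

/-- **the reduction map `V_N(K') → Ẽ_N` of a base is onto.** -/
theorem legRhoBase_surjective (hK' : IsBase p K') (hpN : ¬ p ∣ N) :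
    Function.Surjective (legRhoBase hA N hp2 K' h2) := by
  classical
  intro z
  haveI : CharZero ↥(baseRing A K') := charZero_valuationSubring_of_algebraRat _
  obtain ⟨ϖ, hϖ⟩ := IsDiscreteValuationRing.exists_irreducible ↥(baseRing A K')
  have hgeo := geoHyps_legE_baseRing hA N hpN hK' hp2 hϖ
  obtain ⟨𝒢t, h𝒢t⟩ := exists_isGaussAt ϖ hϖ _ hgeo.transcendental hgeo.adjoin_eq_top
  haveI : IsLocalRing ↥(legW₁ N 𝒢t) := hgeo.isLocalRing 𝒢t h𝒢t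
  obtain ⟨y, hy⟩ := legPsi_surjective hA N hpN hK' hp2 hϖ 𝒢t h𝒢t z
  obtain ⟨b, rfl⟩ := IsLocalRing.residue_surjective y
  have hb : ((b : ↥(legE ↥K' N)) : LaurentSeries ↥K') ∈ gaussInt ↥(baseRing A K') ↥K' :=
    (isIntegral_legE_iff_mem_gaussInt hA N hpN hK' hp2 hϖ 𝒢t h𝒢t _).1 b.2
  refine ⟨⟨(b : ↥(legE ↥K' N)), hb⟩, ?_⟩
  rw [← hy, legPsi_residue]
  rfl

end Surj

section Indep

variable {p : ℕ} [Fact p.Prime] {A : ValuationSubring Ω} (hA : A.LiesOverPrime p)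
  (M : ℕ) [NeZero M] (hp2 : p ≠ 2) (ℓ : ℕ) [NeZero ℓ] [NeZero (M * ℓ)]
  (K' : IntermediateField ℚ Ω) [IsDiscreteValuationRing ↥(baseRing A K')]
  (h2 : IsUnit (2 : ↥(baseRing A K')))

/-- `V_{Mℓ}(K') ∩ A_ℓ E_M = A_ℓ V_M(K')` (any level multiplier `ℓ`). -/
theorem legWinf_comap_legHostA_gen :
    (legWinf ↥(baseRing A K') ↥K' h2 (M * ℓ)).comap (legHostA ↥K' M ℓ).toRingHom =
      legWinf ↥(baseRing A K') ↥K' h2 M := by
  ext x
  rw [ValuationSubring.mem_comap]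
  show ((legHostA ↥K' M ℓ x : ↥(legE ↥K' (M * ℓ))) : LaurentSeries ↥K') ∈ gaussInt _ _ ↔
    ((x : ↥(legE ↥K' M)) : LaurentSeries ↥K') ∈ gaussInt _ _
  have h1 : ((legHostA ↥K' M ℓ x : ↥(legE ↥K' (M * ℓ))) : LaurentSeries ↥K') = x :=
    IntermediateField.coe_inclusion _ x
  rw [h1]

include hA hp2 in
/-- **[RESINDEP-K']: a residually independent family of full length `ℓ + 1` of
`V_{Mℓ}(K') / V_M(K')` along `A_ℓ`** (the hypothesis `hc` of `threeHyps_legInf`). -/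
theorem exists_resIndep_legWinf_base (hK' : IsBase p K') (hℓ : ℓ.Prime) (hℓ2 : ℓ ≠ 2)
    (hℓM : ¬ ℓ ∣ M) (hpMℓ : ¬ p ∣ M * ℓ) :
    letI := (legHostA ↥K' M ℓ).toRingHom.toAlgebra
    ∃ c : Fin (ℓ + 1) → ↥(legE ↥K' (M * ℓ)),
      ResIndep (legWinf ↥(baseRing A K') ↥K' h2 M) (legWinf ↥(baseRing A K') ↥K' h2 (M * ℓ)) c := by
  letI algE : Algebra ↥(legE ↥K' M) ↥(legE ↥K' (M * ℓ)) :=
    (legHostA ↥K' M ℓ).toRingHom.toAlgebra
  letI algκ : Algebra (legEt hA M hp2) (legEt hA (M * ℓ) hp2) :=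
    (legEtA hA M hp2 ℓ).toRingHom.toAlgebra
  have hfrE : Module.finrank ↥(legE ↥K' M) ↥(legE ↥K' (M * ℓ)) = ℓ + 1 :=
    finrank_legHostA_base M ℓ hℓ hℓ2 hℓM K'
  haveI : FiniteDimensional ↥(legE ↥K' M) ↥(legE ↥K' (M * ℓ)) :=
    Module.finite_of_finrank_pos (by rw [hfrE]; exact Nat.succ_pos ℓ)
  have hfrκ : Module.finrank (legEt hA M hp2) (legEt hA (M * ℓ) hp2) = ℓ + 1 :=
    finrank_legEtA hA M hp2 ℓ hℓ hℓ2 hℓM hpMℓ
  haveI : FiniteDimensional (legEt hA M hp2) (legEt hA (M * ℓ) hp2) :=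
    finite_legEtA hA M hp2 ℓ hpMℓ
  obtain ⟨b, hb⟩ := exists_resIndep_of_finrank_res
    (W := legWinf ↥(baseRing A K') ↥K' h2 M) (W' := legWinf ↥(baseRing A K') ↥K' h2 (M * ℓ))
    (legRhoBase hA M hp2 K' h2) (legRhoBase hA (M * ℓ) hp2 K' h2)
    (legRhoBase_surjective hA (M * ℓ) hp2 K' h2 hK' hpMℓ)
    (legRhoBase_eq_zero_iff hA M hp2 K' h2) (legRhoBase_eq_zero_iff hA (M * ℓ) hp2 K' h2)
    (legWinf_comap_legHostA_gen M ℓ K' h2)
    (fun x hx => legRhoBase_legHostA hA M hp2 ℓ K' h2 (x : ↥(legE ↥K' M)) x.2 hx)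
  revert b
  rw [hfrκ]
  intro b hb
  exact ⟨b, hb⟩

/-- **`legRhoBase` commutes with the norm along `A_ℓ`** (the `K'`-level `ρ_norm`). -/
theorem legRhoBase_norm_legHostA (hK' : IsBase p K') (hℓ : ℓ.Prime) (hℓ2 : ℓ ≠ 2)
    (hℓM : ¬ ℓ ∣ M) (hpM : ¬ p ∣ M) (hpMℓ : ¬ p ∣ M * ℓ)
    (y : ↥(legWinf ↥(baseRing A K') ↥K' h2 (M * ℓ))) :
    ∃ hN : (letI := (legHostA ↥K' M ℓ).toRingHom.toAlgebra;
        Algebra.norm ↥(legE ↥K' M) (y : ↥(legE ↥K' (M * ℓ)))) ∈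
        legWinf ↥(baseRing A K') ↥K' h2 M,
      legRhoBase hA M hp2 K' h2 ⟨_, hN⟩ =
        (letI := (legEtA hA M hp2 ℓ).toRingHom.toAlgebra;
          Algebra.norm (legEt hA M hp2) (legRhoBase hA (M * ℓ) hp2 K' h2 y)) := by
  letI algE : Algebra ↥(legE ↥K' M) ↥(legE ↥K' (M * ℓ)) :=
    (legHostA ↥K' M ℓ).toRingHom.toAlgebra
  letI algκ : Algebra (legEt hA M hp2) (legEt hA (M * ℓ) hp2) :=
    (legEtA hA M hp2 ℓ).toRingHom.toAlgebra
  have hfrE : Module.finrank ↥(legE ↥K' M) ↥(legE ↥K' (M * ℓ)) = ℓ + 1 :=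
    finrank_legHostA_base M ℓ hℓ hℓ2 hℓM K'
  haveI : FiniteDimensional ↥(legE ↥K' M) ↥(legE ↥K' (M * ℓ)) :=
    Module.finite_of_finrank_pos (by rw [hfrE]; exact Nat.succ_pos ℓ)
  have hfrκ : Module.finrank (legEt hA M hp2) (legEt hA (M * ℓ) hp2) = ℓ + 1 :=
    finrank_legEtA hA M hp2 ℓ hℓ hℓ2 hℓM hpMℓ
  haveI : FiniteDimensional (legEt hA M hp2) (legEt hA (M * ℓ) hp2) :=
    finite_legEtA hA M hp2 ℓ hpMℓ
  exact ρ_norm_of_finrank_res_eq
    (W := legWinf ↥(baseRing A K') ↥K' h2 M) (W' := legWinf ↥(baseRing A K') ↥K' h2 (M * ℓ))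
    (legRhoBase hA M hp2 K' h2) (legRhoBase hA (M * ℓ) hp2 K' h2)
    (legRhoBase_surjective hA M hp2 K' h2 hK' hpM)
    (legRhoBase_surjective hA (M * ℓ) hp2 K' h2 hK' hpMℓ)
    (legRhoBase_eq_zero_iff hA M hp2 K' h2) (legRhoBase_eq_zero_iff hA (M * ℓ) hp2 K' h2)
    (legWinf_comap_legHostA_gen M ℓ K' h2)
    (fun x hx => legRhoBase_legHostA hA M hp2 ℓ K' h2 (x : ↥(legE ↥K' M)) x.2 hx)
    (hfrκ.trans hfrE.symm) y

end Indep

end

end Fermat.Agent.MP
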