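/-
MP40 C5 [RED∞] — helper8 — **the Hecke operator `T_ℓ = N_A ∘ B` of the Legendre host over a base
`K'` commutes with the reduction `legRhoBase`** (`K'`-level form, no passage through `Ω`).
-/
import Mathlib
import Fermat.Agent.MP.REDINF_helper8_ResIndep
import Fermat.Agent.MP.NORMP_helper3_HostT

set_option autoImplicit false
set_option linter.unusedSectionVars false
set_option linter.unusedVariables false
set_option linter.style.haveILetI false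
set_option synthInstance.maxHeartbeats 400000

open HahnSeries IntermediateField ModularCurve IsLocalRing

namespace Fermat.Agent.MP

open Fermat.Agent.JA Fermat.Agent.Igusa Fermat.Agent.SS Fermat.Agent.FG Fermat.Agent.S36
  Fermat.Agent.NP Fermat.Agent.FF

open scoped Fermat.Agent.JA.Host

/-- `Ω = AlgebraicClosure ℚ`. -/
local notation "Ω" => AlgebraicClosure ℚ

noncomputable section

section HeckeBase

variable {p : ℕ} [Fact p.Prime] {A : ValuationSubring Ω} (hA : A.LiesOverPrime p)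
  (M : ℕ) [NeZero M] (hp2 : p ≠ 2) (ℓ : ℕ) [NeZero ℓ] [NeZero (M * ℓ)]
  (K' : IntermediateField ℚ Ω) [IsDiscreteValuationRing ↥(baseRing A K')]
  (h2 : IsUnit (2 : ↥(baseRing A K')))

/-- `B_ℓ` preserves Gauss-integrality over a base. -/
theorem legHostB_mem_legWinf_base (hℓ : ℓ.Prime) (hℓ2 : ℓ ≠ 2) (x : ↥(legE ↥K' M))
    (hx : x ∈ legWinf ↥(baseRing A K') ↥K' h2 M) :
    legHostB ↥K' M ℓ hℓ hℓ2 x ∈ legWinf ↥(baseRing A K') ↥K' h2 (M * ℓ) := by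
  have h1 : ((legHostB ↥K' M ℓ hℓ hℓ2 x : ↥(legE ↥K' (M * ℓ))) : LaurentSeries ↥K') =
      qExpand ↥K' ℓ (x : LaurentSeries ↥K') := coe_legHostB (K := ↥K') M ℓ hℓ hℓ2 x
  show ((legHostB ↥K' M ℓ hℓ hℓ2 x : ↥(legE ↥K' (M * ℓ))) : LaurentSeries ↥K') ∈ gaussInt _ _
  rw [h1]
  exact (gaussHomQExpand ↥(baseRing A K') ↥K' ℓ).map_mem_gaussInt hx

/-- `A_ℓ` preserves Gauss-integrality over a base. -/
theorem legHostA_mem_legWinf_base (x : ↥(legE ↥K' M))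
    (hx : x ∈ legWinf ↥(baseRing A K') ↥K' h2 M) :
    legHostA ↥K' M ℓ x ∈ legWinf ↥(baseRing A K') ↥K' h2 (M * ℓ) := by
  have h1 : ((legHostA ↥K' M ℓ x : ↥(legE ↥K' (M * ℓ))) : LaurentSeries ↥K') = x :=
    IntermediateField.coe_inclusion _ x
  show ((legHostA ↥K' M ℓ x : ↥(legE ↥K' (M * ℓ))) : LaurentSeries ↥K') ∈ gaussInt _ _
  rw [h1]
  exact hx

/-- **`legRhoBase (T_ℓ x) = T̄_ℓ (legRhoBase x)`.** -/
theorem legRhoBase_legHeckeP (hK' : IsBase p K') (hℓ : ℓ.Prime) (hℓ2 : ℓ ≠ 2)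
    (hℓM : ¬ ℓ ∣ M) (hpM : ¬ p ∣ M) (hpMℓ : ¬ p ∣ M * ℓ) (x : ↥(legE ↥K' M))
    (hx : x ∈ legWinf ↥(baseRing A K') ↥K' h2 M) :
    ∃ hN : legHeckeP ↥K' M ℓ hℓ hℓ2 x ∈ legWinf ↥(baseRing A K') ↥K' h2 M,
      legRhoBase hA M hp2 K' h2 ⟨legHeckeP ↥K' M ℓ hℓ hℓ2 x, hN⟩ =
        legEtT hA M hp2 ℓ hℓ hℓ2 (legRhoBase hA M hp2 K' h2 ⟨x, hx⟩) := by
  have hB := legHostB_mem_legWinf_base M ℓ K' h2 hℓ hℓ2 x hx
  obtain ⟨hN, h⟩ := legRhoBase_norm_legHostA hA M hp2 ℓ K' h2 hK' hℓ hℓ2 hℓM hpM hpMℓ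
    ⟨legHostB ↥K' M ℓ hℓ hℓ2 x, hB⟩
  refine ⟨hN, ?_⟩
  rw [legEtT_apply', ← legRhoBase_legHostB hA M hp2 ℓ K' h2 hℓ hℓ2 x hx hB]
  exact h

end HeckeBase

end

end Fermat.Agent.MP
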