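/-
MP40 (row 38: S44) — helper4 — **the Frey curve at `2`**: every integral model of the Frey curve has
bad reduction at `2` (`c₄ = a^{2p} + a^p b^p + b^{2p}` is odd and `Δ = (abc)^{2p} / 2^8` with
`2p · v₂(b) ≥ 10`, so the `j`-invariant is not `2`-integral).
-/
import Mathlib
import Fermat.Agent.Tate.Frey_helper7
import Fermat.Prelude.Def_FLTPrelim_Modularity

set_option autoImplicit false
set_option linter.unusedSectionVars false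
set_option linter.unusedVariables false

namespace Fermat.Agent.MP

open WeierstrassCurve

variable (P : FreyPackage)

/-- `c₄` of the Frey curve. -/
theorem freyCurve_c₄ :
    P.freyCurve.c₄ = (((P.a ^ (2 * P.p) + P.a ^ P.p * P.b ^ P.p + P.b ^ (2 * P.p) : ℤ)) : ℚ) := by
  simp only [WeierstrassCurve.c₄, WeierstrassCurve.b₂, WeierstrassCurve.b₄,
    FreyPackage.freyCurve]
  push_cast
  rw [pow_mul', pow_mul']
  ring

/-- `a^{2p} + a^p b^p + b^{2p}` is odd. -/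
theorem frey_c₄_odd :
    ¬ (2 : ℤ) ∣ P.a ^ (2 * P.p) + P.a ^ P.p * P.b ^ P.p + P.b ^ (2 * P.p) := by
  have hb : (2 : ℤ) ∣ P.b := (ZMod.intCast_zmod_eq_zero_iff_dvd P.b 2).1 P.hb2
  have ha : ¬ (2 : ℤ) ∣ P.a := by
    intro h
    have h4 : ((P.a : ℤ) : ZMod 4) = 3 := P.ha4
    obtain ⟨k, hk⟩ := h
    rw [hk] at h4
    have : ∀ k : ZMod 4, (2 : ZMod 4) * k ≠ 3 := by decide
    push_cast at h4
    exact this _ h4
  have hp0 : P.p ≠ 0 := P.hp0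
  intro h
  have h1 : (2 : ℤ) ∣ P.a ^ P.p * P.b ^ P.p + P.b ^ (2 * P.p) :=
    dvd_add (Dvd.dvd.mul_left (dvd_pow hb hp0) _) (dvd_pow hb (by omega))
  have h2 : (2 : ℤ) ∣ P.a ^ (2 * P.p) := by
    have h3 : (2 : ℤ) ∣ P.a ^ (2 * P.p) + (P.a ^ P.p * P.b ^ P.p + P.b ^ (2 * P.p)) := by
      rw [← add_assoc]; exact h
    exact (Int.dvd_add_left h1).mp h3
  exact ha (Int.prime_two.dvd_of_dvd_pow h2)

/-- **every integral model of the Frey curve has bad reduction at `2`.** -/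
theorem frey_not_isGoodPrimeFor_two {W : WeierstrassCurve ℤ}
    (hW : W.IsIntegralModelOf P.freyCurve) : ¬ W.IsGoodPrimeFor 2 := by
  obtain ⟨C, hC⟩ := hW
  set c4E : ℤ := P.a ^ (2 * P.p) + P.a ^ P.p * P.b ^ P.p + P.b ^ (2 * P.p) with hc4E
  have hΔ : ((W.Δ : ℤ) : ℚ) = C.u⁻¹ ^ 12 * P.freyCurve.Δ := by
    rw [← WeierstrassCurve.variableChange_Δ, hC, WeierstrassCurve.map_Δ]
    simp
  have hc : ((W.c₄ : ℤ) : ℚ) = C.u⁻¹ ^ 4 * P.freyCurve.c₄ := by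
    rw [← WeierstrassCurve.variableChange_c₄, hC, WeierstrassCurve.map_c₄]
    simp
  have hid : ((W.c₄ : ℤ) : ℚ) ^ 3 * P.freyCurve.Δ = P.freyCurve.c₄ ^ 3 * ((W.Δ : ℤ) : ℚ) := by
    rw [hΔ, hc]
    ring
  rw [Fermat.Agent.Tate.freyCurve_Δ, freyCurve_c₄] at hid
  have hint : W.c₄ ^ 3 * (P.a * P.b * P.c) ^ (2 * P.p) = 2 ^ 8 * c4E ^ 3 * W.Δ := by
    have h1 : ((W.c₄ ^ 3 * (P.a * P.b * P.c) ^ (2 * P.p) : ℤ) : ℚ) =
        ((2 ^ 8 * c4E ^ 3 * W.Δ : ℤ) : ℚ) := by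
      have h2 : (2 : ℚ) ^ 8 ≠ 0 := by norm_num
      field_simp at hid
      push_cast at hid
      rw [hc4E]
      push_cast
      linear_combination hid
    exact_mod_cast h1
  intro hgood
  have hgood' : ¬ (2 : ℤ) ∣ W.Δ := hgood
  have hb : (2 : ℤ) ∣ P.b := (ZMod.intCast_zmod_eq_zero_iff_dvd P.b 2).1 P.hb2
  have hp5 := P.hp5
  have h10 : (2 : ℤ) ^ 10 ∣ (P.a * P.b * P.c) ^ (2 * P.p) := by
    have h1 : (2 : ℤ) ^ (2 * P.p) ∣ (P.a * P.b * P.c) ^ (2 * P.p) :=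
      pow_dvd_pow_of_dvd (Dvd.dvd.mul_right (Dvd.dvd.mul_left hb _) _) _
    exact (pow_dvd_pow 2 (by omega)).trans h1
  have h2 : (2 : ℤ) ^ 10 ∣ 2 ^ 8 * c4E ^ 3 * W.Δ := by
    rw [← hint]
    exact Dvd.dvd.mul_left h10 _
  have h3 : (2 : ℤ) ^ 2 ∣ c4E ^ 3 * W.Δ := by
    have h4 : (2 : ℤ) ^ 8 * 2 ^ 2 ∣ 2 ^ 8 * (c4E ^ 3 * W.Δ) := by
      rw [← mul_assoc, ← pow_add]
      exact h2
    exact (mul_dvd_mul_iff_left (by norm_num : (2 : ℤ) ^ 8 ≠ 0)).1 h4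
  have h5 : (2 : ℤ) ∣ c4E ^ 3 * W.Δ := (dvd_pow_self 2 (by norm_num)).trans h3
  rcases Int.prime_two.dvd_or_dvd h5 with h6 | h6
  · exact frey_c₄_odd P (Int.prime_two.dvd_of_dvd_pow h6)
  · exact hgood' h6

end Fermat.Agent.MP
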