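/-
MP40 (S44/S40) — helper4 — **[TOP-L], the core**: a `p`-new copy of `E[p]` in `J₀(M' p)` (lead's
`NewCopy`), (KEY-PEU) (`KeyPeu M' p`, helper8's interface) and (peu) on `E[p]` ([ECPEU],
[ECPEU-MULT]) give `ResOccurs M' p`.

Proof: fix a place `A ∣ p`.  By (KEY-PEU) applied to the classes `x = φ Q`, `Q ∈ E[p]`, either some
`Q` gives `ResOccurs`, or every `σ ∈ I_A` acts on `E[p]` as the scalar `ε̄(σ)`; for a `σ ∈ I_A` with
`ε̄(σ) = a ≢ 0, 1 mod p` this contradicts `det ρ̄_{E,p} = ε̄` (`a² ≡ a`).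
-/
import Mathlib
import Fermat.Agent.MP.TOPG_lead_Iface
import Fermat.Agent.LR.NONEIS_helper3_Main
import Fermat.Agent.S52x.DET_helper3_Mod
import Fermat.Agent.NP.EPS33_helper2_Cyc
import Fermat.Agent.S54_Frobenius
import Fermat.Agent.S58.ECTATE_helper7_Abs

set_option autoImplicit false
set_option linter.unusedSectionVars false
set_option linter.unusedVariables false
set_option linter.style.haveILetI false

open AlgebraicCurve ModularCurve WeierstrassCurve WeierstrassCurve.Affine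
open WeierstrassCurve.Affine.Point

open scoped WeierstrassCurve.Affine

namespace Fermat.Agent.MP

open Fermat.Agent.S35 Fermat.Agent.NP Fermat.Agent.GR Fermat.Agent.LR.NonEis

/-- `Ω = AlgebraicClosure ℚ`. -/
local notation "Ω" => AlgebraicClosure ℚ

/-- the absolute Galois group. -/
local notation "GQ" => (AlgebraicClosure ℚ ≃ₐ[ℚ] AlgebraicClosure ℚ)

section Scalar

variable (W : WeierstrassCurve ℤ) {p : ℕ} [Fact p.Prime]

/-- an element of `G_ℚ` acting on `W[p](ℚ̄)` as the scalar `c` and on `μ_p` by `ζ ↦ ζ ^ e` has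
`c² ≡ e mod p` (`det ρ̄ = ε̄`). -/
theorem sq_sub_dvd_of_scalar (hΔ : W.Δ ≠ 0) (hp2 : p ≠ 2) (σ : GQ) (c e : ℕ)
    (he : ∀ μ : Ω, μ ^ p = 1 → σ μ = μ ^ e)
    (hc : ∀ P : (W.toAffine⁄Ω).Point, p • P = 0 → σ • P = c • P) :
    (p : ℤ) ∣ (c : ℤ) * c - e := by
  classical
  have hp : p.Prime := Fact.out
  have hΔΩ : (W.toAffine⁄Ω).Δ ≠ 0 := by
    have h1 : (W.toAffine⁄Ω).Δ = ((W.Δ : ℤ) : Ω) := by
      simp [WeierstrassCurve.baseChange, WeierstrassCurve.map_Δ]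
    rw [h1]
    exact_mod_cast hΔ
  have hcard : Nat.card {P : (W.toAffine⁄Ω).Point // p • P = 0} = p ^ 2 :=
    Fermat.Agent.EC.card_torsion_eq hΔΩ hp hp2
  obtain ⟨u, v, hu, hv, hind, -⟩ :=
    Fermat.Agent.S58.exists_basis_torsion_prime (J := (W.toAffine⁄Ω).Point) p hcard
  have h := Fermat.Agent.S52x.det_mod_eq_cyclotomic W hΔ hp2 u v hu hv hind σ (c : ℤ) 0 0 (c : ℤ)
    (by rw [hc u hu, zero_zsmul, add_zero, natCast_zsmul])
    (by rw [hc v hv, zero_zsmul, zero_add, natCast_zsmul]) e he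
  simpa using h

end Scalar

section Model

variable (E : WeierstrassCurve ℚ) {W : WeierstrassCurve ℤ}

/-- the points of `E` and of an integral model of `E`, Galois-equivariantly. -/
theorem exists_equivariant_addEquiv_of_isIntegralModelOf (hW : W.IsIntegralModelOf E) :
    ∃ e : (E.toAffine⁄Ω).Point ≃+ (W.toAffine⁄Ω).Point,
      ∀ (σ : GQ) (P : (E.toAffine⁄Ω).Point), e (σ • P) = σ • e P := by
  obtain ⟨C, hC⟩ := hW
  have h2 : ∃ e : (E.toAffine⁄Ω).Point ≃+ ((C • E).toAffine⁄Ω).Point,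
      ∀ (σ : GQ) (P : (E.toAffine⁄Ω).Point), e (σ • P) = σ • e P :=
    ⟨(Fermat.Agent.Tate.vcPtBaseChange E C Ω).symm, fun σ P => by
      apply (Fermat.Agent.Tate.vcPtBaseChange E C Ω).injective
      rw [AddEquiv.apply_symm_apply, ← Fermat.Agent.Tate.smul_vcPtBaseChange,
        AddEquiv.apply_symm_apply]⟩
  have h3 : ∃ e : (E.toAffine⁄Ω).Point ≃+ ((W.map (Int.castRingHom ℚ)).toAffine⁄Ω).Point,
      ∀ (σ : GQ) (P : (E.toAffine⁄Ω).Point), e (σ • P) = σ • e P := hC ▸ h2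
  obtain ⟨e, he⟩ := h3
  refine ⟨e.trans (pointCongr (baseChange_map_castRingHom W)), fun σ P => ?_⟩
  rw [AddEquiv.trans_apply, AddEquiv.trans_apply, he, smul_pointCongr_castRingHom]

end Model

section Core

variable {M' p : ℕ} [NeZero M'] [NeZero p] [NeZero (M' * p)]

/-- **[TOP-L], the core.** -/
theorem resOccurs_of_newCopy (hp : p.Prime) (hp2 : p ≠ 2) (hK : KeyPeu M' p)
    (E : WeierstrassCurve ℚ) [E.IsElliptic] {W : WeierstrassCurve ℤ}
    (hW : W.IsIntegralModelOf E) (hirr : GaloisRepIsIrreducible (K := Ω) ℚ E p)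
    (NC : NewCopy E W M' p)
    (hpeu : ∀ A : ValuationSubring Ω, A.LiesOverPrime p → ∀ σ ∈ A.inertiaSubgroupIn ℚ,
      ∀ Q : (E.toAffine⁄Ω).Point, p • Q = 0 → σ • Q ≠ Q → ∀ ζ : Ω, IsPrimitiveRoot ζ p →
        ∃ r : Ω, r ∈ A ∧ (∀ τ : GQ, τ • Q = Q → τ r = r) ∧ σ r - r ≠ 0 ∧
          (ζ - 1) / (σ r - r) ∈ A) :
    ResOccurs M' p (badSet W p (M' * p)) (fun ℓ => W.apOfModel ℓ) := by
  classical
  haveI : Fact p.Prime := ⟨hp⟩
  obtain ⟨A, hA'⟩ := Fermat.Agent.S54.exists_valuationSubring_liesOver (L := Ω) hp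
  have hA : A.LiesOverPrime p := hA'
  have hKA := hK A hA
  obtain ⟨ζ, hζ⟩ := Fermat.Agent.CFT.S14.exists_primitiveRoot_Qbar p
  -- a non-Eisenstein prime
  obtain ⟨ℓ₀, hℓ₀, hℓ₀S, hℓ₀p, -, hℓ₀good, hℓ₀a⟩ :=
    exists_prime_not_eisenstein E hW hp hp2 hirr 1 one_pos (M' * p).primeFactors
  have hS : ∀ ℓ : ℕ, ℓ.Prime → ℓ ∣ M' * p → ℓ ∈ badSet W p (M' * p) :=
    fun ℓ _ h => Or.inr (Or.inl h)
  have hnE : ∃ ℓ : ℕ, ℓ.Prime ∧ ℓ ∉ badSet W p (M' * p) ∧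
      ¬ (W.apOfModel ℓ ≡ (ℓ : ℤ) + 1 [ZMOD (p : ℤ)]) := by
    refine ⟨ℓ₀, hℓ₀, ?_, ?_⟩
    · rintro (h | h | h)
      · exact h hℓ₀good
      · exact hℓ₀S (Nat.mem_primeFactors.mpr ⟨hℓ₀, h, NeZero.ne _⟩)
      · exact hℓ₀p h
    · intro h
      apply hℓ₀a
      have := (Int.modEq_iff_dvd.mp h)
      rwa [dvd_sub_comm] at this
  -- (KEY-PEU) on each class `φ Q`
  have hQ : ∀ Q : ↥(torsionNat (E.toAffine⁄Ω).Point p),
      (∀ σ ∈ A.inertiaSubgroupIn ℚ, ∀ c : ℕ, CycAct p σ c → σ • NC.φ Q = c • NC.φ Q) ∨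
        ResOccurs M' p (badSet W p (M' * p)) (fun ℓ => W.apOfModel ℓ) := by
    intro Q
    refine hKA _ _ hS hnE (NC.φ Q) ?_ (NC.alpha Q) (NC.beta Q)
      (fun ℓ hℓ hℓS => NC.hecke ℓ hℓ hℓS Q) ?_
    · have h0 : p • Q = 0 := Subtype.ext Q.2
      rw [← map_nsmul, h0, _root_.map_zero]
    · intro τ hτ _ hne
      have hneQ : τ • Q.1 ≠ Q.1 := by
        intro h
        apply hne
        rw [← NC.gal]
        congr 1
        exact Subtype.ext h
      obtain ⟨r, hrA, hfix, h0, hmem⟩ := hpeu A hA τ hτ Q.1 Q.2 hneQ ζ hζ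
      refine ⟨r, hrA, ?_, h0, ζ, hζ, hmem⟩
      intro σ hσ
      apply hfix
      have h1 := NC.gal σ Q
      rw [hσ] at h1
      exact congrArg Subtype.val (NC.inj h1)
  by_contra hno
  -- every `σ ∈ I_A` acts on `E[p]` as the scalar `ε̄(σ)`
  have hscal : ∀ σ ∈ A.inertiaSubgroupIn ℚ, ∀ c : ℕ, CycAct p σ c →
      ∀ Q : (E.toAffine⁄Ω).Point, p • Q = 0 → σ • Q = c • Q := by
    intro σ hσ c hc Q hQ0
    rcases hQ ⟨Q, hQ0⟩ with h | h
    · have h1 := h σ hσ c hc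
      rw [← NC.gal, ← map_nsmul] at h1
      exact congrArg Subtype.val (NC.inj h1)
    · exact absurd h hno
  obtain ⟨σ, hσ, a, ha, hap, ha1⟩ := exists_cycAct_ne_one hp hp2 hA
  have hEa := hscal σ hσ a ha
  -- transport to the integral model
  obtain ⟨e, he⟩ := exists_equivariant_addEquiv_of_isIntegralModelOf E hW
  have hWa : ∀ P : (W.toAffine⁄Ω).Point, p • P = 0 → σ • P = a • P := by
    intro P hP
    have h1 : p • e.symm P = 0 := by rw [← map_nsmul, hP, _root_.map_zero]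
    have h2 := hEa (e.symm P) h1
    have h3 := congrArg e h2
    rwa [he, map_nsmul, e.apply_symm_apply] at h3
  have hdvd := sq_sub_dvd_of_scalar W (Δ_ne_zero_of_isIntegralModelOf E hW) hp2 σ a a ha hWa
  have h4 : (p : ℤ) ∣ (a : ℤ) * ((a : ℤ) - 1) := by
    have : (a : ℤ) * ((a : ℤ) - 1) = (a : ℤ) * a - a := by ring
    rwa [this]
  rcases (Nat.prime_iff_prime_int.mp hp).dvd_or_dvd h4 with h5 | h5
  · exact hap (by exact_mod_cast h5)
  · apply ha1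
    have h6 : (a : ℤ) ≡ 1 [ZMOD (p : ℤ)] := (Int.modEq_iff_dvd.mpr (by
      rwa [dvd_sub_comm])).symm.symm
    exact_mod_cast h6

end Core

end Fermat.Agent.MP
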