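/-
MP40 (S44/S40) — helper4 — [TOP-G], the lattice half, part (L): **`ResOccurs` and eigenvectors
modulo `p` in the lattice `H¹_par(Γ₀(N), ℤ)`** (mirror images of `MP/RQ5_helper4_Lift` and of
`LR.exists_occ`).

* `resOccurs_of_lpar_eigen_mod_p` (L-d): `w ∈ L ∖ pL`, `L = LPar M'`, with
  `T_ℓ w ≡ a_ℓ w mod pL` for all primes `ℓ ∉ S` gives `ResOccurs M' p S a` (Deligne–Serre lifting
  `LR.exists_eigenvector_lift` on `castPar`, a common eigenvector of ALL Hecke operators in the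
  eigenspace of `VPar M'`, `GR.exists_eigenForm_of_eigenPar_ne_bot`,
  `S49E.exists_isNormalizedEigenform_of_eigenvector`).
* `exists_lpar_eigen_mod_p_of_resOccurs` (L-a): conversely, `ResOccurs N p S a` gives such a `w`
  (`GR.exists_eigenPar_of_isNormalizedEigenform`, `LR.smul_top_ne_top_of_eigenvector`,
  `LR.exists_notMem_p_smul_of_smul_top_ne_top`).
-/
import Mathlib
import Fermat.Agent.MP.RQ5_helper4_Lift
import Fermat.Agent.LR.INST_helper7_Occ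
import Fermat.Agent.LR.INST_helper7_Top5

set_option autoImplicit false
set_option linter.unusedSectionVars false
set_option linter.style.haveILetI false

namespace Fermat.Agent.MP

open CongruenceSubgroup ModularFormClass MvPolynomial Fermat.Agent.GR Fermat.Agent.LR

section Abstract

variable {σ : Type*} {X : Type*} [AddCommGroup X]

/-- the action of a polynomial in a commuting family of endomorphisms of an abelian group on an
eigenvector modulo `p`. -/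
theorem polyHom_apply_eigen_mod (T : σ → Module.End ℤ X) (hT : ∀ i j, Commute (T i) (T j))
    {p : ℕ} (a : σ → ℤ) (x : X) (hE : ∀ i, ∃ y : X, T i x = a i • x + (p : ℤ) • y)
    (r : MvPolynomial σ ℤ) :
    ∃ (m : ℤ) (y : X),
      (m : ZMod p) = MvPolynomial.eval₂Hom (Int.castRingHom (ZMod p))
        (fun i => ((a i : ℤ) : ZMod p)) r ∧
      polyHom T hT r x = m • x + (p : ℤ) • y := by
  induction r using MvPolynomial.induction_on with
  | C n =>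
    refine ⟨n, 0, ?_, ?_⟩
    · rw [MvPolynomial.coe_eval₂Hom, MvPolynomial.eval₂_C, eq_intCast]
    · rw [polyHom_C, Module.End.intCast_apply, smul_zero, add_zero]
  | add r₁ r₂ h₁ h₂ =>
    obtain ⟨m₁, y₁, hm₁, hy₁⟩ := h₁
    obtain ⟨m₂, y₂, hm₂, hy₂⟩ := h₂
    refine ⟨m₁ + m₂, y₁ + y₂, ?_, ?_⟩
    · rw [map_add, ← hm₁, ← hm₂]
      push_cast
      rfl
    · rw [map_add, LinearMap.add_apply, hy₁, hy₂, add_smul, smul_add]
      abel
  | mul_X r i h =>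
    obtain ⟨m, y, hm, hy⟩ := h
    obtain ⟨y₀, hy₀⟩ := hE i
    refine ⟨m * a i, a i • y + polyHom T hT r y₀, ?_, ?_⟩
    · rw [map_mul, ← hm, MvPolynomial.coe_eval₂Hom, MvPolynomial.eval₂_X]
      push_cast
      rfl
    · rw [map_mul, Module.End.mul_apply, polyHom_X, hy₀, map_add, map_zsmul, map_zsmul, hy,
        smul_add, smul_add, smul_smul, smul_smul, smul_smul, mul_comm (a i) m,
        mul_comm (a i) (p : ℤ)]
      abel

end Abstract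

section Down

variable {M' : ℕ} [NeZero M'] {S : Set ℕ}

/-- **Deligne–Serre lifting in `H¹_par(Γ₀(M'), ℤ)`**: an eigenvector modulo `p` of the `T_ℓ`,
`ℓ ∉ S`, gives a complex parabolic class which is an eigenvector with eigenvalues in `ℤ̄` congruent
to the `a_ℓ` modulo a maximal ideal `𝔪' ∋ p` of `ℤ̄`. -/
theorem exists_vpar_eigen_lift_of_eigen_mod_p {p : ℕ} (hp : p.Prime) (a : ℕ → ℤ)
    (w : LPar M') (hw : ∀ y : LPar M', w ≠ (p : ℤ) • y)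
    (hE : ∀ ℓ : PIdx S, ∃ y : LPar M', heckeZ M' ℓ.1 w = a ℓ.1 • w + (p : ℤ) • y) :
    ∃ (g : VPar M') (c : PIdx S → integralClosure ℤ ℂ)
      (𝔪' : Ideal (integralClosure ℤ ℂ)), g ≠ 0 ∧ 𝔪'.IsMaximal ∧
      (p : integralClosure ℤ ℂ) ∈ 𝔪' ∧
      (∀ ℓ : PIdx S, heckeC M' ℓ.1 g = ((c ℓ : integralClosure ℤ ℂ) : ℂ) • g) ∧
      ∀ ℓ : PIdx S, c ℓ - ((a ℓ.1 : ℤ) : integralClosure ℤ ℂ) ∈ 𝔪' := by
  haveI : Fact p.Prime := ⟨hp⟩
  letI : Module (MvPolynomial (PIdx S) ℤ) (LPar M') :=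
    Module.compHom _ (heckeRingHomZ M' (Subtype.val : PIdx S → Nat.Primes))
  have hsmul : ∀ (r : MvPolynomial (PIdx S) ℤ) (y : LPar M'),
      r • y = heckeRingHomZ M' (Subtype.val : PIdx S → Nat.Primes) r y := fun r y => rfl
  set 𝔪 : Ideal (MvPolynomial (PIdx S) ℤ) := RingHom.ker (resChar (S := S) p a) with h𝔪def
  have h𝔪 : 𝔪.IsMaximal := RingHom.ker_isMaximal_of_surjective _ (resChar_surjective p a)
  obtain ⟨g, χ, 𝔪', -, hg0, h𝔪', hgχ, hχ𝔪⟩ :=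
    exists_eigenvector_lift (heckeRingHomC M' (Subtype.val : PIdx S → Nat.Primes))
      (castPar M')
      (fun r y => by
        rw [hsmul]
        exact castPar_heckeRingHomZ M' _ r y)
      (castPar_injective M') (p := p) 𝔪 h𝔪 w hw
      (fun r hr => by
        obtain ⟨m, y, hm, hy⟩ := polyHom_apply_eigen_mod
          (fun ℓ : PIdx S => heckeZ M' ℓ.1) (fun i j => heckeZ_commute M' i.1 j.1)
          (fun ℓ : PIdx S => a ℓ.1) w hE r
        rw [h𝔪def, RingHom.mem_ker, resChar] at hr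
        rw [hr, ZMod.intCast_zmod_eq_zero_iff_dvd] at hm
        obtain ⟨m', rfl⟩ := hm
        refine ⟨m' • w + y, ?_⟩
        rw [hsmul, heckeRingHomZ, hy, smul_add, smul_smul])
  refine ⟨g, fun ℓ => χ (X ℓ), 𝔪', hg0, h𝔪', ?_, ?_, ?_⟩
  · have hmem : (C (p : ℤ) : MvPolynomial (PIdx S) ℤ) ∈ 𝔪 := by
      rw [h𝔪def, RingHom.mem_ker, resChar, MvPolynomial.coe_eval₂Hom, MvPolynomial.eval₂_C,
        eq_intCast]
      simp
    have := hχ𝔪 _ hmem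
    rw [ringHom_C_int] at this
    exact_mod_cast this
  · intro ℓ
    have := hgχ (X ℓ)
    rw [heckeRingHomC_X] at this
    exact this
  · intro ℓ
    have hmem : (X ℓ - C (a ℓ.1) : MvPolynomial (PIdx S) ℤ) ∈ 𝔪 := by
      rw [h𝔪def, RingHom.mem_ker, map_sub, resChar, MvPolynomial.coe_eval₂Hom,
        MvPolynomial.eval₂_X, MvPolynomial.eval₂_C, eq_intCast, sub_self]
    have := hχ𝔪 _ hmem
    rw [map_sub, ringHom_C_int] at this
    exact this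

/-- **(L-d)**: an eigenvector modulo `p` of the `T_ℓ`, `ℓ ∉ S`, in `H¹_par(Γ₀(M'), ℤ)` gives
`ResOccurs M' p S a`. -/
theorem resOccurs_of_lpar_eigen_mod_p {p : ℕ} (hp : p.Prime) (a : ℕ → ℤ)
    (w : LPar M') (hw : ∀ y : LPar M', w ≠ (p : ℤ) • y)
    (hE : ∀ ℓ : Nat.Primes, (ℓ : ℕ) ∉ S →
      ∃ y : LPar M', heckeZ M' ℓ w = a ℓ • w + (p : ℤ) • y) :
    ResOccurs M' p S a := by
  classical
  obtain ⟨g, c, 𝔪', hg0, h𝔪', hp𝔪', hgc, hca⟩ :=
    exists_vpar_eigen_lift_of_eigen_mod_p (S := S) hp a w hw (fun ℓ => hE ℓ.1 ℓ.2)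
  -- the eigenspace
  let Es : Submodule ℂ (VPar M') :=
    { carrier := {v | ∀ ℓ : PIdx S, heckeC M' ℓ.1 v = ((c ℓ : integralClosure ℤ ℂ) : ℂ) • v}
      add_mem' := by
        intro u v hu hv ℓ
        rw [map_add, hu ℓ, hv ℓ, smul_add]
      zero_mem' := fun ℓ => by rw [map_zero, smul_zero]
      smul_mem' := by
        intro t v hv ℓ
        rw [map_smul, hv ℓ, smul_comm] }
  have hEs : ∀ v, v ∈ Es ↔
      ∀ ℓ : PIdx S, heckeC M' ℓ.1 v = ((c ℓ : integralClosure ℤ ℂ) : ℂ) • v := fun v => Iff.rfl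
  have hEs0 : Es ≠ ⊥ := by
    intro h
    have : g ∈ Es := (hEs g).2 hgc
    rw [h, Submodule.mem_bot] at this
    exact hg0 this
  have hstab : ∀ t ∈ Set.range (heckeC M'), ∀ v ∈ Es, t v ∈ Es := by
    rintro _ ⟨ℓ', rfl⟩ v hv
    rw [hEs] at hv ⊢
    intro ℓ
    have hc := heckeC_commute M' ℓ.1 ℓ'
    have h1 : heckeC M' ℓ.1 (heckeC M' ℓ' v) = heckeC M' ℓ' (heckeC M' ℓ.1 v) := by
      rw [← Module.End.mul_apply, ← Module.End.mul_apply, hc.eq]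
    rw [h1, hv ℓ, map_smul]
  obtain ⟨v, hvE, hv0, hv⟩ := Fermat.Agent.Helper2.exists_common_eigenvector
    (Set.range (heckeC M'))
    (by
      rintro _ ⟨ℓ₁, rfl⟩ _ ⟨ℓ₂, rfl⟩
      exact heckeC_commute M' ℓ₁ ℓ₂) Es hEs0 hstab
  have hv' : ∀ ℓ : Nat.Primes, ∃ μ : ℂ, heckeC M' ℓ v = μ • v := fun ℓ => hv _ ⟨ℓ, rfl⟩
  choose a' ha' using hv'
  rw [hEs] at hvE
  have haS : ∀ ℓ : PIdx S, a' ℓ.1 = ((c ℓ : integralClosure ℤ ℂ) : ℂ) := by
    intro ℓ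
    have h5 : a' ℓ.1 • v = ((c ℓ : integralClosure ℤ ℂ) : ℂ) • v := (ha' ℓ.1).symm.trans (hvE ℓ)
    exact smul_left_injective ℂ hv0 h5
  have hv0' : (v : Additive (Gamma0 M') →+ ℂ) ≠ 0 := fun h => hv0 (Subtype.ext h)
  have hpar : eigenPar M' ℂ a' ≠ ⊥ := by
    intro hbot
    have hmem : (v : Additive (Gamma0 M') →+ ℂ) ∈ eigenPar M' ℂ a' := by
      rw [mem_eigenPar]
      refine ⟨v.2, fun ℓ => ?_⟩
      have := congrArg (fun u : VPar M' => (u : Additive (Gamma0 M') →+ ℂ)) (ha' ℓ)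
      exact this
    rw [hbot, Submodule.mem_bot] at hmem
    exact hv0' hmem
  obtain ⟨f₀, hf0, hf₀⟩ := exists_eigenForm_of_eigenPar_ne_bot hpar
  rw [mem_eigenForms] at hf₀
  set lam : ℕ → ℂ := fun n => if hn : n.Prime then a' ⟨n, hn⟩ else 0 with hlam
  have hlamp : ∀ (n : ℕ) (hn : n.Prime), lam n = a' ⟨n, hn⟩ := fun n hn => by
    simp only [hlam, dif_pos hn]
  obtain ⟨g', hg', hg'q⟩ := Fermat.Agent.S49E.exists_isNormalizedEigenform_of_eigenvector f₀ hf0 lam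
    (fun ℓ hℓ hℓN => by
      have h1 := hf₀ ⟨ℓ, hℓ⟩
      rw [heckeOpP_of_not_dvd (ℓ := ⟨ℓ, hℓ⟩) hℓN] at h1
      rw [hlamp ℓ hℓ]
      exact h1)
    (fun ℓ hℓ hℓN => by
      have h1 := hf₀ ⟨ℓ, hℓ⟩
      rw [heckeOpP_of_dvd (ℓ := ⟨ℓ, hℓ⟩) hℓN] at h1
      rw [hlamp ℓ hℓ]
      exact h1)
  refine ⟨g', 𝔪', hg', h𝔪', hp𝔪', fun ℓ hℓ hℓS => ?_⟩
  refine ⟨c ⟨⟨ℓ, hℓ⟩, hℓS⟩, ?_, hca ⟨⟨ℓ, hℓ⟩, hℓS⟩⟩
  rw [hg'q ℓ hℓ, hlamp ℓ hℓ]
  exact (haS ⟨⟨ℓ, hℓ⟩, hℓS⟩).symm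

end Down

section Up

variable {N : ℕ} [NeZero N] {S : Set ℕ}

/-- **(L-a)**: `ResOccurs N p S a` gives an element of `L ∖ pL`, `L = H¹_par(Γ₀(N), ℤ)`, which is
an eigenvector modulo `p` of the `T_ℓ`, `ℓ ∉ S`, with eigenvalues `a_ℓ`. -/
theorem exists_lpar_eigen_mod_p_of_resOccurs {p : ℕ} (hp : p.Prime) (a : ℕ → ℤ)
    (h : ResOccurs N p S a) :
    ∃ w : LPar N, (∀ y : LPar N, w ≠ (p : ℤ) • y) ∧
      ∀ ℓ : Nat.Primes, (ℓ : ℕ) ∉ S →
        ∃ y : LPar N, heckeZ N ℓ w = a ℓ • w + (p : ℤ) • y := by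
  classical
  obtain ⟨g, 𝔪f, hg, h𝔪f, hp𝔪f, hcong⟩ := h
  haveI : 𝔪f.IsPrime := h𝔪f.isPrime
  obtain ⟨a₀, ha₀, ha₀q⟩ := exists_eigenPar_of_isNormalizedEigenform hg
  -- the integral eigenvalues
  let aint : Nat.Primes → integralClosure ℤ ℂ :=
    fun ℓ => ⟨a₀ ℓ, isIntegral_of_eigenPar_ne_bot ha₀ ℓ⟩
  let ι : PIdx S → Nat.Primes := Subtype.val
  let χ : MvPolynomial (PIdx S) ℤ →+* integralClosure ℤ ℂ :=
    MvPolynomial.eval₂Hom (Int.castRingHom (integralClosure ℤ ℂ)) (fun ℓ => aint ℓ.1)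
  have hχX : ∀ ℓ, χ (MvPolynomial.X ℓ) = aint ℓ.1 := fun ℓ => by
    simp only [χ, MvPolynomial.coe_eval₂Hom, MvPolynomial.eval₂_X]
  let 𝔪p : Ideal (MvPolynomial (PIdx S) ℤ) := Ideal.comap χ 𝔪f
  have hp𝔪p : ((p : ℕ) : MvPolynomial (PIdx S) ℤ) ∈ 𝔪p := by
    show χ _ ∈ 𝔪f
    rw [map_natCast]
    exact hp𝔪f
  letI : Module (MvPolynomial (PIdx S) ℤ) (LPar N) :=
    Module.compHom (LPar N) (heckeRingHomZ N ι)
  have hsmul : ∀ (r : MvPolynomial (PIdx S) ℤ) (x : LPar N),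
      r • x = heckeRingHomZ N ι r x := fun r x => rfl
  -- the eigenvector
  obtain ⟨ψ, hψ, hψ0⟩ := (Submodule.ne_bot_iff _).1 ha₀
  rw [mem_eigenPar] at hψ
  let v : VPar N := ⟨ψ, hψ.1⟩
  have hv0 : v ≠ 0 := fun h => hψ0 (congrArg Subtype.val h)
  have hv : ∀ ℓ : Nat.Primes, heckeC N ℓ v = a₀ ℓ • v := fun ℓ => by
    apply Subtype.ext
    rw [coe_heckeParP]
    exact hψ.2 ℓ
  have hvspan : v ∈ Submodule.span ℂ (Set.range (castPar N)) := by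
    rw [span_range_castPar]
    exact Submodule.mem_top
  have hχeig : ∀ r, heckeRingHomC N ι r v
      = ((algebraMap (integralClosure ℤ ℂ) ℂ).comp χ) r • v := by
    intro r
    have h1 := polyHom_eigenvector (fun o : PIdx S => heckeC N (ι o))
      (fun i j => heckeC_commute N (ι i) (ι j)) v (fun o => a₀ (ι o)) (fun o => hv (ι o)) r
    have h2 : MvPolynomial.eval₂Hom (Int.castRingHom ℂ) (fun o : PIdx S => a₀ (ι o))
        = (algebraMap (integralClosure ℤ ℂ) ℂ).comp χ := by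
      apply MvPolynomial.ringHom_ext
      · intro n
        simp [χ]
      · intro i
        simp [χ, aint, ι]
    rw [← h2]
    exact h1
  have hne : 𝔪p • (⊤ : Submodule (MvPolynomial (PIdx S) ℤ) (LPar N)) ≠ ⊤ := by
    refine smul_top_ne_top_of_eigenvector (heckeRingHomC N ι) (castPar N)
      (fun r x => castPar_heckeRingHomZ N ι r x) v hv0 hvspan
      ((algebraMap (integralClosure ℤ ℂ) ℂ).comp χ) hχeig 𝔪p ?_
    intro r hr hneg
    apply h𝔪f.ne_top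
    rw [Ideal.eq_top_iff_one]
    have h1 : χ r = -1 := by
      apply Subtype.ext
      exact hneg
    have h2 : χ r ∈ 𝔪f := hr
    rw [h1] at h2
    simpa using 𝔪f.neg_mem h2
  obtain ⟨w, hw, hw𝔪⟩ := exists_notMem_p_smul_of_smul_top_ne_top hp.ne_zero 𝔪p hp𝔪p hne
  refine ⟨w, hw, fun ℓ hℓS => ?_⟩
  have hmem : (MvPolynomial.X (⟨ℓ, hℓS⟩ : PIdx S) - MvPolynomial.C (a ℓ) :
      MvPolynomial (PIdx S) ℤ) ∈ 𝔪p := by
    show χ _ ∈ 𝔪f
    rw [map_sub, hχX, ringHom_C_int]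
    obtain ⟨b, hb, hb𝔪⟩ := hcong ℓ ℓ.2 hℓS
    have hbe : aint ℓ = b := by
      apply Subtype.ext
      show a₀ ℓ = (b : ℂ)
      rw [hb]
      exact ha₀q ℓ ℓ.2
    rw [hbe]
    exact hb𝔪
  obtain ⟨t, ht⟩ := hw𝔪 _ hmem
  refine ⟨t, ?_⟩
  rw [hsmul, map_sub, heckeRingHomZ_X, heckeRingHomZ_C, LinearMap.sub_apply,
    Module.End.intCast_apply] at ht
  have h3 : heckeZ N ℓ w = a ℓ • w + (heckeZ N (ι ⟨ℓ, hℓS⟩) w - a ℓ • w) := by
    show heckeZ N ℓ w = a ℓ • w + (heckeZ N ℓ w - a ℓ • w)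
    abel
  rw [h3, ht]

end Up

end Fermat.Agent.MP
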