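/-
MP40 (row 38) — lead — [TOP-G], part 7: **the lattice side.**

* `exists_lpar_lift`: every `ℤ_p`-valued parabolic class is congruent modulo `p^k` to a `ℤ`-valued
  one; `lpar_eq_smul_of_red_eq_zero`: a `ℤ`-valued parabolic class which vanishes modulo `p` is
  `p` times a parabolic class.
* `eigenTors N p S a ≤ J₀(N)[p]`: the `p`-torsion classes in the image of the Tate module on which
  `T_ℓ` acts by `a ℓ` for all primes `ℓ ∉ S`; it is Galois stable (`S ⊇ {ℓ ∣ N}`).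
* `exists_mem_eigenTors_ne_zero`: an eigenvector modulo `p` in `H¹_par(Γ₀(N), ℤ)` gives a non-zero
  element of `eigenTors`.
* `exists_lpar_of_degPush_ne_zero`: an element of `eigenTors (M' p)` not killed by `α_*` (or `β_*`)
  gives an eigenvector modulo `p` in `H¹_par(Γ₀(M'), ℤ)`.
-/
import Mathlib
import Fermat.Agent.MP.TOPG_lead_Iface
import Fermat.Agent.S35.P1_helper4_KapInst
import Fermat.Agent.LR.RAISE_helper2_Mid

set_option autoImplicit false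
set_option linter.unusedSectionVars false
set_option linter.unusedVariables false
set_option linter.style.haveILetI false

open AlgebraicCurve ModularCurve CongruenceSubgroup ModularCurve.Period

open scoped MatrixGroups TensorProduct

namespace Fermat.Agent.MP

open Fermat.Agent.S35 Fermat.Agent.NP Fermat.Agent.GR Fermat.Agent.LR

/-- `Ω = AlgebraicClosure ℚ`. -/
local notation "Ω" => AlgebraicClosure ℚ

/-- the absolute Galois group. -/
local notation "GQ" => (AlgebraicClosure ℚ ≃ₐ[ℚ] AlgebraicClosure ℚ)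

section Red

variable {p : ℕ} [hp : Fact p.Prime] (Γ : Subgroup SL(2, ℤ))

/-- every `ℤ_p`-valued parabolic class is congruent modulo `p^k` to a `ℤ`-valued one. -/
theorem exists_lpar_lift [Group.FG Γ] (k : ℕ) (ψ : ↥(parabolicHoms ℤ_[p] Γ ℤ_[p])) :
    ∃ w : ↥(parabolicHoms ℤ Γ ℤ), (Int.castAddHom (ZMod (p ^ k))).comp w.1 =
      (PadicInt.toZModPow k).toAddMonoidHom.comp ψ.1 := by
  obtain ⟨x, rfl⟩ := (parTheta ℤ_[p] Γ ℤ_[p]).surjective ψ
  induction x using TensorProduct.induction_on with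
  | zero =>
    refine ⟨0, ?_⟩
    rw [map_zero]
    refine AddMonoidHom.ext fun γ => ?_
    show ((0 : ℤ) : ZMod (p ^ k)) = PadicInt.toZModPow k 0
    rw [Int.cast_zero, map_zero]
  | tmul c φ =>
    refine ⟨((PadicInt.toZModPow k c).cast : ℤ) • φ, ?_⟩
    refine AddMonoidHom.ext fun γ => ?_
    show (((((PadicInt.toZModPow k c).cast : ℤ) • φ : ↥(parabolicHoms ℤ Γ ℤ)).1 γ : ℤ) :
      ZMod (p ^ k)) = PadicInt.toZModPow k ((parTheta ℤ_[p] Γ ℤ_[p] (c ⊗ₜ φ)).1 γ)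
    rw [parTheta_tmul_apply, Submodule.coe_smul, AddMonoidHom.smul_apply, smul_eq_mul,
      Int.cast_mul, ZMod.intCast_zmod_cast, zsmul_eq_mul, map_mul, map_intCast, mul_comm]
  | add x y hx hy =>
    obtain ⟨wx, hwx⟩ := hx
    obtain ⟨wy, hwy⟩ := hy
    refine ⟨wx + wy, ?_⟩
    rw [map_add, Submodule.coe_add, Submodule.coe_add, AddMonoidHom.comp_add,
      AddMonoidHom.comp_add, hwx, hwy]

/-- a `ℤ`-valued parabolic class which vanishes modulo `p` is `p` times a parabolic class. -/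
theorem lpar_eq_smul_of_red_eq_zero (w : ↥(parabolicHoms ℤ Γ ℤ))
    (h : (Int.castAddHom (ZMod (p ^ 1))).comp w.1 = 0) :
    ∃ y : ↥(parabolicHoms ℤ Γ ℤ), w = (p : ℤ) • y := by
  refine exists_eq_smul_of_comp_eq_zero ℤ Γ ℤ (Int.castAddHom (ZMod (p ^ 1))) (p : ℤ) ?_ ?_ w h
  · intro a b hab
    have hp0 : (p : ℤ) ≠ 0 := Nat.cast_ne_zero.2 hp.out.ne_zero
    exact mul_left_cancel₀ hp0 hab
  · intro a ha
    have h1 : ((a : ℤ) : ZMod (p ^ 1)) = 0 := ha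
    rw [ZMod.intCast_zmod_eq_zero_iff_dvd, pow_one] at h1
    obtain ⟨a', ha'⟩ := h1
    exact ⟨a', by rw [ha', smul_eq_mul]⟩

/-- the reduction modulo `p` of `p • y` vanishes. -/
theorem red_smul_eq_zero (y : Additive Γ →+ ℤ) :
    (Int.castAddHom (ZMod (p ^ 1))).comp ((p : ℤ) • y) = 0 := by
  refine AddMonoidHom.ext fun γ => ?_
  show ((((p : ℤ) • y) γ : ℤ) : ZMod (p ^ 1)) = 0
  rw [AddMonoidHom.smul_apply, smul_eq_mul, Int.cast_mul, Int.cast_natCast]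
  have : ((p : ℕ) : ZMod (p ^ 1)) = 0 := by
    rw [ZMod.natCast_eq_zero_iff, pow_one]
  rw [this, zero_mul]

end Red

section EigenTors

variable (N p : ℕ) [NeZero N] [hp : Fact p.Prime] (S : Set ℕ) (a : ℕ → ℤ)

/-- the `p`-torsion classes in the image of the Tate module on which `T_ℓ = a ℓ` for `ℓ ∉ S`. -/
def eigenTors : AddSubgroup (JZero N) where
  carrier := {x | (∃ X : ↥(TateSeq (JZero N) p), X.1 1 = x) ∧
    ∀ (ℓ : ℕ) (hℓ : ℓ.Prime), ℓ ∉ S → heckeOperatorBar N ⟨ℓ, hℓ⟩ x = a ℓ • x}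
  zero_mem' := ⟨⟨0, rfl⟩, fun ℓ hℓ _ => by rw [map_zero, smul_zero]⟩
  add_mem' := by
    rintro x y ⟨⟨X, rfl⟩, hx⟩ ⟨⟨Y, rfl⟩, hy⟩
    exact ⟨⟨X + Y, rfl⟩, fun ℓ hℓ hℓS => by
      rw [map_add, hx ℓ hℓ hℓS, hy ℓ hℓ hℓS]
      exact (zsmul_add _ _ _).symm⟩
  neg_mem' := by
    rintro x ⟨⟨X, rfl⟩, hx⟩
    exact ⟨⟨-X, rfl⟩, fun ℓ hℓ hℓS => by
      rw [map_neg, hx ℓ hℓ hℓS]
      exact (zsmul_neg _ _).symm⟩

variable {N p S a}

theorem mem_eigenTors {x : JZero N} : x ∈ eigenTors N p S a ↔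
    (∃ X : ↥(TateSeq (JZero N) p), X.1 1 = x) ∧
      ∀ (ℓ : ℕ) (hℓ : ℓ.Prime), ℓ ∉ S → heckeOperatorBar N ⟨ℓ, hℓ⟩ x = a ℓ • x := Iff.rfl

theorem nsmul_eq_zero_of_mem_eigenTors {x : JZero N} (hx : x ∈ eigenTors N p S a) :
    p • x = 0 := by
  obtain ⟨⟨X, rfl⟩, -⟩ := hx
  have := TateSeq.pow_smul X 1
  rwa [pow_one] at this

/-- `eigenTors` is Galois stable. -/
theorem smul_mem_eigenTors (hS : ∀ ℓ : ℕ, ℓ.Prime → ℓ ∣ N → ℓ ∈ S) (σ : GQ) {x : JZero N}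
    (hx : x ∈ eigenTors N p S a) : σ • x ∈ eigenTors N p S a := by
  obtain ⟨⟨X, rfl⟩, hT⟩ := hx
  refine ⟨⟨TateSeq.map p (DistribMulAction.toAddMonoidEnd GQ (JZero N) σ) X, rfl⟩, ?_⟩
  intro ℓ hℓ hℓS
  have hℓN : ¬ (((⟨ℓ, hℓ⟩ : Nat.Primes) : ℕ)) ∣ N := fun h => hℓS (hS ℓ hℓ h)
  have I := stageIData N p
  calc heckeOperatorBar N ⟨ℓ, hℓ⟩ (σ • X.1 1) = I.T' ⟨ℓ, hℓ⟩ (σ • X.1 1) :=
        (I.hT' ⟨ℓ, hℓ⟩ hℓN _).symm
    _ = σ • I.T' ⟨ℓ, hℓ⟩ (X.1 1) := I.gal ⟨ℓ, hℓ⟩ σ _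
    _ = σ • heckeOperatorBar N ⟨ℓ, hℓ⟩ (X.1 1) := by rw [I.hT' ⟨ℓ, hℓ⟩ hℓN]
    _ = σ • (a ℓ • X.1 1) := by rw [hT ℓ hℓ hℓS]
    _ = a ℓ • σ • X.1 1 := map_zsmul (DistribSMul.toAddMonoidHom (JZero N) σ) (a ℓ) _

/-- **an eigenvector modulo `p` in `H¹_par(Γ₀(N), ℤ)` gives a non-zero element of `eigenTors`.** -/
theorem exists_mem_eigenTors_ne_zero (hS : ∀ ℓ : ℕ, ℓ.Prime → ℓ ∣ N → ℓ ∈ S)
    (w : LPar N) (hw : ∀ y : LPar N, w ≠ (p : ℤ) • y)
    (hE : ∀ ℓ : Nat.Primes, (ℓ : ℕ) ∉ S →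
      ∃ y : LPar N, heckeZ N ℓ w = a ℓ • w + (p : ℤ) • y) :
    ∃ x ∈ eigenTors N p S a, x ≠ 0 := by
  set I := stageIData N p with hI
  set wp : ↥(parabolicHoms ℤ_[p] (Gamma0 N) ℤ_[p]) := parScal ℤ_[p] ℤ_[p] (1 : ℤ_[p]) w with hwp
  set X : ↥(TateSeq (JZero N) p) := I.D.phiEquiv.symm wp with hX
  have hphi : I.D.phi X = wp := by
    rw [← KapData.phiEquiv_apply, hX, AddEquiv.apply_symm_apply]
  have hkap : I.D.kap 1 (TateSeq.comp 1 X) = (Int.castAddHom (ZMod (p ^ 1))).comp w.1 := by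
    rw [← I.D.toZModPow_comp_phi X 1, hphi]
    refine AddMonoidHom.ext fun γ => ?_
    show PadicInt.toZModPow 1 (wp.1 γ) = ((w.1 γ : ℤ) : ZMod (p ^ 1))
    rw [hwp, parScal_apply, zsmul_eq_mul, mul_one, map_intCast]
  refine ⟨X.1 1, ⟨⟨X, rfl⟩, ?_⟩, ?_⟩
  · intro ℓ hℓ hℓS
    set ℓ' : Nat.Primes := ⟨ℓ, hℓ⟩ with hℓ'
    have hℓN : ¬ (ℓ' : ℕ) ∣ N := fun h => hℓS (hS ℓ hℓ h)
    obtain ⟨y, hy⟩ := hE ℓ' hℓS
    have hkey : torsionNat.map (p ^ 1) (I.T' ℓ') (TateSeq.comp 1 X) =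
        a ℓ • TateSeq.comp 1 X := by
      apply I.D.inj 1
      have e1 := I.hecke ℓ' 1 (TateSeq.comp 1 X)
      rw [hkap, heckeGrpP_comp] at e1
      refine e1.trans ?_
      rw [map_zsmul, hkap]
      have h1 : heckeGrpP N ℓ' ℤ w.1 = (a ℓ • w + (p : ℤ) • y : LPar N).1 := by
        rw [← hy]
        rfl
      rw [h1, Submodule.coe_add, AddMonoidHom.comp_add, Submodule.coe_smul, Submodule.coe_smul,
        red_smul_eq_zero, add_zero]
      refine AddMonoidHom.ext fun γ => ?_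
      show (((a ℓ • w.1) γ : ℤ) : ZMod (p ^ 1)) = (a ℓ • (Int.castAddHom (ZMod (p ^ 1))).comp w.1) γ
      rw [AddMonoidHom.smul_apply, AddMonoidHom.smul_apply, smul_eq_mul, Int.cast_mul,
        zsmul_eq_mul]
      rfl
    have h2 := congrArg (fun z : ↥(torsionNat (JZero N) (p ^ 1)) => (z : JZero N)) hkey
    have h3 := I.hT' ℓ' hℓN (X.1 1)
    exact h3.symm.trans h2
  · intro h0
    have h1 : TateSeq.comp 1 X = 0 := Subtype.ext h0
    rw [h1, map_zero] at hkap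
    obtain ⟨y, hy⟩ := lpar_eq_smul_of_red_eq_zero (Gamma0 N) w hkap.symm
    exact hw y hy

end EigenTors

section Push

variable {M' p : ℕ} [NeZero M'] [NeZero p] [NeZero (M' * p)] [hp : Fact p.Prime]
  {S : Set ℕ} {a : ℕ → ℤ}

/-- **an element of `eigenTors (M' p)` not killed by `α_*` gives an eigenvector modulo `p` in
`H¹_par(Γ₀(M'), ℤ)`.** -/
theorem exists_lpar_of_degPushAlpha_ne_zero (hpM : ¬ p ∣ M')
    (hS : ∀ ℓ : ℕ, ℓ.Prime → ℓ ∣ M' * p → ℓ ∈ S)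
    {x : JZero (M' * p)} (hx : x ∈ eigenTors (M' * p) p S a) (hα : degPushAlpha M' p x ≠ 0) :
    ∃ w' : LPar M', (∀ y : LPar M', w' ≠ (p : ℤ) • y) ∧
      ∀ ℓ : Nat.Primes, (ℓ : ℕ) ∉ S →
        ∃ y : LPar M', heckeZ M' ℓ w' = a ℓ • w' + (p : ℤ) • y := by
  have hpp : p.Prime := hp.out
  obtain ⟨⟨X, rfl⟩, hT⟩ := hx
  set I := stageIData (M' * p) p with hI
  set I' := stageIData M' p with hI'
  set z : ↥(torsionNat (JZero (M' * p)) (p ^ 1)) := TateSeq.comp 1 X with hz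
  set ψ' : ↥(parabolicHoms ℤ_[p] (Gamma0 M') ℤ_[p]) :=
    pushAPar M' p hpp hpM ℤ_[p] ℤ_[p] (I.D.phi X) with hψ'
  obtain ⟨w', hw'⟩ := exists_lpar_lift (Gamma0 M') 1 ψ'
  -- the reduction of `w'` is the push-forward of the Kummer class of `z`
  have key1 : (Int.castAddHom (ZMod (p ^ 1))).comp w'.1 =
      pushA M' p hpp hpM (ZMod (p ^ 1)) (I.D.kap 1 z) := by
    rw [hw', hψ', coe_pushAPar, ← pushA_comp, I.D.toZModPow_comp_phi]
  have key2 : ∀ z' : ↥(torsionNat (JZero (M' * p)) (p ^ 1)),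
      pushA M' p hpp hpM (ZMod (p ^ 1)) (I.D.kap 1 z') =
      I'.D.kap 1 (torsionNatMap₂ (p ^ 1) (degPushAlpha M' p) z') := by
    intro z'
    have h1 := (kapTransferAlpha M' p (bez_eq hpp hpM) hpp p).kap 1 z'
    rw [kapTransferAlpha_Xk, xferAlpha_transferGrp_eq_pushA M' p hpp hpM] at h1
    exact h1.symm
  refine ⟨w', ?_, ?_⟩
  · intro y hy
    have h1 : (Int.castAddHom (ZMod (p ^ 1))).comp w'.1 = 0 := by
      rw [hy, Submodule.coe_smul]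
      exact red_smul_eq_zero (Gamma0 M') y.1
    rw [key1, key2] at h1
    have h2 := I'.D.inj 1 (h1.trans (map_zero (I'.D.kap 1)).symm)
    have h3 := congrArg (fun u : ↥(torsionNat (JZero M') (p ^ 1)) => (u : JZero M')) h2
    exact hα h3
  · intro ℓ hℓS
    have hℓN : ¬ (ℓ : ℕ) ∣ M' * p := fun h => hℓS (hS ℓ ℓ.2 h)
    have hTz : torsionNat.map (p ^ 1) (I.T' ℓ) z = a ℓ • z := by
      apply Subtype.ext
      have h1 := I.hT' ℓ hℓN (X.1 1)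
      have h2 := hT ℓ ℓ.2 hℓS
      exact h1.trans h2
    have hred : (Int.castAddHom (ZMod (p ^ 1))).comp
        (heckeZ M' ℓ w' - a ℓ • w' : LPar M').1 = 0 := by
      rw [Submodule.coe_sub, Submodule.coe_smul, AddMonoidHom.comp_sub, coe_heckeParP,
        ← heckeGrpP_comp]
      have e1 : (Int.castAddHom (ZMod (p ^ 1))).comp (a ℓ • w'.1) =
          a ℓ • (Int.castAddHom (ZMod (p ^ 1))).comp w'.1 := by
        refine AddMonoidHom.ext fun γ => ?_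
        show (((a ℓ • w'.1) γ : ℤ) : ZMod (p ^ 1)) =
          (a ℓ • (Int.castAddHom (ZMod (p ^ 1))).comp w'.1) γ
        rw [AddMonoidHom.smul_apply, AddMonoidHom.smul_apply, smul_eq_mul, Int.cast_mul,
          zsmul_eq_mul]
        rfl
      rw [e1, key1, ← pushA_heckeGrpP M' p hpp hpM ℓ hℓN, ← I.hecke ℓ 1 z, hTz, map_zsmul,
        map_zsmul, sub_self]
    obtain ⟨y, hy⟩ := lpar_eq_smul_of_red_eq_zero (Gamma0 M') _ hred
    exact ⟨y, by rw [← hy]; abel⟩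

/-- **an element of `eigenTors (M' p)` not killed by `β_*` gives an eigenvector modulo `p` in
`H¹_par(Γ₀(M'), ℤ)`.** -/
theorem exists_lpar_of_degPushBeta_ne_zero (hpM : ¬ p ∣ M')
    (hS : ∀ ℓ : ℕ, ℓ.Prime → ℓ ∣ M' * p → ℓ ∈ S)
    {x : JZero (M' * p)} (hx : x ∈ eigenTors (M' * p) p S a) (hα : degPushBeta M' p x ≠ 0) :
    ∃ w' : LPar M', (∀ y : LPar M', w' ≠ (p : ℤ) • y) ∧
      ∀ ℓ : Nat.Primes, (ℓ : ℕ) ∉ S →
        ∃ y : LPar M', heckeZ M' ℓ w' = a ℓ • w' + (p : ℤ) • y := by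
  have hpp : p.Prime := hp.out
  obtain ⟨⟨X, rfl⟩, hT⟩ := hx
  set I := stageIData (M' * p) p with hI
  set I' := stageIData M' p with hI'
  set z : ↥(torsionNat (JZero (M' * p)) (p ^ 1)) := TateSeq.comp 1 X with hz
  set ψ' : ↥(parabolicHoms ℤ_[p] (Gamma0 M') ℤ_[p]) :=
    pushBPar M' p hpp hpM ℤ_[p] ℤ_[p] (I.D.phi X) with hψ'
  obtain ⟨w', hw'⟩ := exists_lpar_lift (Gamma0 M') 1 ψ'
  -- the reduction of `w'` is the push-forward of the Kummer class of `z`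
  have key1 : (Int.castAddHom (ZMod (p ^ 1))).comp w'.1 =
      pushB M' p hpp hpM (ZMod (p ^ 1)) (I.D.kap 1 z) := by
    rw [hw', hψ', coe_pushBPar, ← pushB_comp, I.D.toZModPow_comp_phi]
  have key2 : ∀ z' : ↥(torsionNat (JZero (M' * p)) (p ^ 1)),
      pushB M' p hpp hpM (ZMod (p ^ 1)) (I.D.kap 1 z') =
      I'.D.kap 1 (torsionNatMap₂ (p ^ 1) (degPushBeta M' p) z') := by
    intro z'
    have h1 := (kapTransferBeta M' p (bez_eq hpp hpM) hpp p).kap 1 z'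
    rw [kapTransferBeta_Xk, xferBeta_transferGrp_eq_pushB M' p hpp hpM] at h1
    exact h1.symm
  refine ⟨w', ?_, ?_⟩
  · intro y hy
    have h1 : (Int.castAddHom (ZMod (p ^ 1))).comp w'.1 = 0 := by
      rw [hy, Submodule.coe_smul]
      exact red_smul_eq_zero (Gamma0 M') y.1
    rw [key1, key2] at h1
    have h2 := I'.D.inj 1 (h1.trans (map_zero (I'.D.kap 1)).symm)
    have h3 := congrArg (fun u : ↥(torsionNat (JZero M') (p ^ 1)) => (u : JZero M')) h2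
    exact hα h3
  · intro ℓ hℓS
    have hℓN : ¬ (ℓ : ℕ) ∣ M' * p := fun h => hℓS (hS ℓ ℓ.2 h)
    have hTz : torsionNat.map (p ^ 1) (I.T' ℓ) z = a ℓ • z := by
      apply Subtype.ext
      have h1 := I.hT' ℓ hℓN (X.1 1)
      have h2 := hT ℓ ℓ.2 hℓS
      exact h1.trans h2
    have hred : (Int.castAddHom (ZMod (p ^ 1))).comp
        (heckeZ M' ℓ w' - a ℓ • w' : LPar M').1 = 0 := by
      rw [Submodule.coe_sub, Submodule.coe_smul, AddMonoidHom.comp_sub, coe_heckeParP,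
        ← heckeGrpP_comp]
      have e1 : (Int.castAddHom (ZMod (p ^ 1))).comp (a ℓ • w'.1) =
          a ℓ • (Int.castAddHom (ZMod (p ^ 1))).comp w'.1 := by
        refine AddMonoidHom.ext fun γ => ?_
        show (((a ℓ • w'.1) γ : ℤ) : ZMod (p ^ 1)) =
          (a ℓ • (Int.castAddHom (ZMod (p ^ 1))).comp w'.1) γ
        rw [AddMonoidHom.smul_apply, AddMonoidHom.smul_apply, smul_eq_mul, Int.cast_mul,
          zsmul_eq_mul]
        rfl
      rw [e1, key1, ← pushB_heckeGrpP M' p hpp hpM ℓ hℓN, ← I.hecke ℓ 1 z, hTz, map_zsmul,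
        map_zsmul, sub_self]
    obtain ⟨y, hy⟩ := lpar_eq_smul_of_red_eq_zero (Gamma0 M') _ hred
    exact ⟨y, by rw [← hy]; abel⟩

end Push

end Fermat.Agent.MP
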