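/-
MP40 (row 38) — lead — [TOP-G], part 8: **the proof of `TopGStatement`** from the two lattice
statements (L-a) `LatOccStatement` (an eigensystem occurring residually at level `N` occurs modulo
`p` in `H¹_par(Γ₀(N), ℤ)`) and (L-d) `LatLiftStatement` (conversely).
-/
import Mathlib
import Fermat.Agent.MP.TOPG_lead_Frob
import Fermat.Agent.MP.TOPG_lead_Lat

set_option autoImplicit false
set_option linter.unusedSectionVars false
set_option linter.unusedVariables false
set_option linter.style.haveILetI false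

open AlgebraicCurve ModularCurve WeierstrassCurve WeierstrassCurve.Affine
open WeierstrassCurve.Affine.Point

open scoped WeierstrassCurve.Affine

namespace Fermat.Agent.MP

open Fermat.Agent.S35 Fermat.Agent.NP Fermat.Agent.GR Fermat.Agent.LR Fermat.Agent.LR.NonEis

/-- `Ω = AlgebraicClosure ℚ`. -/
local notation "Ω" => AlgebraicClosure ℚ

/-- the absolute Galois group. -/
local notation "GQ" => (AlgebraicClosure ℚ ≃ₐ[ℚ] AlgebraicClosure ℚ)

/-- (L-a): residual occurrence at level `N` gives an eigenvector modulo `p` in the lattice. -/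
def LatOccStatement : Prop :=
  ∀ {N : ℕ} [NeZero N] {S : Set ℕ} {p : ℕ}, p.Prime → ∀ a : ℕ → ℤ, ResOccurs N p S a →
    ∃ w : LPar N, (∀ y : LPar N, w ≠ (p : ℤ) • y) ∧
      ∀ ℓ : Nat.Primes, (ℓ : ℕ) ∉ S → ∃ y : LPar N, heckeZ N ℓ w = a ℓ • w + (p : ℤ) • y

/-- (L-d): an eigenvector modulo `p` in the lattice gives residual occurrence. -/
def LatLiftStatement : Prop :=
  ∀ {M' : ℕ} [NeZero M'] {S : Set ℕ} {p : ℕ}, p.Prime → ∀ (a : ℕ → ℤ) (w : LPar M'),
    (∀ y : LPar M', w ≠ (p : ℤ) • y) →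
    (∀ ℓ : Nat.Primes, (ℓ : ℕ) ∉ S → ∃ y : LPar M', heckeZ M' ℓ w = a ℓ • w + (p : ℤ) • y) →
    ResOccurs M' p S a

/-- the restriction of an additive equivalence to the `p`-torsion. -/
def torsionNatMapEquiv {J J' : Type*} [AddCommGroup J] [AddCommGroup J'] (n : ℕ) (e : J ≃+ J') :
    ↥(torsionNat J n) →+ ↥(torsionNat J' n) where
  toFun x := ⟨e x.1, by
    show n • e x.1 = 0
    rw [← map_nsmul, mem_torsionNat.mp x.2, _root_.map_zero]⟩
  map_zero' := Subtype.ext (_root_.map_zero e)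
  map_add' x y := Subtype.ext (map_add e x.1 y.1)

theorem torsionNatMapEquiv_injective {J J' : Type*} [AddCommGroup J] [AddCommGroup J'] (n : ℕ)
    (e : J ≃+ J') : Function.Injective (torsionNatMapEquiv n e) := by
  intro x y h
  have h1 := congrArg (fun z : ↥(torsionNat J' n) => (z : J')) h
  exact Subtype.ext (e.injective h1)

/-- **[TOP-G]** from the two lattice statements. -/
theorem topGStatement_of_lattice (hLa : LatOccStatement) (hLd : LatLiftStatement) :
    TopGStatement := by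
  intro E _ W hW M' p _ _ _ hp hp2 hpM hirr hmod
  classical
  haveI : Fact p.Prime := ⟨hp⟩
  set S : Set ℕ := badSet W p (M' * p) with hSdef
  set a : ℕ → ℤ := fun ℓ => W.apOfModel ℓ with ha
  have hS : ∀ ℓ : ℕ, ℓ.Prime → ℓ ∣ M' * p → ℓ ∈ S := fun ℓ _ hℓ => Or.inr (Or.inl hℓ)
  have hres : ResOccurs (M' * p) p S a := (isResiduallyModularOfLevel_iff W p (M' * p)).mp hmod
  obtain ⟨w, hw, hE⟩ := hLa hp a hres
  obtain ⟨x0, hx0, hx0ne⟩ := exists_mem_eigenTors_ne_zero hS w hw hE
  by_cases hcase : ∃ x ∈ eigenTors (M' * p) p S a,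
      degPushAlpha M' p x ≠ 0 ∨ degPushBeta M' p x ≠ 0
  · left
    obtain ⟨x, hx, h | h⟩ := hcase
    · obtain ⟨w', hw', hE'⟩ := exists_lpar_of_degPushAlpha_ne_zero hpM hS hx h
      exact hLd hp a w' hw' hE'
    · obtain ⟨w', hw', hE'⟩ := exists_lpar_of_degPushBeta_ne_zero hpM hS hx h
      exact hLd hp a w' hw' hE'
  · right
    simp only [not_exists, not_and, not_or, not_not] at hcase
    obtain ⟨f, hf, hfg, hfV⟩ := exists_copy_of_eigen_model E hW hp hp2 hirr
      (eigenTors (M' * p) p S a) (fun v hv => nsmul_eq_zero_of_mem_eigenTors hv)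
      (fun σ v hv => smul_mem_eigenTors hS σ hv) ⟨x0, hx0, hx0ne⟩
      (fun ℓ hℓ hℓS v hv => hv.2 ℓ hℓ hℓS)
    obtain ⟨e, he⟩ := exists_equivariant_addEquiv_model E hW
    refine ⟨{
      φ := f.comp (torsionNatMapEquiv p e)
      inj := hf.comp (torsionNatMapEquiv_injective p e)
      gal := ?_
      alpha := fun Q => (hcase _ (hfV _)).1
      beta := fun Q => (hcase _ (hfV _)).2
      hecke := fun ℓ hℓ hℓS Q => (hfV _).2 ℓ hℓ hℓS }⟩
    intro σ Q
    have h1 : torsionNatMapEquiv p e ⟨σ • Q.1, smul_mem_torsionNat_point E p σ Q.2⟩ =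
        ⟨σ • (torsionNatMapEquiv p e Q).1,
          nsmul_smul_eq_zero σ (torsionNatMapEquiv p e Q).2⟩ := Subtype.ext (he σ Q.1)
    show f (torsionNatMapEquiv p e ⟨σ • Q.1, _⟩) = σ • f (torsionNatMapEquiv p e Q)
    rw [h1]
    exact hfg σ _

end Fermat.Agent.MP
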