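/-
MP40 (row 38) — lead — [TOP-G], part 9: **`topGStatement : TopGStatement`**, unconditionally
(lead's `topGStatement_of_lattice` + helper4's lattice half `MP/TOPGL_helper4_Lattice`).
-/
import Mathlib
import Fermat.Agent.MP.TOPG_lead_Main
import Fermat.Agent.MP.TOPGL_helper4_Lattice

set_option autoImplicit false

namespace Fermat.Agent.MP

theorem latOccStatement : LatOccStatement :=
  fun hp a h => exists_lpar_eigen_mod_p_of_resOccurs hp a h

theorem latLiftStatement : LatLiftStatement :=
  fun hp a w hw hE => resOccurs_of_lpar_eigen_mod_p hp a w hw hE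

/-- **[TOP-G]**: the `p`-old branch or a `p`-new Galois-equivariant copy of `E[p]` in
`J₀(M' p)`. -/
theorem topGStatement : TopGStatement :=
  topGStatement_of_lattice latOccStatement latLiftStatement

end Fermat.Agent.MP
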