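/-
MP40 (S40) — helper4 — [ECPEU], core: **the `p`-torsion of the kernel of reduction is not too close
to the origin** (`p` odd, `K` algebraically closed, `A` a valuation subring of residue
characteristic `p`, `W` an integral Weierstrass curve).

* `valuation_natCast_le_zOf_pow` : a nonzero `p`-torsion point `Q` of the kernel of reduction has
  `|p| ≤ |z(Q)|^(p-1)` (`z = -x/y`);
* `valuation_natCast_le_sub_pow` : (good reduction) two distinct `p`-torsion points with integral
  coordinates which are congruent modulo the maximal ideal have `|p| ≤ |x' - x|^(p-1)`.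
-/
import Mathlib
import Fermat.Agent.EC.Tors_helper6_Dagger
import Fermat.Agent.Tate.R1_helper8
import Fermat.Agent.Tate.NonsingRed
import Fermat.Agent.Tate.Chord

set_option autoImplicit false
set_option linter.unusedSectionVars false

namespace Fermat.Agent.MP

open WeierstrassCurve WeierstrassCurve.Affine Fermat.Agent.Tate Fermat.Agent.EC

variable {K : Type*} [Field K] [DecidableEq K] {A : ValuationSubring K} {W : Affine K}

/-- the valuation of the `x`-coordinate of a point of the kernel of reduction: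
`|x| · |z|² = 1`. -/
theorem valuation_x_mul_zOf_sq (hW : IsIntegralCurve A W) {x y : K} (h : W.Nonsingular x y)
    (hx : x ∉ A) : A.valuation x * A.valuation (-x / y) ^ 2 = 1 ∧ A.valuation (-x / y) < 1 ∧
      -x / y ≠ 0 := by
  have hI := hW.intCoeffs
  have hx1 : 1 < A.valuation x := one_lt_valuation_iff_not_mem.mpr hx
  obtain ⟨hy0, hvz, hvw, hz0⟩ := R1.zw_small hI ((equation_iff _ _).mp h.1) hx1
  have hc := R1.zw_equation W h.1 hy0
  have hw := R1.v_w_eq hI hvz hvw hc
  refine ⟨?_, hvz, hz0⟩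
  have hvz0 : A.valuation (-x / y) ≠ 0 := (A.valuation.ne_zero_iff).mpr hz0
  have hx0 : x ≠ 0 := fun h0 => hx (h0 ▸ A.zero_mem)
  have e : x = (-x / y) / (-1 / y) := by field_simp
  have hvx : A.valuation x = A.valuation (-x / y) / A.valuation (-x / y) ^ 3 := by
    conv_lhs => rw [e, map_div₀, hw]
  rw [hvx]
  generalize A.valuation (-x / y) = r at hvz0
  rw [div_mul_eq_mul_div, ← pow_succ', div_self (pow_ne_zero _ hvz0)]

/-- integers smaller than the residue characteristic are units. -/
theorem valuation_natCast_eq_one_of_lt {p : ℕ} (hp : p.Prime) (hpA : (p : K) ∈ A.nonunits)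
    {k : ℕ} (hk1 : 1 ≤ k) (hkp : k < p) : A.valuation (k : K) = 1 := by
  refine le_antisymm (R1.vle_natCast k) ?_
  by_contra hlt
  rw [not_le] at hlt
  have hkA : (k : K) ∈ A.nonunits := A.mem_nonunits_iff.mpr hlt
  have hcop : Nat.Coprime p k := Nat.coprime_of_lt_prime (by omega) hkp hp
  have hb := Nat.gcd_eq_gcd_ab p k
  rw [hcop.gcd_eq_one] at hb
  have hb' : (1 : K) = (p : K) * ((p.gcdA k : ℤ) : K) + (k : K) * ((p.gcdB k : ℤ) : K) := by
    have := congrArg (Int.cast : ℤ → K) hb
    push_cast at this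
    exact this
  have h1 : (1 : K) ∈ A.nonunits := by
    rw [hb']
    exact A.nonunits.add_mem (mul_mem_nonunits_left hpA (intCast_mem A _))
      (mul_mem_nonunits_left hkA (intCast_mem A _))
  rw [A.mem_nonunits_iff, map_one] at h1
  exact lt_irrefl _ h1

section Torsion

variable [IsAlgClosed K] (hW : IsIntegralCurve A W) {p : ℕ} (hp : p.Prime) (hodd : p ≠ 2)
  (hpA : (p : K) ∈ A.nonunits)

include hp hpA in
/-- the multiples `k Q`, `1 ≤ k < p`, of a point of the kernel of reduction have the same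
`|z|`. -/
theorem valuation_zOf_nsmul {Q : W.Point} (hQ0 : Q ≠ 0) (hQ : Q ∈ kerRed hW) {k : ℕ} (hk1 : 1 ≤ k)
    (hkp : k < p) :
    k • Q ∈ kerRed hW ∧ A.valuation (R1.zOf (k • Q)) = A.valuation (R1.zOf Q) := by
  have hI := hW.intCoeffs
  have hQ' : R1.InKer A.valuation Q := hQ
  have hr : A.valuation (R1.zOf Q) < 1 := R1.v_zOf_lt_one hI hQ'
  obtain ⟨h1, h2⟩ := R1.inKer_nsmul hI hr hQ' le_rfl k
  refine ⟨h1, ?_⟩
  have hz0 : R1.zOf Q ≠ 0 := by
    rcases hQ' with rfl | ⟨x, y, h, rfl, hx⟩
    · exact absurd rfl hQ0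
    · rw [R1.zOf_some]
      exact (R1.zw_small hI ((equation_iff _ _).mp h.1) hx).2.2.2
  have hr0 : 0 < A.valuation (R1.zOf Q) := zero_lt_iff.mpr ((A.valuation.ne_zero_iff).mpr hz0)
  have hk : A.valuation ((k : K) * R1.zOf Q) = A.valuation (R1.zOf Q) := by
    rw [map_mul, valuation_natCast_eq_one_of_lt hp hpA hk1 hkp, one_mul]
  have hlt : A.valuation (R1.zOf (k • Q) - (k : K) * R1.zOf Q) < A.valuation ((k : K) * R1.zOf Q) := by
    rw [hk]
    exact lt_of_le_of_lt h2 (mul_lt_of_lt_one_right hr0 hr)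
  have e : R1.zOf (k • Q) = (k : K) * R1.zOf Q + (R1.zOf (k • Q) - (k : K) * R1.zOf Q) := by ring
  rw [e, Valuation.map_add_eq_of_lt_left _ hlt, hk]

include hW hp hodd hpA in
/-- **the `p`-torsion of the kernel of reduction**: `|p| ≤ |z(Q)|^(p-1)`. -/
theorem valuation_natCast_le_zOf_pow {Q : W.Point} (hQ0 : Q ≠ 0) (hpQ : p • Q = 0)
    (hQ : Q ∈ kerRed hW) : A.valuation (p : K) ≤ A.valuation (R1.zOf Q) ^ (p - 1) := by
  classical
  have hI := hW.intCoeffs
  set r := A.valuation (R1.zOf Q) with hr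
  have hmin := nsmul_ne_zero_of_prime hp hQ0 hpQ
  -- the set of multiples
  set I := Finset.Icc 1 (p - 1) with hIdef
  have hIk : ∀ k ∈ I, 1 ≤ k ∧ k < p := by
    intro k hk
    rw [hIdef, Finset.mem_Icc] at hk
    have := hp.two_le
    omega
  have hinj : Set.InjOn (fun k : ℕ => k • Q) (I : Set ℕ) := by
    intro k hk k' hk' hkk'
    obtain ⟨h1, h2⟩ := hIk k hk
    obtain ⟨h1', h2'⟩ := hIk k' hk'
    simp only at hkk'
    by_contra hne
    rcases Nat.lt_or_gt_of_ne hne with hlt | hlt
    · refine hmin (k' - k) (by omega) (by omega) ?_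
      have : k' • Q = (k' - k) • Q + k • Q := by rw [← add_nsmul]; congr 1; omega
      rw [← hkk'] at this
      exact (add_eq_right.mp this.symm)
    · refine hmin (k - k') (by omega) (by omega) ?_
      have : k • Q = (k - k') • Q + k' • Q := by rw [← add_nsmul]; congr 1; omega
      rw [hkk'] at this
      exact (add_eq_right.mp this.symm)
  set S := I.image (fun k : ℕ => k • Q) with hS
  have hSmem : ∀ R ∈ S, p • R = 0 ∧ R ≠ 0 ∧ xOf R ∉ A ∧ A.valuation (xOf R) * r ^ 2 = 1 := by
    intro R hR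
    obtain ⟨k, hk, rfl⟩ := Finset.mem_image.mp hR
    obtain ⟨h1, h2⟩ := hIk k hk
    obtain ⟨hker, hval⟩ := valuation_zOf_nsmul hW hp hpA hQ0 hQ h1 h2
    have hk0 : k • Q ≠ 0 := hmin k h1 h2
    have hpk : p • (k • Q) = 0 := by rw [smul_comm, hpQ, smul_zero]
    rcases (mem_kerRed_iff hW).mp hker with h0 | ⟨x, y, h, he, hx⟩
    · exact absurd h0 hk0
    · rw [he] at hval ⊢
      refine ⟨by rw [← he]; exact hpk, Point.some_ne_zero h, hx, ?_⟩
      rw [xOf_some, hr, ← hval, R1.zOf_some]
      exact (valuation_x_mul_zOf_sq hW h hx).1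
  have hmem := natCast_sq_mul_prod_xOf_mem A hW hp hodd S
    (fun R hR => ⟨(hSmem R hR).1, (hSmem R hR).2.1, (hSmem R hR).2.2.1⟩)
  rw [← A.valuation_le_one_iff, map_mul, map_pow, map_prod] at hmem
  -- multiply by `r^(2(p-1))`
  have hcard : S.card = p - 1 := by
    rw [hS, Finset.card_image_of_injOn hinj, hIdef, Nat.card_Icc]
    omega
  have hprod : (∏ R ∈ S, A.valuation (xOf R)) * (r ^ 2) ^ (p - 1) = 1 := by
    rw [← hcard, ← Finset.prod_const, ← Finset.prod_mul_distrib]
    exact Finset.prod_eq_one fun R hR => (hSmem R hR).2.2.2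
  have key : A.valuation (p : K) ^ 2 ≤ (r ^ (p - 1)) ^ 2 := by
    calc A.valuation (p : K) ^ 2
        = A.valuation (p : K) ^ 2 * ((∏ R ∈ S, A.valuation (xOf R)) * (r ^ 2) ^ (p - 1)) := by
          rw [hprod, mul_one]
      _ = (A.valuation (p : K) ^ 2 * ∏ R ∈ S, A.valuation (xOf R)) * (r ^ 2) ^ (p - 1) := by
          rw [mul_assoc]
      _ ≤ 1 * (r ^ 2) ^ (p - 1) := mul_le_mul' hmem le_rfl
      _ = (r ^ (p - 1)) ^ 2 := by rw [one_mul, ← pow_mul, ← pow_mul, mul_comm]
  exact (pow_le_pow_iff_left₀ zero_le zero_le two_ne_zero).mp key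

end Torsion

section Main

variable [IsAlgClosed K] (hW : IsIntegralCurve A W) (hΔ : W.Δ ∉ A.nonunits) {p : ℕ} (hp : p.Prime)
  (hodd : p ≠ 2) (hpA : (p : K) ∈ A.nonunits)

include hW hΔ hp hodd in
/-- `ψ₂ = 2y + a₁x + a₃` is a unit at an integral torsion point of odd prime order (good
reduction). -/
theorem psi2_not_mem_nonunits {x y : K} (h : W.Nonsingular x y) (hx : x ∈ A)
    (ht : p • Point.some x y h = 0) : 2 * y + W.a₁ * x + W.a₃ ∉ A.nonunits := by
  intro hψ
  have hφ : 3 * x ^ 2 + 2 * W.a₂ * x + W.a₄ - W.a₁ * y ∉ A.nonunits := fun h1 =>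
    not_partials_mem_of_Δ hW.a₁ hW.a₂ hΔ hx h.1 ⟨h1, hψ⟩
  obtain ⟨j, hj⟩ : Odd p := hp.odd_of_ne_two hodd
  have hhalf : ∀ R : W.Point, (j + 1) • (R + R) = R + p • R := by
    intro R
    rw [← two_nsmul, ← mul_nsmul', hj]
    have : (j + 1) * 2 = 1 + (2 * j + 1) := by ring
    rw [this, add_nsmul, one_nsmul]
  by_cases hψ0 : 2 * y + W.a₁ * x + W.a₃ = 0
  · have hneg : y = W.negY x y := by rw [Affine.negY]; linear_combination hψ0
    have h2 : Point.some x y h + Point.some x y h = 0 := Point.add_self_of_Y_eq hneg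
    have := hhalf (Point.some x y h)
    rw [h2, smul_zero, ht, add_zero] at this
    exact Point.some_ne_zero h this.symm
  · have hne : y ≠ W.negY x y := by
      intro hneg
      apply hψ0
      rw [Affine.negY] at hneg
      linear_combination hneg
    have hxy : ¬ (x = x ∧ y = W.negY x y) := fun hh => hne hh.2
    have hsum := Point.add_some (h₁ := h) (h₂ := h) hxy
    have hsl : W.slope x x y y ∉ A := by
      rw [slope_of_Y_ne rfl hne]
      have hden : y - W.negY x y = 2 * y + W.a₁ * x + W.a₃ := by rw [Affine.negY]; ring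
      rw [hden]
      exact div_not_mem hφ hψ hψ0
    have hc : -W.a₂ - x - x ∈ A := sub_mem (sub_mem (neg_mem hW.a₂) hx) hx
    have hX := sq_add_not_mem hsl hW.a₁ hc
    have e : W.addX x x (W.slope x x y y) =
        W.slope x x y y ^ 2 + W.a₁ * W.slope x x y y + (-W.a₂ - x - x) := by
      simp only [Affine.addX]; ring
    rw [← e] at hX
    have hker : Point.some x y h + Point.some x y h ∈ kerRed hW := by
      rw [hsum]
      exact (some_mem_kerRed_iff hW).mpr hX
    have hker' := (kerRed hW).nsmul_mem hker (j + 1)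
    rw [hhalf, ht, add_zero, some_mem_kerRed_iff] at hker'
    exact hker' hx

include hW hΔ hp hodd hpA in
/-- **[ECPEU], core**: two distinct `p`-torsion points with integral coordinates which are congruent
modulo the maximal ideal satisfy `|p| ≤ |x' - x|^(p-1)`. -/
theorem valuation_natCast_le_sub_pow {x y x' y' : K} (h : W.Nonsingular x y)
    (h' : W.Nonsingular x' y') (hx : x ∈ A) (hxx' : x' - x ∈ A.nonunits)
    (hyy' : y' - y ∈ A.nonunits) (ht : p • Point.some x y h = 0)
    (ht' : p • Point.some x' y' h' = 0) (hne : Point.some x' y' h' ≠ Point.some x y h) :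
    A.valuation (p : K) ≤ A.valuation (x' - x) ^ (p - 1) := by
  have hψ := psi2_not_mem_nonunits hW hΔ hp hodd h hx ht
  have hx' : x' ∈ A := by
    have := A.add_mem _ _ (A.nonunits_le hxx') hx
    rwa [sub_add_cancel] at this
  -- `x' ≠ x`
  have hxne : x' ≠ x := by
    intro hxx
    subst hxx
    rcases Y_eq_of_X_eq h'.1 h.1 rfl with hyy | hyy
    · subst hyy
      exact hne rfl
    · apply hψ
      have e : 2 * y + W.a₁ * x' + W.a₃ = -(y' - y) := by
        rw [hyy, Affine.negY]; ring
      rw [e]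
      exact A.nonunits.neg_mem hyy'
  -- the difference
  have hneg : W.Nonsingular x (W.negY x y) := (nonsingular_neg ..).mpr h
  have hxy : ¬ (x' = x ∧ y' = W.negY x (W.negY x y)) := fun hh => hxne hh.1
  have hQ : Point.some x' y' h' - Point.some x y h =
      Point.some (W.addX x' x (W.slope x' x y' (W.negY x y)))
        (W.addY x' x y' (W.slope x' x y' (W.negY x y))) (nonsingular_add h' hneg hxy) := by
    rw [sub_eq_add_neg, Point.neg_some, Point.add_some hxy]
  set l := W.slope x' x y' (W.negY x y) with hl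
  have hnum : y' - W.negY x y ∉ A.nonunits := by
    have e : y' - W.negY x y = (2 * y + W.a₁ * x + W.a₃) + (y' - y) := by
      rw [Affine.negY]; ring
    rw [e]
    exact add_not_mem_nonunits hψ hyy'
  have hnumA : y' - W.negY x y ∈ A := by
    have e : y' - W.negY x y = (2 * y + W.a₁ * x + W.a₃) + (y' - y) := by
      rw [Affine.negY]; ring
    rw [e]
    have hy : y ∈ A := y_mem_of_x_mem hW h.1 hx
    have h2 : (2 : K) ∈ A := by exact_mod_cast natCast_mem A 2
    exact A.add_mem _ _ (A.add_mem _ _ (A.add_mem _ _ (A.mul_mem _ _ h2 hy)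
      (A.mul_mem _ _ hW.a₁ hx)) hW.a₃) (A.nonunits_le hyy')
  have hvnum : A.valuation (y' - W.negY x y) = 1 := by
    refine le_antisymm ((A.valuation_le_one_iff _).mpr hnumA) ?_
    by_contra hlt
    exact hnum (A.mem_nonunits_iff.mpr (not_le.mp hlt))
  have hd0 : x' - x ≠ 0 := sub_ne_zero.mpr hxne
  have hvd0 : A.valuation (x' - x) ≠ 0 := (A.valuation.ne_zero_iff).mpr hd0
  have hvd : A.valuation (x' - x) < 1 := A.mem_nonunits_iff.mp hxx'
  have hvl : A.valuation l = (A.valuation (x' - x))⁻¹ := by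
    rw [hl, slope_of_X_ne hxne, map_div₀, hvnum, one_div]
  have hvl1 : 1 < A.valuation l := by
    rw [hvl]
    exact (one_lt_inv₀ (zero_lt_iff.mpr hvd0)).mpr hvd
  -- the `x`-coordinate of the difference
  have e : W.addX x' x l = l ^ 2 + (W.a₁ * l + (-W.a₂ - x' - x)) := by
    simp only [Affine.addX]; ring
  have hc : -W.a₂ - x' - x ∈ A := sub_mem (sub_mem (neg_mem hW.a₂) hx') hx
  have hrest : A.valuation (W.a₁ * l + (-W.a₂ - x' - x)) < A.valuation (l ^ 2) := by
    rw [map_pow]
    refine lt_of_le_of_lt (A.valuation.map_add_le (g := A.valuation l) ?_ ?_) ?_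
    · rw [map_mul]
      exact mul_le_of_le_one_left' ((A.valuation_le_one_iff _).mpr hW.a₁)
    · exact ((A.valuation_le_one_iff _).mpr hc).trans hvl1.le
    · rw [pow_two]
      exact lt_mul_of_one_lt_left (lt_trans zero_lt_one hvl1) hvl1
  have hvX : A.valuation (W.addX x' x l) = A.valuation l ^ 2 := by
    rw [e, Valuation.map_add_eq_of_lt_left _ hrest, map_pow]
  have hXA : W.addX x' x l ∉ A := by
    rw [← one_lt_valuation_iff_not_mem, hvX]
    exact one_lt_pow₀ hvl1 two_ne_zero
  -- the point `Q`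
  set Q := Point.some x' y' h' - Point.some x y h with hQdef
  have hQ0 : Q ≠ 0 := sub_ne_zero.mpr hne
  have hpQ : p • Q = 0 := by rw [hQdef, smul_sub, ht, ht', sub_zero]
  have hQker : Q ∈ kerRed hW := by
    rw [hQ]
    exact (some_mem_kerRed_iff hW).mpr hXA
  have key := valuation_natCast_le_zOf_pow hW hp hodd hpA hQ0 hpQ hQker
  have hz : A.valuation (R1.zOf Q) = A.valuation (x' - x) := by
    have h1 := (valuation_x_mul_zOf_sq hW (nonsingular_add h' hneg hxy) hXA).1
    rw [hQ, R1.zOf_some]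
    rw [hvX, hvl, ← mul_pow] at h1
    have h2 : ((A.valuation (x' - x))⁻¹ * A.valuation (-W.addX x' x l / W.addY x' x y' l)) ^ 2
        = 1 ^ 2 := by rw [h1, one_pow]
    have h3 := (pow_left_inj₀ zero_le zero_le two_ne_zero).mp h2
    rw [inv_mul_eq_one₀ hvd0] at h3
    exact h3.symm
  rw [hz] at key
  exact key

end Main

end Fermat.Agent.MP
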