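/-
MP40 (S44/S40) — helper4 — [ECPEU-MULT], part 1: **the general chord lemma**.

`W` an integral Weierstrass curve over the valuation subring `A` (residue characteristic the odd
prime `p`) of the algebraically closed field `K`.  If `P = (x, y)` and `P' = (x', y')` are
`p`-torsion points with `x' ≠ x` such that the slope `l = (y' - negY x y) / (x' - x)` of the chord
through `P'` and `-P` satisfies `1 < |l|`, `|x| < |l|²`, `|x'| < |l|²`, then `P' - P` is a nonzero
`p`-torsion point of the kernel of reduction with `|z(P' - P)| = |l|⁻¹`; hence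
`|p| · |l|^(p-1) ≤ 1` (`valuation_natCast_mul_slope_pow_le`).

Consequence (`valuation_natCast_le_sub_pow_of_nonsing`): the core of [ECPEU] with the hypothesis
"good reduction" replaced by "the reduction of `P` is a nonsingular point".
-/
import Mathlib
import Fermat.Agent.MP.ECPEU_helper4_Core

set_option autoImplicit false
set_option linter.unusedSectionVars false

namespace Fermat.Agent.MP

open WeierstrassCurve WeierstrassCurve.Affine Fermat.Agent.Tate Fermat.Agent.EC

variable {K : Type*} [Field K] [DecidableEq K] {A : ValuationSubring K} {W : Affine K}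

section Chord

variable [IsAlgClosed K] (hW : IsIntegralCurve A W) {p : ℕ} (hp : p.Prime) (hodd : p ≠ 2)
  (hpA : (p : K) ∈ A.nonunits)

include hW hp hodd hpA in
/-- **the general chord lemma**. -/
theorem valuation_natCast_mul_slope_pow_le {x y x' y' : K} (h : W.Nonsingular x y)
    (h' : W.Nonsingular x' y') (hxne : x' ≠ x) (ht : p • Point.some x y h = 0)
    (ht' : p • Point.some x' y' h' = 0)
    (hl1 : 1 < A.valuation ((y' - W.negY x y) / (x' - x)))
    (hlx : A.valuation x < A.valuation ((y' - W.negY x y) / (x' - x)) ^ 2)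
    (hlx' : A.valuation x' < A.valuation ((y' - W.negY x y) / (x' - x)) ^ 2) :
    A.valuation (p : K) * A.valuation ((y' - W.negY x y) / (x' - x)) ^ (p - 1) ≤ 1 := by
  have hneg : W.Nonsingular x (W.negY x y) := (nonsingular_neg ..).mpr h
  have hxy : ¬ (x' = x ∧ y' = W.negY x (W.negY x y)) := fun hh => hxne hh.1
  have hQ : Point.some x' y' h' - Point.some x y h =
      Point.some (W.addX x' x (W.slope x' x y' (W.negY x y)))
        (W.addY x' x y' (W.slope x' x y' (W.negY x y))) (nonsingular_add h' hneg hxy) := by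
    rw [sub_eq_add_neg, Point.neg_some, Point.add_some hxy]
  have hsl : W.slope x' x y' (W.negY x y) = (y' - W.negY x y) / (x' - x) := slope_of_X_ne hxne
  rw [← hsl] at hl1 hlx hlx' ⊢
  set l := W.slope x' x y' (W.negY x y) with hl
  have hl0 : 0 < A.valuation l := lt_trans zero_lt_one hl1
  have hl2 : A.valuation l < A.valuation l ^ 2 := by
    rw [pow_two]
    exact lt_mul_of_one_lt_left hl0 hl1
  -- the `x`-coordinate of the difference
  have e : W.addX x' x l = l ^ 2 + (W.a₁ * l + (-W.a₂ - x' - x)) := by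
    simp only [Affine.addX]; ring
  have hrest : A.valuation (W.a₁ * l + (-W.a₂ - x' - x)) < A.valuation (l ^ 2) := by
    rw [map_pow]
    refine lt_of_le_of_lt (A.valuation.map_add_le (g := max (A.valuation l)
      (max 1 (max (A.valuation x') (A.valuation x)))) ?_ ?_) ?_
    · rw [map_mul]
      exact (mul_le_of_le_one_left' ((A.valuation_le_one_iff _).mpr hW.a₁)).trans
        (le_max_left _ _)
    · refine le_trans ?_ (le_max_right _ _)
      refine A.valuation.map_sub_le (A.valuation.map_sub_le ?_ ?_) ?_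
      · rw [Valuation.map_neg]
        exact ((A.valuation_le_one_iff _).mpr hW.a₂).trans (le_max_left _ _)
      · exact (le_max_left _ _).trans (le_max_right _ _)
      · exact (le_max_right _ _).trans (le_max_right _ _)
    · exact max_lt hl2 (max_lt (lt_trans hl1 hl2) (max_lt hlx' hlx))
  have hvX : A.valuation (W.addX x' x l) = A.valuation l ^ 2 := by
    rw [e, Valuation.map_add_eq_of_lt_left _ hrest, map_pow]
  have hXA : W.addX x' x l ∉ A := by
    rw [← one_lt_valuation_iff_not_mem, hvX]
    exact one_lt_pow₀ hl1 two_ne_zero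
  -- the point `Q`
  set Q := Point.some x' y' h' - Point.some x y h with hQdef
  have hQ0 : Q ≠ 0 := by
    rw [hQ]
    exact Point.some_ne_zero _
  have hpQ : p • Q = 0 := by rw [hQdef, smul_sub, ht, ht', sub_zero]
  have hQker : Q ∈ kerRed hW := by
    rw [hQ]
    exact (some_mem_kerRed_iff hW).mpr hXA
  have key := valuation_natCast_le_zOf_pow hW hp hodd hpA hQ0 hpQ hQker
  have hz : A.valuation (R1.zOf Q) * A.valuation l = 1 := by
    have h1 := (valuation_x_mul_zOf_sq hW (nonsingular_add h' hneg hxy) hXA).1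
    rw [hQ, R1.zOf_some]
    rw [hvX, ← mul_pow] at h1
    have h2 : (A.valuation l * A.valuation (-W.addX x' x l / W.addY x' x y' l)) ^ 2
        = 1 ^ 2 := by rw [h1, one_pow]
    have h3 := (pow_left_inj₀ zero_le zero_le two_ne_zero).mp h2
    rw [mul_comm]
    exact h3
  calc A.valuation (p : K) * A.valuation l ^ (p - 1)
      ≤ A.valuation (R1.zOf Q) ^ (p - 1) * A.valuation l ^ (p - 1) := mul_le_mul' key le_rfl
    _ = 1 := by rw [← mul_pow, hz, one_pow]

include hW hp hodd in
/-- `ψ₂ = 2y + a₁x + a₃` is a unit at an integral torsion point of odd prime order whose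
reduction is a nonsingular point. -/
theorem psi2_not_mem_nonunits_of_nonsing {x y : K} (h : W.Nonsingular x y) (hx : x ∈ A)
    (hns : ¬ (3 * x ^ 2 + 2 * W.a₂ * x + W.a₄ - W.a₁ * y ∈ A.nonunits ∧
      2 * y + W.a₁ * x + W.a₃ ∈ A.nonunits))
    (ht : p • Point.some x y h = 0) : 2 * y + W.a₁ * x + W.a₃ ∉ A.nonunits := by
  intro hψ
  have hφ : 3 * x ^ 2 + 2 * W.a₂ * x + W.a₄ - W.a₁ * y ∉ A.nonunits := fun h1 => hns ⟨h1, hψ⟩
  obtain ⟨j, hj⟩ : Odd p := hp.odd_of_ne_two hodd
  have hhalf : ∀ R : W.Point, (j + 1) • (R + R) = R + p • R := by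
    intro R
    rw [← two_nsmul, ← mul_nsmul', hj]
    have : (j + 1) * 2 = 1 + (2 * j + 1) := by ring
    rw [this, add_nsmul, one_nsmul]
  by_cases hψ0 : 2 * y + W.a₁ * x + W.a₃ = 0
  · have hneg : y = W.negY x y := by rw [Affine.negY]; linear_combination hψ0
    have h2 : Point.some x y h + Point.some x y h = 0 := Point.add_self_of_Y_eq hneg
    have := hhalf (Point.some x y h)
    rw [h2, smul_zero, ht, add_zero] at this
    exact Point.some_ne_zero h this.symm
  · have hne : y ≠ W.negY x y := by
      intro hneg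
      apply hψ0
      rw [Affine.negY] at hneg
      linear_combination hneg
    have hxy : ¬ (x = x ∧ y = W.negY x y) := fun hh => hne hh.2
    have hsum := Point.add_some (h₁ := h) (h₂ := h) hxy
    have hsl : W.slope x x y y ∉ A := by
      rw [slope_of_Y_ne rfl hne]
      have hden : y - W.negY x y = 2 * y + W.a₁ * x + W.a₃ := by rw [Affine.negY]; ring
      rw [hden]
      exact div_not_mem hφ hψ hψ0
    have hc : -W.a₂ - x - x ∈ A := sub_mem (sub_mem (neg_mem hW.a₂) hx) hx
    have hX := sq_add_not_mem hsl hW.a₁ hc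
    have e : W.addX x x (W.slope x x y y) =
        W.slope x x y y ^ 2 + W.a₁ * W.slope x x y y + (-W.a₂ - x - x) := by
      simp only [Affine.addX]; ring
    rw [← e] at hX
    have hker : Point.some x y h + Point.some x y h ∈ kerRed hW := by
      rw [hsum]
      exact (some_mem_kerRed_iff hW).mpr hX
    have hker' := (kerRed hW).nsmul_mem hker (j + 1)
    rw [hhalf, ht, add_zero, some_mem_kerRed_iff] at hker'
    exact hker' hx

include hW hp hodd hpA in
/-- **[ECPEU], core, nonsingular reduction**: two distinct `p`-torsion points with integral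
coordinates which are congruent modulo the maximal ideal and reduce to a nonsingular point satisfy
`|p| ≤ |x' - x|^(p-1)`. -/
theorem valuation_natCast_le_sub_pow_of_nonsing {x y x' y' : K} (h : W.Nonsingular x y)
    (h' : W.Nonsingular x' y') (hx : x ∈ A)
    (hns : ¬ (3 * x ^ 2 + 2 * W.a₂ * x + W.a₄ - W.a₁ * y ∈ A.nonunits ∧
      2 * y + W.a₁ * x + W.a₃ ∈ A.nonunits))
    (hxx' : x' - x ∈ A.nonunits)
    (hyy' : y' - y ∈ A.nonunits) (ht : p • Point.some x y h = 0)
    (ht' : p • Point.some x' y' h' = 0) (hne : Point.some x' y' h' ≠ Point.some x y h) :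
    A.valuation (p : K) ≤ A.valuation (x' - x) ^ (p - 1) := by
  have hψ := psi2_not_mem_nonunits_of_nonsing hW hp hodd h hx hns ht
  have hx' : x' ∈ A := by
    have := A.add_mem _ _ (A.nonunits_le hxx') hx
    rwa [sub_add_cancel] at this
  -- `x' ≠ x`
  have hxne : x' ≠ x := by
    intro hxx
    subst hxx
    rcases Y_eq_of_X_eq h'.1 h.1 rfl with hyy | hyy
    · subst hyy
      exact hne rfl
    · apply hψ
      have e : 2 * y + W.a₁ * x' + W.a₃ = -(y' - y) := by
        rw [hyy, Affine.negY]; ring
      rw [e]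
      exact A.nonunits.neg_mem hyy'
  have hnum : y' - W.negY x y ∉ A.nonunits := by
    have e : y' - W.negY x y = (2 * y + W.a₁ * x + W.a₃) + (y' - y) := by
      rw [Affine.negY]; ring
    rw [e]
    exact add_not_mem_nonunits hψ hyy'
  have hnumA : y' - W.negY x y ∈ A := by
    have e : y' - W.negY x y = (2 * y + W.a₁ * x + W.a₃) + (y' - y) := by
      rw [Affine.negY]; ring
    rw [e]
    have hy : y ∈ A := y_mem_of_x_mem hW h.1 hx
    have h2 : (2 : K) ∈ A := by exact_mod_cast natCast_mem A 2
    exact A.add_mem _ _ (A.add_mem _ _ (A.add_mem _ _ (A.mul_mem _ _ h2 hy)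
      (A.mul_mem _ _ hW.a₁ hx)) hW.a₃) (A.nonunits_le hyy')
  have hvnum : A.valuation (y' - W.negY x y) = 1 := by
    refine le_antisymm ((A.valuation_le_one_iff _).mpr hnumA) ?_
    by_contra hlt
    exact hnum (A.mem_nonunits_iff.mpr (not_le.mp hlt))
  have hd0 : x' - x ≠ 0 := sub_ne_zero.mpr hxne
  have hvd0 : A.valuation (x' - x) ≠ 0 := (A.valuation.ne_zero_iff).mpr hd0
  have hvd : A.valuation (x' - x) < 1 := A.mem_nonunits_iff.mp hxx'
  have hvl : A.valuation ((y' - W.negY x y) / (x' - x)) = (A.valuation (x' - x))⁻¹ := by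
    rw [map_div₀, hvnum, one_div]
  have hvl1 : 1 < A.valuation ((y' - W.negY x y) / (x' - x)) := by
    rw [hvl]
    exact (one_lt_inv₀ (zero_lt_iff.mpr hvd0)).mpr hvd
  have hsq : 1 < A.valuation ((y' - W.negY x y) / (x' - x)) ^ 2 := one_lt_pow₀ hvl1 two_ne_zero
  have key := valuation_natCast_mul_slope_pow_le hW hp hodd hpA h h' hxne ht ht' hvl1
    (lt_of_le_of_lt ((A.valuation_le_one_iff _).mpr hx) hsq)
    (lt_of_le_of_lt ((A.valuation_le_one_iff _).mpr hx') hsq)
  rw [hvl, inv_pow] at key
  have hpos : 0 < A.valuation (x' - x) ^ (p - 1) := pow_pos (zero_lt_iff.mpr hvd0) _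
  rwa [← div_eq_mul_inv, div_le_one₀ hpos] at key

end Chord

end Fermat.Agent.MP
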