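/-
MP40 (S44/S40) — helper4 — [ECPEU-MULT], part 3a: **fine chord estimates in the `(z, w)`-plane**.

For two points `(z₁, w₁)`, `(z₂, w₂)` of the curve `w = fzw z w` near the origin with
`|z₂ - z₁| = δ < r = |z₁| < 1` (and `|2| = 1`): `|w_j| = r³`, the slope denominator is a unit,
the intercept numerator `w₁ D - z₁ N` has absolute value exactly `r³`, and `|w₁ + w₂| = r³`.
-/
import Mathlib
import Fermat.Agent.Tate.R1_helper8_Val

set_option autoImplicit false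
set_option linter.unusedSectionVars false

namespace Fermat.Agent.MP

open Fermat.Agent.Tate Fermat.Agent.Tate.R1

variable {K : Type*} [Field K] {Γ₀ : Type*} [LinearOrderedCommGroupWithZero Γ₀]
  {v : Valuation K Γ₀} {a₁ a₂ a₃ a₄ a₆ : K}

/-- the intercept numerator of the chord through two points of the curve, compared with the
tangent case -/
theorem chord_intercept_identity {z₁ w₁ z₂ w₂ : K} (h : w₁ = fzw a₁ a₂ a₃ a₄ a₆ z₁ w₁) :
    w₁ * slopeD a₁ a₂ a₃ a₄ a₆ z₁ w₁ w₂ - z₁ * slopeN a₁ a₂ a₄ z₁ z₂ w₂ =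
      w₁ * (-2 + (a₁ * z₁ + a₃ * w₁)) -
        (w₁ * (w₂ - w₁) * (a₃ + a₄ * z₁ + a₆ * (w₂ + 2 * w₁)) +
          z₁ * ((z₂ - z₁) * (z₂ + 2 * z₁) + a₁ * (w₂ - w₁) +
            a₂ * ((z₂ - z₁) * w₂ + 2 * z₁ * (w₂ - w₁)) + a₄ * (w₂ - w₁) * (w₂ + w₁))) := by
  unfold fzw at h
  unfold slopeD slopeN
  linear_combination (3 : K) * h

/-- **fine chord estimates** -/
theorem v_chord_estimates (hI : IntCoeffs v a₁ a₂ a₃ a₄ a₆) (h2 : v (2 : K) = 1) {r δ : Γ₀}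
    (hr0 : 0 < r) (hr1 : r < 1) (hδr : δ < r) {z₁ w₁ z₂ w₂ : K} (hz₁ : v z₁ = r)
    (hδ : v (z₂ - z₁) = δ) (hw₁ : v w₁ < 1) (hw₂ : v w₂ < 1)
    (h₁ : w₁ = fzw a₁ a₂ a₃ a₄ a₆ z₁ w₁) (h₂ : w₂ = fzw a₁ a₂ a₃ a₄ a₆ z₂ w₂) :
    v z₂ = r ∧ v w₁ = r ^ 3 ∧ v w₂ = r ^ 3 ∧ v (slopeD a₁ a₂ a₃ a₄ a₆ z₁ w₁ w₂) = 1 ∧
      v (w₁ * slopeD a₁ a₂ a₃ a₄ a₆ z₁ w₁ w₂ - z₁ * slopeN a₁ a₂ a₄ z₁ z₂ w₂) = r ^ 3 ∧
      v (w₁ + w₂) = r ^ 3 := by
  have hr1' : r ≤ 1 := hr1.le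
  have hz₂ : v z₂ = r := by
    have e : z₂ = z₁ + (z₂ - z₁) := by ring
    rw [e, Valuation.map_add_eq_of_lt_left _ (by rw [hz₁, hδ]; exact hδr), hz₁]
  have hvw₁ : v w₁ = r ^ 3 := by rw [v_w_eq hI (by rw [hz₁]; exact hr1) hw₁ h₁, hz₁]
  have hvw₂ : v w₂ = r ^ 3 := by rw [v_w_eq hI (by rw [hz₂]; exact hr1) hw₂ h₂, hz₂]
  have hr2r : r * r ≤ r := mul_le_of_le_one_right' hr1'
  have hr3r2 : r ^ 3 ≤ r * r := by
    rw [pow_succ, pow_two]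
    exact mul_le_of_le_one_right' hr1'
  have hr3r : r ^ 3 ≤ r := hr3r2.trans hr2r
  have hr31 : r ^ 3 ≤ 1 := hr3r.trans hr1'
  have hD := v_slopeD_eq hI hr1 hz₁.le (hvw₁.le.trans hr3r) (hvw₂.le.trans hr3r)
  have hN := v_slopeN_le hI hr1' hz₁.le hz₂.le (hvw₂.le.trans hr3r2)
  have hid := slope_identity a₁ a₂ a₃ a₄ a₆ h₁ h₂
  set e := δ * r with he
  have her : e * r ≤ e := mul_le_of_le_one_right' hr1'
  have hdw : v (w₂ - w₁) ≤ e * r := by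
    have := congrArg v hid
    rw [map_mul, map_mul, hD, mul_one, hδ] at this
    rw [this, he, mul_assoc]
    exact mul_le_mul' le_rfl hN
  have hlt : e * r < r ^ 3 := by
    have h1 : e < r * r := by
      rw [he]
      exact mul_lt_mul_of_pos_right hδr hr0
    have h2 := mul_lt_mul_of_pos_right h1 hr0
    rwa [← pow_two, ← pow_succ] at h2
  have h2' : v (2 : K) ≤ 1 := h2.le
  have hz₁1 : v z₁ ≤ 1 := hz₁.le.trans hr1'
  have hz₂1 : v z₂ ≤ 1 := hz₂.le.trans hr1'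
  have hw₁1 : v w₁ ≤ 1 := hw₁.le
  have hw₂1 : v w₂ ≤ 1 := hw₂.le
  have h2w : v (2 * w₁) = r ^ 3 := by rw [map_mul, h2, one_mul, hvw₁]
  refine ⟨hz₂, hvw₁, hvw₂, hD, ?_, ?_⟩
  · rw [chord_intercept_identity h₁]
    have hmain : v (w₁ * (-2 + (a₁ * z₁ + a₃ * w₁))) = r ^ 3 := by
      have h13 : v (a₁ * z₁ + a₃ * w₁) < v (-2 : K) := by
        rw [Valuation.map_neg, h2]
        refine lt_of_le_of_lt (v.map_add_le (g := r) ?_ ?_) hr1
        · exact vle_lmul hI.h₁ hz₁.le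
        · exact vle_lmul hI.h₃ (hvw₁.le.trans hr3r)
      rw [map_mul, Valuation.map_add_eq_of_lt_left _ h13, Valuation.map_neg, h2, mul_one, hvw₁]
    have hcorr : v (w₁ * (w₂ - w₁) * (a₃ + a₄ * z₁ + a₆ * (w₂ + 2 * w₁)) +
          z₁ * ((z₂ - z₁) * (z₂ + 2 * z₁) + a₁ * (w₂ - w₁) +
            a₂ * ((z₂ - z₁) * w₂ + 2 * z₁ * (w₂ - w₁)) + a₄ * (w₂ - w₁) * (w₂ + w₁))) ≤ e * r := by
      refine v.map_add_le ?_ ?_
      · refine vle_rmul (vle_lmul hw₁1 hdw) ?_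
        refine v.map_add_le (v.map_add_le hI.h₃ (vle_lmul hI.h₄ hz₁1)) (vle_lmul hI.h₆ ?_)
        exact v.map_add_le hw₂1 (vle_lmul h2' hw₁1)
      · have hinner : v ((z₂ - z₁) * (z₂ + 2 * z₁) + a₁ * (w₂ - w₁) +
            a₂ * ((z₂ - z₁) * w₂ + 2 * z₁ * (w₂ - w₁)) + a₄ * (w₂ - w₁) * (w₂ + w₁)) ≤ e := by
          refine v.map_add_le (v.map_add_le (v.map_add_le ?_ ?_) ?_) ?_
          · rw [he]
            refine vle_mul hδ.le (v.map_add_le hz₂.le (vle_lmul h2' hz₁.le))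
          · exact (vle_lmul hI.h₁ hdw).trans her
          · refine vle_lmul hI.h₂ (v.map_add_le ?_ ?_)
            · rw [he]
              exact vle_mul hδ.le (hvw₂.le.trans hr3r)
            · exact (vle_lmul (vle_lmul h2' hz₁1) hdw).trans her
          · rw [mul_assoc]
            exact (vle_lmul hI.h₄ (vle_rmul hdw (v.map_add_le hw₂1 hw₁1))).trans her
        rw [mul_comm e r]
        exact vle_mul hz₁.le hinner
    rw [Valuation.map_sub_eq_of_lt_left _ (by rw [hmain]; exact lt_of_le_of_lt hcorr hlt), hmain]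
  · have e' : w₁ + w₂ = 2 * w₁ + (w₂ - w₁) := by ring
    rw [e', Valuation.map_add_eq_of_lt_left _ (by rw [h2w]; exact lt_of_le_of_lt hdw hlt), h2w]

end Fermat.Agent.MP
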