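/-
MP40 (S40) — helper4 — [ECPEU], Galois form: **an element of the inertia group which moves a
`p`-torsion point `P` with integral coordinates moves `x(P)` by at least `|ζ_p - 1|`** (good
reduction at the odd prime `p`).

* `valuation_natCast_le_inertia_sub_pow` : `|p| ≤ |σ x - x|^(p-1)`;
* `valuation_zeta_sub_one_pow` : `|ζ - 1|^(p-1) = |p|` for a primitive `p`-th root of unity `ζ`;
* `valuation_zeta_sub_one_le_inertia_sub` : `|ζ - 1| ≤ |σ x - x|`.
-/
import Mathlib
import Fermat.Agent.MP.ECPEU_helper4_Core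
import Fermat.Agent.Tate.Inertia
import Fermat.Agent.S36.CYCLO_helper1

set_option autoImplicit false
set_option linter.unusedSectionVars false

namespace Fermat.Agent.MP

open WeierstrassCurve WeierstrassCurve.Affine Fermat.Agent.Tate Fermat.Agent.EC

section Zeta

variable {K : Type*} [Field K] {A : ValuationSubring K}

/-- `|ζ - 1|^(p-1) = |p|` for a primitive `p`-th root of unity. -/
theorem valuation_zeta_sub_one_pow {p : ℕ} (hp : p.Prime) {ζ : K} (hζ : IsPrimitiveRoot ζ p) :
    A.valuation (ζ - 1) ^ (p - 1) = A.valuation (p : K) := by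
  have hzv : A.valuation ζ = 1 := by
    have h1 : A.valuation ζ ^ p = 1 := by rw [← map_pow, hζ.pow_eq_one, map_one]
    exact (pow_eq_one_iff_of_nonneg zero_le hp.ne_zero).mp h1
  have hzA : ζ ∈ A := (A.valuation_le_one_iff ζ).mp hzv.le
  have hprim : IsPrimitiveRoot (⟨ζ, hzA⟩ : ↥A) p :=
    IsPrimitiveRoot.of_map_of_injective (f := A.subtype) hζ Subtype.val_injective
  obtain ⟨u, hu⟩ := Fermat.Agent.S36.associated_sub_one_pow_natCast_of_prime hp hprim
  have h1 := congrArg (fun a : ↥A => A.valuation (a : K)) hu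
  simp only [MulMemClass.coe_mul, SubmonoidClass.coe_pow, AddSubgroupClass.coe_sub,
    OneMemClass.coe_one, map_mul, map_pow] at h1
  have hu1 : A.valuation ((u : ↥A) : K) = 1 := (A.valuation_eq_one_iff _).mp u.isUnit
  rw [hu1, mul_one] at h1
  rw [h1]
  congr 1

end Zeta

section Galois

variable {R S K : Type*} [CommRing R] [Field S] [Field K] [DecidableEq K] [IsAlgClosed K]
  [Algebra R S] [Algebra R K] [Algebra S K] [IsScalarTower R S K] {W' : Affine R}
  {A : ValuationSubring K} (hW : IsIntegralCurve A (W'⁄K)) (hΔ : (W'⁄K).Δ ∉ A.nonunits)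
  {p : ℕ} (hp : p.Prime) (hodd : p ≠ 2) (hpA : (p : K) ∈ A.nonunits)

include hW hΔ hp hodd hpA in
/-- **[ECPEU], Galois form**: `|p| ≤ |σ x - x|^(p-1)`. -/
theorem valuation_natCast_le_inertia_sub_pow {σ : K ≃ₐ[S] K} (hσ : σ ∈ A.inertiaSubgroupIn S)
    {x y : K} (h : (W'⁄K).Nonsingular x y) (hx : x ∈ A) (ht : p • Point.some x y h = 0)
    (hne : σ • Point.some x y h ≠ Point.some x y h) :
    A.valuation (p : K) ≤ A.valuation (σ x - x) ^ (p - 1) := by
  have hy : y ∈ A := y_mem_of_x_mem hW h.1 hx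
  obtain ⟨-, hxx'⟩ := inertia_map_mem_and_sub_mem hσ hx
  obtain ⟨-, hyy'⟩ := inertia_map_mem_and_sub_mem hσ hy
  have hσP : σ • Point.some x y h = Point.some (σ x) (σ y)
      ((WeierstrassCurve.Affine.baseChange_nonsingular W' (f := σ.toAlgHom)
        σ.toAlgHom.injective x y).mpr h) :=
    rfl
  have ht' : p • (σ • Point.some x y h) = 0 := by
    have := Point.algEquiv_smul_zsmul σ (p : ℤ) (Point.some x y h)
    rw [natCast_zsmul, natCast_zsmul, ht, smul_zero] at this
    exact this.symm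
  rw [hσP] at ht' hne
  exact valuation_natCast_le_sub_pow hW hΔ hp hodd hpA h _ hx hxx' hyy' ht ht' hne

include hW hΔ hp hodd hpA in
/-- **[ECPEU], cyclotomic form**: `|ζ_p - 1| ≤ |σ x - x|`. -/
theorem valuation_zeta_sub_one_le_inertia_sub {σ : K ≃ₐ[S] K} (hσ : σ ∈ A.inertiaSubgroupIn S)
    {x y : K} (h : (W'⁄K).Nonsingular x y) (hx : x ∈ A) (ht : p • Point.some x y h = 0)
    (hne : σ • Point.some x y h ≠ Point.some x y h) {ζ : K} (hζ : IsPrimitiveRoot ζ p) :
    A.valuation (ζ - 1) ≤ A.valuation (σ x - x) := by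
  have key := valuation_natCast_le_inertia_sub_pow hW hΔ hp hodd hpA hσ h hx ht hne
  rw [← valuation_zeta_sub_one_pow hp hζ] at key
  have hp1 : p - 1 ≠ 0 := by have := hp.two_le; omega
  exact (pow_le_pow_iff_left₀ zero_le zero_le hp1).mp key

end Galois

end Fermat.Agent.MP
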