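/-
MP40 (S44/S40) — helper4 — [ECPEU-MULT], part 3b: **`p`-torsion points of the kernel of reduction**.

`W` an integral Weierstrass curve over the valuation subring `A` (residue characteristic the odd
prime `p`) of the algebraically closed field `K`; `P = (x, y) ≠ P' = (x', y')` two `p`-torsion
points of the kernel of reduction (`x, x' ∉ A`), `z = -x/y`, `z' = -x'/y'`.  Then
`|ζ_p - 1| ≤ |z' - z|` (`valuation_zeta_sub_one_le_zOf_sub`): either `|z' - z| = max |z| |z'|`, and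
`|ζ_p - 1| ≤ |z|` already, or the chord through `P'` and `-P` has slope of absolute value exactly
`|z' - z|⁻¹`, so that `|z(P' - P)| = |z' - z|`.
-/
import Mathlib
import Fermat.Agent.MP.ECPEUM_helper4_Chord
import Fermat.Agent.MP.ECPEUM_helper4_ZW
import Fermat.Agent.MP.ECPEU_helper4_Galois
import Fermat.Agent.Tate.R1_helper8_Bridge

set_option autoImplicit false
set_option linter.unusedSectionVars false

namespace Fermat.Agent.MP

open WeierstrassCurve WeierstrassCurve.Affine Fermat.Agent.Tate Fermat.Agent.EC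
open Fermat.Agent.Tate.R1

section ZWXY

variable {K : Type*} [Field K] {Γ₀ : Type*} [LinearOrderedCommGroupWithZero Γ₀]
  {v : Valuation K Γ₀} {a₁ a₂ a₃ a₄ a₆ : K}

/-- the fine chord estimates, in the coordinates `x = z / w`, `y = -1 / w` -/
theorem v_chord_xy (hI : IntCoeffs v a₁ a₂ a₃ a₄ a₆) (h2 : v (2 : K) = 1) {r δ : Γ₀}
    (hr0 : 0 < r) (hr1 : r < 1) (hδr : δ < r) {z₁ w₁ z₂ w₂ : K} (hw₁0 : w₁ ≠ 0) (hw₂0 : w₂ ≠ 0)
    (hz₁ : v z₁ = r) (hδ : v (z₂ - z₁) = δ) (hw₁ : v w₁ < 1) (hw₂ : v w₂ < 1)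
    (h₁ : w₁ = fzw a₁ a₂ a₃ a₄ a₆ z₁ w₁) (h₂ : w₂ = fzw a₁ a₂ a₃ a₄ a₆ z₂ w₂) :
    v (z₂ / w₂ - z₁ / w₁) * r ^ 3 = δ ∧
      v (-1 / w₂ - (-(-1 / w₁) - a₁ * (z₁ / w₁) - a₃)) * r ^ 3 = 1 := by
  obtain ⟨hz₂, hvw₁, hvw₂, hD, hint, hsum⟩ :=
    v_chord_estimates hI h2 hr0 hr1 hδr hz₁ hδ hw₁ hw₂ h₁ h₂
  have hid := slope_identity a₁ a₂ a₃ a₄ a₆ h₁ h₂
  have hr3 : r ^ 3 ≠ 0 := pow_ne_zero _ hr0.ne'
  have hr3pos : 0 < r ^ 3 := pow_pos hr0 _
  constructor
  · have e : (z₂ / w₂ - z₁ / w₁) * (slopeD a₁ a₂ a₃ a₄ a₆ z₁ w₁ w₂ * w₁ * w₂) =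
        (z₂ - z₁) * (w₁ * slopeD a₁ a₂ a₃ a₄ a₆ z₁ w₁ w₂ - z₁ * slopeN a₁ a₂ a₄ z₁ z₂ w₂) := by
      have e1 : z₂ / w₂ - z₁ / w₁ = (z₂ * w₁ - z₁ * w₂) / (w₁ * w₂) := by
        field_simp
      rw [e1, div_mul_eq_mul_div, div_eq_iff (mul_ne_zero hw₁0 hw₂0)]
      linear_combination (-z₁ * w₁ * w₂) * hid
    have := congrArg v e
    rw [map_mul, map_mul, map_mul, map_mul, hD, one_mul, hvw₁, hvw₂, hδ, hint] at this
    -- `v(x' - x) * (r^3 * r^3) = δ * r^3`
    have h3 : (v (z₂ / w₂ - z₁ / w₁) * r ^ 3) * r ^ 3 = δ * r ^ 3 := by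
      rw [mul_assoc]; exact this
    exact mul_right_cancel₀ hr3 h3
  · have e : (-1 / w₂ - (-(-1 / w₁) - a₁ * (z₁ / w₁) - a₃)) * (w₁ * w₂) =
        -(w₁ + w₂) + (a₁ * z₁ * w₂ + a₃ * w₁ * w₂) := by
      field_simp
      ring
    have hsmall : v (a₁ * z₁ * w₂ + a₃ * w₁ * w₂) < v (-(w₁ + w₂)) := by
      rw [Valuation.map_neg, hsum]
      have hb : r * r ^ 3 < r ^ 3 := by
        have := mul_lt_mul_of_pos_right hr1 hr3pos
        rwa [one_mul] at this
      refine lt_of_le_of_lt (v.map_add_le (g := r * r ^ 3) ?_ ?_) hb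
      · rw [mul_assoc]
        exact vle_lmul hI.h₁ (vle_mul hz₁.le hvw₂.le)
      · rw [mul_assoc]
        refine vle_lmul hI.h₃ (vle_mul ?_ hvw₂.le)
        rw [hvw₁]
        calc r ^ 3 = r * r ^ 2 := pow_succ' r 2
          _ ≤ r := mul_le_of_le_one_right' (pow_le_one₀ zero_le hr1.le)
    have := congrArg v e
    rw [map_mul, map_mul, hvw₁, hvw₂, Valuation.map_add_eq_of_lt_left _ hsmall,
      Valuation.map_neg, hsum, ← mul_assoc] at this
    exact mul_right_cancel₀ hr3 (this.trans (one_mul _).symm)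

end ZWXY

section Ker

variable {K : Type*} [Field K] [DecidableEq K] [IsAlgClosed K] {A : ValuationSubring K}
  {W : Affine K} (hW : IsIntegralCurve A W) {p : ℕ} (hp : p.Prime) (hodd : p ≠ 2)
  (hpA : (p : K) ∈ A.nonunits)

include hW hp hodd hpA in
/-- a nonzero `p`-torsion point of the kernel of reduction has `|ζ_p - 1| ≤ |z|`. -/
theorem valuation_zeta_sub_one_le_zOf {Q : W.Point} (hQ0 : Q ≠ 0) (hpQ : p • Q = 0)
    (hQ : Q ∈ kerRed hW) {ζ : K} (hζ : IsPrimitiveRoot ζ p) :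
    A.valuation (ζ - 1) ≤ A.valuation (R1.zOf Q) := by
  have key := valuation_natCast_le_zOf_pow hW hp hodd hpA hQ0 hpQ hQ
  rw [← valuation_zeta_sub_one_pow hp hζ] at key
  have hp1 : p - 1 ≠ 0 := by have := hp.two_le; omega
  exact (pow_le_pow_iff_left₀ zero_le zero_le hp1).mp key

include hW hp hodd hpA in
/-- **[ECPEU], kernel of reduction**: two distinct `p`-torsion points of the kernel of reduction
have `|ζ_p - 1| ≤ |z' - z|`. -/
theorem valuation_zeta_sub_one_le_zOf_sub {x y x' y' : K} (h : W.Nonsingular x y)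
    (h' : W.Nonsingular x' y') (hx : x ∉ A) (hx' : x' ∉ A) (ht : p • Point.some x y h = 0)
    (ht' : p • Point.some x' y' h' = 0) (hne : Point.some x' y' h' ≠ Point.some x y h) {ζ : K}
    (hζ : IsPrimitiveRoot ζ p) : A.valuation (ζ - 1) ≤ A.valuation (-x' / y' - -x / y) := by
  have hI := hW.intCoeffs
  have hx1 : 1 < A.valuation x := one_lt_valuation_iff_not_mem.mpr hx
  have hx1' : 1 < A.valuation x' := one_lt_valuation_iff_not_mem.mpr hx'
  obtain ⟨hy0, hvz, hvw, hz0⟩ := R1.zw_small hI ((equation_iff _ _).mp h.1) hx1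
  obtain ⟨hy0', hvz', hvw', hz0'⟩ := R1.zw_small hI ((equation_iff _ _).mp h'.1) hx1'
  have hc := R1.zw_equation W h.1 hy0
  have hc' := R1.zw_equation W h'.1 hy0'
  have hPz : A.valuation (ζ - 1) ≤ A.valuation (-x / y) :=
    valuation_zeta_sub_one_le_zOf hW hp hodd hpA (Point.some_ne_zero h) ht
      ((some_mem_kerRed_iff hW).mpr hx) hζ
  by_cases hδ : A.valuation (-x' / y' - -x / y) < A.valuation (-x / y)
  swap
  · exact hPz.trans (not_lt.mp hδ)
  have hx0 : x ≠ 0 := fun h0 => hx (h0 ▸ A.zero_mem)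
  have hx0' : x' ≠ 0 := fun h0 => hx' (h0 ▸ A.zero_mem)
  have hw0 : (-1 : K) / y ≠ 0 := div_ne_zero (neg_ne_zero.mpr one_ne_zero) hy0
  have hw0' : (-1 : K) / y' ≠ 0 := div_ne_zero (neg_ne_zero.mpr one_ne_zero) hy0'
  have h3p : 2 < p := by
    have := hp.two_le
    omega
  have h2 : A.valuation (2 : K) = 1 := by
    have := valuation_natCast_eq_one_of_lt (A := A) hp hpA (k := 2) (by norm_num) h3p
    exact_mod_cast this
  have hr0 : 0 < A.valuation (-x / y) := zero_lt_iff.mpr ((A.valuation.ne_zero_iff).mpr hz0)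
  obtain ⟨hX, hY⟩ := v_chord_xy hI h2 hr0 hvz hδ hw0 hw0' rfl rfl hvw hvw' hc hc'
  have exz : -x / y / (-1 / y) = x := by field_simp
  have exz' : -x' / y' / (-1 / y') = x' := by field_simp
  have eyw : (-1 : K) / (-1 / y) = y := by field_simp
  have eyw' : (-1 : K) / (-1 / y') = y' := by field_simp
  rw [exz, exz'] at hX
  rw [exz, eyw, eyw'] at hY
  have hnegY : y' - (-y - W.a₁ * x - W.a₃) = y' - W.negY x y := by
    rw [Affine.negY]
  rw [hnegY] at hY
  set r := A.valuation (-x / y) with hr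
  set δ := A.valuation (-x' / y' - -x / y) with hδdef
  have hr3 : r ^ 3 ≠ 0 := pow_ne_zero _ hr0.ne'
  -- `z' ≠ z`
  have hδ0 : δ ≠ 0 := by
    intro h0
    rw [h0] at hX
    have hxx : x' = x := by
      rcases mul_eq_zero.mp hX with h1 | h1
      · exact sub_eq_zero.mp ((map_eq_zero _).mp h1)
      · exact absurd h1 hr3
    have hzz : -x' / y' = -x / y := sub_eq_zero.mp ((map_eq_zero _).mp h0)
    apply hne
    simp only [Point.some.injEq]
    refine ⟨hxx, ?_⟩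
    rw [hxx] at hzz
    field_simp at hzz
    exact (neg_injective hzz).symm
  have hδpos : 0 < δ := zero_lt_iff.mpr hδ0
  have hxne : x' ≠ x := by
    intro hxx
    rw [hxx, sub_self, map_zero, zero_mul] at hX
    exact hδ0 hX.symm
  have hvd0 : A.valuation (x' - x) ≠ 0 := (A.valuation.ne_zero_iff).mpr (sub_ne_zero.mpr hxne)
  -- the slope
  have hvl : A.valuation ((y' - W.negY x y) / (x' - x)) * δ = 1 := by
    rw [map_div₀, ← hX, ← mul_assoc, div_mul_cancel₀ _ hvd0]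
    exact hY
  have hvl' : A.valuation ((y' - W.negY x y) / (x' - x)) = δ⁻¹ := eq_inv_of_mul_eq_one_left hvl
  have hδ1 : δ < 1 := hδ.trans hvz
  have hl1 : 1 < A.valuation ((y' - W.negY x y) / (x' - x)) := by
    rw [hvl']
    exact (one_lt_inv₀ hδpos).mpr hδ1
  have hxr : A.valuation x * r ^ 2 = 1 := (valuation_x_mul_zOf_sq hW h hx).1
  have hδr' : δ < A.valuation (-x' / y') := by
    have e : -x' / y' = -x / y + (-x' / y' - -x / y) := by ring
    rw [e, Valuation.map_add_eq_of_lt_left _ hδ]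
    exact hδ
  have hr' : A.valuation (-x' / y') = r := by
    have e : -x' / y' = -x / y + (-x' / y' - -x / y) := by ring
    rw [e, Valuation.map_add_eq_of_lt_left _ hδ]
  have hxr' : A.valuation x' * r ^ 2 = 1 := by
    have := (valuation_x_mul_zOf_sq hW h' hx').1
    rwa [hr'] at this
  have hsq : (r ^ 2)⁻¹ < A.valuation ((y' - W.negY x y) / (x' - x)) ^ 2 := by
    rw [hvl', inv_pow]
    exact (inv_lt_inv₀ (pow_pos hr0 2) (pow_pos hδpos 2)).mpr
      (pow_lt_pow_left₀ hδ zero_le two_ne_zero)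
  have hlx : A.valuation x < A.valuation ((y' - W.negY x y) / (x' - x)) ^ 2 := by
    rw [eq_inv_of_mul_eq_one_left hxr]
    exact hsq
  have hlx' : A.valuation x' < A.valuation ((y' - W.negY x y) / (x' - x)) ^ 2 := by
    rw [eq_inv_of_mul_eq_one_left hxr']
    exact hsq
  have key := valuation_natCast_mul_slope_pow_le hW hp hodd hpA h h' hxne ht ht' hl1 hlx hlx'
  rw [hvl', ← valuation_zeta_sub_one_pow hp hζ, ← mul_pow] at key
  have hp1 : p - 1 ≠ 0 := by have := hp.two_le; omega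
  have key' : A.valuation (ζ - 1) * δ⁻¹ ≤ 1 :=
    (pow_le_pow_iff_left₀ (a := A.valuation (ζ - 1) * δ⁻¹) (b := 1) zero_le zero_le hp1).mp
      (by rw [one_pow]; exact key)
  rwa [← div_eq_mul_inv, div_le_one₀ hδpos] at key'

end Ker

end Fermat.Agent.MP
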