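/-
MP40 (S44) — helper4 — [ECPEU-MULT], part 2: **`p`-torsion points near the node**.

`W'` a nodal model (`NodeCtx`/`IsModel` of `Tate/`) with `n = w(a₆) = 2 p k`, `w π = 1`, `σ` an
inertia-like automorphism fixing `π`; `P = (x, y)` a `p`-torsion point near the node
(`x ∈ 𝔪`), all of whose multiples are integral, moved by `σ`.  Then `|x| = |π^j|` for some `j`
and `|ζ_p - 1| · |x| ≤ |σ x - x|`, so that `r = x / π^j` is a unit with
`(ζ_p - 1) / (σ r - r) ∈ A`.
-/
import Mathlib
import Fermat.Agent.MP.ECPEUM_helper4_Chord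
import Fermat.Agent.MP.ECPEU_helper4_Galois
import Fermat.Agent.Tate.NodeGaloisP_helper2

set_option autoImplicit false
set_option linter.unusedSectionVars false

namespace Fermat.Agent.MP

open WeierstrassCurve WeierstrassCurve.Affine Fermat.Agent.Tate Fermat.Agent.EC
open scoped WeierstrassCurve.Affine

section LogValBridge

variable {K : Type*} [Field K] {A : ValuationSubring K} (L : LogVal A)

/-- comparison of valuations through a logarithmic valuation -/
theorem logVal_valuation_le_iff {a b : K} (ha : a ≠ 0) (hb : b ≠ 0) :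
    A.valuation a ≤ A.valuation b ↔ L.w b ≤ L.w a := by
  have hvb : 0 < A.valuation b := zero_lt_iff.mpr ((A.valuation.ne_zero_iff).mpr hb)
  rw [← div_le_one₀ hvb, ← map_div₀, A.valuation_le_one_iff, ← L.nonneg_iff (div_ne_zero ha hb),
    L.map_div ha hb, sub_nonneg]

theorem logVal_valuation_lt_iff {a b : K} (ha : a ≠ 0) (hb : b ≠ 0) :
    A.valuation a < A.valuation b ↔ L.w b < L.w a := by
  rw [← not_le, ← not_le, logVal_valuation_le_iff L hb ha]

theorem logVal_valuation_eq_of_eq {a b : K} (ha : a ≠ 0) (hb : b ≠ 0) (h : L.w a = L.w b) :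
    A.valuation a = A.valuation b :=
  le_antisymm ((logVal_valuation_le_iff L ha hb).mpr h.ge)
    ((logVal_valuation_le_iff L hb ha).mpr h.le)

end LogValBridge

section Node

variable {K : Type*} [Field K] [DecidableEq K] [IsAlgClosed K] {A : ValuationSubring K}
  {R : Type*} {S : Type*} [CommRing R] [CommRing S] [Algebra R S]
  [Algebra R K] [Algebra S K] [IsScalarTower R S K]

/-- **[ECPEU-MULT], points near the node**. -/
theorem valuation_zeta_sub_one_mul_le_of_node (W' : Affine R) (C : NodeCtx K A)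
    (hM : C.IsModel (W'⁄K)) (hW : IsIntegralCurve A (W'⁄K)) {p : ℕ} (hp : p.Prime) (hp2 : p ≠ 2)
    (hpA : (p : K) ∈ A.nonunits) {π : K} (hπ0 : π ≠ 0) (hπ : C.L.w π = 1) (k : ℕ)
    (hn : C.n = 2 * p * k) (σ : K ≃ₐ[S] K) (hσπ : σ π = π)
    (hσ : ∀ a ∈ A, σ a ∈ A ∧ σ a - a ∈ A.nonunits) {x y : K} (h : (W'⁄K).Nonsingular x y)
    (hQ : p • Point.some x y h = 0) (hint : ∀ j : ℕ, IntegralPt A (j • Point.some x y h))
    (hx : x ∈ A.nonunits) (hne : σ • Point.some x y h ≠ Point.some x y h) {ζ : K}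
    (hζ : IsPrimitiveRoot ζ p) :
    ∃ j : ℕ, A.valuation x = A.valuation (π ^ j) ∧
      A.valuation (ζ - 1) * A.valuation x ≤ A.valuation (σ x - x) := by
  have hp0 : (p : ℚ) ≠ 0 := Nat.cast_ne_zero.mpr hp.ne_zero
  have hσ' : ∀ a ∈ A, (σ : K →+* K) a - a ∈ A.nonunits := fun a ha => (hσ a ha).2
  have hxA : x ∈ A := A.nonunits_le hx
  obtain ⟨hx0, hy0, hwy, -, m, hm⟩ :=
    hM.torsion_near_node_of_integral (hp.odd_of_ne_two hp2) h hQ hint hx
  have hj : C.L.w x = ((2 * m * k : ℤ) : ℚ) := by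
    rw [hn] at hm
    have : (p : ℚ) * C.L.w x = p * (2 * m * k) := by rw [hm]; ring
    have := mul_left_cancel₀ hp0 this
    rw [this]; push_cast; ring
  have hcx : C.L.Gt (C.L.w x) (σ x - x) :=
    C.L.gt_of_inertia hπ0 hπ (σ := (σ : K →+* K)) hσπ hσ' hx0 hj
  have hcy : C.L.Gt (C.L.w y) (σ y - y) :=
    C.L.gt_of_inertia hπ0 hπ (σ := (σ : K →+* K)) hσπ hσ' hy0 (hwy.trans hj)
  have h' : (W'⁄K).Nonsingular (σ x) (σ y) :=
    (W'.baseChange_nonsingular σ.toAlgHom.injective ..).mpr h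
  have hσP : σ • Point.some x y h = Point.some (σ x) (σ y) h' := rfl
  have ht' : p • Point.some (σ x) (σ y) h' = 0 := by
    rw [← hσP]
    exact nsmul_smul_eq_zero σ hQ
  rw [hσP] at hne
  -- `σ x ≠ x`
  have hxne : σ x ≠ x := by
    intro hxx
    rcases Y_eq_of_X_eq h'.1 h.1 hxx with hyy | hyy
    · apply hne
      simp only [Point.some.injEq]
      exact ⟨hxx, hyy⟩
    · rw [hM.negY] at hyy
      have e : σ y - y = -(2 * y) := by rw [hyy]; ring
      rw [e] at hcy
      have := hcy.lt (neg_ne_zero.mpr (mul_ne_zero C.two_ne hy0))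
      rw [C.L.map_neg, C.L.map_mul C.two_ne hy0, C.two_unit] at this
      linarith
  have hd0 : σ x - x ≠ 0 := sub_ne_zero.mpr hxne
  have hwd := hcx.lt hd0
  -- the numerator of the slope
  have hnum : σ y + y ≠ 0 ∧ C.L.w (σ y + y) = C.L.w y := by
    have e : σ y + y = 2 * y + (σ y - y) := by ring
    rw [e]
    have h2y : C.L.w (2 * y) = C.L.w y := by rw [C.L.map_mul C.two_ne hy0, C.two_unit, zero_add]
    have := C.L.map_add_of_gt (mul_ne_zero C.two_ne hy0) (by rw [h2y]; exact hcy)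
    rwa [h2y] at this
  have hnegY : σ y - (W'⁄K).negY x y = σ y + y := by rw [hM.negY]; ring
  have hvnum : A.valuation (σ y + y) = A.valuation x :=
    logVal_valuation_eq_of_eq C.L hnum.1 hx0 (hnum.2.trans hwy)
  have hvd0 : 0 < A.valuation (σ x - x) := zero_lt_iff.mpr ((A.valuation.ne_zero_iff).mpr hd0)
  have hvx0 : 0 < A.valuation x := zero_lt_iff.mpr ((A.valuation.ne_zero_iff).mpr hx0)
  have hvdx : A.valuation (σ x - x) < A.valuation x := (logVal_valuation_lt_iff C.L hd0 hx0).mpr hwd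
  have hvl : A.valuation ((σ y - (W'⁄K).negY x y) / (σ x - x)) =
      A.valuation x / A.valuation (σ x - x) := by
    rw [hnegY, map_div₀, hvnum]
  have hvl1 : 1 < A.valuation ((σ y - (W'⁄K).negY x y) / (σ x - x)) := by
    rw [hvl, one_lt_div₀ hvd0]
    exact hvdx
  have hsq : 1 < A.valuation ((σ y - (W'⁄K).negY x y) / (σ x - x)) ^ 2 :=
    one_lt_pow₀ hvl1 two_ne_zero
  have key := valuation_natCast_mul_slope_pow_le hW hp hp2 hpA h h' hxne hQ ht' hvl1
    (lt_of_le_of_lt ((A.valuation_le_one_iff _).mpr hxA) hsq)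
    (lt_of_le_of_lt ((A.valuation_le_one_iff _).mpr (hσ x hxA).1) hsq)
  rw [hvl, ← valuation_zeta_sub_one_pow hp hζ, ← mul_pow] at key
  have hp1 : p - 1 ≠ 0 := by have := hp.two_le; omega
  have key' : A.valuation (ζ - 1) * (A.valuation x / A.valuation (σ x - x)) ≤ 1 := by
    have := (pow_le_pow_iff_left₀ (a := A.valuation (ζ - 1) * (A.valuation x /
      A.valuation (σ x - x))) (b := 1) zero_le zero_le hp1).mp (by rw [one_pow]; exact key)
    exact this
  -- the exponent `j`
  have hwx : 0 < C.L.w x := C.L.pos_of_mem_nonunits hx0 hx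
  refine ⟨(2 * m * k).toNat, ?_, ?_⟩
  · refine logVal_valuation_eq_of_eq C.L hx0 (pow_ne_zero _ hπ0) ?_
    rw [C.L.map_pow hπ0, hπ, mul_one, hj]
    have hpos : (0 : ℤ) < 2 * m * k := by
      rw [hj] at hwx
      exact_mod_cast hwx
    have : (((2 * m * k).toNat : ℤ)) = 2 * m * k := Int.toNat_of_nonneg hpos.le
    exact_mod_cast this.symm
  · rw [← mul_div_assoc, div_le_one₀ hvd0] at key'
    exact key'

end Node

end Fermat.Agent.MP
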