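/-
MP40 (S44/S40) — helper4 — [ECPEU-MULT], part 4: **(peu) for every `p`-torsion point**.

`W'` an integral Weierstrass curve over the valuation subring `A` (residue characteristic the odd
prime `p`) of the algebraically closed field `K`, `σ` an inertia-like automorphism of `K`, `Q` a
`p`-torsion point moved by `σ`, `ζ` a primitive `p`-th root of unity.  Then there is `r ∈ A`,
fixed by every automorphism fixing `Q`, with `σ r ≠ r` and `(ζ - 1) / (σ r - r) ∈ A`:

* `peu_of_good` : good reduction (`r = x(Q)` if `x(Q) ∈ A`, `r = z(Q) = -x/y` otherwise);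
* `peu_of_nodal_form` : the nodal normal form `y² = (x² - d²)(x + c)`, `c` a unit,
  `d = π^(p k) · unit`, `π` fixed by all automorphisms (`r = x(Q) / π^j` near the node).
-/
import Mathlib
import Fermat.Agent.MP.ECPEUM_helper4_Node
import Fermat.Agent.MP.ECPEUM_helper4_Ker
import Fermat.Agent.S13.Ip_helper8_Dichotomy

set_option autoImplicit false
set_option linter.unusedSectionVars false

namespace Fermat.Agent.MP

open WeierstrassCurve WeierstrassCurve.Affine Fermat.Agent.Tate Fermat.Agent.EC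
open scoped WeierstrassCurve.Affine

section Aux

variable {K : Type*} [Field K] [DecidableEq K] {A : ValuationSubring K}

theorem div_mem_of_valuation_le {a b : K} (ha : a ≠ 0) (h : A.valuation a ≤ A.valuation b) :
    b ≠ 0 ∧ a / b ∈ A := by
  have hb : b ≠ 0 := by
    rintro rfl
    rw [map_zero, le_zero_iff, map_eq_zero] at h
    exact ha h
  refine ⟨hb, ?_⟩
  rw [← A.valuation_le_one_iff, map_div₀]
  exact (div_le_one₀ (zero_lt_iff.mpr ((A.valuation.ne_zero_iff).mpr hb))).mpr h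

/-- an inertia-like automorphism preserves non-integrality -/
theorem map_not_mem_of_not_mem {F : Type*} [FunLike F K K] [RingHomClass F K K] (σ : F)
    (hσ : ∀ a ∈ A, σ a ∈ A ∧ σ a - a ∈ A.nonunits) {x : K} (hx : x ∉ A) : σ x ∉ A := by
  have hx0 : x ≠ 0 := fun h0 => hx (h0 ▸ A.zero_mem)
  have hx1 : 1 < A.valuation x := one_lt_valuation_iff_not_mem.mpr hx
  have hinv : x⁻¹ ∈ A.nonunits := by
    rw [A.mem_nonunits_iff, map_inv₀]
    exact inv_lt_one_of_one_lt₀ hx1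
  obtain ⟨-, h2⟩ := hσ x⁻¹ (A.nonunits_le hinv)
  have h3 : σ x⁻¹ ∈ A.nonunits := by
    have := A.nonunits.add_mem h2 hinv
    rwa [sub_add_cancel] at this
  rw [map_inv₀, A.mem_nonunits_iff, map_inv₀] at h3
  have hσx0 : σ x ≠ 0 := (map_ne_zero σ).mpr hx0
  have hv0 : 0 < A.valuation (σ x) := zero_lt_iff.mpr ((A.valuation.ne_zero_iff).mpr hσx0)
  rw [← one_lt_valuation_iff_not_mem]
  exact (inv_lt_one₀ hv0).mp h3

end Aux

section Generic

variable {K : Type*} [Field K] [DecidableEq K] [IsAlgClosed K] {A : ValuationSubring K}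
  {R : Type*} {S : Type*} [CommRing R] [CommRing S] [Algebra R S]
  [Algebra R K] [Algebra S K] [IsScalarTower R S K] {W' : Affine R}

/-- all the multiples of an integral `p`-torsion point are integral -/
theorem integralPt_nsmul_of_mem (hW : IsIntegralCurve A (W'⁄K)) {p : ℕ} (hp : p.Prime) {x y : K}
    (h : (W'⁄K).Nonsingular x y) (hx : x ∈ A) (ht : p • Point.some x y h = 0) (j : ℕ) :
    IntegralPt A (j • Point.some x y h) := by
  set P := Point.some x y h with hP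
  have hmod : j • P = (j % p) • P := by
    conv_lhs => rw [← Nat.div_add_mod j p, add_nsmul, mul_nsmul, ht, smul_zero, zero_add]
  rw [hmod]
  have hlt : j % p < p := Nat.mod_lt _ hp.pos
  generalize j % p = i at hlt
  rcases hi : i • P with _ | ⟨X, Y, hXY⟩
  · trivial
  · by_cases hX : X ∈ A
    · exact ⟨hX, y_mem_of_x_mem hW hXY.1 hX⟩
    · exfalso
      have hiP : i • P ∈ kerRed hW := by
        rw [hi]
        exact (some_mem_kerRed_iff hW).mpr hX
      have hi0 : 0 < i := by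
        rcases Nat.eq_zero_or_pos i with rfl | h0
        · rw [zero_smul] at hi
          exact absurd hi (Point.some_ne_zero hXY).symm
        · exact h0
      have := Fermat.Agent.S13.mem_of_nsmul_mem (kerRed hW) hp ht hi0 hlt hiP
      rw [hP, some_mem_kerRed_iff] at this
      exact this hx

variable (hW : IsIntegralCurve A (W'⁄K)) {p : ℕ} (hp : p.Prime) (hodd : p ≠ 2)
  (hpA : (p : K) ∈ A.nonunits) (σ : K ≃ₐ[S] K)
  (hσ : ∀ a ∈ A, σ a ∈ A ∧ σ a - a ∈ A.nonunits)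

include hW hp hodd hpA hσ in
/-- **(peu), points of the kernel of reduction**: `|ζ - 1| ≤ |σ z - z|`, `z = -x/y`. -/
theorem valuation_zeta_sub_one_le_map_zOf_sub {x y : K} (h : (W'⁄K).Nonsingular x y) (hx : x ∉ A)
    (ht : p • Point.some x y h = 0) (hne : σ • Point.some x y h ≠ Point.some x y h) {ζ : K}
    (hζ : IsPrimitiveRoot ζ p) : A.valuation (ζ - 1) ≤ A.valuation (σ (-x / y) - -x / y) := by
  have h' : (W'⁄K).Nonsingular (σ x) (σ y) :=
    (W'.baseChange_nonsingular σ.toAlgHom.injective ..).mpr h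
  have hσP : σ • Point.some x y h = Point.some (σ x) (σ y) h' := rfl
  have ht' : p • Point.some (σ x) (σ y) h' = 0 := by
    rw [← hσP]
    exact nsmul_smul_eq_zero σ ht
  rw [hσP] at hne
  have key := valuation_zeta_sub_one_le_zOf_sub hW hp hodd hpA h h' hx
    (map_not_mem_of_not_mem σ hσ hx) ht ht' hne hζ
  rwa [map_div₀, map_neg]

include hW hp hodd hpA hσ in
/-- **(peu), integral points with nonsingular reduction**: `|ζ - 1| ≤ |σ x - x|`. -/
theorem valuation_zeta_sub_one_le_map_sub_of_nonsing {x y : K} (h : (W'⁄K).Nonsingular x y)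
    (hx : x ∈ A)
    (hns : ¬ (3 * x ^ 2 + 2 * (W'⁄K).a₂ * x + (W'⁄K).a₄ - (W'⁄K).a₁ * y ∈ A.nonunits ∧
      2 * y + (W'⁄K).a₁ * x + (W'⁄K).a₃ ∈ A.nonunits))
    (ht : p • Point.some x y h = 0) (hne : σ • Point.some x y h ≠ Point.some x y h) {ζ : K}
    (hζ : IsPrimitiveRoot ζ p) : A.valuation (ζ - 1) ≤ A.valuation (σ x - x) := by
  have hy : y ∈ A := y_mem_of_x_mem hW h.1 hx
  have h' : (W'⁄K).Nonsingular (σ x) (σ y) :=
    (W'.baseChange_nonsingular σ.toAlgHom.injective ..).mpr h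
  have hσP : σ • Point.some x y h = Point.some (σ x) (σ y) h' := rfl
  have ht' : p • Point.some (σ x) (σ y) h' = 0 := by
    rw [← hσP]
    exact nsmul_smul_eq_zero σ ht
  rw [hσP] at hne
  have key := valuation_natCast_le_sub_pow_of_nonsing hW hp hodd hpA h h' hx hns (hσ x hx).2
    (hσ y hy).2 ht ht' hne
  rw [← valuation_zeta_sub_one_pow hp hζ] at key
  have hp1 : p - 1 ≠ 0 := by have := hp.two_le; omega
  exact (pow_le_pow_iff_left₀ zero_le zero_le hp1).mp key

omit [IsAlgClosed K] in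
theorem map_eq_of_smul_some_eq (τ : K ≃ₐ[S] K) {x y : K} (h : (W'⁄K).Nonsingular x y)
    (hτ : τ • Point.some x y h = Point.some x y h) : τ x = x ∧ τ y = y := by
  have h' : (W'⁄K).Nonsingular (τ x) (τ y) :=
    (W'.baseChange_nonsingular τ.toAlgHom.injective ..).mpr h
  have hτP : τ • Point.some x y h = Point.some (τ x) (τ y) h' := rfl
  rw [hτP, Point.some.injEq] at hτ
  exact hτ

include hW hp hodd hpA hσ in
/-- **(peu), kernel of reduction**, existential form with `r = z(Q) = -x/y`. -/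
theorem peu_of_not_mem {x y : K} (h : (W'⁄K).Nonsingular x y) (hx : x ∉ A)
    (ht : p • Point.some x y h = 0) (hne : σ • Point.some x y h ≠ Point.some x y h) {ζ : K}
    (hζ : IsPrimitiveRoot ζ p) :
    ∃ r : K, r ∈ A ∧ (∀ τ : K ≃ₐ[S] K, τ • Point.some x y h = Point.some x y h → τ r = r) ∧
      σ r - r ≠ 0 ∧ (ζ - 1) / (σ r - r) ∈ A := by
  have hζ1 : ζ - 1 ≠ 0 := sub_ne_zero.mpr (hζ.ne_one hp.one_lt)
  have key := valuation_zeta_sub_one_le_map_zOf_sub hW hp hodd hpA σ hσ h hx ht hne hζ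
  obtain ⟨h0, hmem⟩ := div_mem_of_valuation_le hζ1 key
  refine ⟨-x / y, ?_, ?_, h0, hmem⟩
  · exact (A.valuation_le_one_iff _).mp (valuation_x_mul_zOf_sq hW h hx).2.1.le
  · intro τ hτ
    obtain ⟨h1, h2⟩ := map_eq_of_smul_some_eq τ h hτ
    rw [map_div₀, map_neg, h1, h2]

include hW hp hodd hpA hσ in
/-- **(peu) for every `p`-torsion point, good reduction**. -/
theorem peu_of_good (hΔ : (W'⁄K).Δ ∉ A.nonunits) (Q : (W'⁄K).Point) (hQ : p • Q = 0)
    (hne : σ • Q ≠ Q) {ζ : K} (hζ : IsPrimitiveRoot ζ p) :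
    ∃ r : K, r ∈ A ∧ (∀ τ : K ≃ₐ[S] K, τ • Q = Q → τ r = r) ∧
      σ r - r ≠ 0 ∧ (ζ - 1) / (σ r - r) ∈ A := by
  rcases Q with _ | ⟨x, y, h⟩
  · exact absurd rfl hne
  by_cases hx : x ∈ A
  · have hζ1 : ζ - 1 ≠ 0 := sub_ne_zero.mpr (hζ.ne_one hp.one_lt)
    have key := valuation_zeta_sub_one_le_map_sub_of_nonsing hW hp hodd hpA σ hσ h hx
      (not_partials_mem_of_Δ hW.a₁ hW.a₂ hΔ hx h.1) hQ hne hζ
    obtain ⟨h0, hmem⟩ := div_mem_of_valuation_le hζ1 key
    exact ⟨x, hx, fun τ hτ => (map_eq_of_smul_some_eq τ h hτ).1, h0, hmem⟩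
  · exact peu_of_not_mem hW hp hodd hpA σ hσ h hx hQ hne hζ

include hW hp hodd hpA hσ in
/-- **(peu) for every `p`-torsion point, nodal normal form** `y² = (x² - d²)(x + c)` with
`c = α²` a unit and `d = π^(p k) · unit`, `π` fixed by all automorphisms. -/
theorem peu_of_nodal_form (L : LogVal A) {π : K} (hπ0 : π ≠ 0) (hπ : L.w π = 1)
    (hπfix : ∀ τ : K ≃ₐ[S] K, τ π = π) {α c d : K} (hα : α ^ 2 = c)
    (h1 : (W'⁄K).a₁ = 0) (h2 : (W'⁄K).a₂ = c) (h3 : (W'⁄K).a₃ = 0) (h4 : (W'⁄K).a₄ = -d ^ 2)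
    (h6 : (W'⁄K).a₆ = -d ^ 2 * c) (hcA : c ∈ A) (hcu : c ∉ A.nonunits)
    (two_ne : (2 : K) ≠ 0) (h2u : (2 : K) ∉ A.nonunits) {k : ℕ} (hk : 0 < k) {d' : K}
    (hd'A : d' ∈ A) (hd'u : d' ∉ A.nonunits) (hd : d = π ^ (p * k) * d')
    (Q : (W'⁄K).Point) (hQ : p • Q = 0) (hne : σ • Q ≠ Q) {ζ : K} (hζ : IsPrimitiveRoot ζ p) :
    ∃ r : K, r ∈ A ∧ (∀ τ : K ≃ₐ[S] K, τ • Q = Q → τ r = r) ∧
      σ r - r ≠ 0 ∧ (ζ - 1) / (σ r - r) ∈ A := by
  rcases Q with _ | ⟨x, y, h⟩
  · exact absurd rfl hne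
  have hζ1 : ζ - 1 ≠ 0 := sub_ne_zero.mpr (hζ.ne_one hp.one_lt)
  by_cases hx : x ∈ A
  swap
  · exact peu_of_not_mem hW hp hodd hpA σ hσ h hx hQ hne hζ
  have hy : y ∈ A := y_mem_of_x_mem hW h.1 hx
  have hπm : π ∈ A.nonunits := L.mem_nonunits_of_pos (Or.inr (by rw [hπ]; exact one_pos))
  have hdm : d ∈ A.nonunits := by
    rw [hd]
    have hpk : p * k ≠ 0 := Nat.mul_ne_zero hp.ne_zero hk.ne'
    have : π ^ (p * k) ∈ A.nonunits := by
      rw [A.mem_nonunits_iff, map_pow]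
      exact pow_lt_one₀ zero_le (A.mem_nonunits_iff.mp hπm) hpk
    exact mul_mem_nonunits_left this hd'A
  have hd2m : -d ^ 2 ∈ A.nonunits := by
    rw [pow_two]
    exact A.nonunits.neg_mem (mul_mem_nonunits_left hdm (A.nonunits_le hdm))
  by_cases hxm : x ∈ A.nonunits
  swap
  · -- nonsingular reduction
    have hns := not_partials_mem_of_node (W := (W'⁄K)) h1 h3 (by rw [h2]; exact hcA) h2u
      (by rw [h4]; exact hd2m) (by rw [h6]; exact mul_mem_nonunits_left hd2m hcA) hx hy hxm h.1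
    have key := valuation_zeta_sub_one_le_map_sub_of_nonsing hW hp hodd hpA σ hσ h hx hns hQ hne hζ
    obtain ⟨h0, hmem⟩ := div_mem_of_valuation_le hζ1 key
    exact ⟨x, hx, fun τ hτ => (map_eq_of_smul_some_eq τ h hτ).1, h0, hmem⟩
  -- near the node
  obtain ⟨C, hCL, hM, hn⟩ := exists_nodeCtx_of_nodal_form W' L hπ0 hπ hα h1 h2 h3 h4 h6 hcA hcu
    two_ne h2u hp hk hd'A hd'u hd
  have hint := integralPt_nsmul_of_mem hW hp h hx hQ
  obtain ⟨j, hj, key⟩ := valuation_zeta_sub_one_mul_le_of_node W' C hM hW hp hodd hpA hπ0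
    (by rw [hCL]; exact hπ) k hn σ (hπfix σ) hσ h hQ hint hxm hne hζ
  have hπj : π ^ j ≠ 0 := pow_ne_zero _ hπ0
  have hvπj : 0 < A.valuation (π ^ j) := zero_lt_iff.mpr ((A.valuation.ne_zero_iff).mpr hπj)
  have hσr : σ (x / π ^ j) - x / π ^ j = (σ x - x) / π ^ j := by
    rw [map_div₀, map_pow, hπfix σ]
    ring
  have key' : A.valuation (ζ - 1) ≤ A.valuation (σ (x / π ^ j) - x / π ^ j) := by
    rw [hσr, map_div₀, le_div_iff₀ hvπj, ← hj]
    exact key
  obtain ⟨h0, hmem⟩ := div_mem_of_valuation_le hζ1 key'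
  refine ⟨x / π ^ j, ?_, ?_, h0, hmem⟩
  · rw [← A.valuation_le_one_iff, map_div₀, hj, div_self hvπj.ne']
  · intro τ hτ
    rw [map_div₀, map_pow, hπfix τ, (map_eq_of_smul_some_eq τ h hτ).1]

end Generic

end Fermat.Agent.MP
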