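/-
MP40 (S40) — helper4 — [ECPEU], `ℚ̄`-form: for `W/ℤ` with good reduction at the odd prime `p`, a place
`A` of `Ω = ℚ̄` over `p`, `σ` in the inertia group of `A` and a `p`-torsion point `P = (x, y)` of
`W(Ω)` with `x ∈ A` (`P` is not in the kernel of reduction) which is moved by `σ`:
`|ζ_p - 1| ≤ |σ x - x|`, i.e. `(ζ_p - 1) / (σ x - x) ∈ A`.  In words: a wild inertia element
acting non-trivially on `W[p]` has its ramification break at most that of `ℚ_p(ζ_p)`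
("peu ramifié").

Both the form over `ℤ` (`W⁄Ω`) and over `ℚ` (`(W.map (Int.castRingHom ℚ))⁄Ω`, the curve of the
frozen statement S40) are given.
-/
import Mathlib
import Fermat.Agent.MP.ECPEU_helper4_Galois
import Fermat.Agent.S58.E2_helper2_Inertia

set_option autoImplicit false
set_option linter.unusedSectionVars false

namespace Fermat.Agent.MP

open WeierstrassCurve WeierstrassCurve.Affine IsLocalRing Fermat.Agent.Tate Fermat.Agent.EC
  Fermat.Agent.S58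
open scoped WeierstrassCurve.Affine

/-- `Ω = AlgebraicClosure ℚ`. -/
local notation "Ω" => AlgebraicClosure ℚ

variable (W : WeierstrassCurve ℤ) {p : ℕ} (hp : p.Prime) (hodd : p ≠ 2)
  (hgood : W.IsGoodPrimeFor p) (A : ValuationSubring Ω) (hA : A.LiesOverPrime p)

include hp hgood hA in
theorem ecpeu_goodRed_int : IsIntegralCurve A (W⁄Ω) ∧ (W⁄Ω).Δ ∉ A.nonunits := by
  classical
  have hpA : ((p : ℕ) : Ω) ∈ A.nonunits := hA
  have hΔ : ((W.Δ : ℤ) : Ω) ∉ A.nonunits := intCast_notMem_nonunits A hp hpA hgood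
  have hg := e2GoodRed_int A W hΔ
  exact ⟨hg.isIntegralCurve, hg.Δ_notMem⟩

include hp hgood hA in
theorem ecpeu_goodRed_intRat : IsIntegralCurve A ((W.map (Int.castRingHom ℚ))⁄Ω) ∧
    ((W.map (Int.castRingHom ℚ))⁄Ω).Δ ∉ A.nonunits := by
  classical
  have hpA : ((p : ℕ) : Ω) ∈ A.nonunits := hA
  have hΔ : ((W.Δ : ℤ) : Ω) ∉ A.nonunits := intCast_notMem_nonunits A hp hpA hgood
  have hg := e2GoodRed_intRat A W hΔ
  exact ⟨hg.isIntegralCurve, hg.Δ_notMem⟩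

include hp hodd hgood hA in
/-- **[ECPEU]**, curve over `ℤ`. -/
theorem ecpeu_int {σ : Ω ≃ₐ[ℚ] Ω} (hσ : σ ∈ A.inertiaSubgroupIn ℚ) {x y : Ω}
    (h : (W⁄Ω).Nonsingular x y) (hx : x ∈ A) (ht : p • Point.some x y h = 0)
    (hne : σ • Point.some x y h ≠ Point.some x y h) {ζ : Ω} (hζ : IsPrimitiveRoot ζ p) :
    A.valuation (ζ - 1) ≤ A.valuation (σ x - x) := by
  obtain ⟨hW, hΔ⟩ := ecpeu_goodRed_int W hp hgood A hA
  exact valuation_zeta_sub_one_le_inertia_sub hW hΔ hp hodd hA hσ h hx ht hne hζ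

include hp hodd hgood hA in
/-- **[ECPEU]**, curve over `ℚ` (the curve of the frozen statement S40). -/
theorem ecpeu_intRat {σ : Ω ≃ₐ[ℚ] Ω} (hσ : σ ∈ A.inertiaSubgroupIn ℚ) {x y : Ω}
    (h : ((W.map (Int.castRingHom ℚ))⁄Ω).Nonsingular x y) (hx : x ∈ A)
    (ht : p • Point.some x y h = 0) (hne : σ • Point.some x y h ≠ Point.some x y h) {ζ : Ω}
    (hζ : IsPrimitiveRoot ζ p) : A.valuation (ζ - 1) ≤ A.valuation (σ x - x) := by
  obtain ⟨hW, hΔ⟩ := ecpeu_goodRed_intRat W hp hgood A hA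
  exact valuation_zeta_sub_one_le_inertia_sub hW hΔ hp hodd hA hσ h hx ht hne hζ

include hp hodd hgood hA in
/-- **[ECPEU]**, quotient form: `(ζ_p - 1) / (σ x - x) ∈ A`. -/
theorem ecpeu_intRat_div_mem {σ : Ω ≃ₐ[ℚ] Ω} (hσ : σ ∈ A.inertiaSubgroupIn ℚ) {x y : Ω}
    (h : ((W.map (Int.castRingHom ℚ))⁄Ω).Nonsingular x y) (hx : x ∈ A)
    (ht : p • Point.some x y h = 0) (hne : σ • Point.some x y h ≠ Point.some x y h) {ζ : Ω}
    (hζ : IsPrimitiveRoot ζ p) : σ x - x ≠ 0 ∧ (ζ - 1) / (σ x - x) ∈ A := by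
  have key := ecpeu_intRat W hp hodd hgood A hA hσ h hx ht hne hζ
  have hζ1 : ζ - 1 ≠ 0 := sub_ne_zero.mpr (hζ.ne_one hp.one_lt)
  have h0 : σ x - x ≠ 0 := by
    intro h0
    rw [h0, map_zero, le_zero_iff, map_eq_zero] at key
    exact hζ1 key
  refine ⟨h0, ?_⟩
  rw [← A.valuation_le_one_iff, map_div₀]
  exact (div_le_one₀ (zero_lt_iff.mpr ((A.valuation.ne_zero_iff).mpr h0))).mpr key

end Fermat.Agent.MP
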