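/-
MP40 (S44/S40) — helper4 — [ECPEU-MULT], part 5: **(peu) for the Frey curve at `p`, and for
curves over `ℤ` with good reduction at `p`** — for EVERY `p`-torsion point.

`Ω = ℚ̄`, `A` a place of `Ω` over `p`, `σ` in the inertia group of `A`, `Q` a `p`-torsion point moved
by `σ`, `ζ` a primitive `p`-th root of unity.  Then there is `r ∈ A`, fixed by the stabiliser of `Q`
in `Gal(ℚ̄/ℚ)`, with `σ r ≠ r` and `(ζ - 1) / (σ r - r) ∈ A`:

* `ecpeu_frey` : the Frey curve of a `FreyPackage` `P`, `p = P.p` (multiplicative reduction if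
  `p ∣ abc`, good reduction otherwise);
* `ecpeu_good_all` : `W/ℤ` with good reduction at the odd prime `p`
  (curve `(W.map (Int.castRingHom ℚ))⁄Ω`).
-/
import Mathlib
import Fermat.Agent.MP.ECPEUM_helper4_All
import Fermat.Agent.MP.ECPEU_helper4_Qbar
import Fermat.Agent.S13.Ip_helper8_Main

set_option autoImplicit false
set_option linter.unusedSectionVars false

namespace Fermat.Agent.MP

open WeierstrassCurve WeierstrassCurve.Affine WeierstrassCurve.Affine.Point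
open scoped WeierstrassCurve.Affine
open Fermat.Agent.Tate Fermat.Agent.EC

/-- the algebraic closure of `ℚ` -/
local notation "Kb" => AlgebraicClosure ℚ

section transport

variable {K : Type*} [Field K] [DecidableEq K] [Algebra ℚ K]
  {W₀ W₁ : Affine ℚ} (e : (W₁⁄K).Point ≃+ (W₀⁄K).Point)
  (he : ∀ (σ : K ≃ₐ[ℚ] K) (Q : (W₁⁄K).Point), σ • e Q = e (σ • Q))

include he in
/-- transport of (peu) along a Galois-equivariant isomorphism of point groups -/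
theorem transport_peu {A : ValuationSubring K} {p : ℕ} (σ : K ≃ₐ[ℚ] K) {ζ : K}
    (hpeu : ∀ Q₁ : (W₁⁄K).Point, p • Q₁ = 0 → σ • Q₁ ≠ Q₁ →
      ∃ r : K, r ∈ A ∧ (∀ τ : K ≃ₐ[ℚ] K, τ • Q₁ = Q₁ → τ r = r) ∧
        σ r - r ≠ 0 ∧ (ζ - 1) / (σ r - r) ∈ A)
    (Q : (W₀⁄K).Point) (hQ : p • Q = 0) (hne : σ • Q ≠ Q) :
    ∃ r : K, r ∈ A ∧ (∀ τ : K ≃ₐ[ℚ] K, τ • Q = Q → τ r = r) ∧
      σ r - r ≠ 0 ∧ (ζ - 1) / (σ r - r) ∈ A := by
  have hes : ∀ (τ : K ≃ₐ[ℚ] K) (Q : (W₀⁄K).Point), τ • e.symm Q = e.symm (τ • Q) := by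
    intro τ Q
    apply e.injective
    rw [← he, e.apply_symm_apply, e.apply_symm_apply]
  obtain ⟨r, hr, hfix, h0, hmem⟩ := hpeu (e.symm Q)
    (by rw [← map_nsmul, hQ, _root_.map_zero])
    (by
      rw [hes]
      exact fun h => hne (e.symm.injective h))
  refine ⟨r, hr, ?_, h0, hmem⟩
  intro τ hτ
  apply hfix
  rw [hes, hτ]

end transport

section frey

variable (P : FreyPackage)

/-- **(peu) for every `p`-torsion point of the Frey curve**, at a place over `p = P.p`. -/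
theorem ecpeu_frey (A : ValuationSubring Kb) (hA : A.LiesOverPrime P.p)
    {σ : Kb ≃ₐ[ℚ] Kb} (hσ : σ ∈ A.inertiaSubgroupIn ℚ)
    (Q : ((P.freyCurve : Affine ℚ)⁄Kb).Point) (hQ : P.p • Q = 0) (hne : σ • Q ≠ Q)
    {ζ : Kb} (hζ : IsPrimitiveRoot ζ P.p) :
    ∃ r : Kb, r ∈ A ∧ (∀ τ : Kb ≃ₐ[ℚ] Kb, τ • Q = Q → τ r = r) ∧
      σ r - r ≠ 0 ∧ (ζ - 1) / (σ r - r) ∈ A := by
  have hp := P.pp
  have hp2 : P.p ≠ 2 := by have := P.hp5; omega
  have hqA' : (P.p : Kb) ∈ A.nonunits := hA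
  have hpK : (P.p : Kb) ≠ 0 := Nat.cast_ne_zero.mpr hp.ne_zero
  obtain ⟨L, hL⟩ := exists_logVal A hp hqA'
  have hin : ∀ a ∈ A, σ a ∈ A ∧ σ a - a ∈ A.nonunits :=
    fun a ha => inertia_map_mem_and_sub_mem hσ ha
  by_cases hbad : (P.p : ℤ) ∣ P.a * P.b * P.c
  · -- multiplicative reduction: nodal model
    obtain ⟨C₀, c, d, k, hC₀, hcA, hcu, hk, d', hd'A, hd'u, hd⟩ :=
      exists_nodal_model A hp hp2 hqA' P hbad
    obtain ⟨α, hα⟩ := IsAlgClosed.exists_pow_nat_eq (algebraMap ℚ Kb c) (by norm_num : 0 < 2)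
    have h2u : (2 : Kb) ∉ A.nonunits := by
      have := natCast_notMem_nonunits A hp hqA' (n := 2)
        (fun h => hp2 ((Nat.prime_dvd_prime_iff_eq hp Nat.prime_two).mp h))
      exact_mod_cast this
    have h1 : ((C₀ • P.freyCurve).toAffine⁄Kb).a₁ = 0 := by rw [hC₀]; simp
    have h2 : ((C₀ • P.freyCurve).toAffine⁄Kb).a₂ = algebraMap ℚ Kb c := by rw [hC₀]; simp
    have h3 : ((C₀ • P.freyCurve).toAffine⁄Kb).a₃ = 0 := by rw [hC₀]; simp
    have h4 : ((C₀ • P.freyCurve).toAffine⁄Kb).a₄ = -(algebraMap ℚ Kb d) ^ 2 := by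
      rw [hC₀]; simp
    have h6 : ((C₀ • P.freyCurve).toAffine⁄Kb).a₆ =
        -(algebraMap ℚ Kb d) ^ 2 * algebraMap ℚ Kb c := by rw [hC₀]; simp
    have hdA : algebraMap ℚ Kb d ∈ A := by
      have hqm : (P.p : Kb) ∈ A := A.nonunits_le hqA'
      rw [hd]; exact mul_mem (pow_mem hqm _) hd'A
    have hW : IsIntegralCurve A ((C₀ • P.freyCurve).toAffine⁄Kb) :=
      { a₁ := by rw [h1]; exact A.zero_mem
        a₂ := by rw [h2]; exact hcA
        a₃ := by rw [h3]; exact A.zero_mem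
        a₄ := by rw [h4]; exact neg_mem (pow_mem hdA 2)
        a₆ := by rw [h6]; exact mul_mem (neg_mem (pow_mem hdA 2)) hcA }
    refine transport_peu (vcPtBaseChange P.freyCurve C₀ Kb)
      (fun τ Q => smul_vcPtBaseChange P.freyCurve C₀ τ Q) σ ?_ Q hQ hne
    intro Q₁ hQ₁ hne₁
    exact peu_of_nodal_form hW hp hp2 hqA' σ hin L hpK hL (fun τ => map_natCast τ _) hα h1 h2 h3
      h4 h6 hcA hcu two_ne_zero h2u hk hd'A hd'u hd Q₁ hQ₁ hne₁ hζ
  · -- good reduction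
    have hW : IsIntegralCurve A ((P.freyCurve : Affine ℚ)⁄Kb) :=
      { a₁ := freyCurve_a₁_mem P A
        a₂ := freyCurve_a₂_mem P A hp hp2 hqA'
        a₃ := freyCurve_a₃_mem P A
        a₄ := freyCurve_a₄_mem P A hp hp2 hqA'
        a₆ := freyCurve_a₆_mem P A }
    exact peu_of_good hW hp hp2 hqA' σ hin
      (freyCurve_Δ_notMem_nonunits P A hp hp2 hqA' hbad) Q hQ hne hζ

end frey

section good

variable (W : WeierstrassCurve ℤ) {p : ℕ} (hp : p.Prime) (hodd : p ≠ 2)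
  (hgood : W.IsGoodPrimeFor p) (A : ValuationSubring Kb) (hA : A.LiesOverPrime p)

include hp hodd hgood hA in
/-- **(peu) for every `p`-torsion point, `W/ℤ` with good reduction at `p`** (the curve of the
frozen statement S40). -/
theorem ecpeu_good_all {σ : Kb ≃ₐ[ℚ] Kb} (hσ : σ ∈ A.inertiaSubgroupIn ℚ)
    (Q : ((W.map (Int.castRingHom ℚ))⁄Kb).Point) (hQ : p • Q = 0) (hne : σ • Q ≠ Q)
    {ζ : Kb} (hζ : IsPrimitiveRoot ζ p) :
    ∃ r : Kb, r ∈ A ∧ (∀ τ : Kb ≃ₐ[ℚ] Kb, τ • Q = Q → τ r = r) ∧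
      σ r - r ≠ 0 ∧ (ζ - 1) / (σ r - r) ∈ A := by
  obtain ⟨hW, hΔ⟩ := ecpeu_goodRed_intRat W hp hgood A hA
  have hin : ∀ a ∈ A, σ a ∈ A ∧ σ a - a ∈ A.nonunits :=
    fun a ha => inertia_map_mem_and_sub_mem hσ ha
  exact peu_of_good hW hp hodd hA σ hin hΔ Q hQ hne hζ

end good

end Fermat.Agent.MP
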