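/-
MP40 (A) [DELTA] — helper4 — **`legDeltaLit : LegDeltaLit`**: the `δ`-argument on the Legendre hosts
of a base `K'` (helper2's literal, consumed by `legPeuDeepP_of_lit` and `legPeuOrdP_of`).

Specialisation of `legDelta_of_models` to `R' = baseRing A K'`: the models of levels `M p` and
`(M ℓ) p` (helper1's `ssModelLeg` + `geoHyps_legE_baseRing`), the degrees `ℓ + 1` (helper2's
`finrank_legHostA_base`) and the residually independent family (helper8's
`exists_resIndep_legWinf_base`).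
-/
import Mathlib
import Fermat.Agent.MP.HECKERS0_helper4_Delta
import Fermat.Agent.MP.KPDEEP_helper2_Main
import Fermat.Agent.MP.REDINF_helper8_ResIndep

set_option autoImplicit false
set_option linter.unusedSectionVars false
set_option linter.unusedVariables false
set_option linter.style.haveILetI false
set_option synthInstance.maxHeartbeats 400000

open HahnSeries IntermediateField AlgebraicCurve ModularCurve IsLocalRing

namespace Fermat.Agent.MP

open Fermat.Agent.JA Fermat.Agent.FF Fermat.Agent.SS Fermat.Agent.S35 Fermat.Agent.Igusa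
  Fermat.Agent.NP

open scoped Fermat.Agent.JA.Host

/-- `Ω = AlgebraicClosure ℚ`. -/
local notation "Ω" => AlgebraicClosure ℚ

set_option maxHeartbeats 3200000 in
/-- **[DELTA], literal form.** -/
theorem legDeltaLit : LegDeltaLit := by
  intro M _ p _ _ _ hp hp2 hpM A hA K' _ hK' ϖ hϖ h2 x y hbez ℓ _ _ hℓ hℓ2 hℓMp a hna f hf hrel
    ainf a0 hfinf hf0
  classical
  haveI : CharZero ↥(baseRing A K') := charZero_valuationSubring_of_algebraRat _
  letI := baseToComplex K'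
  haveI : IsAlgClosed (ResidueField ↥(baseRing A K')) := hK'.isAlgClosed_residueField hA
  have hℓM : ¬ ℓ ∣ M := fun h => hℓMp (Dvd.dvd.mul_right h p)
  have hℓp : ¬ ℓ ∣ p := fun h => hℓMp (Dvd.dvd.mul_left h M)
  have hpℓ : ¬ p ∣ ℓ := by
    intro h
    rcases (Nat.dvd_prime hℓ).mp h with h1 | h1
    · exact hp.one_lt.ne' h1
    · exact hℓp (h1 ▸ dvd_rfl)
  have hpMℓ : ¬ p ∣ M * ℓ := by
    intro h
    rcases hp.dvd_mul.mp h with h1 | h1
    · exact hpM h1
    · exact hpℓ h1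
  haveI : NeZero (M * ℓ) := ⟨Nat.mul_ne_zero (NeZero.ne M) hℓ.ne_zero⟩
  haveI : NeZero (M * ℓ * p) := ⟨Nat.mul_ne_zero (NeZero.ne (M * ℓ)) hp.ne_zero⟩
  obtain ⟨x₂, y₂, hbez₂⟩ := exists_bezout_of_prime_of_not_dvd hp hpMℓ
  have hpϖ := natCast_mem_span_uniformizer_baseRing hA K' hϖ
  have h₁ : SSModelLeg ↥(baseRing A K') ↥K' (M := M) (q := p) ϖ h2 hbez hp hp2 :=
    ssModelLeg ↥(baseRing A K') ↥K' hϖ h2 hbez hp hp2 hpϖ
      (geoHyps_legE_baseRing hA M hpM hK' hp2 hϖ)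
  have h₂ : SSModelLeg ↥(baseRing A K') ↥K' (M := M * ℓ) (q := p) ϖ h2 hbez₂ hp hp2 :=
    ssModelLeg ↥(baseRing A K') ↥K' hϖ h2 hbez₂ hp hp2 hpϖ
      (geoHyps_legE_baseRing hA (M * ℓ) hpMℓ hK' hp2 hϖ)
  have hdeg₀ := finrank_legHostA_base M ℓ hℓ hℓ2 hℓM K'
  have hdeg := finrank_legHostA_base (M * p) ℓ hℓ hℓ2 hℓMp K'
  obtain ⟨c, hc⟩ := exists_resIndep_legWinf_base hA M hp2 ℓ K' h2 hK' hℓ hℓ2 hℓM hpMℓ
  exact legDelta_of_models ↥(baseRing A K') ↥K' h₁ h₂ hϖ hℓ hℓ2 hdeg₀ hdeg c hc hna hf hrel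
    hfinf hf0

end Fermat.Agent.MP
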