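import Mathlib
import Fermat.Agent.MP.ORD_helper1_Main
import Fermat.Agent.MP.ORD_helper1_Rat
import Fermat.Agent.MP.ORD_helper1_RedHecke
import Fermat.Agent.MP.REDINF_helper8_RhoBaseP
import Fermat.Agent.MP.HECKERS0_helper4_DeltaLit
import Fermat.Agent.NP.NEWBASE_helper5_NormB

/-!
# Project MP40 — (C) [ORD] helper1: `legPeuOrdP : LegPeuOrdP 5`

The assembly of (C) [ORD] from its five host inputs, all proved: `legNormBCompat` (helper5),
`legDeltaLit` (helper4), `legRedHeckeP` (`MP/ORD_helper1_RedHecke`), `legRhoBaseP` (helper8),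
`legEtRationalP` (`MP/ORD_helper1_Rat`).
-/

set_option autoImplicit false

namespace Fermat.Agent.MP

open Fermat.Agent.NP

/-- **(C) [ORD].** -/
theorem legPeuOrdP : LegPeuOrdP 5 :=
  legPeuOrdP_of legNormBCompat legDeltaLit legRedHeckeP legRhoBaseP legEtRationalP

end Fermat.Agent.MP
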