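/-
MP40 (row 38: S44) — helper4 — **[IFACE3]: the contract for (KEY-PEU), third revision** (helper7's
message 1766 (3), lead's decision 1769 (2)): the Legendre hosts carry no Hecke operator `T_2`, so
the non-Eisenstein prime (the only one used on the hosts) must be odd.

* `KeyPeuAt₃`, `KeyPeu₃`, `KeyPeuFrom₃` : `KeyPeuAt₂` etc. with `ℓ ≠ 2` in the non-Eisenstein
  hypothesis.
-/
import Mathlib
import Fermat.Agent.MP.IFACE2_helper4_Defs

set_option autoImplicit false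
set_option linter.unusedSectionVars false
set_option linter.unusedVariables false

open AlgebraicCurve ModularCurve

namespace Fermat.Agent.MP

open Fermat.Agent.S35 Fermat.Agent.NP

/-- `Ω = AlgebraicClosure ℚ`. -/
local notation "Ω" => AlgebraicClosure ℚ

/-- the absolute Galois group. -/
local notation "GQ" => (AlgebraicClosure ℚ ≃ₐ[ℚ] AlgebraicClosure ℚ)

/-- **(KEY-PEU), third revision**, at one place `A ∣ p`: the non-Eisenstein prime is odd. -/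
def KeyPeuAt₃ (M' p : ℕ) [NeZero M'] [NeZero p] [NeZero (M' * p)] (A : ValuationSubring Ω) :
    Prop :=
  ∀ (S : Set ℕ) (a : ℕ → ℤ), (∀ ℓ : ℕ, ℓ.Prime → ℓ ∣ M' * p → ℓ ∈ S) →
    (∃ ℓ : ℕ, ℓ.Prime ∧ ℓ ∉ S ∧ ℓ ≠ 2 ∧ ¬ (a ℓ ≡ (ℓ : ℤ) + 1 [ZMOD (p : ℤ)])) →
    ∀ x : JZero (M' * p), p • x = 0 → degPushAlpha M' p x = 0 → degPushBeta M' p x = 0 →
      (∀ (ℓ : ℕ) (hℓ : ℓ.Prime), ℓ ∉ S → heckeOperatorBar (M' * p) ⟨ℓ, hℓ⟩ x = a ℓ • x) →
      PeuAt M' p A x → InertiaLineAt M' p A x →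
      (∀ σ ∈ A.inertiaSubgroupIn ℚ, ∀ c : ℕ, CycAct p σ c → σ • x = c • x) ∨
        ResOccurs M' p S a

/-- **(KEY-PEU), third revision**, at all places above `p`. -/
def KeyPeu₃ (M' p : ℕ) [NeZero M'] [NeZero p] [NeZero (M' * p)] : Prop :=
  ∀ A : ValuationSubring Ω, A.LiesOverPrime p → KeyPeuAt₃ M' p A

/-- **the geometric input of MP40, third revision, all levels, all primes `p ≥ p₀`**. -/
def KeyPeuFrom₃ (p₀ : ℕ) : Prop :=
  ∀ (M' p : ℕ) [NeZero M'] [NeZero p] [NeZero (M' * p)], p.Prime → p₀ ≤ p → ¬ p ∣ M' →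
    KeyPeu₃ M' p

theorem KeyPeuFrom₃.mono {p₀ p₁ : ℕ} (h : KeyPeuFrom₃ p₀) (h01 : p₀ ≤ p₁) : KeyPeuFrom₃ p₁ :=
  fun M' p _ _ _ hp hp1 hpM => h M' p hp (h01.trans hp1) hpM

/-- the second revision implies the third. -/
theorem KeyPeuAt₂.toKeyPeuAt₃ {M' p : ℕ} [NeZero M'] [NeZero p] [NeZero (M' * p)]
    {A : ValuationSubring Ω} (h : KeyPeuAt₂ M' p A) : KeyPeuAt₃ M' p A :=
  fun S a hS hnE x hpx hα hβ hT hpeu hl =>
    h S a hS (by obtain ⟨ℓ, h1, h2, -, h3⟩ := hnE; exact ⟨ℓ, h1, h2, h3⟩) x hpx hα hβ hT hpeu hl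

end Fermat.Agent.MP
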