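/-
MP40 (row 38: S44) — helper4 — **[KEYPEU-DESC], part 5: from the base package to the hypothesis
package `LegPeuHyp` of [KEYPEU-BASE]** (lead's literals, `MP/KPBASE_lead_Defs`).

* `eq_one_of_zeta_sub_one_eq_of_cycFixed` : if every element of the inertia group fixing `ζ_p` fixes
  `K'` pointwise, then `ζ_p - 1` is a uniformizer of `R' = A ∩ K'`;
* `PeuPackage.exists_legPeuHyp` : the package gives `LegPeuHyp p M A K₁ K' ζ s S a F'` with `s = 1`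
  in the case (U₀) and `s` the restriction of a wild element in the case (R).
-/
import Mathlib
import Fermat.Agent.MP.DESC_helper4_Pack
import Fermat.Agent.MP.KPBASE_lead_Defs
import Fermat.Agent.MP.IFACE3_helper4_Defs

set_option autoImplicit false
set_option linter.unusedSectionVars false
set_option linter.unusedVariables false
set_option linter.style.haveILetI false
set_option synthInstance.maxHeartbeats 400000

open HahnSeries IntermediateField AlgebraicCurve ModularCurve IsLocalRing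

namespace Fermat.Agent.MP

open Fermat.Agent.JA Fermat.Agent.FF Fermat.Agent.SS Fermat.Agent.X0N Fermat.Agent.S35
  Fermat.Agent.S36 Fermat.Agent.NP

/-- `Ω = AlgebraicClosure ℚ`. -/
local notation "Ω" => AlgebraicClosure ℚ

/-- the absolute Galois group. -/
local notation "GQ" => (AlgebraicClosure ℚ ≃ₐ[ℚ] AlgebraicClosure ℚ)

section Tame

variable {p : ℕ} [Fact p.Prime] {A : ValuationSubring Ω}

/-- **the wild index is `1` in the case (U₀)**: if every element of the inertia group fixing `ζ_p`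
fixes `K'` pointwise and `ζ - 1 = u ϖ ^ m`, then `m = 1`. -/
theorem eq_one_of_zeta_sub_one_eq_of_cycFixed (hp : p.Prime) (hA : A.LiesOverPrime p) {ζ : Ω}
    (hζ : IsPrimitiveRoot ζ p) (K' : IntermediateField ℚ Ω)
    (hfix : ∀ τ ∈ A.inertiaSubgroupIn ℚ, τ ζ = ζ → ∀ z ∈ K', τ z = z)
    (ζR : ↥(baseRing A K')) (hζR : ((ζR : ↥K') : Ω) = ζ)
    {ϖ : ↥(baseRing A K')} (hϖ : Irreducible ϖ) {m : ℕ} {u : (↥(baseRing A K'))ˣ}
    (hu : ζR - 1 = u * ϖ ^ m) : m = 1 := by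
  have hζ1 : ζ - 1 ≠ 0 := sub_ne_zero.2 (hζ.ne_one hp.one_lt)
  have hcoe : ((((ζR - 1 : ↥(baseRing A K')) : ↥K')) : Ω) = ζ - 1 := by
    rw [← hζR]
    rfl
  set c := A.valuation (((ϖ : ↥K') : Ω)) with hc
  have hϖ0 : (((ϖ : ↥K') : Ω)) ≠ 0 := by
    intro h
    apply hϖ.ne_zero
    apply Subtype.ext
    apply Subtype.ext
    exact h
  have hc0 : c ≠ 0 := (Valuation.ne_zero_iff _).2 hϖ0
  have hcpos : 0 < c := zero_lt_iff.2 hc0
  have hc1 : c < 1 := by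
    rw [hc, ← mem_maximalIdeal_baseRing_iff]
    exact (IsLocalRing.mem_maximalIdeal _).2 hϖ.not_isUnit
  have hvu : A.valuation ((((u : ↥(baseRing A K')) : ↥K')) : Ω) = 1 :=
    (isUnit_baseRing_iff _).1 u.isUnit
  have hvζ : A.valuation (ζ - 1) = c ^ m := by
    rw [← hcoe, hu]
    show A.valuation (((((u : ↥(baseRing A K')) : ↥K')) : Ω) * (((ϖ : ↥K') : Ω)) ^ m) = _
    rw [map_mul, map_pow, hvu, one_mul]
  obtain ⟨j, hj⟩ := exists_zpow_valuation_eq_of_cycFixed hp hA hζ _ hϖ0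
    (fun τ hτ hτζ => hfix τ hτ hτζ _ (ϖ : ↥K').2)
  have hinj : Function.Injective (fun k : ℤ => c ^ k) :=
    zpow_right_injective₀ hcpos (ne_of_lt hc1)
  have hnm : (1 : ℤ) = (m : ℤ) * j := by
    apply hinj
    show c ^ (1 : ℤ) = c ^ ((m : ℤ) * j)
    rw [zpow_one, zpow_mul, zpow_natCast, ← hvζ, ← hj]
  have h1 : (m : ℤ) ∣ 1 := ⟨j, hnm⟩
  have h2 : m ∣ 1 := Int.natCast_dvd_natCast.1 (by rw [Nat.cast_one]; exact h1)
  exact Nat.dvd_one.1 h2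

end Tame

section Hyp

variable {M p : ℕ} [NeZero M] [NeZero p] [NeZero (M * p)] {A : ValuationSubring Ω}
  {x : JZero (M * p)}

set_option maxHeartbeats 1600000 in
/-- **the hypothesis package of [KEYPEU-BASE] from the base package.** -/
theorem PeuPackage.exists_legPeuHyp (Pk : PeuPackage M p A x) (hp : p.Prime)
    (hA : A.LiesOverPrime p) (S : Set ℕ) (a : ℕ → ℤ)
    (hS : ∀ ℓ : ℕ, ℓ.Prime → ℓ ∣ M * p → ℓ ∈ S)
    (hnE : ∃ ℓ : ℕ, ℓ.Prime ∧ ℓ ∉ S ∧ ℓ ≠ 2 ∧ ¬ (a ℓ ≡ (ℓ : ℤ) + 1 [ZMOD (p : ℤ)]))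
    (hα : degPushAlpha M p x = 0) (hβ : degPushBeta M p x = 0)
    (hT : ∀ (ℓ : ℕ) (hℓ : ℓ.Prime), ℓ ∉ S → heckeOperatorBar (M * p) ⟨ℓ, hℓ⟩ x = a ℓ • x) :
    haveI := Pk.hK₁.normal
    ∃ s : ↥Pk.K' ≃ₐ[ℚ] ↥Pk.K', LegPeuHyp p M A Pk.K₁ Pk.K' Pk.ζR s S a Pk.F' := by
  haveI : Fact p.Prime := ⟨hp⟩
  haveI := Pk.hK₁.normal
  have hα' : degPushAlpha M p (Pic0.mk Pk.D : JZero (M * p)) = 0 := by rw [Pk.hDx]; exact hα
  have hβ' : degPushBeta M p (Pic0.mk Pk.D : JZero (M * p)) = 0 := by rw [Pk.hDx]; exact hβ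
  have hT' : ∀ (ℓ : ℕ) (hℓ : ℓ.Prime), ℓ ∉ S →
      heckeOperatorBar (M * p) ⟨ℓ, hℓ⟩ (Pic0.mk Pk.D : JZero (M * p)) =
        a ℓ • (Pic0.mk Pk.D : JZero (M * p)) := by
    intro ℓ hℓ hℓS
    rw [Pk.hDx]
    exact hT ℓ hℓ hℓS
  -- the part independent of `s`
  have key : ∀ s : ↥Pk.K' ≃ₐ[ℚ] ↥Pk.K',
      (∀ r : ↥(baseRing A Pk.K'), ∃ r' : ↥(baseRing A Pk.K'),
        s (r : ↥Pk.K') = (r' : ↥Pk.K') ∧ r' - r ∈ maximalIdeal ↥(baseRing A Pk.K')) →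
      s ((Pk.ζR : ↥(baseRing A Pk.K')) : ↥Pk.K') = ((Pk.ζR : ↥(baseRing A Pk.K')) : ↥Pk.K') →
      s ^ p = 1 →
      (s = 1 ∨ ∃ r d : ↥(baseRing A Pk.K'), s (r : ↥Pk.K') ≠ (r : ↥Pk.K') ∧
        ((Pk.ζR : ↥(baseRing A Pk.K')) : ↥Pk.K') - 1 =
          (s (r : ↥Pk.K') - (r : ↥Pk.K')) * (d : ↥Pk.K')) →
      (∀ ϖ : ↥(baseRing A Pk.K'), Irreducible ϖ →
        ∃ (m : ℕ) (u : (↥(baseRing A Pk.K'))ˣ), 0 < m ∧ m ≤ p ∧ (s = 1 → m = 1) ∧
          Pk.ζR - 1 = u * ϖ ^ m) →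
      LegPeuHyp p M A Pk.K₁ Pk.K' Pk.ζR s S a Pk.F' := by
    intro s h1 h2 h3 h4 h5
    exact {
      galBase := Pk.hK₁
      base := Pk.hK'
      le := Pk.hle
      h1 := Pk.h1
      zeta := Pk.isPrimitiveRoot_ζR
      s_inertia := h1
      s_zeta := h2
      s_pow := h3
      peu := h4
      wild := h5
      bad := hS
      nonEis := hnE
      ne_zero := Pk.F'_ne_zero
      monic := leadingCoeff_eq_one_of_bc M p Pk.K' Pk.F' Pk.hF' Pk.hlc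
      ord := dvd_ord_fullToLegE_of_bc M p Pk.K' Pk.F' Pk.hF' Pk.D Pk.hfD
      rat := ⟨Pk.F₁, by rw [Pk.hF₁, Pk.hF'], Pk.hrat⟩
      normA := exists_normA_of_bc M p Pk.K' Pk.F' Pk.hF' hp Pk.D Pk.hf Pk.hfD hα'
      normB := exists_normB_of_bc M p Pk.K' Pk.F' Pk.hF' hp Pk.D Pk.hf Pk.hfD hβ'
      hecke := heckeRelK_of_bc M p Pk.K' Pk.F' Pk.hF' hp S a Pk.D Pk.hf Pk.hfD hT' }
  rcases Pk.halt with hU | ⟨τ, hτ, hτζ, hsp, r, d, hne, heq⟩
  · -- (U₀): `s = 1`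
    refine ⟨1, key 1 (fun r => ⟨r, rfl, by rw [sub_self]; exact zero_mem _⟩) rfl (one_pow p)
      (Or.inl rfl) ?_⟩
    intro ϖ hϖ
    obtain ⟨m, u, hm0, hmp, hu⟩ := Pk.hwild ϖ hϖ
    refine ⟨m, u, hm0, hmp, fun _ => ?_, hu⟩
    exact eq_one_of_zeta_sub_one_eq_of_cycFixed hp hA Pk.hζ Pk.K'
      (fun τ hτ hτζ z hz => hU τ hτ (by rw [Pk.hζR]; exact hτζ) z hz) Pk.ζR Pk.hζR hϖ hu
  · -- (R): `s` the restriction of `τ`
    set s := resStable Pk.K' τ (Pk.hstab τ hτ) (Pk.hstab τ⁻¹ (inv_mem hτ)) with hs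
    refine ⟨s, key s (fun r => resStable_inertia_type Pk.K' hτ _ _ r) ?_ hsp
      (Or.inr ⟨r, d, hne, heq⟩) ?_⟩
    · apply Subtype.ext
      rw [hs, coe_resStable]
      exact hτζ
    · intro ϖ hϖ
      obtain ⟨m, u, hm0, hmp, hu⟩ := Pk.hwild ϖ hϖ
      refine ⟨m, u, hm0, hmp, fun h1 => ?_, hu⟩
      exfalso
      apply hne
      rw [h1]
      rfl

end Hyp

end Fermat.Agent.MP
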