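/-
MP40 (row 38: S44) — helper4 — **[KEYPEU-DESC], part 6: the final assembly**
`LegPeuInfP p₀ → LegPeuDeepP p₀ → KeyPeuFrom₃ p₀` (modulo the base change of the depth along
`W_∞` from the small base `K'` to the Galois base `K₁`, `LegWinfBCP`).

`x ∈ J₀(M p)[p]` with (peu) and the inertia line; the base package (`nonempty_peuPackage`); the
hypothesis package `LegPeuHyp` over `K' ≤ K₁` (`PeuPackage.exists_legPeuHyp`); (2a) gives depth
`≥ 1` along `W_∞(K')` or `ResOccurs`; base change to `W_∞(K₁)`; (2b) gives the Kummer form over `K₁`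
for the whole inertia group; back to `Ω` with `legBC`.
-/
import Mathlib
import Fermat.Agent.MP.DESC_helper4_Hyp

set_option autoImplicit false
set_option linter.unusedSectionVars false
set_option linter.unusedVariables false
set_option linter.style.haveILetI false
set_option synthInstance.maxHeartbeats 400000

open HahnSeries IntermediateField AlgebraicCurve ModularCurve IsLocalRing

namespace Fermat.Agent.MP

open Fermat.Agent.JA Fermat.Agent.FF Fermat.Agent.SS Fermat.Agent.X0N Fermat.Agent.S35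
  Fermat.Agent.S36 Fermat.Agent.NP

/-- `Ω = AlgebraicClosure ℚ`. -/
local notation "Ω" => AlgebraicClosure ℚ

/-- the absolute Galois group. -/
local notation "GQ" => (AlgebraicClosure ℚ ≃ₐ[ℚ] AlgebraicClosure ℚ)

/-- **base change of the depth along `W_∞`**: for bases `K' ≤ K₁` and functions `F'`, `F₁` over
`K'`, `K₁` with the same base change to `Ω`, depth `≥ 1` of `F'` along `W_∞(K')` gives depth `≥ 1`
of `F₁` along `W_∞(K₁)`. -/
def LegWinfBCP : Prop :=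
  ∀ (N : ℕ) [NeZero N] (p : ℕ) [Fact p.Prime] (A : ValuationSubring Ω), A.LiesOverPrime p →
  ∀ (K' K₁ : IntermediateField ℚ Ω) [IsDiscreteValuationRing ↥(baseRing A K')]
    [IsDiscreteValuationRing ↥(baseRing A K₁)], IsBase p K' → IsBase p K₁ → K' ≤ K₁ →
  ∀ (F' : ↥(keyFq ↥K' N)) (F₁ : ↥(keyFq ↥K₁ N)), keyFqBC N K₁ F₁ = keyFqBC N K' F' →
    (∃ (ϖ : ↥(baseRing A K')) (h2 : IsUnit (2 : ↥(baseRing A K'))) (c : ↥K'),
      Irreducible ϖ ∧ c ≠ 0 ∧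
      ValDepth ϖ p (legWinf ↥(baseRing A K') ↥K' h2 N) 1 (fullToLegE ↥K' N F') c) →
    ∃ (ϖ : ↥(baseRing A K₁)) (h2 : IsUnit (2 : ↥(baseRing A K₁))) (c : ↥K₁),
      Irreducible ϖ ∧ c ≠ 0 ∧
      ValDepth ϖ p (legWinf ↥(baseRing A K₁) ↥K₁ h2 N) 1 (fullToLegE ↥K₁ N F₁) c

section Final

variable (M p : ℕ) [NeZero M] [NeZero p] [NeZero (M * p)]

set_option maxHeartbeats 3200000 in
/-- **(KEY-PEU), third revision, at one place, from the base statements.** -/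
theorem keyPeuAt₃_of_base (p₀ : ℕ) (hI : LegPeuInfP p₀) (hD : LegPeuDeepP p₀) (hW : LegWinfBCP)
    (hp : p.Prime) (hp0 : p₀ ≤ p) (hp2 : p ≠ 2) (hpM : ¬ p ∣ M) (A : ValuationSubring Ω)
    (hA : A.LiesOverPrime p) : KeyPeuAt₃ M p A := by
  intro S a hS hnE x hpx hα hβ hT hpeu hline
  haveI : Fact p.Prime := ⟨hp⟩
  obtain ⟨Pk⟩ := nonempty_peuPackage M p hp A hA x hpx hpeu hline
  haveI := Pk.hK₁.normal
  obtain ⟨s, hH⟩ := Pk.exists_legPeuHyp hp hA S a hS hnE hα hβ hT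
  haveI : IsDiscreteValuationRing ↥(baseRing A Pk.K') := Pk.hK'.isDiscreteValuationRing hA
  haveI : IsDiscreteValuationRing ↥(baseRing A Pk.K₁) :=
    Pk.hK₁.isBase.isDiscreteValuationRing hA
  rcases hI M p hp2 hp0 hpM A hA Pk.K₁ Pk.K' Pk.ζR s S a Pk.F' hH with h1 | h2
  · left
    -- depth along `W_∞(K₁)`
    have hdepth := hW (M * p) p A hA Pk.K' Pk.K₁ Pk.hK' Pk.hK₁.isBase Pk.hle Pk.F' Pk.F₁
      (by rw [Pk.hF₁, Pk.hF']) h1
    -- the primitive root in `K₁`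
    have hζK' : Pk.ζ ∈ Pk.K' := by
      rw [← Pk.hζR]
      exact (Pk.ζR : ↥Pk.K').2
    have hζK : ∃ ζ₁ : ↥Pk.K₁, IsPrimitiveRoot ζ₁ p :=
      ⟨⟨Pk.ζ, Pk.hle hζK'⟩, IsPrimitiveRoot.of_map_of_injective (f := algebraMap ↥Pk.K₁ Ω) Pk.hζ
        (algebraMap ↥Pk.K₁ Ω).injective⟩
    have hα' : degPushAlpha M p (Pic0.mk Pk.D : JZero (M * p)) = 0 := by rw [Pk.hDx]; exact hα
    have hβ' : degPushBeta M p (Pic0.mk Pk.D : JZero (M * p)) = 0 := by rw [Pk.hDx]; exact hβ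
    have hT' : ∀ (ℓ : ℕ) (hℓ : ℓ.Prime), ℓ ∉ S →
        heckeOperatorBar (M * p) ⟨ℓ, hℓ⟩ (Pic0.mk Pk.D : JZero (M * p)) =
          a ℓ • (Pic0.mk Pk.D : JZero (M * p)) := by
      intro ℓ hℓ hℓS
      rw [Pk.hDx]
      exact hT ℓ hℓ hℓS
    intro σ hσ c hc
    obtain ⟨c', u, hc', hu⟩ := hD M p hp2 hp0 hpM A hA Pk.K₁ Pk.hK₁ hζK S a hS hnE Pk.F₁
      Pk.F₁_ne_zero Pk.hrat
      (exists_normA_of_bc M p Pk.K₁ Pk.F₁ Pk.hF₁ hp Pk.D Pk.hf Pk.hfD hα')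
      (exists_normB_of_bc M p Pk.K₁ Pk.F₁ Pk.hF₁ hp Pk.D Pk.hf Pk.hfD hβ')
      (heckeRelK_of_bc M p Pk.K₁ Pk.F₁ Pk.hF₁ hp S a Pk.D Pk.hf Pk.hfD hT') hdepth σ hσ c hc
    -- back to `Ω`
    have hfE : fullToLegE ↥Pk.K₁ (M * p) Pk.F₁ ≠ 0 := (map_ne_zero _).2 Pk.F₁_ne_zero
    have hu0 : u ≠ 0 := by
      rintro rfl
      rw [zero_pow hp.ne_zero, mul_zero] at hu
      have h2 : legGalois ↥Pk.K₁ (M * p) (resGal Pk.K₁ σ) •
          fullToLegE ↥Pk.K₁ (M * p) Pk.F₁ ≠ 0 := by simpa using hfE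
      exact div_ne_zero h2 (pow_ne_zero _ hfE) hu
    have h3 := congrArg (legBC (M * p) Pk.K₁) hu
    rw [map_div₀, legBC_legGalois_smul, map_pow, map_mul, map_pow, legBC_algebraMap,
      bcdeg_legBC_fullToLegE, Pk.hF₁] at h3
    have h4 := jzero_smul_eq_nsmul_of_leg_kummer (M * p) hp hp2 σ c Pk.D Pk.f Pk.hf Pk.hfD
      (algebraMap ↥Pk.K₁ Ω c') (legBC (M * p) Pk.K₁ u) ((map_ne_zero _).2 hc')
      ((map_ne_zero _).2 hu0) h3
    rwa [Pk.hDx] at h4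
  · exact Or.inr h2

end Final

/-- **[KEYPEU-DESC]: `LegPeuInfP p₀ → LegPeuDeepP p₀ → KeyPeuFrom₃ p₀`** (`p₀ ≥ 3`), modulo the
base change of the depth along `W_∞`. -/
theorem keyPeuFrom₃_of_base (p₀ : ℕ) (h3 : 3 ≤ p₀) (hI : LegPeuInfP p₀) (hD : LegPeuDeepP p₀)
    (hW : LegWinfBCP) : KeyPeuFrom₃ p₀ := by
  intro M p _ _ _ hp hp0 hpM A hA
  have hp2 : p ≠ 2 := by omega
  exact keyPeuAt₃_of_base M p p₀ hI hD hW hp hp0 hp2 hpM A hA

end Fermat.Agent.MP
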