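/-
MP40 (S44) — lead — [KEYPEU-BASE], the input `Rq4HostP` of `legPeuInfP_of`:
it is helper3's `RQ4Q.eigen_of_heckeFunK_base` up to the order of the arguments.
-/
import Mathlib
import Fermat.Agent.MP.KPBASE_lead_Inf
import Fermat.Agent.MP.RQ4Q_helper3_Hecke

set_option autoImplicit false
set_option linter.unusedSectionVars false
set_option linter.unusedVariables false
set_option linter.style.haveILetI false
set_option synthInstance.maxHeartbeats 400000

open HahnSeries IntermediateField AlgebraicCurve ModularCurve IsLocalRing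

namespace Fermat.Agent.MP

open Fermat.Agent.JA Fermat.Agent.FF Fermat.Agent.SS Fermat.Agent.S35 Fermat.Agent.NP
  Fermat.Agent.FG Fermat.Agent.Igusa Fermat.Agent.S36

/-- **[RQ4-HOST]**: the input `Rq4HostP` of `legPeuInfP_of` (helper3's
`RQ4Q.eigen_of_heckeFunK_base`). -/
theorem rq4HostP : Rq4HostP := by
  intro p _ A hA K' _ hK' N _ ℓ hℓ hℓp hℓN f₀ u c a hf₀ hu hc hrel d Y₁ hd hfY hY hY' n
  haveI : NeZero ℓ := ⟨hℓ.ne_zero⟩
  haveI : NeZero (N * ℓ) := ⟨Nat.mul_ne_zero (NeZero.ne N) hℓ.ne_zero⟩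
  exact RQ4Q.eigen_of_heckeFunK_base hℓ hℓN hA hℓp hK' f₀ u hu hc a hrel hd hY hY' hfY n

end Fermat.Agent.MP
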