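/-
MP40 (row 38: S44 / S40) — helper2 — **[KEYPEU-DESC]: `legWinfBCP : LegWinfBCP`** (helper4's open
input of `keyPeuFrom₃_of_base`): depth `≥ 1` along `W_∞` goes up from a base `K'` to a base
`K₁ ≥ K'` (`MP/KPDESC_helper2_SheetBC.exists_valDepth_legWinf_of_le`).
-/
import Mathlib
import Fermat.Agent.MP.DESC_helper4_Final
import Fermat.Agent.MP.KPDESC_helper2_SheetBC

set_option autoImplicit false
set_option linter.unusedSectionVars false
set_option linter.unusedVariables false
set_option linter.style.haveILetI false

namespace Fermat.Agent.MP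

/-- **base change of the depth along `W_∞`.** -/
theorem legWinfBCP : LegWinfBCP := by
  intro N _ p _ A hA K' K₁ _ _ hK' hK₁ hle F' F₁ hBC h
  exact exists_valDepth_legWinf_of_le A N hle F' F₁ hBC h

end Fermat.Agent.MP
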