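/-
MP40 (S44) — helper4 — **[TOP-L], the closer of S44, third revision of the interface**: the frozen
statement of S44 from lead's `TopGStatement` ([TOP-G]), NP33's `KeyNewStatement` ((KEY-NEW)) and the
(KEY-PEU) statement `KeyPeuFrom₃ 5` (`MP/IFACE3_helper4_Defs`: the non-Eisenstein prime is odd),
with (peu) supplied by [ECPEU-MULT] (`ecpeu_frey`).
-/
import Mathlib
import Fermat.Agent.MP.IFACE3_helper4_Defs
import Fermat.Agent.MP.TOPL2_helper4_Closers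

set_option autoImplicit false
set_option linter.unusedSectionVars false
set_option linter.unusedVariables false
set_option linter.style.haveILetI false

open AlgebraicCurve ModularCurve WeierstrassCurve WeierstrassCurve.Affine
open WeierstrassCurve.Affine.Point

open scoped WeierstrassCurve.Affine

namespace Fermat.Agent.MP

open Fermat.Agent.S35 Fermat.Agent.NP Fermat.Agent.GR Fermat.Agent.LR.NonEis

/-- `Ω = AlgebraicClosure ℚ`. -/
local notation "Ω" => AlgebraicClosure ℚ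

/-- the absolute Galois group. -/
local notation "GQ" => (AlgebraicClosure ℚ ≃ₐ[ℚ] AlgebraicClosure ℚ)

section Core

variable {M' p : ℕ} [NeZero M'] [NeZero p] [NeZero (M' * p)]

/-- **[TOP-L], the core, third revision of the interface** (an odd non-Eisenstein prime). -/
theorem resOccurs_of_newCopy₃ (hp : p.Prime) (hp2 : p ≠ 2) (hN : KeyNew M' p)
    (hK : KeyPeu₃ M' p)
    (E : WeierstrassCurve ℚ) [E.IsElliptic] {W : WeierstrassCurve ℤ}
    (hW : W.IsIntegralModelOf E) (hirr : GaloisRepIsIrreducible (K := Ω) ℚ E p)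
    (NC : NewCopy E W M' p)
    (hpeu : ∀ A : ValuationSubring Ω, A.LiesOverPrime p → ∀ σ ∈ A.inertiaSubgroupIn ℚ,
      ∀ Q : (E.toAffine⁄Ω).Point, p • Q = 0 → σ • Q ≠ Q → ∀ ζ : Ω, IsPrimitiveRoot ζ p →
        ∃ r : Ω, r ∈ A ∧ (∀ τ : GQ, τ • Q = Q → τ r = r) ∧ σ r - r ≠ 0 ∧
          (ζ - 1) / (σ r - r) ∈ A) :
    ResOccurs M' p (badSet W p (M' * p)) (fun ℓ => W.apOfModel ℓ) := by
  classical
  haveI : Fact p.Prime := ⟨hp⟩
  obtain ⟨A, hA'⟩ := Fermat.Agent.S54.exists_valuationSubring_liesOver (L := Ω) hp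
  have hA : A.LiesOverPrime p := hA'
  have hKA := hK A hA
  have hNA := hN A hA
  obtain ⟨ζ, hζ⟩ := Fermat.Agent.CFT.S14.exists_primitiveRoot_Qbar p
  -- a non-Eisenstein prime
  obtain ⟨ℓ₀, hℓ₀, hℓ₀S, hℓ₀p, -, hℓ₀good, hℓ₀a⟩ :=
    exists_prime_not_eisenstein E hW hp hp2 hirr 1 one_pos (insert 2 (M' * p).primeFactors)
  have hS : ∀ ℓ : ℕ, ℓ.Prime → ℓ ∣ M' * p → ℓ ∈ badSet W p (M' * p) :=
    fun ℓ _ h => Or.inr (Or.inl h)
  have hnE : ∃ ℓ : ℕ, ℓ.Prime ∧ ℓ ∉ badSet W p (M' * p) ∧ ℓ ≠ 2 ∧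
      ¬ (W.apOfModel ℓ ≡ (ℓ : ℤ) + 1 [ZMOD (p : ℤ)]) := by
    refine ⟨ℓ₀, hℓ₀, ?_, ?_, ?_⟩
    · rintro (h | h | h)
      · exact h hℓ₀good
      · exact hℓ₀S (Finset.mem_insert_of_mem
          (Nat.mem_primeFactors.mpr ⟨hℓ₀, h, NeZero.ne _⟩))
      · exact hℓ₀p h
    · intro h
      exact hℓ₀S (h ▸ Finset.mem_insert_self _ _)
    · intro h
      apply hℓ₀a
      have := (Int.modEq_iff_dvd.mp h)
      rwa [dvd_sub_comm] at this
  -- (KEY-PEU) on each class `φ Q`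
  have hQ : ∀ Q : ↥(torsionNat (E.toAffine⁄Ω).Point p),
      (∀ σ ∈ A.inertiaSubgroupIn ℚ, ∀ c : ℕ, CycAct p σ c → σ • NC.φ Q = c • NC.φ Q) ∨
        ResOccurs M' p (badSet W p (M' * p)) (fun ℓ => W.apOfModel ℓ) := by
    intro Q
    refine hKA _ _ hS hnE (NC.φ Q) ?_ (NC.alpha Q) (NC.beta Q)
      (fun ℓ hℓ hℓS => NC.hecke ℓ hℓ hℓS Q) ?_
      (inertiaLineAt_of_newCopy hp hp2 E hW NC hA hNA Q)
    · have h0 : p • Q = 0 := Subtype.ext Q.2
      rw [← map_nsmul, h0, _root_.map_zero]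
    · intro τ hτ _ hne
      have hneQ : τ • Q.1 ≠ Q.1 := by
        intro h
        apply hne
        rw [← NC.gal]
        congr 1
        exact Subtype.ext h
      obtain ⟨r, hrA, hfix, h0, hmem⟩ := hpeu A hA τ hτ Q.1 Q.2 hneQ ζ hζ
      refine ⟨r, hrA, ?_, h0, ζ, hζ, hmem⟩
      intro σ hσ
      apply hfix
      have h1 := NC.gal σ Q
      rw [hσ] at h1
      exact congrArg Subtype.val (NC.inj h1)
  by_contra hno
  apply not_forall_inertia_scalar hp hp2 E hW hA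
  intro σ hσ c hc Q hQ0
  rcases hQ ⟨Q, hQ0⟩ with h | h
  · have h1 := h σ hσ c hc
    rw [← NC.gal, ← map_nsmul] at h1
    exact congrArg Subtype.val (NC.inj h1)
  · exact absurd h hno

end Core

/-- **S44 from [TOP-G], (KEY-NEW) and (KEY-PEU) (third revision)**: the frozen statement of S44. -/
theorem s44_of_topG_keyPeu₃ (hG : TopGStatement) (hN : KeyNewStatement) (hK : KeyPeuFrom₃ 5)
    (P : FreyPackage) {N : ℕ}
    (hcond : P.IsConductorLevel N) (hpN : P.p ∣ N)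
    (hirr : GaloisRepIsIrreducible (K := AlgebraicClosure ℚ) ℚ P.freyCurve P.p)
    (hmod : P.ModularRepOfLevel N) :
    ∃ M : ℕ, M ∣ N ∧ ¬ P.p ∣ M ∧ P.ModularRepOfLevel M := by
  classical
  obtain ⟨M', hM'⟩ := hpN
  have hN' : N = M' * P.p := by rw [hM', mul_comm]
  subst hN'
  have hp := P.pp
  have hp2 : P.p ≠ 2 := by have := P.hp5; omega
  have hpos : 0 < M' * P.p := hcond.pos
  have hM'0 : M' ≠ 0 := fun h => by rw [h, zero_mul] at hpos; exact lt_irrefl _ hpos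
  haveI : NeZero M' := ⟨hM'0⟩
  haveI : NeZero P.p := ⟨hp.ne_zero⟩
  haveI : NeZero (M' * P.p) := ⟨hpos.ne'⟩
  haveI : P.freyCurve.IsElliptic := freyCurve_isElliptic P
  have hpM' : ¬ P.p ∣ M' := by
    intro h
    apply hcond.sq_not_dvd hp
    rw [pow_two]
    exact Nat.mul_dvd_mul h dvd_rfl
  obtain ⟨f, W, 𝔪, hf, hW, hmax, hp𝔪, hcong⟩ := hmod
  have hres : W.IsResiduallyModularOfLevel P.p (M' * P.p) := ⟨f, 𝔪, hf, hmax, hp𝔪, hcong⟩
  have key : ResOccurs M' P.p (badSet W P.p (M' * P.p)) (fun ℓ => W.apOfModel ℓ) := by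
    rcases hG P.freyCurve hW hp hp2 hpM' hirr hres with h | ⟨⟨NC⟩⟩
    · exact h
    · refine resOccurs_of_newCopy₃ hp hp2 (hN M' P.p hp hp2 hpM') (hK M' P.p hp P.hp5 hpM')
        P.freyCurve hW hirr NC ?_
      intro A hA σ hσ Q hQ hne ζ hζ
      exact ecpeu_frey P A hA hσ Q hQ hne hζ
  obtain ⟨g, 𝔪', hg, hmax', hp', h⟩ := key
  refine ⟨M', Dvd.intro _ rfl, hpM', g, W, 𝔪', hg, hW, hmax', hp', ?_⟩
  intro ℓ hℓ hgood hℓM' hℓp
  refine h ℓ hℓ ?_
  rintro (h1 | h1 | h1)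
  · exact h1 hgood
  · rcases (Nat.Prime.dvd_mul hℓ).mp h1 with h2 | h2
    · exact hℓM' h2
    · exact hℓp ((Nat.prime_dvd_prime_iff_eq hℓ hp).mp h2)
  · exact hℓp h1

end Fermat.Agent.MP
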