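/-
MP40 (row 38, S44) — lead — **the complete chain of S44 modulo its three remaining inputs**:
`s44_of_inputs : LegPeuOrdP 5 → LegDeltaLit → KeyFqResInfP → <frozen S44>`.

All the other links are proved: [TOP-G] (`topGStatement`), (KEY-NEW) (`keyNewStatement_of_normB`
with helper5's `legNormBCompat`), the descent to the bases (`keyPeuFrom₃_of_base`, helper4), the
dichotomy (2a) along `W_∞` (`legPeuInfP_of`, lead; with `rq4HostP`), the Kummer form (2b)
(`legPeuDeepP_of_lit`, helper2) and the base change of the depth (`legWinfBCP`, helper2).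
-/
import Mathlib
import Fermat.Agent.MP.TOPL3_helper4_Closers
import Fermat.Agent.MP.TOPG_lead_Final
import Fermat.Agent.MP.DESC_helper4_Final
import Fermat.Agent.MP.KPBASE_lead_Rq4
import Fermat.Agent.MP.KPDEEP_helper2_Main
import Fermat.Agent.MP.KPDESC_helper2_WinfBC
import Fermat.Agent.NP.S33FIN_helper2_Main
import Fermat.Agent.NP.NEWBASE_helper5_NormB

set_option autoImplicit false

open WeierstrassCurve WeierstrassCurve.Affine WeierstrassCurve.Affine.Point
open CuspForm ModularFormClass UpperHalfPlane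
open FreyPackage

namespace Fermat.Agent.MP

open Fermat.Agent.NP

/-- **(KEY-PEU), third revision, modulo the three remaining inputs.** -/
theorem keyPeuFrom₃_of_inputs (HO : LegPeuOrdP 5) (HD : LegDeltaLit) (HR : KeyFqResInfP) :
    KeyPeuFrom₃ 5 :=
  keyPeuFrom₃_of_base 5 (by norm_num)
    (legPeuInfP_of 5 (by norm_num) HO HR rq4HostP)
    (legPeuDeepP_of_lit 5 legNormBCompat HD) legWinfBCP

/-- **S44 modulo the three remaining inputs.** -/
theorem s44_of_inputs (HO : LegPeuOrdP 5) (HD : LegDeltaLit) (HR : KeyFqResInfP)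
    (P : FreyPackage) {N : ℕ}
    (hcond : P.IsConductorLevel N) (hpN : P.p ∣ N)
    (hirr : GaloisRepIsIrreducible (K := AlgebraicClosure ℚ) ℚ P.freyCurve P.p)
    (hmod : P.ModularRepOfLevel N) :
    ∃ M : ℕ, M ∣ N ∧ ¬ P.p ∣ M ∧ P.ModularRepOfLevel M :=
  s44_of_topG_keyPeu₃ topGStatement (keyNewStatement_of_normB legNormBCompat)
    (keyPeuFrom₃_of_inputs HO HD HR) P hcond hpN hirr hmod

end Fermat.Agent.MP
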