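/-
MP40 C5 [RHECKE-Ω] (Ω4) — helper8 — **norms along `A_ℓ` commute with the reduction `legρ` on the
Legendre hosts over `Ω`**, from the three facts (Ω1) `W_E(Mℓ) ∩ E_M = W_E(M)`, (Ω2) the reduced
map `ᾱ`, (Ω3) `[Ẽ_{Mℓ} : ᾱ Ẽ_M] = ℓ + 1`, which enter as hypotheses here.
-/
import Mathlib
import Fermat.Agent.NP.BASEP_helper2_DegGen
import Fermat.Agent.MP.HECKERO_helper8_Norm
import Fermat.Agent.FG.EDEF_helper6_Leg

set_option autoImplicit false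
set_option linter.unusedSectionVars false
set_option linter.unusedVariables false
set_option linter.style.haveILetI false
set_option synthInstance.maxHeartbeats 400000

open HahnSeries IntermediateField AlgebraicCurve ModularCurve IsLocalRing

namespace Fermat.Agent.MP

open Fermat.Agent.JA Fermat.Agent.FF Fermat.Agent.SS Fermat.Agent.S35 Fermat.Agent.S36
  Fermat.Agent.NP Fermat.Agent.FG

local notation "Ω" => AlgebraicClosure ℚ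

/-- **`[E_{Mℓ} : E_M] = ℓ + 1` over `Ω`.** -/
theorem finrank_legHostA_closure (M ℓ : ℕ) [NeZero M] [NeZero ℓ] [NeZero (M * ℓ)] (hℓ : ℓ.Prime)
    (hℓ2 : ℓ ≠ 2) (hℓM : ¬ ℓ ∣ M) :
    letI := (legHostA Ω M ℓ).toRingHom.toAlgebra
    Module.finrank ↥(legE Ω M) ↥(legE Ω (M * ℓ)) = ℓ + 1 := by
  letI : Algebra Ω ℂ := ((IsAlgClosed.lift : Ω →ₐ[ℚ] ℂ) : Ω →+* ℂ).toAlgebra
  have h1 := finrank_mul_eq_of_square (keyFqA Ω M ℓ).toRingHom (legHostA Ω M ℓ).toRingHom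
    (fullToLegE Ω M).toRingHom (fullToLegE Ω (M * ℓ)).toRingHom
    (fun x => xport_fullToLegE_keyFqA Ω (q := ℓ) x)
  have h2 : (letI := (keyFqA Ω M ℓ).toRingHom.toAlgebra;
      Module.finrank ↥(keyFq Ω M) ↥(keyFq Ω (M * ℓ))) = ℓ + 1 :=
    finrank_keyFqA_of_not_dvd Ω M ℓ hℓ hℓM
  rw [h2] at h1
  have e1 : (letI := (fullToLegE Ω (M * ℓ)).toRingHom.toAlgebra;
      Module.finrank ↥(keyFq Ω (M * ℓ)) ↥(legE Ω (M * ℓ))) = legDeg (M * ℓ) := rfl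
  have e2 : (letI := (fullToLegE Ω M).toRingHom.toAlgebra;
      Module.finrank ↥(keyFq Ω M) ↥(legE Ω M)) = legDeg M := rfl
  rw [e1, e2, legDeg_mul_prime M ℓ hℓ hℓ2 hℓM, mul_comm] at h1
  exact (Nat.eq_of_mul_eq_mul_left (Nat.pos_of_ne_zero (legDeg_ne_zero M)) h1).symm

section Host

variable (M ℓ : ℕ) [NeZero M] [NeZero ℓ] [NeZero (M * ℓ)] {p : ℕ} [Fact p.Prime]
  {A : ValuationSubring Ω} (hA : A.LiesOverPrime p) (hp2 : p ≠ 2)

/-- the kernel of `legρ` is the maximal ideal. -/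
theorem legρ_eq_zero_iff (N : ℕ) [NeZero N] (x : ↥(legWE hA N hp2)) :
    legρ hA N hp2 x = 0 ↔ (legWE hA N hp2).valuation (x : ↥(legE Ω N)) < 1 := by
  unfold legρ
  rw [residue_eq_zero_iff, ValuationSubring.valuation_lt_one_iff]

/-- **(Ω4), conditional form**: norms along `A_ℓ` commute with the reduction. -/
theorem legρ_norm_legHostA_of (hℓ : ℓ.Prime) (hℓ2 : ℓ ≠ 2) (hℓM : ¬ ℓ ∣ M)
    (hcomap : (legWE hA (M * ℓ) hp2).comap
      ((legHostA Ω M ℓ : ↥(legE Ω M) →ₐ[Ω] ↥(legE Ω (M * ℓ))) :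
        ↥(legE Ω M) →+* ↥(legE Ω (M * ℓ))) = legWE hA M hp2)
    (αb : legEt hA M hp2 →+* legEt hA (M * ℓ) hp2)
    (hαb : ∀ (x : ↥(legWE hA M hp2))
      (hx' : legHostA Ω M ℓ (x : ↥(legE Ω M)) ∈ legWE hA (M * ℓ) hp2),
      legρ hA (M * ℓ) hp2 ⟨legHostA Ω M ℓ (x : ↥(legE Ω M)), hx'⟩ = αb (legρ hA M hp2 x))
    (hfin : letI := αb.toAlgebra; FiniteDimensional (legEt hA M hp2) (legEt hA (M * ℓ) hp2))
    (hdeg : letI := αb.toAlgebra;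
      Module.finrank (legEt hA M hp2) (legEt hA (M * ℓ) hp2) = ℓ + 1)
    (y : ↥(legWE hA (M * ℓ) hp2)) :
    ∃ hN : (letI := (legHostA Ω M ℓ).toRingHom.toAlgebra;
        Algebra.norm ↥(legE Ω M) (y : ↥(legE Ω (M * ℓ)))) ∈ legWE hA M hp2,
      legρ hA M hp2 ⟨_, hN⟩ =
        (letI := αb.toAlgebra; Algebra.norm (legEt hA M hp2) (legρ hA (M * ℓ) hp2 y)) := by
  letI := (legHostA Ω M ℓ).toRingHom.toAlgebra
  letI := αb.toAlgebra
  haveI := hfin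
  have hdeg0 : Module.finrank ↥(legE Ω M) ↥(legE Ω (M * ℓ)) = ℓ + 1 :=
    finrank_legHostA_closure M ℓ hℓ hℓ2 hℓM
  haveI : FiniteDimensional ↥(legE Ω M) ↥(legE Ω (M * ℓ)) :=
    Module.finite_of_finrank_pos (by rw [hdeg0]; exact Nat.succ_pos ℓ)
  exact ρ_norm_of_finrank_res_eq (legρ hA M hp2) (legρ hA (M * ℓ) hp2)
    (legρ_surjective hA M hp2) (legρ_surjective hA (M * ℓ) hp2)
    (legρ_eq_zero_iff hA hp2 M) (legρ_eq_zero_iff hA hp2 (M * ℓ)) hcomap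
    (fun x hx => hαb x hx) (hdeg.trans hdeg0.symm) y

/-- the norm along `A_ℓ` of a unit of `W_E(Mℓ)` is a unit of `W_E(M)`. -/
theorem norm_legHostA_unit_of (hℓ : ℓ.Prime) (hℓ2 : ℓ ≠ 2) (hℓM : ¬ ℓ ∣ M)
    (hcomap : (legWE hA (M * ℓ) hp2).comap
      ((legHostA Ω M ℓ : ↥(legE Ω M) →ₐ[Ω] ↥(legE Ω (M * ℓ))) :
        ↥(legE Ω M) →+* ↥(legE Ω (M * ℓ))) = legWE hA M hp2)
    (αb : legEt hA M hp2 →+* legEt hA (M * ℓ) hp2)
    (hαb : ∀ (x : ↥(legWE hA M hp2))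
      (hx' : legHostA Ω M ℓ (x : ↥(legE Ω M)) ∈ legWE hA (M * ℓ) hp2),
      legρ hA (M * ℓ) hp2 ⟨legHostA Ω M ℓ (x : ↥(legE Ω M)), hx'⟩ = αb (legρ hA M hp2 x))
    (hfin : letI := αb.toAlgebra; FiniteDimensional (legEt hA M hp2) (legEt hA (M * ℓ) hp2))
    (hdeg : letI := αb.toAlgebra;
      Module.finrank (legEt hA M hp2) (legEt hA (M * ℓ) hp2) = ℓ + 1)
    {y : ↥(legE Ω (M * ℓ))} (hy : y ∈ legWE hA (M * ℓ) hp2) (hy' : y⁻¹ ∈ legWE hA (M * ℓ) hp2) :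
    (letI := (legHostA Ω M ℓ).toRingHom.toAlgebra; Algebra.norm ↥(legE Ω M) y) ∈
        legWE hA M hp2 ∧
      (letI := (legHostA Ω M ℓ).toRingHom.toAlgebra; Algebra.norm ↥(legE Ω M) y)⁻¹ ∈
        legWE hA M hp2 := by
  letI := (legHostA Ω M ℓ).toRingHom.toAlgebra
  letI := αb.toAlgebra
  haveI := hfin
  have hdeg0 : Module.finrank ↥(legE Ω M) ↥(legE Ω (M * ℓ)) = ℓ + 1 :=
    finrank_legHostA_closure M ℓ hℓ hℓ2 hℓM
  haveI : FiniteDimensional ↥(legE Ω M) ↥(legE Ω (M * ℓ)) :=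
    Module.finite_of_finrank_pos (by rw [hdeg0]; exact Nat.succ_pos ℓ)
  exact norm_inv_mem_of_finrank_res_eq (legρ hA M hp2) (legρ hA (M * ℓ) hp2)
    (legρ_surjective hA M hp2) (legρ_surjective hA (M * ℓ) hp2)
    (legρ_eq_zero_iff hA hp2 M) (legρ_eq_zero_iff hA hp2 (M * ℓ)) hcomap
    (fun x hx => hαb x hx) (hdeg.trans hdeg0.symm) hy hy'

end Host

end Fermat.Agent.MP
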