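/-
MP40 C5 [RED∞] — helper3 — **base change `K' → Ω` of the Hecke operator of the Legendre host**:
for `K' ⊆ Ω`, `ℓ` an odd prime not dividing `M`:

* `legBC_legHostA`, `legBC_legHostB` : the degeneracy maps commute with the coefficientwise base
  change `legBC`;
* `legBC_norm_legHostA` : `legBC M K' (N_{A_ℓ} z) = N_{A_ℓ} (legBC (M ℓ) K' z)`;
* `legBC_legHeckeP` : `legBC M K' (T_ℓ f) = T_ℓ (legBC M K' f)`.
-/
import Mathlib
import Fermat.Agent.S35.NORMBC_helper8_Key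
import Fermat.Agent.NP.BASEP_helper2_DegGen
import Fermat.Agent.MP.HECKERO_helper8_NormHost
import Fermat.Agent.MP.HECKERO_helper6_Comap

set_option autoImplicit false
set_option linter.unusedSectionVars false
set_option linter.unusedVariables false
set_option linter.style.haveILetI false
set_option synthInstance.maxHeartbeats 400000

open HahnSeries IntermediateField AlgebraicCurve ModularCurve IsLocalRing

namespace Fermat.Agent.MP

open Fermat.Agent.JA Fermat.Agent.FF Fermat.Agent.SS Fermat.Agent.S35 Fermat.Agent.S36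
  Fermat.Agent.NP Fermat.Agent.FG Fermat.Agent.X0N

local notation "Ω" => AlgebraicClosure ℚ

noncomputable section

section BC

variable (M ℓ : ℕ) [NeZero M] [NeZero ℓ] [NeZero (M * ℓ)] (K' : IntermediateField ℚ Ω)

theorem legBC_legHostA (x : ↥(legE ↥K' M)) :
    legBC (M * ℓ) K' (legHostA ↥K' M ℓ x) = legHostA Ω M ℓ (legBC M K' x) := by
  apply Subtype.ext
  have h1 : ((legHostA ↥K' M ℓ x : ↥(legE ↥K' (M * ℓ))) : LaurentSeries ↥K') =
      (x : LaurentSeries ↥K') := IntermediateField.coe_inclusion _ x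
  rw [coe_legBC, h1, coe_legHostA_Ω, coe_legBC]

theorem legBC_legHostB (hℓ : ℓ.Prime) (hℓ2 : ℓ ≠ 2) (x : ↥(legE ↥K' M)) :
    legBC (M * ℓ) K' (legHostB ↥K' M ℓ hℓ hℓ2 x) = legHostB Ω M ℓ hℓ hℓ2 (legBC M K' x) := by
  apply Subtype.ext
  rw [coe_legBC, coe_legHostB, coe_legHostB, coe_legBC, coeffMap_qExpand]

/-- **norms along `A_ℓ` commute with the base change `K' → Ω`.** -/
theorem legBC_norm_legHostA (hℓ : ℓ.Prime) (hℓ2 : ℓ ≠ 2) (hℓM : ¬ ℓ ∣ M)
    (z : ↥(legE ↥K' (M * ℓ))) :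
    legBC M K' (letI := (legHostA ↥K' M ℓ).toRingHom.toAlgebra; Algebra.norm ↥(legE ↥K' M) z) =
      (letI := (legHostA Ω M ℓ).toRingHom.toAlgebra;
        Algebra.norm ↥(legE Ω M) (legBC (M * ℓ) K' z)) := by
  have hdeg1 : finrankAlong ↥K' (legHostA ↥K' M ℓ) = ℓ + 1 :=
    finrank_legHostA_base M ℓ hℓ hℓ2 hℓM K'
  have hdeg2 : finrankAlong Ω (legHostA Ω M ℓ) = ℓ + 1 :=
    finrank_legHostA_closure M ℓ hℓ hℓ2 hℓM
  exact normAlong_map_of_finrankAlong_eq (legHostA ↥K' M ℓ) (legHostA Ω M ℓ) (legBC M K')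
    (legBC (M * ℓ) K') (fun x => legBC_legHostA M ℓ K' x) (hdeg1.trans hdeg2.symm)
    (by rw [hdeg2]; exact Nat.succ_pos ℓ) (closure_range_legBC (M * ℓ) K') z

/-- **the Hecke operator of the Legendre host commutes with the base change `K' → Ω`.** -/
theorem legBC_legHeckeP (hℓ : ℓ.Prime) (hℓ2 : ℓ ≠ 2) (hℓM : ¬ ℓ ∣ M) (f : ↥(legE ↥K' M)) :
    legBC M K' (legHeckeP ↥K' M ℓ hℓ hℓ2 f) = legHeckeP Ω M ℓ hℓ hℓ2 (legBC M K' f) := by
  unfold legHeckeP
  rw [legBC_norm_legHostA M ℓ K' hℓ hℓ2 hℓM, legBC_legHostB]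

end BC

end

end Fermat.Agent.MP
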