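/-
MP40 C5 [RED∞] — helper3 — **the Hecke operator of the Legendre host commutes with the reduction**
`legρ` (over `Ω`, and from a base `K' ⊆ Ω`), and the reduced Hecke relation:

* `legρ_legHeckeP_of` : `legρ (T_ℓ g) = T̄_ℓ (legρ g)` for `g ∈ legWE` (`T̄_ℓ = legEtT`);
* `legEtT_eq_of_congr` : a congruence `T_ℓ g ≡ c · g^a · u^p` modulo the maximal ideal of `legWE`
  (units `g`, `c`, `u`) gives `T̄_ℓ (ρ g) = ρ c · (ρ g)^a · (ρ u)^p`;
* `legEtT_eq_of_congr_base` : the same from a congruence over a base `K'`, through `legBC`.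
Finiteness and the degree `ℓ + 1` of `legEtA` are hypotheses here.
-/
import Mathlib
import Fermat.Agent.MP.REDINF_helper3_BC
import Fermat.Agent.MP.REDINF_helper3_Abs
import Fermat.Agent.MP.NORMP_helper3_HostT

set_option autoImplicit false
set_option linter.unusedSectionVars false
set_option linter.unusedVariables false
set_option linter.style.haveILetI false
set_option synthInstance.maxHeartbeats 400000

open HahnSeries IntermediateField AlgebraicCurve ModularCurve IsLocalRing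

namespace Fermat.Agent.MP

open Fermat.Agent.JA Fermat.Agent.FF Fermat.Agent.SS Fermat.Agent.S35 Fermat.Agent.S36
  Fermat.Agent.NP Fermat.Agent.FG Fermat.Agent.X0N

local notation "Ω" => AlgebraicClosure ℚ

noncomputable section

section Omega

variable {p : ℕ} [Fact p.Prime] {A : ValuationSubring Ω} (hA : A.LiesOverPrime p)
  (M : ℕ) [NeZero M] (hp2 : p ≠ 2) (ℓ : ℕ) [NeZero ℓ] [NeZero (M * ℓ)]
  (hℓ : ℓ.Prime) (hℓ2 : ℓ ≠ 2)

/-- **the Hecke operator commutes with the reduction.** -/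
theorem legρ_legHeckeP_of (hℓM : ¬ ℓ ∣ M)
    (hfin : letI := (legEtA hA M hp2 ℓ).toRingHom.toAlgebra
      FiniteDimensional (legEt hA M hp2) (legEt hA (M * ℓ) hp2))
    (hdeg : letI := (legEtA hA M hp2 ℓ).toRingHom.toAlgebra
      Module.finrank (legEt hA M hp2) (legEt hA (M * ℓ) hp2) = ℓ + 1)
    (g : ↥(legE Ω M)) (hg : g ∈ legWE hA M hp2) :
    ∃ hN : legHeckeP Ω M ℓ hℓ hℓ2 g ∈ legWE hA M hp2,
      legρ hA M hp2 ⟨legHeckeP Ω M ℓ hℓ hℓ2 g, hN⟩ =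
        legEtT hA M hp2 ℓ hℓ hℓ2 (legρ hA M hp2 ⟨g, hg⟩) := by
  have hBg : legHostB Ω M ℓ hℓ hℓ2 g ∈ legWE hA (M * ℓ) hp2 :=
    legHostB_mem_legWE hA M hp2 ℓ hℓ hℓ2 hg
  obtain ⟨hN, h⟩ := legρ_norm_legHostA_of M ℓ hA hp2 hℓ hℓ2 hℓM
    (legWE_comap_legHostA hA M hp2 ℓ) (legEtA hA M hp2 ℓ).toRingHom
    (fun x hx' => (legEtA_legρ hA M hp2 ℓ (x : ↥(legE Ω M)) x.2 hx').symm) hfin hdeg
    ⟨legHostB Ω M ℓ hℓ hℓ2 g, hBg⟩
  refine ⟨hN, ?_⟩
  rw [legEtT_apply', legEtB_legρ hA M hp2 ℓ hℓ hℓ2 g hg hBg]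
  exact h

/-- **the reduced Hecke relation over `Ω`.** -/
theorem legEtT_eq_of_congr (hℓM : ¬ ℓ ∣ M)
    (hfin : letI := (legEtA hA M hp2 ℓ).toRingHom.toAlgebra
      FiniteDimensional (legEt hA M hp2) (legEt hA (M * ℓ) hp2))
    (hdeg : letI := (legEtA hA M hp2 ℓ).toRingHom.toAlgebra
      Module.finrank (legEt hA M hp2) (legEt hA (M * ℓ) hp2) = ℓ + 1)
    {g c u : ↥(legE Ω M)} {a : ℤ} {n : ℕ}
    (hg : (legWE hA M hp2).valuation g = 1) (hc : (legWE hA M hp2).valuation c = 1)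
    (hu : (legWE hA M hp2).valuation u = 1)
    (hcong : (legWE hA M hp2).valuation (legHeckeP Ω M ℓ hℓ hℓ2 g - c * g ^ a * u ^ n) < 1) :
    legEtT hA M hp2 ℓ hℓ hℓ2
        (legρ hA M hp2 ⟨g, redinf_mem_of_val_eq_one (legWE hA M hp2) hg⟩) =
      legρ hA M hp2 ⟨c, redinf_mem_of_val_eq_one (legWE hA M hp2) hc⟩ *
        legρ hA M hp2 ⟨g, redinf_mem_of_val_eq_one (legWE hA M hp2) hg⟩ ^ a *
        legρ hA M hp2 ⟨u, redinf_mem_of_val_eq_one (legWE hA M hp2) hu⟩ ^ n := by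
  have hgm := redinf_mem_of_val_eq_one (legWE hA M hp2) hg
  have hcm := redinf_mem_of_val_eq_one (legWE hA M hp2) hc
  have hum := redinf_mem_of_val_eq_one (legWE hA M hp2) hu
  obtain ⟨hN, hT⟩ := legρ_legHeckeP_of hA M hp2 ℓ hℓ hℓ2 hℓM hfin hdeg g hgm
  rw [← hT]
  have hga := redinf_mem_of_val_eq_one (legWE hA M hp2)
    (redinf_val_zpow_eq_one (legWE hA M hp2) hg a)
  have hrhs : legρ hA M hp2 ⟨c, hcm⟩ * legρ hA M hp2 ⟨g, hgm⟩ ^ a * legρ hA M hp2 ⟨u, hum⟩ ^ n =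
      legρ hA M hp2 ⟨c * g ^ a * u ^ n,
        (legWE hA M hp2).mul_mem _ _ ((legWE hA M hp2).mul_mem _ _ hcm hga) (pow_mem hum n)⟩ := by
    rw [← redinf_ρ_zpow (legρ hA M hp2) hg a, ← map_pow, ← map_mul, ← map_mul]
    rfl
  rw [hrhs, ← sub_eq_zero, ← map_sub, legρ_eq_zero_iff]
  exact hcong

end Omega

section Base

variable {p : ℕ} [Fact p.Prime] {A : ValuationSubring Ω} (hA : A.LiesOverPrime p)
  (M : ℕ) [NeZero M] (hp2 : p ≠ 2) (ℓ : ℕ) [NeZero ℓ] [NeZero (M * ℓ)]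
  (hℓ : ℓ.Prime) (hℓ2 : ℓ ≠ 2) (K' : IntermediateField ℚ Ω)

/-- **the reduced Hecke relation from a congruence over a base `K' ⊆ Ω`**: `V₀` the valuation
subring of `legE K' M` induced by `legWE` (e.g. the Gauss valuation ring `legWinf R' K' h2 M`). -/
theorem legEtT_eq_of_congr_base (hℓM : ¬ ℓ ∣ M)
    (hfin : letI := (legEtA hA M hp2 ℓ).toRingHom.toAlgebra
      FiniteDimensional (legEt hA M hp2) (legEt hA (M * ℓ) hp2))
    (hdeg : letI := (legEtA hA M hp2 ℓ).toRingHom.toAlgebra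
      Module.finrank (legEt hA M hp2) (legEt hA (M * ℓ) hp2) = ℓ + 1)
    (V₀ : ValuationSubring ↥(legE ↥K' M))
    (hV₀ : (legWE hA M hp2).comap (legBC M K') = V₀)
    {x₀ c₁ u₀ : ↥(legE ↥K' M)} {a : ℤ} {n : ℕ}
    (hx₀ : V₀.valuation x₀ = 1) (hc₁ : V₀.valuation c₁ = 1) (hu₀ : V₀.valuation u₀ = 1)
    (hcong : V₀.valuation (legHeckeP ↥K' M ℓ hℓ hℓ2 x₀ - c₁ * x₀ ^ a * u₀ ^ n) < 1) :
    ∃ (hx : legBC M K' x₀ ∈ legWE hA M hp2) (hc : legBC M K' c₁ ∈ legWE hA M hp2)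
      (hu : legBC M K' u₀ ∈ legWE hA M hp2),
      legρ hA M hp2 ⟨legBC M K' u₀, hu⟩ ≠ 0 ∧
      legEtT hA M hp2 ℓ hℓ hℓ2 (legρ hA M hp2 ⟨legBC M K' x₀, hx⟩) =
        legρ hA M hp2 ⟨legBC M K' c₁, hc⟩ * legρ hA M hp2 ⟨legBC M K' x₀, hx⟩ ^ a *
          legρ hA M hp2 ⟨legBC M K' u₀, hu⟩ ^ n := by
  have hval : ∀ y : ↥(legE ↥K' M), V₀.valuation y = 1 →
      (legWE hA M hp2).valuation (legBC M K' y) = 1 := by
    intro y hy
    rw [hecker_val_eq_one_iff] at hy ⊢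
    obtain ⟨h0, h1, h2⟩ := hy
    refine ⟨(map_ne_zero_iff _ (legBC M K').injective).mpr h0, ?_, ?_⟩
    · exact (hecker_comap_mem_iff V₀ (legBC M K') hV₀ _).mpr h1
    · rw [← map_inv₀]
      exact (hecker_comap_mem_iff V₀ (legBC M K') hV₀ _).mpr h2
  have hx := hval x₀ hx₀
  have hc := hval c₁ hc₁
  have hu := hval u₀ hu₀
  have hcong' : (legWE hA M hp2).valuation
      (legHeckeP Ω M ℓ hℓ hℓ2 (legBC M K' x₀) -
        legBC M K' c₁ * legBC M K' x₀ ^ a * legBC M K' u₀ ^ n) < 1 := by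
    rw [← legBC_legHeckeP M ℓ K' hℓ hℓ2 hℓM, ← map_zpow₀, ← map_pow, ← map_mul, ← map_mul,
      ← map_sub]
    exact (hecker_comap_val_lt_one_iff V₀ (legBC M K') hV₀ _).mpr hcong
  refine ⟨redinf_mem_of_val_eq_one _ hx, redinf_mem_of_val_eq_one _ hc,
    redinf_mem_of_val_eq_one _ hu, ?_, ?_⟩
  · intro h0
    rw [legρ_eq_zero_iff] at h0
    change (legWE hA M hp2).valuation (legBC M K' u₀) < 1 at h0
    rw [hu] at h0
    exact lt_irrefl _ h0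
  · exact legEtT_eq_of_congr hA M hp2 ℓ hℓ hℓ2 hℓM hfin hdeg hx hc hu hcong'

end Base

end

end Fermat.Agent.MP
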