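/-
MP40 (S44/S40) — helper3 — [PDIV], abstract form: **divisibility of the orders of `N_α (β z)` at
the non-cuspidal places**, any characteristic.

`F`, `F'` function fields over `K`, `F'/F` finite separable (via the structural `Algebra F F'`, to be
thought of as `α`), `β : F →ₐ[K] F'` a second embedding, `j ∈ F` with `β j` regular wherever `α j`
is (e.g. `β j` integral over `K[α j]`).  If `m ∣ ord_Q z` at every place `Q` of `F` where `j` is
regular, then `m ∣ ord_Q (N_{F'/F} (β z))` at every such place.
-/
import Mathlib
import Fermat.Agent.MP.NORMP_helper3_Weak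
import Fermat.Agent.JA.ES_helper4_Main

set_option autoImplicit false
set_option linter.unusedSectionVars false
set_option linter.style.haveILetI false

open AlgebraicCurve

namespace Fermat.Agent.MP

open Fermat.Agent.FF Fermat.Agent.FF.Gal Fermat.Agent.JA

variable {K F F' : Type*} [Field K] [Field F] [Field F'] [Algebra K F] [Algebra K F']
  [Algebra F F'] [IsScalarTower K F F'] [FiniteDimensional F F'] [Algebra.IsSeparable F F']
  [Algebra.IsIntegral F F'] [HasPrincipalDivisors K F']

/-- **[PDIV], abstract form.** -/
theorem dvd_ord_norm_map_of_regular (β : F →ₐ[K] F') (hβ : β.toRingHom.IsIntegral) (j : F)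
    (hint : ∀ w : Place K F', algebraMap F F' j ∈ w.toValuationSubring →
      β j ∈ w.toValuationSubring)
    (m : ℤ) {z : F} (hz : z ≠ 0)
    (h : ∀ Q : Place K F, j ∈ Q.toValuationSubring → m ∣ Q.ord z)
    (Q : Place K F) (hQ : j ∈ Q.toValuationSubring) :
    m ∣ Q.ord (Algebra.norm F (β z)) := by
  have hβz : β z ≠ 0 := (map_ne_zero_iff _ β.toRingHom.injective).mpr hz
  refine dvd_ord_norm_of_forall_dvd_ord Q m hβz fun w hw => ?_
  have hwQ : w.restrict F = Q := Place.mem_fiber.mp hw
  have h1 : algebraMap F F' j ∈ w.toValuationSubring := by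
    have : j ∈ (w.restrict F).toValuationSubring := by rw [hwQ]; exact hQ
    exact this
  have h2 : β j ∈ w.toValuationSubring := hint w h1
  have h3 : j ∈ (w.restrictAlong β hβ).toValuationSubring := h2
  rw [Place.ord_restrictAlong β hβ w z]
  exact Dvd.dvd.mul_left (h _ h3) _

/-- **[PDIV], abstract form along two embeddings** `α, β : F → F'`. -/
theorem dvd_ord_normAlong_map_of_regular {K F F' : Type*} [Field K] [Field F] [Field F']
    [Algebra K F] [Algebra K F'] [HasPrincipalDivisors K F'] (α β : F →ₐ[K] F')
    (hα : α.toRingHom.IsIntegral) (hβ : β.toRingHom.IsIntegral) (hfin : FiniteAlong K α)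
    (hsep : letI := algebraAlong α; Algebra.IsSeparable F F') (j : F)
    (hint : ∀ w : Place K F', α j ∈ w.toValuationSubring → β j ∈ w.toValuationSubring)
    (m : ℤ) {z : F} (hz : z ≠ 0)
    (h : ∀ Q : Place K F, j ∈ Q.toValuationSubring → m ∣ Q.ord z)
    (Q : Place K F) (hQ : j ∈ Q.toValuationSubring) :
    m ∣ Q.ord (normAlong α (β z)) := by
  letI := algebraAlong α
  haveI := isScalarTower_along α
  haveI := isIntegral_along α hα
  haveI : FiniteDimensional F F' := hfin
  haveI := hsep
  exact dvd_ord_norm_map_of_regular β hβ j hint m hz h Q hQ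

/-- the weak norm formula, divisibility form, along an embedding. -/
theorem dvd_ord_normAlong_of_forall_dvd_ord {K F F' : Type*} [Field K] [Field F] [Field F']
    [Algebra K F] [Algebra K F'] [HasPrincipalDivisors K F'] (α : F →ₐ[K] F')
    (hα : α.toRingHom.IsIntegral) (hfin : FiniteAlong K α)
    (hsep : letI := algebraAlong α; Algebra.IsSeparable F F') (Q : Place K F) (m : ℤ) {f : F'}
    (hf : f ≠ 0) (h : ∀ w : Place K F', w.restrictAlong α hα = Q → m ∣ w.ord f) :
    m ∣ Q.ord (normAlong α f) := by
  letI := algebraAlong α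
  haveI := isScalarTower_along α
  haveI := isIntegral_along α hα
  haveI : FiniteDimensional F F' := hfin
  haveI := hsep
  exact dvd_ord_norm_of_forall_dvd_ord Q m hf fun w hw => h w (Place.mem_fiber.mp hw)

end Fermat.Agent.MP
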