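/-
MP40 C5 [HECKE-R] — helper7 — **the literal of (A) [DELTA]**: `LegDeltaP`.

Over any base `K'` at `p` (`R' = baseRing A K'`, uniformizer `ϖ`), for a function `f` of the
Legendre host of level `M p` with a Hecke relation `T_ℓ f = c f ^ a u ^ p` at ONE odd prime
`ℓ ∤ M p` which is not Eisenstein (`a ≢ ℓ + 1` mod `p`): the valuations `a∞`, `a0` of `f` along the
two sheets `W_∞`, `W_0` are congruent modulo `p`.
-/
import Mathlib
import Fermat.Agent.NP.BASEP_helper2_Iface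
import Fermat.Agent.SS.BASE_helper1_Leg

set_option autoImplicit false
set_option linter.unusedSectionVars false
set_option linter.unusedVariables false
set_option linter.style.haveILetI false

open HahnSeries IntermediateField AlgebraicCurve ModularCurve IsLocalRing

namespace Fermat.Agent.MP

open Fermat.Agent.JA Fermat.Agent.FF Fermat.Agent.SS Fermat.Agent.S35 Fermat.Agent.NP

/-- `Ω = AlgebraicClosure ℚ`. -/
local notation "Ω" => AlgebraicClosure ℚ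

/-- **(A) [DELTA]**: a non-Eisenstein Hecke relation forces `p ∣ a0 - a∞`. -/
def LegDeltaP : Prop :=
  ∀ (M : ℕ) [NeZero M] (p : ℕ) [NeZero p] [NeZero (M * p)] (hp : p.Prime) (hp2 : p ≠ 2),
    ¬ p ∣ M →
  ∀ (A : ValuationSubring Ω), A.LiesOverPrime p →
  ∀ (K' : IntermediateField ℚ Ω) [IsDiscreteValuationRing ↥(baseRing A K')], IsBase p K' →
  ∀ (ϖ : ↥(baseRing A K')), Irreducible ϖ → ∀ (h2 : IsUnit (2 : ↥(baseRing A K')))
    {x y : ℤ} (hbez : (p : ℤ) * x + M * y = 1)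
    (ℓ : ℕ) [NeZero ℓ] [NeZero (M * p * ℓ)] (hℓ : ℓ.Prime) (hℓ2 : ℓ ≠ 2), ¬ ℓ ∣ M * p →
  ∀ (a : ℤ), ¬ (a ≡ (ℓ : ℤ) + 1 [ZMOD (p : ℤ)]) →
  ∀ f : ↥(legE ↥K' (M * p)), f ≠ 0 →
    (∃ (c : ↥K') (u : ↥(legE ↥K' (M * p))), c ≠ 0 ∧ u ≠ 0 ∧
      legHeckeP ↥K' (M * p) ℓ hℓ hℓ2 f =
        algebraMap ↥K' ↥(legE ↥K' (M * p)) c * f ^ a * u ^ p) →
  ∀ ainf a0 : ℤ,
    (legWinf ↥(baseRing A K') ↥K' h2 (M * p)).valuation
      (f * (algebraMap ↥K' ↥(legE ↥K' (M * p)) (algebraMap ↥(baseRing A K') ↥K' ϖ)) ^ (-ainf))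
        = 1 →
    (letI := baseToComplex K'; legW0 ↥(baseRing A K') ↥K' hbez hp).valuation
      (f * (algebraMap ↥K' ↥(legE ↥K' (M * p)) (algebraMap ↥(baseRing A K') ↥K' ϖ)) ^ (-a0))
        = 1 →
    (p : ℤ) ∣ a0 - ainf

end Fermat.Agent.MP
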