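/-
MP40 (row 38: S44 / S40) — helper2 — adapter between the two literals of (A) [DELTA]:
helper7's `LegDeltaP` (valuation hypotheses written `f * (ϖ : E) ^ (-a)` with `ϖ` pushed through
`K'`) and `LegDeltaLit` (written `f * ((ϖ : E) ^ a)⁻¹`, consumed by `legPeuDeepP_of_lit`).
-/
import Mathlib
import Fermat.Agent.MP.HECKER_helper7_Defs
import Fermat.Agent.MP.KPDEEP_helper2_Main

set_option autoImplicit false
set_option linter.unusedSectionVars false
set_option linter.unusedVariables false
set_option linter.style.haveILetI false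
set_option synthInstance.maxHeartbeats 400000

open HahnSeries IntermediateField AlgebraicCurve ModularCurve IsLocalRing

namespace Fermat.Agent.MP

open Fermat.Agent.JA Fermat.Agent.FF Fermat.Agent.SS Fermat.Agent.S35 Fermat.Agent.Igusa
  Fermat.Agent.NP

/-- `Ω = AlgebraicClosure ℚ`. -/
local notation "Ω" => AlgebraicClosure ℚ

/-- helper7's literal of [DELTA] implies the literal consumed by `legPeuDeepP_of_lit`. -/
theorem legDeltaLit_of_legDeltaP (H : LegDeltaP) : LegDeltaLit := by
  intro M _ p _ _ _ hp hp2 hpM A hA K' _ hK' ϖ hϖ h2 x y hbez ℓ _ _ hℓ hℓ2 hℓMp a ha f hf hrel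
    ainf a0 hinf h0
  refine H M p hp hp2 hpM A hA K' hK' ϖ hϖ h2 hbez ℓ hℓ hℓ2 hℓMp a ha f hf hrel ainf a0 ?_ ?_
  · rw [zpow_neg, ← IsScalarTower.algebraMap_apply]
    exact hinf
  · rw [zpow_neg, ← IsScalarTower.algebraMap_apply]
    exact h0

/-- **(2b)** from the `B`-side norm compatibility and helper7's literal of [DELTA]. -/
theorem legPeuDeepP_of_legDeltaP (p₀ : ℕ) (HB : LegNormBCompat) (HD : LegDeltaP) :
    LegPeuDeepP p₀ :=
  legPeuDeepP_of_lit p₀ HB (legDeltaLit_of_legDeltaP HD)

end Fermat.Agent.MP
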