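/-
MP40 (row 38: S44 / S40) — helper2 — **(A) [DELTA]: assembly of `LegDeltaLit`.**

Inputs (as explicit `Prop`-literals, so that the file is independent of their proofs):
* `LegHeckeValInfP` / `LegHeckeValZeroP`: along each of the two sheets `W_∞`, `W_0` of level `M p`
  over a base `K'` at `p`, the Hecke operator `T_ℓ` (`ℓ ∤ M p` odd) multiplies the `ϖ`-order by
  `ℓ + 1` (= `ThreeHyps.hecke_val` for the three-level datum of the sheet; see
  `legHeckeVal_of_threeHyps` for the passage from a `ThreeHyps` instance);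
* the sheet-`∞` literal follows from `threeHyps_legInf'` and [RESINDEP-K']
  (`LegResIndepBaseP`): `legHeckeValInfP_of_resIndep`.

Output: `legDeltaLit_of_heckeVal : LegHeckeValInfP → LegHeckeValZeroP → LegDeltaLit` via helper7's
`hecker_delta_abstract`: constants of `K'` have the same `ϖ`-order on both sheets, `u` has some
order on each sheet (`SSModel.exists_zpow_val_eq_one_inf/zero`).
-/
import Mathlib
import Fermat.Agent.MP.HECKER_helper7_Delta
import Fermat.Agent.MP.DELTA_helper2_SheetInf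
import Fermat.Agent.MP.KPDEEP_helper2_Adapter

set_option autoImplicit false
set_option linter.unusedSectionVars false
set_option linter.unusedVariables false
set_option linter.style.haveILetI false
set_option synthInstance.maxHeartbeats 400000

open HahnSeries IntermediateField AlgebraicCurve ModularCurve IsLocalRing

namespace Fermat.Agent.MP

open Fermat.Agent.JA Fermat.Agent.FF Fermat.Agent.SS Fermat.Agent.S35 Fermat.Agent.Igusa
  Fermat.Agent.NP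

open scoped Fermat.Agent.JA.Host

/-- `Ω = AlgebraicClosure ℚ`. -/
local notation "Ω" => AlgebraicClosure ℚ

/-- **`T_ℓ` multiplies the order along `W_∞` by `ℓ + 1`** (level `M p`, base `K'` at `p`). -/
def LegHeckeValInfP : Prop :=
  ∀ (M : ℕ) [NeZero M] (p : ℕ) [NeZero p] [NeZero (M * p)] (hp : p.Prime) (hp2 : p ≠ 2),
    ¬ p ∣ M →
  ∀ (A : ValuationSubring Ω), A.LiesOverPrime p →
  ∀ (K' : IntermediateField ℚ Ω) [IsDiscreteValuationRing ↥(baseRing A K')], IsBase p K' →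
  ∀ (ϖ : ↥(baseRing A K')), Irreducible ϖ → ∀ (h2 : IsUnit (2 : ↥(baseRing A K')))
    (ℓ : ℕ) [NeZero ℓ] [NeZero (M * p * ℓ)] (hℓ : ℓ.Prime) (hℓ2 : ℓ ≠ 2), ¬ ℓ ∣ M * p →
  ∀ (f : ↥(legE ↥K' (M * p))) (k : ℤ),
    (legWinf ↥(baseRing A K') ↥K' h2 (M * p)).valuation
      (f * (algebraMap ↥(baseRing A K') ↥(legE ↥K' (M * p)) ϖ) ^ (-k)) = 1 →
    (legWinf ↥(baseRing A K') ↥K' h2 (M * p)).valuation
      (legHeckeP ↥K' (M * p) ℓ hℓ hℓ2 f *
        (algebraMap ↥(baseRing A K') ↥(legE ↥K' (M * p)) ϖ) ^ (-(((ℓ + 1 : ℕ) : ℤ) * k))) = 1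

/-- **`T_ℓ` multiplies the order along `W_0` by `ℓ + 1`** (level `M p`, base `K'` at `p`). -/
def LegHeckeValZeroP : Prop :=
  ∀ (M : ℕ) [NeZero M] (p : ℕ) [NeZero p] [NeZero (M * p)] (hp : p.Prime) (hp2 : p ≠ 2),
    ¬ p ∣ M →
  ∀ (A : ValuationSubring Ω), A.LiesOverPrime p →
  ∀ (K' : IntermediateField ℚ Ω) [IsDiscreteValuationRing ↥(baseRing A K')], IsBase p K' →
  ∀ (ϖ : ↥(baseRing A K')), Irreducible ϖ → ∀ (h2 : IsUnit (2 : ↥(baseRing A K'))) {x y : ℤ}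
    (hbez : (p : ℤ) * x + M * y = 1)
    (ℓ : ℕ) [NeZero ℓ] [NeZero (M * p * ℓ)] (hℓ : ℓ.Prime) (hℓ2 : ℓ ≠ 2), ¬ ℓ ∣ M * p →
  ∀ (f : ↥(legE ↥K' (M * p))) (k : ℤ),
    (letI := baseToComplex K'; legW0 ↥(baseRing A K') ↥K' hbez hp).valuation
      (f * (algebraMap ↥(baseRing A K') ↥(legE ↥K' (M * p)) ϖ) ^ (-k)) = 1 →
    (letI := baseToComplex K'; legW0 ↥(baseRing A K') ↥K' hbez hp).valuation
      (legHeckeP ↥K' (M * p) ℓ hℓ hℓ2 f *
        (algebraMap ↥(baseRing A K') ↥(legE ↥K' (M * p)) ϖ) ^ (-(((ℓ + 1 : ℕ) : ℤ) * k))) = 1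

section Three

variable {K : Type*} [Field K] [Algebra ℚ K] {N ℓ : ℕ} [NeZero N] [NeZero ℓ] [NeZero (N * ℓ)]
  {E₀ E₀' : Type*} [Field E₀] [Field E₀']

/-- **from a three-level datum to the order statement**: any `ThreeHyps` datum whose upper
degeneracy maps are `legHostA K N ℓ`, `legHostB K N ℓ` multiplies the orders (with respect to a
constant `ϖ`) along its sheet `W` by its degree `n`. -/
theorem legHeckeVal_of_threeHyps {hℓ : ℓ.Prime} {hℓ2 : ℓ ≠ 2} {A₀ B₀ : E₀ →+* E₀'}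
    {P : E₀ →+* ↥(legE K N)} {P' : E₀' →+* ↥(legE K (N * ℓ))} {V₀ : ValuationSubring E₀}
    {V₀' : ValuationSubring E₀'} {W : ValuationSubring ↥(legE K N)}
    {W' : ValuationSubring ↥(legE K (N * ℓ))} {n : ℕ} {c : Fin n → E₀'}
    (h : ThreeHyps A₀ B₀ (legHostA K N ℓ).toRingHom (legHostB K N ℓ hℓ hℓ2).toRingHom P P' V₀ V₀'
      W W' n c) (ϖ : K) (f : ↥(legE K N)) (k : ℤ)
    (hf : W.valuation (f * (algebraMap K ↥(legE K N) ϖ) ^ (-k)) = 1) :
    W.valuation (legHeckeP K N ℓ hℓ hℓ2 f *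
      (algebraMap K ↥(legE K N) ϖ) ^ (-((n : ℤ) * k))) = 1 := by
  have hBϖ : (legHostB K N ℓ hℓ hℓ2).toRingHom (algebraMap K ↥(legE K N) ϖ) =
      (legHostA K N ℓ).toRingHom (algebraMap K ↥(legE K N) ϖ) := by
    show (legHostB K N ℓ hℓ hℓ2) (algebraMap K ↥(legE K N) ϖ) =
      (legHostA K N ℓ) (algebraMap K ↥(legE K N) ϖ)
    rw [AlgHom.commutes, AlgHom.commutes]
  exact h.hecke_val hBϖ hf

end Three

/-- **[RESINDEP-K']**: over a base `K'` at `p`, the extension of Legendre hosts `E_{Mℓ} / E_M`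
(`ℓ ∤ M p` an odd prime) has a residually independent family of length `ℓ + 1` for the Gauss
valuation rings. -/
def LegResIndepBaseP : Prop :=
  ∀ (M : ℕ) [NeZero M] (p : ℕ) [NeZero p] (hp : p.Prime) (hp2 : p ≠ 2), ¬ p ∣ M →
  ∀ (A : ValuationSubring Ω), A.LiesOverPrime p →
  ∀ (K' : IntermediateField ℚ Ω) [IsDiscreteValuationRing ↥(baseRing A K')], IsBase p K' →
  ∀ (h2 : IsUnit (2 : ↥(baseRing A K')))
    (ℓ : ℕ) [NeZero ℓ] [NeZero (M * ℓ)] (hℓ : ℓ.Prime) (hℓ2 : ℓ ≠ 2), ¬ ℓ ∣ M * p →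
  ∃ c : Fin (ℓ + 1) → ↥(legE ↥K' (M * ℓ)),
    letI := (legHostA ↥K' M ℓ).toRingHom.toAlgebra
    ResIndep (legWinf ↥(baseRing A K') ↥K' h2 M) (legWinf ↥(baseRing A K') ↥K' h2 (M * ℓ)) c

set_option maxHeartbeats 1600000 in
/-- the order statement along `W_∞` from [RESINDEP-K']. -/
theorem legHeckeValInfP_of_resIndep (HRI : LegResIndepBaseP) : LegHeckeValInfP := by
  intro M _ p _ _ hp hp2 hpM A hA K' _ hK' ϖ hϖ h2 ℓ _ _ hℓ hℓ2 hℓMp f k hf
  classical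
  haveI : Fact p.Prime := ⟨hp⟩
  haveI : CharZero ↥(baseRing A K') := charZero_valuationSubring_of_algebraRat _
  letI := baseToComplex K'
  haveI : IsAlgClosed (ResidueField ↥(baseRing A K')) := hK'.isAlgClosed_residueField hA
  haveI : NeZero (M * ℓ) := ⟨Nat.mul_ne_zero (NeZero.ne M) hℓ.ne_zero⟩
  obtain ⟨x, y, hbez⟩ := exists_bezout_of_prime_of_not_dvd hp hpM
  have hpϖ := natCast_mem_span_uniformizer_baseRing hA K' hϖ
  have hmodel : SSModelLeg ↥(baseRing A K') ↥K' ϖ h2 hbez hp hp2 :=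
    ssModelLeg ↥(baseRing A K') ↥K' hϖ h2 hbez hp hp2 hpϖ
      (geoHyps_legE_baseRing hA M hpM hK' hp2 hϖ)
  have hℓM : ¬ ℓ ∣ M := fun h => hℓMp (h.mul_right p)
  have hdeg₀ := finrank_legHostA_base M ℓ hℓ hℓ2 hℓM K'
  have hdeg := finrank_legHostA_base (M * p) ℓ hℓ hℓ2 hℓMp K'
  obtain ⟨c, hc⟩ := HRI M p hp hp2 hpM A hA K' hK' h2 ℓ hℓ hℓ2 hℓMp
  have T := threeHyps_legInf' ↥(baseRing A K') ↥K' hmodel hℓ hℓ2 (Nat.succ_pos ℓ) hdeg₀ hdeg c hc
  have hR : algebraMap ↥(baseRing A K') ↥(legE ↥K' (M * p)) ϖ =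
      algebraMap ↥K' ↥(legE ↥K' (M * p)) (algebraMap ↥(baseRing A K') ↥K' ϖ) :=
    IsScalarTower.algebraMap_apply ↥(baseRing A K') ↥K' ↥(legE ↥K' (M * p)) ϖ
  rw [hR] at hf ⊢
  exact legHeckeVal_of_threeHyps T (algebraMap ↥(baseRing A K') ↥K' ϖ) f k hf

/-- a unit of the base ring is a unit of every valuation subring containing the base ring. -/
theorem delta_val_algebraMap_unit {R E : Type*} [CommRing R] [Field E] [Algebra R E]
    (W : ValuationSubring E) (hW : ∀ r : R, algebraMap R E r ∈ W) (u : Rˣ) :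
    W.valuation (algebraMap R E (u : R)) = 1 := by
  refine (hecker_val_eq_one_iff W).mpr ⟨?_, hW _, ?_⟩
  · intro h0
    have h1 : algebraMap R E ((u : R) * ((u⁻¹ : Rˣ) : R)) = 1 := by
      rw [Units.mul_inv, map_one]
    rw [map_mul, h0, zero_mul] at h1
    exact zero_ne_one h1
  · have h1 : (algebraMap R E (u : R))⁻¹ = algebraMap R E ((u⁻¹ : Rˣ) : R) := by
      apply inv_eq_of_mul_eq_one_right
      rw [← map_mul, Units.mul_inv, map_one]
    rw [h1]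
    exact hW _

set_option maxHeartbeats 1600000 in
/-- **(A) [DELTA]** from the two order statements. -/
theorem legDeltaLit_of_heckeVal (Hinf : LegHeckeValInfP) (H0 : LegHeckeValZeroP) :
    LegDeltaLit := by
  intro M _ p _ _ _ hp hp2 hpM A hA K' _ hK' ϖ hϖ h2 x y hbez ℓ _ _ hℓ hℓ2 hℓMp a ha f hf hrel
    ainf a0 hinf h0
  obtain ⟨c, u, hc, hu, hrel⟩ := hrel
  classical
  haveI : CharZero ↥(baseRing A K') := charZero_valuationSubring_of_algebraRat _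
  letI := baseToComplex K'
  haveI : IsAlgClosed (ResidueField ↥(baseRing A K')) := hK'.isAlgClosed_residueField hA
  have hpϖ := natCast_mem_span_uniformizer_baseRing hA K' hϖ
  have hmodel : SSModelLeg ↥(baseRing A K') ↥K' ϖ h2 hbez hp hp2 :=
    ssModelLeg ↥(baseRing A K') ↥K' hϖ h2 hbez hp hp2 hpϖ
      (geoHyps_legE_baseRing hA M hpM hK' hp2 hϖ)
  haveI : FiniteDimensional ↥(↥K')⟮jqNModC ↥K' 2⟯ ↥(legE ↥K' (M * p)) :=
    finite_legE_adjoin_j ↥K' (M * p)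
  have h' := SSModelLeg.ssModel ↥(baseRing A K') ↥K' hmodel
  -- `p = ε ϖ ^ e₁`
  have hp0' : ((p : ℕ) : ↥(baseRing A K')) ≠ 0 := Nat.cast_ne_zero.mpr hp.ne_zero
  obtain ⟨e₁, ε, hpe⟩ := IsDiscreteValuationRing.eq_unit_mul_pow_irreducible hp0' hϖ
  have he₁ : 0 < e₁ := by
    rcases Nat.eq_zero_or_pos e₁ with h0 | h0
    · exfalso
      rw [h0, pow_zero, mul_one] at hpe
      have hu : IsUnit ((p : ℕ) : ↥(baseRing A K')) := hpe ▸ Units.isUnit _
      obtain ⟨z, hz⟩ := Ideal.mem_span_singleton.mp hpϖ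
      rw [hz] at hu
      exact hϖ.not_isUnit (isUnit_of_mul_isUnit_left hu)
    · exact h0
  -- notation
  set ϖE : ↥(legE ↥K' (M * p)) := algebraMap ↥(baseRing A K') ↥(legE ↥K' (M * p)) ϖ with hϖE
  have hϖE0 : ϖE ≠ 0 := SSModel_pi_ne_zero h'
  -- the uniformizer is a non-unit of both sheets
  have hRinf : ∀ r : ↥(baseRing A K'), algebraMap ↥(baseRing A K') ↥(legE ↥K' (M * p)) r ∈
      legWinf ↥(baseRing A K') ↥K' h2 (M * p) := by
    intro r
    have h1 := h'.two.gauss_inf.1 (Polynomial.C r)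
    rw [Polynomial.aeval_C] at h1
    have h3 : algebraMap ↥(↥K')⟮jqNModC ↥K' 2⟯ ↥(legE ↥K' (M * p))
        (algebraMap ↥(baseRing A K') ↥(↥K')⟮jqNModC ↥K' 2⟯ r) ∈
          legWinf ↥(baseRing A K') ↥K' h2 (M * p) := h1
    rwa [← IsScalarTower.algebraMap_apply ↥(baseRing A K') ↥(↥K')⟮jqNModC ↥K' 2⟯ ↥(legE ↥K' (M * p))] at h3
  have hR0 : ∀ r : ↥(baseRing A K'), algebraMap ↥(baseRing A K') ↥(legE ↥K' (M * p)) r ∈
      legW0 ↥(baseRing A K') ↥K' hbez hp := by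
    intro r
    have h1 := h'.two.gauss_zero.1 (Polynomial.C r)
    rw [Polynomial.aeval_C] at h1
    have h3 : algebraMap ↥(↥K')⟮jqNModC ↥K' 2⟯ ↥(legE ↥K' (M * p))
        (algebraMap ↥(baseRing A K') ↥(↥K')⟮jqNModC ↥K' 2⟯ r) ∈
          legW0 ↥(baseRing A K') ↥K' hbez hp := h1
    rwa [← IsScalarTower.algebraMap_apply ↥(baseRing A K') ↥(↥K')⟮jqNModC ↥K' 2⟯ ↥(legE ↥K' (M * p))] at h3
  have hlt : ∀ W : ValuationSubring ↥(legE ↥K' (M * p)), ϖE ∈ W → ϖE⁻¹ ∉ W → W.valuation ϖE < 1 := by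
    intro W hmem hinv
    rcases lt_or_eq_of_le ((ValuationSubring.valuation_le_one_iff _ _).mpr hmem) with h1 | h1
    · exact h1
    · exfalso
      apply hinv
      rw [← ValuationSubring.valuation_le_one_iff, map_inv₀, h1, inv_one]
  have hϖinf : (legWinf ↥(baseRing A K') ↥K' h2 (M * p)).valuation ϖE < 1 :=
    hlt _ (hRinf ϖ) (SSModel_pi_inv_notMem_inf h')
  have hϖ0 : (legW0 ↥(baseRing A K') ↥K' hbez hp).valuation ϖE < 1 := by
    refine hlt _ (hR0 ϖ) ?_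
    intro hmem
    apply h'.two.gauss_zero.2.1
    show algebraMap ↥(↥K')⟮jqNModC ↥K' 2⟯ ↥(legE ↥K' (M * p))
      (algebraMap ↥(baseRing A K') ↥(↥K')⟮jqNModC ↥K' 2⟯ ϖ)⁻¹ ∈ legW0 ↥(baseRing A K') ↥K' hbez hp
    rwa [map_inv₀, ← IsScalarTower.algebraMap_apply ↥(baseRing A K') ↥(↥K')⟮jqNModC ↥K' 2⟯ ↥(legE ↥K' (M * p))]
  -- the orders of `u`
  obtain ⟨binf, hub⟩ := SSModel.exists_zpow_val_eq_one_inf h' he₁ hpe hu
  obtain ⟨b0, hub0⟩ := SSModel.exists_zpow_val_eq_one_zero h' he₁ hpe hu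
  -- the constant `c`
  obtain ⟨γ, uc, hcγ⟩ := IsDiscreteValuationRing.exists_units_eq_smul_zpow_of_irreducible
    (K := ↥K') hϖ hc
  have hcE : algebraMap ↥K' ↥(legE ↥K' (M * p)) c * ϖE ^ (-γ) = algebraMap ↥(baseRing A K') ↥(legE ↥K' (M * p)) (uc : ↥(baseRing A K')) := by
    rw [hcγ, Units.smul_def, Algebra.smul_def, map_mul, map_zpow₀,
      ← IsScalarTower.algebraMap_apply ↥(baseRing A K') ↥K' ↥(legE ↥K' (M * p)),
      ← IsScalarTower.algebraMap_apply ↥(baseRing A K') ↥K' ↥(legE ↥K' (M * p)), mul_assoc, ← zpow_add₀ hϖE0,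
      add_neg_cancel, zpow_zero, mul_one]
  have hcinf : (legWinf ↥(baseRing A K') ↥K' h2 (M * p)).valuation
      (algebraMap ↥K' ↥(legE ↥K' (M * p)) c * ϖE ^ (-γ)) = 1 := by
    rw [hcE]; exact delta_val_algebraMap_unit _ hRinf uc
  have hc0 : (legW0 ↥(baseRing A K') ↥K' hbez hp).valuation
      (algebraMap ↥K' ↥(legE ↥K' (M * p)) c * ϖE ^ (-γ)) = 1 := by
    rw [hcE]; exact delta_val_algebraMap_unit _ hR0 uc
  -- the orders of `f`, `u`, `T f`
  have hfinf : (legWinf ↥(baseRing A K') ↥K' h2 (M * p)).valuation (f * ϖE ^ (-ainf)) = 1 := by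
    rw [zpow_neg]; exact hinf
  have hf0 : (legW0 ↥(baseRing A K') ↥K' hbez hp).valuation (f * ϖE ^ (-a0)) = 1 := by
    rw [zpow_neg]; exact h0
  have huinf : (legWinf ↥(baseRing A K') ↥K' h2 (M * p)).valuation (u * ϖE ^ (-binf)) = 1 := by
    rw [zpow_neg]; exact hub
  have hu0 : (legW0 ↥(baseRing A K') ↥K' hbez hp).valuation (u * ϖE ^ (-b0)) = 1 := by
    rw [zpow_neg]; exact hub0
  have hTinf := Hinf M p hp hp2 hpM A hA K' hK' ϖ hϖ h2 ℓ hℓ hℓ2 hℓMp f ainf hfinf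
  have hT0 := H0 M p hp hp2 hpM A hA K' hK' ϖ hϖ h2 hbez ℓ hℓ hℓ2 hℓMp f a0 hf0
  have key := hecker_delta_abstract (legWinf ↥(baseRing A K') ↥K' h2 (M * p))
    (legW0 ↥(baseRing A K') ↥K' hbez hp) hϖE0 hϖinf hϖ0 (n := ℓ + 1) hrel hfinf hf0 hcinf hc0
    huinf hu0 hTinf hT0
  refine hecker_dvd_of_delta hp (n := ℓ + 1) ?_ key
  push_cast
  exact ha

/-- **(A) [DELTA]** from [RESINDEP-K'] and the order statement along `W_0`. -/
theorem legDeltaLit_of_resIndep (HRI : LegResIndepBaseP) (H0 : LegHeckeValZeroP) : LegDeltaLit :=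
  legDeltaLit_of_heckeVal (legHeckeValInfP_of_resIndep HRI) H0

end Fermat.Agent.MP
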