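/-
MP40 (row 38: S44 / S40) — helper2 — **the three-level datum of the sheet `∞` on the Legendre
hosts, cast-free version** (`threeHyps_legInf'`).

Levels `M`, `M ℓ` (good reduction) and `M p`, `M p ℓ`; the sheet `W_∞` is the coefficientwise Gauss
valuation ring at all four levels, parametrised by the inclusions.  All the compatibilities are
proved by rewriting with the coercion lemmas (`coe_legHostA`, `coe_legHostB`, `coe_legInclMid`),
never by a definitional unfolding across two levels.
-/
import Mathlib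
import Fermat.Agent.MP.HECKER_helper7_Three
import Fermat.Agent.SS.BASE_helper1_Leg
import Fermat.Agent.SS.MODEL_helper7_Leg

set_option autoImplicit false
set_option linter.unusedSectionVars false
set_option linter.unusedVariables false
set_option linter.style.haveILetI false
set_option synthInstance.maxHeartbeats 200000

open Polynomial ModularCurve IntermediateField

namespace Fermat.Agent.MP

open Fermat.Agent.JA Fermat.Agent.Igusa Fermat.Agent.SS

open scoped Fermat.Agent.JA.Host

noncomputable section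

section Leg

variable (R : Type*) [CommRing R] [IsDomain R] [IsDiscreteValuationRing R] [CharZero R]
  [DecidableEq R]
  (K : Type*) [Field K] [Algebra R K] [IsFractionRing R K] [Algebra ℚ K] [Algebra K ℂ]
  (M p ℓ : ℕ) [NeZero M] [NeZero p] [NeZero ℓ] [NeZero (M * p)] [NeZero (M * ℓ)]
  [NeZero (M * p * ℓ)]

/-- the inclusion `E_{Mℓ} → E_{Mpℓ}` (the degeneracy map `A_p` of level `M ℓ`, with the level
written `M p ℓ`). -/
def legInclMid : ↥(legE K (M * ℓ)) →ₐ[K] ↥(legE K (M * p * ℓ)) :=
  IntermediateField.inclusion (legE_le_of_dvd K ⟨p, by ring⟩)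

@[simp] theorem coe_legInclMid (f : ↥(legE K (M * ℓ))) :
    ((legInclMid K M p ℓ f : ↥(legE K (M * p * ℓ))) : LaurentSeries K) = f :=
  IntermediateField.coe_inclusion _ f

variable {M p ℓ} {x y : ℤ} {π : R}

theorem legInclMid_legHostA (z : ↥(legE K M)) :
    legHostA K (M * p) ℓ (legHostA K M p z) = legInclMid K M p ℓ (legHostA K M ℓ z) := by
  apply Subtype.ext
  rw [coe_legHostA, coe_legHostA, coe_legInclMid, coe_legHostA]

theorem legInclMid_legHostB (hℓ : ℓ.Prime) (hℓ2 : ℓ ≠ 2) (z : ↥(legE K M)) :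
    legHostB K (M * p) ℓ hℓ hℓ2 (legHostA K M p z) =
      legInclMid K M p ℓ (legHostB K M ℓ hℓ hℓ2 z) := by
  apply Subtype.ext
  rw [coe_legHostB, coe_legHostA, coe_legInclMid, coe_legHostB]

theorem legWinf_comap_legInclMid (h2 : IsUnit (2 : R)) :
    (legWinf R K h2 (M * p * ℓ)).comap (legInclMid K M p ℓ).toRingHom =
      legWinf R K h2 (M * ℓ) := by
  ext z
  rw [ValuationSubring.mem_comap]
  show ((legInclMid K M p ℓ z : ↥(legE K (M * p * ℓ))) : LaurentSeries K) ∈ gaussInt R K ↔
    (z : LaurentSeries K) ∈ gaussInt R K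
  rw [coe_legInclMid]

/-- **the three-level datum of the sheet `∞`.** -/
theorem threeHyps_legInf' {h2 : IsUnit (2 : R)} {hbez : (p : ℤ) * x + M * y = 1} {hp : p.Prime}
    {hp2 : p ≠ 2} (hmodel : SSModelLeg R K π h2 hbez hp hp2) (hℓ : ℓ.Prime) (hℓ2 : ℓ ≠ 2)
    {n : ℕ} (hn : 0 < n)
    (hdeg₀ : letI := (legHostA K M ℓ).toRingHom.toAlgebra;
      Module.finrank ↥(legE K M) ↥(legE K (M * ℓ)) = n)
    (hdeg : letI := (legHostA K (M * p) ℓ).toRingHom.toAlgebra;
      Module.finrank ↥(legE K (M * p)) ↥(legE K (M * p * ℓ)) = n)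
    (c : Fin n → ↥(legE K (M * ℓ)))
    (hc : letI := (legHostA K M ℓ).toRingHom.toAlgebra;
      ResIndep (legWinf R K h2 M) (legWinf R K h2 (M * ℓ)) c) :
    ThreeHyps (legHostA K M ℓ).toRingHom (legHostB K M ℓ hℓ hℓ2).toRingHom
      (legHostA K (M * p) ℓ).toRingHom (legHostB K (M * p) ℓ hℓ hℓ2).toRingHom
      (legHostA K M p).toRingHom (legInclMid K M p ℓ).toRingHom
      (legWinf R K h2 M) (legWinf R K h2 (M * ℓ)) (legWinf R K h2 (M * p))
      (legWinf R K h2 (M * p * ℓ)) n c := by
  haveI : FiniteDimensional ↥K⟮jqNModC K 2⟯ ↥(legE K (M * p)) := finite_legE_adjoin_j K (M * p)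
  have h' := SSModelLeg.ssModel R K hmodel
  refine
    { hAP := fun z => legInclMid_legHostA K z
      hBP := fun z => legInclMid_legHostB K hℓ hℓ2 z
      comap_P := ssModelLeg_comap_A_inf R K (M := M) (q := p) h2
      comap_P' := legWinf_comap_legInclMid R K h2
      comap_A := ssModelLeg_comap_A_inf R K (M := M * p) (q := ℓ) h2
      comap_B := ssModelLeg_comap_B_inf R K (M := M * p) h2 hℓ hℓ2
      comap_A₀ := ssModelLeg_comap_A_inf R K (M := M) (q := ℓ) h2
      comap_B₀ := ssModelLeg_comap_B_inf R K (M := M) h2 hℓ hℓ2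
      res := h'.res_inf
      finA₀ := ?_
      degA₀ := hdeg₀
      finA := ?_
      degA := hdeg
      indep := hc }
  · letI := (legHostA K M ℓ).toRingHom.toAlgebra
    exact Module.finite_of_finrank_pos (by rw [hdeg₀]; exact hn)
  · letI := (legHostA K (M * p) ℓ).toRingHom.toAlgebra
    exact Module.finite_of_finrank_pos (by rw [hdeg]; exact hn)

end Leg

end

end Fermat.Agent.MP
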