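/-
MP40 (row 38: S44 / S40) — helper4 — **[KEYPEU-DESC], part 2: from the base statement `LegPeuBaseP₀`
to `KeyPeuFrom₂`**.

Chain (after helper2's `NP.oldTopKummerAt_of_base`): `x ∈ J₀(M p)[p]` with `InertiaLineAt`; the
invariant pair `(D, f)` of `x` (`f` monic, fixed by the stabiliser of `x`); the base `K'`, stable
under `I_A`, fixed by `H = {τ ∈ I_A | τ ζ = ζ, τ x = x}`, over which `f`, `ζ` and the (peu) witness
`r` are defined; the norm conditions and the Hecke relations descend to `K'` (descent of `p`-th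
roots); `LegPeuBaseP₀` at `K'`; the Kummer form goes back to `Ω` with `legBC`.
-/
import Mathlib
import Fermat.Agent.MP.DESC_helper4_Base
import Fermat.Agent.MP.KPBASE_helper4_Iface
import Fermat.Agent.NP.BASEP_helper2_NewDesc
import Fermat.Agent.NP.BASEP_helper2_OldTopDesc

set_option autoImplicit false
set_option linter.unusedSectionVars false
set_option linter.unusedVariables false
set_option linter.style.haveILetI false
set_option synthInstance.maxHeartbeats 400000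

open HahnSeries IntermediateField AlgebraicCurve ModularCurve IsLocalRing

namespace Fermat.Agent.MP

open Fermat.Agent.JA Fermat.Agent.FF Fermat.Agent.SS Fermat.Agent.X0N Fermat.Agent.S35
  Fermat.Agent.S36 Fermat.Agent.NP

/-- `Ω = AlgebraicClosure ℚ`. -/
local notation "Ω" => AlgebraicClosure ℚ

/-- the absolute Galois group. -/
local notation "GQ" => (AlgebraicClosure ℚ ≃ₐ[ℚ] AlgebraicClosure ℚ)

/-- **the `Ω`-level Hecke relation**: `T_ℓ [D] = a [D]` and `div f = p D` give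
`T_ℓ f = c f ^ a u ^ p`. -/
def HeckeKummerBar : Prop :=
  ∀ (N ℓ : ℕ) [NeZero N] [NeZero ℓ] [NeZero (N * ℓ)] (hℓ : ℓ.Prime) (p : ℕ)
    (D : Divisor.degZero (K := Ω) (F := ↥(modularFunctionFieldBar N)))
    (f : ↥(modularFunctionFieldBar N)), f ≠ 0 →
    (∀ v : Place Ω ↥(modularFunctionFieldBar N),
      v.ord f = (p : ℤ) * (D : Divisor Ω ↥(modularFunctionFieldBar N)) v) →
    ∀ a : ℤ, heckeOperatorBar N ⟨ℓ, hℓ⟩ (Pic0.mk D : JZero N) = a • (Pic0.mk D : JZero N) →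
    ∃ (c : Ω) (u : ↥(modularFunctionFieldBar N)), c ≠ 0 ∧ u ≠ 0 ∧
      heckeFunBar N ℓ f = algebraMap Ω ↥(modularFunctionFieldBar N) c * f ^ a * u ^ p

section Compat

variable (N : ℕ) [NeZero N] (K' : IntermediateField ℚ Ω)

/-- the coefficientwise actions of `s ∈ Aut(K')` and `σ ∈ G_ℚ` on the Legendre hosts are compatible
as soon as `σ` restricts to `s`. -/
theorem legBC_legGalois_smul_of_restrict (s : ↥K' ≃ₐ[ℚ] ↥K') (σ : GQ)
    (hs : ∀ a : ↥K', algebraMap ↥K' Ω (s a) = σ (algebraMap ↥K' Ω a)) (x : ↥(legE ↥K' N)) :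
    legBC N K' (legGalois ↥K' N s • x) = legGalois Ω N σ • legBC N K' x :=
  coeffHom_coeffGalois_smul (algebraMap ↥K' Ω) (coeffStable_legE ↥K' N) (coeffStable_legE Ω N) _
    hs x

end Compat

section Core

variable (M p : ℕ) [NeZero M] [NeZero p] [NeZero (M * p)]

set_option maxHeartbeats 6400000 in
/-- **the core of the descent**: given a primitive root `ζ`, a finite set `s` of `H`-fixed
constants and the wild alternative over every suitable base, the base statement gives the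
conclusion of (KEY-PEU). -/
theorem keyPeu_core (p₀ : ℕ) (hH : HeckeKummerBar) (hB : LegPeuBaseP₀ p₀) (hp : p.Prime)
    (hp0 : p₀ ≤ p) (hp2 : p ≠ 2) (hpM : ¬ p ∣ M) (A : ValuationSubring Ω)
    (hA : A.LiesOverPrime p) (S : Set ℕ) (a : ℕ → ℤ)
    (hS : ∀ ℓ : ℕ, ℓ.Prime → ℓ ∣ M * p → ℓ ∈ S)
    (hnE : ∃ ℓ : ℕ, ℓ.Prime ∧ ℓ ∉ S ∧ ¬ (a ℓ ≡ (ℓ : ℤ) + 1 [ZMOD (p : ℤ)]))
    (x : JZero (M * p)) (hpx : p • x = 0) (hα : degPushAlpha M p x = 0)
    (hβ : degPushBeta M p x = 0)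
    (hT : ∀ (ℓ : ℕ) (hℓ : ℓ.Prime), ℓ ∉ S → heckeOperatorBar (M * p) ⟨ℓ, hℓ⟩ x = a ℓ • x)
    (y : JZero (M * p)) (hpy : p • y = 0)
    (hxy : ∀ τ ∈ A.inertiaSubgroupIn ℚ, ∃ n : ℕ, τ • x = x + n • y)
    (hyc : ∀ τ ∈ A.inertiaSubgroupIn ℚ, ∀ c : ℕ, CycAct p τ c → τ • y = c • y)
    (ζ : Ω) (hζ : IsPrimitiveRoot ζ p) (s : Finset Ω)
    (hs : ∀ z ∈ s, ∀ τ ∈ peuStab A ζ x, τ z = z)
    (halt : ∀ (K' : IntermediateField ℚ Ω)
      (hstab : ∀ σ ∈ A.inertiaSubgroupIn ℚ, ∀ z ∈ K', σ z ∈ K') (ζR : ↥(baseRing A K')),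
      ((ζR : ↥K') : Ω) = ζ → (∀ z ∈ s, z ∈ K') →
      (∀ τ ∈ peuStab A ζ x, ∀ z ∈ K', τ z = z) → PeuBaseAlt p A K' hstab ζR) :
    (∀ σ ∈ A.inertiaSubgroupIn ℚ, ∀ c : ℕ, CycAct p σ c → σ • x = c • x) ∨
      ResOccurs M p S a := by
  classical
  haveI : Fact p.Prime := ⟨hp⟩
  -- the invariant pair
  obtain ⟨D, f, hf, hDx, hfD, hlc, -, hfinv⟩ := exists_invariant_pair (M * p) p x hpx
    {σ : GQ | σ • x = x} (fun σ hσ => hσ)
  have hHflat : ∀ τ ∈ peuStab A ζ x, ∀ b ∈ flatBase p, τ b = b :=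
    fun τ hτ b hb => inertia_apply_of_mem_flatBase hA hτ.1 hb
  have hnorm : ∀ σ ∈ A.inertiaSubgroupIn ℚ, ∀ τ ∈ peuStab A ζ x,
      σ⁻¹ * τ * σ ∈ peuStab A ζ x :=
    fun σ hσ τ hτ => conj_mem_peuStab hζ hp hxy hyc hσ hτ
  have hfix : ∀ σ ∈ peuStab A ζ x, coeffMap ((σ : GQ) : Ω →+* Ω)
      ((f : ↥(modularFunctionFieldBar (M * p))) : LaurentSeries Ω) =
        ((f : ↥(modularFunctionFieldBar (M * p))) : LaurentSeries Ω) :=
    fun σ hσ => congrArg Subtype.val (hfinv σ hσ.2.2)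
  -- the base
  obtain ⟨K', hK', hsK', hstab, hK'fix, f₁, hf₁mem, hf₁⟩ := exists_stable_descent p
    (A.inertiaSubgroupIn ℚ) (peuStab A ζ x) hHflat hnorm (insert ζ s)
    (fun z hz τ hτ => by
      rcases Finset.mem_insert.1 hz with rfl | hz
      · exact hτ.2.1
      · exact hs z hz τ hτ)
    (modularFunctionFieldFull (M * p)) f.2 hfix
  have hζK' : ζ ∈ K' := hsK' ζ (Finset.mem_insert_self _ _)
  set F₁ : ↥(keyFq ↥K' (M * p)) := ⟨f₁, hf₁mem⟩ with hF₁def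
  have hBC0 : keyFqBC (M * p) K' F₁ = f := Subtype.ext hf₁
  have hF₁0 : F₁ ≠ 0 := by
    intro h0
    apply hf
    rw [← hBC0, h0, map_zero]
  have hF₁lc : ((F₁ : ↥(keyFq ↥K' (M * p))) : LaurentSeries ↥K').leadingCoeff = 1 := by
    have h1 := leadingCoeff_coeffMap_of_injective (f := algebraMap ↥K' Ω)
      (algebraMap ↥K' Ω).injective f₁
    rw [hf₁, hlc] at h1
    exact (algebraMap ↥K' Ω).injective (by rw [← h1, map_one])
  -- the primitive root in the base ring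
  have hvζ : A.valuation ζ = 1 := by
    have h1 : A.valuation ζ ^ p = 1 := by rw [← map_pow, hζ.pow_eq_one, map_one]
    exact (pow_eq_one_iff.1 h1).resolve_right hp.ne_zero
  set ζR : ↥(baseRing A K') := ⟨⟨ζ, hζK'⟩, mem_baseRing_iff.2 (le_of_eq hvζ)⟩ with hζRdef
  have hζR : IsPrimitiveRoot ζR p := by
    refine IsPrimitiveRoot.of_map_of_injective
      (f := (algebraMap ↥K' Ω).comp (baseRing A K').subtype) hζ ?_
    exact (algebraMap ↥K' Ω).injective.comp Subtype.val_injective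
  -- the wild index
  have hwild : ∀ ϖ : ↥(baseRing A K'), Irreducible ϖ →
      ∃ (m : ℕ) (u : (↥(baseRing A K'))ˣ), 0 < m ∧ m ≤ p ∧ ζR - 1 = u * ϖ ^ m :=
    fun ϖ hϖ => exists_zeta_sub_one_eq_unit_mul_pow hp hA hζ hpy hxy K' hK' hK'fix ζR rfl hϖ
  -- the divisor condition
  have hord : ∀ P : Place ↥K' ↥(legE ↥K' (M * p)),
      (p : ℤ) ∣ P.ord (fullToLegE ↥K' (M * p) F₁) := fun P =>
    dvd_ord_fullToLegE_of_keyFqBC (M * p) K' F₁ (fun v => by rw [hBC0]; exact ⟨_, hfD v⟩) P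
  -- the norm conditions
  have hNA : ∃ (c : ↥K') (h : ↥(keyFq ↥K' M)), c ≠ 0 ∧ h ≠ 0 ∧
      (letI := (keyFqA ↥K' M p).toRingHom.toAlgebra; Algebra.norm ↥(keyFq ↥K' M) F₁) =
        algebraMap ↥K' ↥(keyFq ↥K' M) c * h ^ p := by
    obtain ⟨b, h, hb, hh, hN⟩ := exists_normAlong_eq_of_degPush_eq_zero M p
      (heckeAlphaBar Ω M p) D f hf hfD (by rw [hDx]; exact hα)
    rw [norm_keyFqA_eq_normAlong]
    exact exists_base_root K' M hp.pos (normAlong (heckeAlphaBar ↥K' M p) F₁) b h hb hh (by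
      rw [keyFqBC_normAlong_heckeAlphaBar M p K' hp, hBC0]
      exact hN)
  have hNB : ∃ (c : ↥K') (h : ↥(keyFq ↥K' M)), c ≠ 0 ∧ h ≠ 0 ∧
      (letI := (keyFqB ↥K' M p).toRingHom.toAlgebra; Algebra.norm ↥(keyFq ↥K' M) F₁) =
        algebraMap ↥K' ↥(keyFq ↥K' M) c * h ^ p := by
    obtain ⟨b, h, hb, hh, hN⟩ := exists_normAlong_eq_of_degPush_eq_zero M p
      (heckeBetaBar Ω M p) D f hf hfD (by rw [hDx]; exact hβ)
    rw [norm_keyFqB_eq_normAlong]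
    exact exists_base_root K' M hp.pos (normAlong (heckeBetaBar ↥K' M p) F₁) b h hb hh (by
      rw [keyFqBC_normAlong_heckeBetaBar M p K' hp, hBC0]
      exact hN)
  -- the Hecke relations
  have hHecke : HeckeRelK ↥K' (M * p) p S a F₁ := by
    intro ℓ hℓ hℓS
    haveI : NeZero ℓ := ⟨hℓ.ne_zero⟩
    haveI : NeZero (M * p * ℓ) := ⟨Nat.mul_ne_zero (NeZero.ne (M * p)) hℓ.ne_zero⟩
    obtain ⟨c, u, hc, hu, hrel⟩ := hH (M * p) ℓ hℓ p D f hf hfD (a ℓ)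
      (by rw [hDx]; exact hT ℓ hℓ hℓS)
    obtain ⟨c₀, u₀, hc₀, hu₀, hX⟩ := exists_base_root K' (M * p) hp.pos
      (heckeFunK ↥K' (M * p) ℓ F₁ / F₁ ^ (a ℓ)) c u hc hu (by
        rw [map_div₀, keyFqBC_heckeFunK (M * p) ℓ hℓ, map_zpow₀, hBC0]
        have h1 : heckeFunK Ω (M * p) ℓ f = heckeFunBar (M * p) ℓ f := rfl
        rw [h1, hrel]
        have hfa : f ^ (a ℓ) ≠ 0 := zpow_ne_zero _ hf
        field_simp)
    refine ⟨c₀, u₀, hc₀, hu₀, ?_⟩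
    have hFa : F₁ ^ (a ℓ) ≠ 0 := zpow_ne_zero _ hF₁0
    rw [div_eq_iff hFa] at hX
    rw [hX]
    ring
  -- the base statement
  rcases hB M p hp hp0 hpM A hA K' hK' hstab ζR hζR hwild
    (halt K' hstab ζR rfl (fun z hz => hsK' z (Finset.mem_insert_of_mem hz)) hK'fix)
    S a hS hnE F₁ hF₁0 hF₁lc hord hNA hNB hHecke with h1 | h2
  · left
    intro σ hσ c hc
    obtain ⟨c', u, hc', hu⟩ := h1 σ hσ c hc
    have hfE : fullToLegE ↥K' (M * p) F₁ ≠ 0 := (map_ne_zero _).2 hF₁0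
    have hu0 : u ≠ 0 := by
      rintro rfl
      rw [zero_pow hp.ne_zero, mul_zero] at hu
      have h2 : legGalois ↥K' (M * p)
          (resStable K' σ (hstab σ hσ) (hstab σ⁻¹ (inv_mem hσ))) •
            fullToLegE ↥K' (M * p) F₁ ≠ 0 := by simpa using hfE
      exact div_ne_zero h2 (pow_ne_zero _ hfE) hu
    have h3 := congrArg (legBC (M * p) K') hu
    rw [map_div₀, legBC_legGalois_smul_of_restrict (M * p) K' _ σ (fun _ => rfl), map_pow,
      map_mul, map_pow, legBC_algebraMap, bcdeg_legBC_fullToLegE, hBC0] at h3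
    have h4 := jzero_smul_eq_nsmul_of_leg_kummer (M * p) hp hp2 σ c D f hf hfD
      (algebraMap ↥K' Ω c') (legBC (M * p) K' u) ((map_ne_zero _).2 hc') ((map_ne_zero _).2 hu0) h3
    rwa [hDx] at h4
  · exact Or.inr h2

set_option maxHeartbeats 1600000 in
/-- **(KEY-PEU), revised, at one place, from the base statement.** -/
theorem keyPeuAt₂_of_base (p₀ : ℕ) (hH : HeckeKummerBar) (hB : LegPeuBaseP₀ p₀) (hp : p.Prime)
    (hp0 : p₀ ≤ p) (hp2 : p ≠ 2) (hpM : ¬ p ∣ M) (A : ValuationSubring Ω)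
    (hA : A.LiesOverPrime p) : KeyPeuAt₂ M p A := by
  intro S a hS hnE x hpx hα hβ hT hpeu hline
  obtain ⟨y, hpy, hxy, hyc⟩ := hline
  haveI : NeZero ((p : ℕ) : Ω) := ⟨by exact_mod_cast hp.ne_zero⟩
  by_cases hw : ∃ τ ∈ A.inertiaSubgroupIn ℚ, CycAct p τ 1 ∧ τ • x ≠ x
  · -- a wild element moving `x`
    obtain ⟨τ, hτ, hτ1, hτx⟩ := hw
    obtain ⟨r, hrA, hrfix, hτr, ζ, hζ, hd⟩ := hpeu τ hτ hτ1 hτx
    have hτζ : τ ζ = ζ := by
      have h := hτ1 ζ hζ.pow_eq_one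
      rwa [pow_one] at h
    refine keyPeu_core M p p₀ hH hB hp hp0 hp2 hpM A hA S a hS hnE x hpx hα hβ hT y hpy hxy hyc
      ζ hζ {r} (fun z hz σ hσ => by
        rw [Finset.mem_singleton.1 hz]
        exact hrfix σ hσ.2.2) ?_
    intro K' hstab ζR hζR hsK hK'fix
    have hζK : ζ ∈ K' := by
      rw [← hζR]
      exact (ζR : ↥K').2
    obtain ⟨rR, dR, -, hne, heq⟩ := exists_peu_baseRing K' (hstab τ hτ)
      (hstab τ⁻¹ (inv_mem hτ)) hζK (hsK r (Finset.mem_singleton_self r)) hrA hτr hd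
    refine Or.inr ⟨τ, hτ, by rw [hζR]; exact hτζ,
      resStable_pow_prime_eq_one hζ hp hpy hxy hyc K' hK'fix hτ hτζ _ _, rR, dR, hne, ?_⟩
    have h1 : (ζR : ↥K') = ⟨ζ, hζK⟩ := Subtype.ext hζR
    rw [h1]
    exact heq
  · -- the wild inertia fixes `x`
    obtain ⟨ζ, hζ⟩ : ∃ ζ : Ω, IsPrimitiveRoot ζ p :=
      HasEnoughRootsOfUnity.exists_primitiveRoot Ω p
    refine keyPeu_core M p p₀ hH hB hp hp0 hp2 hpM A hA S a hS hnE x hpx hα hβ hT y hpy hxy hyc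
      ζ hζ ∅ (fun z hz => absurd hz (Finset.notMem_empty z)) ?_
    intro K' hstab ζR hζR hsK hK'fix
    refine Or.inl fun τ hτ hτζ z hz => ?_
    rw [hζR] at hτζ
    refine hK'fix τ ⟨hτ, hτζ, ?_⟩ z hz
    by_contra hne
    exact hw ⟨τ, hτ, cycAct_one_of_apply_eq hζ hp hτζ, hne⟩

end Core

/-- **[KEYPEU-DESC]: `LegPeuBaseP₀ p₀ → KeyPeuFrom₂ p₀`** (`p₀ ≥ 3`), modulo the `Ω`-level Hecke
relation. -/
theorem keyPeuFrom₂_of_base (p₀ : ℕ) (h3 : 3 ≤ p₀) (hH : HeckeKummerBar) (hB : LegPeuBaseP₀ p₀) :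
    KeyPeuFrom₂ p₀ := by
  intro M p _ _ _ hp hp0 hpM A hA
  have hp2 : p ≠ 2 := by omega
  exact keyPeuAt₂_of_base M p p₀ hH hB hp hp0 hp2 hpM A hA

end Fermat.Agent.MP
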