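/-
MP40 (S40) — helper4 — [ECPEU], the ramification break: in a discrete valuation ring `R` with
uniformizer `ϖ`, generated modulo `ϖ` by a set `S` of elements fixed by the endomorphism `τ`
(`R = S + ϖ R`: totally ramified over the fixed ring), `τ ϖ - ϖ` divides `τ r - r` for every `r`.
So `v(τ ϖ - ϖ) = min_r v(τ r - r)`, and an `r` with `v(τ r - r) ≤ v(ζ_p - 1)` ([ECPEU]) bounds the
break.
-/
import Mathlib

set_option autoImplicit false

namespace Fermat.Agent.MP

variable {R : Type*} [CommRing R] [IsDomain R] [IsDiscreteValuationRing R]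

/-- an element of a discrete valuation ring divisible by all powers of a uniformizer is zero. -/
theorem eq_zero_of_forall_irreducible_pow_dvd {ϖ : R} (hϖ : Irreducible ϖ) {x : R}
    (h : ∀ k : ℕ, ϖ ^ k ∣ x) : x = 0 := by
  by_contra hx
  obtain ⟨n, u, hu⟩ := IsDiscreteValuationRing.eq_unit_mul_pow_irreducible hx hϖ
  obtain ⟨c, hc⟩ := h (n + 1)
  have h1 : ϖ ^ n * (u : R) = ϖ ^ n * (ϖ * c) := by
    rw [← mul_assoc, ← pow_succ, ← hc, hu, mul_comm]
  have h2 := mul_left_cancel₀ (pow_ne_zero n hϖ.ne_zero) h1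
  exact hϖ.not_isUnit (isUnit_of_mul_isUnit_left (h2 ▸ u.isUnit))

/-- **the ramification break is computed on the uniformizer.** -/
theorem sub_dvd_map_sub {ϖ : R} (hϖ : Irreducible ϖ) (τ : R →+* R) (S : Set R)
    (hS : ∀ a ∈ S, τ a = a) (hres : ∀ r : R, ∃ a ∈ S, ϖ ∣ r - a) (r : R) :
    (τ ϖ - ϖ) ∣ (τ r - r) := by
  have key : ∀ k : ℕ, ∀ r : R, ∃ x y : R, τ r - r = (τ ϖ - ϖ) * x + ϖ ^ k * y := by
    intro k
    induction k with
    | zero => exact fun r => ⟨0, τ r - r, by ring⟩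
    | succ k ih =>
      intro r
      obtain ⟨a, ha, r₁, hr₁⟩ := hres r
      obtain ⟨x, y, hxy⟩ := ih r₁
      refine ⟨τ r₁ + ϖ * x, y, ?_⟩
      have hr : r = a + ϖ * r₁ := by rw [← hr₁]; ring
      have h1 : τ r - r = (τ ϖ - ϖ) * τ r₁ + ϖ * (τ r₁ - r₁) := by
        conv_lhs => rw [hr, map_add, map_mul, hS a ha]
        ring
      rw [h1, hxy]
      ring
  by_cases hd : τ ϖ - ϖ = 0
  · rw [hd]
    have h0 : τ r - r = 0 := by
      apply eq_zero_of_forall_irreducible_pow_dvd hϖ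
      intro k
      obtain ⟨x, y, hxy⟩ := key k r
      rw [hxy, hd, zero_mul, zero_add]
      exact dvd_mul_right _ _
    rw [h0]
  · obtain ⟨m, u, hu⟩ := IsDiscreteValuationRing.eq_unit_mul_pow_irreducible hd hϖ
    obtain ⟨x, y, hxy⟩ := key m r
    refine ⟨x + ((u⁻¹ : Rˣ) : R) * y, ?_⟩
    rw [hxy, mul_add]
    congr 1
    rw [hu, ← mul_assoc, mul_comm ((u : R) * ϖ ^ m), ← mul_assoc, Units.inv_mul, one_mul]

end Fermat.Agent.MP
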