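/-
MP40 (S44/S40) — helper3 — [NORMP]: **the weak norm formula in any characteristic.**

`F'/F` a finite separable extension of function fields over `K` (Prelude `Place`,
`HasPrincipalDivisors K F'`; NO hypothesis on the characteristic, no perfectness, no degree-one
hypothesis).  For every place `v` of `F` there are weights `s_w ∈ ℕ` (`w ∣ v`) with
`ord_v (N_{F'/F} f) = ∑_{w ∣ v} s_w · ord_w f` for all `f ≠ 0`; in particular
`(∀ w ∣ v, m ∣ ord_w f) → m ∣ ord_v (N f)`.

(The char-`0` version `JA/H0_helper7_Norm.sum_ord_eq_ord_norm` has `s_w = 1`; it uses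
`Ideal.relNorm_eq_pow_of_isMaximal`, which needs a perfect fraction field. Here we only use
`Ideal.exists_relNorm_eq_pow_of_isPrime`.)
-/
import Mathlib
import Fermat.Agent.JA.H0_helper7_Norm

set_option autoImplicit false
set_option linter.unusedSectionVars false
set_option linter.style.haveILetI false

open AlgebraicCurve IsDedekindDomain UniqueFactorizationMonoid

namespace Fermat.Agent.MP

open Fermat.Agent.FF Fermat.Agent.FF.Gal Fermat.Agent.JA

variable {K F F' : Type*} [Field K] [Field F] [Field F'] [Algebra K F] [Algebra K F']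
  [Algebra F F'] [IsScalarTower K F F'] [FiniteDimensional F F'] [Algebra.IsSeparable F F']

theorem multiset_prod_map_pow_eq_pow_sum {M : Type*} [CommMonoid M] (a : M) {ι : Type*}
    (m : Multiset ι) (f : ι → ℕ) : (m.map fun i => a ^ f i).prod = a ^ (m.map f).sum := by
  induction m using Multiset.induction_on with
  | empty => simp
  | cons i m ih => simp [ih, pow_add]

section Weak

variable (v : Place K F)

/-- the relative norm of a non-zero prime of the integral closure is a power of the maximal
ideal. -/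
theorem exists_relNorm_prime_eq_pow (Q : Ideal (intCl F' v)) :
    ∃ s : ℕ, Q.IsPrime → Q ≠ ⊥ →
      Ideal.relNorm v.toValuationSubring Q = IsLocalRing.maximalIdeal v.toValuationSubring ^ s := by
  by_cases h : Q.IsPrime ∧ Q ≠ ⊥
  · haveI : Q.LiesOver (IsLocalRing.maximalIdeal v.toValuationSubring) :=
      (mem_primesOver_of_prime v Q h.1 h.2).2
    obtain ⟨s, hs⟩ := Ideal.exists_relNorm_eq_pow_of_isPrime Q
      (IsLocalRing.maximalIdeal v.toValuationSubring)
    exact ⟨s, fun _ _ => hs⟩
  · exact ⟨0, fun h1 h2 => absurd ⟨h1, h2⟩ h⟩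

/-- the weight of a prime of the integral closure. -/
noncomputable def relNormWeight (Q : Ideal (intCl F' v)) : ℕ :=
  Classical.choose (exists_relNorm_prime_eq_pow v Q)

theorem relNorm_eq_pow_relNormWeight (Q : Ideal (intCl F' v)) (hQ : Q.IsPrime) (hQ0 : Q ≠ ⊥) :
    Ideal.relNorm v.toValuationSubring Q =
      IsLocalRing.maximalIdeal v.toValuationSubring ^ relNormWeight v Q :=
  Classical.choose_spec (exists_relNorm_prime_eq_pow v Q) hQ hQ0

/-- the order of the norm of an integral element is the weighted number of prime factors of the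
ideal it generates. -/
theorem ord_norm_eq_weighted_card (b : intCl F' v) (hb : b ≠ 0) :
    v.ord (Algebra.norm F (b : F'))
      = (((normalizedFactors (Ideal.span {b})).map (relNormWeight v)).sum : ℤ) := by
  classical
  have hsr : Ideal.span {b} ≠ 0 := Submodule.span_singleton_eq_bot.mp.mt hb
  have h1 : algebraMap v.toValuationSubring F (Algebra.intNorm v.toValuationSubring (intCl F' v) b)
      = Algebra.norm F (algebraMap (intCl F' v) F' b) := Algebra.algebraMap_intNorm b
  have h2 : Ideal.relNorm v.toValuationSubring (Ideal.span {b})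
      = Ideal.span {Algebra.intNorm v.toValuationSubring (intCl F' v) b} :=
    Ideal.relNorm_singleton v.toValuationSubring b
  have h3 : Ideal.relNorm v.toValuationSubring (Ideal.span {b})
      = IsLocalRing.maximalIdeal v.toValuationSubring
        ^ ((normalizedFactors (Ideal.span {b})).map (relNormWeight v)).sum := by
    conv_lhs => rw [← Ideal.prod_normalizedFactors_eq_self hsr]
    rw [map_multiset_prod]
    have h4 : (normalizedFactors (Ideal.span {b})).map (Ideal.relNorm v.toValuationSubring)
        = (normalizedFactors (Ideal.span {b})).map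
          (fun Q => IsLocalRing.maximalIdeal v.toValuationSubring ^ relNormWeight v Q) := by
      refine Multiset.map_congr rfl fun Q hQ => ?_
      have hQp : Prime Q := prime_of_normalized_factor Q hQ
      exact relNorm_eq_pow_relNormWeight v Q (Ideal.isPrime_of_prime hQp) hQp.ne_zero
    rw [h4, multiset_prod_map_pow_eq_pow_sum]
  have h5 := ord_eq_of_span_eq_pow v (h2.symm.trans h3)
  have h6 : (b : F') = algebraMap (intCl F' v) F' b := rfl
  rw [h6, ← h1]
  exact_mod_cast h5

variable [Algebra.IsIntegral F F'] [HasPrincipalDivisors K F']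

open Classical in
/-- the weight of a place over `v`. -/
noncomputable def placeNormWeight (w : Place K F') : ℕ :=
  if h : LiesOver w v then relNormWeight v (center h) else 0

/-- the weighted sum of the orders of an integral element over the places above `v`. -/
theorem sum_weight_mul_ord_eq (b : intCl F' v) (hb : b ≠ 0) :
    ∑ w ∈ v.fiber F', (placeNormWeight v w : ℤ) * w.ord (b : F')
      = (((normalizedFactors (Ideal.span {b})).map (relNormWeight v)).sum : ℤ) := by
  classical
  have hsr : Ideal.span {b} ≠ 0 := Submodule.span_singleton_eq_bot.mp.mt hb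
  obtain ⟨nf, hnf⟩ : ∃ nf, nf = normalizedFactors (Ideal.span {b}) := ⟨_, rfl⟩
  have h1 := sum_fiber_eq_sum_primesOver (F' := F') v
    (fun Q => ((relNormWeight v Q : ℕ) : ℤ) * ((nf.count Q : ℕ) : ℤ))
  have h2 : ∑ w ∈ v.fiber F', (placeNormWeight v w : ℤ) * w.ord (b : F')
      = ∑ w ∈ v.fiber F', (if h : LiesOver w v then
          ((relNormWeight v (center h) : ℕ) : ℤ) * ((nf.count (center h) : ℕ) : ℤ) else 0) := by
    refine Finset.sum_congr rfl fun w hw => ?_
    have hl : LiesOver w v := liesOver_iff_restrict_eq.mpr (Place.mem_fiber.mp hw)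
    rw [dif_pos hl, hnf, ord_eq_count v hl b hb, placeNormWeight, dif_pos hl]
  rw [h2, h1, ← hnf, Finset.sum_multiset_map_count, Nat.cast_sum]
  rw [Finset.sum_set_coe (f := fun Q => ((relNormWeight v Q : ℕ) : ℤ) * ((nf.count Q : ℕ) : ℤ))]
  have e : ∑ x ∈ nf.toFinset, ((nf.count x • relNormWeight v x : ℕ) : ℤ)
      = ∑ x ∈ nf.toFinset, ((relNormWeight v x : ℕ) : ℤ) * ((nf.count x : ℕ) : ℤ) :=
    Finset.sum_congr rfl fun Q _ => by rw [smul_eq_mul, Nat.cast_mul, mul_comm]
  rw [e]
  symm
  apply Finset.sum_subset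
  · intro Q hQ
    rw [Multiset.mem_toFinset, hnf] at hQ
    rw [Set.mem_toFinset]
    have hQp : Prime Q := prime_of_normalized_factor Q hQ
    exact mem_primesOver_of_prime v Q (Ideal.isPrime_of_prime hQp) hQp.ne_zero
  · intro Q _ hQ
    rw [Multiset.mem_toFinset] at hQ
    rw [Multiset.count_eq_zero_of_notMem hQ, Nat.cast_zero, mul_zero]

/-- **The weak norm formula** (any characteristic): `ord_v (N f) = ∑_{w ∣ v} s_w · ord_w f`. -/
theorem ord_norm_eq_sum_weight_mul_ord {f : F'} (hf : f ≠ 0) :
    v.ord (Algebra.norm F f) = ∑ w ∈ v.fiber F', (placeNormWeight v w : ℤ) * w.ord f := by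
  obtain ⟨b₁, b₂, hb₂, hdiv⟩ := IsFractionRing.div_surjective (A := intCl F' v) f
  have hb₂0 : b₂ ≠ 0 := nonZeroDivisors.ne_zero hb₂
  have hb₁0 : b₁ ≠ 0 := by
    intro h0
    rw [h0, map_zero, zero_div] at hdiv
    exact hf hdiv.symm
  have hc₁ : (b₁ : F') ≠ 0 := fun h0 => hb₁0 (Subtype.ext h0)
  have hc₂ : (b₂ : F') ≠ 0 := fun h0 => hb₂0 (Subtype.ext h0)
  have hf' : f = (b₁ : F') * (b₂ : F')⁻¹ := by
    rw [← hdiv, div_eq_mul_inv]
    rfl
  have h1 : ∀ w : Place K F', (placeNormWeight v w : ℤ) * w.ord f =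
      (placeNormWeight v w : ℤ) * w.ord (b₁ : F') - (placeNormWeight v w : ℤ) * w.ord (b₂ : F') := by
    intro w
    rw [hf', w.ord_mul hc₁ (inv_ne_zero hc₂), w.ord_inv]
    ring
  have hn₁ : Algebra.norm F (b₁ : F') ≠ 0 := Algebra.norm_ne_zero_iff.mpr hc₁
  have hn₂ : Algebra.norm F (b₂ : F') ≠ 0 := Algebra.norm_ne_zero_iff.mpr hc₂
  have hninv : Algebra.norm F ((b₂ : F')⁻¹) = (Algebra.norm F (b₂ : F'))⁻¹ := by
    apply eq_inv_of_mul_eq_one_left
    rw [← map_mul, inv_mul_cancel₀ hc₂, map_one]
  rw [Finset.sum_congr rfl (fun w _ => h1 w), Finset.sum_sub_distrib,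
    sum_weight_mul_ord_eq v b₁ hb₁0, sum_weight_mul_ord_eq v b₂ hb₂0,
    ← ord_norm_eq_weighted_card v b₁ hb₁0, ← ord_norm_eq_weighted_card v b₂ hb₂0, hf', map_mul,
    hninv, v.ord_mul hn₁ (inv_ne_zero hn₂), v.ord_inv, sub_eq_add_neg]

/-- **divisibility form of the weak norm formula**: if `m` divides the order of `f` at every place
over `v`, then `m` divides the order of the norm of `f` at `v`. -/
theorem dvd_ord_norm_of_forall_dvd_ord (m : ℤ) {f : F'} (hf : f ≠ 0)
    (h : ∀ w ∈ v.fiber F', m ∣ w.ord f) : m ∣ v.ord (Algebra.norm F f) := by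
  rw [ord_norm_eq_sum_weight_mul_ord v hf]
  exact Finset.dvd_sum fun w hw => Dvd.dvd.mul_left (h w hw) _

end Weak

end Fermat.Agent.MP
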