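import Mathlib
import Fermat.Agent.MP.PLHOST_helper9_Dict

/-!
# Project MP40 — C5 [DICT] helper9: local versions of the factorisations at smooth closed points

The factorisation `f = c · v · G ^ m` at a smooth closed point `𝔪` of a model chart only needs
`m ∣ ord_P f` at the places `P` whose valuation ring contains the chart and whose centre on the
chart is contained in `𝔪` (`exists_fact_smooth_of_place_local`, …,
`SSModel.exists_fact_smooth_one_local`, `SSModel.exists_fact_smooth_two_local`), with the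
normalised variants along the sheet `∞` (`SSModel.exists_fact_smooth_inf_one_local`,
`SSModel.exists_fact_smooth_inf_two_local`).
-/

set_option autoImplicit false
set_option linter.unusedSectionVars false
set_option linter.unusedVariables false
set_option linter.style.haveILetI false

open AlgebraicCurve

namespace Fermat.Agent.MP

open Fermat.Agent.NP Fermat.Agent.SS Fermat.Agent.JA Fermat.Agent.FF

section Fact

variable {R : Type*} [CommRing R] [IsDomain R] [IsDiscreteValuationRing R]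
  [CharZero R] {K₁ : Type*} [Field K₁] [Algebra R K₁]
  [IsFractionRing R K₁] {K : Type*} [Field K] [Algebra K₁ K] [Algebra R K] [IsScalarTower R K₁ K]
  {F : Type*} [Field F] [Algebra K F] [Algebra K₁ F] [IsScalarTower K₁ K F] [Algebra R F]
  [IsScalarTower R K F] [FiniteDimensional K F]

/-- **the factorisation at a smooth closed point, local hypothesis**: a function which is a unit
along the component `𝔭` and whose orders at the places centred in `𝔪` are divisible by `m` is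
`γ ^ m ·` unit of the local ring. -/
theorem exists_fact_smooth_of_place_local (t : K) (ht : Transcendental K₁ t)
    (hK : IntermediateField.adjoin K₁ {t} = ⊤) {π : R} (hπ : Irreducible π)
    {𝔭 𝔭' : Ideal ↥(chartOne R F t)} [h𝔭 : 𝔭.IsPrime]
    (hπ𝔭 : algebraMap R ↥(chartOne R F t) π ∈ 𝔭)
    (hinf : 𝔭 ⊓ 𝔭' ≤ Ideal.span {algebraMap R ↥(chartOne R F t) π})
    (𝔪 : Ideal ↥(chartOne R F t)) [h𝔪 : 𝔪.IsMaximal] (hle : 𝔭 ≤ 𝔪) (hnle : ¬ 𝔭' ≤ 𝔪)
    {z : ↥(chartOne R F t)} (hz : IsBranchUniformizer 𝔭 𝔪 z)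
    {m : ℕ} (hm : m ≠ 0) {g : F} (hg : g ≠ 0)
    (hord : ∀ (P : Place K₁ F)
      (hO : ∀ x : ↥(chartOne R F t), algebraMap ↥(chartOne R F t) F x ∈ P.toValuationSubring),
      centreIdeal P hO ≤ 𝔪 → (m : ℤ) ∣ P.ord g)
    (hgu : IsUnitAtPrime 𝔭 g) :
    ∃ γ : F, γ ≠ 0 ∧ IsUnitIn (locSub (chartOne R F t) 𝔪) (g * (γ ^ m)⁻¹) := by
  haveI : IsScalarTower R K₁ F := isScalarTower_base_const R K₁ K F
  haveI : IsIntegrallyClosed ↥(chartOne R F t) := isIntegrallyClosed_chartOne (K₁ := K₁) t hK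
  haveI : IsNoetherianRing ↥(chartOne R F t) := isNoetherianRing_chartOne (K₁ := K₁) t ht hK
  haveI : IsFractionRing ↥(chartOne R F t) F := isFractionRing_chartOne (K₁ := K₁) t hK
  have hS : 𝔪.primeCompl ≤ nonZeroDivisors ↥(chartOne R F t) := by
    intro s hs
    exact mem_nonZeroDivisors_of_ne_zero (fun h0 => hs (h0 ▸ 𝔪.zero_mem))
  haveI : IsIntegrallyClosed (Localization.AtPrime 𝔪) :=
    isIntegrallyClosed_of_isLocalization (Localization.AtPrime 𝔪) 𝔪.primeCompl hS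
  have hunits : ∀ s : 𝔪.primeCompl, IsUnit (algebraMap ↥(chartOne R F t) F s) := fun s =>
    Localization.map_isUnit_of_le F 𝔪.primeCompl hS s
  letI : Algebra (Localization.AtPrime 𝔪) F :=
    (IsLocalization.lift (M := 𝔪.primeCompl) (S := Localization.AtPrime 𝔪) hunits).toAlgebra
  haveI : IsScalarTower ↥(chartOne R F t) (Localization.AtPrime 𝔪) F :=
    IsScalarTower.of_algebraMap_eq (fun b => (IsLocalization.lift_eq hunits b).symm)
  haveI : IsFractionRing (Localization.AtPrime 𝔪) F :=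
    IsFractionRing.isFractionRing_of_isDomain_of_isLocalization 𝔪.primeCompl
      (Localization.AtPrime 𝔪) F
  have hπne : algebraMap R ↥(chartOne R F t) π ≠ 0 := by
    intro h0
    have h1 : algebraMap R F π = 0 := by
      have : ((algebraMap R ↥(chartOne R F t) π : ↥(chartOne R F t)) : F) = 0 := by rw [h0]; rfl
      exact this
    exact hπ.ne_zero (algebraMap_injective_base K₁ F (by rw [h1, map_zero]))
  obtain ⟨γ, hγ, r, s, hr, hs, hrs⟩ := exists_kummer_at_smoothQ (R := Localization.AtPrime 𝔪) 𝔪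
    hπne (𝔭 := 𝔭) (𝔭' := 𝔭') hπ𝔭 hinf hle hnle hz hm hg
    (fun 𝔮 h𝔮 hht hπ𝔮 h𝔮𝔪 => by
      haveI := h𝔮
      exact isKummerAtPrimeQ_of_place (K₁ := K₁) hπ 𝔮 hht hπ𝔮
        (fun P hO hP => hord P hO (hP ▸ h𝔮𝔪)))
    0 (by simpa using hgu)
  exact ⟨γ, hγ, isUnitIn_locSub_iff.2 ⟨r, s, hr, hs, hrs⟩⟩

/-- the factorisation at a smooth closed point of the component `𝔭` (other component `𝔭'`) of a
chart, local hypothesis: `f = c · v · G ^ m`, `c` a constant, `v` a unit of the local ring. -/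
theorem exists_fact_smooth_of_component_local (t : K) (ht : Transcendental K₁ t)
    (hK : IntermediateField.adjoin K₁ {t} = ⊤) {π : R} (hπ : Irreducible π)
    {𝔭 𝔭' : Ideal ↥(chartOne R F t)} [h𝔭 : 𝔭.IsPrime]
    (hπ𝔭 : algebraMap R ↥(chartOne R F t) π ∈ 𝔭)
    (hinf : 𝔭 ⊓ 𝔭' ≤ Ideal.span {algebraMap R ↥(chartOne R F t) π})
    (hloc : ∀ z ∈ 𝔭, ∃ s : ↥(chartOne R F t), s ∉ 𝔭 ∧ algebraMap R ↥(chartOne R F t) π ∣ s * z)
    (𝔪 : Ideal ↥(chartOne R F t)) [h𝔪 : 𝔪.IsMaximal] (hle : 𝔭 ≤ 𝔪) (hnle : ¬ 𝔭' ≤ 𝔪)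
    {z : ↥(chartOne R F t)} (hz : IsBranchUniformizer 𝔭 𝔪 z)
    {m : ℕ} (hm : m ≠ 0) {f : F} (hf : f ≠ 0)
    (hord : ∀ (P : Place K₁ F)
      (hO : ∀ x : ↥(chartOne R F t), algebraMap ↥(chartOne R F t) F x ∈ P.toValuationSubring),
      centreIdeal P hO ≤ 𝔪 → (m : ℤ) ∣ P.ord f) :
    ∃ (c : K₁) (v G : F), c ≠ 0 ∧ G ≠ 0 ∧ IsUnitIn (locSub (chartOne R F t) 𝔪) v ∧
      f = algebraMap K₁ F c * v * G ^ m := by
  haveI : IsScalarTower R K₁ F := isScalarTower_base_const R K₁ K F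
  haveI : IsNoetherianRing ↥(chartOne R F t) := isNoetherianRing_chartOne (K₁ := K₁) t ht hK
  haveI : IsFractionRing ↥(chartOne R F t) F := isFractionRing_chartOne (K₁ := K₁) t hK
  obtain ⟨a, w, hw, hw', rfl⟩ := unif_locSub hπ𝔭 hloc hf
  have hπK : algebraMap R K₁ π ≠ 0 := by
    rw [Ne, map_eq_zero_iff _ (IsFractionRing.injective R K₁)]
    exact hπ.ne_zero
  have hπF : algebraMap R F π = algebraMap K₁ F (algebraMap R K₁ π) :=
    IsScalarTower.algebraMap_apply R K₁ F π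
  have hπF0 : algebraMap R F π ≠ 0 := by
    rw [hπF, Ne, map_eq_zero]
    exact hπK
  have hw0 : w ≠ 0 := right_ne_zero_of_mul hf
  have hwu : IsUnitAtPrime 𝔭 w := by
    obtain ⟨r, s, hr, hs, hrs⟩ := isUnitIn_locSub_iff.1 ⟨hw, hw', hw0⟩
    exact ⟨r, s, hr, hs, hrs⟩
  have hordw : ∀ (P : Place K₁ F)
      (hO : ∀ x : ↥(chartOne R F t), algebraMap ↥(chartOne R F t) F x ∈ P.toValuationSubring),
      centreIdeal P hO ≤ 𝔪 → (m : ℤ) ∣ P.ord w := by
    intro P hO hP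
    have h1 := hord P hO hP
    rw [P.ord_mul (zpow_ne_zero _ hπF0) hw0, P.ord_zpow, hπF,
      Fermat.Agent.FF.Gal.ord_algebraMap P hπK, mul_zero, zero_add] at h1
    exact h1
  obtain ⟨γ, hγ, hv⟩ := exists_fact_smooth_of_place_local (K₁ := K₁) t ht hK hπ hπ𝔭 hinf 𝔪 hle hnle
    hz hm hw0 hordw hwu
  refine ⟨algebraMap R K₁ π ^ a, w * (γ ^ m)⁻¹, γ, zpow_ne_zero _ hπK, hγ, hv, ?_⟩
  rw [map_zpow₀, ← hπF]
  have hγm : γ ^ m ≠ 0 := pow_ne_zero _ hγ
  field_simp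

/-- **the factorisations at the smooth closed points of a model chart**, from `m ∣ ord_P f` at
the places centred in `𝔪` (no rationality). -/
theorem IsModelChart.exists_fact_smooth_local (t : K) (ht : Transcendental K₁ t)
    (hK : IntermediateField.adjoin K₁ {t} = ⊤) {π : R} (hπ : Irreducible π)
    {𝔭inf 𝔭0 : Ideal ↥(chartOne R F t)} (hmod : IsModelChart F π 𝔭inf 𝔭0)
    {m : ℕ} (hm : m ≠ 0) {f : F} (hf : f ≠ 0)
    (𝔪 : Ideal ↥(chartOne R F t)) [h𝔪 : 𝔪.IsMaximal]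
    (hord : ∀ (P : Place K₁ F)
      (hO : ∀ x : ↥(chartOne R F t), algebraMap ↥(chartOne R F t) F x ∈ P.toValuationSubring),
      centreIdeal P hO ≤ 𝔪 → (m : ℤ) ∣ P.ord f) :
    (𝔭inf ≤ 𝔪 → ¬ 𝔭0 ≤ 𝔪 → ∃ (c : K₁) (v G : F), c ≠ 0 ∧ G ≠ 0 ∧
      IsUnitIn (locSub (chartOne R F t) 𝔪) v ∧ f = algebraMap K₁ F c * v * G ^ m) ∧
    (𝔭0 ≤ 𝔪 → ¬ 𝔭inf ≤ 𝔪 → ∃ (c : K₁) (v G : F), c ≠ 0 ∧ G ≠ 0 ∧
      IsUnitIn (locSub (chartOne R F t) 𝔪) v ∧ f = algebraMap K₁ F c * v * G ^ m) := by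
  haveI : IsScalarTower R K₁ F := isScalarTower_base_const R K₁ K F
  haveI : IsNoetherianRing ↥(chartOne R F t) := isNoetherianRing_chartOne (K₁ := K₁) t ht hK
  haveI : IsFractionRing ↥(chartOne R F t) F := isFractionRing_chartOne (K₁ := K₁) t hK
  haveI := hmod.isPrime_inf
  haveI := hmod.isPrime_zero
  constructor
  · intro hinf h0
    obtain ⟨z, hz⟩ := hmod.branch_inf 𝔪 h𝔪 (hinf hmod.mem_inf) hinf h0
    exact exists_fact_smooth_of_component_local (K₁ := K₁) t ht hK hπ hmod.mem_inf hmod.inf_le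
      (IsModelChart.hloc_inf hmod) 𝔪 hinf h0 hz hm hf hord
  · intro h0 hinf
    obtain ⟨z, hz⟩ := hmod.branch_zero 𝔪 h𝔪 (h0 hmod.mem_zero) h0 hinf
    exact exists_fact_smooth_of_component_local (K₁ := K₁) t ht hK hπ hmod.mem_zero
      (by rw [inf_comm]; exact hmod.inf_le) (IsModelChart.hloc_zero hmod) 𝔪 h0 hinf hz hm hf hord

end Fact

section Model

variable {R : Type*} [CommRing R] [IsDomain R] [IsDiscreteValuationRing R] [CharZero R]
  {K₁ : Type*} [Field K₁] [Algebra R K₁] [IsFractionRing R K₁]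
  {KM : Type*} [Field KM] [Algebra K₁ KM] [Algebra R KM] [IsScalarTower R K₁ KM]
  {EM : Type*} [Field EM] [Algebra KM EM] [Algebra K₁ EM] [IsScalarTower K₁ KM EM] [Algebra R EM]
  [IsScalarTower R KM EM]
  {KN : Type*} [Field KN] [Algebra K₁ KN] [Algebra R KN] [IsScalarTower R K₁ KN]
  {EN : Type*} [Field EN] [Algebra KN EN] [Algebra K₁ EN] [IsScalarTower K₁ KN EN] [Algebra R EN]
  [IsScalarTower R KN EN] [FiniteDimensional KN EN]
  {π : R} {q n : ℕ} {S : Finset R} {t : KM} {jM : EM} {j : KN} {A B : EM →+* EN}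
  {VM : ValuationSubring EM} {Winf W0 : ValuationSubring EN}
  [IsAlgClosed (IsLocalRing.ResidueField R)]

/-- **the factorisations at the smooth closed points of the chart `j` of an `SSModel`**, from
`m ∣ ord_P f` at the places centred in `𝔪` only. -/
theorem SSModel.exists_fact_smooth_one_local (h : SSModel K₁ π q n S t jM j A B VM Winf W0)
    (hπ : Irreducible π) {m : ℕ} (hm : m ≠ 0) {f : EN} (hf : f ≠ 0)
    (𝔪 : Ideal ↥(chartOne R EN j)) [h𝔪 : 𝔪.IsMaximal]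
    (hord : ∀ (P : Place K₁ EN)
      (hO : ∀ x : ↥(chartOne R EN j), algebraMap ↥(chartOne R EN j) EN x ∈ P.toValuationSubring),
      centreIdeal P hO ≤ 𝔪 → (m : ℤ) ∣ P.ord f) :
    (sheetIdeal j Winf h.two.chart_le_inf ≤ 𝔪 → ¬ sheetIdeal j W0 h.two.chart_le_zero ≤ 𝔪 →
      ∃ (c : K₁) (v G : EN), c ≠ 0 ∧ G ≠ 0 ∧ IsUnitIn (locSub (chartOne R EN j) 𝔪) v ∧
        f = algebraMap K₁ EN c * v * G ^ m) ∧
    (sheetIdeal j W0 h.two.chart_le_zero ≤ 𝔪 → ¬ sheetIdeal j Winf h.two.chart_le_inf ≤ 𝔪 →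
      ∃ (c : K₁) (v G : EN), c ≠ 0 ∧ G ≠ 0 ∧ IsUnitIn (locSub (chartOne R EN j) 𝔪) v ∧
        f = algebraMap K₁ EN c * v * G ^ m) :=
  IsModelChart.exists_fact_smooth_local (K₁ := K₁) j h.j_transcendental h.j_adjoin hπ
    (h.isModelChart_one hπ) hm hf 𝔪 hord

/-- **the factorisations at the smooth closed points of the chart `j⁻¹` of an `SSModel`**, from
`m ∣ ord_P f` at the places centred in `𝔪` only. -/
theorem SSModel.exists_fact_smooth_two_local (h : SSModel K₁ π q n S t jM j A B VM Winf W0)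
    (hπ : Irreducible π) (hjint : IsIntegral ↥(Algebra.adjoin R {B jM}) (A jM))
    {m : ℕ} (hm : m ≠ 0) {f : EN} (hf : f ≠ 0)
    (𝔪 : Ideal ↥(chartOne R EN j⁻¹)) [h𝔪 : 𝔪.IsMaximal]
    (hord : ∀ (P : Place K₁ EN)
      (hO : ∀ x : ↥(chartOne R EN j⁻¹),
        algebraMap ↥(chartOne R EN j⁻¹) EN x ∈ P.toValuationSubring),
      centreIdeal P hO ≤ 𝔪 → (m : ℤ) ∣ P.ord f) :
    (sheetIdeal j⁻¹ Winf (h.two.inv hπ).chart_le_inf ≤ 𝔪 →
      ¬ sheetIdeal j⁻¹ W0 (h.two.inv hπ).chart_le_zero ≤ 𝔪 →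
      ∃ (c : K₁) (v G : EN), c ≠ 0 ∧ G ≠ 0 ∧ IsUnitIn (locSub (chartOne R EN j⁻¹) 𝔪) v ∧
        f = algebraMap K₁ EN c * v * G ^ m) ∧
    (sheetIdeal j⁻¹ W0 (h.two.inv hπ).chart_le_zero ≤ 𝔪 →
      ¬ sheetIdeal j⁻¹ Winf (h.two.inv hπ).chart_le_inf ≤ 𝔪 →
      ∃ (c : K₁) (v G : EN), c ≠ 0 ∧ G ≠ 0 ∧ IsUnitIn (locSub (chartOne R EN j⁻¹) 𝔪) v ∧
        f = algebraMap K₁ EN c * v * G ^ m) :=
  IsModelChart.exists_fact_smooth_local (K₁ := K₁) j⁻¹
    (transcendental_inv_of_transcendental h.j_transcendental) (adjoin_inv_eq_top h.j_adjoin) hπ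
    (h.isModelChart_two hπ hjint (h.two.inv hπ)) hm hf 𝔪 hord

/-- **the normalised factorisation at a smooth closed point of `C_∞`, chart `j`**, from
`d ∣ ord_P f` at the places centred in `𝔪` only. -/
theorem SSModel.exists_fact_smooth_inf_one_local (h : SSModel K₁ π q n S t jM j A B VM Winf W0)
    (hπ : Irreducible π) (hq : q.Prime) {e₁ : ℕ} (he₁ : 0 < e₁) {ε : Rˣ}
    (hpe : (q : R) = ε * π ^ e₁) {d : ℕ} (hd : d ≠ 0) {f : EN} (hf : f ≠ 0) {ainf : ℤ}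
    (hfinf : Winf.valuation (f * (algebraMap R EN π ^ ainf)⁻¹) = 1)
    (𝔪 : Ideal ↥(chartOne R EN j)) [h𝔪 : 𝔪.IsMaximal]
    (hord : ∀ (P : Place K₁ EN)
      (hO : ∀ x : ↥(chartOne R EN j), algebraMap ↥(chartOne R EN j) EN x ∈ P.toValuationSubring),
      centreIdeal P hO ≤ 𝔪 → (d : ℤ) ∣ P.ord f)
    (hinf : sheetIdeal j Winf h.two.chart_le_inf ≤ 𝔪)
    (h0 : ¬ sheetIdeal j W0 h.two.chart_le_zero ≤ 𝔪) :
    haveI := h𝔪.isPrime
    ∃ (c : Rˣ) (v G : EN), IsUnitIn (locSub (chartOne R EN j) 𝔪) v ∧ Winf.valuation G = 1 ∧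
      f * (algebraMap R EN π ^ ainf)⁻¹ = algebraMap R EN (c : R) * v * G ^ d := by
  haveI := h𝔪.isPrime
  obtain ⟨c₁, v, G₁, hc₁, hG₁, hv, hfe⟩ :=
    (SSModel.exists_fact_smooth_one_local h hπ hd hf 𝔪 hord).1 hinf h0
  have hvu := SSModel.val_inf_eq_one_of_isUnitIn_one h hπ 𝔪 hinf hv
  obtain ⟨c, G, hG, e⟩ := SSModel.exists_normalised_fact_inf h hπ hq he₁ hpe hc₁ hG₁ hvu hfe hfinf
  exact ⟨c, v, G, hv, hG, e⟩

/-- **the normalised factorisation at a smooth closed point of `C_∞`, chart `j⁻¹`**, from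
`d ∣ ord_P f` at the places centred in `𝔪` only. -/
theorem SSModel.exists_fact_smooth_inf_two_local (h : SSModel K₁ π q n S t jM j A B VM Winf W0)
    (hπ : Irreducible π) (hjint : IsIntegral ↥(Algebra.adjoin R {B jM}) (A jM))
    (hq : q.Prime) {e₁ : ℕ} (he₁ : 0 < e₁) {ε : Rˣ}
    (hpe : (q : R) = ε * π ^ e₁) {d : ℕ} (hd : d ≠ 0) {f : EN} (hf : f ≠ 0) {ainf : ℤ}
    (hfinf : Winf.valuation (f * (algebraMap R EN π ^ ainf)⁻¹) = 1)
    (𝔪 : Ideal ↥(chartOne R EN j⁻¹)) [h𝔪 : 𝔪.IsMaximal]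
    (hord : ∀ (P : Place K₁ EN)
      (hO : ∀ x : ↥(chartOne R EN j⁻¹),
        algebraMap ↥(chartOne R EN j⁻¹) EN x ∈ P.toValuationSubring),
      centreIdeal P hO ≤ 𝔪 → (d : ℤ) ∣ P.ord f)
    (hinf : sheetIdeal j⁻¹ Winf (h.two.inv hπ).chart_le_inf ≤ 𝔪)
    (h0 : ¬ sheetIdeal j⁻¹ W0 (h.two.inv hπ).chart_le_zero ≤ 𝔪) :
    haveI := h𝔪.isPrime
    ∃ (c : Rˣ) (v G : EN), IsUnitIn (locSub (chartOne R EN j⁻¹) 𝔪) v ∧ Winf.valuation G = 1 ∧
      f * (algebraMap R EN π ^ ainf)⁻¹ = algebraMap R EN (c : R) * v * G ^ d := by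
  haveI := h𝔪.isPrime
  obtain ⟨c₁, v, G₁, hc₁, hG₁, hv, hfe⟩ :=
    (SSModel.exists_fact_smooth_two_local h hπ hjint hd hf 𝔪 hord).1 hinf h0
  have hvu := SSModel.val_inf_eq_one_of_isUnitIn_two h hπ hjint 𝔪 hinf hv
  obtain ⟨c, G, hG, e⟩ := SSModel.exists_normalised_fact_inf h hπ hq he₁ hpe hc₁ hG₁ hvu hfe hfinf
  exact ⟨c, v, G, hv, hG, e⟩

end Model

end Fermat.Agent.MP
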