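/-
MP40 (row 38) — helper8 — [ROLD], package [RQ-A], part 2: **descent of the field of definition
for Laurent series with rational coefficients.**

`F₀ ⊆ ℚ((q))` a subfield, `L ⊇ ℚ` a field: a Laurent series `x` with rational coefficients
which lies in the compositum `L · F₀ ⊆ L((q))` (`laurentBaseChange L F₀`) lies in `F₀`.

Proof: write `x = r / s` with `r, s` in the `L`-span of `F₀` and apply a `ℚ`-linear functional
`φ : L → ℚ` coefficientwise: `x · φ(s) = φ(r)` with `φ(r), φ(s) ∈ F₀`, and `φ(s) ≠ 0` for a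
suitable `φ`.
-/
import Mathlib
import Fermat.Prelude.Def_ModularCurve_LaurentCoeff

set_option autoImplicit false
set_option linter.unusedSectionVars false

noncomputable section

namespace Fermat.Agent.MP

open ModularCurve HahnSeries

variable {L : Type*} [Field L] [Algebra ℚ L]

/-- a `ℚ`-linear functional applied coefficientwise. -/
def coeffFun (φ : L →ₗ[ℚ] ℚ) (z : LaurentSeries L) : LaurentSeries ℚ := z.map φ

@[simp] theorem coeffFun_coeff (φ : L →ₗ[ℚ] ℚ) (z : LaurentSeries L) (n : ℤ) :
    (coeffFun φ z).coeff n = φ (z.coeff n) := rfl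

theorem coeffFun_add (φ : L →ₗ[ℚ] ℚ) (z w : LaurentSeries L) :
    coeffFun φ (z + w) = coeffFun φ z + coeffFun φ w := by
  ext n
  simp

theorem coeffFun_zero (φ : L →ₗ[ℚ] ℚ) : coeffFun φ (0 : LaurentSeries L) = 0 := by
  ext n
  simp

theorem coeffFun_support_subset (φ : L →ₗ[ℚ] ℚ) (z : LaurentSeries L) :
    (coeffFun φ z).support ⊆ z.support := by
  intro n hn
  simp only [mem_support, ne_eq, coeffFun_coeff] at hn ⊢
  intro h
  exact hn (by rw [h, map_zero])

theorem coeffEmb_support_subset (y : LaurentSeries ℚ) :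
    (coeffEmb L y).support ⊆ y.support := by
  intro n hn
  simp only [mem_support, ne_eq, coeffEmb_coeff] at hn ⊢
  intro h
  exact hn (by rw [h, map_zero])

/-- `φ (y · z) = y · φ (z)` for `y` with rational coefficients. -/
theorem coeffFun_coeffEmb_mul (φ : L →ₗ[ℚ] ℚ) (y : LaurentSeries ℚ) (z : LaurentSeries L) :
    coeffFun φ (coeffEmb L y * z) = y * coeffFun φ z := by
  ext n
  rw [coeffFun_coeff, coeff_mul_left' (coeffEmb_support_subset y) (hs := y.isPWO_support),
    coeff_mul_right' (coeffFun_support_subset φ z) (hs := z.isPWO_support), map_sum]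
  refine Finset.sum_congr rfl fun ij _ => ?_
  rw [coeffEmb_coeff, coeffFun_coeff, ← Algebra.smul_def, map_smul, smul_eq_mul]

/-- `φ (a · z) = (φ ∘ (a ·)) z`. -/
theorem coeffFun_smul (φ : L →ₗ[ℚ] ℚ) (a : L) (z : LaurentSeries L) :
    coeffFun φ (a • z) = coeffFun (φ.comp (LinearMap.mulLeft ℚ a)) z := by
  ext n
  simp

variable (F₀ : IntermediateField ℚ (LaurentSeries ℚ))

/-- the image of `F₀` in `L((q))` is closed under multiplication. -/
theorem closure_image_coeffEmb :
    (Submonoid.closure (⇑(coeffEmb L) '' (F₀ : Set (LaurentSeries ℚ))) : Set (LaurentSeries L)) =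
      ⇑(coeffEmb L) '' (F₀ : Set (LaurentSeries ℚ)) := by
  have h : (⇑(coeffEmb L) '' (F₀ : Set (LaurentSeries ℚ))) =
      ((F₀.toSubfield.toSubring.toSubmonoid.map (coeffEmb L : LaurentSeries ℚ →* LaurentSeries L) :
        Submonoid (LaurentSeries L)) : Set (LaurentSeries L)) := by
    ext x
    simp
  rw [h, Submonoid.closure_eq]

/-- coefficientwise functionals map the `L`-span of `F₀` into `F₀`. -/
theorem coeffFun_mem_of_mem_adjoin {r : LaurentSeries L}
    (hr : r ∈ Algebra.adjoin L (⇑(coeffEmb L) '' (F₀ : Set (LaurentSeries ℚ))))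
    (φ : L →ₗ[ℚ] ℚ) : coeffFun φ r ∈ F₀ := by
  have hspan := Algebra.adjoin_eq_span L (⇑(coeffEmb L) '' (F₀ : Set (LaurentSeries ℚ)))
  rw [closure_image_coeffEmb] at hspan
  have hr' := hr
  rw [← Subalgebra.mem_toSubmodule, hspan] at hr'
  clear hr hspan
  induction hr' using Submodule.span_induction generalizing φ with
  | mem x hx =>
    obtain ⟨f, hf, rfl⟩ := hx
    have h1 : coeffFun φ (coeffEmb L f) = algebraMap ℚ (LaurentSeries ℚ) (φ 1) * f := by
      ext n
      rw [algebraMap_laurentSeries_eq_single, ← C_apply, C_mul_eq_smul, coeffFun_coeff,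
        coeffEmb_coeff, coeff_smul, Algebra.algebraMap_eq_smul_one, map_smul,
        smul_eq_mul, smul_eq_mul, mul_comm]
    rw [h1]
    exact F₀.mul_mem (F₀.algebraMap_mem _) hf
  | zero => rw [coeffFun_zero]; exact F₀.zero_mem
  | add x y _ _ hx hy => rw [coeffFun_add]; exact F₀.add_mem (hx φ) (hy φ)
  | smul a x _ hx =>
    rw [Algebra.smul_def, algebraMap_laurentSeries_eq_single, ← C_apply, C_mul_eq_smul,
      coeffFun_smul]
    exact hx _

/-- **descent**: a series with rational coefficients in `L · F₀` lies in `F₀`. -/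
theorem mem_of_coeffEmb_mem_laurentBaseChange {x : LaurentSeries ℚ}
    (hx : coeffEmb L x ∈ laurentBaseChange L F₀) : x ∈ F₀ := by
  obtain ⟨r, hr, s, hs, hxrs⟩ := IntermediateField.mem_adjoin_iff_div.mp hx
  by_cases hs0 : s = 0
  · rw [hs0, div_zero] at hxrs
    have hx0 : x = 0 := by
      ext n
      have := congrArg (fun y => coeff y n) hxrs
      simp only [coeffEmb_coeff, coeff_zero] at this
      rw [coeff_zero]
      exact (map_eq_zero_iff _ (algebraMap ℚ L).injective).mp this
    rw [hx0]
    exact F₀.zero_mem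
  · -- a coefficient of `s` which does not vanish
    obtain ⟨n, hn⟩ : ∃ n, s.coeff n ≠ 0 := by
      by_contra h
      push Not at h
      exact hs0 (HahnSeries.ext (funext h))
    obtain ⟨φ, hφ⟩ : ∃ φ : L →ₗ[ℚ] ℚ, φ (s.coeff n) ≠ 0 := by
      by_contra h
      push Not at h
      exact hn ((Module.forall_dual_apply_eq_zero_iff ℚ (s.coeff n)).mp h)
    have hφs : coeffFun φ s ≠ 0 := by
      intro h0
      apply hφ
      have := congrArg (fun y => coeff y n) h0
      simpa using this
    have hmul : coeffEmb L x * s = r := by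
      rw [hxrs, div_mul_cancel₀ _ hs0]
    have h1 : x * coeffFun φ s = coeffFun φ r := by
      rw [← coeffFun_coeffEmb_mul, hmul]
    have h2 : x = coeffFun φ r / coeffFun φ s := by
      rw [eq_div_iff hφs, h1]
    rw [h2]
    exact F₀.div_mem (coeffFun_mem_of_mem_adjoin F₀ hr φ) (coeffFun_mem_of_mem_adjoin F₀ hs φ)

end Fermat.Agent.MP
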