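/-
MP40 — [ROLD-HOST], helper8: **variants of `resOccurs_of_dlog_host` without the hypothesis "not a
`p`-th power in the residue function field"**: it is replaced by the non-vanishing of the reduction
and of one coefficient of the logarithmic derivative (conditions on series, which descend trivially
to any base).
-/
import Mathlib
import Fermat.Agent.MP.ROLDQ_helper8_HostFin
import Fermat.Agent.MP.ROLDQ_helper8_RedDict
import Fermat.Agent.MP.ROLDGR_helper3_Host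
import Fermat.Agent.MP.ROLDGR_helper3_DlogInv

set_option autoImplicit false
set_option linter.unusedSectionVars false
set_option linter.style.haveILetI false
set_option synthInstance.maxHeartbeats 400000
set_option maxHeartbeats 1600000

open AlgebraicCurve IsLocalRing ModularCurve CongruenceSubgroup ModularFormClass

namespace Fermat.Agent.MP

open Fermat.Agent.FF Fermat.Agent.JA Fermat.Agent.FG Fermat.Agent.MW Fermat.Agent.S36
  Fermat.Agent.X0N Fermat.Agent.X0N.Dict Fermat.Agent.SS Fermat.Agent.DS48 Fermat.Agent.Igusa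

local notation "Ω" => AlgebraicClosure ℚ

noncomputable section

section Fin

variable (M' : ℕ) [NeZero M'] {p : ℕ} [Fact p.Prime] {A : ValuationSubring Ω}
  (hA : A.LiesOverPrime p) (hpM : ¬ p ∣ M') (hp2 : p ≠ 2)

local notation "𝕏" => legGoodRed hA M' hpM hp2

/-- **from a Gauss-integral regular differential `φ h₀ · ω` of the host, `h₀ ∈ FunN M'`, whose
reduction is `dlog fb`, to `ResOccurs`.** -/
theorem resOccurs_of_regular_lift_nz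
    {Γ₀ : Type*} [LinearOrderedCommGroupWithZero Γ₀] {v : Valuation Ω Γ₀}
    (hv : v.valuationSubring = A)
    (DE : Derivation Ω ↥(legE Ω M') ↥(legE Ω M'))
    (hext : ∀ f : FunN M', DE (fullToLegE Ω M' f) = fullToLegE Ω M' (derJ M' f))
    (hD : IsDerDatum DE (derCan DE)) (hκ : (Function.support (derCan DE)).Finite)
    (hn : IsNormalisedDer (legGoodRed hA M' hpM hp2) DE)
    (S : Set ℕ) (a : ℕ → ℤ) (hS : ∀ ℓ : ℕ, ℓ.Prime → ℓ ∣ M' → ℓ ∈ S)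
    (f₃ : ↥(keyFq Ω M')) (hW : fullToLegE Ω M' f₃ ∈ legWE hA M' hp2)
    (hfb0 : legρ hA M' hp2 ⟨fullToLegE Ω M' f₃, hW⟩ ≠ 0)
    (b : ℕ → ResidueField ↥A)
    (hb : ∀ n : ℕ, b n =
      (eulerD (ResidueField ↥A) (legEtEmb hA M' hp2 (legρ hA M' hp2 ⟨fullToLegE Ω M' f₃, hW⟩)) /
        legEtEmb hA M' hp2 (legρ hA M' hp2 ⟨fullToLegE Ω M' f₃, hW⟩)).coeff (2 * (n : ℤ)))
    (hb0 : ∃ j, b j ≠ 0)
    (hE : ∀ ℓ : ℕ, ℓ.Prime → ℓ ∉ S → ∀ n,
      b (n * ℓ) + (if ℓ ∣ n then (ℓ : ResidueField ↥A) * b (n / ℓ) else 0) =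
        (a ℓ : ResidueField ↥A) * b n)
    (h₀ : FunN M') (hhW : fullToLegE Ω M' h₀ ∈ legWE hA M' hp2)
    (hhV : fullToLegE Ω M' h₀ ∈ regSpace (derCan DE))
    (hhρ : legρ hA M' hp2 ⟨fullToLegE Ω M' h₀, hhW⟩ =
      derBar (legGoodRed hA M' hpM hp2) DE hv hD hn
          (legρ hA M' hp2 ⟨fullToLegE Ω M' f₃, hW⟩) /
        legρ hA M' hp2 ⟨fullToLegE Ω M' f₃, hW⟩) :
    ResOccurs M' p S a := by
  classical
  have hp : p.Prime := Fact.out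
  haveI : CharP (ResidueField ↥A) p := charP_residueField hA
  haveI : IsAlgClosed (ResidueField ↥A) := Fermat.Agent.DS48.VALSUB.isAlgClosed_residueField A
  set φ := fullToLegE Ω M' with hφdef
  set fb : legEt hA M' hp2 := legρ hA M' hp2 ⟨φ f₃, hW⟩ with hfb
  have hfb0 : fb ≠ 0 := hfb0
  set Db := derBar (𝕏) DE hv hD hn with hDb
  have hDbρ : ∀ (f : ↥(legE Ω M')) (hf : f ∈ (𝕏).W) (hDf : DE f ∈ (𝕏).W),
      Db ((𝕏).ρ ⟨f, hf⟩) = (𝕏).ρ ⟨DE f, hDf⟩ := derBar_ρ hv hD hn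
  have hDbdat : IsDerDatum Db (canBar (𝕏) (derCan DE)) :=
    isDerDatum_derBar hv hD hκ hn p Db hDbρ
  have hDW : DE (φ f₃) ∈ (𝕏).W := der_mem_W hv hD hn hW
  -- the cusp form
  set ι : Ω →+* ℂ := ((IsAlgClosed.lift : Ω →ₐ[ℚ] ℂ) : Ω →+* ℂ) with hι
  have hreg : φ h₀ ∈ regSpace (derCan DE) := hhV
  obtain ⟨F₀, hF₀⟩ := exists_cuspForm_of_regular M' ι DE hext hreg
  -- integral basis
  obtain ⟨n, B, m, hm, hspan, hsat⟩ := exists_int_basis M' p hp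
  obtain ⟨ct, hct⟩ := hspan F₀
  set G₀ : LaurentSeries Ω := (h₀ : LaurentSeries Ω) * eulerD Ω (jqModC Ω) with hG₀
  have hG₀ι : HahnSeries.ofPowerSeries ℤ ℂ (UpperHalfPlane.qExpansion 1 F₀) = coeffMap ι G₀ := by
    rw [hF₀, hG₀, map_mul, coeffEmb_eulerD_jq ℂ, ← eulerD_coeffMap ι]
    congr 2
    exact (map_jqModC ι).symm
  obtain ⟨c₀, hc₀⟩ := exists_coeff_expansion ι M' B m hm F₀ ct hct G₀ hG₀ι
  -- the series in the variable `x`
  set Gx : LaurentSeries Ω :=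
    ((φ h₀ : ↥(legE Ω M')) : LaurentSeries Ω) * eulerD Ω (jqNModC Ω 2) with hGx
  have hGxeq : Gx = ((2 : ℕ) : LaurentSeries Ω) * qExpand Ω 2 G₀ := by
    rw [hGx, hφdef, coe_fullToLegE, jqNModC, eulerD_qExpand, hG₀, map_mul]
    ring
  have hθJmem : eulerD Ω (jqNModC Ω 2) ∈ fracInt A := eulerD_mem_fracInt (jqNModC_mem_fracInt 2)
  have hhmem : ((φ h₀ : ↥(legE Ω M')) : LaurentSeries Ω) ∈ fracInt A := hhW
  have hGxmem : Gx ∈ fracInt A := (fracInt A).mul_mem hhmem hθJmem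
  have hGxcoeff : ∀ j : ℤ, Gx.coeff j = ∑ i, (2 * c₀ i) * ((extTwo m i j : ℤ) : Ω) := by
    intro j
    have h2 : ∀ Y : LaurentSeries Ω, (((2 : ℕ) : LaurentSeries Ω) * Y).coeff j = 2 * Y.coeff j := by
      intro Y
      rw [Nat.cast_ofNat, two_mul, HahnSeries.coeff_add, two_mul]
    rw [hGxeq, h2]
    by_cases hj : (2 : ℤ) ∣ j
    · obtain ⟨j', rfl⟩ := hj
      have : ((2 : ℕ) : ℤ) * j' = 2 * j' := by norm_num
      rw [← this, qExpand_coeff_mul, hc₀ j', Finset.mul_sum, this]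
      exact Finset.sum_congr rfl fun i _ => by rw [extTwo_two_mul, mul_assoc]
    · rw [qExpand_coeff_of_not_dvd 2 _ (by exact_mod_cast hj), mul_zero]
      symm
      exact Finset.sum_eq_zero fun i _ => by rw [extTwo_of_not_dvd m i hj, Int.cast_zero, mul_zero]
  obtain ⟨c', hc', hred⟩ := fracRed_coeff_of_mem_fracInt p (isSaturatedAt_two hsat)
    (fun i => 2 * c₀ i) Gx hGxcoeff hGxmem
  -- the reduced logarithmic derivative
  have hDJ : DE (legJE Ω M') = 1 := der_legJE_eq_one M' DE hext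
  have hN4 := eulerD_legEtEmb_legρ M' hA hp2 DE hDJ (φ f₃) hW hDW
  have hemb0 : legEtEmb hA M' hp2 fb ≠ 0 := (map_ne_zero (legEtEmb hA M' hp2)).mpr hfb0
  have hkey : eulerD (ResidueField ↥A) (legEtEmb hA M' hp2 fb) / legEtEmb hA M' hp2 fb =
      fracRed A ⟨Gx, hGxmem⟩ := by
    have e1 : (⟨Gx, hGxmem⟩ : fracInt A) =
        ⟨((φ h₀ : ↥(legE Ω M')) : LaurentSeries Ω), hhmem⟩ * ⟨eulerD Ω (jqNModC Ω 2), hθJmem⟩ := rfl
    rw [e1, map_mul, fracRed_eulerD ⟨jqNModC Ω 2, jqNModC_mem_fracInt 2⟩, fracRed_jqNModC,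
      ← legEtEmb_legρ hA M' hp2 ⟨φ h₀, hhW⟩]
    have e2 : legρ hA M' hp2 ⟨φ h₀, hhW⟩ = Db fb / fb := hhρ
    have hDbρ' : Db (legρ hA M' hp2 ⟨φ f₃, hW⟩) = legρ hA M' hp2 ⟨DE (φ f₃), hDW⟩ :=
      hDbρ _ hW hDW
    rw [e2, map_div₀, hfb, hN4, hDbρ', div_mul_eq_mul_div]
  have hbform : ∀ j : ℕ, b j = ∑ i, residue ↥A (c' i) * ((m i j : ℤ) : ResidueField ↥A) := by
    intro j
    rw [hb j, hkey, hred, ]
    exact Finset.sum_congr rfl fun i _ => by rw [extTwo_two_mul, extZ_natCast]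
  exact resOccurs_of_formal_eigen hp hS a Finset.univ (fun i => residue ↥A (c' i)) B m
    (fun i _ j => hm i j) b (fun j => by rw [hbform j]) hb0 hE


include hpM in
/-- **[ROLD-HOST]** (contract of msg 1765). -/
theorem resOccurs_of_dlog_host_nz (hp3 : p ≠ 3)
    (S : Set ℕ) (a : ℕ → ℤ) (hS : ∀ ℓ : ℕ, ℓ.Prime → ℓ ∣ M' → ℓ ∈ S)
    (f₃ : ↥(keyFq Ω M')) (hW : fullToLegE Ω M' f₃ ∈ legWE hA M' hp2)
    (hfb0 : legρ hA M' hp2 ⟨fullToLegE Ω M' f₃, hW⟩ ≠ 0)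
    (hord : ∀ Q : Place (ResidueField ↥A) (legEt hA M' hp2),
      (p : ℤ) ∣ Q.ord (legρ hA M' hp2 ⟨fullToLegE Ω M' f₃, hW⟩))
    (b : ℕ → ResidueField ↥A)
    (hb : ∀ n : ℕ, b n =
      (eulerD (ResidueField ↥A) (legEtEmb hA M' hp2 (legρ hA M' hp2 ⟨fullToLegE Ω M' f₃, hW⟩)) /
        legEtEmb hA M' hp2 (legρ hA M' hp2 ⟨fullToLegE Ω M' f₃, hW⟩)).coeff (2 * (n : ℤ)))
    (hb0 : ∃ j, b j ≠ 0)
    (hE : ∀ ℓ : ℕ, ℓ.Prime → ℓ ∉ S → ∀ n,
      b (n * ℓ) + (if ℓ ∣ n then (ℓ : ResidueField ↥A) * b (n / ℓ) else 0) =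
        (a ℓ : ResidueField ↥A) * b n) :
    ResOccurs M' p S a := by
  classical
  have hp : p.Prime := Fact.out
  haveI : CharP (ResidueField ↥A) p := charP_residueField hA
  haveI : IsAlgClosed (ResidueField ↥A) := Fermat.Agent.DS48.VALSUB.isAlgClosed_residueField A
  obtain ⟨DE, hext⟩ := exists_derivation_extension (fullToLegE Ω M')
    (finiteAlong_fullToLegE M') (derJ M')
  obtain ⟨hD, hκ, hdeg, hfin, hdim⟩ := legHost_RR hA hpM hp2 hext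
  have hn := legHost_isNormalisedDer hA hpM hp2 hext
  have hv : (A.valuation).valuationSubring = A := A.valuationSubring_valuation
  set φ := fullToLegE Ω M' with hφdef
  set fb : legEt hA M' hp2 := legρ hA M' hp2 ⟨φ f₃, hW⟩ with hfb
  have hfb0 : fb ≠ 0 := hfb0
  have hφ0 : φ f₃ ≠ 0 := (𝕏).ρ_ne_zero_imp_ne_zero hW hfb0
  set Db := derBar (𝕏) DE hv hD hn with hDb
  have hDbρ : ∀ (f : ↥(legE Ω M')) (hf : f ∈ (𝕏).W) (hDf : DE f ∈ (𝕏).W),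
      Db ((𝕏).ρ ⟨f, hf⟩) = (𝕏).ρ ⟨DE f, hDf⟩ := derBar_ρ hv hD hn
  have hDbdat : IsDerDatum Db (canBar (𝕏) (derCan DE)) :=
    isDerDatum_derBar hv hD hκ hn p Db hDbρ
  have hdlog : Db fb / fb ∈ regSpace (canBar (𝕏) (derCan DE)) :=
    dlog_mem_regSpace p hDbdat (𝕏).deg_red hfb0 hord
  -- the invariant Gauss-integral function `h₁ = dlog f₃`
  have hDW : DE (φ f₃) ∈ (𝕏).W := der_mem_W hv hD hn hW
  have hinvW : (φ f₃)⁻¹ ∈ (𝕏).W := ((𝕏).inv_mem_W_iff hW hφ0).mpr hfb0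
  set h₁ : ↥(legE Ω M') := φ (derJ M' f₃ / f₃) with hh₁def
  have hh₁ : h₁ = DE (φ f₃) * (φ f₃)⁻¹ := by
    rw [hh₁def, map_div₀, hext, div_eq_mul_inv]
  have h₁W : h₁ ∈ (𝕏).W := by
    rw [hh₁]
    exact (𝕏).W.mul_mem _ _ hDW hinvW
  have hρinv : (𝕏).ρ ⟨(φ f₃)⁻¹, hinvW⟩ = fb⁻¹ := by
    have h1 : (⟨φ f₃, hW⟩ : ↥(𝕏).W) * ⟨(φ f₃)⁻¹, hinvW⟩ = 1 :=
      Subtype.ext (mul_inv_cancel₀ hφ0)
    have h2 := congrArg (𝕏).ρ h1
    rw [map_mul, map_one] at h2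
    exact eq_inv_of_mul_eq_one_right h2
  have hρh₁ : (𝕏).ρ ⟨h₁, h₁W⟩ = Db fb / fb := by
    have h1 : (⟨h₁, h₁W⟩ : ↥(𝕏).W) = ⟨DE (φ f₃), hDW⟩ * ⟨(φ f₃)⁻¹, hinvW⟩ := Subtype.ext hh₁
    rw [h1, map_mul, ← hDbρ _ hW hDW, hρinv, div_eq_mul_inv]
    rfl
  have hinv : ∀ g ∈ deckGroup (fullToLegE Ω M'), ∀ (f : ↥(legE Ω M'))
      (hf : f ∈ legWE hA M' hp2) (hgf : g • f ∈ legWE hA M' hp2),
      legρ hA M' hp2 ⟨f, hf⟩ = Db fb / fb → legρ hA M' hp2 ⟨g • f, hgf⟩ = Db fb / fb := by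
    intro g hg f hf hgf hρf
    have hgh₁ : g • h₁ = h₁ := by
      obtain ⟨σ, hσ, rfl⟩ := mem_deckGroup.mp hg
      rw [ofAlgAut_smul]
      exact hσ _
    have hgh₁W : g • h₁ ∈ (𝕏).W := by rw [hgh₁]; exact h₁W
    have h1 := ρ_smul_congr (X := 𝕏) (isDeckAut_leg M' hA hpM hp2 hg) hf h₁W hgf hgh₁W
      (hρf.trans hρh₁.symm)
    have h2 : (⟨g • h₁, hgh₁W⟩ : ↥(𝕏).W) = ⟨h₁, h₁W⟩ := Subtype.ext hgh₁
    rw [h2, hρh₁] at h1
    exact h1
  obtain ⟨h₀, hhW, hhV, hhρ⟩ := legHost_exists_invariant_lift hA hpM hp2 hp3 hext hdlog hinv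
  exact resOccurs_of_regular_lift_nz M' hA hpM hp2 hv DE hext hD hκ hn S a hS f₃ hW hfb0 b hb hb0 hE
    h₀ hhW hhV hhρ

end Fin

section Small

variable (M : ℕ) [NeZero M] {p : ℕ} [Fact p.Prime] {A : ValuationSubring Ω}
  (hA : A.LiesOverPrime p) (hpM : ¬ p ∣ M) (hp2 : p ≠ 2)
  (K' : IntermediateField ℚ Ω) [IsDiscreteValuationRing ↥(baseRing A K')]

include hpM in
/-- **[ROLD-HOST] in the currency of the small base `K'`**: `w₀ ∈ F_M(K')` is Gauss-integral as a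
`q`-series, its reduction `Ȳ ∈ k'((q))` has `θ Ȳ ≠ 0`, all orders of the reduction on the special
fibre over `k` are divisible by `p`, and `θ Ȳ / Ȳ` satisfies the formal Hecke relations. -/
theorem resOccurs_of_redDict (hp3 : p ≠ 3)
    (S : Set ℕ) (a : ℕ → ℤ) (hS : ∀ ℓ : ℕ, ℓ.Prime → ℓ ∣ M → ℓ ∈ S)
    (w₀ : ↥(keyFq ↥K' M))
    (hw : ((w₀ : ↥(keyFq ↥K' M)) : LaurentSeries ↥K') ∈ gaussInt ↥(baseRing A K') ↥K')
    (hnz : eulerD (ResidueField ↥(baseRing A K')) (gaussRed ↥(baseRing A K') ↥K'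
      ⟨((w₀ : ↥(keyFq ↥K' M)) : LaurentSeries ↥K'), hw⟩) ≠ 0)
    (hord : ∀ (hW : fullToLegE Ω M (keyFqBC M K' w₀) ∈ legWE hA M hp2)
      (Q : Place (ResidueField ↥A) (legEt hA M hp2)),
      (p : ℤ) ∣ Q.ord (legρ hA M hp2 ⟨fullToLegE Ω M (keyFqBC M K' w₀), hW⟩))
    (hE : ∀ ℓ : ℕ, ℓ.Prime → ℓ ∉ S → ∀ n : ℕ,
      (RQ4Q.dlogθ (gaussRed ↥(baseRing A K') ↥K'
          ⟨((w₀ : ↥(keyFq ↥K' M)) : LaurentSeries ↥K'), hw⟩)).coeff ((n * ℓ : ℕ) : ℤ) +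
        (if ℓ ∣ n then (ℓ : ResidueField ↥(baseRing A K')) *
          (RQ4Q.dlogθ (gaussRed ↥(baseRing A K') ↥K'
            ⟨((w₀ : ↥(keyFq ↥K' M)) : LaurentSeries ↥K'), hw⟩)).coeff ((n / ℓ : ℕ) : ℤ) else 0) =
        (a ℓ : ResidueField ↥(baseRing A K')) *
          (RQ4Q.dlogθ (gaussRed ↥(baseRing A K') ↥K'
            ⟨((w₀ : ↥(keyFq ↥K' M)) : LaurentSeries ↥K'), hw⟩)).coeff (n : ℤ)) :
    ResOccurs M p S a := by
  classical
  have hp : p.Prime := Fact.out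
  haveI : CharP (ResidueField ↥A) p := charP_residueField hA
  set Y := gaussRed ↥(baseRing A K') ↥K'
    ⟨((w₀ : ↥(keyFq ↥K' M)) : LaurentSeries ↥K'), hw⟩ with hY
  set ρ' := baseResidueMap A K' with hρ'
  have hρinj : Function.Injective ρ' := baseResidueMap_injective A K'
  have hY0 : Y ≠ 0 := by
    intro h0
    rw [h0, map_zero] at hnz
    exact hnz rfl
  have hW := redDict_mem_legWE M hA hp2 K' w₀ hw
  have hemb := redDict_legEtEmb_legρ M hA hp2 K' w₀ hw hW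
  have hfb0 : legρ hA M hp2 ⟨fullToLegE Ω M (keyFqBC M K' w₀), hW⟩ ≠ 0 := by
    intro h0
    rw [h0, map_zero] at hemb
    have h1 : coeffMap ρ' Y = 0 := (map_eq_zero (qExpand (ResidueField ↥A) 2)).mp hemb.symm
    exact hY0 ((map_eq_zero_iff _ (coeffMapV_injective hρinj)).1 h1)
  have h2k : (2 : ResidueField ↥A) ≠ 0 := by
    intro h2
    have h3 : ((2 : ℕ) : ResidueField ↥A) = 0 := by exact_mod_cast h2
    rw [CharP.cast_eq_zero_iff (ResidueField ↥A) p] at h3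
    exact hp2 ((Nat.prime_dvd_prime_iff_eq hp Nat.prime_two).mp h3)
  refine resOccurs_of_dlog_host_nz M hA hpM hp2 hp3 S a hS (keyFqBC M K' w₀) hW hfb0 (hord hW)
    (fun n => 2 * ρ' ((RQ4Q.dlogθ Y).coeff (n : ℤ))) ?_ ?_ ?_
  · intro n
    exact (redDict_coeff_dlog M hA hp2 K' w₀ hw hW n).symm
  · have hd0 : RQ4Q.dlogθ Y ≠ 0 := by
      rw [RQ4Q.dlogθ_def]
      exact div_ne_zero hnz hY0
    obtain ⟨n, hn⟩ : ∃ n : ℤ, (RQ4Q.dlogθ Y).coeff n ≠ 0 := by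
      by_contra hcon
      push Not at hcon
      exact hd0 (HahnSeries.ext (funext fun n => by rw [hcon n, HahnSeries.coeff_zero]))
    have hn0 : 0 ≤ n := by
      by_contra hneg
      exact hn (RQ4Q.coeff_dlogθ_of_neg (not_le.mp hneg))
    obtain ⟨m, rfl⟩ := Int.eq_ofNat_of_zero_le hn0
    refine ⟨m, mul_ne_zero h2k ?_⟩
    exact (map_ne_zero_iff _ hρinj).mpr hn
  · intro ℓ hℓ hℓS n
    have h := congrArg ρ' (hE ℓ hℓ hℓS n)
    rw [map_add, map_mul, map_intCast] at h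
    split_ifs at h ⊢ with hdvd
    · rw [map_mul, map_natCast] at h
      rw [← mul_assoc, mul_comm (ℓ : ResidueField ↥A) 2, mul_assoc, ← mul_add, h]
      ring
    · rw [map_zero, add_zero] at h
      rw [add_zero, h]
      ring

end Small

end

end Fermat.Agent.MP
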