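/-
MP40 (row 38) — helper8 — [ROLD], package [RQ-A], part 4: **the dictionary for cusp forms with
rational `q`-expansion.**

For a weight two cusp form `F` of level `Γ₀(N)` whose `q`-expansion is (the image of) a power
series `P` with rational coefficients, the quotient `h₀ := P / θ(j(q)) ∈ ℚ((q))` lies in the
function field `modularFunctionFieldFull N` of `X₀(N)` over `ℚ`, and its image in the function field
over `ℂ` lies in `L(div dj)`.
-/
import Mathlib
import Fermat.Agent.MP.ROLDQ_helper8_Dict
import Fermat.Agent.MP.ROLDQ_helper8_Descent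

set_option autoImplicit false
set_option linter.unusedSectionVars false
set_option linter.style.haveILetI false

noncomputable section

namespace Fermat.Agent.MP

open UpperHalfPlane hiding I
open Complex Filter Function Topology ModularForm CongruenceSubgroup
open AlgebraicCurve ModularCurve
open Fermat.Agent.RatStr Fermat.Agent.X0N Fermat.Agent.X0N.Dict Fermat.Agent.S36 Fermat.Agent.FF
open scoped Manifold MatrixGroups Real

/-- `θ (j(q)) ≠ 0`. -/
theorem eulerD_jq_ne_zero : eulerD ℚ jq ≠ 0 := by
  intro h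
  have h1 := congrArg (fun x : LaurentSeries ℚ => x.coeff (-1)) h
  simp only [eulerD_coeff, coeff_jq_neg_one, HahnSeries.coeff_zero] at h1
  norm_num at h1

/-- the rational function `h₀ = P / θ(j(q))` attached to a rational power series `P`. -/
def dictRat (P : PowerSeries ℚ) : LaurentSeries ℚ :=
  HahnSeries.ofPowerSeries ℤ ℚ P / eulerD ℚ jq

theorem dictRat_mul (P : PowerSeries ℚ) :
    dictRat P * eulerD ℚ jq = HahnSeries.ofPowerSeries ℤ ℚ P := by
  rw [dictRat, div_mul_cancel₀ _ eulerD_jq_ne_zero]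

theorem ofPowerSeries_coeff_of_neg {R : Type*} [Semiring R] (Q : PowerSeries R) {n : ℤ}
    (hn : ¬ 0 ≤ n) : (HahnSeries.ofPowerSeries ℤ R Q).coeff n = 0 := by
  rw [HahnSeries.ofPowerSeries_apply]
  apply HahnSeries.embDomain_of_notMem_range
  simp only [Set.mem_range, not_exists]
  intro k hk
  apply hn
  rw [← hk]
  simp

/-- coefficient extension of a power series, as Laurent series. -/
theorem coeffEmb_ofPowerSeries (L : Type*) [Field L] [Algebra ℚ L] (P : PowerSeries ℚ) :
    coeffEmb L (HahnSeries.ofPowerSeries ℤ ℚ P) =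
      HahnSeries.ofPowerSeries ℤ L (P.map (algebraMap ℚ L)) := by
  ext n
  rw [coeffEmb_coeff]
  by_cases hn : 0 ≤ n
  · obtain ⟨m, rfl⟩ := Int.eq_ofNat_of_zero_le hn
    rw [HahnSeries.ofPowerSeries_apply_coeff, HahnSeries.ofPowerSeries_apply_coeff,
      PowerSeries.coeff_map]
  · rw [ofPowerSeries_coeff_of_neg _ hn, ofPowerSeries_coeff_of_neg _ hn, map_zero]

variable (N : ℕ) [NeZero N]
  (W : Divisor ℂ ↥(laurentBaseChange ℂ (modularFunctionFieldFull N)))
  (hW : ∀ v : Place ℂ ↥(laurentBaseChange ℂ (modularFunctionFieldFull N)),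
      W v = v.ordDifferential (KaehlerDifferential.D ℂ _ (jCoordC N).x))

include hW in
/-- **the dictionary for cusp forms with rational `q`-expansion.** -/
theorem dictRat_mem (F : CuspForm (Gamma0 N) 2) (P : PowerSeries ℚ)
    (hP : qExpansion 1 F = P.map (algebraMap ℚ ℂ)) :
    dictRat P ∈ modularFunctionFieldFull N ∧
      ∃ hmem : coeffEmb ℂ (dictRat P) ∈ laurentBaseChange ℂ (modularFunctionFieldFull N),
        (⟨coeffEmb ℂ (dictRat P), hmem⟩ : ↥(laurentBaseChange ℂ (modularFunctionFieldFull N))) ∈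
          riemannRochSpace W := by
  obtain ⟨h, hh, hlaur⟩ := exists_mem_riemannRochSpace_laurent N W hW F
  have hne : coeffEmb ℂ (eulerD ℚ jq) ≠ 0 := by
    intro h0
    apply eulerD_jq_ne_zero
    have : coeffEmb ℂ (eulerD ℚ jq) = coeffEmb ℂ 0 := by rw [h0, map_zero]
    exact Fermat.Agent.X0N.coeffMap_injective (algebraMap ℚ ℂ) this
  have heq : (h : LaurentSeries ℂ) = coeffEmb ℂ (dictRat P) := by
    rw [dictRat, map_div₀, coeffEmb_ofPowerSeries, ← hP, hlaur, mul_div_cancel_right₀ _ hne]
  have hmem : coeffEmb ℂ (dictRat P) ∈ laurentBaseChange ℂ (modularFunctionFieldFull N) := by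
    rw [← heq]
    exact h.2
  refine ⟨mem_of_coeffEmb_mem_laurentBaseChange (modularFunctionFieldFull N) hmem, hmem, ?_⟩
  have : (⟨coeffEmb ℂ (dictRat P), hmem⟩ :
      ↥(laurentBaseChange ℂ (modularFunctionFieldFull N))) = h := Subtype.ext heq.symm
  rw [this]
  exact hh

end Fermat.Agent.MP
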