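import Mathlib
import Fermat.Agent.MP.RQ1_helper3_Local
import Fermat.Agent.FF.RR_helper3_Canon

/-!
# MP40 — [ROLD-CHARP] RQ1, helper3, part 4: logarithmic derivatives of `p`-divisible functions are
canonical

Typeclass setting of `FF/RR_helper3_*`, `K` algebraically closed of characteristic `p`.

* `count_dual_one_le` : the exponent of the inverse different at a prime of ramification index
  `e` is at most `1 - e` (any characteristic; from Mathlib's `pow_sub_one_dvd_differentIdeal_aux`);
* `count_canI_le`, `count_canJ_le` : the corresponding bounds for the canonical pair;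
* `IsTameCoord` : the ramification indices of the coordinate `x` are prime to `p`;
* **`dlog_mem_canonical`** (RQ1-a): if `x` is tame and `p ∣ ord_v f` for all places `v`, then
  `(df/dx) / f ∈ L(canonical pair)`.
-/

set_option autoImplicit false
set_option linter.unusedSectionVars false
set_option linter.style.haveILetI false
set_option linter.overlappingInstances false

open Polynomial AlgebraicCurve KaehlerDifferential IsDedekindDomain
  IsDedekindDomain.HeightOneSpectrum FractionalIdeal nonZeroDivisors Module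

namespace Fermat.Agent.MP

open Fermat.Agent.FF Fermat.Agent.FF.RR

section Tame

attribute [local instance] FractionRing.liftAlgebra FractionRing.isScalarTower_liftAlgebra

variable (A K : Type*) {L : Type*} {B : Type*} [CommRing A] [Field K] [CommRing B] [Field L]
  [Algebra A K] [Algebra B L] [Algebra A B] [Algebra K L] [Algebra A L]
  [IsScalarTower A K L] [IsScalarTower A B L] [IsDomain A] [IsFractionRing A K]
  [FiniteDimensional K L] [Algebra.IsSeparable K L] [IsIntegralClosure B A L]
  [IsFractionRing B L] [IsDedekindDomain A] [IsDedekindDomain B]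
  [Module.IsTorsionFree A B] [Module.Finite A B]

/-- **different exponent, lower bound** (any characteristic): the exponent of `P` in the inverse
different is at most `1 - e`. -/
theorem count_dual_one_le {p : Ideal A} [p.IsMaximal] (hp0 : p ≠ ⊥)
    (P : HeightOneSpectrum B) (hPp : p.map (algebraMap A B) ≤ P.asIdeal) :
    count L P (dual A K (1 : FractionalIdeal B⁰ L))
      ≤ 1 - count L P ((p.map (algebraMap A B) : Ideal B) : FractionalIdeal B⁰ L) := by
  classical
  haveI : Algebra.IsSeparable (FractionRing A) (FractionRing B) :=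
    isSeparable_fractionRing A K (L := L)
  set 𝔭 : Ideal B := p.map (algebraMap A B) with h𝔭
  have h𝔭0 : 𝔭 ≠ ⊥ := by
    rw [h𝔭, ne_eq, Ideal.map_eq_bot_iff_of_injective (FaithfulSMul.algebraMap_injective A B)]
    exact hp0
  set 𝔇 : Ideal B := differentIdeal A B with h𝔇
  have h𝔇0 : 𝔇 ≠ ⊥ := differentIdeal_ne_bot
  have hdual : count L P (dual A K (1 : FractionalIdeal B⁰ L))
      = - count L P (𝔇 : FractionalIdeal B⁰ L) := by
    rw [h𝔇, coeIdeal_differentIdeal A K L B, count_inv, neg_neg]
  have he1 : (1 : ℤ) ≤ count L P (𝔭 : FractionalIdeal B⁰ L) := by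
    have := (pow_dvd_iff_le_count L P h𝔭0 1).mp (by rw [pow_one, Ideal.dvd_iff_le]; exact hPp)
    simpa using this
  obtain ⟨e, he⟩ := Int.eq_ofNat_of_zero_le (le_trans zero_le_one he1)
  have he0 : e ≠ 0 := by
    rintro rfl
    rw [he] at he1
    norm_num at he1
  have hlow : ((e - 1 : ℕ) : ℤ) ≤ count L P (𝔇 : FractionalIdeal B⁰ L) := by
    rw [← pow_dvd_iff_le_count L P h𝔇0]
    refine pow_sub_one_dvd_differentIdeal_aux A K L P.asIdeal he0 hp0 ?_
    rw [pow_dvd_iff_le_count L P h𝔭0, he]
  rw [hdual, he]
  have : (((e - 1 : ℕ) : ℤ)) = (e : ℤ) - 1 := by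
    rw [Nat.cast_sub (Nat.one_le_iff_ne_zero.mpr he0)]
    simp
  omega

end Tame

section TC

variable {K F : Type*} [Field K] [Field F] [Algebra K F]
  [Algebra K[X] F] [Algebra (RatFunc K) F]
  [IsScalarTower K[X] (RatFunc K) F] [IsScalarTower K K[X] F] [IsScalarTower K (RatFunc K) F]
  [FiniteDimensional (RatFunc K) F] [Algebra.IsSeparable (RatFunc K) F]

local notation "B" => FunctionField.ringOfIntegers K F
local notation "Binf" => ringAtInfty K F

theorem algebraMap_X_sub_C_P (a : K) :
    algebraMap K[X] F (X - C a) = xF K F - algebraMap K F a := by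
  rw [map_sub, xF, IsScalarTower.algebraMap_apply K[X] (RatFunc K) F X, RatFunc.algebraMap_X,
    ← Polynomial.algebraMap_eq, ← IsScalarTower.algebraMap_apply K K[X] F]

theorem exists_X_sub_C_mem_P [IsAlgClosed K] (P : HeightOneSpectrum B) :
    ∃ a : K, algebraMap K[X] B (X - C a) ∈ P.asIdeal := by
  haveI : (P.asIdeal.comap (algebraMap K[X] B)).IsMaximal :=
    Ideal.isMaximal_comap_of_isIntegral_of_isMaximal P.asIdeal
  have hne : P.asIdeal.comap (algebraMap K[X] B) ≠ ⊥ :=
    Ring.ne_bot_of_isMaximal_of_not_isField inferInstance (Polynomial.not_isField K)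
  obtain ⟨a, ha⟩ := exists_sub_C_mem_of_ne_bot _ hne X
  exact ⟨a, ha⟩

theorem count_canI_le (P : HeightOneSpectrum B) {a : K}
    (ha : algebraMap K[X] B (X - C a) ∈ P.asIdeal) :
    count F P (canI K F) ≤ 1 - count F P (spanSingleton B⁰ (xF K F - algebraMap K F a)) := by
  set p : Ideal K[X] := Ideal.span {X - C a} with hp
  haveI hpm : p.IsMaximal := PrincipalIdealRing.isMaximal_of_irreducible (irreducible_X_sub_C a)
  have hp0 : p ≠ ⊥ := by
    rw [hp, ne_eq, Ideal.span_singleton_eq_bot]
    exact X_sub_C_ne_zero a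
  have hmap : p.map (algebraMap K[X] B) = Ideal.span {algebraMap K[X] B (X - C a)} := by
    rw [hp, Ideal.map_span, Set.image_singleton]
  have hPp : p.map (algebraMap K[X] B) ≤ P.asIdeal := by
    rw [hmap, Ideal.span_le, Set.singleton_subset_iff]
    exact ha
  have := count_dual_one_le K[X] (RatFunc K) (L := F) hp0 P hPp
  rwa [hmap, coeIdeal_span_singleton, ← IsScalarTower.algebraMap_apply,
    algebraMap_X_sub_C_P] at this

theorem maximalIdeal_Oinf_P : IsLocalRing.maximalIdeal (Oinf K) = Ideal.span {piInf K} := by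
  apply le_antisymm
  · intro f hf
    rw [mem_maximalIdeal_iff_isSmall, isSmall_iff_X_mul_mem] at hf
    rw [Ideal.mem_span_singleton']
    refine ⟨⟨_, hf⟩, ?_⟩
    apply Subtype.ext
    show RatFunc.X * (f : RatFunc K) * (RatFunc.X : RatFunc K)⁻¹ = (f : RatFunc K)
    rw [mul_comm, ← mul_assoc, inv_mul_cancel₀ RatFunc.X_ne_zero, one_mul]
  · rw [Ideal.span_le, Set.singleton_subset_iff, SetLike.mem_coe, mem_maximalIdeal_iff_isSmall,
      isSmall_iff_X_mul_mem]
    show RatFunc.X * (RatFunc.X : RatFunc K)⁻¹ ∈ Oinf K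
    rw [mul_inv_cancel₀ RatFunc.X_ne_zero]
    exact one_mem _

theorem piInf_ne_zero_P : piInf K ≠ 0 := by
  intro h
  have := congrArg (Subtype.val) h
  simp only [piInf, ZeroMemClass.coe_zero, inv_eq_zero] at this
  exact RatFunc.X_ne_zero this

theorem algebraMap_piInf_P : algebraMap (Oinf K) F (piInf K) = (xF K F)⁻¹ := by
  rw [IsScalarTower.algebraMap_apply (Oinf K) (RatFunc K) F, xF, ← map_inv₀]
  rfl

theorem algebraMap_Oinf_injective_P : Function.Injective (algebraMap (Oinf K) Binf) := by
  have h : Function.Injective (algebraMap (Oinf K) F) := by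
    rw [IsScalarTower.algebraMap_eq (Oinf K) (RatFunc K) F]
    exact (algebraMap (RatFunc K) F).injective.comp (IsFractionRing.injective (Oinf K) (RatFunc K))
  rw [IsScalarTower.algebraMap_eq (Oinf K) Binf F, RingHom.coe_comp] at h
  exact Function.Injective.of_comp h

theorem ringAtInfty_isTorsionFree_P : Module.IsTorsionFree (Oinf K) Binf :=
  Module.isTorsionFree_iff_algebraMap_injective.mpr algebraMap_Oinf_injective_P

theorem count_dual_one_inf_le (Q : HeightOneSpectrum Binf) :
    count F Q (dual (Oinf K) (RatFunc K) (1 : FractionalIdeal Binf⁰ F))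
      ≤ 1 + count F Q (spanSingleton Binf⁰ (xF K F)) := by
  haveI : Module.IsTorsionFree (Oinf K) Binf := ringAtInfty_isTorsionFree_P
  set p : Ideal (Oinf K) := IsLocalRing.maximalIdeal (Oinf K) with hp
  have hp0 : p ≠ ⊥ := by
    rw [hp, maximalIdeal_Oinf_P, ne_eq, Ideal.span_singleton_eq_bot]
    exact piInf_ne_zero_P
  have hmap : p.map (algebraMap (Oinf K) Binf)
      = Ideal.span {algebraMap (Oinf K) Binf (piInf K)} := by
    rw [hp, maximalIdeal_Oinf_P, Ideal.map_span, Set.image_singleton]
  have hPp : p.map (algebraMap (Oinf K) Binf) ≤ Q.asIdeal := by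
    rw [Ideal.map_le_iff_le_comap]
    haveI : (Q.asIdeal.comap (algebraMap (Oinf K) Binf)).IsMaximal :=
      Ideal.isMaximal_comap_of_isIntegral_of_isMaximal Q.asIdeal
    rw [IsLocalRing.eq_maximalIdeal
      (inferInstance : (Q.asIdeal.comap (algebraMap (Oinf K) Binf)).IsMaximal)]
  have := count_dual_one_le (Oinf K) (RatFunc K) (L := F) hp0 Q hPp
  rw [hmap, coeIdeal_span_singleton, ← IsScalarTower.algebraMap_apply, algebraMap_piInf_P,
    ← spanSingleton_inv, count_inv] at this
  linarith

theorem count_canJ_le (Q : HeightOneSpectrum Binf) :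
    count F Q (canJ K F) ≤ 1 - count F Q (spanSingleton Binf⁰ (xF K F)) := by
  have hx : spanSingleton Binf⁰ (xF K F) ≠ 0 := spanSingleton_ne_zero' xF_ne_zero
  have h2 : spanSingleton Binf⁰ (xF K F ^ (-2 : ℤ)) = ((spanSingleton Binf⁰ (xF K F)) ^ 2)⁻¹ := by
    rw [zpow_neg, zpow_ofNat, ← spanSingleton_inv, spanSingleton_pow]
  have h3 := count_dual_one_inf_le (K := K) (F := F) Q
  rw [canJ, twist, count_mul F Q (spanSingleton_ne_zero' (zpow_ne_zero _ xF_ne_zero))
    (by rw [ne_eq, dual_eq_zero_iff]; exact one_ne_zero), h2, count_inv, count_pow]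
  push_cast
  linarith

theorem ord_placeOf_eq_count_P {R : Type*} [CommRing R] [IsDedekindDomain R] [Algebra R F]
    [IsFractionRing R F] [Algebra K R] [IsScalarTower K R F] (w : HeightOneSpectrum R) {f : F}
    (hf : f ≠ 0) :
    (placeOf (k := K) (F := F) w).ord f = count F w (spanSingleton R⁰ f) := by
  rw [ord_placeOf w hf, count_spanSingleton_eq_neg_log w hf]

section CharP

variable [IsAlgClosed K] (p : ℕ) [hp : Fact p.Prime] [CharP K p]

variable (K F) in
/-- **tame coordinate**: the ramification indices of `x` (zeros of `x - a`, poles of `x`) are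
prime to `p`. -/
def IsTameCoord : Prop :=
  (∀ (v : Place K F) (a : K), 0 < v.ord (xF K F - algebraMap K F a) →
      ¬ (p : ℤ) ∣ v.ord (xF K F - algebraMap K F a)) ∧
  (∀ v : Place K F, v.ord (xF K F) < 0 → ¬ (p : ℤ) ∣ v.ord (xF K F))

include hp in
/-- **(RQ1-a)**: for a tame coordinate `x` and a function `f` all of whose orders are divisible by
`p`, the logarithmic derivative `(df/dx)/f` lies in the canonical Riemann–Roch space. -/
theorem dlog_mem_canonical (ht : IsTameCoord K F p) {f : F} (hf : f ≠ 0)
    (hord : ∀ v : Place K F, (p : ℤ) ∣ v.ord f) :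
    derCoord K F f / f ∈ finLat (canI K F) ⊓ infLat (canJ K F) := by
  have hDx : derCoord K F (xF K F) = 1 := by rw [xF_eq_coord]; exact derCoord_coord K F
  rw [Submodule.mem_inf, mem_finLat, mem_infLat]
  constructor
  · rw [mem_iff_valuation_le (canI_ne_zero (K := K) (F := F))]
    intro P
    obtain ⟨a, ha⟩ := exists_X_sub_C_mem_P (K := K) (F := F) P
    set v := placeOf (k := K) (F := F) P with hv
    have hr : algebraMap B F (algebraMap K[X] B (X - C a)) = xF K F - algebraMap K F a := by
      rw [← IsScalarTower.algebraMap_apply, algebraMap_X_sub_C_P]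
    have hz0 : xF K F - algebraMap K F a ≠ 0 := by
      intro h0
      have h1 : derCoord K F (xF K F - algebraMap K F a) = 1 := by
        rw [map_sub, hDx, Derivation.map_algebraMap, sub_zero]
      rw [h0, map_zero] at h1
      exact zero_ne_one h1
    have hr0 : algebraMap K[X] B (X - C a) ≠ 0 := by
      intro h
      rw [h, map_zero] at hr
      exact hz0 hr.symm
    have hpos : 0 < v.ord (xF K F - algebraMap K F a) := by
      rw [← hr]
      exact (ord_placeOf_algebraMap_pos_iff (k := K) (F := F) P _ hr0).mpr ha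
    have hz : derCoord K F (xF K F - algebraMap K F a) = 1 := by
      rw [map_sub, hDx, Derivation.map_algebraMap, sub_zero]
    have h1 := ordGE_dlog p v hz (ht.1 v a hpos) hf (hord v)
    have h2 := count_canI_le (K := K) (F := F) P ha
    rw [← ord_placeOf_eq_count_P (K := K) P hz0] at h2
    rw [valuation_le_exp_iff (k := K) P, neg_neg]
    exact h1.mono h2
  · rw [mem_iff_valuation_le (canJ_ne_zero (K := K) (F := F))]
    intro Q
    set v := placeOf (k := K) (F := F) Q with hv
    have hneg : v.ord (xF K F) < 0 := by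
      by_contra h
      exact xF_not_mem_placeOf Q ((PlaceAux.mem_iff_ord_nonneg' _ xF_ne_zero).mpr (not_lt.mp h))
    have h1 := ordGE_dlog p v hDx (ht.2 v hneg) hf (hord v)
    have h2 := count_canJ_le (K := K) (F := F) Q
    rw [← ord_placeOf_eq_count_P (K := K) Q xF_ne_zero] at h2
    rw [valuation_le_exp_iff (k := K) Q, neg_neg]
    exact h1.mono h2

end CharP

end TC

end Fermat.Agent.MP
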