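/-
MP40 (S44/S40) — helper3 — [RQ4-Q], part 4: **the producer of the hypothesis `hE` of
`resOccurs_of_dlog_host` from the Hecke relations `HeckeRelK` over any field of definition.**

`hE_of_heckeRelK` : `K' ⊆ ℚ̄` any intermediate field, `f₀ ∈ F_N(K')` with
`T_ℓ f₀ = c · f₀^(a ℓ) · u^p` for all primes `ℓ ∉ S` (`S ∋ p` and the primes of `N`), `A` a valuation
ring of `ℚ̄` over `p`, `f₀ = c₁ · Y'` over `ℚ̄` with `Y'` a unit of the coefficientwise Gauss ring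
`fracInt A`, `Ȳ' = fracRed A Y'`, `F = Ȳ'(x^m)` and `b n = coeff_{m n} (θF/F)`: then
`b (nℓ) + [ℓ ∣ n] ℓ · b (n/ℓ) = a ℓ · b n` for all primes `ℓ ∉ S` (including `ℓ = 2`).
-/
import Mathlib
import Fermat.Agent.MP.RQ4Q_helper3_Hecke
import Fermat.Agent.MP.KPBASE_helper4_Iface

set_option autoImplicit false
set_option linter.unusedSectionVars false
set_option linter.style.haveILetI false

namespace Fermat.Agent.MP.RQ4Q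

open ModularCurve AlgebraicCurve IntermediateField Fermat.Agent.X0N Fermat.Agent.Igusa
  Fermat.Agent.JA Fermat.Agent.S36 Fermat.Agent.NP Fermat.Agent.FG Fermat.Agent.MP IsLocalRing

local notation "Ω" => AlgebraicClosure ℚ

noncomputable section

/-- **the formal eigen-relations from `HeckeRelK`**, coefficients of `θȲ'/Ȳ'` (currency `q`). -/
theorem eigen_of_heckeRelK {p : ℕ} [hp : Fact p.Prime] {A : ValuationSubring Ω}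
    (hA : A.LiesOverPrime p) {N : ℕ} [NeZero N] (K' : IntermediateField ℚ Ω) (S : Set ℕ)
    (a : ℕ → ℤ) (hSN : ∀ ℓ : ℕ, ℓ.Prime → ℓ ∣ N → ℓ ∈ S) (hSp : p ∈ S)
    (f₀ : ↥(keyFq ↥K' N)) (hrel : HeckeRelK ↥K' N p S a f₀)
    {c₁ : Ω} (hc₁ : c₁ ≠ 0) {Y' : LaurentSeries Ω} (hY' : Y' ∈ fracInt A)
    (hY'u : fracRed A ⟨Y', hY'⟩ ≠ 0)
    (hS : coeffMap (algebraMap ↥K' Ω) (f₀ : LaurentSeries ↥K') = HahnSeries.C c₁ * Y')
    (ℓ : ℕ) (hℓ : ℓ.Prime) (hℓS : ℓ ∉ S) (n : ℕ) :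
    (dlogθ (fracRed A ⟨Y', hY'⟩)).coeff ((n * ℓ : ℕ) : ℤ) +
      (if ℓ ∣ n then (ℓ : ResidueField ↥A) *
        (dlogθ (fracRed A ⟨Y', hY'⟩)).coeff ((n / ℓ : ℕ) : ℤ) else 0) =
      ((a ℓ : ℤ) : ResidueField ↥A) * (dlogθ (fracRed A ⟨Y', hY'⟩)).coeff (n : ℤ) := by
  haveI : NeZero ℓ := ⟨hℓ.ne_zero⟩
  haveI : NeZero (N * ℓ) := ⟨Nat.mul_ne_zero (NeZero.ne N) hℓ.ne_zero⟩
  obtain ⟨c, u, hc, hu, hT⟩ := hrel ℓ hℓ hℓS
  have hℓN : ¬ ℓ ∣ N := fun h => hℓS (hSN ℓ hℓ h)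
  have hℓp : ℓ ≠ p := by
    rintro rfl
    exact hℓS hSp
  have hT' : heckeFunK Ω N ℓ (keyFqBC N K' f₀) =
      algebraMap Ω ↥(keyFq Ω N) (algebraMap ↥K' Ω c) * keyFqBC N K' f₀ ^ (a ℓ) *
        keyFqBC N K' u ^ p := by
    rw [← keyFqBC_heckeFunK N ℓ hℓ K' f₀, hT, map_mul, map_mul, map_pow, map_zpow₀,
      keyFqBC_algebraMap]
  have hu' : keyFqBC N K' u ≠ 0 := (map_ne_zero_iff _ (keyFqBC N K').injective).mpr hu
  have hc' : algebraMap ↥K' Ω c ≠ 0 := (map_ne_zero_iff _ (algebraMap ↥K' Ω).injective).mpr hc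
  exact eigen_of_heckeFunK_frac hℓ hℓN hA hℓp (keyFqBC N K' f₀) (keyFqBC N K' u) hu' hc' (a ℓ)
    hT' hc₁ hY' hY'u (by rw [coe_keyFqBC]; exact hS) n

/-- **the producer of `hE`** (currency `x = q^{1/m}`; `m = 2` on the Legendre host). -/
theorem hE_of_heckeRelK {p : ℕ} [hp : Fact p.Prime] {A : ValuationSubring Ω}
    (hA : A.LiesOverPrime p) {N : ℕ} [NeZero N] (K' : IntermediateField ℚ Ω) (S : Set ℕ)
    (a : ℕ → ℤ) (hSN : ∀ ℓ : ℕ, ℓ.Prime → ℓ ∣ N → ℓ ∈ S) (hSp : p ∈ S)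
    (f₀ : ↥(keyFq ↥K' N)) (hrel : HeckeRelK ↥K' N p S a f₀)
    {c₁ : Ω} (hc₁ : c₁ ≠ 0) {Y' : LaurentSeries Ω} (hY' : Y' ∈ fracInt A)
    (hY'u : fracRed A ⟨Y', hY'⟩ ≠ 0)
    (hS : coeffMap (algebraMap ↥K' Ω) (f₀ : LaurentSeries ↥K') = HahnSeries.C c₁ * Y')
    (m : ℕ) [NeZero m] (b : ℕ → ResidueField ↥A)
    (hb : ∀ n : ℕ, b n = (eulerD (ResidueField ↥A)
        (qExpand (ResidueField ↥A) m (fracRed A ⟨Y', hY'⟩)) /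
          qExpand (ResidueField ↥A) m (fracRed A ⟨Y', hY'⟩)).coeff ((m : ℤ) * (n : ℤ)))
    (ℓ : ℕ) (hℓ : ℓ.Prime) (hℓS : ℓ ∉ S) (n : ℕ) :
    b (n * ℓ) + (if ℓ ∣ n then (ℓ : ResidueField ↥A) * b (n / ℓ) else 0) =
      ((a ℓ : ℤ) : ResidueField ↥A) * b n :=
  eigen_qExpand_of_eigen m (fracRed A ⟨Y', hY'⟩) ℓ _
    (fun j => eigen_of_heckeRelK hA K' S a hSN hSp f₀ hrel hc₁ hY' hY'u hS ℓ hℓ hℓS j) b hb n

end

end Fermat.Agent.MP.RQ4Q
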