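/-
MP40 (S44/S40) — helper4 — **[TOP-L], the core, revised interface**: a `p`-new copy of `E[p]` in
`J₀(M' p)` (lead's `NewCopy`), (KEY-NEW) (`KeyNew M' p`, NP33), the revised (KEY-PEU)
(`KeyPeu₂ M' p`, `MP/IFACE2_helper4_Defs`) and (peu) on `E[p]` give `ResOccurs M' p`.

New with respect to `TOPL_helper4_Core`: the hypothesis `InertiaLineAt` of `KeyPeuAt₂` for the
classes `x = φ Q` is derived from (KEY-NEW): `T = {P ∈ E[p] : φ P ∈ S_A}` is a subgroup of `E[p]` on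
which the inertia group acts through `ε̄`; it is not all of `E[p]` (`det ρ̄ = ε̄`), it contains all
`τ Q - Q`, and `E[p]` has `p²` elements, so `T` is trivial or cyclic of order `p`.
-/
import Mathlib
import Fermat.Agent.MP.IFACE2_helper4_Defs
import Fermat.Agent.MP.TOPL_helper4_Core

set_option autoImplicit false
set_option linter.unusedSectionVars false
set_option linter.unusedVariables false
set_option linter.style.haveILetI false

open AlgebraicCurve ModularCurve WeierstrassCurve WeierstrassCurve.Affine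
open WeierstrassCurve.Affine.Point

open scoped WeierstrassCurve.Affine

namespace Fermat.Agent.MP

open Fermat.Agent.S35 Fermat.Agent.NP Fermat.Agent.GR Fermat.Agent.LR.NonEis

/-- `Ω = AlgebraicClosure ℚ`. -/
local notation "Ω" => AlgebraicClosure ℚ

/-- the absolute Galois group. -/
local notation "GQ" => (AlgebraicClosure ℚ ≃ₐ[ℚ] AlgebraicClosure ℚ)

section Scalar

variable {p : ℕ}

/-- **the inertia group at a place over `p` does not act on `E[p]` through scalars `ε̄`**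
(`det ρ̄_{E,p} = ε̄`, `p` odd). -/
theorem not_forall_inertia_scalar (hp : p.Prime) (hp2 : p ≠ 2) (E : WeierstrassCurve ℚ)
    [E.IsElliptic] {W : WeierstrassCurve ℤ} (hW : W.IsIntegralModelOf E)
    {A : ValuationSubring Ω} (hA : A.LiesOverPrime p) :
    ¬ ∀ σ ∈ A.inertiaSubgroupIn ℚ, ∀ c : ℕ, CycAct p σ c →
      ∀ Q : (E.toAffine⁄Ω).Point, p • Q = 0 → σ • Q = c • Q := by
  intro hscal
  haveI : Fact p.Prime := ⟨hp⟩
  obtain ⟨σ, hσ, a, ha, hap, ha1⟩ := exists_cycAct_ne_one hp hp2 hA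
  have hEa := hscal σ hσ a ha
  obtain ⟨e, he⟩ := exists_equivariant_addEquiv_of_isIntegralModelOf E hW
  have hWa : ∀ P : (W.toAffine⁄Ω).Point, p • P = 0 → σ • P = a • P := by
    intro P hP
    have h1 : p • e.symm P = 0 := by rw [← map_nsmul, hP, _root_.map_zero]
    have h2 := hEa (e.symm P) h1
    have h3 := congrArg e h2
    rwa [he, map_nsmul, e.apply_symm_apply] at h3
  have hdvd := sq_sub_dvd_of_scalar W (Δ_ne_zero_of_isIntegralModelOf E hW) hp2 σ a a ha hWa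
  have h4 : (p : ℤ) ∣ (a : ℤ) * ((a : ℤ) - 1) := by
    have : (a : ℤ) * ((a : ℤ) - 1) = (a : ℤ) * a - a := by ring
    rwa [this]
  rcases (Nat.prime_iff_prime_int.mp hp).dvd_or_dvd h4 with h5 | h5
  · exact hap (by exact_mod_cast h5)
  · apply ha1
    have h6 : (a : ℤ) ≡ 1 [ZMOD (p : ℤ)] := (Int.modEq_iff_dvd.mpr (by
      rwa [dvd_sub_comm])).symm.symm
    exact_mod_cast h6

end Scalar

section Line

variable {M' p : ℕ} [NeZero M'] [NeZero p] [NeZero (M' * p)]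

/-- **`InertiaLineAt` for the classes of a `p`-new copy of `E[p]`, from (KEY-NEW).** -/
theorem inertiaLineAt_of_newCopy (hp : p.Prime) (hp2 : p ≠ 2)
    (E : WeierstrassCurve ℚ) [E.IsElliptic] {W : WeierstrassCurve ℤ}
    (hW : W.IsIntegralModelOf E) (NC : NewCopy E W M' p)
    {A : ValuationSubring Ω} (hA : A.LiesOverPrime p) (hN : KeyNewAt M' p A)
    (Q : ↥(torsionNat (E.toAffine⁄Ω).Point p)) : InertiaLineAt M' p A (NC.φ Q) := by
  classical
  haveI : Fact p.Prime := ⟨hp⟩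
  obtain ⟨SA, hSa, hSc⟩ := hN
  -- the group `E[p]`
  have hΔΩ : (E.toAffine⁄Ω).Δ ≠ 0 := by
    have h1 : (E.toAffine⁄Ω).Δ = algebraMap ℚ Ω E.Δ := by
      simp [WeierstrassCurve.baseChange, WeierstrassCurve.map_Δ]
    rw [h1]
    exact (map_ne_zero _).2 (E.isUnit_Δ.ne_zero)
  have hcard : Nat.card ↥(torsionNat (E.toAffine⁄Ω).Point p) = p ^ 2 :=
    Fermat.Agent.EC.card_torsion_eq hΔΩ hp hp2
  haveI : Finite ↥(torsionNat (E.toAffine⁄Ω).Point p) :=
    Nat.finite_of_card_ne_zero (by rw [hcard]; exact pow_ne_zero _ hp.ne_zero)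
  have hpG : ∀ P : ↥(torsionNat (E.toAffine⁄Ω).Point p), p • P = 0 := fun P => Subtype.ext P.2
  have hpφ : ∀ P : ↥(torsionNat (E.toAffine⁄Ω).Point p), p • NC.φ P = 0 := fun P => by
    rw [← map_nsmul, hpG, _root_.map_zero]
  -- the Galois action on `E[p]`
  let act : GQ → ↥(torsionNat (E.toAffine⁄Ω).Point p) → ↥(torsionNat (E.toAffine⁄Ω).Point p) :=
    fun σ P => ⟨σ • P.1, smul_mem_torsionNat_point E p σ P.2⟩
  have hact : ∀ σ P, NC.φ (act σ P) = σ • NC.φ P := fun σ P => NC.gal σ P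
  -- the subgroup `T`
  let T : AddSubgroup ↥(torsionNat (E.toAffine⁄Ω).Point p) := SA.comap NC.φ
  have hTmem : ∀ P, P ∈ T ↔ NC.φ P ∈ SA := fun P => Iff.rfl
  have hTtoric : ∀ P ∈ T, ∀ σ ∈ A.inertiaSubgroupIn ℚ, ∀ c : ℕ, CycAct p σ c →
      σ • NC.φ P = c • NC.φ P := fun P hP σ hσ c hc =>
    hSc (NC.φ P) hP (hpφ P) (NC.alpha P) (NC.beta P) σ hσ c hc
  have hdiff : ∀ τ ∈ A.inertiaSubgroupIn ℚ, ∀ P, act τ P - P ∈ T := by
    intro τ hτ P
    rw [hTmem, map_sub, hact]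
    exact hSa (NC.φ P) 1 (by rw [pow_one]; exact hpφ P) τ hτ
  -- `T` is not everything
  have hTtop : T ≠ ⊤ := by
    intro htop
    apply not_forall_inertia_scalar hp hp2 E hW hA
    intro σ hσ c hc P hP
    have h1 := hTtoric ⟨P, hP⟩ (by rw [htop]; exact AddSubgroup.mem_top _) σ hσ c hc
    rw [← hact, ← map_nsmul] at h1
    exact congrArg Subtype.val (NC.inj h1)
  by_cases hall : ∀ τ ∈ A.inertiaSubgroupIn ℚ, act τ Q - Q = 0
  · refine ⟨0, smul_zero _, fun τ hτ => ⟨0, ?_⟩,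
      fun τ hτ c hc => ?_⟩
    · rw [zero_nsmul, add_zero, ← hact, sub_eq_zero.1 (hall τ hτ)]
    · have h1 : τ • (0 : JZero (M' * p)) = 0 :=
        smul_zero (M := GQ) (A := JZero (M' * p)) τ
      rw [h1, smul_zero]
  · simp only [not_forall] at hall
    obtain ⟨τ₀, hτ₀, hd₀⟩ := hall
    set d₀ : ↥(torsionNat (E.toAffine⁄Ω).Point p) := act τ₀ Q - Q with hd₀def
    have hd₀T : d₀ ∈ T := hdiff τ₀ hτ₀ Q
    -- `T` has `p` elements
    have hdvd : Nat.card ↥T ∣ p ^ 2 := by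
      rw [← hcard]
      exact AddSubgroup.card_addSubgroup_dvd_card T
    obtain ⟨k, hk2, hk⟩ := (Nat.dvd_prime_pow hp).1 hdvd
    have hk1 : k = 1 := by
      have hk0 : k ≠ 0 := by
        rintro rfl
        rw [pow_zero] at hk
        have hbot : T = ⊥ := AddSubgroup.card_eq_one.1 hk
        rw [hbot, AddSubgroup.mem_bot] at hd₀T
        exact hd₀ hd₀T
      have hk2' : k ≠ 2 := by
        rintro rfl
        apply hTtop
        exact (AddSubgroup.card_eq_iff_eq_top T).1 (by rw [hk, hcard])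
      omega
    rw [hk1, pow_one] at hk
    have hzm : AddSubgroup.zmultiples (⟨d₀, hd₀T⟩ : ↥T) = ⊤ :=
      zmultiples_eq_top_of_prime_card hk (fun h => hd₀ (congrArg Subtype.val h))
    refine ⟨NC.φ d₀, hpφ d₀, fun τ hτ => ?_, fun τ hτ c hc => hTtoric d₀ hd₀T τ hτ c hc⟩
    have hmem : (⟨act τ Q - Q, hdiff τ hτ Q⟩ : ↥T) ∈ AddSubgroup.zmultiples (⟨d₀, hd₀T⟩ : ↥T) := by
      rw [hzm]
      exact AddSubgroup.mem_top _
    obtain ⟨m, hm⟩ := AddSubgroup.mem_zmultiples_iff.1 hmem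
    have hm' : m • d₀ = act τ Q - Q := by
      have := congrArg (fun t : ↥T => (t : ↥(torsionNat (E.toAffine⁄Ω).Point p))) hm
      simpa using this
    refine ⟨(m % (p : ℤ)).toNat, ?_⟩
    have hnn : 0 ≤ m % (p : ℤ) := Int.emod_nonneg _ (by exact_mod_cast hp.ne_zero)
    have h1 : ((m % (p : ℤ)).toNat : ℤ) = m % (p : ℤ) := Int.toNat_of_nonneg hnn
    have h2 : (m % (p : ℤ)).toNat • d₀ = m • d₀ := by
      rw [← natCast_zsmul, h1]
      conv_rhs => rw [← Int.emod_add_mul_ediv m (p : ℤ)]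
      rw [add_smul, mul_comm, mul_smul, natCast_zsmul, hpG, smul_zero, add_zero]
    rw [← map_nsmul, h2, hm', map_sub, hact]
    abel

end Line

section Core

variable {M' p : ℕ} [NeZero M'] [NeZero p] [NeZero (M' * p)]

/-- **[TOP-L], the core, revised interface.** -/
theorem resOccurs_of_newCopy₂ (hp : p.Prime) (hp2 : p ≠ 2) (hN : KeyNew M' p)
    (hK : KeyPeu₂ M' p)
    (E : WeierstrassCurve ℚ) [E.IsElliptic] {W : WeierstrassCurve ℤ}
    (hW : W.IsIntegralModelOf E) (hirr : GaloisRepIsIrreducible (K := Ω) ℚ E p)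
    (NC : NewCopy E W M' p)
    (hpeu : ∀ A : ValuationSubring Ω, A.LiesOverPrime p → ∀ σ ∈ A.inertiaSubgroupIn ℚ,
      ∀ Q : (E.toAffine⁄Ω).Point, p • Q = 0 → σ • Q ≠ Q → ∀ ζ : Ω, IsPrimitiveRoot ζ p →
        ∃ r : Ω, r ∈ A ∧ (∀ τ : GQ, τ • Q = Q → τ r = r) ∧ σ r - r ≠ 0 ∧
          (ζ - 1) / (σ r - r) ∈ A) :
    ResOccurs M' p (badSet W p (M' * p)) (fun ℓ => W.apOfModel ℓ) := by
  classical
  haveI : Fact p.Prime := ⟨hp⟩
  obtain ⟨A, hA'⟩ := Fermat.Agent.S54.exists_valuationSubring_liesOver (L := Ω) hp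
  have hA : A.LiesOverPrime p := hA'
  have hKA := hK A hA
  have hNA := hN A hA
  obtain ⟨ζ, hζ⟩ := Fermat.Agent.CFT.S14.exists_primitiveRoot_Qbar p
  -- a non-Eisenstein prime
  obtain ⟨ℓ₀, hℓ₀, hℓ₀S, hℓ₀p, -, hℓ₀good, hℓ₀a⟩ :=
    exists_prime_not_eisenstein E hW hp hp2 hirr 1 one_pos (M' * p).primeFactors
  have hS : ∀ ℓ : ℕ, ℓ.Prime → ℓ ∣ M' * p → ℓ ∈ badSet W p (M' * p) :=
    fun ℓ _ h => Or.inr (Or.inl h)
  have hnE : ∃ ℓ : ℕ, ℓ.Prime ∧ ℓ ∉ badSet W p (M' * p) ∧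
      ¬ (W.apOfModel ℓ ≡ (ℓ : ℤ) + 1 [ZMOD (p : ℤ)]) := by
    refine ⟨ℓ₀, hℓ₀, ?_, ?_⟩
    · rintro (h | h | h)
      · exact h hℓ₀good
      · exact hℓ₀S (Nat.mem_primeFactors.mpr ⟨hℓ₀, h, NeZero.ne _⟩)
      · exact hℓ₀p h
    · intro h
      apply hℓ₀a
      have := (Int.modEq_iff_dvd.mp h)
      rwa [dvd_sub_comm] at this
  -- (KEY-PEU) on each class `φ Q`
  have hQ : ∀ Q : ↥(torsionNat (E.toAffine⁄Ω).Point p),
      (∀ σ ∈ A.inertiaSubgroupIn ℚ, ∀ c : ℕ, CycAct p σ c → σ • NC.φ Q = c • NC.φ Q) ∨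
        ResOccurs M' p (badSet W p (M' * p)) (fun ℓ => W.apOfModel ℓ) := by
    intro Q
    refine hKA _ _ hS hnE (NC.φ Q) ?_ (NC.alpha Q) (NC.beta Q)
      (fun ℓ hℓ hℓS => NC.hecke ℓ hℓ hℓS Q) ?_
      (inertiaLineAt_of_newCopy hp hp2 E hW NC hA hNA Q)
    · have h0 : p • Q = 0 := Subtype.ext Q.2
      rw [← map_nsmul, h0, _root_.map_zero]
    · intro τ hτ _ hne
      have hneQ : τ • Q.1 ≠ Q.1 := by
        intro h
        apply hne
        rw [← NC.gal]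
        congr 1
        exact Subtype.ext h
      obtain ⟨r, hrA, hfix, h0, hmem⟩ := hpeu A hA τ hτ Q.1 Q.2 hneQ ζ hζ
      refine ⟨r, hrA, ?_, h0, ζ, hζ, hmem⟩
      intro σ hσ
      apply hfix
      have h1 := NC.gal σ Q
      rw [hσ] at h1
      exact congrArg Subtype.val (NC.inj h1)
  by_contra hno
  apply not_forall_inertia_scalar hp hp2 E hW hA
  intro σ hσ c hc Q hQ0
  rcases hQ ⟨Q, hQ0⟩ with h | h
  · have h1 := h σ hσ c hc
    rw [← NC.gal, ← map_nsmul] at h1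
    exact congrArg Subtype.val (NC.inj h1)
  · exact absurd h hno

end Core

end Fermat.Agent.MP
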