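/-
MP40 (S44/S40) — helper4 — **[TOP-L], the two closers, revised interface**: the frozen statements of
S44 and S40 from lead's `TopGStatement` ([TOP-G]), NP33's `KeyNewStatement` ((KEY-NEW)) and the
revised (KEY-PEU) `KeyPeuFrom₂` (`MP/IFACE2_helper4_Defs`), with (peu) supplied by
[ECPEU]/[ECPEU-MULT] (`ecpeu_frey`, `ecpeu_good_all`).
-/
import Mathlib
import Fermat.Agent.MP.TOPL2_helper4_Core
import Fermat.Agent.MP.TOPL_helper4_Closers

set_option autoImplicit false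
set_option linter.unusedSectionVars false
set_option linter.unusedVariables false
set_option linter.style.haveILetI false

open AlgebraicCurve ModularCurve WeierstrassCurve WeierstrassCurve.Affine
open WeierstrassCurve.Affine.Point

open scoped WeierstrassCurve.Affine

namespace Fermat.Agent.MP

open Fermat.Agent.S35 Fermat.Agent.NP Fermat.Agent.GR

/-- `Ω = AlgebraicClosure ℚ`. -/
local notation "Ω" => AlgebraicClosure ℚ

/-- the absolute Galois group. -/
local notation "GQ" => (AlgebraicClosure ℚ ≃ₐ[ℚ] AlgebraicClosure ℚ)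

/-- **S44 from [TOP-G], (KEY-NEW) and the revised (KEY-PEU)**: the frozen statement of S44. -/
theorem s44_of_topG_keyPeu₂ (hG : TopGStatement) (hN : KeyNewStatement) (hK : KeyPeuFrom₂ 5)
    (P : FreyPackage) {N : ℕ}
    (hcond : P.IsConductorLevel N) (hpN : P.p ∣ N)
    (hirr : GaloisRepIsIrreducible (K := AlgebraicClosure ℚ) ℚ P.freyCurve P.p)
    (hmod : P.ModularRepOfLevel N) :
    ∃ M : ℕ, M ∣ N ∧ ¬ P.p ∣ M ∧ P.ModularRepOfLevel M := by
  classical
  obtain ⟨M', hM'⟩ := hpN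
  have hN' : N = M' * P.p := by rw [hM', mul_comm]
  subst hN'
  have hp := P.pp
  have hp2 : P.p ≠ 2 := by have := P.hp5; omega
  have hpos : 0 < M' * P.p := hcond.pos
  have hM'0 : M' ≠ 0 := fun h => by rw [h, zero_mul] at hpos; exact lt_irrefl _ hpos
  haveI : NeZero M' := ⟨hM'0⟩
  haveI : NeZero P.p := ⟨hp.ne_zero⟩
  haveI : NeZero (M' * P.p) := ⟨hpos.ne'⟩
  haveI : P.freyCurve.IsElliptic := freyCurve_isElliptic P
  have hpM' : ¬ P.p ∣ M' := by
    intro h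
    apply hcond.sq_not_dvd hp
    rw [pow_two]
    exact Nat.mul_dvd_mul h dvd_rfl
  obtain ⟨f, W, 𝔪, hf, hW, hmax, hp𝔪, hcong⟩ := hmod
  have hres : W.IsResiduallyModularOfLevel P.p (M' * P.p) := ⟨f, 𝔪, hf, hmax, hp𝔪, hcong⟩
  have key : ResOccurs M' P.p (badSet W P.p (M' * P.p)) (fun ℓ => W.apOfModel ℓ) := by
    rcases hG P.freyCurve hW hp hp2 hpM' hirr hres with h | ⟨⟨NC⟩⟩
    · exact h
    · refine resOccurs_of_newCopy₂ hp hp2 (hN M' P.p hp hp2 hpM') (hK M' P.p hp P.hp5 hpM')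
        P.freyCurve hW hirr NC ?_
      intro A hA σ hσ Q hQ hne ζ hζ
      exact ecpeu_frey P A hA hσ Q hQ hne hζ
  obtain ⟨g, 𝔪', hg, hmax', hp', h⟩ := key
  refine ⟨M', Dvd.intro _ rfl, hpM', g, W, 𝔪', hg, hW, hmax', hp', ?_⟩
  intro ℓ hℓ hgood hℓM' hℓp
  refine h ℓ hℓ ?_
  rintro (h1 | h1 | h1)
  · exact h1 hgood
  · rcases (Nat.Prime.dvd_mul hℓ).mp h1 with h2 | h2
    · exact hℓM' h2
    · exact hℓp ((Nat.prime_dvd_prime_iff_eq hℓ hp).mp h2)
  · exact hℓp h1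

/-- **S40 from [TOP-G], (KEY-NEW) and the revised (KEY-PEU)** (at all primes `p ≥ 3`): the frozen
statement of S40. -/
theorem s40_of_topG_keyPeu₂ (hG : TopGStatement) (hN : KeyNewStatement) (hK : KeyPeuFrom₂ 3)
    (W : WeierstrassCurve ℤ) (hΔ : W.Δ ≠ 0)
    {p : ℕ} (hp : p.Prime) (hp2 : p ≠ 2)
    (hgood : W.IsGoodPrimeFor p)
    (hirr : W.ModRepIsIrreducible p)
    {M : ℕ} (hM : 0 < M) (hpM : p ∣ M) (hp2M : ¬ p ^ 2 ∣ M)
    (hmod : W.IsResiduallyModularOfLevel p M) :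
    W.IsResiduallyModularOfLevel p (M / p) := by
  classical
  obtain ⟨M', rfl⟩ := hpM
  have hdiv : p * M' / p = M' := Nat.mul_div_cancel_left M' hp.pos
  rw [hdiv]
  have hcomm : p * M' = M' * p := mul_comm _ _
  rw [hcomm] at hmod hM hp2M
  have hM'0 : M' ≠ 0 := fun h => by rw [h, zero_mul] at hM; exact lt_irrefl _ hM
  haveI : NeZero M' := ⟨hM'0⟩
  haveI : NeZero p := ⟨hp.ne_zero⟩
  haveI : NeZero (M' * p) := ⟨hM.ne'⟩
  have hp3 : 3 ≤ p := by
    have := hp.two_le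
    omega
  have hpM' : ¬ p ∣ M' := by
    intro h
    apply hp2M
    rw [pow_two]
    exact Nat.mul_dvd_mul h dvd_rfl
  set E : WeierstrassCurve ℚ := W.map (Int.castRingHom ℚ) with hE
  haveI : E.IsElliptic := by
    refine ⟨isUnit_iff_ne_zero.mpr ?_⟩
    rw [hE, WeierstrassCurve.map_Δ]
    simpa using hΔ
  have hW : W.IsIntegralModelOf E := ⟨1, one_smul _ _⟩
  have key : ResOccurs M' p (badSet W p (M' * p)) (fun ℓ => W.apOfModel ℓ) := by
    rcases hG E hW hp hp2 hpM' hirr hmod with h | ⟨⟨NC⟩⟩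
    · exact h
    · refine resOccurs_of_newCopy₂ hp hp2 (hN M' p hp hp2 hpM') (hK M' p hp hp3 hpM')
        E hW hirr NC ?_
      intro A hA σ hσ Q hQ hne ζ hζ
      exact ecpeu_good_all W hp hp2 hgood A hA hσ Q hQ hne hζ
  rw [isResiduallyModularOfLevel_iff]
  refine key.mono_primes ?_
  rintro ℓ hℓ (h1 | h1 | h1)
  · exact Or.inl h1
  · rcases (Nat.Prime.dvd_mul hℓ).mp h1 with h2 | h2
    · exact Or.inr (Or.inl h2)
    · exact Or.inr (Or.inr ((Nat.prime_dvd_prime_iff_eq hℓ hp).mp h2))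
  · exact Or.inr (Or.inr h1)

end Fermat.Agent.MP
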